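import Fermat.Prelude.Def_GroupCohomology_ContinuousUnramified
import Fermat.Agent.Galois.QbarInstances

/-!
# Kummer extensions unramified outside `S`

Roots of order a power of `p` of `S`-units stay unramified outside `S` when `p ∈ S`.
-/

set_option autoImplicit false

noncomputable section

namespace Fermat.Agent.PoitouTate

local notation "Qb" => AlgebraicClosure ℚ
local notation "GQ" => (AlgebraicClosure ℚ ≃ₐ[ℚ] AlgebraicClosure ℚ)

/-- Inertia moves elements of the valuation subring only inside the maximal ideal. -/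
theorem inertia_sub_mem_nonunits {A : ValuationSubring Qb} {σ : GQ}
    (hσ : σ ∈ A.inertiaSubgroupIn ℚ) {a : Qb} (ha : a ∈ A) : σ a - a ∈ A.nonunits := by
  obtain ⟨τ, hτ, rfl⟩ := hσ
  have h1 : τ • IsLocalRing.residue A ⟨a, ha⟩ = IsLocalRing.residue A ⟨a, ha⟩ := by
    have := congrArg (fun e : RingAut (IsLocalRing.ResidueField A) => e (IsLocalRing.residue A ⟨a, ha⟩))
      (MonoidHom.mem_ker.mp hτ)
    exact this
  rw [← IsLocalRing.ResidueField.residue_smul, ← sub_eq_zero, ← map_sub,
    IsLocalRing.residue_eq_zero_iff, ← ValuationSubring.coe_mem_nonunits_iff] at h1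
  exact h1

theorem nonunits_iff {A : ValuationSubring Qb} {a : Qb} :
    a ∈ A.nonunits ↔ A.valuation a < 1 := Iff.rfl

/-- A `p`-power root of unity congruent to `1` modulo a place away from `p` is `1`. -/
theorem eq_one_of_pow_prime_pow {p q : ℕ} (hp : p.Prime) (hq : q.Prime) (hpq : p ≠ q)
    {A : ValuationSubring Qb} (hA : A.LiesOverPrime q) :
    ∀ (j : ℕ) {z : Qb}, z ^ p ^ j = 1 → z - 1 ∈ A.nonunits → z = 1 := by
  intro j
  induction j with
  | zero => intro z hz _; simpa using hz
  | succ j ih =>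
    intro z hz h1
    -- `z` lies in `A`
    have hzA : z ∈ A := by
      have := (A.mem_of_valuation_le_one _ (le_of_lt (nonunits_iff.mp h1)))
      simpa using add_mem this (one_mem A.toSubring)
    -- first, `z ^ p` is `1`
    have hzp : z ^ p = 1 := by
      refine ih ?_ ?_
      · rw [← pow_mul, ← pow_succ']; exact hz
      · have hsum : ∑ i ∈ Finset.range p, z ^ i ∈ A := sum_mem fun i _ => pow_mem hzA i
        rw [nonunits_iff, ← geom_sum_mul, map_mul]
        exact mul_lt_one_of_nonneg_of_lt_one_right ((A.valuation_le_one_iff _).mpr hsum)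
          zero_le' (nonunits_iff.mp h1)
    by_contra hne
    have hgs : ∑ i ∈ Finset.range p, z ^ i = 0 := by
      have := geom_sum_mul z p
      rw [hzp, sub_self, mul_eq_zero] at this
      exact this.resolve_right (sub_ne_zero.mpr hne)
    -- so `p = ∑ (1 - z ^ i)` is a nonunit
    have hpmem : A.valuation (p : Qb) < 1 := by
      have heq : (p : Qb) = -∑ i ∈ Finset.range p, (z ^ i - 1) := by
        rw [Finset.sum_sub_distrib, hgs]; simp
      rw [heq, Valuation.map_neg]
      refine Valuation.map_sum_lt _ one_ne_zero fun i _ => ?_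
      rw [← geom_sum_mul, map_mul]
      exact mul_lt_one_of_nonneg_of_lt_one_right
        ((A.valuation_le_one_iff _).mpr (sum_mem fun k _ => pow_mem hzA k))
        zero_le' (nonunits_iff.mp h1)
    have hqmem : A.valuation (q : Qb) < 1 := nonunits_iff.mp hA
    -- Bezout
    have hcop : Nat.gcd p q = 1 := (Nat.coprime_primes hp hq).mpr hpq
    have hbez := Nat.gcd_eq_gcd_ab p q
    rw [hcop] at hbez
    have hbez' : (1 : Qb) = (p : Qb) * (Nat.gcdA p q : Qb) + (q : Qb) * (Nat.gcdB p q : Qb) := by
      exact_mod_cast hbez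
    have hint : ∀ n : ℤ, A.valuation (n : Qb) ≤ 1 := fun n =>
      (A.valuation_le_one_iff _).mpr (intCast_mem A n)
    have hlt : A.valuation (1 : Qb) < 1 := by
      rw [hbez']
      refine Valuation.map_add_lt _ ?_ ?_
      · rw [map_mul]; exact mul_lt_one_of_nonneg_of_lt_one_left zero_le' hpmem (hint _)
      · rw [map_mul]; exact mul_lt_one_of_nonneg_of_lt_one_left zero_le' hqmem (hint _)
    exact absurd hlt (by simp)

variable {S : Finset Nat.Primes}

/-- An automorphism preserving `A` and moving its elements only inside the maximal ideal is in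
the inertia group. -/
theorem mem_inertiaSubgroupIn_of_forall {A : ValuationSubring Qb} {σ : GQ}
    (hσA : σ ∈ A.decompositionSubgroup ℚ)
    (h : ∀ a ∈ A, σ a - a ∈ A.nonunits) : σ ∈ A.inertiaSubgroupIn ℚ := by
  refine ⟨⟨σ, hσA⟩, ?_, rfl⟩
  rw [SetLike.mem_coe, ValuationSubring.inertiaSubgroup, MonoidHom.mem_ker]
  refine RingEquiv.ext fun r => ?_
  show (⟨σ, hσA⟩ : A.decompositionSubgroup ℚ) • r = r
  obtain ⟨a, rfl⟩ := IsLocalRing.residue_surjective r
  rw [← IsLocalRing.ResidueField.residue_smul, ← sub_eq_zero, ← map_sub,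
    IsLocalRing.residue_eq_zero_iff, ← ValuationSubring.coe_mem_nonunits_iff]
  exact h a.1 a.2

theorem inertiaSubgroupIn_le_decompositionSubgroup (A : ValuationSubring Qb) :
    A.inertiaSubgroupIn ℚ ≤ A.decompositionSubgroup ℚ := by
  rintro _ ⟨τ, _, rfl⟩
  exact τ.2

open scoped Pointwise in
theorem mem_smul_nonunits {A : ValuationSubring Qb} (τ : GQ) {x : Qb} :
    x ∈ (τ • A).nonunits ↔ τ⁻¹ x ∈ A.nonunits := by
  rw [ValuationSubring.mem_nonunits_iff_or, ValuationSubring.mem_nonunits_iff_or,
    ValuationSubring.mem_pointwise_smul_iff_inv_smul_mem, AlgEquiv.smul_def, map_inv₀,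
    EmbeddingLike.map_eq_zero_iff]

open scoped Pointwise in
/-- Conjugation carries inertia groups to inertia groups. -/
theorem conj_mem_inertiaSubgroupIn {A : ValuationSubring Qb} {σ : GQ} (τ : GQ)
    (hσ : σ ∈ A.inertiaSubgroupIn ℚ) :
    τ * σ * τ⁻¹ ∈ (τ • A).inertiaSubgroupIn ℚ := by
  refine mem_inertiaSubgroupIn_of_forall ?_ ?_
  · have h1 : σ • A = A :=
      MulAction.mem_stabilizer_iff.mp (inertiaSubgroupIn_le_decompositionSubgroup A hσ)
    rw [ValuationSubring.decompositionSubgroup, MulAction.mem_stabilizer_iff, mul_smul, mul_smul,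
      inv_smul_smul, h1]
  · intro a ha
    rw [mem_smul_nonunits]
    have ha' : τ⁻¹ a ∈ A := by
      rw [← ValuationSubring.mem_carrier] at ha
      exact ValuationSubring.mem_pointwise_smul_iff_inv_smul_mem.mp ha
    have := inertia_sub_mem_nonunits hσ ha'
    rw [map_sub]
    simpa using this

/-- Roots of `p`-power order of elements which are, at every place outside `S`, units up to
`p`-power powers, generate fields unramified outside `S`. -/
theorem isUnramifiedOutside_sup_adjoin {p : ℕ} [Fact p.Prime]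
    (hpS : ExtCitation.pPrime p ∈ S) {L : IntermediateField ℚ Qb}
    (hL : L.IsUnramifiedOutside S) {y : Qb} (hy : y ≠ 0) (j : ℕ) (hyL : y ^ p ^ j ∈ L)
    (hval : ∀ q : Nat.Primes, q ∉ S → ∀ A : ValuationSubring Qb, A.LiesOverPrime (q : ℕ) →
      ∃ c ∈ L, c ≠ 0 ∧ A.valuation (y ^ p ^ j) = A.valuation (c ^ p ^ j)) :
    (L ⊔ IntermediateField.adjoin ℚ {y}).IsUnramifiedOutside S := by
  haveI := hL.1
  haveI : FiniteDimensional ℚ (IntermediateField.adjoin ℚ ({y} : Set Qb)) :=
    IntermediateField.adjoin.finiteDimensional (Algebra.IsIntegral.isIntegral y)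
  refine ⟨IntermediateField.finiteDimensional_sup _ _, fun q hq A hA σ hσ => ?_⟩
  have hp : p.Prime := Fact.out
  have hσL : ∀ x ∈ L, σ x = x := fun x hx =>
    (IntermediateField.mem_fixingSubgroup_iff _ _).mp (hL.2 q hq A hA hσ) x hx
  obtain ⟨c, hcL, hc0, hv⟩ := hval q hq A hA
  -- `u = y / c` is a unit of `A`
  set u : Qb := y / c with hu
  have hu0 : u ≠ 0 := div_ne_zero hy hc0
  have hu1 : A.valuation u = 1 := by
    have h1 : A.valuation u ^ p ^ j = 1 := by
      rw [← map_pow, hu, div_pow, map_div₀, hv, div_self]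
      exact (Valuation.ne_zero_iff _).mpr (pow_ne_zero _ hc0)
    exact pow_eq_one_iff_of_nonneg zero_le' (pow_ne_zero _ hp.ne_zero) |>.mp h1
  have huA : u ∈ A := (A.valuation_le_one_iff _).mp hu1.le
  -- inertia moves it by a root of unity congruent to `1`
  have hz1 : σ u / u - 1 ∈ A.nonunits := by
    rw [nonunits_iff, div_sub_one hu0, map_div₀, hu1, div_one]
    exact nonunits_iff.mp (inertia_sub_mem_nonunits hσ huA)
  have hzpow : (σ u / u) ^ p ^ j = 1 := by
    have : σ (u ^ p ^ j) = u ^ p ^ j := hσL _ (by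
      rw [hu, div_pow]; exact L.div_mem hyL (pow_mem hcL _))
    rw [div_pow, ← map_pow, this, div_self (pow_ne_zero _ hu0)]
  have hσu : σ u = u := by
    have := eq_one_of_pow_prime_pow hp q.2
      (fun h => hq (by
        have : q = ExtCitation.pPrime p := Subtype.ext h.symm
        rwa [this])) hA j hzpow hz1
    exact (div_eq_one_iff_eq hu0).mp this
  have hσy : σ y = y := by
    have : y = u * c := by rw [hu, div_mul_cancel₀ _ hc0]
    rw [this, map_mul, hσu, hσL c hcL]
  rw [IntermediateField.fixingSubgroup_sup]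
  refine ⟨hL.2 q hq A hA hσ, ?_⟩
  show σ ∈ (IntermediateField.adjoin ℚ {y}).fixingSubgroup
  rw [IntermediateField.mem_fixingSubgroup_iff]
  intro x hx
  induction hx using IntermediateField.adjoin_induction with
  | mem x hx => rw [Set.mem_singleton_iff.mp hx]; exact hσy
  | algebraMap r => exact σ.commutes r
  | add a b _ _ ha hb => rw [map_add, ha, hb]
  | inv a _ ha => rw [map_inv₀, ha]
  | mul a b _ _ ha hb => rw [map_mul, ha, hb]

/-- `p`-power roots of `S`-units generate fields unramified outside `S`. -/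
theorem isUnramifiedOutside_sup_adjoin_of_unit {p : ℕ} [Fact p.Prime]
    (hpS : ExtCitation.pPrime p ∈ S) {L : IntermediateField ℚ Qb}
    (hL : L.IsUnramifiedOutside S) {y : Qb} (hy : y ≠ 0) (j : ℕ) (hyL : y ^ p ^ j ∈ L)
    (hval : ∀ q : Nat.Primes, q ∉ S → ∀ A : ValuationSubring Qb, A.LiesOverPrime (q : ℕ) →
      A.valuation (y ^ p ^ j) = 1) :
    (L ⊔ IntermediateField.adjoin ℚ {y}).IsUnramifiedOutside S :=
  isUnramifiedOutside_sup_adjoin hpS hL hy j hyL fun q hq A hA =>
    ⟨1, one_mem L, one_ne_zero, by rw [hval q hq A hA, one_pow, map_one]⟩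

open scoped Pointwise in
theorem liesOverPrime_smul {A : ValuationSubring Qb} {q : ℕ} (τ : GQ) (hA : A.LiesOverPrime q) :
    (τ • A).LiesOverPrime q := by
  show (q : Qb) ∈ (τ • A).nonunits
  rw [mem_smul_nonunits, map_natCast]
  exact hA

open scoped Pointwise in
/-- The normal closure of a field unramified outside `S` is unramified outside `S`. -/
theorem isUnramifiedOutside_normalClosure {F : IntermediateField ℚ Qb}
    (hF : F.IsUnramifiedOutside S) :
    (IntermediateField.normalClosure ℚ F Qb).IsUnramifiedOutside S := by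
  haveI := hF.1
  refine ⟨inferInstance, fun q hq A hA σ hσ => ?_⟩
  rw [IntermediateField.mem_fixingSubgroup_iff]
  intro x hx
  have hle : IntermediateField.normalClosure ℚ F Qb ≤
      IntermediateField.fixedField (Subgroup.zpowers σ) := by
    refine normalClosure_le_iff.mpr fun g => ?_
    obtain ⟨τ, hτ⟩ : ∃ τ : GQ, ∀ y : F, τ (y : Qb) = g y :=
      ⟨AlgEquiv.ofBijective (g.liftNormal Qb) (AlgHom.normal_bijective ℚ Qb Qb _),
        fun y => g.liftNormal_commutes Qb y⟩
    rintro _ ⟨y, rfl⟩
    rw [IntermediateField.mem_fixedField_iff]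
    intro s hs
    have hσy : σ (g y) = g y := by
      have h1 := hF.2 q hq (τ⁻¹ • A) (liesOverPrime_smul _ hA)
        (conj_mem_inertiaSubgroupIn τ⁻¹ hσ)
      have h2 := (IntermediateField.mem_fixingSubgroup_iff _ _).mp h1 y y.2
      rw [inv_inv, AlgEquiv.mul_apply, AlgEquiv.mul_apply, hτ] at h2
      have h3 := congrArg τ h2
      rw [← AlgEquiv.mul_apply, mul_inv_cancel, AlgEquiv.one_apply, hτ] at h3
      exact h3
    obtain ⟨n, rfl⟩ := Subgroup.mem_zpowers_iff.mp hs
    have : σ ∈ MulAction.stabilizer GQ (g y) := hσy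
    exact (MulAction.stabilizer GQ (g y)).zpow_mem this n
  exact (IntermediateField.mem_fixedField_iff _ _).mp (hle hx) σ (Subgroup.mem_zpowers σ)

/-- Finitely many fields unramified outside `S` lie in a normal one. -/
theorem exists_normal_isUnramifiedOutside_ge {F : IntermediateField ℚ Qb}
    (hF : F.IsUnramifiedOutside S) :
    ∃ L : IntermediateField ℚ Qb, L.IsUnramifiedOutside S ∧ Normal ℚ L ∧ F ≤ L :=
  ⟨IntermediateField.normalClosure ℚ F Qb, isUnramifiedOutside_normalClosure hF, normalClosure.normal ℚ F Qb,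
    IntermediateField.le_normalClosure F⟩

end Fermat.Agent.PoitouTate
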