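import Fermat.Agent.PoitouTate.GlobalClassFinite
import Fermat.Agent.PoitouTate.GlobalKummer

/-!
# Principalisation by roots of `p`-power order

When `p ∈ T`, the valuations outside `T` of an idele become, after a multiple prime to `p` and a
finite extension unramified outside `T`, those of a principal idele.
-/

set_option autoImplicit false

noncomputable section

open scoped Pointwise

namespace Fermat.Agent.PoitouTate

local notation "Qb" => AlgebraicClosure ℚ

variable {T : Finset Nat.Primes}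

theorem liesOverPrime_padicPlace (q : Nat.Primes) :
    (padicPlace (q : ℕ)).LiesOverPrime (q : ℕ) := by
  show ((q : ℕ) : Qb) ∈ (padicPlace (q : ℕ)).nonunits
  rw [ValuationSubring.mem_nonunits_iff_or]
  refine Or.inr fun h => ?_
  rw [mem_padicPlace_iff, map_inv₀, map_natCast,
    ← map_natCast (algebraMap ℚ_[(q : ℕ)] (PadicAlgCl (q : ℕ))), nnnorm_inv, nnnorm_algebraMap',
    ← NNReal.coe_le_coe, NNReal.coe_inv, coe_nnnorm, Padic.norm_p, inv_inv, NNReal.coe_one] at h
  exact absurd h (not_le.mpr (by exact_mod_cast q.2.one_lt))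

/-- Places over `q` are read off through an automorphism from the fixed embedding. -/
theorem exists_place_eq_norm (q : Nat.Primes) {A : ValuationSubring Qb}
    (hA : A.LiesOverPrime (q : ℕ)) :
    ∃ g : GQ, ∀ a b : Qb, a ≠ 0 → b ≠ 0 →
      ‖padicEmbedding (q : ℕ) (g a)‖ = ‖padicEmbedding (q : ℕ) (g b)‖ →
        A.valuation a = A.valuation b := by
  obtain ⟨g, hg⟩ := Galois.exists_smul_eq_of_liesOverPrime q.2 hA (liesOverPrime_padicPlace q)
  refine ⟨g, fun a b ha hb hab => ?_⟩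
  have hmem : ∀ z : Qb, ‖padicEmbedding (q : ℕ) (g z)‖ ≤ 1 → z ∈ A := by
    intro z hz
    have h1 : g z ∈ padicPlace (q : ℕ) := (mem_padicPlace_iff _).mpr (by exact_mod_cast hz)
    rw [← hg] at h1
    exact (ValuationSubring.smul_mem_pointwise_smul_iff (g := g) (S := A) (x := z)).mp h1
  have hle : ∀ a b : Qb, b ≠ 0 →
      ‖padicEmbedding (q : ℕ) (g a)‖ = ‖padicEmbedding (q : ℕ) (g b)‖ →
        A.valuation a ≤ A.valuation b := by
    intro a b hb hab
    have h1 : a / b ∈ A := hmem _ (by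
      rw [map_div₀, map_div₀, norm_div, hab, div_self]
      simpa using hb)
    have h2 := (A.valuation_le_one_iff _).mpr h1
    rwa [map_div₀, div_le_one₀ (zero_lt_iff.mpr ((Valuation.ne_zero_iff _).mpr hb))] at h2
  exact le_antisymm (hle a b hb hab) (hle b a ha hab.symm)

/-- Normal levels unramified outside `T`. -/
theorem isLvl_of_normal {L : IntermediateField ℚ Qb} (hL : L.IsUnramifiedOutside T)
    (hn : Normal ℚ L) : IsLvl T L :=
  ⟨hL, (InfiniteGalois.normal_iff_isGalois L).mpr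
    (IsGalois.mk (to_isSeparable := inferInstance) (to_normal := hn))⟩

/-- The valuations of a principal idele are determined by the element. -/
theorem IsPrincipalOf.ord_unique {f : Amb T} {x : Qb} (h : IsPrincipalOf f x)
    (q : {q : Nat.Primes // q ∉ T}) (g : GQ) {k : ℤ}
    (hk : ‖padicEmbedding (q.1 : ℕ) (g x)‖ = ((q.1 : ℕ) : ℝ) ^ (-k)) : f.ord q g = k := by
  have := (zpow_right_inj₀ (by exact_mod_cast q.1.2.pos : (0 : ℝ) < ((q.1 : ℕ) : ℝ))
    (by exact_mod_cast q.1.2.ne_one)).mp ((h.ord_eq q g).symm.trans hk)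
  omega

variable {p : ℕ} [Fact p.Prime]

/-- Principalisation of the valuations of one idele. -/
theorem exists_principalize (hpT : ExtCitation.pPrime p ∈ T) (hprin : HasPrincipal T)
    {L : IntermediateField ℚ Qb} (hL : IsLvl T L) (f : J T)
    (hf : ∀ s ∈ L.fixingSubgroup, s • f = f) :
    ∃ m : ℕ, ¬ p ∣ m ∧ ∃ L', L ≤ L' ∧ IsLvl T L' ∧ ∃ (x : Qb) (d : J T), x ∈ L' ∧
      IsPrincipalOf (d : Amb T) x ∧ (∀ s ∈ L'.fixingSubgroup, s • d = d) ∧
      ∀ q g, m • (f : Amb T).ord q g = (d : Amb T).ord q g := by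
  have hp : p.Prime := Fact.out
  obtain ⟨n, hn, x, d, hxL, hd, -, hord⟩ := exists_nsmul_ord_eq hprin hL f hf
  obtain ⟨j, m, hm, rfl⟩ := Nat.exists_eq_pow_mul_and_not_dvd hn.ne' p hp.ne_one
  obtain ⟨y, hy⟩ := IsAlgClosed.exists_pow_nat_eq x (pow_pos hp.pos j)
  have hy0 : y ≠ 0 := by
    rintro rfl
    rw [zero_pow (pow_ne_zero _ hp.ne_zero)] at hy
    exact hd.ne_zero hy.symm
  have hunr : (L ⊔ IntermediateField.adjoin ℚ {y}).IsUnramifiedOutside T := by
    refine isUnramifiedOutside_sup_adjoin hpT hL.unramified hy0 j (hy ▸ hxL) fun q hq A hA => ?_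
    obtain ⟨g, hg⟩ := exists_place_eq_norm q hA
    set k : ℤ := m • (f : Amb T).ord ⟨q, hq⟩ g with hk
    have hq0 : ((q : ℕ) : Qb) ≠ 0 := Nat.cast_ne_zero.mpr q.2.ne_zero
    refine ⟨((q : ℕ) : Qb) ^ k, zpow_mem (IntermediateField.natCast_mem L _) _, zpow_ne_zero _ hq0,
      hg _ _ (pow_ne_zero _ hy0) (pow_ne_zero _ (zpow_ne_zero _ hq0)) ?_⟩
    rw [hy, hd.ord_eq ⟨q, hq⟩ g, ← hord ⟨q, hq⟩ g, map_pow, map_pow, map_zpow₀, map_zpow₀,
      map_natCast, map_natCast, ← map_natCast (algebraMap ℚ_[(q : ℕ)] (PadicAlgCl (q : ℕ))),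
      norm_pow, norm_zpow, norm_algebraMap', Padic.norm_p, inv_zpow, ← zpow_neg, ← zpow_natCast,
      ← zpow_mul, hk]
    congr 1
    simp only [nsmul_eq_mul, Nat.cast_mul, Nat.cast_pow]
    ring
  obtain ⟨L', hL', hn', hle⟩ := exists_normal_isUnramifiedOutside_ge hunr
  have hyL' : y ∈ L' :=
    hle ((le_sup_right : _ ≤ L ⊔ _) (IntermediateField.mem_adjoin_simple_self ℚ y))
  have hlvl : IsLvl T L' := isLvl_of_normal hL' hn'
  obtain ⟨d', hd', hd'L⟩ := hprin L' hlvl y hyL' hy0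
  refine ⟨m, hm, L', le_sup_left.trans hle, hlvl, y, d', hyL', hd', hd'L, fun q g => ?_⟩
  have h1 : (d : Amb T).ord q g = (p ^ j : ℕ) • (d' : Amb T).ord q g :=
    hd.ord_unique q g (by
      rw [← hy, map_pow, map_pow, norm_pow, hd'.ord_eq, ← zpow_natCast, ← zpow_mul, nsmul_eq_mul]
      congr 1
      push_cast
      ring)
  have h2 := hord q g
  rw [h1, mul_smul] at h2
  exact nsmul_right_injective (pow_ne_zero _ hp.ne_zero) h2

/-- Principalisation of finitely many ideles at once. -/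
theorem exists_principalize_family (hpT : ExtCitation.pPrime p ∈ T) (hprin : HasPrincipal T)
    {L : IntermediateField ℚ Qb} (hL : IsLvl T L) {ι : Type*} [Finite ι] (f : ι → J T)
    (hf : ∀ i, ∀ s ∈ L.fixingSubgroup, s • f i = f i) :
    ∃ m : ℕ, ¬ p ∣ m ∧ ∃ L', L ≤ L' ∧ IsLvl T L' ∧ ∀ i, ∃ (x : Qb) (d : J T), x ∈ L' ∧
      IsPrincipalOf (d : Amb T) x ∧ (∀ s ∈ L'.fixingSubgroup, s • d = d) ∧
      ∀ q g, m • (f i : Amb T).ord q g = (d : Amb T).ord q g := by
  classical
  haveI := Fintype.ofFinite ι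
  have hp : p.Prime := Fact.out
  choose m hm K hK hKl x d hx hd hdK hord using
    fun i => exists_principalize hpT hprin hL (f i) (hf i)
  have hsup : IsLvl T (L ⊔ Finset.univ.sup K) := by
    refine hL.sup ?_
    exact Finset.sup_induction (isLvl_bot T) (fun _ ha _ hb => ha.sup hb) fun i _ => hKl i
  refine ⟨∏ i, m i, ?_, L ⊔ Finset.univ.sup K, le_sup_left, hsup, fun i => ?_⟩
  · rw [hp.prime.dvd_finsetProd_iff]
    rintro ⟨i, _, h⟩
    exact hm i h
  have hKle : K i ≤ L ⊔ Finset.univ.sup K :=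
    le_sup_of_le_right (Finset.le_sup (Finset.mem_univ i))
  obtain ⟨e, he⟩ := Finset.dvd_prod_of_mem m (Finset.mem_univ i)
  refine ⟨x i ^ (e : ℤ), (e : ℤ) • d i, zpow_mem (hKle (hx i)) _, ?_, fun s hs => ?_, fun q g => ?_⟩
  · rw [AddSubgroup.coe_zsmul]
    exact (hd i).zsmul _
  · rw [smul_comm, hdK i s (IntermediateField.fixingSubgroup_antitone hKle hs)]
  · rw [AddSubgroup.coe_zsmul, show (((e : ℤ)) • (d i : Amb T)).ord q g =
      (e : ℤ) • (d i : Amb T).ord q g from rfl, ← hord i q g, natCast_zsmul, ← mul_smul, mul_comm e,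
      ← he]

end Fermat.Agent.PoitouTate
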