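import Fermat.Agent.PoitouTate.Sha2Units

/-!
# Hilbert's theorem 90 for cocycles factoring through a finite quotient

A group `U` acts on a field `Ω` by ring automorphisms and `j : L → Ω` separates the cosets of a
subgroup `N` of finite index fixing the image of `j`.
-/

set_option autoImplicit false

noncomputable section

namespace Fermat.Agent.PoitouTate

local notation "Qb" => AlgebraicClosure ℚ

theorem exists_hilbert90 {U Ω L : Type} [Group U] [Field Ω] [Monoid L] (act : U →* (Ω ≃+* Ω))
    (N : Subgroup U) [Finite (U ⧸ N)] (j : L →* Ω)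
    (hN : ∀ s ∈ N, ∀ z, act s (j z) = j z)
    (hsep : ∀ σ τ : U, (∀ z, act σ (j z) = act τ (j z)) → σ⁻¹ * τ ∈ N)
    (c : U → Ω) (hc0 : ∀ σ, c σ ≠ 0) (hc : ∀ σ τ, c (σ * τ) = act σ (c τ) * c σ)
    (hcN : ∀ σ, ∀ s ∈ N, c (σ * s) = c σ) :
    ∃ b : Ω, b ≠ 0 ∧ ∀ σ, c σ = act σ b / b := by
  classical
  haveI := Fintype.ofFinite (U ⧸ N)
  let φ : U ⧸ N → (L →* Ω) := fun q => ((act q.out : Ω ≃+* Ω) : Ω →* Ω).comp j
  have hφinj : Function.Injective φ := by
    intro q q' hqq
    have := hsep q.out q'.out fun z => DFunLike.congr_fun hqq z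
    rw [← QuotientGroup.out_eq' q, ← QuotientGroup.out_eq' q', QuotientGroup.eq]
    exact this
  have hli : LinearIndependent Ω (fun q => (φ q : L → Ω)) :=
    (linearIndependent_monoidHom L Ω).comp φ hφinj
  obtain ⟨z, hz⟩ : ∃ z : L, ∑ q, c q.out * φ q z ≠ 0 := by
    by_contra hcon
    push Not at hcon
    have := Fintype.linearIndependent_iff.1 hli (fun q => c q.out)
      (funext fun z => by simpa [Finset.sum_apply] using hcon z) (QuotientGroup.mk 1)
    exact hc0 _ this
  set b := ∑ q, c q.out * φ q z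
  -- the terms only depend on the coset
  have hterm : ∀ σ : U, c (QuotientGroup.mk σ : U ⧸ N).out * φ (QuotientGroup.mk σ) z =
      c σ * act σ (j z) := by
    intro σ
    obtain ⟨s, hs⟩ := QuotientGroup.mk_out_eq_mul N σ
    show c _ * act _ (j z) = _
    rw [hs, hcN σ s s.2, map_mul, RingAut.mul_apply, hN s s.2]
  refine ⟨b⁻¹, inv_ne_zero hz, fun σ => ?_⟩
  have hkey : c σ * act σ b = b := by
    rw [map_sum, Finset.mul_sum]
    refine Fintype.sum_equiv (MulAction.toPerm σ) _ _ fun q => ?_
    rw [MulAction.toPerm_apply]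
    conv_rhs => rw [← QuotientGroup.out_eq' q, MulAction.Quotient.smul_mk, hterm, smul_eq_mul, hc,
      map_mul, RingAut.mul_apply]
    show c σ * act σ (c q.out * act q.out (j z)) = _
    rw [map_mul]
    ring
  have hb0 : act σ b ≠ 0 := by simpa using hz
  rw [map_inv₀]
  field_simp
  linear_combination hkey

/-- The automorphisms of the algebraic closure as ring automorphisms. -/
def toRingAut : GQ →* (Qb ≃+* Qb) :=
  MonoidHom.mk' (fun σ => (σ : Qb ≃+* Qb)) fun _ _ => rfl

/-- Hilbert 90 in `Qu`, for a subgroup of the absolute Galois group. -/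
theorem exists_hilbert90_Qu {L : IntermediateField ℚ Qb} [FiniteDimensional ℚ L] (U : Subgroup GQ)
    (c : U → Qu) (hc : ∀ σ τ : U, c (σ * τ) = (σ : GQ) • c τ + c σ)
    (hcL : ∀ σ : U, ∀ s : U, (s : GQ) ∈ L.fixingSubgroup → c (σ * s) = c σ) :
    ∃ b : Qu, ∀ σ : U, c σ = (σ : GQ) • b - b := by
  haveI : Finite (GQ ⧸ L.fixingSubgroup) :=
    Subgroup.quotient_finite_of_isOpen _ (IntermediateField.fixingSubgroup_isOpen L)
  haveI : Finite (U ⧸ L.fixingSubgroup.subgroupOf U) :=
    Finite.of_injective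
      (Quotient.map' (s₁ := QuotientGroup.leftRel (L.fixingSubgroup.subgroupOf U))
        (s₂ := QuotientGroup.leftRel L.fixingSubgroup) (fun u : U => (u : GQ)) fun a b hab => by
        rw [QuotientGroup.leftRel_apply] at hab ⊢
        simpa [Subgroup.mem_subgroupOf] using hab)
      fun x y hxy => by
        induction x using Quotient.inductionOn'
        induction y using Quotient.inductionOn'
        simp only [Quotient.map'_mk''] at hxy
        rw [Quotient.eq'', QuotientGroup.leftRel_apply] at hxy ⊢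
        simpa [Subgroup.mem_subgroupOf] using hxy
  obtain ⟨b, hb, hcb⟩ := exists_hilbert90 (toRingAut.comp U.subtype) (L.fixingSubgroup.subgroupOf U)
    (L.val : L →* Qb)
    (fun s hs z => (IntermediateField.mem_fixingSubgroup_iff _ _).mp hs z z.2)
    (fun σ τ h => by
      rw [Subgroup.mem_subgroupOf, IntermediateField.mem_fixingSubgroup_iff]
      intro x hx
      have := h ⟨x, hx⟩
      rw [Subgroup.coe_mul, Subgroup.coe_inv, AlgEquiv.mul_apply, AlgEquiv.aut_inv]
      exact (AlgEquiv.symm_apply_eq (σ : GQ)).mpr this.symm)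
    (fun σ => uval (c σ)) (fun σ => uval_ne_zero _)
    (fun σ τ => by rw [hc, uval_add, uval_smul]; rfl)
    (fun σ s hs => by rw [hcL σ s hs])
  refine ⟨umk b hb, fun σ => Qu.ext ?_⟩
  rw [hcb σ, uval_sub, uval_smul, uval_umk]
  rfl

end Fermat.Agent.PoitouTate
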