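import Fermat.Agent.PoitouTate.Defs
import Mathlib.NumberTheory.Padics.PadicNumbers

/-!
# Every local algebraic number is fixed by the trace of a global open subgroup

For `y` in `PadicAlgCl q` there is a finite subfield `F` of the algebraic closure of `ℚ` such that
local automorphisms fixing the image of `F` fix `y`.
-/

set_option autoImplicit false

noncomputable section

open Polynomial

namespace Fermat.Agent.PoitouTate

local notation "Qb" => AlgebraicClosure ℚ

variable (q : Nat.Primes)

/-- Approximation of a local algebraic number by a global one. -/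
theorem exists_global_norm_sub_lt (y : PadicAlgCl (q : ℕ)) {ε : ℝ} (hε : 0 < ε) :
    ∃ a : Qb, ‖y - padicEmbedding (q : ℕ) a‖ < ε := by
  classical
  have hint : IsIntegral ℚ_[(q : ℕ)] y := Algebra.IsIntegral.isIntegral y
  set f := minpoly ℚ_[(q : ℕ)] y with hf
  set n := f.natDegree with hn
  have hn0 : 0 < n := minpoly.natDegree_pos hint
  set C : ℝ := ∑ i ∈ Finset.range n, ‖y ^ i‖ with hC
  have hC0 : 0 ≤ C := Finset.sum_nonneg fun i _ => norm_nonneg _
  set δ : ℝ := ε ^ n / (C + 1) with hδ
  have hδ0 : 0 < δ := by positivity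
  choose r hr using fun i => Padic.rat_dense (q : ℕ) (f.coeff i) hδ0
  let h : ℚ[X] := X ^ n + ∑ i ∈ Finset.range n, Polynomial.C (r i) * X ^ i
  have hdeg : (∑ i ∈ Finset.range n, Polynomial.C (r i) * X ^ i).degree < (n : WithBot ℕ) := by
    refine (Polynomial.degree_sum_le _ _).trans_lt ?_
    refine (Finset.sup_lt_iff (WithBot.bot_lt_coe n)).mpr ?_
    intro i hi
    exact (Polynomial.degree_C_mul_X_pow_le _ _).trans_lt (WithBot.coe_lt_coe.mpr (Finset.mem_range.mp hi))
  have hmon : h.Monic := monic_X_pow_add hdeg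
  have hndeg : h.natDegree = n := by
    refine natDegree_eq_of_degree_eq_some ?_
    rw [show h = X ^ n + ∑ i ∈ Finset.range n, Polynomial.C (r i) * X ^ i from rfl,
      degree_add_eq_left_of_degree_lt (by rwa [degree_X_pow]), degree_X_pow]
  have hsp : (h.map (algebraMap ℚ Qb)).Splits := IsAlgClosed.splits _
  have hprod := hsp.eq_prod_roots_of_monic (hmon.map (algebraMap ℚ Qb))
  set R := (h.map (algebraMap ℚ Qb)).roots with hR
  have hcard : Multiset.card R = n := by
    rw [hR, ← hsp.natDegree_eq_card_roots, natDegree_map, hndeg]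
  have heval : aeval y h = (R.map fun a => y - padicEmbedding (q : ℕ) a).prod := by
    have h1 : (h.map (algebraMap ℚ Qb)).map (padicEmbedding (q : ℕ)).toRingHom =
        h.map (algebraMap ℚ (PadicAlgCl (q : ℕ))) := by
      rw [Polynomial.map_map, AlgHom.toRingHom_eq_coe, AlgHom.comp_algebraMap]
    rw [aeval_def, ← eval_map, ← h1, hprod, Polynomial.map_multiset_prod, eval_multiset_prod,
      Multiset.map_map, Multiset.map_map]
    simp [Function.comp_def]
  have hsmall : ‖aeval y h‖ < ε ^ n := by
    have h0 : aeval y f = 0 := minpoly.aeval _ y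
    rw [Polynomial.aeval_eq_sum_range, ← hn, Finset.sum_range_succ, show f.coeff n = 1 from
      (minpoly.monic hint).coeff_natDegree, one_smul] at h0
    have h1 : aeval y h = y ^ n + ∑ i ∈ Finset.range n, ((r i : ℚ) : PadicAlgCl (q : ℕ)) * y ^ i := by
      simp [h, map_sum, eq_ratCast]
    rw [h1, eq_neg_of_add_eq_zero_right h0, neg_add_eq_sub, ← Finset.sum_sub_distrib]
    calc ‖∑ i ∈ Finset.range n, (((r i : ℚ) : PadicAlgCl (q : ℕ)) * y ^ i - f.coeff i • y ^ i)‖
        ≤ ∑ i ∈ Finset.range n, δ * ‖y ^ i‖ := by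
          refine (norm_sum_le _ _).trans (Finset.sum_le_sum fun i _ => ?_)
          rw [Algebra.smul_def, ← map_ratCast (algebraMap ℚ_[(q : ℕ)] (PadicAlgCl (q : ℕ))),
            ← sub_mul, ← map_sub, norm_mul, norm_algebraMap', norm_sub_rev]
          exact mul_le_mul_of_nonneg_right (hr i).le (norm_nonneg _)
      _ = δ * C := by rw [hC, Finset.mul_sum]
      _ < ε ^ n := by
          rw [hδ, div_mul_eq_mul_div, div_lt_iff₀ (by positivity)]
          nlinarith [pow_pos hε n]
  by_contra hne
  push Not at hne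
  refine absurd hsmall (not_lt.mpr ?_)
  rw [heval, ← hcard]
  clear hR hcard hprod heval
  induction R using Multiset.induction_on with
  | empty => simp
  | cons a R ih =>
    rw [Multiset.card_cons, pow_succ', Multiset.map_cons, Multiset.prod_cons, norm_mul]
    exact mul_le_mul (hne a) ih (by positivity) (norm_nonneg _)

/-- Local automorphisms fixing a suitable global number fix a given local number. -/
theorem exists_global_fixes (y : PadicAlgCl (q : ℕ)) :
    ∃ a : Qb, ∀ τ : LocGal q, τ (padicEmbedding (q : ℕ) a) = padicEmbedding (q : ℕ) a → τ y = y := by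
  classical
  have hint : IsIntegral ℚ_[(q : ℕ)] y := Algebra.IsIntegral.isIntegral y
  set s := (((minpoly ℚ_[(q : ℕ)] y).aroots (PadicAlgCl (q : ℕ))).toFinset.erase y).image
    fun y' => ‖y - y'‖ with hs
  set ε : ℝ := (insert (1 : ℝ) s).min' (Finset.insert_nonempty _ _) with hε
  have hε0 : 0 < ε := by
    rw [hε, Finset.lt_min'_iff]
    intro t ht
    rw [Finset.mem_insert] at ht
    rcases ht with rfl | ht
    · exact one_pos
    · obtain ⟨y', hy', rfl⟩ := Finset.mem_image.mp ht
      simpa [sub_eq_zero] using Ne.symm (Finset.ne_of_mem_erase hy')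
  obtain ⟨a, ha⟩ := exists_global_norm_sub_lt q y hε0
  refine ⟨a, fun τ hτ => ?_⟩
  by_contra hne
  have hmem : τ y ∈ ((minpoly ℚ_[(q : ℕ)] y).aroots (PadicAlgCl (q : ℕ))).toFinset.erase y := by
    rw [Finset.mem_erase, Multiset.mem_toFinset, mem_aroots]
    exact ⟨hne, minpoly.ne_zero hint, by
      rw [aeval_algHom_apply τ y, minpoly.aeval, map_zero]⟩
  have hle : ε ≤ ‖y - τ y‖ :=
    Finset.min'_le _ _ (Finset.mem_insert_of_mem (Finset.mem_image_of_mem _ hmem))
  refine absurd hle (not_le.mpr ?_)
  have h1 : ‖padicEmbedding (q : ℕ) a - τ y‖ = ‖y - padicEmbedding (q : ℕ) a‖ := by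
    rw [norm_sub_rev y]
    conv_lhs => rw [← hτ, ← map_sub]
    exact congrArg NNReal.toReal (nnnorm_padicAlgCl_algEquiv (q : ℕ) τ _)
  calc ‖y - τ y‖ = ‖(y - padicEmbedding (q : ℕ) a) + (padicEmbedding (q : ℕ) a - τ y)‖ := by
        rw [sub_add_sub_cancel]
    _ ≤ max ‖y - padicEmbedding (q : ℕ) a‖ ‖padicEmbedding (q : ℕ) a - τ y‖ :=
        IsUltrametricDist.norm_add_le_max _ _
    _ < ε := by rw [h1, max_self]; exact ha

/-- Finitely many local numbers are fixed by the trace of an open subgroup. -/
theorem exists_finite_fixes (s : Set (PadicAlgCl (q : ℕ))) (hs : s.Finite) :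
    ∃ F : IntermediateField ℚ Qb, FiniteDimensional ℚ F ∧
      ∀ τ : LocGal q, loc q τ ∈ F.fixingSubgroup → ∀ y ∈ s, τ y = y := by
  choose a ha using exists_global_fixes q
  refine ⟨IntermediateField.adjoin ℚ (a '' s), ?_, fun τ hτ y hy => ha y τ ?_⟩
  · haveI : Finite (a '' s) := (hs.image a).to_subtype
    exact IntermediateField.finiteDimensional_adjoin fun x _ => Algebra.IsIntegral.isIntegral x
  · rw [IntermediateField.mem_fixingSubgroup_iff] at hτ
    rw [← padicEmbedding_loc, hτ _ (IntermediateField.subset_adjoin _ _ ⟨y, hy, rfl⟩)]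

end Fermat.Agent.PoitouTate
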