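import Fermat.Prelude.Def_GaloisRep_CompletionBridge
import Fermat.Agent.Galois.QbarInstances
import Mathlib.NumberTheory.Padics.PadicNumbers
import Mathlib.Analysis.AbsoluteValue.Equivalence
import Mathlib.FieldTheory.PrimitiveElement

/-!
# Embeddings of a number field inducing the same place are locally conjugate

If two automorphisms induce the same absolute value on `L` through the fixed embedding into
`PadicAlgCl q`, they differ by a local automorphism and an element fixing `L`.
-/

set_option autoImplicit false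

noncomputable section

open scoped NNReal
open IntermediateField

namespace Fermat.Agent.PoitouTate

local notation "Qb" => AlgebraicClosure ℚ
local notation "GQ" => (AlgebraicClosure ℚ ≃ₐ[ℚ] AlgebraicClosure ℚ)

variable (q : ℕ) [Fact q.Prime]

theorem padicEmbedding_ratCast (r : ℚ) :
    padicEmbedding q (r : Qb) = algebraMap ℚ_[q] (PadicAlgCl q) (r : ℚ_[q]) := by
  rw [map_ratCast, map_ratCast]

theorem nnnorm_padicEmbedding_ratCast (r : ℚ) :
    ‖padicEmbedding q (r : Qb)‖₊ = ‖(r : ℚ_[q])‖₊ := by
  rw [padicEmbedding_ratCast, nnnorm_algebraMap']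

/-- The absolute value on `L` given by `g`. -/
def absAlong (L : IntermediateField ℚ Qb) (g : GQ) : AbsoluteValue L ℝ where
  toFun x := ‖padicEmbedding q (g x)‖
  map_mul' x y := by simp
  nonneg' _ := norm_nonneg _
  eq_zero' x := by simp
  add_le' x y := by simpa using norm_add_le (padicEmbedding q (g x)) (padicEmbedding q (g y))

/-- Equivalent absolute values along automorphisms are equal. -/
theorem norm_eq_of_lt_one_iff {L : IntermediateField ℚ Qb} {g g' : GQ}
    (h : ∀ x ∈ L, ‖padicEmbedding q (g x)‖ < 1 ↔ ‖padicEmbedding q (g' x)‖ < 1) :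
    ∀ x ∈ L, ‖padicEmbedding q (g x)‖ = ‖padicEmbedding q (g' x)‖ := by
  have hq1 : (1 : ℝ) < q := by exact_mod_cast (Fact.out : q.Prime).one_lt
  have hnorm : ∀ g₀ : GQ, absAlong q L g₀ ⟨(q : Qb), IntermediateField.natCast_mem L q⟩ = (q : ℝ)⁻¹ := fun g₀ => by
    show ‖padicEmbedding q (g₀ (q : Qb))‖ = _
    rw [map_natCast, map_natCast, ← map_natCast (algebraMap ℚ_[q] (PadicAlgCl q)),
      norm_algebraMap', Padic.norm_p]
  have hq' : (q : ℝ)⁻¹ < 1 := inv_lt_one_of_one_lt₀ hq1
  have hne : (q : ℝ)⁻¹ ≠ 0 := by positivity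
  have hnt : ∀ g₀ : GQ, (absAlong q L g₀).IsNontrivial := fun g₀ => by
    refine ⟨⟨(q : Qb), IntermediateField.natCast_mem L q⟩, fun h0 => ?_, ?_⟩
    · have := hnorm g₀
      rw [h0, map_zero] at this
      exact hne this.symm
    · rw [hnorm]; exact hq'.ne
  have hequiv : (absAlong q L g).IsEquiv (absAlong q L g') :=
    AbsoluteValue.isEquiv_iff_lt_one_iff.mpr fun x => h x x.2
  obtain ⟨t, ht, hpow⟩ := AbsoluteValue.isEquiv_iff_exists_rpow_eq.mp hequiv
  have ht1 : t = 1 := by
    have := congrFun hpow ⟨(q : Qb), IntermediateField.natCast_mem L q⟩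
    simp only [hnorm] at this
    exact (Real.rpow_right_inj (by positivity) hq'.ne).mp (this.trans (Real.rpow_one _).symm)
  intro x hx
  have := congrFun hpow ⟨x, hx⟩
  simpa [ht1, absAlong] using this

/-- Embeddings of `L` inducing the same absolute value are conjugate by a local automorphism. -/
theorem exists_local_of_norm_eq {L : IntermediateField ℚ Qb} [FiniteDimensional ℚ L] {g g' : GQ}
    (h : ∀ x ∈ L, ‖padicEmbedding q (g x)‖ = ‖padicEmbedding q (g' x)‖) :
    ∃ τ : PadicAlgCl q ≃ₐ[ℚ_[q]] PadicAlgCl q, ∃ s ∈ L.fixingSubgroup,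
      g' = localGaloisToGlobal q τ * g * s := by
  classical
  obtain ⟨θ, hθ⟩ := Field.exists_primitive_element ℚ L
  set a : PadicAlgCl q := padicEmbedding q (g θ) with ha
  set b : PadicAlgCl q := padicEmbedding q (g' θ) with hb
  have hint : IsIntegral ℚ_[q] a := Algebra.IsIntegral.isIntegral a
  set f := minpoly ℚ_[q] a with hf
  -- a rational approximation of `f`
  have hfb : Polynomial.aeval b f = 0 := by
    rw [← norm_le_zero_iff]
    refine le_of_forall_pos_le_add fun ε hε => ?_
    rw [zero_add]
    set n := f.natDegree with hn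
    set C : ℝ := ∑ i ∈ Finset.range (n + 1), (‖a ^ i‖ + ‖b ^ i‖) with hC
    have hC0 : 0 ≤ C := Finset.sum_nonneg fun i _ => by positivity
    have hδ : 0 < ε / (C + 1) := by positivity
    choose r hr using fun i => Padic.rat_dense q (f.coeff i) hδ
    have hdiff : ∀ c : PadicAlgCl q,
        ‖Polynomial.aeval c f - ∑ i ∈ Finset.range (n + 1), ((r i : ℚ) : PadicAlgCl q) * c ^ i‖ ≤
          ε / (C + 1) * ∑ i ∈ Finset.range (n + 1), ‖c ^ i‖ := by
      intro c
      rw [Polynomial.aeval_eq_sum_range, ← hn, ← Finset.sum_sub_distrib, Finset.mul_sum]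
      refine (norm_sum_le _ _).trans (Finset.sum_le_sum fun i _ => ?_)
      rw [Algebra.smul_def, ← map_ratCast (algebraMap ℚ_[q] (PadicAlgCl q)), ← sub_mul, ← map_sub,
        norm_mul, norm_algebraMap']
      exact mul_le_mul_of_nonneg_right (hr i).le (norm_nonneg _)
    -- the approximations agree in absolute value at `a` and `b`
    let y : Qb := ∑ i ∈ Finset.range (n + 1), ((r i : ℚ) : Qb) * (θ : Qb) ^ i
    have hy : y ∈ L := sum_mem fun i _ => mul_mem (SubfieldClass.ratCast_mem L _) (pow_mem θ.2 i)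
    have hy' : ∀ g₀ : GQ, padicEmbedding q (g₀ y) =
        ∑ i ∈ Finset.range (n + 1), ((r i : ℚ) : PadicAlgCl q) * padicEmbedding q (g₀ θ) ^ i := by
      intro g₀
      simp [y, map_sum, map_mul, map_pow, map_ratCast]
    have hay : ‖padicEmbedding q (g y)‖ ≤ ε / (C + 1) * ∑ i ∈ Finset.range (n + 1), ‖a ^ i‖ := by
      have := hdiff a
      rwa [hf, minpoly.aeval, zero_sub, norm_neg, ← hy' g] at this
    calc ‖Polynomial.aeval b f‖
        = ‖(Polynomial.aeval b f - padicEmbedding q (g' y)) + padicEmbedding q (g' y)‖ := by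
          rw [sub_add_cancel]
      _ ≤ ε / (C + 1) * (∑ i ∈ Finset.range (n + 1), ‖b ^ i‖) +
            ε / (C + 1) * ∑ i ∈ Finset.range (n + 1), ‖a ^ i‖ := by
          refine (norm_add_le _ _).trans (add_le_add ?_ ?_)
          · rw [hy' g']; exact hdiff b
          · rw [← h y hy]; exact hay
      _ = ε / (C + 1) * C := by rw [hC, Finset.sum_add_distrib]; ring
      _ ≤ ε := by
          rw [div_mul_eq_mul_div, div_le_iff₀ (by positivity)]
          nlinarith
  -- hence `b` is a conjugate of `a`
  haveI : Normal ℚ_[q] (PadicAlgCl q) := IsAlgClosure.normal ℚ_[q] (PadicAlgCl q)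
  obtain ⟨τ, hτ⟩ := minpoly.exists_algEquiv_of_root' (K := ℚ_[q]) (L := PadicAlgCl q)
    (x := b) (y := a) hint.isAlgebraic hfb
  refine ⟨τ, (localGaloisToGlobal q τ * g)⁻¹ * g', ?_, by group⟩
  rw [IntermediateField.mem_fixingSubgroup_iff]
  intro x hx
  have key : ∀ z : L, localGaloisToGlobal q τ (g z) = g' z := by
    intro z
    have hθ' : localGaloisToGlobal q τ (g θ) = g' θ := by
      apply (padicEmbedding q).toRingHom.injective
      refine (padicEmbedding_localGaloisToGlobal q τ _).trans ?_
      exact hτ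
    have hz : z ∈ IntermediateField.adjoin ℚ {θ} := by rw [hθ]; exact IntermediateField.mem_top
    induction hz using IntermediateField.adjoin_induction with
    | mem u hu => rw [Set.mem_singleton_iff.mp hu]; exact hθ'
    | algebraMap r => simp
    | add u v _ _ hu hv =>
        rw [IntermediateField.coe_add, map_add, map_add, hu, hv, ← map_add]
    | inv u _ hu => rw [IntermediateField.coe_inv, map_inv₀, map_inv₀, hu, ← map_inv₀]
    | mul u v _ _ hu hv =>
        rw [IntermediateField.coe_mul, map_mul, map_mul, hu, hv, ← map_mul]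
  rw [AlgEquiv.mul_apply, ← key ⟨x, hx⟩]
  exact AlgEquiv.symm_apply_apply (localGaloisToGlobal q τ * g) x

end Fermat.Agent.PoitouTate
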