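/-
Low degree cohomology of finite groups on plain modules, using the Mathlib cocycle predicates.
-/
import Mathlib.RepresentationTheory.Homological.GroupCohomology.LowDegree
import Mathlib.GroupTheory.QuotientGroup.Basic
import Mathlib.GroupTheory.PGroup
import Mathlib.Algebra.GroupWithZero.Action.Basic

set_option autoImplicit false

open groupCohomology

noncomputable section

namespace Fermat.Agent.PoitouTate

variable (G : Type) [Group G] (A : Type) [AddCommGroup A] [DistribMulAction G A]

/-- 2-cocycles. -/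
def Z2 : AddSubgroup (G × G → A) where
  carrier := {f | IsCocycle₂ f}
  zero_mem' _ _ _ := by simp
  add_mem' {f f'} hf hf' g h j := by
    have := congrArg₂ (· + ·) (hf g h j) (hf' g h j)
    simp only [Pi.add_apply, smul_add]
    abel_nf at this ⊢
    exact this
  neg_mem' {f} hf g h j := by
    have := congrArg Neg.neg (hf g h j)
    simp only [Pi.neg_apply, smul_neg]
    abel_nf at this ⊢
    exact this

/-- 2-coboundaries. -/
def B2 : AddSubgroup (G × G → A) where
  carrier := {f | IsCoboundary₂ f}
  zero_mem' := ⟨0, fun _ _ => by simp⟩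
  add_mem' {f f'} hf hf' := by
    obtain ⟨x, hx⟩ := hf
    obtain ⟨y, hy⟩ := hf'
    refine ⟨x + y, fun g h => ?_⟩
    simp only [Pi.add_apply, smul_add, ← hx, ← hy]
    abel
  neg_mem' {f} hf := by
    obtain ⟨x, hx⟩ := hf
    refine ⟨-x, fun g h => ?_⟩
    simp only [Pi.neg_apply, smul_neg, ← hx]
    abel

/-- The second cohomology group. -/
abbrev H2C : Type := ↥(Z2 G A) ⧸ (B2 G A).addSubgroupOf (Z2 G A)

variable {G A}

theorem mem_Z2 {f : G × G → A} : f ∈ Z2 G A ↔ IsCocycle₂ f := Iff.rfl

theorem mem_B2 {f : G × G → A} : f ∈ B2 G A ↔ IsCoboundary₂ f := Iff.rfl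

/-- The fixed points of a subgroup. -/
def fixedPts (N : Subgroup G) (A : Type) [AddCommGroup A] [DistribMulAction G A] :
    AddSubgroup A where
  carrier := {a | ∀ s ∈ N, s • a = a}
  zero_mem' _ _ := smul_zero _
  add_mem' ha hb s hs := by rw [smul_add, ha s hs, hb s hs]
  neg_mem' ha s hs := by rw [smul_neg, ha s hs]

theorem smul_mem_fixedPts {N : Subgroup G} [hN : N.Normal] (σ : G) {a : A}
    (ha : a ∈ fixedPts N A) : σ • a ∈ fixedPts N A := by
  intro s hs
  have h := ha (σ⁻¹ * s * σ) (by simpa using hN.conj_mem s hs σ⁻¹)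
  calc s • σ • a = σ • ((σ⁻¹ * s * σ) • a) := by rw [← mul_smul, ← mul_smul]; congr 1; group
    _ = σ • a := by rw [h]

/-- The action of the quotient on the fixed points of a normal subgroup. -/
def quotAct (N : Subgroup G) [N.Normal] (x : G ⧸ N) (a : fixedPts N A) : fixedPts N A :=
  ⟨Quotient.liftOn' x (fun σ => σ • (a : A)) (fun σ τ h => by
      rw [QuotientGroup.leftRel_apply] at h
      calc σ • (a : A) = σ • ((σ⁻¹ * τ) • (a : A)) := by rw [a.2 _ h]
        _ = τ • (a : A) := by rw [← mul_smul]; congr 1; group),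
    Quotient.inductionOn' x fun σ => smul_mem_fixedPts σ a.2⟩

instance quotFixedSMul (N : Subgroup G) [N.Normal] : SMul (G ⧸ N) ↥(fixedPts N A) :=
  ⟨quotAct N⟩

@[simp] theorem coe_quot_smul (N : Subgroup G) [N.Normal] (σ : G) (a : fixedPts N A) :
    (((QuotientGroup.mk σ : G ⧸ N) • a : fixedPts N A) : A) = σ • (a : A) := rfl

instance quotFixedAction (N : Subgroup G) [N.Normal] :
    DistribMulAction (G ⧸ N) ↥(fixedPts N A) where
  one_smul a := Subtype.ext (one_smul G (a : A))
  mul_smul x y a := by
    induction x using QuotientGroup.induction_on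
    induction y using QuotientGroup.induction_on
    exact Subtype.ext (mul_smul _ _ (a : A))
  smul_zero x := by
    induction x using QuotientGroup.induction_on
    exact Subtype.ext (smul_zero _)
  smul_add x a b := by
    induction x using QuotientGroup.induction_on
    exact Subtype.ext (smul_add _ _ _)

/-- The hypotheses of Tate's theorem, on the `p`-parts: vanishing of `H¹` on `p`-subgroups, and a
2-cocycle whose restriction to every `p`-subgroup `H` generates a group `H²(H, C)` of order
`#H`. -/
structure IsClassModule (p : ℕ) (Δ C : Type) [Group Δ] [AddCommGroup C] [DistribMulAction Δ C]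
    (u : Δ × Δ → C) : Prop where
  cocycle : IsCocycle₂ u
  h1 : ∀ H : Subgroup Δ, IsPGroup p H → ∀ c : H → C,
    (∀ g h : H, c (g * h) = (g : Δ) • c h + c g) → ∃ x : C, ∀ g : H, (g : Δ) • x - x = c g
  generates : ∀ H : Subgroup Δ, IsPGroup p H → ∀ z : H × H → C,
    (∀ g h j : H, z (g * h, j) + z (g, h) = (g : Δ) • z (h, j) + z (g, h * j)) →
    ∃ (k : ℤ) (x : H → C), ∀ g h : H,
      z (g, h) - k • u (g, h) = (g : Δ) • x h - x (g * h) + x g
  order : ∀ H : Subgroup Δ, IsPGroup p H → ∀ k : ℤ,
    (∃ x : H → C, ∀ g h : H, k • u (g, h) = (g : Δ) • x h - x (g * h) + x g) ↔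
      (Nat.card H : ℤ) ∣ k

end Fermat.Agent.PoitouTate
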