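/-
Coinduced modules of a finite group, the associated dimension shift, and equivariant maps.
-/
import Fermat.Agent.PoitouTate.Cochain
import Mathlib.Algebra.Module.Pi
import Mathlib.LinearAlgebra.FreeModule.Basic
import Mathlib.LinearAlgebra.StdBasis
import Mathlib.RingTheory.Finiteness.Basic
import Mathlib.Algebra.Module.Equiv.Basic

set_option autoImplicit false

open groupCohomology

noncomputable section

namespace Fermat.Agent.PoitouTate

variable {Δ : Type} [Group Δ]

/-- A homomorphism commuting with the actions. -/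
def IsEquivariant (Δ : Type) [Group Δ] {X Y : Type} [AddCommGroup X] [DistribMulAction Δ X]
    [AddCommGroup Y] [DistribMulAction Δ Y] (f : X →+ Y) : Prop :=
  ∀ (σ : Δ) (x : X), f (σ • x) = σ • f x

section

variable {X Y Z : Type} [AddCommGroup X] [DistribMulAction Δ X] [AddCommGroup Y]
  [DistribMulAction Δ Y] [AddCommGroup Z] [DistribMulAction Δ Z]

theorem IsEquivariant.comp {g : Y →+ Z} {f : X →+ Y} (hg : IsEquivariant Δ g)
    (hf : IsEquivariant Δ f) : IsEquivariant Δ (g.comp f) := fun σ x => by simp [hf σ x, hg σ]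

theorem IsEquivariant.add {f g : X →+ Y} (hf : IsEquivariant Δ f) (hg : IsEquivariant Δ g) :
    IsEquivariant Δ (f + g) := fun σ x => by simp [hf σ x, hg σ x]

theorem IsEquivariant.sub {f g : X →+ Y} (hf : IsEquivariant Δ f) (hg : IsEquivariant Δ g) :
    IsEquivariant Δ (f - g) := fun σ x => by simp [hf σ x, hg σ x, smul_sub]

variable [Fintype Δ]

/-- The norm of a homomorphism. -/
def nm (φ : X →+ Y) : X →+ Y :=
  ∑ τ : Δ, (DistribSMul.toAddMonoidHom Y τ).comp (φ.comp (DistribSMul.toAddMonoidHom X τ⁻¹))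

theorem nm_apply (φ : X →+ Y) (x : X) : nm (Δ := Δ) φ x = ∑ τ : Δ, τ • φ (τ⁻¹ • x) := by
  simp [nm, AddMonoidHom.finsetSum_apply]

theorem nm_isEquivariant (φ : X →+ Y) : IsEquivariant Δ (nm (Δ := Δ) φ) := by
  intro σ x
  simp only [nm_apply, Finset.smul_sum, ← mul_smul]
  refine (Fintype.sum_equiv (Equiv.mulLeft σ) _ _ fun τ => ?_).symm
  simp [mul_assoc]

theorem nm_add (φ φ' : X →+ Y) : nm (Δ := Δ) (φ + φ') = nm (Δ := Δ) φ + nm (Δ := Δ) φ' := by
  ext x; simp [nm_apply, Finset.sum_add_distrib]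

theorem nm_comp_left {g : Y →+ Z} (hg : IsEquivariant Δ g) (φ : X →+ Y) :
    nm (Δ := Δ) (g.comp φ) = g.comp (nm (Δ := Δ) φ) := by
  ext x
  rw [AddMonoidHom.comp_apply, nm_apply, nm_apply, map_sum]
  simp [hg _ _]

theorem nm_comp_right {g : X →+ Y} (hg : IsEquivariant Δ g) (φ : Y →+ Z) :
    nm (Δ := Δ) (φ.comp g) = (nm (Δ := Δ) φ).comp g := by
  ext x
  rw [AddMonoidHom.comp_apply, nm_apply, nm_apply]
  simp [← hg _ x]

end

variable (Δ) in
/-- The coinduced module: functions on the group. -/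
def Co (X : Type) : Type := Δ → X

namespace Co

variable {X : Type} [AddCommGroup X]

instance : AddCommGroup (Co Δ X) := inferInstanceAs (AddCommGroup (Δ → X))

/-- Evaluation. -/
def ev (τ : Δ) : Co Δ X →+ X := Pi.evalAddMonoidHom (fun _ : Δ => X) τ

/-- An element from a function. -/
def mk (F : Δ → X) : Co Δ X := F

@[simp] theorem ev_mk (F : Δ → X) (τ : Δ) : ev τ (mk F) = F τ := rfl

@[ext] theorem ext {F G : Co Δ X} (h : ∀ τ, ev τ F = ev τ G) : F = G := funext h

variable [DistribMulAction Δ X]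

instance : SMul Δ (Co Δ X) := ⟨fun σ F => mk fun τ => σ • ev (σ⁻¹ * τ) F⟩

@[simp] theorem ev_smul (σ τ : Δ) (F : Co Δ X) : ev τ (σ • F) = σ • ev (σ⁻¹ * τ) F := rfl

instance : DistribMulAction Δ (Co Δ X) where
  one_smul F := by ext τ; simp
  mul_smul σ τ F := by ext ρ; simp [mul_smul, mul_assoc]
  smul_zero σ := by ext τ; simp
  smul_add σ F G := by ext τ; simp

variable (Δ X) in
/-- Constant functions. -/
def const : X →+ Co Δ X where
  toFun x := mk fun _ => x
  map_zero' := rfl
  map_add' _ _ := rfl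

@[simp] theorem ev_const (τ : Δ) (x : X) : ev τ (const Δ X x) = x := rfl

theorem const_isEquivariant : IsEquivariant Δ (const Δ X) := fun σ x => by ext τ; simp

theorem const_injective : Function.Injective (const Δ X) :=
  fun x y h => by simpa using congrArg (ev (1 : Δ)) h

variable (Δ X) in
/-- Functions supported at the identity. -/
def single : X →+ Co Δ X where
  toFun x := mk fun τ => letI := Classical.dec (τ = 1); if τ = 1 then x else 0
  map_zero' := by ext τ; simp
  map_add' x y := by ext τ; simp only [map_add, ev_mk]; split_ifs <;> simp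

theorem ev_single [DecidableEq Δ] (τ : Δ) (x : X) :
    ev τ (single Δ X x) = if τ = 1 then x else 0 := by
  by_cases h : τ = 1 <;> simp [single, h]

theorem sum_smul_single [Fintype Δ] (F : Co Δ X) :
    (∑ τ : Δ, τ • single Δ X (τ⁻¹ • ev τ F)) = F := by
  classical
  ext ρ
  rw [map_sum, Fintype.sum_eq_single ρ]
  · rw [ev_smul, inv_mul_cancel, ev_single, if_pos rfl, smul_inv_smul]
  · intro τ hτ
    rw [ev_smul, ev_single, if_neg, smul_zero]
    rwa [inv_mul_eq_one]

variable {Y : Type} [AddCommGroup Y] [DistribMulAction Δ Y]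

/-- Two equivariant maps on a coinduced module which agree at the identity are equal. -/
theorem hom_ext [Fintype Δ] {f g : Co Δ X →+ Y} (hf : IsEquivariant Δ f) (hg : IsEquivariant Δ g)
    (h : ∀ x, f (single Δ X x) = g (single Δ X x)) : f = g := by
  refine AddMonoidHom.ext fun F => ?_
  conv_lhs => rw [← sum_smul_single F]
  conv_rhs => rw [← sum_smul_single F]
  simp only [map_sum, hf _ _, hg _ _, h]

theorem nm_ev_one_single [Fintype Δ] (h : X →+ Y) (x : X) :
    nm (Δ := Δ) (h.comp (ev (1 : Δ))) (single Δ X x) = h x := by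
  classical
  rw [nm_apply, Fintype.sum_eq_single 1]
  · simp [ev_single]
  · intro τ hτ
    simp [ev_single, hτ]

/-- Every equivariant map on a coinduced module is a norm. -/
theorem eq_nm [Fintype Δ] {f : Co Δ X →+ Y} (hf : IsEquivariant Δ f) :
    f = nm (Δ := Δ) ((f.comp (single Δ X)).comp (ev (1 : Δ))) :=
  hom_ext hf (nm_isEquivariant _) fun x => by rw [nm_ev_one_single]; rfl

/-- Fixed elements of a coinduced module are norms. -/
theorem eq_sum_of_fixed [Fintype Δ] {F : Co Δ X} (h : ∀ σ : Δ, σ • F = F) :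
    F = ∑ τ : Δ, τ • single Δ X (ev 1 F) := by
  conv_lhs => rw [← sum_smul_single F]
  refine Finset.sum_congr rfl fun τ _ => ?_
  congr 2
  have := congrArg (ev (1 : Δ)) (h τ⁻¹)
  simpa using this

/-- `H¹` of a coinduced module vanishes. -/
theorem exists_of_cocycle₁ {c : Δ → Co Δ X} (hc : IsCocycle₁ c) :
    ∃ b : Co Δ X, ∀ σ, σ • b - b = c σ := by
  refine ⟨mk fun τ => -ev τ (c τ), fun σ => ?_⟩
  ext τ
  have h := congrArg (ev τ) (hc σ (σ⁻¹ * τ))
  simp only [mul_inv_cancel_left, map_add, ev_smul] at h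
  simp only [map_sub, ev_smul, ev_mk, smul_neg, h]
  abel

/-- `H²` of a coinduced module vanishes. -/
theorem exists_of_cocycle₂ {z : Δ × Δ → Co Δ X} (hz : IsCocycle₂ z) :
    ∃ β : Δ → Co Δ X, ∀ g h, g • β h - β (g * h) + β g = z (g, h) := by
  refine ⟨fun g => mk fun τ => ev τ (z (g, g⁻¹ * τ)), fun g h => ?_⟩
  ext τ
  have e := congrArg (ev τ) (hz g h (h⁻¹ * (g⁻¹ * τ)))
  simp only [map_add, ev_smul, mul_inv_cancel_left] at e
  simp only [map_add, map_sub, ev_smul, ev_mk, mul_inv_rev, mul_assoc]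
  linear_combination (norm := abel) -e

/-- The augmentation of a coinduced module, when the action on `X` is trivial. -/
def total [Fintype Δ] : Co Δ X →+ X := ∑ τ : Δ, ev τ

theorem total_apply [Fintype Δ] (F : Co Δ X) : total F = ∑ τ : Δ, ev τ F := by
  simp [total, AddMonoidHom.finsetSum_apply]

end Co

section Up

variable (Δ) (X : Type) [AddCommGroup X]

/-- The subgroup of functions vanishing at the identity. -/
def upSub : AddSubgroup (Co Δ X) := (Co.ev (1 : Δ)).ker

/-- The cokernel of `X → Co Δ X`. -/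
def Up : Type := ↥(upSub Δ X)

instance : AddCommGroup (Up Δ X) := inferInstanceAs (AddCommGroup ↥(upSub Δ X))

variable {Δ X}

/-- The inclusion as functions vanishing at the identity (not equivariant). -/
def Up.lift : Up Δ X →+ Co Δ X := (upSub Δ X).subtype

theorem Up.lift_injective : Function.Injective (Up.lift : Up Δ X →+ Co Δ X) :=
  Subtype.coe_injective

@[simp] theorem Up.ev_one_lift (y : Up Δ X) : Co.ev 1 (Up.lift y) = 0 := y.2

variable [DistribMulAction Δ X]

variable (Δ X) in
/-- The projection `Co Δ X → Up Δ X`. -/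
def Up.proj : Co Δ X →+ Up Δ X :=
  AddMonoidHom.codRestrict (AddMonoidHom.id _ - (Co.const Δ X).comp (Co.ev (1 : Δ)))
    (upSub Δ X) fun F => by simp [upSub, AddMonoidHom.mem_ker]

theorem Up.lift_proj (F : Co Δ X) :
    Up.lift (Up.proj Δ X F) = F - Co.const Δ X (Co.ev 1 F) := rfl

@[simp] theorem Up.proj_lift (y : Up Δ X) : Up.proj Δ X (Up.lift y) = y :=
  Up.lift_injective (by simp [Up.lift_proj])

@[simp] theorem Up.proj_const (x : X) : Up.proj Δ X (Co.const Δ X x) = 0 :=
  Up.lift_injective (by simp [Up.lift_proj])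

theorem Up.proj_surjective : Function.Surjective (Up.proj Δ X) := fun y => ⟨_, Up.proj_lift y⟩

theorem Up.eq_const_of_proj_eq_zero {F : Co Δ X} (h : Up.proj Δ X F = 0) :
    F = Co.const Δ X (Co.ev 1 F) := by
  have := congrArg Up.lift h
  rwa [Up.lift_proj, map_zero, sub_eq_zero] at this

instance : SMul Δ (Up Δ X) := ⟨fun σ y => Up.proj Δ X (σ • Up.lift y)⟩

theorem Up.proj_smul (σ : Δ) (F : Co Δ X) : Up.proj Δ X (σ • F) = σ • Up.proj Δ X F := by
  change _ = Up.proj Δ X (σ • Up.lift (Up.proj Δ X F))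
  rw [Up.lift_proj, smul_sub, ← Co.const_isEquivariant σ, map_sub, Up.proj_const, sub_zero]

instance : DistribMulAction Δ (Up Δ X) where
  one_smul y := by
    obtain ⟨F, rfl⟩ := Up.proj_surjective y
    rw [← Up.proj_smul, one_smul]
  mul_smul σ τ y := by
    obtain ⟨F, rfl⟩ := Up.proj_surjective y
    rw [← Up.proj_smul, ← Up.proj_smul, ← Up.proj_smul, mul_smul]
  smul_zero σ := by
    rw [← map_zero (Up.proj Δ X), ← Up.proj_smul, smul_zero]
  smul_add σ y y' := by
    obtain ⟨F, rfl⟩ := Up.proj_surjective y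
    obtain ⟨F', rfl⟩ := Up.proj_surjective y'
    rw [← map_add, ← Up.proj_smul, ← Up.proj_smul, ← Up.proj_smul, smul_add, map_add]

theorem Up.proj_isEquivariant : IsEquivariant Δ (Up.proj Δ X) := Up.proj_smul

variable {Y : Type} [AddCommGroup Y] [DistribMulAction Δ Y]

/-- Functoriality. -/
def Co.map (f : X →+ Y) : Co Δ X →+ Co Δ Y := f.compLeft Δ

@[simp] theorem Co.ev_map (f : X →+ Y) (τ : Δ) (F : Co Δ X) :
    Co.ev τ (Co.map f F) = f (Co.ev τ F) := rfl

theorem Co.map_isEquivariant {f : X →+ Y} (hf : IsEquivariant Δ f) :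
    IsEquivariant Δ (Co.map (Δ := Δ) f) := fun σ F => by ext τ; simp [hf σ]

/-- Functoriality. -/
def Up.map (f : X →+ Y) : Up Δ X →+ Up Δ Y :=
  (Up.proj Δ Y).comp ((Co.map f).comp Up.lift)

theorem Up.map_proj (f : X →+ Y) (F : Co Δ X) :
    Up.map f (Up.proj Δ X F) = Up.proj Δ Y (Co.map f F) := by
  change Up.proj Δ Y (Co.map f (Up.lift (Up.proj Δ X F))) = _
  rw [Up.lift_proj, map_sub, map_sub]
  have : Co.map (Δ := Δ) f (Co.const Δ X (Co.ev 1 F)) = Co.const Δ Y (f (Co.ev 1 F)) := rfl
  rw [this, Up.proj_const, sub_zero]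

theorem Up.map_isEquivariant {f : X →+ Y} (hf : IsEquivariant Δ f) :
    IsEquivariant Δ (Up.map (Δ := Δ) f) := fun σ y => by
  obtain ⟨F, rfl⟩ := Up.proj_surjective y
  rw [← Up.proj_smul, Up.map_proj, Up.map_proj, Co.map_isEquivariant hf, Up.proj_smul]

end Up

section Lattice

variable (X : Type) [AddCommGroup X]

/-- `Up Δ X` as functions on the nontrivial elements. -/
def Up.equivFun : Up Δ X ≃+ ({τ : Δ // τ ≠ 1} → X) where
  toFun y τ := Co.ev τ.1 (Up.lift y)
  invFun f := ⟨Co.mk fun τ => letI := Classical.dec (τ = 1); if h : τ = 1 then 0 else f ⟨τ, h⟩,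
    by simp [upSub, AddMonoidHom.mem_ker]⟩
  left_inv y := by
    refine Up.lift_injective (Co.ext fun τ => ?_)
    change (letI := Classical.dec (τ = 1); if h : τ = 1 then 0 else Co.ev τ (Up.lift y)) = _
    by_cases h : τ = 1
    · subst h; simp
    · simp [h]
  right_inv f := by
    funext τ
    change (letI := Classical.dec (τ.1 = 1); if h : τ.1 = 1 then 0 else f ⟨τ.1, h⟩) = _
    simp [τ.2]
  map_add' y y' := by
    funext τ
    simp

variable [Finite Δ] [Module.Free ℤ X] [Module.Finite ℤ X]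

instance : Module.Free ℤ (Up Δ X) :=
  Module.Free.of_equiv (Up.equivFun (Δ := Δ) X).symm.toIntLinearEquiv

instance : Module.Finite ℤ (Up Δ X) :=
  Module.Finite.equiv (Up.equivFun (Δ := Δ) X).symm.toIntLinearEquiv

end Lattice

end Fermat.Agent.PoitouTate
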