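/-
Duality of the modified `H⁰` of lattices with an action of a finite group.
-/
import Fermat.Agent.PoitouTate.AlgebraCo
import Mathlib.Algebra.Module.CharacterModule
import Mathlib.Algebra.Module.Projective
import Mathlib.LinearAlgebra.FreeModule.PID
import Mathlib.Topology.Instances.AddCircle.Defs

set_option autoImplicit false

noncomputable section

namespace Fermat.Agent.PoitouTate

variable {Δ : Type} [Group Δ]

/-- An additive functional invariant under the action. -/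
def IsInvariantFn (Δ : Type) [Group Δ] {X : Type} [AddCommGroup X] [DistribMulAction Δ X]
    (ψ : X →+ ℤ) : Prop :=
  ∀ (σ : Δ) (x : X), ψ (σ • x) = ψ x

variable [Fintype Δ] {X : Type} [AddCommGroup X] [DistribMulAction Δ X]

/-- The norm of an element. -/
def trSum (Δ : Type) [Group Δ] [Fintype Δ] {X : Type} [AddCommGroup X] [DistribMulAction Δ X] :
    X →+ X :=
  ∑ τ : Δ, DistribSMul.toAddMonoidHom X τ

theorem trSum_apply (x : X) : trSum Δ x = ∑ τ : Δ, τ • x := by
  simp [trSum, AddMonoidHom.finsetSum_apply]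

theorem trSum_smul (σ : Δ) (x : X) : trSum Δ (σ • x) = trSum Δ x := by
  simp only [trSum_apply, ← mul_smul]
  exact Fintype.sum_equiv (Equiv.mulRight σ) _ _ fun τ => rfl

theorem smul_trSum (σ : Δ) (x : X) : σ • trSum Δ x = trSum Δ x := by
  simp only [trSum_apply, Finset.smul_sum, ← mul_smul]
  exact Fintype.sum_equiv (Equiv.mulLeft σ) _ _ fun τ => rfl

theorem trSum_of_fixed {x : X} (hx : ∀ σ : Δ, σ • x = x) :
    trSum Δ x = (Fintype.card Δ : ℤ) • x := by
  rw [trSum_apply, Finset.sum_congr rfl fun τ _ => hx τ, Finset.sum_const, Finset.card_univ,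
    natCast_zsmul]

theorem trSum_map {Y : Type} [AddCommGroup Y] [DistribMulAction Δ Y] {f : X →+ Y}
    (hf : IsEquivariant Δ f) (x : X) : f (trSum Δ x) = trSum Δ (f x) := by
  simp [trSum_apply, hf _ x]

variable (Δ X) in
/-- The fixed elements. -/
def fixSub : AddSubgroup X := fixedPts (⊤ : Subgroup Δ) X

theorem mem_fixSub {x : X} : x ∈ fixSub Δ X ↔ ∀ σ : Δ, σ • x = x :=
  ⟨fun h σ => h σ (Subgroup.mem_top σ), fun h σ _ => h σ⟩

/-- The norm, as a map into the fixed elements. -/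
def trFix : X →+ fixSub Δ X :=
  AddMonoidHom.codRestrict (trSum Δ) (fixSub Δ X) fun x => mem_fixSub.2 fun σ => smul_trSum σ x

theorem card_smul_mem_range_trFix (x : fixSub Δ X) :
    (Fintype.card Δ : ℤ) • x ∈ (trFix (Δ := Δ) (X := X)).range :=
  ⟨x.1, Subtype.ext (trSum_of_fixed (mem_fixSub.1 x.2))⟩

theorem card_ne_zero_int : (Fintype.card Δ : ℤ) ≠ 0 := by exact_mod_cast Fintype.card_ne_zero

variable (Δ) in
/-- Multiples of `1/#Δ` modulo `1`. -/
def intToCircle : ℤ →+ AddCircle (1 : ℚ) :=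
  zmultiplesHom _ ((((Fintype.card Δ : ℚ))⁻¹ : ℚ) : AddCircle (1 : ℚ))

theorem intToCircle_eq_zero_iff (k : ℤ) :
    intToCircle Δ k = 0 ↔ (Fintype.card Δ : ℤ) ∣ k := by
  have hn : (Fintype.card Δ : ℚ) ≠ 0 := by exact_mod_cast Fintype.card_ne_zero
  rw [intToCircle, zmultiplesHom_apply, ← AddCircle.coe_zsmul, AddCircle.coe_eq_zero_iff]
  constructor
  · rintro ⟨m, hm⟩
    refine ⟨m, ?_⟩
    simp only [zsmul_eq_mul, mul_one] at hm
    field_simp at hm
    exact_mod_cast (by linarith : (k : ℚ) = (Fintype.card Δ : ℚ) * m)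
  · rintro ⟨m, rfl⟩
    refine ⟨m, ?_⟩
    simp [zsmul_eq_mul]
    field_simp

theorem exists_intToCircle_eq {a : AddCircle (1 : ℚ)} (ha : (Fintype.card Δ : ℤ) • a = 0) :
    ∃ k : ℤ, intToCircle Δ k = a := by
  have hn : (Fintype.card Δ : ℚ) ≠ 0 := by exact_mod_cast Fintype.card_ne_zero
  obtain ⟨q, rfl⟩ := QuotientAddGroup.mk_surjective a
  rw [← AddCircle.coe_zsmul, AddCircle.coe_eq_zero_iff] at ha
  obtain ⟨m, hm⟩ := ha
  refine ⟨m, ?_⟩
  rw [intToCircle, zmultiplesHom_apply, ← AddCircle.coe_zsmul]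
  congr 1
  simp only [zsmul_eq_mul, mul_one, Int.cast_natCast] at hm ⊢
  rw [hm]
  field_simp

/-- A character of the fixed elements killing the norms comes from an invariant functional. -/
theorem exists_invariantFn_of_character [Module.Free ℤ X] [Module.Finite ℤ X]
    (χ : fixSub Δ X →+ AddCircle (1 : ℚ)) (hχ : ∀ x, χ (trFix x) = 0) :
    ∃ ψ : X →+ ℤ, IsInvariantFn Δ ψ ∧ ∀ x : fixSub Δ X, χ x = intToCircle Δ (ψ x) := by
  have hval : ∀ x : fixSub Δ X, ∃ k : ℤ, intToCircle Δ k = χ x := fun x => by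
    refine exists_intToCircle_eq ?_
    obtain ⟨y, hy⟩ := card_smul_mem_range_trFix x
    rw [← map_zsmul, ← hy, hχ]
  -- lift to a functional on the fixed elements
  haveI : Module.Finite ℤ (AddSubgroup.toIntSubmodule (fixSub Δ X)) := inferInstance
  let bX := Module.Free.chooseBasis ℤ (AddSubgroup.toIntSubmodule (fixSub Δ X))
  let ψ₀ : AddSubgroup.toIntSubmodule (fixSub Δ X) →ₗ[ℤ] ℤ :=
    bX.constr ℤ fun i => (hval ⟨(bX i).1, (bX i).2⟩).choose
  have hψ₀ : ∀ x : fixSub Δ X, intToCircle Δ (ψ₀ ⟨x.1, x.2⟩) = χ x := by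
    have : ((intToCircle Δ).toIntLinearMap.comp ψ₀) =
        (χ.comp (AddMonoidHom.mk' (fun x : AddSubgroup.toIntSubmodule (fixSub Δ X) =>
          (⟨x.1, x.2⟩ : fixSub Δ X)) fun _ _ => rfl)).toIntLinearMap := by
      refine bX.ext fun i => ?_
      simp only [LinearMap.comp_apply, AddMonoidHom.coe_toIntLinearMap, ψ₀, Module.Basis.constr_basis]
      exact (hval ⟨(bX i).1, (bX i).2⟩).choose_spec
    intro x
    exact congrArg (fun f => f ⟨x.1, x.2⟩) this
  set n : ℤ := (Fintype.card Δ : ℤ) with hn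
  have hn0 : n ≠ 0 := card_ne_zero_int
  let φ : X →+ ℤ := ψ₀.toAddMonoidHom.comp
    (AddMonoidHom.mk' (fun x => (⟨trSum Δ x, (trFix x).2⟩ : AddSubgroup.toIntSubmodule (fixSub Δ X)))
      fun a b => Subtype.ext (map_add (trSum Δ) a b))
  have hdvd : ∀ x, n ∣ φ x := fun x => by
    rw [← intToCircle_eq_zero_iff]
    exact (hψ₀ (trFix x)).trans (hχ x)
  let ψ : X →+ ℤ := AddMonoidHom.mk' (fun x => φ x / n) fun a b => by
    rw [map_add, Int.add_ediv_of_dvd_left (hdvd a)]
  refine ⟨ψ, fun σ x => ?_, fun x => ?_⟩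
  · change φ (σ • x) / n = φ x / n
    congr 1
    exact congrArg ψ₀ (Subtype.ext (trSum_smul σ x))
  · change χ x = intToCircle Δ (φ x.1 / n)
    have h : φ x.1 = n * ψ₀ ⟨x.1, x.2⟩ := by
      have : (⟨trSum Δ x.1, (trFix x.1).2⟩ : AddSubgroup.toIntSubmodule (fixSub Δ X)) =
          n • ⟨x.1, x.2⟩ := Subtype.ext (trSum_of_fixed (mem_fixSub.1 x.2))
      exact (congrArg ψ₀ this).trans (by rw [map_zsmul, smul_eq_mul])
    rw [h, Int.mul_ediv_cancel_left _ hn0, hψ₀]

/-- Invariant functionals separate the fixed elements modulo norms. -/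
theorem exists_invariantFn_not_dvd [Module.Free ℤ X] [Module.Finite ℤ X] {x : fixSub Δ X}
    (hx : x ∉ (trFix (Δ := Δ) (X := X)).range) :
    ∃ ψ : X →+ ℤ, IsInvariantFn Δ ψ ∧ ¬ (Fintype.card Δ : ℤ) ∣ ψ x := by
  obtain ⟨c, hc⟩ := CharacterModule.exists_character_apply_ne_zero_of_ne_zero
    (A := fixSub Δ X ⧸ (trFix (Δ := Δ) (X := X)).range)
    (a := QuotientAddGroup.mk x) (by rwa [ne_eq, QuotientAddGroup.eq_zero_iff])
  let χ : fixSub Δ X →+ AddCircle (1 : ℚ) :=
    (c : (fixSub Δ X ⧸ (trFix (Δ := Δ) (X := X)).range) →+ AddCircle (1 : ℚ)).comp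
      (QuotientAddGroup.mk' _)
  obtain ⟨ψ, hψ, hψχ⟩ := exists_invariantFn_of_character χ fun y => by
    change c _ = 0
    rw [show (QuotientAddGroup.mk' (trFix (Δ := Δ) (X := X)).range) (trFix y) = 0 from
      (QuotientAddGroup.eq_zero_iff (trFix (Δ := Δ) y)).2 ⟨y, rfl⟩, map_zero]
  refine ⟨ψ, hψ, ?_⟩
  rw [← intToCircle_eq_zero_iff, ← hψχ]
  exact hc

/-- An invariant functional which is divisible by `#Δ` on every fixed element that becomes a
norm in `Y` is, up to a norm, the restriction of an invariant functional on `Y`. -/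
theorem exists_invariantFn_extend [Module.Free ℤ X] [Module.Finite ℤ X] {Y : Type} [AddCommGroup Y]
    [DistribMulAction Δ Y] [Module.Free ℤ Y] [Module.Finite ℤ Y] {ι : X →+ Y}
    (hι : IsEquivariant Δ ι) (ψ : X →+ ℤ) (hψ : IsInvariantFn Δ ψ)
    (h : ∀ x : fixSub Δ X, (∃ w, ι x = trSum Δ w) → (Fintype.card Δ : ℤ) ∣ ψ x) :
    ∃ (ψY : Y →+ ℤ) (φ : X →+ ℤ), IsInvariantFn Δ ψY ∧
      ∀ x, ψ x = ψY (ι x) + ∑ τ : Δ, φ (τ • x) := by
  let ι₁ : fixSub Δ X →+ fixSub Δ Y :=
    AddMonoidHom.codRestrict (ι.comp (fixSub Δ X).subtype) (fixSub Δ Y) fun x =>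
      mem_fixSub.2 fun σ => by
        change σ • ι x.1 = ι x.1
        rw [← hι, mem_fixSub.1 x.2]
  let A := fixSub Δ Y ⧸ (trFix (Δ := Δ) (X := Y)).range
  let j : fixSub Δ X →+ A := (QuotientAddGroup.mk' _).comp ι₁
  let θ : fixSub Δ X →+ AddCircle (1 : ℚ) :=
    (intToCircle Δ).comp (ψ.comp (fixSub Δ X).subtype)
  have hker : ∀ x, j x = 0 → θ x = 0 := fun x hx => by
    obtain ⟨w, hw⟩ := (QuotientAddGroup.eq_zero_iff _).1 hx
    exact (intToCircle_eq_zero_iff _).2 (h x ⟨w, (congrArg Subtype.val hw).symm⟩)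
  -- extend the character along the injection induced by `j`
  let j' : (fixSub Δ X ⧸ j.ker) →ₗ[ℤ] A := (QuotientAddGroup.kerLift j).toIntLinearMap
  obtain ⟨c, hc⟩ := CharacterModule.dual_surjective_of_injective j'
    (QuotientAddGroup.kerLift_injective j)
    (QuotientAddGroup.lift j.ker θ fun x hx => hker x hx)
  obtain ⟨ψY, hψY, hψYχ⟩ := exists_invariantFn_of_character
    ((c : A →+ AddCircle (1 : ℚ)).comp (QuotientAddGroup.mk' _)) fun y => by
      change c _ = 0
      rw [show (QuotientAddGroup.mk' (trFix (Δ := Δ) (X := Y)).range) (trFix y) = 0 from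
        (QuotientAddGroup.eq_zero_iff (trFix (Δ := Δ) y)).2 ⟨y, rfl⟩, map_zero]
  have hdiff : ∀ x : fixSub Δ X, (Fintype.card Δ : ℤ) ∣ ψ x - ψY (ι x) := fun x => by
    rw [← intToCircle_eq_zero_iff, map_sub, sub_eq_zero]
    have h1 := DFunLike.congr_fun hc (QuotientAddGroup.mk x)
    have h2 := hψYχ (ι₁ x)
    exact h1.symm.trans h2
  let d : X →+ ℤ := ψ - ψY.comp ι
  have hd : ∀ (σ : Δ) x, d (σ • x) = d x := fun σ x => by simp [d, hψ σ x, hι σ x, hψY σ (ι x)]
  set n : ℤ := (Fintype.card Δ : ℤ) with hn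
  have hn0 : n ≠ 0 := card_ne_zero_int
  -- the fixed elements form a direct summand
  let F := AddSubgroup.toIntSubmodule (fixSub Δ X)
  haveI : Module.IsTorsionFree ℤ (X ⧸ F) := by
    refine Module.IsTorsionFree.of_smul_eq_zero fun k a hka => ?_
    obtain ⟨x, rfl⟩ := Submodule.Quotient.mk_surjective _ a
    by_cases hk : k = 0
    · exact Or.inl hk
    right
    rw [← Submodule.Quotient.mk_smul, Submodule.Quotient.mk_eq_zero] at hka
    rw [Submodule.Quotient.mk_eq_zero]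
    refine mem_fixSub.2 fun σ => ?_
    have := mem_fixSub.1 hka σ
    rw [show σ • k • x = k • σ • x from map_zsmul (DistribSMul.toAddMonoidHom X σ) k x] at this
    exact smul_right_injective X hk this
  obtain ⟨s, hs⟩ := Module.projective_lifting_property F.mkQ LinearMap.id F.mkQ_surjective
  let π : X →ₗ[ℤ] F := LinearMap.codRestrict F (LinearMap.id - s.comp F.mkQ) fun x => by
    rw [← Submodule.Quotient.mk_eq_zero, ← Submodule.mkQ_apply, LinearMap.sub_apply, map_sub,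
      LinearMap.id_apply, LinearMap.comp_apply, sub_eq_zero]
    exact (LinearMap.congr_fun hs (F.mkQ x)).symm
  have hπ : ∀ x : F, (π x : X) = x := fun x => by
    have : F.mkQ (x : X) = 0 := (Submodule.Quotient.mk_eq_zero F).2 x.2
    simp [π, this]
  have hdvd : ∀ x, n ∣ d (π x) := fun x => hdiff ⟨(π x).1, (π x).2⟩
  let φ : X →+ ℤ := AddMonoidHom.mk' (fun x => d (π x) / n) fun a b => by
    rw [map_add, Submodule.coe_add, map_add, Int.add_ediv_of_dvd_left (hdvd a)]
  refine ⟨ψY, φ, hψY, fun x => ?_⟩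
  have h1 : ∑ τ : Δ, φ (τ • x) = φ (trSum Δ x) := by rw [trSum_apply, map_sum]
  have h2 : φ (trSum Δ x) = d x := by
    change d (π (trSum Δ x)) / n = d x
    rw [hπ ⟨trSum Δ x, (trFix x).2⟩]
    have : d (trSum Δ x) = n * d x := by
      rw [trSum_apply, map_sum, Finset.sum_congr rfl fun τ _ => hd τ x, Finset.sum_const,
        Finset.card_univ, nsmul_eq_mul]
    rw [this, Int.mul_ediv_cancel_left _ hn0]
  rw [h1, h2]
  simp [d]

end Fermat.Agent.PoitouTate
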