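/-
The splitting module of a 2-cocycle, and lifts of invariant functionals to it.

For `u ∈ Z²(Δ, C)` the module `Spl u = C × Aug Δ` is an extension of the augmentation module by
`C`. A lift of an invariant functional `ψ` on the double shift `Up (Up R)` of a module `R` produces
an equivariant map `f : R → C`, and for a 2-cocycle `z` of `R` shifting to `y₂` one has
`f ∘ z ~ ψ y₂ • u`.
-/
import Fermat.Agent.PoitouTate.AlgebraLattice

set_option autoImplicit false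

open groupCohomology

noncomputable section

namespace Fermat.Agent.PoitouTate

variable (Δ : Type) [Group Δ]

/-- The group ring, as functions. -/
def ZG : Type := Δ → ℤ

instance : AddCommGroup (ZG Δ) := inferInstanceAs (AddCommGroup (Δ → ℤ))

variable {Δ}

/-- Coefficient. -/
def ZG.ev (τ : Δ) : ZG Δ →+ ℤ := Pi.evalAddMonoidHom (fun _ : Δ => ℤ) τ

/-- An element from its coefficients. -/
def ZG.mk (F : Δ → ℤ) : ZG Δ := F

@[simp] theorem ZG.ev_mk (F : Δ → ℤ) (τ : Δ) : ZG.ev τ (ZG.mk F) = F τ := rfl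

@[ext] theorem ZG.ext {F G : ZG Δ} (h : ∀ τ, ZG.ev τ F = ZG.ev τ G) : F = G := funext h

instance : SMul Δ (ZG Δ) := ⟨fun σ F => ZG.mk fun τ => ZG.ev (σ⁻¹ * τ) F⟩

@[simp] theorem ZG.ev_smul (σ τ : Δ) (F : ZG Δ) : ZG.ev τ (σ • F) = ZG.ev (σ⁻¹ * τ) F := rfl

instance : DistribMulAction Δ (ZG Δ) where
  one_smul F := by ext τ; simp
  mul_smul σ τ F := by ext ρ; simp [mul_assoc]
  smul_zero σ := by ext τ; simp
  smul_add σ F G := by ext τ; simp

/-- The group element `ρ`. -/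
def ZG.basis (ρ : Δ) : ZG Δ := ZG.mk fun τ => letI := Classical.dec (τ = ρ); if τ = ρ then 1 else 0

theorem ZG.ev_basis [DecidableEq Δ] (ρ τ : Δ) :
    ZG.ev τ (ZG.basis ρ) = if τ = ρ then 1 else 0 := by
  by_cases h : τ = ρ <;> simp [ZG.basis, h]

theorem ZG.smul_basis (σ ρ : Δ) : σ • ZG.basis ρ = ZG.basis (σ * ρ) := by
  classical
  ext τ
  simp [ZG.ev_basis, inv_mul_eq_iff_eq_mul]

variable [Fintype Δ]

/-- The augmentation. -/
def ZG.total : ZG Δ →+ ℤ := ∑ τ : Δ, ZG.ev τ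

theorem ZG.total_apply (F : ZG Δ) : ZG.total F = ∑ τ : Δ, ZG.ev τ F := by
  simp [ZG.total, AddMonoidHom.finsetSum_apply]

@[simp] theorem ZG.total_smul (σ : Δ) (F : ZG Δ) : ZG.total (σ • F) = ZG.total F := by
  simp only [ZG.total_apply, ZG.ev_smul]
  exact Fintype.sum_equiv (Equiv.mulLeft σ⁻¹) _ _ fun τ => rfl

@[simp] theorem ZG.total_basis (ρ : Δ) : ZG.total (ZG.basis ρ) = 1 := by
  classical
  simp [ZG.total_apply, ZG.ev_basis]

theorem ZG.sum_ev_mul_basis (F : ZG Δ) : (∑ ρ : Δ, ZG.ev ρ F • ZG.basis ρ) = F := by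
  classical
  ext τ
  simp [map_sum, map_zsmul, ZG.ev_basis, mul_ite]

variable (Δ) in
/-- The augmentation module. -/
def augSub : AddSubgroup (ZG Δ) := (ZG.total (Δ := Δ)).ker

variable (Δ) in
/-- The augmentation module. -/
def Aug : Type := ↥(augSub Δ)

instance : AddCommGroup (Aug Δ) := inferInstanceAs (AddCommGroup ↥(augSub Δ))

/-- The inclusion. -/
def Aug.val : Aug Δ →+ ZG Δ := (augSub Δ).subtype

theorem Aug.val_injective : Function.Injective (Aug.val : Aug Δ →+ ZG Δ) := Subtype.coe_injective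

@[simp] theorem Aug.total_val (i : Aug Δ) : ZG.total (Aug.val i) = 0 := i.2

/-- An element of augmentation zero. -/
def Aug.mk (F : ZG Δ) (h : ZG.total F = 0) : Aug Δ := ⟨F, h⟩

@[simp] theorem Aug.val_mk (F : ZG Δ) (h : ZG.total F = 0) : Aug.val (Aug.mk F h) = F := rfl

instance : SMul Δ (Aug Δ) := ⟨fun σ i => Aug.mk (σ • Aug.val i) (by simp)⟩

@[simp] theorem Aug.val_smul (σ : Δ) (i : Aug Δ) : Aug.val (σ • i) = σ • Aug.val i := rfl

instance : DistribMulAction Δ (Aug Δ) where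
  one_smul i := Aug.val_injective (by simp)
  mul_smul σ τ i := Aug.val_injective (by simp [mul_smul])
  smul_zero σ := Aug.val_injective (by simp)
  smul_add σ i j := Aug.val_injective (by simp)

/-- `[ρ] - [1]`. -/
def Aug.diff (ρ : Δ) : Aug Δ := Aug.mk (ZG.basis ρ - ZG.basis 1) (by simp)

theorem Aug.sum_ev_diff (i : Aug Δ) :
    (∑ ρ : Δ, ZG.ev ρ (Aug.val i) • Aug.diff ρ) = i := by
  apply Aug.val_injective
  simp only [map_sum, map_zsmul, Aug.diff, Aug.val_mk, smul_sub, Finset.sum_sub_distrib,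
    ← Finset.sum_smul, ← ZG.total_apply, Aug.total_val, zero_smul, sub_zero, ZG.sum_ev_mul_basis]

variable {C : Type} [AddCommGroup C] [DistribMulAction Δ C]

/-- The pairing of the augmentation module with a cocycle. -/
def twistMap (u : Δ × Δ → C) (σ : Δ) : Aug Δ →+ C :=
  AddMonoidHom.mk' (fun i => ∑ ρ : Δ, ZG.ev ρ (Aug.val i) • u (σ, ρ)) fun i j => by
    simp [add_smul, Finset.sum_add_distrib]

theorem twistMap_apply (u : Δ × Δ → C) (σ : Δ) (i : Aug Δ) :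
    twistMap u σ i = ∑ ρ : Δ, ZG.ev ρ (Aug.val i) • u (σ, ρ) := rfl

theorem twistMap_diff (u : Δ × Δ → C) (σ ρ : Δ) :
    twistMap u σ (Aug.diff ρ) = u (σ, ρ) - u (σ, 1) := by
  classical
  simp [twistMap_apply, Aug.diff, ZG.ev_basis, sub_smul, Finset.sum_sub_distrib, ite_smul]

theorem twistMap_mul (u : Z2 Δ C) (σ τ : Δ) (i : Aug Δ) :
    twistMap (u : Δ × Δ → C) (σ * τ) i =
      σ • twistMap (u : Δ × Δ → C) τ i + twistMap (u : Δ × Δ → C) σ (τ • i) := by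
  have h1 : twistMap (u : Δ × Δ → C) σ (τ • i) =
      ∑ ρ : Δ, ZG.ev ρ (Aug.val i) • (u : Δ × Δ → C) (σ, τ * ρ) := by
    rw [twistMap_apply]
    exact Fintype.sum_equiv (Equiv.mulLeft τ⁻¹) _ _ fun ρ => by simp
  have h2 : σ • twistMap (u : Δ × Δ → C) τ i =
      ∑ ρ : Δ, ZG.ev ρ (Aug.val i) • σ • (u : Δ × Δ → C) (τ, ρ) := by
    rw [twistMap_apply, Finset.smul_sum]
    exact Finset.sum_congr rfl fun ρ _ => map_zsmul (DistribSMul.toAddMonoidHom C σ) _ _
  rw [h1, h2, twistMap_apply, ← Finset.sum_add_distrib]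
  have h3 : ∀ ρ, (u : Δ × Δ → C) (σ * τ, ρ) + (u : Δ × Δ → C) (σ, τ) =
      σ • (u : Δ × Δ → C) (τ, ρ) + (u : Δ × Δ → C) (σ, τ * ρ) := fun ρ => u.2 σ τ ρ
  have h4 : ∀ ρ, σ • (u : Δ × Δ → C) (τ, ρ) + (u : Δ × Δ → C) (σ, τ * ρ) =
      (u : Δ × Δ → C) (σ * τ, ρ) + (u : Δ × Δ → C) (σ, τ) := fun ρ => (h3 ρ).symm
  simp only [← smul_add, h4]
  simp only [smul_add, Finset.sum_add_distrib, ← Finset.sum_smul, ← ZG.total_apply,
    Aug.total_val, zero_smul, add_zero]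

theorem twistMap_one (u : Z2 Δ C) (i : Aug Δ) : twistMap (u : Δ × Δ → C) 1 i = 0 := by
  simp only [twistMap_apply, map_one_fst_of_isCocycle₂ (mem_Z2.1 u.2), ← Finset.sum_smul,
    ← ZG.total_apply, Aug.total_val, zero_smul]

/-- The splitting module of a cocycle. -/
def Spl (_u : Z2 Δ C) : Type := C × Aug Δ

variable (u : Z2 Δ C)

instance : AddCommGroup (Spl u) := inferInstanceAs (AddCommGroup (C × Aug Δ))

/-- The inclusion of `C`. -/
def Spl.inl : C →+ Spl u := AddMonoidHom.inl C (Aug Δ)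

/-- The non equivariant section over the augmentation module. -/
def Spl.inr : Aug Δ →+ Spl u := AddMonoidHom.inr C (Aug Δ)

/-- The projection to the augmentation module. -/
def Spl.snd : Spl u →+ Aug Δ := AddMonoidHom.snd C (Aug Δ)

/-- The first coordinate (not equivariant). -/
def Spl.fst : Spl u →+ C := AddMonoidHom.fst C (Aug Δ)

variable {u}

theorem Spl.ext {x y : Spl u} (h₁ : Spl.fst u x = Spl.fst u y) (h₂ : Spl.snd u x = Spl.snd u y) :
    x = y := Prod.ext h₁ h₂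

@[simp] theorem Spl.fst_inl (c : C) : Spl.fst u (Spl.inl u c) = c := rfl
@[simp] theorem Spl.snd_inl (c : C) : Spl.snd u (Spl.inl u c) = 0 := rfl
@[simp] theorem Spl.fst_inr (i : Aug Δ) : Spl.fst u (Spl.inr u i) = 0 := rfl
@[simp] theorem Spl.snd_inr (i : Aug Δ) : Spl.snd u (Spl.inr u i) = i := rfl

theorem Spl.inl_fst {x : Spl u} (h : Spl.snd u x = 0) : Spl.inl u (Spl.fst u x) = x :=
  Spl.ext rfl (by simp [h])

instance : SMul Δ (Spl u) :=
  ⟨fun σ x => Spl.inl u (σ • Spl.fst u x + twistMap (u : Δ × Δ → C) σ (Spl.snd u x)) +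
    Spl.inr u (σ • Spl.snd u x)⟩

@[simp] theorem Spl.fst_smul (σ : Δ) (x : Spl u) :
    Spl.fst u (σ • x) = σ • Spl.fst u x + twistMap (u : Δ × Δ → C) σ (Spl.snd u x) := by
  change Spl.fst u (Spl.inl u _ + Spl.inr u _) = _
  simp

@[simp] theorem Spl.snd_smul (σ : Δ) (x : Spl u) : Spl.snd u (σ • x) = σ • Spl.snd u x := by
  change Spl.snd u (Spl.inl u _ + Spl.inr u _) = _
  simp

instance : DistribMulAction Δ (Spl u) where
  one_smul x := Spl.ext (by simp [twistMap_one]) (by simp)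
  mul_smul σ τ x := Spl.ext (by simp [twistMap_mul, mul_smul, smul_add, add_assoc])
    (by simp [mul_smul])
  smul_zero σ := Spl.ext (by simp) (by simp)
  smul_add σ x y := Spl.ext (by simp [smul_add]; abel) (by simp)

theorem Spl.inl_isEquivariant : IsEquivariant Δ (Spl.inl u) :=
  fun σ c => Spl.ext (by simp) (by simp)

theorem Spl.smul_inr_diff (σ τ : Δ) :
    σ • Spl.inr u (Aug.diff τ) - Spl.inr u (Aug.diff (σ * τ)) + Spl.inr u (Aug.diff σ) =
      Spl.inl u ((u : Δ × Δ → C) (σ, τ) - (u : Δ × Δ → C) (σ, 1)) := by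
  refine Spl.ext (by simp [twistMap_diff]) (Aug.val_injective ?_)
  simp [Aug.diff, smul_sub, ZG.smul_basis]

/-- Data lifting an invariant functional on the double shift of `R` to the splitting module. -/
structure SplitLift {R : Type} [AddCommGroup R] [DistribMulAction Δ R] (u : Z2 Δ C)
    (ψ : Up Δ (Up Δ R) →+ ℤ) (f : R →+ C) : Prop where
  exists_maps : ∃ (F₁ : Co Δ (Up Δ R) →+ ZG Δ) (F₀ : Co Δ R →+ Spl u),
    IsEquivariant Δ F₁ ∧ IsEquivariant Δ F₀ ∧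
    (∀ y, ZG.total (F₁ y) = ψ (Up.proj Δ (Up Δ R) y)) ∧
    (∀ F, Aug.val (Spl.snd u (F₀ F)) = F₁ (Co.const Δ (Up Δ R) (Up.proj Δ R F))) ∧
    ∀ r, F₀ (Co.const Δ R r) = Spl.inl u (f r)

variable {R : Type} [AddCommGroup R] [DistribMulAction Δ R]

theorem SplitLift.isEquivariant {ψ : Up Δ (Up Δ R) →+ ℤ} {f : R →+ C} (h : SplitLift u ψ f) :
    IsEquivariant Δ f := by
  obtain ⟨F₁, F₀, -, h₀, -, -, hf⟩ := h.exists_maps
  intro σ r
  have := congrArg (Spl.fst u) (hf (σ • r))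
  rwa [Co.const_isEquivariant, h₀, hf, ← Spl.inl_isEquivariant, Spl.fst_inl, Spl.fst_inl,
    eq_comm] at this

theorem SplitLift.sub {ψ ψ' : Up Δ (Up Δ R) →+ ℤ} {f f' : R →+ C} (h : SplitLift u ψ f)
    (h' : SplitLift u ψ' f') : SplitLift u (ψ - ψ') (f - f') := by
  obtain ⟨F₁, F₀, e₁, e₀, t, s, c⟩ := h.exists_maps
  obtain ⟨F₁', F₀', e₁', e₀', t', s', c'⟩ := h'.exists_maps
  exact ⟨F₁ - F₁', F₀ - F₀', e₁.sub e₁', e₀.sub e₀', fun y => by simp [t y, t' y],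
    fun F => by simp [s F, s' F], fun r => by simp [c r, c' r]⟩

theorem SplitLift.comp {R' : Type} [AddCommGroup R'] [DistribMulAction Δ R'] {ι : R →+ R'}
    (hι : IsEquivariant Δ ι) {ψ : Up Δ (Up Δ R') →+ ℤ} {f : R' →+ C} (h : SplitLift u ψ f) :
    SplitLift u (ψ.comp (Up.map (Up.map ι))) (f.comp ι) := by
  obtain ⟨F₁, F₀, e₁, e₀, t, s, c⟩ := h.exists_maps
  refine ⟨F₁.comp (Co.map (Up.map ι)), F₀.comp (Co.map ι),
    e₁.comp (Co.map_isEquivariant (Up.map_isEquivariant hι)), e₀.comp (Co.map_isEquivariant hι),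
    fun y => ?_, fun F => ?_, fun r => ?_⟩
  · simp [t, Up.map_proj]
  · have : Co.map (Δ := Δ) (Up.map ι) (Co.const Δ (Up Δ R) (Up.proj Δ R F)) =
        Co.const Δ (Up Δ R') (Up.proj Δ R' (Co.map ι F)) := by
      ext τ : 1
      simp [Up.map_proj]
    simp [s, this]
  · exact c (ι r)

/-- Every invariant functional lifts. -/
theorem exists_splitLift (u : Z2 Δ C) {ψ : Up Δ (Up Δ R) →+ ℤ} (hψ : IsInvariantFn Δ ψ) :
    ∃ f : R →+ C, SplitLift u ψ f := by
  classical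
  let h₁ : Up Δ R →+ ZG Δ :=
    (zmultiplesHom (ZG Δ) (ZG.basis 1)).comp
      (ψ.comp ((Up.proj Δ (Up Δ R)).comp (Co.single Δ (Up Δ R))))
  let F₁ : Co Δ (Up Δ R) →+ ZG Δ := nm (Δ := Δ) (h₁.comp (Co.ev 1))
  have e₁ : IsEquivariant Δ F₁ := nm_isEquivariant _
  have t : ∀ y, ZG.total (F₁ y) = ψ (Up.proj Δ (Up Δ R) y) := by
    intro y
    conv_lhs => rw [← Co.sum_smul_single y]
    conv_rhs => rw [← Co.sum_smul_single y]
    simp only [map_sum, e₁ _ _, ZG.total_smul, Up.proj_smul, hψ _ _]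
    refine Finset.sum_congr rfl fun τ _ => ?_
    simp [F₁, Co.nm_ev_one_single, h₁]
  let g : Up Δ R →+ Aug Δ := AddMonoidHom.codRestrict (F₁.comp (Co.const Δ (Up Δ R))) (augSub Δ)
    fun x => by
      change ZG.total (F₁ _) = 0
      rw [t, Up.proj_const, map_zero]
  have hg : IsEquivariant Δ g := fun σ x => Aug.val_injective <| by
    change F₁ (Co.const Δ (Up Δ R) (σ • x)) = σ • F₁ (Co.const Δ (Up Δ R) x)
    rw [Co.const_isEquivariant, e₁]
  let F₀ : Co Δ R →+ Spl u :=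
    nm (Δ := Δ) (((Spl.inr u).comp (g.comp ((Up.proj Δ R).comp (Co.single Δ R)))).comp (Co.ev 1))
  have e₀ : IsEquivariant Δ F₀ := nm_isEquivariant _
  have s : ∀ F, Spl.snd u (F₀ F) = g (Up.proj Δ R F) := by
    intro F
    conv_lhs => rw [← Co.sum_smul_single F]
    conv_rhs => rw [← Co.sum_smul_single F]
    simp only [map_sum, e₀ _ _, Spl.snd_smul, Up.proj_smul, hg _ _]
    refine Finset.sum_congr rfl fun τ _ => ?_
    simp [F₀, Co.nm_ev_one_single]
  refine ⟨(Spl.fst u).comp (F₀.comp (Co.const Δ R)),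
    ⟨F₁, F₀, e₁, e₀, t, fun F => congrArg Aug.val (s F), fun r => ?_⟩⟩
  refine (Spl.inl_fst ?_).symm
  rw [s, Up.proj_const, map_zero]

/-- A lift of a norm is a norm. -/
theorem SplitLift.eq_nm {φ : Up Δ (Up Δ R) →+ ℤ} {ψ : Up Δ (Up Δ R) →+ ℤ}
    (hψφ : ∀ x, ψ x = ∑ τ : Δ, φ (τ • x)) {f : R →+ C} (h : SplitLift u ψ f) :
    ∃ d : R →+ C, f = nm (Δ := Δ) d := by
  obtain ⟨F₁, F₀, e₁, e₀, t, s, c⟩ := h.exists_maps
  let φ₁ : Co Δ (Up Δ R) →+ ZG Δ :=
    (zmultiplesHom (ZG Δ) (ZG.basis 1)).comp (φ.comp (Up.proj Δ (Up Δ R)))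
  have tφ : ∀ y, ZG.total (nm (Δ := Δ) φ₁ y) = ψ (Up.proj Δ (Up Δ R) y) := fun y => by
    rw [hψφ, nm_apply, map_sum]
    exact Fintype.sum_equiv (Equiv.inv Δ) _ _ fun τ => by simp [φ₁, Up.proj_smul]
  let G : Co Δ (Up Δ R) →+ Aug Δ := AddMonoidHom.codRestrict (F₁ - nm (Δ := Δ) φ₁) (augSub Δ)
    fun y => by
      change ZG.total _ = 0
      simp [t, tφ]
  have eG : IsEquivariant Δ G := fun σ y => Aug.val_injective <| by
    change (F₁ - nm (Δ := Δ) φ₁) (σ • y) = σ • (F₁ - nm (Δ := Δ) φ₁) y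
    exact (e₁.sub (nm_isEquivariant _)) σ y
  let g' : Co Δ (Up Δ R) →+ Aug Δ := (G.comp (Co.single Δ (Up Δ R))).comp (Co.ev 1)
  have hG : G = nm (Δ := Δ) g' := Co.eq_nm eG
  let k : Up Δ R →+ Aug Δ := AddMonoidHom.codRestrict
    ((φ₁ + Aug.val.comp g').comp (Co.const Δ (Up Δ R))) (augSub Δ) fun x => by
      change ZG.total _ = 0
      simp [φ₁]
  have hk : ∀ x, F₁ (Co.const Δ (Up Δ R) x) = Aug.val (nm (Δ := Δ) k x) := by
    intro x
    have hGx : F₁ (Co.const Δ (Up Δ R) x) - nm (Δ := Δ) φ₁ (Co.const Δ (Up Δ R) x) =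
        Aug.val (nm (Δ := Δ) g' (Co.const Δ (Up Δ R) x)) := by
      rw [← hG]; rfl
    rw [sub_eq_iff_eq_add] at hGx
    rw [hGx, nm_apply, nm_apply, nm_apply, map_sum, map_sum, ← Finset.sum_add_distrib]
    refine Finset.sum_congr rfl fun τ _ => ?_
    simp only [Aug.val_smul]
    change _ = τ • (φ₁ (Co.const Δ (Up Δ R) (τ⁻¹ • x)) + Aug.val (g' (Co.const Δ (Up Δ R) (τ⁻¹ • x))))
    rw [Co.const_isEquivariant, smul_add, add_comm]
  let K₀ : Co Δ R →+ Spl u := (Spl.inr u).comp (k.comp (Up.proj Δ R))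
  have hK : ∀ F, Spl.snd u ((F₀ - nm (Δ := Δ) K₀) F) = 0 := fun F => by
    have h1 : Spl.snd u (nm (Δ := Δ) K₀ F) = nm (Δ := Δ) k (Up.proj Δ R F) := by
      simp [nm_apply, map_sum, K₀, Up.proj_smul]
    apply Aug.val_injective
    simp [h1, s, hk]
  let D : Co Δ R →+ C := (Spl.fst u).comp (F₀ - nm (Δ := Δ) K₀)
  have eD : IsEquivariant Δ D := fun σ F => by
    have := congrArg (Spl.fst u) ((e₀.sub (nm_isEquivariant K₀)) σ F)
    rw [Spl.fst_smul, hK F, map_zero, add_zero] at this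
    exact this
  let d₁ : Co Δ R →+ C := (D.comp (Co.single Δ R)).comp (Co.ev 1)
  have hD : D = nm (Δ := Δ) d₁ := Co.eq_nm eD
  refine ⟨d₁.comp (Co.const Δ R), ?_⟩
  rw [nm_comp_right Co.const_isEquivariant, ← hD]
  refine AddMonoidHom.ext fun r => ?_
  have hz : nm (Δ := Δ) K₀ (Co.const Δ R r) = 0 := by
    simp [nm_apply, K₀, ← Co.const_isEquivariant _ r]
  simp [D, hz, c]

/-- `z` shifts to `y₂` on the double shift. -/
def ShiftRel (z : Δ × Δ → R) (y₂ : Up Δ (Up Δ R)) : Prop :=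
  ∃ (β : Δ → Co Δ R) (y : Co Δ (Up Δ R)),
    (∀ g h, g • β h - β (g * h) + β g = Co.const Δ R (z (g, h))) ∧
    (∀ g, Co.const Δ (Up Δ R) (Up.proj Δ R (β g)) = g • y - y) ∧
    Up.proj Δ (Up Δ R) y = y₂

/-- The value of the pairing. -/
theorem SplitLift.apply_shift {ψ : Up Δ (Up Δ R) →+ ℤ} {f : R →+ C} (h : SplitLift u ψ f)
    {z : Δ × Δ → R} {y₂ : Up Δ (Up Δ R)} (hz : ShiftRel z y₂) :
    IsCoboundary₂ (fun g : Δ × Δ => f (z g) - ψ y₂ • (u : Δ × Δ → C) g) := by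
  obtain ⟨F₁, F₀, e₁, e₀, t, s, c⟩ := h.exists_maps
  obtain ⟨β, y, hβ, hy, hy₂⟩ := hz
  set k : ℤ := ψ y₂
  let i₀ : Aug Δ := Aug.mk (F₁ y - k • ZG.basis 1) (by simp [t, hy₂, k])
  -- the first coordinate after removing the explicit part
  let e : Δ → Spl u := fun g =>
    F₀ (β g) - k • Spl.inr u (Aug.diff g) - (g • Spl.inr u i₀ - Spl.inr u i₀)
  have he : ∀ g, Spl.snd u (e g) = 0 := fun g => by
    apply Aug.val_injective
    have hk1 : g • (k • ZG.basis (1 : Δ)) = k • ZG.basis g := by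
      rw [show g • (k • ZG.basis (1 : Δ)) = k • g • ZG.basis (1 : Δ) from
        map_zsmul (DistribSMul.toAddMonoidHom (ZG Δ) g) k _, ZG.smul_basis, mul_one]
    simp only [e, map_sub, map_zsmul, Spl.snd_smul, Spl.snd_inr, Aug.val_smul, s, hy, e₁ g y,
      Aug.diff, Aug.val_mk, i₀, smul_sub, map_zero, hk1]
    abel
  refine ⟨fun g => Spl.fst u (e g) - k • (u : Δ × Δ → C) (1, 1), fun g h => ?_⟩
  have key : g • e h - e (g * h) + e g =
      Spl.inl u (f (z (g, h)) - k • ((u : Δ × Δ → C) (g, h) - (u : Δ × Δ → C) (g, 1))) := by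
    rw [map_sub, map_zsmul, ← c, ← Spl.smul_inr_diff, ← hβ]
    simp only [e, map_add, map_sub, e₀ g _, smul_sub, smul_add, mul_smul,
      show g • (k • Spl.inr u (Aug.diff h)) = k • g • Spl.inr u (Aug.diff h) from
        map_zsmul (DistribSMul.toAddMonoidHom (Spl u) g) k _]
    abel
  have key' := congrArg (Spl.fst u) key
  simp only [map_add, map_sub, Spl.fst_smul, he, map_zero, add_zero, Spl.fst_inl,
    map_one_snd_of_isCocycle₂ (mem_Z2.1 u.2) g, smul_sub] at key'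
  have hk2 : g • (k • (u : Δ × Δ → C) (1, 1)) = k • g • (u : Δ × Δ → C) (1, 1) :=
    map_zsmul (DistribSMul.toAddMonoidHom C g) k _
  rw [smul_sub, hk2]
  dsimp only
  linear_combination (norm := abel) key'

end Fermat.Agent.PoitouTate
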