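/-
Cocycles with values in homomorphisms from a lattice.

If `B` has trivial `H¹` and `H²` over a finite `p`-group `P` then `H¹(P, Hom(X, B)) = 0` for every
lattice `X`: the restriction to `pX` is surjective, so multiplication by `p` is surjective on a
group killed by `#P`.
-/
import Fermat.Agent.PoitouTate.AlgebraSplit
import Mathlib.GroupTheory.PGroup
import Mathlib.Algebra.Module.Projective
import Mathlib.GroupTheory.FiniteAbelian.Basic

set_option autoImplicit false

open groupCohomology

noncomputable section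

namespace Fermat.Agent.PoitouTate

variable {P : Type} [Group P]

/-- A 1-cocycle with values in `Hom(X, B)`. -/
def IsHomCocycle {X B : Type} [AddCommGroup X] [DistribMulAction P X] [AddCommGroup B]
    [DistribMulAction P B] (c : P → (X →+ B)) : Prop :=
  ∀ (g h : P) (x : X), c (g * h) x = g • c h (g⁻¹ • x) + c g x

/-- A 1-coboundary with values in `Hom(X, B)`. -/
def homCob {X B : Type} [AddCommGroup X] [DistribMulAction P X] [AddCommGroup B]
    [DistribMulAction P B] (b : X →+ B) (g : P) : X →+ B :=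
  (DistribSMul.toAddMonoidHom B g).comp (b.comp (DistribSMul.toAddMonoidHom X g⁻¹)) - b

section

variable {X B : Type} [AddCommGroup X] [DistribMulAction P X] [AddCommGroup B]
  [DistribMulAction P B]

@[simp] theorem homCob_apply (b : X →+ B) (g : P) (x : X) :
    homCob b g x = g • b (g⁻¹ • x) - b x := rfl

theorem homCob_isHomCocycle (b : X →+ B) : IsHomCocycle (homCob (P := P) b) := by
  intro g h x
  simp [mul_smul, smul_sub]

theorem IsHomCocycle.sub {c c' : P → (X →+ B)} (hc : IsHomCocycle c) (hc' : IsHomCocycle c') :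
    IsHomCocycle fun g => c g - c' g := by
  intro g h x
  simp [hc g h x, hc' g h x, smul_sub]
  abel

end

section Kernel

variable (P) [Fintype P] (p : ℕ)

/-- Elements of the group ring with augmentation divisible by `p`. -/
def kerModSub : AddSubgroup (ZG P) := (AddSubgroup.zmultiples (p : ℤ)).comap (ZG.total (Δ := P))

/-- Elements of the group ring with augmentation divisible by `p`. -/
def KerMod : Type := ↥(kerModSub P p)

instance : AddCommGroup (KerMod P p) := inferInstanceAs (AddCommGroup ↥(kerModSub P p))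

/-- The inclusion. -/
def KerMod.val : KerMod P p →+ ZG P := (kerModSub P p).subtype

variable {P p}

theorem KerMod.val_injective : Function.Injective (KerMod.val P p) := Subtype.coe_injective

theorem KerMod.dvd_total (f : KerMod P p) : (p : ℤ) ∣ ZG.total (KerMod.val P p f) :=
  Int.mem_zmultiples_iff.1 f.2

/-- Constructor. -/
def KerMod.mk (F : ZG P) (h : (p : ℤ) ∣ ZG.total F) : KerMod P p :=
  ⟨F, Int.mem_zmultiples_iff.2 h⟩

@[simp] theorem KerMod.val_mk (F : ZG P) (h : (p : ℤ) ∣ ZG.total F) :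
    KerMod.val P p (KerMod.mk F h) = F := rfl

instance : SMul P (KerMod P p) :=
  ⟨fun g f => KerMod.mk (g • KerMod.val P p f) (by simpa using f.dvd_total)⟩

@[simp] theorem KerMod.val_smul (g : P) (f : KerMod P p) :
    KerMod.val P p (g • f) = g • KerMod.val P p f := rfl

instance : DistribMulAction P (KerMod P p) where
  one_smul f := KerMod.val_injective (by simp)
  mul_smul g h f := KerMod.val_injective (by simp [mul_smul])
  smul_zero g := KerMod.val_injective (by simp)
  smul_add g f f' := KerMod.val_injective (by simp)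

variable {B : Type} [AddCommGroup B] [DistribMulAction P B]

theorem KerMod.exists_cob
    (hB1 : ∀ c : P → B, IsCocycle₁ c → IsCoboundary₁ c)
    (hB2 : ∀ z : P × P → B, IsCocycle₂ z → IsCoboundary₂ z) (hp : p ≠ 0)
    {c : P → (KerMod P p →+ B)} (hc : IsHomCocycle c) :
    ∃ b : KerMod P p →+ B, ∀ g, c g = homCob b g := by
  classical
  let j : P → KerMod P p := fun ρ => KerMod.mk (ZG.basis ρ - ZG.basis 1) (by simp)
  have hj : ∀ g ρ : P, g • j ρ = j (g * ρ) - j g := fun g ρ => KerMod.val_injective <| by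
    simp [j, smul_sub, ZG.smul_basis]
  have hj1 : j 1 = 0 := KerMod.val_injective (by simp [j])
  let t : KerMod P p := KerMod.mk ((p : ℤ) • ZG.basis 1) (by simp)
  let z : P × P → B := fun x => c x.1 (j (x.1 * x.2) - j x.1)
  have hz : IsCocycle₂ z := by
    intro g h k
    simp only [z]
    rw [hc g h]
    have e1 : g⁻¹ • (j (g * h * k) - j (g * h)) = j (h * k) - j h := by
      simp [smul_sub, hj, mul_assoc]
    rw [e1]
    simp only [map_sub, smul_sub, mul_assoc]
    abel
  obtain ⟨β, hβ⟩ := hB2 z hz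
  have hβ1 : β 1 = 0 := by
    have := hβ 1 1
    simpa [z, hj1] using this
  -- the coordinate functional
  let e : KerMod P p →+ ℤ := AddMonoidHom.mk' (fun f => ZG.total (KerMod.val P p f) / (p : ℤ))
    fun f f' => by
      rw [map_add, map_add, Int.add_ediv_of_dvd_left f.dvd_total]
  have het : e t = 1 := by
    simp only [e, t, AddMonoidHom.mk'_apply, KerMod.val_mk, map_zsmul, ZG.total_basis, smul_eq_mul,
      mul_one]
    exact Int.ediv_self (by exact_mod_cast hp)
  let b₀ : KerMod P p →+ B :=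
    AddMonoidHom.mk' (fun f => ∑ ρ : P, ZG.ev ρ (KerMod.val P p f) • β ρ) fun f f' => by
      simp [add_smul, Finset.sum_add_distrib]
  have hb₀ : ∀ ρ, b₀ (j ρ) = β ρ := fun ρ => by
    simp [b₀, j, ZG.ev_basis, sub_smul, Finset.sum_sub_distrib, ite_smul, hβ1]
  have h₀ : ∀ g ρ, c g (j ρ) = homCob b₀ g (j ρ) := by
    intro g ρ
    have e1 : g⁻¹ • j ρ = j (g⁻¹ * ρ) - j g⁻¹ := hj _ _
    rw [homCob_apply, e1, map_sub, hb₀, hb₀, hb₀, smul_sub]
    have h1 := hβ g (g⁻¹ * ρ)
    have h2 := hβ g g⁻¹
    simp only [z, mul_inv_cancel_left, mul_inv_cancel, hj1, hβ1, map_sub, map_zero] at h1 h2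
    linear_combination (norm := abel) -h1 + h2
  let c₁ : P → B := fun g => c g t - homCob b₀ g t
  have hc₁' := hc.sub (homCob_isHomCocycle b₀)
  have hdecomp : ∀ f : KerMod P p,
      f = (∑ ρ : P, ZG.ev ρ (KerMod.val P p f) • j ρ) + e f • t := by
    intro f
    apply KerMod.val_injective
    have hdiv : ZG.total (KerMod.val P p f) = (ZG.total (KerMod.val P p f) / (p : ℤ)) * p :=
      (Int.ediv_mul_cancel f.dvd_total).symm
    simp only [map_add, map_sum, map_zsmul, j, t, e, KerMod.val_mk, smul_sub,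
      Finset.sum_sub_distrib, ← Finset.sum_smul, ← ZG.total_apply, AddMonoidHom.mk'_apply,
      ← mul_smul, ZG.sum_ev_mul_basis, ← hdiv, sub_add_cancel]
  have hvan : ∀ g ρ, c g (j ρ) - homCob b₀ g (j ρ) = 0 := fun g ρ => sub_eq_zero.2 (h₀ g ρ)
  have het' : ∀ g : P, e (g • t) = 1 := fun g => by
    have : e (g • t) = e t := by simp [e]
    rw [this, het]
  have hval : ∀ g f, c g f - homCob b₀ g f = e f • c₁ g := by
    intro g f
    conv_lhs => rw [hdecomp f]
    simp only [map_add, map_sum, map_zsmul, add_sub_add_comm, ← Finset.sum_sub_distrib,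
      ← smul_sub, hvan, smul_zero, Finset.sum_const_zero, zero_add]
    rfl
  have hc₁ : IsCocycle₁ c₁ := by
    intro g h
    have := hc₁' g h t
    simp only [AddMonoidHom.sub_apply] at this
    rw [hval h (g⁻¹ • t), het', one_smul] at this
    exact this
  obtain ⟨w, hw⟩ := hB1 c₁ hc₁
  refine ⟨b₀ + (zmultiplesHom B w).comp e, fun g => AddMonoidHom.ext fun f => ?_⟩
  have : e (g⁻¹ • f) = e f := by simp [e]
  rw [← sub_eq_zero]
  simp only [homCob_apply, AddMonoidHom.add_apply, AddMonoidHom.comp_apply, zmultiplesHom_apply,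
    this, smul_add]
  have h3 := hval g f
  rw [homCob_apply, ← hw g, smul_sub] at h3
  rw [show g • (e f • w) = e f • g • w from map_zsmul (DistribSMul.toAddMonoidHom B g) _ _]
  linear_combination (norm := abel) h3

end Kernel

section Step

variable [Fintype P] {p : ℕ}
variable {R R' B : Type} [AddCommGroup R] [DistribMulAction P R] [AddCommGroup R']
  [DistribMulAction P R'] [Module.Free ℤ R'] [AddCommGroup B] [DistribMulAction P B]

/-- Surjectivity of restriction along a trivial quotient of order `p`. -/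
theorem exists_extend_step (hpp : p.Prime)
    (hB1 : ∀ c : P → B, IsCocycle₁ c → IsCoboundary₁ c)
    (hB2 : ∀ z : P × P → B, IsCocycle₂ z → IsCoboundary₂ z)
    (j : R →+ R') (hj : IsEquivariant P j) (hinj : Function.Injective j) (r : R')
    (hr : r ∉ j.range) (hpr : (p : ℤ) • r ∈ j.range) (hgr : ∀ g : P, g • r - r ∈ j.range)
    (hgen : ∀ y : R', ∃ k : ℤ, y - k • r ∈ j.range)
    {c : P → (R →+ B)} (hc : IsHomCocycle c) :
    ∃ (c' : P → (R' →+ B)) (b : R →+ B), IsHomCocycle c' ∧
      ∀ g x, c' g (j x) = c g x - homCob b g x := by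
  classical
  let φ : ZG P →+ R' := AddMonoidHom.mk' (fun f => ∑ τ : P, ZG.ev τ f • τ • r) fun f f' => by
    simp [add_smul, Finset.sum_add_distrib]
  have hφ : ∀ (g : P) (f : ZG P), φ (g • f) = g • φ f := by
    intro g f
    simp only [φ, AddMonoidHom.mk'_apply, Finset.smul_sum, ZG.ev_smul]
    refine Fintype.sum_equiv (Equiv.mulLeft g⁻¹) _ _ fun τ => ?_
    rw [show g • (ZG.ev (Equiv.mulLeft g⁻¹ τ) f • (Equiv.mulLeft g⁻¹ τ) • r) =
      ZG.ev (Equiv.mulLeft g⁻¹ τ) f • g • (Equiv.mulLeft g⁻¹ τ) • r from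
        map_zsmul (DistribSMul.toAddMonoidHom R' g) _ _]
    simp [← mul_smul]
  have hmod : ∀ f, φ f - ZG.total f • r ∈ j.range := fun f => by
    have : φ f - ZG.total f • r = ∑ τ : P, ZG.ev τ f • (τ • r - r) := by
      simp [φ, ZG.total_apply, Finset.sum_smul, smul_sub, Finset.sum_sub_distrib]
    rw [this]
    exact sum_mem fun τ _ => zsmul_mem (hgr τ) _
  have hmemK : ∀ f : KerMod P p, φ (KerMod.val P p f) ∈ j.range := fun f => by
    obtain ⟨m, hm⟩ := f.dvd_total
    have h1 : ZG.total (KerMod.val P p f) • r ∈ j.range := by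
      rw [hm, mul_comm, mul_smul]; exact zsmul_mem hpr m
    have := add_mem (hmod (KerMod.val P p f)) h1
    rwa [sub_add_cancel] at this
  let κ : KerMod P p →+ R := AddMonoidHom.mk' (fun f => (hmemK f).choose) fun f f' => hinj <|
    ((hmemK (f + f')).choose_spec.trans ((congrArg φ (map_add (KerMod.val P p) f f')).trans
      ((map_add φ _ _).trans (congrArg₂ (· + ·) (hmemK f).choose_spec
        (hmemK f').choose_spec).symm))).trans (map_add j _ _).symm
  have hκ : ∀ f, j (κ f) = φ (KerMod.val P p f) := fun f => (hmemK f).choose_spec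
  have hκe : IsEquivariant P κ := fun g f => hinj <| by
    rw [hκ, hj, hκ, KerMod.val_smul, hφ]
  have hcK : IsHomCocycle fun g => -((c g).comp κ) := fun g h f => by
    simp only [AddMonoidHom.neg_apply, AddMonoidHom.comp_apply, hc g h (κ f), ← hκe g⁻¹ f,
      smul_neg, neg_add]
  obtain ⟨bK, hbK⟩ := KerMod.exists_cob hB1 hB2 hpp.ne_zero hcK
  let π : R × ZG P →+ R' := j.coprod φ
  have hπ : Function.Surjective π.toIntLinearMap := fun y => by
    obtain ⟨k, x, hx⟩ := hgen y
    refine ⟨(x, k • ZG.basis 1), ?_⟩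
    have : φ (ZG.basis 1) = r := by simp [φ, ZG.ev_basis, ite_smul]
    simp [π, hx, this]
  obtain ⟨s, hs⟩ := Module.projective_lifting_property π.toIntLinearMap LinearMap.id hπ
  have hs' : ∀ y, π (s y) = y := fun y => LinearMap.congr_fun hs y
  have hker : ∀ e : R × ZG P, π e = 0 → (p : ℤ) ∣ ZG.total e.2 := by
    rintro ⟨x, f⟩ h
    change j x + φ f = 0 at h
    have h1 : ZG.total f • r ∈ j.range := by
      have h2 : φ f ∈ j.range := by
        rw [eq_neg_of_add_eq_zero_right h]
        exact neg_mem ⟨x, rfl⟩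
      simpa using sub_mem h2 (hmod f)
    by_contra hnd
    apply hr
    obtain ⟨u, v, huv⟩ := Int.isCoprime_iff_gcd_eq_one.2 (show Int.gcd (ZG.total f) (p : ℤ) = 1 from
      Int.gcd_comm _ _ ▸ (Nat.Prime.coprime_iff_not_dvd hpp).2 fun hd => hnd (Int.natCast_dvd.2 hd))
    have : (u * ZG.total f + v * (p : ℤ)) • r ∈ j.range := by
      rw [add_smul, mul_smul, mul_smul]
      exact add_mem (zsmul_mem h1 u) (zsmul_mem hpr v)
    rwa [huv, one_smul] at this
  let ν : R × ZG P →+ KerMod P p := AddMonoidHom.mk'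
    (fun e => KerMod.mk (e - s (π e)).2 (hker _ (by rw [map_sub, hs', sub_self])))
    fun e e' => KerMod.val_injective <| by
      simp only [map_add, KerMod.val_mk, Prod.snd_sub, Prod.snd_add]
      abel
  have hν : ∀ (x : R) (f : ZG P), π (x, f) = 0 → ∃ k : KerMod P p,
      KerMod.val P p k = f ∧ κ k = -x ∧ ν (x, f) = k := by
    intro x f h
    refine ⟨KerMod.mk f (hker (x, f) h), rfl, hinj ?_, KerMod.val_injective ?_⟩
    · rw [hκ, map_neg, KerMod.val_mk]
      exact eq_neg_of_add_eq_zero_right h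
    · simp [ν, h]
  let bE : R × ZG P →+ B := bK.comp ν
  let act : P → R × ZG P → R × ZG P := fun g e => (g • e.1, g • e.2)
  let actHom : P → (R × ZG P →+ R × ZG P) := fun g => AddMonoidHom.mk' (act g) fun e e' => by
    simp [act]
  have hπact : ∀ g e, π (act g e) = g • π e := fun g e => by
    simp [π, act, hj g, hφ g, smul_add]
  let cE : P → (R × ZG P →+ B) := fun g =>
    (c g).comp (AddMonoidHom.fst R (ZG P)) -
      ((DistribSMul.toAddMonoidHom B g).comp (bE.comp (actHom g⁻¹)) - bE)
  have hcE : ∀ g e, cE g e = c g e.1 - (g • bE (act g⁻¹ e) - bE e) := fun g e => rfl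
  have hcE0 : ∀ g e, π e = 0 → cE g e = 0 := by
    rintro g ⟨x, f⟩ h
    obtain ⟨k, hk, hkx, hνk⟩ := hν x f h
    have h' : π (act g⁻¹ (x, f)) = 0 := by rw [hπact, h, smul_zero]
    obtain ⟨k', hk', -, hνk'⟩ := hν _ _ h'
    have hkk : k' = g⁻¹ • k := KerMod.val_injective (by rw [hk', KerMod.val_smul, hk])
    have e1 := DFunLike.congr_fun (hbK g) k
    simp only [AddMonoidHom.neg_apply, AddMonoidHom.comp_apply, homCob_apply, hkx, map_neg,
      neg_neg] at e1
    rw [hcE]
    simp only [bE, AddMonoidHom.comp_apply]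
    rw [show ν (act g⁻¹ (x, f)) = k' from hνk', hνk, hkk, e1, sub_self]
  have hcoc : ∀ g h e, cE (g * h) e = g • cE h (act g⁻¹ e) + cE g e := by
    intro g h e
    simp only [hcE, hc g h e.1, act, mul_inv_rev, mul_smul, smul_sub]
    abel
  let c' : P → (R' →+ B) := fun g => (cE g).comp s.toAddMonoidHom
  have hc's : ∀ g e, c' g (π e) = cE g e := fun g e => by
    change cE g (s (π e)) = cE g e
    rw [← sub_eq_zero, ← map_sub]
    exact hcE0 g _ (by rw [map_sub, hs', sub_self])
  refine ⟨c', bE.comp (AddMonoidHom.inl R (ZG P)), fun g h y => ?_, fun g x => ?_⟩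
  · have : π (act g⁻¹ (s y)) = g⁻¹ • y := by rw [hπact, hs']
    rw [← this, hc's]
    exact hcoc g h (s y)
  · have := hc's g (x, 0)
    simp only [π, AddMonoidHom.coprod_apply, map_zero, add_zero] at this
    rw [this, hcE]
    simp [act, homCob_apply]

end Step

section Main

variable [Fintype P] (p : ℕ) [Fact p.Prime]
variable {X B : Type} [AddCommGroup X] [DistribMulAction P X] [Module.Free ℤ X]
  [Module.Finite ℤ X] [AddCommGroup B] [DistribMulAction P B]

variable (P) in
/-- Stable subgroups. -/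
structure StableSub (X : Type) [AddCommGroup X] [DistribMulAction P X] where
  /-- The subgroup. -/
  toSub : AddSubgroup X
  smul_mem : ∀ (g : P) {x : X}, x ∈ toSub → g • x ∈ toSub

/-- The underlying type of a stable subgroup. -/
def StableSub.Carrier (R : StableSub P X) : Type := ↥R.toSub

instance (R : StableSub P X) : AddCommGroup R.Carrier := inferInstanceAs (AddCommGroup ↥R.toSub)

/-- The inclusion of a stable subgroup. -/
def StableSub.incl (R : StableSub P X) : R.Carrier →+ X := R.toSub.subtype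

omit [Fintype P] [Module.Free ℤ X] [Module.Finite ℤ X] in
theorem StableSub.incl_injective (R : StableSub P X) : Function.Injective R.incl :=
  Subtype.coe_injective

instance (R : StableSub P X) : SMul P R.Carrier :=
  ⟨fun g x => ⟨g • R.incl x, R.smul_mem g x.2⟩⟩

omit [Fintype P] [Module.Free ℤ X] [Module.Finite ℤ X] in
theorem StableSub.incl_smul (R : StableSub P X) (g : P) (x : R.Carrier) :
    R.incl (g • x) = g • R.incl x := rfl

instance (R : StableSub P X) : DistribMulAction P R.Carrier where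
  one_smul x := R.incl_injective (by simp [StableSub.incl_smul])
  mul_smul g h x := R.incl_injective (by simp [StableSub.incl_smul, mul_smul])
  smul_zero g := R.incl_injective (by simp [StableSub.incl_smul])
  smul_add g x y := R.incl_injective (by simp [StableSub.incl_smul])

instance (R : StableSub P X) : Module.Free ℤ R.Carrier :=
  inferInstanceAs (Module.Free ℤ ↥(AddSubgroup.toIntSubmodule R.toSub))

variable {p} in
theorem exists_mul_p (hP : IsPGroup p P)
    (hB1 : ∀ c : P → B, IsCocycle₁ c → IsCoboundary₁ c)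
    (hB2 : ∀ z : P × P → B, IsCocycle₂ z → IsCoboundary₂ z)
    {c : P → (X →+ B)} (hc : IsHomCocycle c) :
    ∃ (c' : P → (X →+ B)) (b : X →+ B), IsHomCocycle c' ∧
      ∀ g x, c g x = (p : ℤ) • c' g x + homCob b g x := by
  classical
  have hpp : p.Prime := Fact.out
  have hp0 : (p : ℤ) ≠ 0 := by exact_mod_cast hpp.ne_zero
  let mp : X →+ X := zsmulAddGroupHom (p : ℤ)
  have hmp : Function.Injective mp := smul_right_injective X hp0
  have hmpg : ∀ (g : P) x, g • mp x = mp (g • x) := fun g x =>
    map_zsmul (DistribSMul.toAddMonoidHom X g) (p : ℤ) x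
  -- the quotient by `pX`
  let pX : AddSubgroup X := mp.range
  haveI : Finite (X ⧸ pX) := by
    haveI : Module.Finite ℤ (X ⧸ pX) :=
      inferInstanceAs (Module.Finite ℤ (X ⧸ AddSubgroup.toIntSubmodule pX))
    haveI : AddGroup.FG (X ⧸ pX) := Module.Finite.iff_addGroup_fg.mp inferInstance
    refine AddCommGroup.finite_of_fg_isAddTorsion (X ⧸ pX) fun a => ?_
    obtain ⟨x, rfl⟩ := QuotientAddGroup.mk_surjective a
    refine isOfFinAddOrder_iff_nsmul_eq_zero.2 ⟨p, hpp.pos, ?_⟩
    rw [← QuotientAddGroup.mk_nsmul, QuotientAddGroup.eq_zero_iff]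
    exact ⟨x, natCast_zsmul x p⟩
  haveI : Finite (AddSubgroup (X ⧸ pX)) := Finite.of_injective _ SetLike.coe_injective
  let Good : AddSubgroup (X ⧸ pX) → Prop := fun Q =>
    ∃ R : StableSub P X, R.toSub = Q.comap (QuotientAddGroup.mk' pX) ∧
      ∃ (c' : P → (R.Carrier →+ B)) (b : X →+ B), IsHomCocycle c' ∧
        ∀ (g : P) (x : X) (y : R.Carrier), R.incl y = mp x → c' g y = c g x + homCob b g x
  have hbot : Good ⊥ := by
    let R : StableSub P X :=
      ⟨(⊥ : AddSubgroup (X ⧸ pX)).comap (QuotientAddGroup.mk' pX), fun g x hx => by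
        rw [AddMonoidHom.comap_bot, QuotientAddGroup.ker_mk'] at hx ⊢
        obtain ⟨y, rfl⟩ := hx
        exact ⟨g • y, (hmpg g y).symm⟩⟩
    have hmem : ∀ y : R.Carrier, ∃ x, mp x = R.incl y := fun y => by
      have := y.2
      change R.incl y ∈ (⊥ : AddSubgroup (X ⧸ pX)).comap (QuotientAddGroup.mk' pX) at this
      rwa [AddMonoidHom.comap_bot, QuotientAddGroup.ker_mk'] at this
    let inv : R.Carrier →+ X := AddMonoidHom.mk' (fun y => (hmem y).choose) fun y y' => hmp <|
      ((hmem (y + y')).choose_spec.trans ((map_add R.incl y y').trans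
        (congrArg₂ (· + ·) (hmem y).choose_spec (hmem y').choose_spec).symm)).trans
        (map_add mp _ _).symm
    have hinv : ∀ y, mp (inv y) = R.incl y := fun y => (hmem y).choose_spec
    refine ⟨R, rfl, fun g => (c g).comp inv, 0, fun g h y => ?_, fun g x y hxy => ?_⟩
    · have : inv (g⁻¹ • y) = g⁻¹ • inv y := hmp <| by
        rw [hinv, ← hmpg, hinv, StableSub.incl_smul]
      simp [hc g h, this]
    · have : inv y = x := hmp (by rw [hinv, hxy])
      simp [this]
  obtain ⟨Q, hQ, hmax⟩ := Set.Finite.exists_maximal (Set.toFinite {Q | Good Q}) ⟨⊥, hbot⟩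
  obtain ⟨R, hR, c', b, hc', hrel⟩ := hQ
  by_cases htop : Q = ⊤
  · have hall : ∀ x : X, x ∈ R.toSub := fun x => by rw [hR, htop]; trivial
    let emb : X →+ R.Carrier := AddMonoidHom.mk' (fun x => ⟨x, hall x⟩) fun _ _ => rfl
    refine ⟨fun g => (c' g).comp emb, -b, fun g h x => ?_, fun g x => ?_⟩
    · have : g⁻¹ • emb x = emb (g⁻¹ • x) := rfl
      simp [hc' g h, this]
    · have h1 := hrel g x (emb (mp x)) rfl
      have h2 : (p : ℤ) • c' g (emb x) = c' g (emb (mp x)) := by
        rw [← map_zsmul (c' g), ← map_zsmul emb]; rfl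
      simp only [AddMonoidHom.comp_apply, h2, h1, homCob_apply, AddMonoidHom.neg_apply, smul_neg]
      abel
  exfalso
  -- a nontrivial fixed vector of `(X / pX) / Q`
  have hstab : ∀ (g : P) {x}, QuotientAddGroup.mk' pX x ∈ Q → QuotientAddGroup.mk' pX (g • x) ∈ Q := by
    intro g x hx
    have h1 : x ∈ R.toSub := by rw [hR]; exact hx
    have h2 := R.smul_mem g h1
    rwa [hR] at h2
  let V : Type := X ⧸ R.toSub
  haveI : Finite V := by
    refine Finite.of_surjective (QuotientAddGroup.map pX R.toSub (AddMonoidHom.id X) ?_) ?_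
    · intro x hx
      change x ∈ R.toSub
      rw [hR]
      change QuotientAddGroup.mk' pX x ∈ Q
      rw [show QuotientAddGroup.mk' pX x = 0 from (QuotientAddGroup.eq_zero_iff x).2 hx]
      exact zero_mem Q
    · intro a
      obtain ⟨x, rfl⟩ := QuotientAddGroup.mk_surjective a
      exact ⟨QuotientAddGroup.mk x, rfl⟩
  letI : MulAction P V :=
    { smul := fun g => QuotientAddGroup.map R.toSub R.toSub (DistribSMul.toAddMonoidHom X g)
        fun x hx => R.smul_mem g hx
      one_smul := fun a => by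
        obtain ⟨x, rfl⟩ := QuotientAddGroup.mk_surjective a
        exact congrArg QuotientAddGroup.mk (one_smul P x)
      mul_smul := fun g h a => by
        obtain ⟨x, rfl⟩ := QuotientAddGroup.mk_surjective a
        exact congrArg QuotientAddGroup.mk (mul_smul g h x) }
  have hpV : p ∣ Nat.card V := by
    obtain ⟨a, ha⟩ : ∃ a : V, a ≠ 0 := by
      by_contra hcon
      push Not at hcon
      refine htop (eq_top_iff.2 fun a _ => ?_)
      obtain ⟨x, rfl⟩ := QuotientAddGroup.mk_surjective a
      have : x ∈ R.toSub := (QuotientAddGroup.eq_zero_iff x).1 (hcon _)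
      rwa [hR] at this
    have h1 : p • a = 0 := by
      obtain ⟨x, rfl⟩ := QuotientAddGroup.mk_surjective a
      rw [← QuotientAddGroup.mk_nsmul, QuotientAddGroup.eq_zero_iff, hR]
      change QuotientAddGroup.mk' pX (p • x) ∈ Q
      rw [show QuotientAddGroup.mk' pX (p • x) = 0 from
        (QuotientAddGroup.eq_zero_iff _).2 ⟨x, natCast_zsmul x p⟩]
      exact zero_mem Q
    have : addOrderOf a = p := addOrderOf_eq_prime h1 ha
    rw [← this]
    exact addOrderOf_dvd_natCard a
  have hzero : (0 : V) ∈ MulAction.fixedPoints P V := fun g => map_zero (QuotientAddGroup.map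
    R.toSub R.toSub (DistribSMul.toAddMonoidHom X g) fun x hx => R.smul_mem g hx)
  obtain ⟨v, hv, hv0⟩ := hP.exists_fixed_point_of_prime_dvd_card_of_fixed_point V hpV hzero
  obtain ⟨r, rfl⟩ := QuotientAddGroup.mk_surjective v
  have hr : r ∉ R.toSub := fun h => hv0 ((QuotientAddGroup.eq_zero_iff r).2 h).symm
  have hgr : ∀ g : P, g • r - r ∈ R.toSub := fun g => by
    rw [← QuotientAddGroup.eq_zero_iff, QuotientAddGroup.mk_sub, sub_eq_zero]
    exact hv g
  have hpr : (p : ℤ) • r ∈ R.toSub := by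
    rw [hR]
    change QuotientAddGroup.mk' pX ((p : ℤ) • r) ∈ Q
    rw [show QuotientAddGroup.mk' pX ((p : ℤ) • r) = 0 from
      (QuotientAddGroup.eq_zero_iff _).2 ⟨r, rfl⟩]
    exact zero_mem Q
  let Q' : AddSubgroup (X ⧸ pX) := Q ⊔ AddSubgroup.zmultiples (QuotientAddGroup.mk' pX r)
  let R' : StableSub P X := ⟨Q'.comap (QuotientAddGroup.mk' pX), fun g x hx => by
    obtain ⟨a, ha, b', hb', hab⟩ := AddSubgroup.mem_sup.1 hx
    obtain ⟨k, rfl⟩ := AddSubgroup.mem_zmultiples_iff.1 hb'
    obtain ⟨y, rfl⟩ := QuotientAddGroup.mk'_surjective pX a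
    obtain ⟨w, hw⟩ : x - (y + k • r) ∈ pX := by
      rw [← QuotientAddGroup.eq_zero_iff, QuotientAddGroup.mk_sub, sub_eq_zero]
      simpa using hab.symm
    have hgk : g • (k • r) = k • (g • r - r) + k • r := by
      rw [show g • (k • r) = k • g • r from map_zsmul (DistribSMul.toAddMonoidHom X g) k r,
        smul_sub, sub_add_cancel]
    have e : g • x = mp (g • w) + g • y + (k • (g • r - r) + k • r) := by
      rw [← hgk, ← hmpg, hw, smul_sub, smul_add]; abel
    refine AddSubgroup.mem_comap.2 ?_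
    rw [e, map_add, map_add, map_add, show QuotientAddGroup.mk' pX (mp (g • w)) = 0 from
      (QuotientAddGroup.eq_zero_iff _).2 ⟨_, rfl⟩, zero_add]
    refine add_mem (le_sup_left (α := AddSubgroup _) (hstab g ha))
      (add_mem (le_sup_left (α := AddSubgroup _) ?_) (le_sup_right (α := AddSubgroup _) ?_))
    · have := zsmul_mem (hgr g) k
      rwa [hR] at this
    · rw [map_zsmul]; exact AddSubgroup.zsmul_mem _ (AddSubgroup.mem_zmultiples _) k⟩
  have hle : R.toSub ≤ R'.toSub := by
    rw [hR]; exact AddSubgroup.comap_mono le_sup_left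
  let jR : R.Carrier →+ R'.Carrier := AddSubgroup.inclusion hle
  have hjr : ∀ y : R'.Carrier, y ∈ jR.range ↔ R'.incl y ∈ R.toSub := fun y =>
    ⟨fun ⟨z, hz⟩ => hz ▸ z.2, fun h => ⟨⟨_, h⟩, rfl⟩⟩
  let r' : R'.Carrier := ⟨r, le_sup_right (α := AddSubgroup _)
    (AddSubgroup.mem_zmultiples (QuotientAddGroup.mk' pX r))⟩
  obtain ⟨c'', b', hc'', hrel'⟩ := exists_extend_step hpp hB1 hB2 jR (fun g z => rfl)
    (AddSubgroup.inclusion_injective hle) r' (fun h => hr ((hjr r').1 h))
    ((hjr _).2 (by rw [map_zsmul]; exact hpr))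
    (fun g => (hjr _).2 (by rw [map_sub, StableSub.incl_smul]; exact hgr g))
    (fun y => by
      obtain ⟨a, ha, bb, hbb, hab⟩ := AddSubgroup.mem_sup.1 y.2
      obtain ⟨k, rfl⟩ := AddSubgroup.mem_zmultiples_iff.1 hbb
      refine ⟨k, (hjr _).2 ?_⟩
      rw [hR, map_sub, map_zsmul]
      change QuotientAddGroup.mk' pX (R'.incl y - k • r) ∈ Q
      rw [map_sub, map_zsmul, show QuotientAddGroup.mk' pX (R'.incl y) = _ from hab.symm,
        add_sub_cancel_right]
      exact ha) hc'
  have hgood : Good Q' := by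
    have hmpR : ∀ x : X, mp x ∈ R.toSub := fun x => by
      rw [hR]
      change QuotientAddGroup.mk' pX (mp x) ∈ Q
      rw [show QuotientAddGroup.mk' pX (mp x) = 0 from
        (QuotientAddGroup.eq_zero_iff _).2 ⟨_, rfl⟩]
      exact zero_mem Q
    let mR : X →+ R.Carrier := AddMonoidHom.codRestrict mp R.toSub hmpR
    refine ⟨R', rfl, c'', b - b'.comp mR, hc'', fun g x y hxy => ?_⟩
    have hy : y = jR (mR x) := R'.incl_injective hxy
    have hm : g⁻¹ • mR x = mR (g⁻¹ • x) := R.incl_injective (hmpg g⁻¹ x)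
    rw [hy, hrel', hrel g x (mR x) rfl]
    simp only [homCob_apply, AddMonoidHom.sub_apply, AddMonoidHom.comp_apply, hm, smul_sub]
    abel
  have heq : Q' ≤ Q := hmax hgood le_sup_left
  refine hr ?_
  rw [hR]
  exact heq (le_sup_right (α := AddSubgroup _) (AddSubgroup.mem_zmultiples _))

variable {p} in
theorem card_smul_cocycle {c : P → (X →+ B)} (hc : IsHomCocycle c) :
    ∃ b : X →+ B, ∀ g x, (Fintype.card P : ℤ) • c g x = homCob b g x := by
  let b : X →+ B := ∑ h : P, c h
  refine ⟨-b, fun g x => ?_⟩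
  have h1 : b x = g • b (g⁻¹ • x) + (Fintype.card P : ℤ) • c g x := by
    simp only [b, AddMonoidHom.finsetSum_apply, Finset.smul_sum]
    rw [← Fintype.sum_equiv (Equiv.mulLeft g) (fun h => c (g * h) x) (fun h => c h x) fun _ => rfl]
    simp [hc g _ x, Finset.sum_add_distrib]
  simp only [homCob_apply, AddMonoidHom.neg_apply, smul_neg]
  linear_combination (norm := abel) -h1

variable {p} in
/-- `H¹(P, Hom(X, B)) = 0`. -/
theorem exists_homCob (hP : IsPGroup p P)
    (hB1 : ∀ c : P → B, IsCocycle₁ c → IsCoboundary₁ c)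
    (hB2 : ∀ z : P × P → B, IsCocycle₂ z → IsCoboundary₂ z)
    {c : P → (X →+ B)} (hc : IsHomCocycle c) :
    ∃ b : X →+ B, ∀ g, c g = homCob b g := by
  obtain ⟨a, ha⟩ := IsPGroup.iff_card.1 hP
  have key : ∀ (n : ℕ) (c : P → (X →+ B)), IsHomCocycle c →
      ∃ (c' : P → (X →+ B)) (b : X →+ B), IsHomCocycle c' ∧
        ∀ g x, c g x = (p : ℤ) ^ n • c' g x + homCob b g x := by
    intro n
    induction n with
    | zero => exact fun c hc => ⟨c, 0, hc, fun g x => by simp⟩
    | succ n ih =>
      intro c hc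
      obtain ⟨c₁, b₁, hc₁, h₁⟩ := exists_mul_p hP hB1 hB2 hc
      obtain ⟨c₂, b₂, hc₂, h₂⟩ := ih c₁ hc₁
      refine ⟨c₂, b₁ + (p : ℤ) • b₂, hc₂, fun g x => ?_⟩
      have e : homCob (b₁ + (p : ℤ) • b₂) g x = homCob b₁ g x + (p : ℤ) • homCob b₂ g x := by
        simp only [homCob_apply, AddMonoidHom.add_apply, AddMonoidHom.smul_apply, smul_add,
          smul_sub]
        rw [show g • ((p : ℤ) • b₂ (g⁻¹ • x)) = (p : ℤ) • g • b₂ (g⁻¹ • x) from
          map_zsmul (DistribSMul.toAddMonoidHom B g) _ _]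
        abel
      rw [e, h₁, h₂, pow_succ', mul_smul, smul_add]
      abel
  obtain ⟨c', b, hc', h⟩ := key a c hc
  obtain ⟨b', hb'⟩ := card_smul_cocycle hc'
  have hcard : (Fintype.card P : ℤ) = (p : ℤ) ^ a := by
    rw [← Nat.card_eq_fintype_card, ha]; push_cast; rfl
  refine ⟨b' + b, fun g => AddMonoidHom.ext fun x => ?_⟩
  rw [h, ← hcard, hb']
  simp only [homCob_apply, AddMonoidHom.add_apply, smul_add]
  abel

end Main

end Fermat.Agent.PoitouTate
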