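/-
Tate-Nakayama duality for a class module, on the `p`-parts.

For a lattice `R` the pairing `Hom_Δ(R, C) × H²(Δ, R) → H²(Δ, C)`, `(f, z) ↦ f ∘ z`, is non
degenerate on the right on classes killed by `p` (`tn_right`), and on the left up to norms, relative
to an equivariant map `ι : R → Y` (`tn_left`).
-/
import Fermat.Agent.PoitouTate.AlgebraExtend
import Mathlib.GroupTheory.Sylow

set_option autoImplicit false

open groupCohomology

noncomputable section

namespace Fermat.Agent.PoitouTate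

section GroupRing

variable {Δ : Type} [Group Δ] (H : Subgroup Δ)

/-- The `H`-part of an element in the decomposition along right cosets. -/
def rightPart (τ : Δ) : Δ := τ * ((Quotient.mk (QuotientGroup.rightRel H) τ).out)⁻¹

theorem rightPart_mem (τ : Δ) : rightPart H τ ∈ H := by
  have h := Quotient.mk_out (s := QuotientGroup.rightRel H) τ
  exact QuotientGroup.rightRel_apply.1 h

theorem rightPart_mul {g : Δ} (hg : g ∈ H) (τ : Δ) :
    rightPart H (g * τ) = g * rightPart H τ := by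
  have h : (Quotient.mk (QuotientGroup.rightRel H) (g * τ)) =
      Quotient.mk (QuotientGroup.rightRel H) τ := by
    refine Quotient.sound (QuotientGroup.rightRel_apply.2 ?_)
    simpa using H.inv_mem hg
  simp only [rightPart, h, mul_assoc]

variable [Fintype Δ]

/-- `H¹(H, ℤ[Δ]) = 0`. -/
theorem ZG.exists_of_cocycle₁ {c : H → ZG Δ} (hc : IsCocycle₁ c) :
    ∃ F : ZG Δ, ∀ g : H, g • F - F = c g := by
  refine ⟨ZG.mk fun τ => -ZG.ev τ (c ⟨rightPart H τ, rightPart_mem H τ⟩), fun g => ?_⟩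
  ext τ
  have h := hc g ⟨rightPart H ((g : Δ)⁻¹ * τ), rightPart_mem H _⟩
  have e : g * ⟨rightPart H ((g : Δ)⁻¹ * τ), rightPart_mem H _⟩ =
      (⟨rightPart H τ, rightPart_mem H τ⟩ : H) :=
    Subtype.ext (by rw [Subgroup.coe_mul, ← rightPart_mul H g.2, mul_inv_cancel_left])
  rw [e] at h
  have h' := congrArg (ZG.ev τ) h
  rw [map_add, Subgroup.smul_def, ZG.ev_smul] at h'
  rw [map_sub, Subgroup.smul_def, ZG.ev_smul, ZG.ev_mk, ZG.ev_mk]
  linear_combination h'

/-- `H²(H, ℤ[Δ]) = 0`. -/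
theorem ZG.exists_of_cocycle₂ {z : H × H → ZG Δ} (hz : IsCocycle₂ z) :
    ∃ β : H → ZG Δ, ∀ g h : H, g • β h - β (g * h) + β g = z (g, h) := by
  refine ⟨fun g => ZG.mk fun τ =>
    ZG.ev τ (z (g, g⁻¹ * ⟨rightPart H τ, rightPart_mem H τ⟩)), fun g h => ?_⟩
  ext τ
  set π : H := ⟨rightPart H τ, rightPart_mem H τ⟩ with hπ
  have e1 : (⟨rightPart H ((g : Δ)⁻¹ * τ), rightPart_mem H _⟩ : H) = g⁻¹ * π :=
    Subtype.ext ((rightPart_mul H (H.inv_mem g.2) τ).trans rfl)
  have h' := congrArg (ZG.ev τ) (hz g h (h⁻¹ * (g⁻¹ * π)))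
  rw [mul_inv_cancel_left, map_add, map_add, Subgroup.smul_def, ZG.ev_smul] at h'
  simp only [map_add, map_sub, Subgroup.smul_def, ZG.ev_smul, ZG.ev_mk, ← hπ, e1, mul_inv_rev,
    mul_assoc]
  linear_combination -h'

end GroupRing

variable {Δ : Type} [Group Δ] [Fintype Δ] {C : Type} [AddCommGroup C] [DistribMulAction Δ C]
variable {p : ℕ} {u : Z2 Δ C}

theorem IsClassModule.spl_h1 (hu : IsClassModule p Δ C (u : Δ × Δ → C)) (H : Subgroup Δ)
    (hH : IsPGroup p H) (c : H → Spl u) (hc : IsCocycle₁ c) : IsCoboundary₁ c := by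
  classical
  obtain ⟨F, hF⟩ := ZG.exists_of_cocycle₁ H (c := fun g => Aug.val (Spl.snd u (c g)))
    fun g h => by
      simp only [hc g h, map_add, Subgroup.smul_def, Spl.snd_smul, Aug.val_smul]
  set k : ℤ := ZG.total F with hk
  have hkdvd : (Nat.card H : ℤ) ∣ k := by
    let i₀ : Aug Δ := Aug.mk (F - k • ZG.basis 1) (by simp [hk])
    let e : H → Spl u := fun g =>
      c g - ((g : Δ) • Spl.inr u i₀ - Spl.inr u i₀) - k • Spl.inr u (Aug.diff (g : Δ))
    have he : ∀ g, Spl.snd u (e g) = 0 := fun g => by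
      apply Aug.val_injective
      have hk1 : (g : Δ) • (k • ZG.basis (1 : Δ)) = k • ZG.basis (g : Δ) := by
        rw [show (g : Δ) • (k • ZG.basis (1 : Δ)) = k • (g : Δ) • ZG.basis (1 : Δ) from
          map_zsmul (DistribSMul.toAddMonoidHom (ZG Δ) (g : Δ)) k _, ZG.smul_basis, mul_one]
      simp only [e, map_sub, map_zsmul, Spl.snd_smul, Spl.snd_inr, Aug.val_smul, ← hF g,
        Subgroup.smul_def, Aug.diff, Aug.val_mk, i₀, smul_sub, map_zero, hk1]
      abel
    have hde : ∀ g h : H, (g : Δ) • Spl.fst u (e h) - Spl.fst u (e (g * h)) + Spl.fst u (e g) =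
        -(k • ((u : Δ × Δ → C) (g, h) - (u : Δ × Δ → C) (g, 1))) := by
      intro g h
      have e1 : (g : Δ) • e h - e (g * h) + e g =
          -(k • Spl.inl u ((u : Δ × Δ → C) (g, h) - (u : Δ × Δ → C) (g, 1))) := by
        have e2 : (g : Δ) • (k • Spl.inr u (Aug.diff (h : Δ))) =
            k • (g : Δ) • Spl.inr u (Aug.diff (h : Δ)) :=
          map_zsmul (DistribSMul.toAddMonoidHom (Spl u) (g : Δ)) k _
        rw [← Spl.smul_inr_diff]
        simp only [e, hc g h, Subgroup.smul_def, Subgroup.coe_mul, smul_sub, smul_add, mul_smul, e2]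
        abel
      have e3 := congrArg (Spl.fst u) e1
      simpa [he, map_zsmul] using e3
    refine (hu.order H hH k).1 ⟨fun g => k • (u : Δ × Δ → C) (1, 1) - Spl.fst u (e g),
      fun g h => ?_⟩
    have := hde g h
    rw [map_one_snd_of_isCocycle₂ (mem_Z2.1 u.2) (g : Δ)] at this
    have e4 : (g : Δ) • (k • (u : Δ × Δ → C) (1, 1)) = k • (g : Δ) • (u : Δ × Δ → C) (1, 1) :=
      map_zsmul (DistribSMul.toAddMonoidHom C (g : Δ)) k _
    rw [smul_sub] at this
    simp only [smul_sub, e4]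
    linear_combination (norm := abel) this
  obtain ⟨m, hm⟩ := hkdvd
  let Fs : ZG Δ := ∑ ρ : H, ZG.basis (ρ : Δ)
  have hFs : ∀ g : H, (g : Δ) • Fs = Fs := fun g => by
    simp only [Fs, Finset.smul_sum, ZG.smul_basis]
    exact Fintype.sum_equiv (Equiv.mulLeft g) _ _ fun ρ => rfl
  let i₁ : Aug Δ := Aug.mk (F - m • Fs) (by
    simp [Fs, ← hk, hm, mul_comm])
  let e : H → Spl u := fun g => c g - ((g : Δ) • Spl.inr u i₁ - Spl.inr u i₁)
  have he : ∀ g, Spl.snd u (e g) = 0 := fun g => by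
    apply Aug.val_injective
    have hm1 : (g : Δ) • (m • Fs) = m • Fs := by
      rw [show (g : Δ) • (m • Fs) = m • (g : Δ) • Fs from
        map_zsmul (DistribSMul.toAddMonoidHom (ZG Δ) (g : Δ)) m _, hFs]
    simp only [e, map_sub, Spl.snd_smul, Spl.snd_inr, Aug.val_smul, ← hF g,
      Subgroup.smul_def, Aug.val_mk, i₁, smul_sub, map_zero, hm1]
    abel
  obtain ⟨x, hx⟩ := hu.h1 H hH (fun g => Spl.fst u (e g)) fun g h => by
    have : e (g * h) = (g : Δ) • e h + e g := by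
      simp only [e, hc g h, Subgroup.smul_def, Subgroup.coe_mul, smul_sub, mul_smul]
      abel
    simpa [he] using congrArg (Spl.fst u) this
  refine ⟨Spl.inl u x + Spl.inr u i₁, fun g => ?_⟩
  have : Spl.inl u ((g : Δ) • x - x) = e g := by rw [hx, Spl.inl_fst (he g)]
  rw [map_sub, Spl.inl_isEquivariant] at this
  rw [Subgroup.smul_def, smul_add]
  simp only [e] at this
  linear_combination (norm := abel) this

theorem IsClassModule.spl_h2 (hu : IsClassModule p Δ C (u : Δ × Δ → C)) (H : Subgroup Δ)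
    (hH : IsPGroup p H) (z : H × H → Spl u) (hz : IsCocycle₂ z) : IsCoboundary₂ z := by
  obtain ⟨β, hβ⟩ := ZG.exists_of_cocycle₂ H (z := fun x => Aug.val (Spl.snd u (z x)))
    fun g h j => by
      have := congrArg (fun t => Aug.val (Spl.snd u t)) (hz g h j)
      simpa [Subgroup.smul_def] using this
  have hhom : ∀ g h : H, ZG.total (β (g * h)) = ZG.total (β g) + ZG.total (β h) := fun g h => by
    have := congrArg (ZG.total (Δ := Δ)) (hβ g h)
    simp only [map_add, map_sub, Subgroup.smul_def, ZG.total_smul, Aug.total_val] at this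
    linarith
  have htot : ∀ g : H, ZG.total (β g) = 0 := fun g => by
    let t : H →* Multiplicative ℤ :=
      MonoidHom.mk' (fun g => Multiplicative.ofAdd (ZG.total (β g))) fun g h => by
        rw [hhom]; rfl
    have h1 : IsOfFinOrder (t g) := t.isOfFinOrder (isOfFinOrder_of_finite g)
    have h2 : t g = 1 := by
      by_contra hne
      exact not_isOfFinOrder_of_isMulTorsionFree hne h1
    exact congrArg Multiplicative.toAdd h2
  let b : H → Spl u := fun g => Spl.inr u (Aug.mk (β g) (htot g))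
  let e : H × H → Spl u := fun x => z x - ((x.1 : Δ) • b x.2 - b (x.1 * x.2) + b x.1)
  have he : ∀ x, Spl.snd u (e x) = 0 := fun x => by
    apply Aug.val_injective
    simp [e, b, ← hβ x.1 x.2, Subgroup.smul_def]
  obtain ⟨k, x, hx⟩ := hu.generates H hH (fun y => Spl.fst u (e y)) fun g h j => by
    have : e (g * h, j) + e (g, h) = (g : Δ) • e (h, j) + e (g, h * j) := by
      have := hz g h j
      rw [Subgroup.smul_def] at this
      simp only [e, Subgroup.coe_mul, smul_sub, smul_add, mul_smul, mul_assoc]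
      linear_combination (norm := abel) this
    simpa [he] using congrArg (Spl.fst u) this
  let v : C := (u : Δ × Δ → C) (1, 1)
  refine ⟨fun g => b g + Spl.inl u (x g) + k • (Spl.inr u (Aug.diff (g : Δ)) + Spl.inl u v),
    fun g h => ?_⟩
  have h1 : e (g, h) = k • Spl.inl u ((u : Δ × Δ → C) (g, h)) +
      ((g : Δ) • Spl.inl u (x h) - Spl.inl u (x (g * h)) + Spl.inl u (x g)) := by
    rw [← Spl.inl_fst (he (g, h)), ← map_zsmul, ← Spl.inl_isEquivariant, ← map_sub, ← map_add,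
      ← map_add]
    congr 1
    linear_combination (norm := abel) hx g h
  have h2 : k • Spl.inl u ((u : Δ × Δ → C) (g, h)) =
      k • ((g : Δ) • Spl.inr u (Aug.diff (h : Δ)) - Spl.inr u (Aug.diff ((g * h : H) : Δ)) +
        Spl.inr u (Aug.diff (g : Δ)) + (g : Δ) • Spl.inl u v) := by
    rw [Subgroup.coe_mul, Spl.smul_inr_diff, map_one_snd_of_isCocycle₂ (mem_Z2.1 u.2) (g : Δ),
      map_sub, ← Spl.inl_isEquivariant, sub_add_cancel]
  have h3 : ∀ y : Spl u, (g : Δ) • (k • y) = k • (g : Δ) • y := fun y =>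
    map_zsmul (DistribSMul.toAddMonoidHom (Spl u) (g : Δ)) k y
  have h4 : z (g, h) = e (g, h) + ((g : Δ) • b h - b (g * h) + b g) := by
    simp only [e]; abel
  rw [h4, h1, h2]
  simp only [Subgroup.smul_def, smul_add, smul_sub, h3]
  abel

section Shift

variable {R : Type} [AddCommGroup R] [DistribMulAction Δ R]

theorem ShiftRel.fixed {z : Δ × Δ → R} {y₂ : Up Δ (Up Δ R)} (h : ShiftRel z y₂) :
    ∀ σ : Δ, σ • y₂ = y₂ := by
  obtain ⟨β, y, -, hy, hy₂⟩ := h
  intro σ
  have := congrArg (Up.proj Δ (Up Δ R)) (hy σ)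
  rw [Up.proj_const, map_sub, Up.proj_smul, hy₂] at this
  exact sub_eq_zero.1 this.symm

theorem exists_shiftRel {z : Δ × Δ → R} (hz : IsCocycle₂ z) : ∃ y₂, ShiftRel z y₂ := by
  obtain ⟨β, hβ⟩ := Co.exists_of_cocycle₂ (z := fun x => Co.const Δ R (z x)) fun g h j => by
    rw [← Co.const_isEquivariant, ← map_add, ← map_add, hz g h j]
  obtain ⟨y, hy⟩ := Co.exists_of_cocycle₁
    (c := fun g => Co.const Δ (Up Δ R) (Up.proj Δ R (β g))) fun g h => by
      have := congrArg (Up.proj Δ R) (hβ g h)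
      rw [Up.proj_const, map_add, map_sub, Up.proj_smul] at this
      rw [← Co.const_isEquivariant, ← map_add]
      rw [sub_add_eq_add_sub] at this
      exact congrArg (Co.const Δ (Up Δ R)) (sub_eq_zero.1 this).symm
  exact ⟨_, β, y, hβ, fun g => (hy g).symm, rfl⟩

theorem exists_shiftRel_of_fixed {y₂ : Up Δ (Up Δ R)} (h : ∀ σ : Δ, σ • y₂ = y₂) :
    ∃ z : Δ × Δ → R, IsCocycle₂ z ∧ ShiftRel z y₂ := by
  have hc : ∀ g : Δ, Co.const Δ (Up Δ R) (Co.ev 1 (g • Up.lift y₂ - Up.lift y₂)) =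
      g • Up.lift y₂ - Up.lift y₂ := fun g =>
    (Up.eq_const_of_proj_eq_zero (by rw [map_sub, Up.proj_smul, Up.proj_lift, h, sub_self])).symm
  let b : Δ → Up Δ R := fun g => Co.ev 1 (g • Up.lift y₂ - Up.lift y₂)
  have hb : ∀ g k : Δ, b (g * k) = g • b k + b g := fun g k => by
    apply Co.const_injective (Δ := Δ)
    rw [map_add, Co.const_isEquivariant, hc, hc, hc, smul_sub, mul_smul]
    abel
  let β : Δ → Co Δ R := fun g => Up.lift (b g)
  let z : Δ × Δ → R := fun x => Co.ev 1 (x.1 • β x.2 - β (x.1 * x.2) + β x.1)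
  have hz : ∀ g k, Co.const Δ R (z (g, k)) = g • β k - β (g * k) + β g := fun g k =>
    (Up.eq_const_of_proj_eq_zero (by
      simp only [β, map_add, map_sub, Up.proj_smul, Up.proj_lift, hb]; abel)).symm
  refine ⟨z, fun g k j => ?_, β, Up.lift y₂, fun g k => (hz g k).symm,
    fun g => by rw [show β g = Up.lift (b g) from rfl, Up.proj_lift]; exact hc g,
    Up.proj_lift _⟩
  apply Co.const_injective (Δ := Δ)
  simp only [map_add, Co.const_isEquivariant _ _, hz, smul_add, smul_sub, mul_smul, mul_assoc]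
  abel

theorem ShiftRel.map {R' : Type} [AddCommGroup R'] [DistribMulAction Δ R'] {ι : R →+ R'}
    (hι : IsEquivariant Δ ι) {z : Δ × Δ → R} {y₂ : Up Δ (Up Δ R)} (h : ShiftRel z y₂) :
    ShiftRel (fun x => ι (z x)) (Up.map (Up.map ι) y₂) := by
  obtain ⟨β, y, hβ, hy, hy₂⟩ := h
  refine ⟨fun g => Co.map ι (β g), Co.map (Up.map ι) y, fun g h => ?_, fun g => ?_, ?_⟩
  · rw [← Co.map_isEquivariant hι, ← map_sub, ← map_add, hβ]
    rfl
  · rw [← Co.map_isEquivariant (Up.map_isEquivariant hι), ← map_sub, ← hy, ← Up.map_proj]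
    rfl
  · rw [← hy₂, Up.map_proj]

theorem ShiftRel.nsmul {z : Δ × Δ → R} {y₂ : Up Δ (Up Δ R)} (n : ℕ) (h : ShiftRel z y₂) :
    ShiftRel (fun x => n • z x) (n • y₂) := by
  obtain ⟨β, y, hβ, hy, hy₂⟩ := h
  refine ⟨fun g => n • β g, n • y, fun g k => ?_, fun g => ?_, by rw [map_nsmul, hy₂]⟩
  · rw [map_nsmul, ← hβ, smul_comm g n, nsmul_add, nsmul_sub]
  · rw [map_nsmul, map_nsmul, hy, smul_comm g n, nsmul_sub]

theorem ShiftRel.isCoboundary₂_of_norm {z : Δ × Δ → R} {y₂ : Up Δ (Up Δ R)}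
    (h : ShiftRel z y₂) {w : Up Δ (Up Δ R)} (hw : y₂ = trSum Δ w) : IsCoboundary₂ z := by
  obtain ⟨β, y, hβ, hy, hy₂⟩ := h
  obtain ⟨w', rfl⟩ := Up.proj_surjective w
  obtain ⟨r₁, hr₁⟩ : ∃ r₁, y - trSum Δ w' = Co.const Δ (Up Δ R) r₁ :=
    ⟨_, Up.eq_const_of_proj_eq_zero (by
      rw [map_sub, hy₂, trSum_map Up.proj_isEquivariant, hw, sub_self])⟩
  obtain ⟨F, rfl⟩ := Up.proj_surjective r₁
  have hb : ∀ g : Δ, Up.proj Δ R (β g - (g • F - F)) = 0 := fun g => by
    apply Co.const_injective (Δ := Δ)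
    have e : g • y - y = g • (y - trSum Δ w') - (y - trSum Δ w') := by
      rw [smul_sub, smul_trSum]; abel
    simp only [map_sub, map_zero, Up.proj_smul, Co.const_isEquivariant _ _, hy, e, hr₁, sub_self]
  refine ⟨fun g => Co.ev 1 (β g - (g • F - F)), fun g k => ?_⟩
  apply Co.const_injective (Δ := Δ)
  rw [map_add, map_sub, Co.const_isEquivariant, ← Up.eq_const_of_proj_eq_zero (hb g),
    ← Up.eq_const_of_proj_eq_zero (hb k), ← Up.eq_const_of_proj_eq_zero (hb (g * k)), ← hβ,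
    smul_sub, smul_sub, mul_smul]
  abel

end Shift

variable [Fact p.Prime]

omit [Fintype Δ] in
theorem IsClassModule.dvd_of_coboundary (hu : IsClassModule p Δ C (u : Δ × Δ → C)) {k : ℤ}
    (h : IsCoboundary₂ fun x : Δ × Δ => k • (u : Δ × Δ → C) x) {H : Subgroup Δ}
    (hH : IsPGroup p H) : (Nat.card H : ℤ) ∣ k := by
  obtain ⟨x, hx⟩ := h
  exact (hu.order H hH k).1 ⟨fun g => x g, fun g h => (hx g h).symm⟩

theorem exists_coprime_factor (Δ : Type) [Group Δ] [Fintype Δ] (p : ℕ) [Fact p.Prime] :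
    ∃ (H : Subgroup Δ) (n' : ℕ), IsPGroup p H ∧ ¬ p ∣ n' ∧ H.index = n' ∧
      (Fintype.card Δ : ℤ) = Nat.card H * n' := by
  let P : Sylow p Δ := default
  refine ⟨P, (P : Subgroup Δ).index, P.2, P.not_dvd_index, rfl, ?_⟩
  rw [← Nat.card_eq_fintype_card, ← Subgroup.card_mul_index (P : Subgroup Δ)]
  push_cast
  rfl

variable {R : Type} [AddCommGroup R] [DistribMulAction Δ R] [Module.Free ℤ R] [Module.Finite ℤ R]

/-- Non degeneracy on classes killed by `p`. -/
theorem tn_right (hu : IsClassModule p Δ C (u : Δ × Δ → C)) {z : Δ × Δ → R} (hz : IsCocycle₂ z)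
    (hpz : IsCoboundary₂ fun x => p • z x) (hne : ¬ IsCoboundary₂ z) :
    ∃ f : R →+ C, IsEquivariant Δ f ∧ ¬ IsCoboundary₂ fun x => f (z x) := by
  obtain ⟨H, n', hH, hn', hidx, hcard⟩ := exists_coprime_factor Δ p
  obtain ⟨y₂, hy⟩ := exists_shiftRel hz
  have hn'y := hy.nsmul n'
  have hnot : (⟨n' • y₂, mem_fixSub.2 hn'y.fixed⟩ : fixSub Δ (Up Δ (Up Δ R))) ∉
      (trFix (Δ := Δ) (X := Up Δ (Up Δ R))).range := by
    rintro ⟨w, hw⟩
    obtain ⟨a, ha⟩ := hn'y.isCoboundary₂_of_norm (congrArg Subtype.val hw).symm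
    obtain ⟨b, hb⟩ := hpz
    obtain ⟨s, t, hst⟩ := Nat.isCoprime_iff_coprime.2
      ((Nat.Prime.coprime_iff_not_dvd (Fact.out : p.Prime)).2 hn')
    refine hne ⟨s • b + t • a, fun g h => ?_⟩
    simp only [Pi.add_apply, Pi.smul_apply, smul_add]
    rw [show g • (s • b h) = s • g • b h from map_zsmul (DistribSMul.toAddMonoidHom R g) _ _,
      show g • (t • a h) = t • g • a h from map_zsmul (DistribSMul.toAddMonoidHom R g) _ _]
    calc s • g • b h + t • g • a h - (s • b (g * h) + t • a (g * h)) + (s • b g + t • a g)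
        = s • (g • b h - b (g * h) + b g) + t • (g • a h - a (g * h) + a g) := by
          simp only [smul_add, smul_sub]; abel
      _ = (s * (p : ℤ) + t * (n' : ℤ)) • z (g, h) := by
          rw [hb, ha, add_smul, mul_smul, mul_smul, natCast_zsmul, natCast_zsmul]
      _ = z (g, h) := by rw [hst, one_smul]
  obtain ⟨ψ, hψ, hψn⟩ := exists_invariantFn_not_dvd hnot
  obtain ⟨f, hf⟩ := exists_splitLift u hψ
  refine ⟨f, hf.isEquivariant, fun hcob => hψn ?_⟩
  have hk : IsCoboundary₂ fun x : Δ × Δ => ψ y₂ • (u : Δ × Δ → C) x := by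
    have h1 := hf.apply_shift hy
    have := (B2 Δ C).sub_mem (mem_B2.2 hcob) (mem_B2.2 h1)
    rw [mem_B2] at this
    convert this using 1
    funext x
    simp
  obtain ⟨m, hm⟩ := hu.dvd_of_coboundary hk hH
  refine ⟨m, ?_⟩
  rw [map_nsmul, nsmul_eq_mul, hm, hcard]
  ring

/-- Non degeneracy on the other side, up to norms. -/
theorem tn_left (hu : IsClassModule p Δ C (u : Δ × Δ → C)) {Y : Type} [AddCommGroup Y]
    [DistribMulAction Δ Y] [Module.Free ℤ Y] [Module.Finite ℤ Y] {ι : R →+ Y}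
    (hι : IsEquivariant Δ ι) {f : R →+ C} (hf : IsEquivariant Δ f)
    (hperp : ∀ z : Δ × Δ → R, IsCocycle₂ z → IsCoboundary₂ (fun x => ι (z x)) →
      IsCoboundary₂ fun x => f (z x)) :
    ∃ (m : ℕ) (h : Y →+ C) (d : R →+ C), ¬ p ∣ m ∧ IsEquivariant Δ h ∧
      ∀ r, m • f r = h (ι r) + nm (Δ := Δ) d r := by
  classical
  obtain ⟨H, n', hH, hn', hidx, hcard⟩ := exists_coprime_factor Δ p
  -- an `H`-equivariant extension to the coinduced module
  let e₀ : Co Δ R →+ Spl u := ((Spl.inl u).comp f).comp (Co.ev 1)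
  have hzero : ∀ (g : H) (r : R), homCob e₀ g (Co.const Δ R r) = 0 := fun g r => by
    rw [homCob_apply, Subgroup.smul_def, Subgroup.smul_def, ← Co.const_isEquivariant _ r]
    simp only [e₀, AddMonoidHom.comp_apply, Co.ev_const, hf _ r, Spl.inl_isEquivariant _ _,
      Subgroup.coe_inv, smul_inv_smul, sub_self]
  let c : H → (Up Δ R →+ Spl u) := fun g => (homCob e₀ g).comp Up.lift
  have hcproj : ∀ (g : H) F, c g (Up.proj Δ R F) = homCob e₀ g F := fun g F => by
    change homCob e₀ g (Up.lift (Up.proj Δ R F)) = _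
    rw [Up.lift_proj, map_sub, hzero, sub_zero]
  have hc : IsHomCocycle c := fun g h y => by
    obtain ⟨F, rfl⟩ := Up.proj_surjective y
    rw [hcproj, hcproj, Subgroup.smul_def g⁻¹, ← Up.proj_smul, ← Subgroup.smul_def, hcproj]
    exact homCob_isHomCocycle e₀ g h F
  obtain ⟨b, hb⟩ := exists_homCob hH (hu.spl_h1 H hH) (hu.spl_h2 H hH) hc
  let e₁ : Co Δ R →+ Spl u := e₀ - b.comp (Up.proj Δ R)
  have he₁ : ∀ (g : H) F, e₁ ((g : Δ) • F) = (g : Δ) • e₁ F := fun g F => by
    have h1 : homCob e₀ g ((g : Δ) • F) = homCob b g (Up.proj Δ R ((g : Δ) • F)) := by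
      rw [← hcproj, hb]
    simp only [homCob_apply, Subgroup.smul_def, Subgroup.coe_inv, inv_smul_smul, Up.proj_smul]
      at h1
    simp only [e₁, AddMonoidHom.sub_apply, AddMonoidHom.comp_apply, smul_sub, Up.proj_smul]
    linear_combination (norm := abel) -h1
  let E : Co Δ R →+ Spl u := ∑ q : Δ ⧸ H,
    (DistribSMul.toAddMonoidHom (Spl u) q.out).comp
      (e₁.comp (DistribSMul.toAddMonoidHom (Co Δ R) q.out⁻¹))
  have hE_apply : ∀ F, E F = ∑ q : Δ ⧸ H, q.out • e₁ (q.out⁻¹ • F) := fun F => by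
    simp [E, AddMonoidHom.finsetSum_apply]
  have hE : IsEquivariant Δ E := fun σ F => by
    rw [hE_apply, hE_apply, Finset.smul_sum]
    refine (Fintype.sum_equiv (MulAction.toPerm σ) _ _ fun q => ?_).symm
    simp only [MulAction.toPerm_apply]
    obtain ⟨g, hg⟩ : ∃ g : H, (σ • q).out = σ * q.out * (g : Δ) := by
      have h1 : QuotientGroup.mk (σ * q.out) = QuotientGroup.mk (s := H) (σ • q).out := by
        rw [QuotientGroup.out_eq']
        conv_rhs => rw [← QuotientGroup.out_eq' q]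
        rfl
      exact ⟨⟨_, QuotientGroup.eq.1 h1⟩, by group⟩
    rw [hg]
    have : (σ * q.out * (g : Δ))⁻¹ • σ • F = ((g⁻¹ : H) : Δ) • q.out⁻¹ • F := by
      simp [mul_smul]
    rw [this, he₁]
    simp [mul_smul]
  let f₁ : R →+ C := n' • f
  have hEconst : ∀ r, E (Co.const Δ R r) = Spl.inl u (f₁ r) := fun r => by
    have hterm : ∀ q : Δ ⧸ H, q.out • e₁ (q.out⁻¹ • Co.const Δ R r) = Spl.inl u (f r) := by
      intro q
      rw [← Co.const_isEquivariant]
      simp only [e₁, e₀, AddMonoidHom.sub_apply, AddMonoidHom.comp_apply, Co.ev_const,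
        Up.proj_const, map_zero, sub_zero, hf _ r, Spl.inl_isEquivariant _ _, smul_inv_smul]
    rw [hE_apply, Finset.sum_congr rfl fun q _ => hterm q, Finset.sum_const, Finset.card_univ,
      ← Nat.card_eq_fintype_card, ← Subgroup.index_eq_card, hidx, ← map_nsmul]
    rfl
  -- the functional
  let g : Up Δ R →+ Aug Δ := (Spl.snd u).comp (E.comp Up.lift)
  have hgE : ∀ F, Spl.snd u (E F) = g (Up.proj Δ R F) := fun F => by
    simp [g, Up.lift_proj, hEconst]
  have hg : IsEquivariant Δ g := fun σ y => by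
    obtain ⟨F, rfl⟩ := Up.proj_surjective y
    rw [← Up.proj_smul, ← hgE, hE, Spl.snd_smul, hgE]
  let φ₁ : Co Δ (Up Δ R) →+ ℤ := (ZG.ev 1).comp (Aug.val.comp (g.comp (Co.ev 1)))
  let F₁ : Co Δ (Up Δ R) →+ ZG Δ :=
    AddMonoidHom.mk' (fun y => ZG.mk fun τ => φ₁ (τ⁻¹ • y)) fun y y' => by
      ext τ; simp
  have hF₁ : IsEquivariant Δ F₁ := fun σ y => by
    ext τ
    simp [F₁, mul_smul]
  have hF₁const : ∀ x, F₁ (Co.const Δ (Up Δ R) x) = Aug.val (g x) := fun x => by
    ext τ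
    simp [F₁, φ₁, ← Co.const_isEquivariant _ x, hg _ x]
  let ψ : Up Δ (Up Δ R) →+ ℤ := ZG.total.comp (F₁.comp Up.lift)
  have hψt : ∀ y, ZG.total (F₁ y) = ψ (Up.proj Δ (Up Δ R) y) := fun y => by
    simp [ψ, Up.lift_proj, hF₁const]
  have hψ : IsInvariantFn Δ ψ := fun σ y => by
    obtain ⟨F, rfl⟩ := Up.proj_surjective y
    rw [← Up.proj_smul, ← hψt, ← hψt, hF₁, ZG.total_smul]
  have hL : SplitLift u ψ f₁ :=
    ⟨F₁, E, hF₁, hE, hψt, fun F => by rw [hgE, hF₁const], hEconst⟩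
  -- `ψ` is divisible by `#H` on the kernel
  have hdvd : ∀ x : fixSub Δ (Up Δ (Up Δ R)),
      (∃ w, Up.map (Up.map ι) x.1 = trSum Δ w) → (Nat.card H : ℤ) ∣ ψ x := by
    rintro ⟨y₂, hy₂⟩ ⟨w, hw⟩
    obtain ⟨z, hz, hrel⟩ := exists_shiftRel_of_fixed (mem_fixSub.1 hy₂)
    have h1 := hperp z hz ((hrel.map hι).isCoboundary₂_of_norm hw)
    obtain ⟨a, ha⟩ := h1
    have h2 : IsCoboundary₂ fun x => f₁ (z x) := ⟨fun x => n' • a x, fun s t => by
      rw [smul_comm s n', ← nsmul_sub, ← nsmul_add, ha]; rfl⟩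
    refine hu.dvd_of_coboundary ?_ hH
    have := (B2 Δ C).sub_mem (mem_B2.2 h2) (mem_B2.2 (hL.apply_shift hrel))
    rw [mem_B2] at this
    convert this using 1
    funext x
    simp
  obtain ⟨ψY, φ, hψY, heq⟩ := exists_invariantFn_extend
    (Up.map_isEquivariant (Up.map_isEquivariant hι)) (n' • ψ)
    (fun σ y => by simp [hψ σ y]) fun x hx => by
      obtain ⟨m, hm⟩ := hdvd x hx
      refine ⟨m, ?_⟩
      rw [AddMonoidHom.smul_apply, nsmul_eq_mul, hm, hcard]
      ring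
  obtain ⟨hY, hhY⟩ := exists_splitLift (R := Y) u hψY
  have hL' : SplitLift u (n' • ψ) (n' • f₁) := by
    obtain ⟨F₁', F₀', a, b', t, s, cc⟩ := hL.exists_maps
    exact ⟨n' • F₁', n' • F₀', fun σ y => by simp [a σ y, smul_comm σ n'],
      fun σ y => by simp [b' σ y, smul_comm σ n'], fun y => by simp [t y],
      fun F => by simp [s F], fun r => by simp [cc r]⟩
  have hLd := hL'.sub (hhY.comp hι)
  obtain ⟨d, hd⟩ := hLd.eq_nm (φ := φ) fun x => by
    simp only [AddMonoidHom.sub_apply, AddMonoidHom.comp_apply, heq x]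
    ring
  refine ⟨n' * n', hY, d, ?_, hhY.isEquivariant, fun r => ?_⟩
  · rw [Nat.Prime.dvd_mul Fact.out]; simpa using hn'
  · rw [← hd]
    simp [f₁, mul_smul]

end Fermat.Agent.PoitouTate
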