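/-
From cyclic layers of degree `p` to all `p`-subgroups: vanishing of `H¹` and the bound
`#H² ≤ #H`, and the criterion for a class module.
-/
import Fermat.Agent.PoitouTate.AlgebraTN
import Mathlib.Algebra.Group.MinimalAxioms
import Mathlib.GroupTheory.IndexNormal

set_option autoImplicit false

open groupCohomology
open scoped Pointwise

noncomputable section

namespace Fermat.Agent.PoitouTate

variable {Δ : Type} [Group Δ] {C : Type} [AddCommGroup C] [DistribMulAction Δ C]

section Ext

/-- The group extension defined by a 2-cocycle. -/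
structure ExtGroup (_z : Z2 Δ C) where
  /-- The module component. -/
  left : C
  /-- The group component. -/
  right : Δ

namespace ExtGroup

variable {z : Z2 Δ C}

local notation "Z" => (z : Δ × Δ → C)

@[ext] theorem ext' {x y : ExtGroup z} (h₁ : x.left = y.left) (h₂ : x.right = y.right) : x = y := by
  cases x; cases y; congr

instance : Mul (ExtGroup z) :=
  ⟨fun a b => ⟨a.left + a.right • b.left + Z (a.right, b.right), a.right * b.right⟩⟩

@[simp] theorem mul_left' (a b : ExtGroup z) :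
    (a * b).left = a.left + a.right • b.left + Z (a.right, b.right) := rfl

@[simp] theorem mul_right' (a b : ExtGroup z) : (a * b).right = a.right * b.right := rfl

instance : One (ExtGroup z) := ⟨⟨-Z (1, 1), 1⟩⟩

@[simp] theorem one_left : (1 : ExtGroup z).left = -Z (1, 1) := rfl

@[simp] theorem one_right : (1 : ExtGroup z).right = 1 := rfl

instance : Inv (ExtGroup z) :=
  ⟨fun a => ⟨-(a.right⁻¹ • a.left) - Z (a.right⁻¹, a.right) - Z (1, 1), a.right⁻¹⟩⟩

instance : Group (ExtGroup z) :=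
  Group.ofLeftAxioms
    (fun a b c => by
      ext
      · have h := z.2 a.right b.right c.right
        simp only [mul_left', mul_right', smul_add, mul_smul]
        linear_combination (norm := abel) h
      · simp [mul_assoc])
    (fun a => by
      ext
      · simp [map_one_fst_of_isCocycle₂ (mem_Z2.1 z.2) a.right]
      · simp)
    (fun a => by
      ext
      · change -(a.right⁻¹ • a.left) - Z (a.right⁻¹, a.right) - Z (1, 1) + a.right⁻¹ • a.left +
            Z (a.right⁻¹, a.right) = -Z (1, 1)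
        abel
      · exact inv_mul_cancel a.right)

variable (z) in
/-- The projection. -/
def proj : ExtGroup z →* Δ where
  toFun a := a.right
  map_one' := rfl
  map_mul' _ _ := rfl

@[simp] theorem proj_apply (a : ExtGroup z) : proj z a = a.right := rfl

theorem pow_right (a : ExtGroup z) (i : ℕ) : (a ^ i).right = a.right ^ i :=
  map_pow (proj z) a i

theorem pow_left (a : ExtGroup z) : ∀ i : ℕ,
    (a ^ i).left = (∑ j ∈ Finset.range i, a.right ^ j • a.left) +
      ((∑ j ∈ Finset.range i, Z (a.right ^ j, a.right)) - Z (1, 1))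
  | 0 => by simp
  | i + 1 => by
    rw [pow_succ, mul_left', pow_right, pow_left a i, Finset.sum_range_succ, Finset.sum_range_succ]
    abel

/-- A subgroup of the extension which meets the kernel trivially gives a cochain. -/
theorem isCoboundary₂_of_section (K : Subgroup (ExtGroup z)) (hsurj : ∀ g, ∃ a ∈ K, a.right = g)
    (hinj : ∀ a ∈ K, a.right = 1 → a = 1) : IsCoboundary₂ Z := by
  choose s hs hsr using hsurj
  have huniq : ∀ a ∈ K, a = s a.right := fun a ha => by
    have h := hinj _ (K.mul_mem (K.inv_mem (hs a.right)) ha) (by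
      rw [← proj_apply, map_mul, map_inv, proj_apply, proj_apply, hsr, inv_mul_cancel])
    exact (inv_mul_eq_one.1 h).symm
  refine ⟨fun g => -(s g).left, fun g h => ?_⟩
  have e := congrArg ExtGroup.left (huniq _ (K.mul_mem (hs g) (hs h)))
  simp only [mul_left', mul_right', hsr] at e
  dsimp only
  rw [smul_neg, ← e]
  abel

end ExtGroup

end Ext

variable (p : ℕ) [Fact p.Prime]

/-- The two statements on cyclic layers of degree `p`, with norm index `r`. -/
structure CyclicLayersIdx (r : ℕ) (Δ C : Type) [Group Δ] [AddCommGroup C] [DistribMulAction Δ C] :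
    Prop where
  h1 : ∀ (H : Subgroup Δ) (σ : Δ), IsPGroup p ↥(H ⊔ Subgroup.zpowers σ) → σ ∉ H → σ ^ p ∈ H →
    (∀ s ∈ H, σ * s * σ⁻¹ ∈ H) → ∀ c ∈ fixedPts H C,
      (∑ i ∈ Finset.range p, (σ ^ i) • c) = 0 → ∃ d ∈ fixedPts H C, σ • d - d = c
  index : ∀ (H : Subgroup Δ) (σ : Δ), IsPGroup p ↥(H ⊔ Subgroup.zpowers σ) → σ ∉ H → σ ^ p ∈ H →
    (∀ s ∈ H, σ * s * σ⁻¹ ∈ H) →
    ((AddSubgroup.map (∑ i ∈ Finset.range p, DistribSMul.toAddMonoidHom C (σ ^ i))
      (fixedPts H C)).addSubgroupOf (fixedPts (H ⊔ Subgroup.zpowers σ) C)).index = r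

/-- The two statements on cyclic layers of degree `p`, for a class module. -/
abbrev CyclicLayers (Δ C : Type) [Group Δ] [AddCommGroup C] [DistribMulAction Δ C] : Prop :=
  CyclicLayersIdx p p Δ C

variable {p} [Finite Δ]

/-- A subgroup of index `p` in a nontrivial `p`-subgroup. -/
theorem exists_index_p {H : Subgroup Δ} (hH : IsPGroup p H) (hne : H ≠ ⊥) :
    ∃ (H' : Subgroup Δ) (σ : Δ), H' ≤ H ∧ σ ∈ H ∧ σ ∉ H' ∧ σ ^ p ∈ H' ∧
      (∀ s ∈ H', σ * s * σ⁻¹ ∈ H') ∧ Nat.card H = p * Nat.card H' ∧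
      H' ⊔ Subgroup.zpowers σ = H := by
  classical
  obtain ⟨n, hn⟩ := IsPGroup.iff_card.1 hH
  obtain ⟨m, rfl⟩ : ∃ m, n = m + 1 := by
    refine Nat.exists_eq_succ_of_ne_zero fun h => hne ?_
    rw [h, pow_zero] at hn
    exact Subgroup.card_eq_one.1 hn
  obtain ⟨K, hK⟩ := Sylow.exists_subgroup_card_pow_prime p (n := m) (G := H)
    (by rw [hn]; exact pow_dvd_pow p m.le_succ)
  have hidx : K.index = p := by
    have h := Subgroup.card_mul_index K
    rw [hK, hn, pow_succ] at h
    exact Nat.eq_of_mul_eq_mul_left (pow_pos (Fact.out : p.Prime).pos m) h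
  have hnorm : K.Normal :=
    Subgroup.normal_of_index_eq_minFac_card (by
      rw [hidx, hn, Nat.pow_minFac m.succ_ne_zero, (Fact.out : p.Prime).minFac_eq])
  obtain ⟨σ, hσ⟩ : ∃ σ : H, σ ∉ K := by
    by_contra hcon
    push Not at hcon
    have : K = ⊤ := eq_top_iff.2 fun x _ => hcon x
    rw [this, Subgroup.index_top] at hidx
    exact (Fact.out : p.Prime).one_lt.ne hidx
  have hmem : ∀ x : H, (x : Δ) ∈ K.map H.subtype ↔ x ∈ K := fun x =>
    Subgroup.mem_map_iff_mem H.subtype_injective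
  refine ⟨K.map H.subtype, σ, Subgroup.map_subtype_le K, σ.2, fun h => hσ ((hmem σ).1 h), ?_, ?_,
    ?_, ?_⟩
  · rw [← Subgroup.coe_pow]
    refine (hmem _).2 ?_
    have h1 : (QuotientGroup.mk σ : H ⧸ K) ^ K.index = 1 := by
      rw [Subgroup.index_eq_card]; exact pow_card_eq_one'
    rw [hidx, ← QuotientGroup.mk_pow, QuotientGroup.eq_one_iff] at h1
    exact h1
  · intro s hs
    obtain ⟨t, ht, rfl⟩ := Subgroup.mem_map.1 hs
    exact (hmem (σ * t * σ⁻¹)).2 (hnorm.conj_mem t ht σ)
  · rw [Subgroup.card_map_of_injective H.subtype_injective, hn, hK, pow_succ, mul_comm]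
  · refine le_antisymm (sup_le (Subgroup.map_subtype_le K) (Subgroup.zpowers_le.2 σ.2)) ?_
    have htop : K ⊔ Subgroup.zpowers σ = ⊤ := by
      have hdvd := Subgroup.index_dvd_of_le (le_sup_left : K ≤ K ⊔ Subgroup.zpowers σ)
      rw [hidx] at hdvd
      rcases (Nat.dvd_prime Fact.out).1 hdvd with h | h
      · exact Subgroup.index_eq_one.1 h
      · exfalso
        have h2 : K ⊔ Subgroup.zpowers σ ≤ K := by
          have h3 := Subgroup.relIndex_mul_index (le_sup_left : K ≤ K ⊔ Subgroup.zpowers σ)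
          rw [h, hidx] at h3
          exact Subgroup.relIndex_eq_one.1 ((mul_eq_right₀ (Fact.out : p.Prime).ne_zero).1 h3)
        exact hσ (h2 (le_sup_right (α := Subgroup H) (Subgroup.mem_zpowers σ)))
    have h4 := congrArg (Subgroup.map H.subtype) htop
    rw [Subgroup.map_sup, MonoidHom.map_zpowers, ← MonoidHom.range_eq_map,
      Subgroup.range_subtype] at h4
    exact h4.ge

theorem exists_mul_pow {H' : Subgroup Δ} {σ : Δ} (hnorm : ∀ s ∈ H', σ * s * σ⁻¹ ∈ H') {g : Δ}
    (hg : g ∈ H' ⊔ Subgroup.zpowers σ) : ∃ s ∈ H', ∃ i : ℕ, g = s * σ ^ i := by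
  have hn : Subgroup.zpowers σ ≤ Subgroup.normalizer (H' : Set Δ) := by
    rw [Subgroup.zpowers_le, Subgroup.mem_normalizer_iff_map_conj_eq]
    refine Subgroup.eq_of_le_of_card_ge ?_ ?_
    · rintro _ ⟨s, hs, rfl⟩
      exact hnorm s hs
    · rw [Subgroup.card_map_of_injective (MulAut.conj σ).injective]
  have : g ∈ (H' : Set Δ) * (Subgroup.zpowers σ : Set Δ) := by
    rw [← Subgroup.coe_mul_of_right_le_normalizer_left H' (Subgroup.zpowers σ) hn]
    exact hg
  obtain ⟨s, hs, t, ht, rfl⟩ := Set.mem_mul.1 this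
  obtain ⟨i, rfl⟩ := (isOfFinOrder_of_finite σ).mem_powers_iff_mem_zpowers.2 ht
  exact ⟨s, hs, i, rfl⟩

theorem smul_zsmul' (g : Δ) (k : ℤ) (x : C) : g • (k • x) = k • g • x :=
  map_zsmul (DistribSMul.toAddMonoidHom C g) k x

/-- `H¹` vanishes on all `p`-subgroups. -/
theorem CyclicLayersIdx.h1_all {r : ℕ} (hcyc : CyclicLayersIdx p r Δ C) (H : Subgroup Δ) (hH : IsPGroup p H)
    (c : H → C) (hc : ∀ g h : H, c (g * h) = (g : Δ) • c h + c g) :
    ∃ x : C, ∀ g : H, (g : Δ) • x - x = c g := by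
  induction hn : Nat.card H using Nat.strong_induction_on generalizing H c with
  | _ n ih =>
  have hc1 : c 1 = 0 := by simpa using hc 1 1
  by_cases hbot : H = ⊥
  · refine ⟨0, fun g => ?_⟩
    subst hbot
    rw [Subsingleton.elim g 1, hc1]
    simp
  obtain ⟨H', σ, hle, hσH, hσ, hσp, hnorm, hcard, hsup⟩ := exists_index_p hH hbot
  have hlt : Nat.card H' < n := by
    rw [← hn, hcard]
    exact lt_mul_left Nat.card_pos (Fact.out : p.Prime).one_lt
  obtain ⟨x, hx⟩ := ih _ hlt H' (hH.to_le hle) (fun g => c ⟨g, hle g.2⟩)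
    (fun g h => hc ⟨g, hle g.2⟩ ⟨h, hle h.2⟩) rfl
  let c' : H → C := fun g => c g - ((g : Δ) • x - x)
  have hc' : ∀ g h : H, c' (g * h) = (g : Δ) • c' h + c' g := fun g h => by
    simp only [c', hc g h, Subgroup.coe_mul, mul_smul, smul_sub]
    abel
  have hvan : ∀ g : H, (g : Δ) ∈ H' → c' g = 0 := fun g hg => sub_eq_zero.2 (hx ⟨g, hg⟩).symm
  let τ : H := ⟨σ, hσH⟩
  have he : c' τ ∈ fixedPts H' C := fun s hs => by
    have h1 := hc' ⟨s, hle hs⟩ τ
    rw [hvan ⟨s, hle hs⟩ hs, add_zero] at h1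
    have hs' : σ⁻¹ * s * σ ∈ H' := by
      have hfin : σ⁻¹ ∈ Submonoid.powers σ :=
        (isOfFinOrder_of_finite σ).mem_powers_iff_mem_zpowers.2
          (inv_mem (Subgroup.mem_zpowers σ))
      obtain ⟨i, hi⟩ := hfin
      have key : ∀ (i : ℕ), σ ^ i * s * (σ ^ i)⁻¹ ∈ H' := fun i => by
        induction i with
        | zero => simpa using hs
        | succ i ih => simpa [pow_succ', mul_assoc] using hnorm _ ih
      have := key i
      simpa [show σ ^ i = σ⁻¹ from hi] using this
    have h2 := hc' τ ⟨σ⁻¹ * s * σ, hle hs'⟩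
    rw [hvan ⟨_, hle hs'⟩ hs', smul_zero, zero_add] at h2
    rw [← h1, ← h2]
    congr 1
    exact Subtype.ext (by simp [τ, mul_assoc])
  have hpow : ∀ i : ℕ, c' (τ ^ i) = ∑ j ∈ Finset.range i, (σ ^ j) • c' τ := fun i => by
    induction i with
    | zero => simpa using hvan 1 H'.one_mem
    | succ i ih => rw [pow_succ, hc', ih, Finset.sum_range_succ, SubgroupClass.coe_pow, add_comm]
  obtain ⟨d, hd, hde⟩ := hcyc.h1 H' σ (hsup ▸ hH) hσ hσp hnorm (c' τ) he (by
    rw [← hpow]; exact hvan _ (by simpa [τ] using hσp))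
  refine ⟨x + d, fun g => ?_⟩
  obtain ⟨s, hs, i, hgi⟩ := exists_mul_pow hnorm (hsup.ge g.2)
  have hpow' : ∀ i : ℕ, (σ ^ i) • d - d = c' (τ ^ i) := fun i => by
    rw [hpow]
    induction i with
    | zero => simp
    | succ i ih =>
      rw [Finset.sum_range_succ, ← ih, ← hde, pow_succ, mul_smul, smul_sub]
      abel
  have hg : g = ⟨s, hle hs⟩ * τ ^ i := Subtype.ext (by simpa [τ] using hgi)
  have h1 : c' g = (g : Δ) • d - d := by
    rw [hg, hc', hvan ⟨s, hle hs⟩ hs, add_zero, ← hpow', smul_sub, ← mul_smul, hd s hs]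
    rfl
  simp only [c'] at h1
  rw [smul_add]
  linear_combination (norm := abel) -h1

/-- Restriction to a subgroup of `H²`. -/
def resH2 {H' H : Subgroup Δ} (hle : H' ≤ H) : H2C H C →+ H2C H' C :=
  QuotientAddGroup.map _ _
    (AddMonoidHom.codRestrict
      (AddMonoidHom.mk' (fun (z : Z2 H C) (x : H' × H') =>
          (z : H × H → C) (Subgroup.inclusion hle x.1, Subgroup.inclusion hle x.2))
        fun _ _ => rfl) (Z2 H' C)
      fun z g h j => z.2 (Subgroup.inclusion hle g) (Subgroup.inclusion hle h)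
        (Subgroup.inclusion hle j))
    (fun z hz => by
      obtain ⟨x, hx⟩ := hz
      refine ⟨fun g => x (Subgroup.inclusion hle g), fun g h => ?_⟩
      have := hx (Subgroup.inclusion hle g) (Subgroup.inclusion hle h)
      change _ = (z : H × H → C) (Subgroup.inclusion hle g, Subgroup.inclusion hle h)
      simpa [Subgroup.smul_def] using this)

/-- The restriction kills a class only through a lift commuting with the generator. -/
def IsAdapted {H' H : Subgroup Δ} (hle : H' ≤ H) (τ : H) (z : Z2 H C) (b : H' → C) (x : C) :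
    Prop :=
  (∀ g h : H', (g : Δ) • b h - b (g * h) + b g =
      (z : H × H → C) (Subgroup.inclusion hle g, Subgroup.inclusion hle h)) ∧
  ∀ h h' : H', (Subgroup.inclusion hle h') * τ = τ * Subgroup.inclusion hle h →
    x + (τ : Δ) • -b h + (z : H × H → C) (τ, Subgroup.inclusion hle h) =
      -b h' + (h' : Δ) • x + (z : H × H → C) (Subgroup.inclusion hle h', τ)

/-- The invariant attached to adapted data. -/
def adaptedValue (n : ℕ) {H' H : Subgroup Δ} (τ : H) (hτ : τ ^ n ∈ H'.subgroupOf H) (z : Z2 H C)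
    (b : H' → C) (x : C) : C :=
  (∑ j ∈ Finset.range n, (τ : Δ) ^ j • x) +
    ((∑ j ∈ Finset.range n, (z : H × H → C) (τ ^ j, τ)) - (z : H × H → C) (1, 1)) +
    b ⟨_, hτ⟩

section Kernel

variable {H' H : Subgroup Δ} (hle : H' ≤ H) {τ : H}

/-- The lift of the subgroup defined by a cochain. -/
def liftSub {z : Z2 H C} {b : H' → C}
    (hb : ∀ g h : H', (g : Δ) • b h - b (g * h) + b g =
      (z : H × H → C) (Subgroup.inclusion hle g, Subgroup.inclusion hle h)) :
    H' →* ExtGroup z :=
  MonoidHom.mk' (fun g => ⟨-b g, Subgroup.inclusion hle g⟩) fun g h => by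
    refine ExtGroup.ext' ?_ (map_mul _ g h)
    rw [ExtGroup.mul_left', ← hb, Subgroup.smul_def]
    change -b (g * h) = -b g + (g : Δ) • -b h + _
    rw [smul_neg]
    abel

theorem IsAdapted.value_fixed (p : ℕ) (hnorm : ∀ s ∈ H', (τ : Δ) * s * (τ : Δ)⁻¹ ∈ H')
    (hgen : ∀ g : H, ∃ s : H', ∃ i : ℕ, g = Subgroup.inclusion hle s * τ ^ i)
    (hτp : τ ^ p ∈ H'.subgroupOf H) {z : Z2 H C} {b : H' → C} {x : C}
    (h : IsAdapted hle τ z b x) :
    adaptedValue p τ hτp z b x ∈ fixedPts H C := by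
  let S := liftSub hle h.1
  let T : ExtGroup z := ⟨x, τ⟩
  let π : H' := ⟨_, hτp⟩
  let A : ExtGroup z := T ^ p * (S π)⁻¹
  have hconj : ∀ s : H', T * S s * T⁻¹ = S ⟨_, hnorm s s.2⟩ := fun s => by
    rw [mul_inv_eq_iff_eq_mul]
    have e : Subgroup.inclusion hle (⟨_, hnorm s s.2⟩ : H') * τ = τ * Subgroup.inclusion hle s :=
      Subtype.ext (by simp)
    exact ExtGroup.ext' (h.2 s _ e) e.symm
  have hπ : (π : Δ) = (τ : Δ) ^ p := by simp [π]
  have hcommT : Commute A T := by
    refine Commute.mul_left (Commute.pow_self T p) (Commute.inv_left ?_)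
    have hππ : (⟨_, hnorm π π.2⟩ : H') = π := Subtype.ext (by
      change (τ : Δ) * π * (τ : Δ)⁻¹ = π
      rw [hπ, ← pow_succ', pow_succ, mul_inv_cancel_right])
    have := hconj π
    rw [hππ, mul_inv_eq_iff_eq_mul] at this
    exact this.symm
  have hconjpow : ∀ (i : ℕ) (s : H'), ∃ s' : H', T ^ i * S s * (T ^ i)⁻¹ = S s' ∧
      (s' : Δ) = (τ : Δ) ^ i * s * ((τ : Δ) ^ i)⁻¹ := fun i => by
    induction i with
    | zero => exact fun s => ⟨s, by simp, by simp⟩
    | succ i ih =>
      intro s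
      obtain ⟨s', hs', hs''⟩ := ih s
      refine ⟨⟨_, hnorm s' s'.2⟩, ?_, ?_⟩
      · rw [← hconj, ← hs', pow_succ', mul_inv_rev]
        group
      · change (τ : Δ) * s' * (τ : Δ)⁻¹ = _
        rw [hs'', pow_succ', mul_inv_rev]
        group
  have hcommS : ∀ s : H', Commute A (S s) := fun s => by
    obtain ⟨s', hs', hs''⟩ := hconjpow p s
    have : s' = π * s * π⁻¹ := Subtype.ext (by rw [hs'']; simp [hπ])
    rw [this, map_mul, map_mul, map_inv] at hs'
    rw [mul_inv_eq_iff_eq_mul] at hs'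
    change T ^ p * (S π)⁻¹ * S s = S s * (T ^ p * (S π)⁻¹)
    have h5 : Commute A (S π) := by
      obtain ⟨t, ht, ht'⟩ := hconjpow p π
      have : t = π := Subtype.ext (by rw [ht', hπ]; group)
      rw [this, mul_inv_eq_iff_eq_mul] at ht
      exact Commute.mul_left ht (Commute.inv_left (Commute.refl _))
    have h6 : T ^ p = A * S π := by simp [A]
    calc T ^ p * (S π)⁻¹ * S s = A * S s := rfl
      _ = S s * A := by
        have e : A * S π * S s = S π * S s * (S π)⁻¹ * (A * S π) := by rw [← h6]; exact hs'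
        have e2 : A * (S π * S s) = S π * S s * A := by
          calc A * (S π * S s) = A * S π * S s := (mul_assoc _ _ _).symm
            _ = S π * S s * (S π)⁻¹ * (A * S π) := e
            _ = S π * S s * (S π)⁻¹ * (S π * A) := by rw [h5.eq]
            _ = S π * S s * A := by group
        calc A * S s = (S π)⁻¹ * (A * (S π * S s)) := by
              rw [← mul_assoc (S π)⁻¹, (h5.symm.inv_left).eq]; group
          _ = S s * A := by rw [e2]; group
      _ = S s * (T ^ p * (S π)⁻¹) := rfl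
  have hAr : A.right = 1 := by
    change (ExtGroup.proj z) (T ^ p * (S π)⁻¹) = 1
    rw [map_mul, map_inv, map_pow]
    change τ ^ p * (Subgroup.inclusion hle π)⁻¹ = 1
    rw [mul_inv_eq_one]
    exact Subtype.ext (by simp [hπ])
  have hAl : A.left + (z : H × H → C) (1, 1) = adaptedValue p τ hτp z b x := by
    have e : A * S π = T ^ p := inv_mul_cancel_right _ _
    have e' := congrArg ExtGroup.left e
    rw [ExtGroup.mul_left', hAr, ExtGroup.pow_left] at e'
    rw [map_one_fst_of_isCocycle₂ (mem_Z2.1 z.2)] at e'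
    simp only [one_smul] at e'
    change A.left + -b π + _ = _ at e'
    simp only [adaptedValue]
    change A.left + _ = _ + b π
    simp only [T, Subgroup.smul_def, Subgroup.coe_pow] at e'
    linear_combination (norm := abel) e'
  have hfix : ∀ B : ExtGroup z, Commute A B →
      (B.right : Δ) • adaptedValue p τ hτp z b x = adaptedValue p τ hτp z b x := fun B hB => by
    have e := congrArg ExtGroup.left hB.eq
    simp only [ExtGroup.mul_left', hAr, one_smul, map_one_fst_of_isCocycle₂ (mem_Z2.1 z.2),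
      map_one_snd_of_isCocycle₂ (mem_Z2.1 z.2) B.right, Subgroup.smul_def] at e
    rw [← hAl, smul_add]
    linear_combination (norm := abel) -e
  intro g hg
  obtain ⟨s, i, hsi⟩ := hgen ⟨g, hg⟩
  have := hfix (S s * T ^ i) ((hcommS s).mul_right (hcommT.pow_right i))
  rw [ExtGroup.mul_right', ExtGroup.pow_right] at this
  rw [show g = ((S s).right * T.right ^ i : H).1 from congrArg Subtype.val hsi]
  exact this

theorem IsAdapted.isCoboundary₂ (p : ℕ) [Fact p.Prime]
    (hnorm : ∀ s ∈ H', (τ : Δ) * s * (τ : Δ)⁻¹ ∈ H')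
    (hgen : ∀ g : H, ∃ s : H', ∃ i : ℕ, g = Subgroup.inclusion hle s * τ ^ i)
    (hτ : (τ : Δ) ∉ H') (hτp : τ ^ p ∈ H'.subgroupOf H) {z : Z2 H C} {b : H' → C} {x : C}
    (h : IsAdapted hle τ z b x) {d : C} (hd : d ∈ fixedPts H' C)
    (hval : adaptedValue p τ hτp z b x = ∑ j ∈ Finset.range p, (τ : Δ) ^ j • d) :
    IsCoboundary₂ (z : H × H → C) := by
  let S := liftSub hle h.1
  let T : ExtGroup z := ⟨x - d, τ⟩
  let π : H' := ⟨_, hτp⟩
  have hTp : T ^ p = S π := by
    refine ExtGroup.ext' ?_ (by rw [ExtGroup.pow_right]; exact Subtype.ext (by simp [T, π, S, liftSub]))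
    rw [ExtGroup.pow_left]
    change _ = -b π
    simp only [adaptedValue] at hval
    simp only [T, Subgroup.smul_def, Subgroup.coe_pow, smul_sub, Finset.sum_sub_distrib]
    rw [show (⟨_, hτp⟩ : H') = π from rfl] at hval
    linear_combination (norm := abel) hval
  have hconj : ∀ s : H', T * S s * T⁻¹ = S ⟨_, hnorm s s.2⟩ := fun s => by
    rw [mul_inv_eq_iff_eq_mul]
    have e : Subgroup.inclusion hle (⟨_, hnorm s s.2⟩ : H') * τ = τ * Subgroup.inclusion hle s :=
      Subtype.ext (by simp)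
    refine ExtGroup.ext' ?_ e.symm
    have h2 := h.2 s _ e
    have h3 := hd _ (hnorm s s.2)
    change x - d + (τ : Δ) • -b s + _ = -b _ + ((τ : Δ) * s * (τ : Δ)⁻¹) • (x - d) + _
    simp only [show T.right = τ from rfl,
      show ∀ t, (S t).right = Subgroup.inclusion hle t from fun t => rfl]
    rw [smul_sub, h3]
    linear_combination (norm := abel) h2
  have hpush : ∀ (i : ℕ) (s : H'), ∃ s' : H', T ^ i * S s = S s' * T ^ i := fun i => by
    induction i with
    | zero => exact fun s => ⟨s, by simp⟩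
    | succ i ih =>
      intro s
      obtain ⟨s', hs'⟩ := ih s
      refine ⟨⟨_, hnorm s' s'.2⟩, ?_⟩
      rw [pow_succ', mul_assoc, hs', ← hconj]
      group
  let K : Submonoid (ExtGroup z) :=
    { carrier := {a | ∃ (s : H') (i : ℕ), a = S s * T ^ i}
      one_mem' := ⟨1, 0, by simp⟩
      mul_mem' := by
        rintro _ _ ⟨s, i, rfl⟩ ⟨t, j, rfl⟩
        obtain ⟨t', ht'⟩ := hpush i t
        refine ⟨s * t', i + j, ?_⟩
        rw [map_mul, pow_add]
        calc S s * T ^ i * (S t * T ^ j) = S s * (T ^ i * S t) * T ^ j := by group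
          _ = S s * (S t' * T ^ i) * T ^ j := by rw [ht']
          _ = S s * S t' * (T ^ i * T ^ j) := by group }
  have hinv : ∀ {a : ExtGroup z}, a ∈ K → a⁻¹ ∈ K := by
    intro a ha
    have hT : T⁻¹ ∈ K := by
      refine ⟨π⁻¹, p - 1, ?_⟩
      rw [map_inv, ← hTp, ← zpow_natCast, ← zpow_natCast, ← zpow_neg_one, ← zpow_neg, ← zpow_add]
      congr 1
      have := (Fact.out : p.Prime).one_lt
      omega
    obtain ⟨s, i, rfl⟩ := ha
    rw [mul_inv_rev, ← map_inv, ← inv_pow]
    exact K.mul_mem (K.pow_mem hT i) ⟨s⁻¹, 0, by simp⟩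
  refine ExtGroup.isCoboundary₂_of_section { K with inv_mem' := hinv } (fun g => ?_) ?_
  · obtain ⟨s, i, hsi⟩ := hgen g
    exact ⟨S s * T ^ i, ⟨s, i, rfl⟩, by
      rw [ExtGroup.mul_right', ExtGroup.pow_right]; exact hsi.symm⟩
  · rintro _ ⟨s, i, rfl⟩ hr
    rw [ExtGroup.mul_right', ExtGroup.pow_right] at hr
    change Subgroup.inclusion hle s * τ ^ i = 1 at hr
    have hi : (τ : Δ) ^ i ∈ H' := by
      have := congrArg Subtype.val hr
      simp only [Subgroup.coe_mul, SubgroupClass.coe_pow, Subgroup.coe_one,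
        Subgroup.coe_inclusion] at this
      rw [eq_inv_of_mul_eq_one_right this]
      exact H'.inv_mem s.2
    obtain ⟨k, rfl⟩ : p ∣ i := by
      by_contra hpi
      obtain ⟨u, v, huv⟩ := Nat.isCoprime_iff_coprime.2
        ((Nat.Prime.coprime_iff_not_dvd (Fact.out : p.Prime)).2 hpi)
      apply hτ
      have : (τ : Δ) = ((τ : Δ) ^ p) ^ u * ((τ : Δ) ^ i) ^ v := by
        rw [← zpow_natCast, ← zpow_mul, ← zpow_natCast, ← zpow_mul, ← zpow_add]
        rw [show (p : ℤ) * u + (i : ℤ) * v = 1 by linear_combination huv, zpow_one]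
      rw [this]
      refine H'.mul_mem (H'.zpow_mem ?_ u) (H'.zpow_mem hi v)
      simpa using (Subgroup.mem_subgroupOf.1 hτp)
    rw [pow_mul, hTp, ← map_pow, ← map_mul]
    convert map_one S using 2
    refine Subtype.ext ?_
    have := congrArg Subtype.val hr
    simpa [π, pow_mul] using this

end Kernel

/-- `H²` of a `p`-subgroup has at most `#H` elements. -/
theorem CyclicLayersIdx.finite_h2 {r : ℕ} (hcyc : CyclicLayersIdx p r Δ C) (hr : r ≠ 0)
    (hrp : r ≤ p) (H : Subgroup Δ) (hH : IsPGroup p H) :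
    Finite (H2C H C) ∧ Nat.card (H2C H C) ≤ Nat.card H ∧ (r = 1 → Nat.card (H2C H C) ≤ 1) := by
  induction hn : Nat.card H using Nat.strong_induction_on generalizing H with
  | _ n ih =>
  by_cases hbot : H = ⊥
  · subst hbot
    have hall : ∀ a : H2C (⊥ : Subgroup Δ) C, a = 0 := fun a => by
      obtain ⟨z, rfl⟩ := QuotientAddGroup.mk_surjective a
      rw [QuotientAddGroup.eq_zero_iff]
      refine ⟨fun _ => (z : (⊥ : Subgroup Δ) × (⊥ : Subgroup Δ) → C) (1, 1), fun g h => ?_⟩
      rw [Subsingleton.elim g 1, Subsingleton.elim h 1]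
      simp
    haveI : Subsingleton (H2C (⊥ : Subgroup Δ) C) := ⟨fun a b => by rw [hall a, hall b]⟩
    refine ⟨inferInstance, ?_, fun _ => Nat.card_unique.le⟩
    rw [Nat.card_unique, ← hn]
    exact Nat.card_pos
  obtain ⟨H', σ, hle, hσH, hσ, hσp, hnorm, hcard, hsup⟩ := exists_index_p hH hbot
  have hlt : Nat.card H' < n := by
    rw [← hn, hcard]
    exact lt_mul_left Nat.card_pos (Fact.out : p.Prime).one_lt
  obtain ⟨hfin', hle', hone'⟩ := ih _ hlt H' (hH.to_le hle) rfl
  let τ : H := ⟨σ, hσH⟩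
  have hτp : τ ^ p ∈ H'.subgroupOf H := Subgroup.mem_subgroupOf.2 (by simpa [τ] using hσp)
  have hgen : ∀ g : H, ∃ s : H', ∃ i : ℕ, g = Subgroup.inclusion hle s * τ ^ i := fun g => by
    obtain ⟨s, hs, i, hgi⟩ := exists_mul_pow hnorm (hsup.ge g.2)
    exact ⟨⟨s, hs⟩, i, Subtype.ext (by simpa [τ] using hgi)⟩
  let f := resH2 (C := C) hle
  let Nrm := AddSubgroup.map (∑ i ∈ Finset.range p, DistribSMul.toAddMonoidHom C (σ ^ i))
    (fixedPts H' C)
  have hidx : (Nrm.addSubgroupOf (fixedPts H C)).index = r := by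
    have := hcyc.index H' σ (hsup ▸ hH) hσ hσp hnorm
    rwa [hsup] at this
  have hexists : ∀ a : f.ker, ∃ (z : Z2 H C) (b : H' → C) (x : C),
      QuotientAddGroup.mk z = (a : H2C H C) ∧ IsAdapted hle τ z b x := by
    rintro ⟨a, ha⟩
    obtain ⟨z, rfl⟩ := QuotientAddGroup.mk_surjective a
    obtain ⟨b, hb₀⟩ := (QuotientAddGroup.eq_zero_iff _).1 ha
    have hb : ∀ g h : H', (g : Δ) • b h - b (g * h) + b g =
        (z : H × H → C) (Subgroup.inclusion hle g, Subgroup.inclusion hle h) := fun g h => hb₀ g h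
    let S := liftSub hle (z := z) (b := b) hb
    let T : ExtGroup z := ⟨0, τ⟩
    -- the conjugate section differs from the section by a 1-cocycle
    have hinvmem : ∀ s : H', σ⁻¹ * s * σ ∈ H' := fun s => by
      have key : ∀ (i : ℕ), σ ^ i * s * (σ ^ i)⁻¹ ∈ H' := fun i => by
        induction i with
        | zero => simpa using s.2
        | succ i ih => simpa [pow_succ', mul_assoc] using hnorm _ ih
      obtain ⟨i, hi⟩ : σ⁻¹ ∈ Submonoid.powers σ :=
        (isOfFinOrder_of_finite σ).mem_powers_iff_mem_zpowers.2 (inv_mem (Subgroup.mem_zpowers σ))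
      simpa [show σ ^ i = σ⁻¹ from hi] using key i
    let cj : H' →* H' := MonoidHom.mk' (fun s => ⟨_, hinvmem s⟩) fun s t =>
      Subtype.ext (by simp [mul_assoc])
    let D : H' → C := fun s => (T * S (cj s) * T⁻¹).left + b s
    have hDr : ∀ s, (T * S (cj s) * T⁻¹).right = Subgroup.inclusion hle s := fun s => by
      change ExtGroup.proj z (T * S (cj s) * T⁻¹) = _
      rw [map_mul, map_mul, map_inv]
      exact Subtype.ext (by simp [T, S, liftSub, cj, τ, mul_assoc])
    have hD : ∀ s t : H', D (s * t) = (s : Δ) • D t + D s := fun s t => by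
      have e : T * S (cj (s * t)) * T⁻¹ = (T * S (cj s) * T⁻¹) * (T * S (cj t) * T⁻¹) := by
        rw [map_mul, map_mul]; group
      simp only [D]
      rw [e, ExtGroup.mul_left', hDr, hDr, ← hb, Subgroup.smul_def, Subgroup.coe_inclusion,
        smul_add]
      abel
    obtain ⟨x₀, hx₀⟩ := CyclicLayersIdx.h1_all hcyc H' (hH.to_le hle) D hD
    refine ⟨z, b, x₀, rfl, hb, fun h h' hh' => ?_⟩
    have hcj : cj h' = h := Subtype.ext (by
      have := congrArg Subtype.val hh'
      simp only [Subgroup.coe_mul, Subgroup.coe_inclusion] at this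
      change σ⁻¹ * (h' : Δ) * σ = h
      rw [mul_assoc, show (h' : Δ) * σ = σ * h from this, inv_mul_cancel_left])
    have e2 : T * S h = (T * S (cj h') * T⁻¹) * T := by rw [hcj]; group
    have e3 := congrArg ExtGroup.left e2
    rw [ExtGroup.mul_left', ExtGroup.mul_left', hDr] at e3
    simp only [T, smul_zero, add_zero, zero_add, Subgroup.smul_def] at e3
    have e4 := hx₀ h'
    simp only [D] at e4
    change σ • -b h + (z : H × H → C) (τ, Subgroup.inclusion hle h) = _ at e3
    change x₀ + σ • -b h + _ = _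
    linear_combination (norm := abel) e3 - e4
  choose z b x hz hadapt using hexists
  let φ : f.ker → ↥(fixedPts H C) ⧸ Nrm.addSubgroupOf (fixedPts H C) := fun a =>
    QuotientAddGroup.mk
      ⟨adaptedValue p τ hτp (z a) (b a) (x a), (hadapt a).value_fixed hle p hnorm hgen hτp⟩
  have hinj : Function.Injective φ := fun a a' haa' => by
    simp only [φ, QuotientAddGroup.eq, AddSubgroup.mem_addSubgroupOf] at haa'
    obtain ⟨d, hd, hde⟩ := haa'
    have hA : IsAdapted hle τ (z a' - z a) (b a' - b a) (x a' - x a) := by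
      refine ⟨fun g h => ?_, fun h h' hh' => ?_⟩
      · simp only [Pi.sub_apply, AddSubgroupClass.coe_sub, smul_sub]
        linear_combination (norm := abel) (hadapt a').1 g h - (hadapt a).1 g h
      · simp only [Pi.sub_apply, AddSubgroupClass.coe_sub, smul_sub, smul_neg, neg_sub]
        have e1 := (hadapt a').2 h h' hh'
        have e2 := (hadapt a).2 h h' hh'
        simp only [smul_neg] at e1 e2
        linear_combination (norm := abel) e1 - e2
    have hcob := hA.isCoboundary₂ hle p hnorm hgen hσ hτp hd (by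
      have e : ∀ (S : Finset ℕ), (∑ i ∈ S, DistribSMul.toAddMonoidHom C (σ ^ i)) d =
          ∑ i ∈ S, σ ^ i • d := fun S => by simp [AddMonoidHom.finsetSum_apply]
      rw [e] at hde
      rw [hde]
      simp only [adaptedValue, AddSubgroup.coe_neg, AddSubgroup.coe_add, Pi.sub_apply,
        AddSubgroupClass.coe_sub, smul_sub, Finset.sum_sub_distrib]
      abel)
    refine Subtype.ext ?_
    rw [← hz a, ← hz a', QuotientAddGroup.eq]
    change IsCoboundary₂ _
    rw [neg_add_eq_sub]
    exact hcob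
  haveI : (Nrm.addSubgroupOf (fixedPts H C)).FiniteIndex :=
    ⟨by rw [hidx]; exact hr⟩
  haveI hfk : Finite f.ker := Finite.of_injective φ hinj
  haveI := hfin'
  have hker : Nat.card f.ker ≤ r := by
    refine le_trans (Nat.card_le_card_of_injective φ hinj) ?_
    rw [← AddSubgroup.index_eq_card, hidx]
  haveI : Finite (H2C H C ⧸ f.ker) :=
    Finite.of_equiv _ (QuotientAddGroup.quotientKerEquivRange f).symm.toEquiv
  haveI hfin : Finite (H2C H C) :=
    Finite.of_equiv _ (AddSubgroup.addGroupEquivQuotientProdAddSubgroup (s := f.ker)).symm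
  refine ⟨hfin, ?_, fun h1 => ?_⟩
  · rw [AddSubgroup.card_eq_card_quotient_mul_card_addSubgroup f.ker,
      Nat.card_congr (QuotientAddGroup.quotientKerEquivRange f).toEquiv, ← hn, hcard, mul_comm p]
    exact Nat.mul_le_mul ((Nat.card_le_card_of_injective _ Subtype.val_injective).trans hle')
      (hker.trans hrp)
  · rw [AddSubgroup.card_eq_card_quotient_mul_card_addSubgroup f.ker,
      Nat.card_congr (QuotientAddGroup.quotientKerEquivRange f).toEquiv]
    exact (Nat.mul_le_mul ((Nat.card_le_card_of_injective _ Subtype.val_injective).trans (hone' h1))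
      (hker.trans h1.le)).trans (one_mul 1).le

omit [Fact p.Prime] [Finite Δ] in
/-- Transfer from a subgroup of finite index. -/
theorem isCoboundary₂_index_nsmul [Fintype Δ] {z : Δ × Δ → C} (hz : IsCocycle₂ z) (H : Subgroup Δ)
    (k : ℤ) (hres : IsCoboundary₂ fun x : H × H => k • z (x.1, x.2)) :
    IsCoboundary₂ fun x : Δ × Δ => ((H.index : ℤ) * k) • z x := by
  classical
  obtain ⟨b, hb⟩ := hres
  let t : Δ ⧸ H → Δ := Quotient.out
  have ht : ∀ (g : Δ) (q : Δ ⧸ H), (t (g • q))⁻¹ * (g * t q) ∈ H := fun g q => by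
    have h1 : QuotientGroup.mk (s := H) (t (g • q)) = QuotientGroup.mk (g * t q) := by
      rw [QuotientGroup.out_eq']
      conv_lhs => rw [← QuotientGroup.out_eq' q]
      rfl
    exact QuotientGroup.eq.1 h1
  let η : Δ → Δ ⧸ H → H := fun g q => ⟨_, ht g q⟩
  have hη : ∀ g q, t (g • q) * (η g q : Δ) = g * t q := fun g q => mul_inv_cancel_left _ _
  let y : Δ → C := fun g => ∑ q : Δ ⧸ H,
    (t (g • q) • b (η g q) - k • z (t (g • q), η g q) + k • z (g, t q))
  refine ⟨y, fun g h => ?_⟩
  have hterm : ∀ q : Δ ⧸ H,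
      g • (t (h • q) • b (η h q) - k • z (t (h • q), η h q) + k • z (h, t q)) -
        (t ((g * h) • q) • b (η (g * h) q) - k • z (t ((g * h) • q), η (g * h) q) +
          k • z (g * h, t q)) +
        (t (g • h • q) • b (η g (h • q)) - k • z (t (g • h • q), η g (h • q)) +
          k • z (g, t (h • q))) = k • z (g, h) := by
    intro q
    have hmul : η (g * h) q = η g (h • q) * η h q := Subtype.ext <| by
      change _ = (η g (h • q) : Δ) * η h q
      apply mul_left_cancel (a := t ((g * h) • q))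
      rw [hη, mul_smul g h q, ← mul_assoc (t (g • h • q)), hη g (h • q), mul_assoc g (t (h • q)),
        hη h q, mul_assoc]
    have e0 : (g * h) • q = g • h • q := mul_smul g h q
    have hb' := congrArg (fun c => t (g • h • q) • c) (hb (η g (h • q)) (η h q))
    simp only [Subgroup.smul_def, smul_add, smul_sub, smul_zsmul', ← mul_smul] at hb'
    have c2 := congrArg (fun c => k • c) (hz (t (g • h • q)) (η g (h • q)) (η h q))
    have c3 := congrArg (fun c => k • c) (hz g (t (h • q)) (η h q))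
    have c1 := congrArg (fun c => k • c) (hz g h (t q))
    simp only [smul_add] at c1 c2 c3
    rw [hη] at c2
    rw [hη] at c3
    have e2 : t ((g * h) • q) = t (g • h • q) := by rw [e0]
    simp only [smul_sub, smul_add, ← mul_smul g (t (h • q)), smul_zsmul', e2, hmul,
      Subgroup.coe_mul]
    simp only [e2, hη] at hb'
    linear_combination (norm := abel) hb' - c2 + c3 - c1
  have hreindex : y g = ∑ q : Δ ⧸ H,
      (t (g • h • q) • b (η g (h • q)) - k • z (t (g • h • q), η g (h • q)) +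
        k • z (g, t (h • q))) :=
    (Fintype.sum_equiv (MulAction.toPerm h) _ _ fun q => rfl).symm
  rw [hreindex]
  simp only [y, Finset.smul_sum, ← Finset.sum_sub_distrib, ← Finset.sum_add_distrib]
  rw [Finset.sum_congr rfl fun q _ => hterm q, Finset.sum_const, Finset.card_univ,
    ← Nat.card_eq_fintype_card, ← Subgroup.index_eq_card, ← natCast_zsmul, ← mul_smul]

omit [Fact p.Prime] in
/-- A class killed on a subgroup of index prime to its order. -/
theorem dvd_of_res_cob [Fintype Δ] {u : Z2 Δ C} {a : ℕ}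
    (hord : ∀ k : ℤ, (IsCoboundary₂ fun x : Δ × Δ => k • (u : Δ × Δ → C) x) → (p : ℤ) ^ a ∣ k)
    (H : Subgroup Δ) {k : ℤ}
    (hres : IsCoboundary₂ fun x : H × H => k • (u : Δ × Δ → C) (x.1, x.2)) :
    (p : ℤ) ^ a ∣ (H.index : ℤ) * k :=
  hord _ (isCoboundary₂_index_nsmul u.2 H k hres)

/-- The class module criterion. -/
theorem CyclicLayers.isClassModule (hcyc : CyclicLayers p Δ C) {u : Z2 Δ C} (P : Sylow p Δ)
    (hord : ∀ k : ℤ, (IsCoboundary₂ fun x : Δ × Δ => k • (u : Δ × Δ → C) x) →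
      (Nat.card P : ℤ) ∣ k) :
    IsClassModule p Δ C (u : Δ × Δ → C) := by
  haveI := Fintype.ofFinite Δ
  have hcop : ∀ H : Subgroup Δ, IsPGroup p H → ∀ k : ℤ,
      (IsCoboundary₂ fun x : H × H => k • (u : Δ × Δ → C) (x.1, x.2)) → (Nat.card H : ℤ) ∣ k := by
    intro H hH k hk
    have h1 := hord _ (isCoboundary₂_index_nsmul u.2 H k hk)
    obtain ⟨i, hi⟩ := IsPGroup.iff_card.1 hH
    obtain ⟨a, ha⟩ := IsPGroup.iff_card.1 P.2
    have hcard : Nat.card H * H.index = Nat.card P * (P : Subgroup Δ).index := by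
      rw [Subgroup.card_mul_index, Subgroup.card_mul_index]
    have h2 : (Nat.card H : ℤ) * (H.index : ℤ) ∣
        (((P : Subgroup Δ).index : ℤ) * ((H.index : ℤ) * k)) := by
      rw [show (Nat.card H : ℤ) * H.index = Nat.card P * (P : Subgroup Δ).index by
        exact_mod_cast hcard, mul_comm]
      exact mul_dvd_mul_left _ h1
    rw [mul_left_comm, mul_comm (Nat.card H : ℤ)] at h2
    have h3 := (mul_dvd_mul_iff_left
      (show (H.index : ℤ) ≠ 0 by exact_mod_cast Subgroup.index_ne_zero_of_finite)).1 h2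
    refine IsCoprime.dvd_of_dvd_mul_left ?_ h3
    rw [Nat.isCoprime_iff_coprime, hi]
    exact Nat.Coprime.pow_left _
      ((Nat.Prime.coprime_iff_not_dvd (Fact.out : p.Prime)).2 P.not_dvd_index)
  have main : ∀ H : Subgroup Δ, IsPGroup p H →
      (∀ k : ℤ, (IsCoboundary₂ fun x : H × H => k • (u : Δ × Δ → C) (x.1, x.2)) ↔
        (Nat.card H : ℤ) ∣ k) ∧
      ∀ z : Z2 H C, ∃ k : ℤ,
        IsCoboundary₂ fun x : H × H => (z : H × H → C) x - k • (u : Δ × Δ → C) (x.1, x.2) := by
    intro H hH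
    obtain ⟨hfin, hcard, -⟩ :=
      CyclicLayersIdx.finite_h2 hcyc (Fact.out : p.Prime).ne_zero le_rfl H hH
    let uH : Z2 H C := ⟨fun x => (u : Δ × Δ → C) (x.1, x.2), fun g h j => u.2 g h j⟩
    let cls : H2C H C := QuotientAddGroup.mk uH
    have hcls : ∀ k : ℤ, k • cls = 0 ↔
        IsCoboundary₂ fun x : H × H => k • (u : Δ × Δ → C) (x.1, x.2) := fun k => by
      rw [← QuotientAddGroup.mk_zsmul, QuotientAddGroup.eq_zero_iff]; rfl
    have hle : Nat.card H ≤ addOrderOf cls :=
      Nat.le_of_dvd (addOrderOf_pos cls) (Int.natCast_dvd_natCast.1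
        (hcop H hH _ ((hcls _).1 (by rw [natCast_zsmul]; exact addOrderOf_nsmul_eq_zero cls))))
    have hge : addOrderOf cls ≤ Nat.card H := by
      rw [← Nat.card_zmultiples]
      exact (Nat.card_le_card_of_injective _ Subtype.val_injective).trans hcard
    have hcardeq : addOrderOf cls = Nat.card H := le_antisymm hge hle
    have htop : AddSubgroup.zmultiples cls = ⊤ := by
      refine AddSubgroup.eq_top_of_card_eq _ (le_antisymm ?_ ?_)
      · exact Nat.card_le_card_of_injective _ Subtype.val_injective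
      · rw [Nat.card_zmultiples, hcardeq]; exact hcard
    refine ⟨fun k => ?_, fun z => ?_⟩
    · rw [← hcls, ← addOrderOf_dvd_iff_zsmul_eq_zero, hcardeq]
    · obtain ⟨k, hk⟩ := AddSubgroup.mem_zmultiples_iff.1
        (htop.ge (AddSubgroup.mem_top (QuotientAddGroup.mk z : H2C H C)))
      refine ⟨k, ?_⟩
      rw [← QuotientAddGroup.mk_zsmul, QuotientAddGroup.eq, neg_add_eq_sub] at hk
      exact hk
  refine ⟨u.2, fun H hH c hc => CyclicLayersIdx.h1_all hcyc H hH c hc, fun H hH z hz => ?_, fun H hH k => ?_⟩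
  · obtain ⟨k, b, hb⟩ := (main H hH).2 ⟨z, hz⟩
    exact ⟨k, b, fun g h => (hb g h).symm⟩
  · rw [← (main H hH).1 k]
    exact ⟨fun ⟨b, hb⟩ => ⟨b, fun g h => (hb g h).symm⟩, fun ⟨b, hb⟩ => ⟨b, fun g h => (hb g h).symm⟩⟩

omit [Finite Δ] in
/-- When the cyclic layers have trivial cohomology, so has every `p`-subgroup. -/
theorem CyclicLayersIdx.h2_eq_zero [Finite Δ] (hcyc : CyclicLayersIdx p 1 Δ C) (H : Subgroup Δ)
    (hH : IsPGroup p H) {z : H × H → C} (hz : IsCocycle₂ z) : IsCoboundary₂ z := by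
  obtain ⟨hfin, -, h1⟩ := hcyc.finite_h2 one_ne_zero (Fact.out : p.Prime).one_lt.le H hH
  haveI := hfin
  haveI : Subsingleton (H2C H C) := Finite.card_le_one_iff_subsingleton.1 (h1 rfl)
  exact (QuotientAddGroup.eq_zero_iff _).1
    (Subsingleton.elim (QuotientAddGroup.mk (⟨z, hz⟩ : Z2 H C) : H2C H C) 0)

end Fermat.Agent.PoitouTate
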