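/-
Shared definitions of the Poitou-Tate development (statement S55).

For a finite set `T` of rational primes we use the idele group of the maximal extension unramified
outside `T`, modulo the unit ideles outside `T`:

* at `q ∈ T` a component is a function `GQ → (PadicAlgCl q)ˣ` equivariant for the local Galois
  group acting on the left;
* at `q ∉ T` a component is a function `GQ → ℤ` (the valuations), invariant under the local group.

The absolute Galois group acts by right translation. `Cls T` is the quotient by the principal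
elements; the level `L` is recovered as the fixed points of `L.fixingSubgroup`.
-/
import Fermat.Prelude.Def_GroupCohomology_ContinuousUnramified
import Fermat.Agent.Galois.QbarInstances
import Fermat.Agent.PoitouTate.Cochain

set_option autoImplicit false

open CategoryTheory

noncomputable section

namespace Fermat.Agent.PoitouTate

/-- The absolute Galois group of `ℚ`. -/
abbrev GQ : Type := AlgebraicClosure ℚ ≃ₐ[ℚ] AlgebraicClosure ℚ

instance factPrimeNatPrimes (q : Nat.Primes) : Fact (q : ℕ).Prime := ⟨q.2⟩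

/-- The local absolute Galois group at `q`. -/
abbrev LocGal (q : Nat.Primes) : Type := PadicAlgCl (q : ℕ) ≃ₐ[ℚ_[(q : ℕ)]] PadicAlgCl (q : ℕ)

/-- The localisation map at `q`. -/
def loc (q : Nat.Primes) : LocGal q →* GQ := localGaloisToGlobal (q : ℕ)

theorem loc_eq_primeLocalToGlobal (q : Nat.Primes) (τ : LocGal q) :
    loc q τ = ExtCitation.primeLocalToGlobal q τ := rfl

theorem padicEmbedding_loc (q : Nat.Primes) (τ : LocGal q) (x : AlgebraicClosure ℚ) :
    padicEmbedding (q : ℕ) (loc q τ x) = τ (padicEmbedding (q : ℕ) x) :=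
  padicEmbedding_localGaloisToGlobal _ _ _

/-- The values of an idele at a prime of `T`. -/
abbrev LocVal (q : Nat.Primes) : Type := Additive (PadicAlgCl (q : ℕ))ˣ

/-- The action of the local Galois group on the local values. -/
def locAct (q : Nat.Primes) (τ : LocGal q) : LocVal q →+ LocVal q :=
  MonoidHom.toAdditive (Units.map ((τ : PadicAlgCl (q : ℕ) →ₐ[ℚ_[(q : ℕ)]] PadicAlgCl (q : ℕ)) :
    PadicAlgCl (q : ℕ) →* PadicAlgCl (q : ℕ)))

@[simp] theorem coe_locAct (q : Nat.Primes) (τ : LocGal q) (x : LocVal q) :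
    ((Additive.toMul (locAct q τ x) : (PadicAlgCl (q : ℕ))ˣ) : PadicAlgCl (q : ℕ)) =
      τ ((Additive.toMul x : (PadicAlgCl (q : ℕ))ˣ) : PadicAlgCl (q : ℕ)) := rfl

variable (T : Finset Nat.Primes)

/-- Arbitrary families of local components. -/
def Amb : Type :=
  ((q : ↥T) → GQ → LocVal q.1) × ({q : Nat.Primes // q ∉ T} → GQ → ℤ)

instance : AddCommGroup (Amb T) :=
  inferInstanceAs (AddCommGroup
    (((q : ↥T) → GQ → LocVal q.1) × ({q : Nat.Primes // q ∉ T} → GQ → ℤ)))

variable {T}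

/-- The component at a prime of `T`. -/
def Amb.fin (f : Amb T) (q : ↥T) (g : GQ) : LocVal q.1 := f.1 q g

/-- The component (a valuation) at a prime outside `T`. -/
def Amb.ord (f : Amb T) (q : {q : Nat.Primes // q ∉ T}) (g : GQ) : ℤ := f.2 q g

@[ext] theorem Amb.ext {f f' : Amb T} (h₁ : ∀ q g, f.fin q g = f'.fin q g)
    (h₂ : ∀ q g, f.ord q g = f'.ord q g) : f = f' :=
  Prod.ext (funext fun q => funext fun g => h₁ q g) (funext fun q => funext fun g => h₂ q g)

@[simp] theorem Amb.fin_add (f f' : Amb T) (q : ↥T) (g : GQ) :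
    (f + f').fin q g = f.fin q g + f'.fin q g := rfl
@[simp] theorem Amb.ord_add (f f' : Amb T) (q : {q : Nat.Primes // q ∉ T}) (g : GQ) :
    (f + f').ord q g = f.ord q g + f'.ord q g := rfl
@[simp] theorem Amb.fin_zero (q : ↥T) (g : GQ) : (0 : Amb T).fin q g = 0 := rfl
@[simp] theorem Amb.ord_zero (q : {q : Nat.Primes // q ∉ T}) (g : GQ) :
    (0 : Amb T).ord q g = 0 := rfl
@[simp] theorem Amb.fin_neg (f : Amb T) (q : ↥T) (g : GQ) : (-f).fin q g = -f.fin q g := rfl
@[simp] theorem Amb.ord_neg (f : Amb T) (q : {q : Nat.Primes // q ∉ T}) (g : GQ) :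
    (-f).ord q g = -f.ord q g := rfl
@[simp] theorem Amb.fin_sub (f f' : Amb T) (q : ↥T) (g : GQ) :
    (f - f').fin q g = f.fin q g - f'.fin q g := rfl
@[simp] theorem Amb.ord_sub (f f' : Amb T) (q : {q : Nat.Primes // q ∉ T}) (g : GQ) :
    (f - f').ord q g = f.ord q g - f'.ord q g := rfl

/-- Right translation. -/
instance : SMul GQ (Amb T) :=
  ⟨fun σ f => (fun q g => f.fin q (g * σ), fun q g => f.ord q (g * σ))⟩

@[simp] theorem Amb.fin_smul (σ : GQ) (f : Amb T) (q : ↥T) (g : GQ) :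
    (σ • f).fin q g = f.fin q (g * σ) := rfl
@[simp] theorem Amb.ord_smul (σ : GQ) (f : Amb T) (q : {q : Nat.Primes // q ∉ T}) (g : GQ) :
    (σ • f).ord q g = f.ord q (g * σ) := rfl

instance : DistribMulAction GQ (Amb T) where
  one_smul f := by ext q g <;> simp
  mul_smul σ τ f := by ext q g <;> simp [mul_assoc]
  smul_zero σ := by ext q g <;> simp
  smul_add σ f f' := by ext q g <;> simp

variable (T)

/-- Finite Galois extensions of `ℚ` unramified outside `T`. -/
structure IsLvl (L : IntermediateField ℚ (AlgebraicClosure ℚ)) : Prop where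
  unramified : L.IsUnramifiedOutside T
  normal : L.fixingSubgroup.Normal

variable {T}

theorem IsLvl.sup {L L' : IntermediateField ℚ (AlgebraicClosure ℚ)} (h : IsLvl T L)
    (h' : IsLvl T L') : IsLvl T (L ⊔ L') := by
  refine ⟨h.unramified.sup h'.unramified, ?_⟩
  haveI := h.normal
  haveI := h'.normal
  rw [IntermediateField.fixingSubgroup_sup]
  infer_instance

theorem IsLvl.mono {T' : Finset Nat.Primes} (hT : T ⊆ T')
    {L : IntermediateField ℚ (AlgebraicClosure ℚ)} (h : IsLvl T L) : IsLvl T' L :=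
  ⟨h.unramified.mono hT, h.normal⟩

variable (T)

theorem isLvl_bot : IsLvl T ⊥ :=
  ⟨IntermediateField.isUnramifiedOutside_bot T, by
    rw [IntermediateField.fixingSubgroup_bot]; infer_instance⟩

/-- The ideles of the maximal extension unramified outside `T`, modulo units outside `T`. -/
def J : AddSubgroup (Amb T) where
  carrier := {f |
    (∀ (q : ↥T) (τ : LocGal q.1) (g : GQ), f.fin q (loc q.1 τ * g) = locAct q.1 τ (f.fin q g)) ∧
    (∀ (q : {q : Nat.Primes // q ∉ T}) (τ : LocGal q.1) (g : GQ),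
      f.ord q (loc q.1 τ * g) = f.ord q g) ∧
    (∃ L, IsLvl T L ∧ ∀ s ∈ L.fixingSubgroup, s • f = f) ∧
    {q | ∃ g, f.ord q g ≠ 0}.Finite}
  zero_mem' := by
    refine ⟨by simp, by simp, ⟨⊥, isLvl_bot T, by simp⟩, by simp⟩
  add_mem' := by
    rintro f f' ⟨h₁, h₂, ⟨L, hL, h₃⟩, h₄⟩ ⟨h₁', h₂', ⟨L', hL', h₃'⟩, h₄'⟩
    refine ⟨by simp [h₁, h₁'], by simp [h₂, h₂'], ⟨L ⊔ L', hL.sup hL', fun s hs => ?_⟩, ?_⟩
    · rw [smul_add, h₃ s (IntermediateField.fixingSubgroup_antitone le_sup_left hs),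
        h₃' s (IntermediateField.fixingSubgroup_antitone le_sup_right hs)]
    · refine (h₄.union h₄').subset ?_
      rintro q ⟨g, hg⟩
      by_contra h
      simp only [Set.mem_union, Set.mem_setOf_eq, not_or, not_exists, not_not] at h
      exact hg (by simp [h.1 g, h.2 g])
  neg_mem' := by
    rintro f ⟨h₁, h₂, ⟨L, hL, h₃⟩, h₄⟩
    refine ⟨by simp [h₁], by simp [h₂], ⟨L, hL, fun s hs => by rw [smul_neg, h₃ s hs]⟩, ?_⟩
    simpa using h₄

variable {T}

theorem smul_mem_J (σ : GQ) {f : Amb T} (hf : f ∈ J T) : σ • f ∈ J T := by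
  obtain ⟨h₁, h₂, ⟨L, hL, h₃⟩, h₄⟩ := hf
  refine ⟨fun q τ g => by simp [mul_assoc, h₁], fun q τ g => by simp [mul_assoc, h₂],
    ⟨L, hL, fun s hs => ?_⟩, ?_⟩
  · have h := h₃ (σ⁻¹ * s * σ) (by simpa using hL.normal.conj_mem s hs σ⁻¹)
    calc s • σ • f = σ • ((σ⁻¹ * s * σ) • f) := by rw [← mul_smul, ← mul_smul]; congr 1; group
      _ = σ • f := by rw [h]
  · refine h₄.subset ?_
    rintro q ⟨g, hg⟩
    exact ⟨g * σ, by simpa using hg⟩

instance : SMul GQ ↥(J T) := ⟨fun σ f => ⟨σ • (f : Amb T), smul_mem_J σ f.2⟩⟩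

@[simp] theorem coe_smul_J (σ : GQ) (f : J T) : ((σ • f : J T) : Amb T) = σ • (f : Amb T) := rfl

instance : DistribMulAction GQ ↥(J T) where
  one_smul f := Subtype.ext (one_smul _ _)
  mul_smul σ τ f := Subtype.ext (mul_smul _ _ _)
  smul_zero σ := Subtype.ext (smul_zero _)
  smul_add σ f f' := Subtype.ext (smul_add _ _ _)

/-- `f` is the principal idele of `x`. -/
structure IsPrincipalOf (f : Amb T) (x : AlgebraicClosure ℚ) : Prop where
  ne_zero : x ≠ 0
  fin_eq : ∀ (q : ↥T) (g : GQ),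
    ((Additive.toMul (f.fin q g) : (PadicAlgCl (q.1 : ℕ))ˣ) : PadicAlgCl (q.1 : ℕ)) =
      padicEmbedding (q.1 : ℕ) (g x)
  ord_eq : ∀ (q : {q : Nat.Primes // q ∉ T}) (g : GQ),
    ‖padicEmbedding (q.1 : ℕ) (g x)‖ = ((q.1 : ℕ) : ℝ) ^ (-f.ord q g)

theorem IsPrincipalOf.smul {f : Amb T} {x : AlgebraicClosure ℚ} (h : IsPrincipalOf f x)
    (σ : GQ) : IsPrincipalOf (σ • f) (σ x) :=
  ⟨by simpa using h.ne_zero, fun q g => by simp [h.fin_eq, AlgEquiv.mul_apply],
    fun q g => by rw [Amb.ord_smul, ← h.ord_eq, AlgEquiv.mul_apply]⟩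

variable (T)

/-- The principal ideles. -/
def Prin : AddSubgroup (J T) where
  carrier := {f | ∃ x, IsPrincipalOf (f : Amb T) x}
  zero_mem' := ⟨1, one_ne_zero, fun q g => by simp, fun q g => by simp⟩
  add_mem' := by
    rintro f f' ⟨x, hx⟩ ⟨y, hy⟩
    refine ⟨x * y, mul_ne_zero hx.ne_zero hy.ne_zero, fun q g => ?_, fun q g => ?_⟩
    · simp [map_mul, hx.fin_eq, hy.fin_eq]
    · rw [map_mul, map_mul, norm_mul, hx.ord_eq, hy.ord_eq, AddSubgroup.coe_add, Amb.ord_add,
        neg_add, zpow_add₀ (by exact_mod_cast q.1.2.ne_zero)]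
  neg_mem' := by
    rintro f ⟨x, hx⟩
    refine ⟨x⁻¹, inv_ne_zero hx.ne_zero, fun q g => ?_, fun q g => ?_⟩
    · simp [map_inv₀, hx.fin_eq]
    · rw [map_inv₀, map_inv₀, norm_inv, hx.ord_eq, AddSubgroup.coe_neg, Amb.ord_neg, zpow_neg]
      simp

/-- The idele classes modulo units outside `T`, of the maximal extension unramified outside
`T`. -/
def Cls : Type := ↥(J T) ⧸ Prin T

instance : AddCommGroup (Cls T) := inferInstanceAs (AddCommGroup (↥(J T) ⧸ Prin T))

/-- The quotient map. -/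
def clsMk : ↥(J T) →+ Cls T := QuotientAddGroup.mk' (Prin T)

theorem clsMk_surjective : Function.Surjective (clsMk T) :=
  QuotientAddGroup.mk'_surjective _

theorem clsMk_eq_zero_iff {f : J T} :
    clsMk T f = 0 ↔ ∃ x, IsPrincipalOf (f : Amb T) x :=
  QuotientAddGroup.eq_zero_iff f

/-- The action of an element of `GQ` on the classes. -/
def clsAct (σ : GQ) : Cls T →+ Cls T :=
  QuotientAddGroup.map (Prin T) (Prin T) (DistribSMul.toAddMonoidHom ↥(J T) σ)
    (fun f ⟨x, hx⟩ => ⟨σ x, hx.smul σ⟩)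

instance : SMul GQ (Cls T) := ⟨fun σ c => clsAct T σ c⟩

theorem smul_clsMk (σ : GQ) (f : J T) : σ • clsMk T f = clsMk T (σ • f) := rfl

instance : DistribMulAction GQ (Cls T) where
  one_smul c := by
    obtain ⟨f, rfl⟩ := clsMk_surjective T c
    rw [smul_clsMk, one_smul]
  mul_smul σ τ c := by
    obtain ⟨f, rfl⟩ := clsMk_surjective T c
    rw [smul_clsMk, smul_clsMk, smul_clsMk, mul_smul]
  smul_zero σ := map_zero (clsAct T σ)
  smul_add σ c c' := map_add (clsAct T σ) c c'

/-- The classes of level `U`. -/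
abbrev clsLev (U : Subgroup GQ) : AddSubgroup (Cls T) := fixedPts U (Cls T)

theorem mem_clsLev {U : Subgroup GQ} {c : Cls T} : c ∈ clsLev T U ↔ ∀ s ∈ U, s • c = c := Iff.rfl

/-- Ideles supported at `T`. -/
def Jfin : AddSubgroup (J T) where
  carrier := {f | ∀ q g, (f : Amb T).ord q g = 0}
  zero_mem' _ _ := rfl
  add_mem' hf hf' q g := by simp [hf q g, hf' q g]
  neg_mem' hf q g := by simp [hf q g]

/-- Classes of the ideles of level `U` supported at `T`. -/
def clsFinLev (U : Subgroup GQ) : AddSubgroup (Cls T) where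
  carrier := {c | ∃ f ∈ Jfin T, (∀ s ∈ U, s • f = f) ∧ clsMk T f = c}
  zero_mem' := ⟨0, zero_mem _, fun _ _ => smul_zero _, map_zero _⟩
  add_mem' := by
    rintro c c' ⟨f, hf, hU, rfl⟩ ⟨f', hf', hU', rfl⟩
    exact ⟨f + f', add_mem hf hf', fun s hs => by rw [smul_add, hU s hs, hU' s hs], map_add _ _ _⟩
  neg_mem' := by
    rintro c ⟨f, hf, hU, rfl⟩
    exact ⟨-f, neg_mem hf, fun s hs => by rw [smul_neg, hU s hs], map_neg _ _⟩

/-- The trace from level `V` to level `U ⊇ V`. -/
def relNorm {A : Type} [AddCommGroup A] [DistribMulAction GQ A] (U V : Subgroup GQ) (c : A) : A :=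
  ∑ᶠ x : ↥U ⧸ V.subgroupOf U, ((x.out : ↥U) : GQ) • c

section Relations

variable {W : Type} [AddCommGroup W] (L : IntermediateField ℚ (AlgebraicClosure ℚ))

/-- The free `Gal(L/ℚ)`-module on the elements of `W`. -/
abbrev Pmod (W : Type) (L : IntermediateField ℚ (AlgebraicClosure ℚ)) : Type :=
  (GQ ⧸ L.fixingSubgroup) × W →₀ ℤ

/-- The action on `Pmod`. -/
def pmodAct (σ : GQ) : Pmod W L →+ Pmod W L :=
  Finsupp.mapDomain.addMonoidHom fun x => (σ • x.1, x.2)

theorem pmodAct_single (σ : GQ) (τ : GQ ⧸ L.fixingSubgroup) (w : W) (n : ℤ) :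
    pmodAct L σ (Finsupp.single (τ, w) n) = Finsupp.single (σ • τ, w) n :=
  Finsupp.mapDomain_single

theorem pmodAct_one : pmodAct (W := W) L 1 = AddMonoidHom.id _ := by
  refine Finsupp.addHom_ext fun x n => ?_
  obtain ⟨τ, w⟩ := x
  simp [pmodAct_single]

theorem pmodAct_mul (σ τ : GQ) (x : Pmod W L) :
    pmodAct L (σ * τ) x = pmodAct L σ (pmodAct L τ x) := by
  suffices h : pmodAct (W := W) L (σ * τ) = (pmodAct L σ).comp (pmodAct L τ) by rw [h]; rfl
  refine Finsupp.addHom_ext fun y n => ?_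
  obtain ⟨a, w⟩ := y
  simp [pmodAct_single, mul_smul]

variable {k : Type} [CommRing k] [Module k W] (ρ : Representation k GQ W)

/-- The presentation map `Pmod W L → W`, `(τ, w) ↦ τ w`. -/
def pmodMap : Pmod W L →+ W :=
  Finsupp.liftAddHom fun x => (zmultiplesHom W) (ρ x.1.out x.2)

theorem pmodMap_single (x : (GQ ⧸ L.fixingSubgroup) × W) (n : ℤ) :
    pmodMap L ρ (Finsupp.single x n) = n • ρ x.1.out x.2 := by
  simp [pmodMap]

/-- The relation lattice. -/
def Rmod : AddSubgroup (Pmod W L) := (pmodMap L ρ).ker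

/-- Equivariant maps from the relation lattice to the classes. -/
def homR : AddSubgroup (↥(Rmod L ρ) →+ Cls T) where
  carrier := {f | ∀ (σ : GQ) (r r' : Rmod L ρ),
    pmodAct L σ (r : Pmod W L) = r' → f r' = σ • f r}
  zero_mem' σ r r' _ := by simp
  add_mem' hf hf' σ r r' h := by simp [hf σ r r' h, hf' σ r r' h]
  neg_mem' hf σ r r' h := by simp [hf σ r r' h]

/-- Restrictions of equivariant maps defined on the whole free module. -/
def resPHom : AddSubgroup (↥(Rmod L ρ) →+ Cls T) where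
  carrier := {f | ∃ h : Pmod W L →+ Cls T, (∀ (σ : GQ) x, h (pmodAct L σ x) = σ • h x) ∧
    f = h.comp (Rmod L ρ).subtype}
  zero_mem' := ⟨0, fun σ x => by simp, by simp⟩
  add_mem' := by
    rintro f f' ⟨h, hh, rfl⟩ ⟨h', hh', rfl⟩
    exact ⟨h + h', fun σ x => by simp [hh, hh'], by ext; simp⟩
  neg_mem' := by
    rintro f ⟨h, hh, rfl⟩
    exact ⟨-h, fun σ x => by simp [hh], by ext; simp⟩

/-- Equivariant maps coming from the ideles supported at `T`. -/
def locHom : AddSubgroup (↥(Rmod L ρ) →+ Cls T) where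
  carrier := {f | ∃ g : ↥(Rmod L ρ) →+ ↥(J T), (∀ r, g r ∈ Jfin T) ∧
    (∀ (σ : GQ) (r r' : Rmod L ρ), pmodAct L σ (r : Pmod W L) = r' → g r' = σ • g r) ∧
    f = (clsMk T).comp g}
  zero_mem' := ⟨0, fun r => zero_mem _, fun σ r r' _ => by simp, by simp⟩
  add_mem' := by
    rintro f f' ⟨g, hg, hgσ, rfl⟩ ⟨g', hg', hgσ', rfl⟩
    exact ⟨g + g', fun r => add_mem (hg r) (hg' r),
      fun σ r r' h => by simp [hgσ σ r r' h, hgσ' σ r r' h], by ext; simp⟩
  neg_mem' := by
    rintro f ⟨g, hg, hgσ, rfl⟩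
    exact ⟨-g, fun r => neg_mem (hg r), fun σ r r' h => by simp [hgσ σ r r' h], by ext; simp⟩

/-- The group computing both Tate-Shafarevich groups. -/
abbrev Xgrp : Type :=
  ↥(homR T L ρ) ⧸ (locHom T L ρ ⊔ resPHom T L ρ).addSubgroupOf (homR T L ρ)

end Relations

end Fermat.Agent.PoitouTate
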