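/-
Levels as subgroups of finite index, relative norms with respect to arbitrary transversals, and
the passage between subgroups of a finite layer and subgroups of `GQ`.
-/
import Fermat.Agent.PoitouTate.Defs
import Fermat.Agent.PoitouTate.AlgebraLayer

set_option autoImplicit false

open ExtCitation

noncomputable section

namespace Fermat.Agent.PoitouTate

variable {T : Finset Nat.Primes}

theorem IsLvl.finite_gal {L : IntermediateField ℚ (AlgebraicClosure ℚ)} (hL : IsLvl T L) :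
    Finite (GQ ⧸ L.fixingSubgroup) := by
  haveI := hL.unramified.1
  exact Subgroup.quotient_finite_of_isOpen _ L.fixingSubgroup_isOpen

theorem isClosed_of_fixing_le {U : Subgroup GQ} {L : IntermediateField ℚ (AlgebraicClosure ℚ)}
    [FiniteDimensional ℚ L] (hU : L.fixingSubgroup ≤ U) : IsClosed (U : Set GQ) :=
  Subgroup.isClosed_of_isOpen U (Subgroup.isOpen_mono hU L.fixingSubgroup_isOpen)

theorem IsLvl.fixingSubgroup_fixedField {L : IntermediateField ℚ (AlgebraicClosure ℚ)}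
    (hL : IsLvl T L) {U : Subgroup GQ} (hU : L.fixingSubgroup ≤ U) :
    (IntermediateField.fixedField U).fixingSubgroup = U :=
  haveI := hL.unramified.1
  InfiniteGalois.fixingSubgroup_fixedField (⟨U, isClosed_of_fixing_le hU⟩ : ClosedSubgroup GQ)

/-- A normal subgroup above a level is a level. -/
theorem IsLvl.exists_of_le {L : IntermediateField ℚ (AlgebraicClosure ℚ)} (hL : IsLvl T L)
    {U : Subgroup GQ} [hn : U.Normal] (hU : L.fixingSubgroup ≤ U) :
    ∃ K, IsLvl T K ∧ K.fixingSubgroup = U ∧ K ≤ L := by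
  have hfix := hL.fixingSubgroup_fixedField hU
  have hle : IntermediateField.fixedField U ≤ L := by
    intro x hx
    rw [← InfiniteGalois.fixedField_fixingSubgroup L]
    exact fun s => hx ⟨s.1, hU s.2⟩
  exact ⟨_, ⟨hL.unramified.of_le hle, by rwa [hfix]⟩, hfix, hle⟩

section RelNorm

variable {A : Type} [AddCommGroup A] [DistribMulAction GQ A] {U V W : Subgroup GQ}

/-- `r` is a transversal of `W` in `U`. -/
def IsTransversal (U W : Subgroup GQ) {ι : Type} (r : ι → GQ) : Prop :=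
  (∀ i, r i ∈ U) ∧ ∀ u ∈ U, ∃! i, (r i)⁻¹ * u ∈ W

theorem IsTransversal.smul_eq {c : A} (hc : c ∈ fixedPts W A) {g h : GQ} (hgh : g⁻¹ * h ∈ W) :
    g • c = h • c := by
  conv_rhs => rw [show h = g * (g⁻¹ * h) by group, mul_smul, hc _ hgh]

/-- The transversal given by representatives. -/
theorem isTransversal_out (U W : Subgroup GQ) :
    IsTransversal U W fun x : ↥U ⧸ W.subgroupOf U => ((x.out : ↥U) : GQ) := by
  refine ⟨fun i => SetLike.coe_mem _, fun u hu => ?_⟩
  refine ⟨QuotientGroup.mk ⟨u, hu⟩, ?_, fun i hi => ?_⟩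
  · have h := QuotientGroup.eq.1
      (QuotientGroup.out_eq' (QuotientGroup.mk (s := W.subgroupOf U) (⟨u, hu⟩ : ↥U)))
    simpa [Subgroup.mem_subgroupOf] using h
  · rw [← QuotientGroup.out_eq' i]
    refine QuotientGroup.eq.2 ?_
    simpa [Subgroup.mem_subgroupOf] using hi

theorem relNorm_eq_sum {ι : Type} [Fintype ι] {r : ι → GQ} (hr : IsTransversal U W r) {c : A}
    (hc : c ∈ fixedPts W A) : relNorm U W c = ∑ i, r i • c := by
  let f : ι → ↥U ⧸ W.subgroupOf U := fun i => QuotientGroup.mk ⟨r i, hr.1 i⟩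
  have hf : Function.Bijective f := by
    refine ⟨fun i j hij => ?_, fun x => ?_⟩
    · have h : (r i)⁻¹ * r j ∈ W := by
        simpa [Subgroup.mem_subgroupOf] using QuotientGroup.eq.1 hij
      exact (hr.2 (r j) (hr.1 j)).unique h (by simp)
    · obtain ⟨i, hi, -⟩ := hr.2 _ (x.out : ↥U).2
      refine ⟨i, ?_⟩
      conv_rhs => rw [← QuotientGroup.out_eq' x]
      refine QuotientGroup.eq.2 ?_
      simpa [Subgroup.mem_subgroupOf] using hi
  rw [relNorm, ← finsum_eq_sum_of_fintype]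
  refine (finsum_eq_of_bijective f hf fun i => ?_).symm
  refine IsTransversal.smul_eq hc ?_
  have := QuotientGroup.eq.1 (QuotientGroup.out_eq' (f i)).symm
  simpa [Subgroup.mem_subgroupOf] using this

theorem relNorm_mem [Finite (↥U ⧸ W.subgroupOf U)] {c : A} (hc : c ∈ fixedPts W A) :
    relNorm U W c ∈ fixedPts U A := by
  intro u hu
  have := Fintype.ofFinite (↥U ⧸ W.subgroupOf U)
  have h0 := isTransversal_out U W
  have hr : IsTransversal U W fun x : ↥U ⧸ W.subgroupOf U => u * ((x.out : ↥U) : GQ) := by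
    refine ⟨fun i => mul_mem hu (SetLike.coe_mem _), fun v hv => ?_⟩
    simpa [mul_assoc] using h0.2 (u⁻¹ * v) (mul_mem (inv_mem hu) hv)
  conv_lhs => rw [relNorm_eq_sum h0 hc, Finset.smul_sum]
  simp only [← mul_smul]
  rw [← relNorm_eq_sum hr hc]

theorem finite_relQuotient [Finite (GQ ⧸ W)] (U : Subgroup GQ) :
    Finite (↥U ⧸ W.subgroupOf U) :=
  Finite.of_injective
    (Quotient.lift (fun u : ↥U => (QuotientGroup.mk (u : GQ) : GQ ⧸ W)) fun u v h => by
      refine QuotientGroup.eq.2 ?_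
      simpa [Subgroup.mem_subgroupOf] using QuotientGroup.leftRel_apply.1 h) fun x y => by
    induction x using QuotientGroup.induction_on with | H u => ?_
    induction y using QuotientGroup.induction_on with | H v => ?_
    intro h
    refine QuotientGroup.eq.2 ?_
    have h' : (QuotientGroup.mk (u : GQ) : GQ ⧸ W) = QuotientGroup.mk (v : GQ) := h
    simpa [Subgroup.mem_subgroupOf] using QuotientGroup.eq.1 h'

theorem relNorm_trans [Finite (↥U ⧸ V.subgroupOf U)] [Finite (↥V ⧸ W.subgroupOf V)] (hVU : V ≤ U)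
    (hWV : W ≤ V) {c : A} (hc : c ∈ fixedPts W A) :
    relNorm U W c = relNorm U V (relNorm V W c) := by
  have := Fintype.ofFinite (↥U ⧸ V.subgroupOf U)
  have := Fintype.ofFinite (↥V ⧸ W.subgroupOf V)
  have h1 := isTransversal_out U V
  have h2 := isTransversal_out V W
  have hr : IsTransversal U W fun x : (↥U ⧸ V.subgroupOf U) × (↥V ⧸ W.subgroupOf V) =>
      ((x.1.out : ↥U) : GQ) * ((x.2.out : ↥V) : GQ) := by
    refine ⟨fun x => mul_mem (h1.1 _) (hVU (h2.1 _)), fun u hu => ?_⟩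
    obtain ⟨a, ha, hau⟩ := h1.2 u hu
    obtain ⟨b, hb, hbu⟩ := h2.2 _ ha
    refine ⟨(a, b), by simpa [mul_assoc] using hb, ?_⟩
    rintro ⟨a', b'⟩ h'
    simp only [mul_inv_rev, mul_assoc] at h'
    have ha' : a' = a := hau a' (by
      have := mul_mem (h2.1 b') (hWV h')
      simpa using this)
    subst ha'
    exact Prod.ext rfl (hbu b' (by simpa [mul_assoc] using h'))
  rw [relNorm_eq_sum hr hc, relNorm_eq_sum h1 (relNorm_mem hc), relNorm_eq_sum h2 hc,
    Fintype.sum_prod_type]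
  simp [Finset.smul_sum, mul_smul]

theorem relNorm_self {c : A} (hc : c ∈ fixedPts W A) : relNorm W W c = c := by
  rw [relNorm_eq_sum (ι := Unit) (r := fun _ => 1)
    ⟨fun _ => one_mem _, fun u hu => ⟨(), by simpa using hu, fun _ _ => rfl⟩⟩ hc]
  simp

/-- The norm in a cyclic layer. -/
theorem relNorm_cyclic {n : ℕ} {σ : GQ} (hσ : σ ∈ U) (e : GQ → ℕ) (he : ∀ u ∈ U, e u < n)
    (huniq : ∀ u ∈ U, ∀ i < n, ((σ ^ i)⁻¹ * u ∈ W ↔ i = e u)) {c : A} (hc : c ∈ fixedPts W A) :
    relNorm U W c = ∑ i ∈ Finset.range n, σ ^ i • c := by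
  rw [relNorm_eq_sum (ι := Fin n) (r := fun i => σ ^ (i : ℕ))
    ⟨fun i => pow_mem hσ _, fun u hu => ?_⟩ hc, Fin.sum_univ_eq_sum_range (fun i => σ ^ i • c)]
  refine ⟨⟨e u, he u hu⟩, (huniq u hu _ (he u hu)).2 rfl, fun i hi => ?_⟩
  exact Fin.ext ((huniq u hu _ i.2).1 hi)

/-- The norm in a finite normal layer as a sum over a finite group of lifts. -/
theorem relNorm_quot (N : Subgroup GQ) [N.Normal] (H : Subgroup (GQ ⧸ N)) [Fintype ↥H]
    (a : ↥(fixedPts N A)) :
    relNorm (H.comap (QuotientGroup.mk' N)) N (a : A) = ((∑ h : H, (h : GQ ⧸ N) • a : fixedPts N A) : A) := by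
  rw [relNorm_eq_sum (ι := H) (r := fun h => (h : GQ ⧸ N).out)
    ⟨fun h => by simp, fun u hu => ⟨⟨_, hu⟩, ?_, fun h hh => ?_⟩⟩ a.2, AddSubmonoidClass.coe_finset_sum]
  · refine Finset.sum_congr rfl fun h _ => ?_
    conv_rhs => rw [← QuotientGroup.out_eq' (h : GQ ⧸ N)]
    rw [coe_quot_smul]
  · exact QuotientGroup.eq.1 (QuotientGroup.out_eq' (QuotientGroup.mk u : GQ ⧸ N))
  · refine Subtype.ext ?_
    change (h : GQ ⧸ N) = QuotientGroup.mk u
    rw [← QuotientGroup.out_eq' (h : GQ ⧸ N)]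
    exact QuotientGroup.eq.2 hh

end RelNorm

section Quot

variable {G : Type} [Group G] {A : Type} [AddCommGroup A] [DistribMulAction G A] (N : Subgroup G)
  [N.Normal]

theorem mem_fixedPts_quot (H : Subgroup (G ⧸ N)) (a : fixedPts N A) :
    a ∈ fixedPts H ↥(fixedPts N A) ↔ (a : A) ∈ fixedPts (H.comap (QuotientGroup.mk' N)) A := by
  refine ⟨fun h s hs => congrArg Subtype.val (h _ hs), fun h s hs => ?_⟩
  induction s using QuotientGroup.induction_on with | H g => ?_
  exact Subtype.ext (h g hs)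

theorem le_comap_mk' (H : Subgroup (G ⧸ N)) : N ≤ H.comap (QuotientGroup.mk' N) := fun n hn => by
  have : (QuotientGroup.mk' N) n = 1 := (QuotientGroup.eq_one_iff n).2 hn
  rw [Subgroup.mem_comap, this]
  exact one_mem _

/-- The classes of a level inside those fixed by the kernel of a layer. -/
def fixedEquiv (H : Subgroup (G ⧸ N)) :
    ↥(fixedPts H ↥(fixedPts N A)) ≃+ ↥(fixedPts (H.comap (QuotientGroup.mk' N)) A) where
  toFun a := ⟨((a : fixedPts N A) : A), (mem_fixedPts_quot N H _).1 a.2⟩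
  invFun a := ⟨⟨(a : A), fun s hs => a.2 s (le_comap_mk' N H hs)⟩,
    (mem_fixedPts_quot N H _).2 a.2⟩
  left_inv _ := rfl
  right_inv _ := rfl
  map_add' _ _ := rfl

theorem coe_sum_pow_smul (g : G) (m : ℕ) (a : fixedPts N A) :
    ((∑ i ∈ Finset.range m, (QuotientGroup.mk g : G ⧸ N) ^ i • a : fixedPts N A) : A) =
      ∑ i ∈ Finset.range m, g ^ i • (a : A) := by
  rw [AddSubmonoidClass.coe_finset_sum]
  exact Finset.sum_congr rfl fun i _ => by rw [← QuotientGroup.mk_pow, coe_quot_smul]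

/-- The statements on cyclic layers descend to a finite layer. -/
theorem cyclicLayersIdx_quot (p r : ℕ) [Fact p.Prime]
    (h1 : ∀ (U : Subgroup G) (σ : G), N ≤ U →
      IsPGroup p ↥((U ⊔ Subgroup.zpowers σ).map (QuotientGroup.mk' N)) → σ ∉ U → σ ^ p ∈ U →
      (∀ s ∈ U, σ * s * σ⁻¹ ∈ U) → ∀ c ∈ fixedPts U A,
      (∑ i ∈ Finset.range p, σ ^ i • c) = 0 → ∃ d ∈ fixedPts U A, σ • d - d = c)
    (hidx : ∀ (U : Subgroup G) (σ : G), N ≤ U →
      IsPGroup p ↥((U ⊔ Subgroup.zpowers σ).map (QuotientGroup.mk' N)) → σ ∉ U → σ ^ p ∈ U →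
      (∀ s ∈ U, σ * s * σ⁻¹ ∈ U) →
      ((AddSubgroup.map (∑ i ∈ Finset.range p, DistribSMul.toAddMonoidHom A (σ ^ i))
        (fixedPts U A)).addSubgroupOf (fixedPts (U ⊔ Subgroup.zpowers σ) A)).index = r) :
    CyclicLayersIdx p r (G ⧸ N) ↥(fixedPts N A) := by
  have key : ∀ (H : Subgroup (G ⧸ N)) (g : G),
      (H.comap (QuotientGroup.mk' N) ⊔ Subgroup.zpowers g).map (QuotientGroup.mk' N) =
        H ⊔ Subgroup.zpowers (QuotientGroup.mk g : G ⧸ N) := fun H g => by
    rw [Subgroup.map_sup, Subgroup.map_comap_eq_self_of_surjective (QuotientGroup.mk'_surjective N),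
      MonoidHom.map_zpowers]
    rfl
  have key' : ∀ (H : Subgroup (G ⧸ N)) (g : G),
      (H ⊔ Subgroup.zpowers (QuotientGroup.mk g : G ⧸ N)).comap (QuotientGroup.mk' N) =
        H.comap (QuotientGroup.mk' N) ⊔ Subgroup.zpowers g := fun H g => by
    rw [← key, Subgroup.comap_map_eq_self]
    rw [QuotientGroup.ker_mk']
    exact (le_comap_mk' N H).trans le_sup_left
  have hmem : ∀ (H : Subgroup (G ⧸ N)) (g : G),
      (∀ s ∈ H, (QuotientGroup.mk g : G ⧸ N) * s * (QuotientGroup.mk g)⁻¹ ∈ H) →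
      ∀ s ∈ H.comap (QuotientGroup.mk' N), g * s * g⁻¹ ∈ H.comap (QuotientGroup.mk' N) :=
    fun H g h s hs => by simpa using h _ hs
  refine ⟨fun H σ hp hσ hσp hnorm c hc hsum => ?_, fun H σ hp hσ hσp hnorm => ?_⟩
  · induction σ using QuotientGroup.induction_on with | H g => ?_
    obtain ⟨d, hd, hd'⟩ := h1 (H.comap (QuotientGroup.mk' N)) g (le_comap_mk' N H)
      (by rwa [key]) hσ (by simpa using hσp) (hmem H g hnorm) (c : A)
      ((mem_fixedPts_quot N H c).1 hc) (by rw [← coe_sum_pow_smul, hsum]; rfl)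
    exact ⟨((fixedEquiv N H).symm ⟨d, hd⟩ : fixedPts N A), SetLike.coe_mem _, Subtype.ext hd'⟩
  · induction σ using QuotientGroup.induction_on with | H g => ?_
    rw [← hidx (H.comap (QuotientGroup.mk' N)) g (le_comap_mk' N H) (by rwa [key]) hσ
      (by simpa using hσp) (hmem H g hnorm)]
    let e := (fixedEquiv (A := A) N (H ⊔ Subgroup.zpowers (QuotientGroup.mk g : G ⧸ N))).trans
      (AddEquiv.addSubgroupCongr (congrArg (fun U => fixedPts U A) (key' H g)))
    rw [← AddSubgroup.index_comap_of_surjective _ (f := e.toAddMonoidHom) e.surjective]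
    congr 1
    ext x
    simp only [AddSubgroup.mem_addSubgroupOf, AddSubgroup.mem_comap, AddSubgroup.mem_map,
      AddMonoidHom.finsetSum_apply]
    constructor
    · rintro ⟨b, hb, hb'⟩
      refine ⟨((b : fixedPts N A) : A), (mem_fixedPts_quot N H b).1 hb, ?_⟩
      change _ = ((x : fixedPts N A) : A)
      rw [← hb']
      exact (coe_sum_pow_smul N g p b).symm
    · rintro ⟨b, hb, hb'⟩
      refine ⟨((fixedEquiv N H).symm ⟨b, hb⟩ : fixedPts N A), SetLike.coe_mem _, Subtype.ext ?_⟩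
      exact (coe_sum_pow_smul N g p _).trans hb'

end Quot

end Fermat.Agent.PoitouTate
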