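import Fermat.Agent.PoitouTate.LocalFields

/-!
# Weak approximation

The fixed field of a subgroup `U ≤ GQ` of finite level is dense in the equivariant families of
local values, simultaneously at finitely many primes.
-/

set_option autoImplicit false
set_option linter.style.haveILetI false

noncomputable section

namespace Fermat.Agent.PoitouTate

local notation "Qb" => AlgebraicClosure ℚ

theorem finite_quotient_fixingSubgroup (L : IntermediateField ℚ Qb) [FiniteDimensional ℚ L] :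
    Finite (GQ ⧸ L.fixingSubgroup) := by
  let φ : GQ ⧸ L.fixingSubgroup → (L →ₐ[ℚ] Qb) :=
    Quotient.lift (fun g : GQ => (g : Qb →ₐ[ℚ] Qb).comp L.val) fun a b hab => by
      have h : a⁻¹ * b ∈ L.fixingSubgroup := QuotientGroup.leftRel_apply.mp hab
      refine AlgHom.ext fun x => ?_
      have := (IntermediateField.mem_fixingSubgroup_iff _ _).1 h x x.2
      show a (x : Qb) = b (x : Qb)
      rw [AlgEquiv.mul_apply] at this
      exact ((AlgEquiv.symm_apply_eq a).1 this).symm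
  refine Finite.of_injective φ fun a b hab => ?_
  induction a using QuotientGroup.induction_on with | H a => ?_
  induction b using QuotientGroup.induction_on with | H b => ?_
  refine QuotientGroup.eq.2 ((IntermediateField.mem_fixingSubgroup_iff _ _).2 fun x hx => ?_)
  have := AlgHom.congr_fun hab ⟨x, hx⟩
  show a⁻¹ (b x) = x
  exact (AlgEquiv.symm_apply_eq a).2 (this.symm : b x = a x)

theorem finite_quotient_of_level {U : Subgroup GQ} {L : IntermediateField ℚ Qb}
    [FiniteDimensional ℚ L] (hU : L.fixingSubgroup ≤ U) : Finite (GQ ⧸ U) := by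
  haveI := finite_quotient_fixingSubgroup L
  refine Finite.of_surjective (Subgroup.quotientMapOfLE hU) fun c => ?_
  induction c using QuotientGroup.induction_on with | H a => ?_
  exact ⟨QuotientGroup.mk a, rfl⟩

theorem mem_of_forall_fixedField {U : Subgroup GQ} {L : IntermediateField ℚ Qb}
    [FiniteDimensional ℚ L] (hU : L.fixingSubgroup ≤ U) {g : GQ}
    (hg : ∀ x ∈ IntermediateField.fixedField U, g x = x) : g ∈ U := by
  have hcl : IsClosed (U : Set GQ) :=
    Subgroup.isClosed_of_isOpen U (Subgroup.isOpen_mono hU L.fixingSubgroup_isOpen)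
  have h := InfiniteGalois.fixingSubgroup_fixedField (⟨U, hcl⟩ : ClosedSubgroup GQ)
  have h2 : (IntermediateField.fixedField U).fixingSubgroup = U := h
  rw [← h2]
  exact (IntermediateField.mem_fixingSubgroup_iff _ _).2 hg

variable (q : Nat.Primes) (U : Subgroup GQ)

/-- The families of conjugates of the elements of the fixed field of `U`. -/
def conjFamilies : IntermediateField.fixedField U →ₐ[ℚ] (GQ ⧸ U → PadicAlgCl (q : ℕ)) :=
  AlgHom.pi fun c =>
    (padicEmbedding (q : ℕ)).comp ((c.out : Qb →ₐ[ℚ] Qb).comp (IntermediateField.fixedField U).val)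

/-- Their span over the local field. -/
def conjSpan : Subalgebra ℚ_[(q : ℕ)] (GQ ⧸ U → PadicAlgCl (q : ℕ)) :=
  Algebra.adjoin ℚ_[(q : ℕ)] (Set.range (conjFamilies q U))

variable {q U}

theorem conjFamilies_apply (x : IntermediateField.fixedField U) (g : GQ) :
    conjFamilies q U x (QuotientGroup.mk g) = padicEmbedding (q : ℕ) (g (x : Qb)) := by
  obtain ⟨u, hu⟩ : ∃ u : U, ((QuotientGroup.mk g : GQ ⧸ U).out : GQ) = g * u :=
    QuotientGroup.mk_out_eq_mul U g
  show padicEmbedding (q : ℕ) ((QuotientGroup.mk g : GQ ⧸ U).out (x : Qb)) = _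
  rw [hu, AlgEquiv.mul_apply, (IntermediateField.mem_fixedField_iff _ _).1 x.2 u u.2]

theorem conjSpan_equivariant {w : GQ ⧸ U → PadicAlgCl (q : ℕ)} (hw : w ∈ conjSpan q U)
    (τ : LocGal q) (c : GQ ⧸ U) : w (loc q τ • c) = τ (w c) := by
  induction hw using Algebra.adjoin_induction with
  | mem w hw =>
    obtain ⟨x, rfl⟩ := hw
    induction c using QuotientGroup.induction_on with | H g => ?_
    rw [show loc q τ • (QuotientGroup.mk g : GQ ⧸ U) = QuotientGroup.mk (loc q τ * g) from rfl,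
      conjFamilies_apply, conjFamilies_apply, AlgEquiv.mul_apply, padicEmbedding_loc]
  | algebraMap r => exact (τ.commutes r).symm
  | add a b _ _ ha hb => simp [ha, hb, map_add]
  | mul a b _ _ ha hb => simp [ha, hb, map_mul]

theorem exists_conjSpan_eval {L : IntermediateField ℚ Qb} [FiniteDimensional ℚ L]
    (hU : L.fixingSubgroup ≤ U) (g : GQ) {z : PadicAlgCl (q : ℕ)}
    (hz : z ∈ locField q (locSub q U g)) :
    ∃ w ∈ conjSpan q U, w (QuotientGroup.mk g) = z := by
  let π : (GQ ⧸ U → PadicAlgCl (q : ℕ)) →ₐ[ℚ_[(q : ℕ)]] PadicAlgCl (q : ℕ) :=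
    Pi.evalAlgHom _ _ (QuotientGroup.mk g)
  let B : Subalgebra ℚ_[(q : ℕ)] (PadicAlgCl (q : ℕ)) := (conjSpan q U).map π
  let A : IntermediateField ℚ_[(q : ℕ)] (PadicAlgCl (q : ℕ)) :=
    { toSubalgebra := B
      inv_mem' := fun a ha => Subalgebra.inv_mem_of_algebraic B (x := (⟨a, ha⟩ : B))
        (Algebra.IsAlgebraic.isAlgebraic (a : PadicAlgCl (q : ℕ))) }
  suffices z ∈ A by
    obtain ⟨w, hw, he⟩ := this
    exact ⟨w, hw, he⟩
  rw [← InfiniteGalois.fixedField_fixingSubgroup A, IntermediateField.mem_fixedField_iff]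
  intro τ hτ
  refine mem_locField.1 hz τ (mem_locSub.2 (mem_of_forall_fixedField hU fun x hx => ?_))
  have h1 : τ (padicEmbedding (q : ℕ) (g x)) = padicEmbedding (q : ℕ) (g x) :=
    (IntermediateField.mem_fixingSubgroup_iff _ _).1 hτ _
      ⟨_, Algebra.subset_adjoin ⟨⟨x, hx⟩, rfl⟩, conjFamilies_apply ⟨x, hx⟩ g⟩
  rw [← padicEmbedding_loc] at h1
  show g⁻¹ (loc q τ (g x)) = x
  rw [(padicEmbedding (q : ℕ)).toRingHom.injective h1]
  exact AlgEquiv.symm_apply_apply g x

theorem exists_conjSpan_separating {L : IntermediateField ℚ Qb} [FiniteDimensional ℚ L]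
    (hU : L.fixingSubgroup ≤ U) {c d : GQ ⧸ U} (hcd : ∀ τ : LocGal q, loc q τ • c ≠ d) :
    ∃ w ∈ conjSpan q U, w c = 0 ∧ w d ≠ 0 := by
  by_contra hcon
  push Not at hcon
  induction c using QuotientGroup.induction_on with | H g => ?_
  induction d using QuotientGroup.induction_on with | H h => ?_
  let K₁ : IntermediateField ℚ_[(q : ℕ)] (PadicAlgCl (q : ℕ)) := locField q (locSub q U g)
  have hex : ∀ z : K₁, ∃ w ∈ conjSpan q U, w (QuotientGroup.mk g) = (z : PadicAlgCl (q : ℕ)) :=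
    fun z => exists_conjSpan_eval hU g z.2
  choose w hw hwe using hex
  have huniq : ∀ (z : K₁), ∀ w' ∈ conjSpan q U, w' (QuotientGroup.mk g) = (z : PadicAlgCl (q : ℕ)) →
      w' (QuotientGroup.mk h) = w z (QuotientGroup.mk h) := fun z w' hw' he =>
    sub_eq_zero.1 (hcon (w' - w z) (sub_mem hw' (hw z)) (by simp [he, hwe z]))
  let φ : K₁ →ₐ[ℚ_[(q : ℕ)]] PadicAlgCl (q : ℕ) :=
    { toFun := fun z => w z (QuotientGroup.mk h)
      map_one' := (huniq 1 1 (one_mem _) rfl).symm
      map_mul' := fun a b =>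
        (huniq (a * b) (w a * w b) (mul_mem (hw a) (hw b)) (by simp [hwe])).symm
      map_zero' := (huniq 0 0 (zero_mem _) rfl).symm
      map_add' := fun a b =>
        (huniq (a + b) (w a + w b) (add_mem (hw a) (hw b)) (by simp [hwe])).symm
      commutes' := fun r =>
        (huniq (algebraMap _ _ r) (algebraMap _ _ r) (Subalgebra.algebraMap_mem _ r) rfl).symm }
  let τ : LocGal q := AlgEquiv.ofBijective (φ.liftNormal (PadicAlgCl (q : ℕ)))
    (Algebra.IsAlgebraic.algHom_bijective _)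
  refine hcd τ ?_
  show QuotientGroup.mk (loc q τ * g) = QuotientGroup.mk h
  refine QuotientGroup.eq.2 (mem_of_forall_fixedField hU fun x hx => ?_)
  have hmem : padicEmbedding (q : ℕ) (g x) ∈ K₁ := mem_locField.2 fun σ hσ => by
    have hu := (IntermediateField.mem_fixedField_iff _ _).1 hx _ (mem_locSub.1 hσ)
    rw [AlgEquiv.mul_apply, AlgEquiv.mul_apply] at hu
    rw [← padicEmbedding_loc, (AlgEquiv.symm_apply_eq g).1 hu]
  have h1 : τ (padicEmbedding (q : ℕ) (g x)) = padicEmbedding (q : ℕ) (h x) := by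
    show φ.liftNormal (PadicAlgCl (q : ℕ))
      (algebraMap K₁ (PadicAlgCl (q : ℕ)) ⟨_, hmem⟩) = _
    rw [AlgHom.liftNormal_commutes]
    show w ⟨_, hmem⟩ (QuotientGroup.mk h) = _
    rw [← huniq ⟨_, hmem⟩ _ (Algebra.subset_adjoin ⟨⟨x, hx⟩, rfl⟩) (conjFamilies_apply ⟨x, hx⟩ g),
      conjFamilies_apply]
  rw [← padicEmbedding_loc] at h1
  show (loc q τ * g)⁻¹ (h x) = x
  rw [← (padicEmbedding (q : ℕ)).toRingHom.injective h1]
  exact AlgEquiv.symm_apply_apply (loc q τ * g) x

theorem mem_conjSpan_of_equivariant {L : IntermediateField ℚ Qb} [FiniteDimensional ℚ L]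
    (hU : L.fixingSubgroup ≤ U) {f : GQ ⧸ U → PadicAlgCl (q : ℕ)}
    (hf : ∀ (τ : LocGal q) (c : GQ ⧸ U), f (loc q τ • c) = τ (f c)) : f ∈ conjSpan q U := by
  classical
  haveI := finite_quotient_of_level hU
  letI : Fintype (GQ ⧸ U) := Fintype.ofFinite _
  letI : MulAction (LocGal q) (GQ ⧸ U) := MulAction.compHom _ (loc q)
  letI : Fintype (MulAction.orbitRel.Quotient (LocGal q) (GQ ⧸ U)) := Fintype.ofFinite _
  have hfix : ∀ (g : GQ), f (QuotientGroup.mk g) ∈ locField q (locSub q U g) := fun g =>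
    mem_locField.2 fun τ hτ => by
      rw [← hf]
      congr 1
      show QuotientGroup.mk (loc q τ * g) = QuotientGroup.mk g
      refine QuotientGroup.eq.2 ?_
      have := U.inv_mem (mem_locSub.1 hτ)
      simpa [mul_assoc] using this
  have hone : ∀ c : GQ ⧸ U, ∃ w ∈ conjSpan q U, w c = 1 ∧
      ∀ d, (∀ τ : LocGal q, loc q τ • c ≠ d) → w d = 0 := by
    intro c
    induction c using QuotientGroup.induction_on with | H g => ?_
    let S := Finset.univ.filter fun d : GQ ⧸ U => ∀ τ : LocGal q, loc q τ • QuotientGroup.mk g ≠ d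
    have hsep : ∀ d : GQ ⧸ U, ∃ w ∈ conjSpan q U, w (QuotientGroup.mk g) = 1 ∧
        (d ∈ S → w d = 0) := by
      intro d
      by_cases hd : d ∈ S
      · obtain ⟨w, hw, hwd, hwc⟩ := exists_conjSpan_separating (c := d) (d := QuotientGroup.mk g) hU
          (fun τ he => (Finset.mem_filter.1 hd).2 τ⁻¹ (by rw [← he, map_inv, inv_smul_smul]))
        have hinv : (w (QuotientGroup.mk g))⁻¹ ∈ locField q (locSub q U g) := by
          refine inv_mem (mem_locField.2 fun τ hτ => ?_)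
          rw [← conjSpan_equivariant hw]
          congr 1
          show QuotientGroup.mk (loc q τ * g) = QuotientGroup.mk g
          refine QuotientGroup.eq.2 ?_
          have := U.inv_mem (mem_locSub.1 hτ)
          simpa [mul_assoc] using this
        obtain ⟨y, hy, hye⟩ := exists_conjSpan_eval hU g hinv
        exact ⟨w * y, mul_mem hw hy, by simp [hye, hwc], fun _ => by simp [hwd]⟩
      · exact ⟨1, one_mem _, rfl, fun h => absurd h hd⟩
    choose w hw hw1 hw0 using hsep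
    refine ⟨∏ d ∈ S, w d, prod_mem fun d _ => hw d, ?_, fun d hd => ?_⟩
    · rw [Finset.prod_apply]; exact Finset.prod_eq_one fun d _ => hw1 d
    · have hdS : d ∈ S := Finset.mem_filter.2 ⟨Finset.mem_univ _, hd⟩
      rw [Finset.prod_apply]
      exact Finset.prod_eq_zero hdS (hw0 d hdS)
  have hval : ∀ c : GQ ⧸ U, ∃ w ∈ conjSpan q U, w c = f c := fun c => by
    induction c using QuotientGroup.induction_on with | H g => ?_
    exact exists_conjSpan_eval hU g (hfix g)
  choose e he he1 he0 using hone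
  choose y hy hye using hval
  have hsum : f = ∑ o : MulAction.orbitRel.Quotient (LocGal q) (GQ ⧸ U), e o.out * y o.out := by
    funext d
    rw [Finset.sum_apply, Finset.sum_eq_single (Quotient.mk'' d)]
    · obtain ⟨τ, hτ⟩ : (Quotient.mk'' d : MulAction.orbitRel.Quotient (LocGal q) (GQ ⧸ U)).out
          ∈ MulAction.orbit (LocGal q) d :=
        MulAction.orbitRel_apply.1 (Quotient.exact (Quotient.out_eq _))
      have hd : loc q τ⁻¹ • (Quotient.mk'' d : MulAction.orbitRel.Quotient (LocGal q) (GQ ⧸ U)).out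
          = d := by
        rw [← hτ, map_inv]
        exact inv_smul_smul (loc q τ) d
      set c := (Quotient.mk'' d : MulAction.orbitRel.Quotient (LocGal q) (GQ ⧸ U)).out with hc
      have key : (e c * y c) (loc q τ⁻¹ • c) = f (loc q τ⁻¹ • c) := by
        rw [conjSpan_equivariant (mul_mem (he c) (hy c)), hf, Pi.mul_apply, he1, one_mul, hye]
      rw [hd] at key
      exact key.symm
    · intro o _ ho
      rw [Pi.mul_apply, he0 o.out d (fun τ hτ => ho ?_), zero_mul]
      rw [← Quotient.out_eq o]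
      exact (Quotient.sound (MulAction.orbitRel_apply.2 ⟨τ, hτ⟩)).symm
    · intro h; exact absurd (Finset.mem_univ _) h
  rw [hsum]
  exact sum_mem fun o _ => mul_mem (he _) (hy _)

theorem conjSpan_le_closure :
    (conjSpan q U : Set (GQ ⧸ U → PadicAlgCl (q : ℕ))) ⊆ closure (Set.range (conjFamilies q U)) := by
  intro w hw
  induction hw using Algebra.adjoin_induction with
  | mem w hw => exact subset_closure hw
  | algebraMap r =>
    refine map_mem_closure (f := fun r : ℚ_[(q : ℕ)] => algebraMap ℚ_[(q : ℕ)] (GQ ⧸ U → PadicAlgCl (q : ℕ)) r)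
      ?_ (Padic.denseRange_ratCast (p := (q : ℕ)) r) ?_
    · exact continuous_pi fun _ => continuous_algebraMap ℚ_[(q : ℕ)] (PadicAlgCl (q : ℕ))
    · rintro _ ⟨x, rfl⟩
      refine ⟨algebraMap ℚ _ x, ?_⟩
      rw [AlgHom.commutes, IsScalarTower.algebraMap_apply ℚ ℚ_[(q : ℕ)] (GQ ⧸ U → PadicAlgCl (q : ℕ)) x, eq_ratCast]
  | add a b _ _ ha hb =>
    refine map_mem_closure₂ continuous_add ha hb ?_
    rintro _ ⟨x, rfl⟩ _ ⟨y, rfl⟩
    exact ⟨x + y, map_add _ x y⟩
  | mul a b _ _ ha hb =>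
    refine map_mem_closure₂ continuous_mul ha hb ?_
    rintro _ ⟨x, rfl⟩ _ ⟨y, rfl⟩
    exact ⟨x * y, map_mul _ x y⟩

/-- Density at one prime. -/
theorem exists_fixed_near {L : IntermediateField ℚ Qb} [FiniteDimensional ℚ L]
    (hU : L.fixingSubgroup ≤ U) (f : GQ → PadicAlgCl (q : ℕ))
    (hf : ∀ (τ : LocGal q) g, f (loc q τ * g) = τ (f g)) (hfU : ∀ g, ∀ u ∈ U, f (g * u) = f g)
    {ε : ℝ} (hε : 0 < ε) :
    ∃ x ∈ IntermediateField.fixedField U, ∀ g, ‖padicEmbedding (q : ℕ) (g x) - f g‖ < ε := by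
  haveI := finite_quotient_of_level hU
  letI : Fintype (GQ ⧸ U) := Fintype.ofFinite _
  have hout : ∀ g, f (QuotientGroup.mk g : GQ ⧸ U).out = f g := fun g => by
    obtain ⟨u, hu⟩ : ∃ u : U, ((QuotientGroup.mk g : GQ ⧸ U).out : GQ) = g * u :=
      QuotientGroup.mk_out_eq_mul U g
    rw [hu, hfU g u u.2]
  have hmem : (fun c : GQ ⧸ U => f c.out) ∈ conjSpan q U := by
    refine mem_conjSpan_of_equivariant hU fun τ c => ?_
    induction c using QuotientGroup.induction_on with | H g => ?_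
    rw [show loc q τ • (QuotientGroup.mk g : GQ ⧸ U) = QuotientGroup.mk (loc q τ * g) from rfl]
    simp only [hout, hf]
  obtain ⟨_, ⟨x, rfl⟩, hx⟩ := Metric.mem_closure_iff.1 (conjSpan_le_closure hmem) ε hε
  refine ⟨x, x.2, fun g => ?_⟩
  have := (dist_le_pi_dist _ _ (QuotientGroup.mk g)).trans_lt hx
  simp only [hout, conjFamilies_apply] at this
  rwa [dist_comm, dist_eq_norm] at this

theorem exists_nat_near_one {S : Finset Nat.Primes} (q : Nat.Primes) {δ : ℝ} (hδ : 0 < δ) :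
    ∃ e : ℕ, ‖(e : ℚ_[(q : ℕ)]) - 1‖ < δ ∧
      ∀ q' ∈ S, q' ≠ q → ‖(e : ℚ_[(q' : ℕ)])‖ < δ := by
  classical
  obtain ⟨N, hN⟩ := exists_pow_lt_of_lt_one hδ (show (1 / 2 : ℝ) < 1 by norm_num)
  set A := ∏ q' ∈ S.erase q, (q' : ℕ) with hA
  have hcop : A.Coprime ((q : ℕ) ^ (N + 1)) := by
    refine Nat.Coprime.pow_right _ (Nat.Coprime.prod_left fun q' hq' => ?_)
    exact (Nat.coprime_primes q'.2 q.2).2 fun h => (Finset.mem_erase.1 hq').1 (Subtype.ext h)
  have hsmall : ∀ r : Nat.Primes, ∀ k ≥ N, ((r : ℕ) : ℝ) ^ (-(k : ℤ)) < δ := by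
    intro r k hk
    refine lt_of_le_of_lt ?_ hN
    rw [zpow_neg, zpow_natCast, one_div, ← inv_pow]
    have h2 : ((r : ℕ) : ℝ)⁻¹ ≤ 2⁻¹ := inv_anti₀ two_pos (by exact_mod_cast r.2.two_le)
    calc (((r : ℕ) : ℝ)⁻¹) ^ k ≤ (2⁻¹ : ℝ) ^ k := pow_le_pow_left₀ (by positivity) h2 k
      _ ≤ (2⁻¹ : ℝ) ^ N := pow_le_pow_of_le_one (by norm_num) (by norm_num) hk
  refine ⟨A ^ Nat.totient ((q : ℕ) ^ (N + 1)), ?_, fun q' hq' hne => ?_⟩
  · have h := (Nat.ModEq.pow_totient hcop).symm
    rw [Nat.modEq_iff_dvd] at h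
    have hle := (Padic.norm_int_le_pow_iff_dvd (p := (q : ℕ)) _ (N + 1)).2 (by exact_mod_cast h)
    push_cast at hle ⊢
    exact hle.trans_lt (by exact_mod_cast hsmall q (N + 1) (Nat.le_succ N))
  · have hdvd : (q' : ℕ) ^ N ∣ A ^ Nat.totient ((q : ℕ) ^ (N + 1)) := by
      refine (pow_dvd_pow_of_dvd (Finset.dvd_prod_of_mem (fun r : Nat.Primes => (r : ℕ))
        (Finset.mem_erase.2 ⟨hne, hq'⟩)) N).trans (pow_dvd_pow A ?_)
      rw [Nat.totient_prime_pow q.2 (Nat.succ_pos N), Nat.succ_sub_one]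
      calc N ≤ (q : ℕ) ^ N := (Nat.lt_pow_self q.2.one_lt).le
        _ ≤ (q : ℕ) ^ N * ((q : ℕ) - 1) := Nat.le_mul_of_pos_right _ (Nat.sub_pos_of_lt q.2.one_lt)
    have hle := (Padic.norm_int_le_pow_iff_dvd (p := (q' : ℕ))
      ((A ^ Nat.totient ((q : ℕ) ^ (N + 1)) : ℕ) : ℤ) N).2 (by exact_mod_cast hdvd)
    rw [Int.cast_natCast] at hle
    exact hle.trans_lt (hsmall q' N le_rfl)

/-- **Weak approximation**: density simultaneously at finitely many primes. -/
theorem exists_fixed_near_family {L : IntermediateField ℚ Qb} [FiniteDimensional ℚ L]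
    (hU : L.fixingSubgroup ≤ U) (S : Finset Nat.Primes)
    (f : ∀ q : Nat.Primes, GQ → PadicAlgCl (q : ℕ))
    (hf : ∀ q ∈ S, ∀ (τ : LocGal q) g, f q (loc q τ * g) = τ (f q g))
    (hfU : ∀ q ∈ S, ∀ g, ∀ u ∈ U, f q (g * u) = f q g) {ε : ℝ} (hε : 0 < ε) :
    ∃ x ∈ IntermediateField.fixedField U,
      ∀ q ∈ S, ∀ g, ‖padicEmbedding (q : ℕ) (g x) - f q g‖ < ε := by
  classical
  haveI := finite_quotient_of_level hU
  letI : Fintype (GQ ⧸ U) := Fintype.ofFinite _
  have hex : ∀ q : Nat.Primes, ∃ x ∈ IntermediateField.fixedField U,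
      q ∈ S → ∀ g, ‖padicEmbedding (q : ℕ) (g x) - f q g‖ < ε := fun q => by
    by_cases hq : q ∈ S
    · obtain ⟨x, hx, h⟩ := exists_fixed_near hU (f q) (hf q hq) (hfU q hq) hε
      exact ⟨x, hx, fun _ => h⟩
    · exact ⟨0, zero_mem _, fun h => absurd h hq⟩
  choose x hx hxe using hex
  set M : ℝ := 1 + ∑ q ∈ S, ∑ q' ∈ S, ∑ c : GQ ⧸ U, ‖padicEmbedding (q' : ℕ) (c.out (x q))‖
  have hM : 1 ≤ M := le_add_of_nonneg_right (by positivity)
  have hbound : ∀ q ∈ S, ∀ q' ∈ S, ∀ g : GQ, ‖padicEmbedding (q' : ℕ) (g (x q))‖ ≤ M := by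
    intro q hq q' hq' g
    have he : padicEmbedding (q' : ℕ) (g (x q))
        = padicEmbedding (q' : ℕ) ((QuotientGroup.mk g : GQ ⧸ U).out (x q)) :=
      (conjFamilies_apply ⟨x q, hx q⟩ g).symm
    rw [he]
    refine le_trans ?_ (le_add_of_nonneg_left zero_le_one)
    refine le_trans ?_ (Finset.single_le_sum (f := fun q => ∑ q' ∈ S, ∑ c : GQ ⧸ U,
      ‖padicEmbedding (q' : ℕ) (c.out (x q))‖) (fun _ _ => by positivity) hq)
    refine le_trans ?_ (Finset.single_le_sum (f := fun q' : Nat.Primes => ∑ c : GQ ⧸ U,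
      ‖padicEmbedding (q' : ℕ) (c.out (x q))‖) (fun _ _ => by positivity) hq')
    exact Finset.single_le_sum (f := fun c : GQ ⧸ U => ‖padicEmbedding (q' : ℕ) (c.out (x q))‖)
      (fun _ _ => norm_nonneg _) (Finset.mem_univ _)
  choose e he1 he0 using fun q : Nat.Primes => exists_nat_near_one (S := S) q
    (show 0 < ε / M by positivity)
  refine ⟨∑ q ∈ S, (e q : Qb) * x q,
    sum_mem fun q _ => mul_mem (natCast_mem _ _) (hx q), fun q hq g => ?_⟩
  rw [map_sum, map_sum, ← Finset.add_sum_erase _ _ hq, map_mul, map_mul, map_natCast, map_natCast]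
  have hsmall : ∀ {z y : PadicAlgCl (q : ℕ)}, ‖z‖ < ε / M → ‖y‖ ≤ M → ‖z * y‖ < ε := by
    intro z y hz hy
    rw [norm_mul]
    calc ‖z‖ * ‖y‖ ≤ ‖z‖ * M := by gcongr
      _ < ε / M * M := by gcongr
      _ = ε := div_mul_cancel₀ ε (by positivity)
  rw [show (e q : PadicAlgCl (q : ℕ)) * padicEmbedding (q : ℕ) (g (x q))
      + (∑ q' ∈ S.erase q, padicEmbedding (q : ℕ) (g ((e q' : Qb) * x q'))) - f q g
      = ((e q : PadicAlgCl (q : ℕ)) - 1) * padicEmbedding (q : ℕ) (g (x q))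
        + ((padicEmbedding (q : ℕ) (g (x q)) - f q g)
          + ∑ q' ∈ S.erase q, padicEmbedding (q : ℕ) (g ((e q' : Qb) * x q'))) by ring]
  refine (IsUltrametricDist.norm_add_le_max _ _).trans_lt (max_lt ?_
    ((IsUltrametricDist.norm_add_le_max _ _).trans_lt (max_lt (hxe q hq g) ?_)))
  · refine hsmall ?_ (hbound q hq q hq g)
    rw [← map_natCast (algebraMap ℚ_[(q : ℕ)] (PadicAlgCl (q : ℕ))), ← map_one
      (algebraMap ℚ_[(q : ℕ)] (PadicAlgCl (q : ℕ))), ← map_sub, norm_algebraMap']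
    exact he1 q
  · rcases (S.erase q).eq_empty_or_nonempty with h | h
    · rw [h, Finset.sum_empty, norm_zero]; exact hε
    · obtain ⟨i, hi, hle⟩ := IsUltrametricDist.exists_norm_finsetSum_le_of_nonempty h
        (fun q' => padicEmbedding (q : ℕ) (g ((e q' : Qb) * x q')))
      refine hle.trans_lt ?_
      rw [map_mul, map_mul, map_natCast, map_natCast]
      obtain ⟨hne, hiS⟩ := Finset.mem_erase.1 hi
      refine hsmall ?_ (hbound i hiS q hq g)
      rw [← map_natCast (algebraMap ℚ_[(q : ℕ)] (PadicAlgCl (q : ℕ))), norm_algebraMap']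
      exact he0 i q hq hne.symm

end Fermat.Agent.PoitouTate
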