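import Fermat.Agent.PoitouTate.LocalFields
import Mathlib.FieldTheory.Finite.Basic
import Mathlib.RingTheory.Ideal.Quotient.Basic
import Mathlib.RingTheory.RootsOfUnity.PrimitiveRoots
import Mathlib.RingTheory.RootsOfUnity.EnoughRootsOfUnity
import Mathlib.Algebra.CharP.Lemmas
import Mathlib.Algebra.Polynomial.Roots

/-!
# Residue rings of local fields: Teichmüller roots and the Frobenius on roots of unity
-/

set_option autoImplicit false
set_option linter.unusedSectionVars false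
set_option linter.style.haveILetI false

noncomputable section

namespace Fermat.Agent.PoitouTate

section Generic

variable (L : Type) [NontriviallyNormedField L] [IsUltrametricDist L]

/-- The elements of norm at most one. -/
def normSubring : Subring L where
  carrier := {x | ‖x‖ ≤ 1}
  zero_mem' := by simp
  one_mem' := by simp
  add_mem' hx hy := (IsUltrametricDist.norm_add_le_max _ _).trans (max_le hx hy)
  neg_mem' hx := by simpa using hx
  mul_mem' {x y} hx hy := by
    show ‖x * y‖ ≤ 1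
    rw [norm_mul]
    exact mul_le_one₀ hx (norm_nonneg _) hy

/-- The elements of norm less than one. -/
def normIdeal : Ideal (normSubring L) where
  carrier := {x | ‖(x : L)‖ < 1}
  zero_mem' := by simp
  add_mem' hx hy := (IsUltrametricDist.norm_add_le_max _ _).trans_lt (max_lt hx hy)
  smul_mem' c x hx := by
    show ‖(c : L) * x‖ < 1
    rw [norm_mul]
    exact (mul_le_of_le_one_left (norm_nonneg _) c.2).trans_lt hx

theorem mem_normIdeal {x : normSubring L} : x ∈ normIdeal L ↔ ‖(x : L)‖ < 1 := Iff.rfl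

instance normIdeal_isPrime : (normIdeal L).IsPrime := by
  refine Ideal.isPrime_iff.2 ⟨fun h => ?_, fun {x y} hxy => ?_⟩
  · have h1 : (1 : normSubring L) ∈ normIdeal L := by rw [h]; trivial
    rw [mem_normIdeal, Subring.coe_one, norm_one] at h1
    exact lt_irrefl _ h1
  · by_contra hcon
    push Not at hcon
    rw [mem_normIdeal, not_lt] at hcon
    rw [mem_normIdeal, not_lt] at hcon
    rw [mem_normIdeal, Subring.coe_mul, norm_mul] at hxy
    exact absurd hxy (not_lt.2 (one_le_mul_of_one_le_of_one_le hcon.1 hcon.2))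

/-- The residue ring. -/
abbrev residueRing : Type := normSubring L ⧸ normIdeal L

theorem residueRing_charP {q : ℕ} [Fact q.Prime] (hq : ‖(q : L)‖ < 1) : CharP (residueRing L) q :=
  (CharP.charP_iff_prime_eq_zero (R := residueRing L) (p := q) Fact.out).2 (by
    rw [← map_natCast (Ideal.Quotient.mk (normIdeal L)), Ideal.Quotient.eq_zero_iff_mem,
      mem_normIdeal]
    simpa using hq)

end Generic

section Teichmuller

variable {L : Type} [NontriviallyNormedField L] [IsUltrametricDist L] [ProperSpace L]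
variable {q : ℕ} [Fact q.Prime] [NormedAlgebra ℚ_[q] L] [FiniteDimensional ℚ_[q] L]

theorem norm_natCast_padic_lt_one : ‖(q : L)‖ < 1 := by
  rw [← map_natCast (algebraMap ℚ_[q] L), norm_algebraMap', Padic.norm_p]
  exact inv_lt_one_of_one_lt₀ (by exact_mod_cast (Fact.out : q.Prime).one_lt)

theorem natCast_padic_ne_zero : (q : L) ≠ 0 := by
  rw [← map_natCast (algebraMap ℚ_[q] L)]
  exact (map_ne_zero _).2 (Nat.cast_ne_zero.2 (Fact.out : q.Prime).ne_zero)

variable (L q) in
/-- Ramification index, residue degree, and the Teichmüller roots. -/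
theorem exists_ramification_data :
    ∃ (e f : ℕ) (ϖ : Lˣ), 0 < f ∧ e * f = Module.finrank ℚ_[q] L ∧ ‖(ϖ : L)‖ < 1 ∧
      (∀ x : Lˣ, ∃ m : ℤ, ‖(x : L)‖ = ‖(ϖ : L)‖ ^ m) ∧ ‖(ϖ : L)‖ ^ e = ‖(q : L)‖ ∧
      (∀ x : L, ‖x‖ = 1 → ‖x ^ (q ^ f - 1) - 1‖ < 1) ∧
      ∃ ζ : L, IsPrimitiveRoot ζ (q ^ f - 1) := by
  classical
  obtain ⟨ϖ, hϖ, hm⟩ := exists_uniformizer (L := L)
  have hϖ0 : 0 < ‖(ϖ : L)‖ := norm_pos_iff.2 ϖ.ne_zero
  have hq0 : (q : L) ≠ 0 := natCast_padic_ne_zero
  obtain ⟨z, hz⟩ := hm (Units.mk0 _ hq0)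
  have hz0 : 0 < z := by
    by_contra h
    push Not at h
    have h1 : (1 : ℝ) ≤ ‖(ϖ : L)‖ ^ z := one_le_zpow_of_nonpos₀ hϖ0 hϖ.le h
    rw [← hz, Units.val_mk0] at h1
    exact absurd (norm_natCast_padic_lt_one (q := q)) (not_lt.2 h1)
  obtain ⟨e, rfl⟩ : ∃ e : ℕ, z = e := ⟨z.toNat, (Int.toNat_of_nonneg hz0.le).symm⟩
  rw [zpow_natCast, Units.val_mk0] at hz
  set r : NNReal := ‖(ϖ : L)‖₊ with hr
  have hlt : ∀ x : L, ‖x‖ < 1 → ‖x‖ ≤ r := fun x hx => by
    rcases eq_or_ne x 0 with rfl | hx0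
    · simp
    obtain ⟨m, hm'⟩ := hm (Units.mk0 x hx0)
    rw [Units.val_mk0] at hm'
    rw [hm'] at hx ⊢
    have hm0 : 1 ≤ m := by
      by_contra h
      exact absurd hx (not_lt.2 (one_le_zpow_of_nonpos₀ hϖ0 hϖ.le (by omega)))
    rw [hr, coe_nnnorm]
    simpa using zpow_le_zpow_right_of_le_one₀ hϖ0 hϖ.le hm0
  -- cardinality of the residue ring
  set Q : ℕ := (ballSubgroup L r).relIndex (ballSubgroup L 1) with hQ
  have hscale : ∀ i : ℕ, (ballSubgroup L (r ^ i)).relIndex (ballSubgroup L 1) = Q ^ i := by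
    intro i
    induction i with
    | zero => rw [pow_zero, pow_zero, AddSubgroup.relIndex_self]
    | succ i ih =>
      have hmap : ∀ s : NNReal, (ballSubgroup L s).map (AddMonoidHom.mulLeft ((ϖ : L) ^ i))
          = ballSubgroup L (r ^ i * s) := by
        intro s
        ext x
        constructor
        · rintro ⟨y, hy, rfl⟩
          show ‖(ϖ : L) ^ i * y‖ ≤ _
          rw [norm_mul, norm_pow, NNReal.coe_mul, NNReal.coe_pow, hr, coe_nnnorm]
          exact mul_le_mul_of_nonneg_left hy (pow_nonneg (norm_nonneg _) _)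
        · intro hx
          refine ⟨x / (ϖ : L) ^ i, ?_, mul_div_cancel₀ x (pow_ne_zero i ϖ.ne_zero)⟩
          show ‖x / (ϖ : L) ^ i‖ ≤ s
          rw [norm_div, norm_pow, div_le_iff₀ (pow_pos hϖ0 i), mul_comm]
          simpa [mem_ballSubgroup, hr] using hx
      have h1 : (ballSubgroup L (r ^ (i + 1))).relIndex (ballSubgroup L (r ^ i)) = Q := by
        rw [pow_succ, ← hmap]
        conv_lhs => rw [← mul_one (r ^ i), ← hmap]
        exact AddSubgroup.relIndex_map_map_of_injective _ _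
          (mul_right_injective₀ (pow_ne_zero i ϖ.ne_zero))
      have hr1 : r ≤ 1 := by rw [← NNReal.coe_le_coe]; exact hϖ.le
      have hA : ballSubgroup L (r ^ (i + 1)) ≤ ballSubgroup L (r ^ i) := fun x hx =>
        le_trans hx (NNReal.coe_le_coe.2 (pow_le_pow_of_le_one zero_le hr1 i.le_succ))
      have hB : ballSubgroup L (r ^ i) ≤ ballSubgroup L 1 := fun x hx =>
        le_trans hx (NNReal.coe_le_coe.2 (pow_le_one₀ zero_le hr1))
      rw [← AddSubgroup.relIndex_mul_relIndex _ _ _ hA hB, h1, ih, pow_succ, mul_comm]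
  have hQe : Q ^ e = q ^ Module.finrank ℚ_[q] L := by
    rw [← hscale e]
    have h := relIndex_ball_padic (L := L) (q := q) hq0 (Fact.out : q.Prime)
    rw [if_pos rfl, map_mulNat_ball hq0, mul_one] at h
    convert h using 3
    refine NNReal.coe_injective ?_
    rw [NNReal.coe_pow, hr, coe_nnnorm, coe_nnnorm, hz]
  obtain ⟨f, -, hf⟩ := (Nat.dvd_prime_pow (Fact.out : q.Prime)).1
    (hQe ▸ dvd_pow_self Q (by omega : e ≠ 0))
  have hef : e * f = Module.finrank ℚ_[q] L := by
    rw [hf, ← pow_mul, mul_comm] at hQe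
    exact Nat.pow_right_injective (Fact.out : q.Prime).two_le hQe
  have hf0 : 0 < f := Nat.pos_of_ne_zero fun h => by
    rw [h, mul_zero] at hef
    exact (Module.finrank_pos (R := ℚ_[q]) (M := L)).ne hef
  refine ⟨e, f, ϖ, hf0, hef, hϖ, hm, hz.symm, ?_⟩
  -- the residue ring
  have hcard : Nat.card (residueRing L) = q ^ f := by
    rw [← hf, hQ]
    let φ : ballSubgroup L 1 →+ residueRing L :=
      AddMonoidHom.mk' (fun x => Ideal.Quotient.mk (normIdeal L) ⟨x, by simpa using x.2⟩)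
        fun a b => by rw [← map_add]; rfl
    have hφ : φ.ker = (ballSubgroup L r).addSubgroupOf (ballSubgroup L 1) := by
      ext x
      rw [AddMonoidHom.mem_ker, AddSubgroup.mem_addSubgroupOf]
      show Ideal.Quotient.mk _ _ = 0 ↔ ‖(x : L)‖ ≤ r
      rw [Ideal.Quotient.eq_zero_iff_mem, mem_normIdeal]
      exact ⟨fun h => hlt _ h, fun h => h.trans_lt (by simpa [hr] using hϖ)⟩
    have hsurj : Function.Surjective φ := fun y => by
      obtain ⟨⟨x, hx⟩, rfl⟩ := Ideal.Quotient.mk_surjective y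
      exact ⟨⟨x, by simpa [mem_ballSubgroup, normSubring] using hx⟩, rfl⟩
    rw [AddSubgroup.relIndex, ← hφ, AddSubgroup.index_ker, AddMonoidHom.range_eq_top.2 hsurj,
      Nat.card_congr AddSubgroup.topEquiv.toEquiv]
  haveI : Finite (residueRing L) :=
    Nat.finite_of_card_ne_zero (hcard ▸ pow_ne_zero _ (Fact.out : q.Prime).ne_zero)
  letI : Fintype (residueRing L) := Fintype.ofFinite _
  haveI : IsDomain (residueRing L) := Ideal.Quotient.isDomain _
  letI : Field (residueRing L) := (Finite.isField_of_domain (residueRing L)).toField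
  set n := q ^ f - 1 with hn
  have hQ1 : 1 < q ^ f := Nat.one_lt_pow hf0.ne' (Fact.out : q.Prime).one_lt
  have hn0 : n ≠ 0 := by omega
  have hqn : ¬ q ∣ n := fun h => by
    have h1 : q ∣ q ^ f := dvd_pow_self q hf0.ne'
    have h2 := Nat.dvd_sub h1 h
    rw [hn, Nat.sub_sub_self hQ1.le, Nat.dvd_one] at h2
    exact (Fact.out : q.Prime).ne_one h2
  have hn1 : ‖(n : L)‖ = 1 := by
    rw [← map_natCast (algebraMap ℚ_[q] L), norm_algebraMap', Padic.norm_natCast_eq_one_iff]
    exact ((Fact.out : q.Prime).coprime_iff_not_dvd).2 hqn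
  have hnL : (n : L) ≠ 0 := fun h => by simp [h] at hn1
  set U := normOneUnits L
  set V := unitBall L r
  let h : Lˣ →* Lˣ := powMonoidHom n
  have hr1 : r < 1 := by rw [← NNReal.coe_lt_coe]; exact hϖ
  have hVU : V ≤ U := fun x hx => hx.1
  have hVh : V.map h = V := by
    rw [map_pow_unitBall hnL hr1 (by rw [← NNReal.coe_lt_coe, coe_nnnorm ((n : ℕ) : L), hn1]; exact hϖ)]
    congr 1
    refine NNReal.coe_injective ?_
    rw [NNReal.coe_mul, coe_nnnorm, hn1, one_mul]
  -- the reduction of units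
  have hmemU : ∀ x : U, ((x : Lˣ) : L) ∈ normSubring L := fun x =>
    le_of_eq (show ‖((x : Lˣ) : L)‖ = 1 from x.2)
  let red : U →* (residueRing L)ˣ :=
    MonoidHom.toHomUnits
      { toFun := fun x : U => Ideal.Quotient.mk (normIdeal L) ⟨_, hmemU x⟩
        map_one' := map_one (Ideal.Quotient.mk (normIdeal L))
        map_mul' := fun a b => map_mul (Ideal.Quotient.mk (normIdeal L)) ⟨_, hmemU a⟩ ⟨_, hmemU b⟩ }
  have hred : red.ker = V.subgroupOf U := by
    ext x
    rw [MonoidHom.mem_ker, Units.ext_iff, Subgroup.mem_subgroupOf]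
    show Ideal.Quotient.mk _ _ = 1 ↔ (x : Lˣ) ∈ V
    rw [← map_one (Ideal.Quotient.mk (normIdeal L)), Ideal.Quotient.eq, mem_normIdeal]
    show ‖((x : Lˣ) : L) - 1‖ < 1 ↔ _
    exact ⟨fun hx => ⟨x.2, hlt _ hx⟩, fun hx => hx.2.trans_lt (by simpa [hr] using hϖ)⟩
  have hsurj : Function.Surjective red := fun y => by
    obtain ⟨⟨x, hx⟩, hxy⟩ := Ideal.Quotient.mk_surjective (y : residueRing L)
    have hx1 : ‖x‖ = 1 := le_antisymm hx (not_lt.1 fun hlt' => y.ne_zero (by
      rw [← hxy, Ideal.Quotient.eq_zero_iff_mem, mem_normIdeal]; exact hlt'))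
    refine ⟨⟨Units.mk0 x (norm_pos_iff.1 (hx1 ▸ one_pos)), hx1⟩, Units.ext ?_⟩
    rw [← hxy]; rfl
  have hUV : V.relIndex U = n := by
    rw [Subgroup.relIndex, ← hred, Subgroup.index_ker, MonoidHom.range_eq_top.2 hsurj,
      Nat.card_congr Subgroup.topEquiv.toEquiv, Nat.card_units, hcard]
  have hUh : U.map h ≤ V.map h := by
    rw [hVh]
    rintro _ ⟨x, hx, rfl⟩
    have : (⟨x, hx⟩ : U) ^ n ∈ red.ker := by
      rw [MonoidHom.mem_ker, map_pow]
      refine Units.ext ?_
      rw [Units.val_pow_eq_pow_val, Units.val_one, hn, ← hcard, Nat.card_eq_fintype_card]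
      exact FiniteField.pow_card_sub_one_eq_one _ (red ⟨x, hx⟩).ne_zero
    rw [hred, Subgroup.mem_subgroupOf] at this
    exact this
  have hpow : ∀ x : L, ‖x‖ = 1 → ‖x ^ n - 1‖ < 1 := fun x hx => by
    have hmem := hUh ⟨Units.mk0 x (norm_pos_iff.1 (hx ▸ one_pos)), hx, rfl⟩
    rw [hVh] at hmem
    exact hmem.2.trans_lt (by simpa [hr] using hϖ)
  refine ⟨hpow, ?_⟩
  have hkerV : h.ker ⊓ V = ⊥ := by
    rw [eq_bot_iff]
    rintro x ⟨hx, hx1, hx2⟩
    by_contra hne
    have hd : (x : L) - 1 ≠ 0 := sub_ne_zero.2 fun h => hne (Subgroup.mem_bot.2 (Units.ext h))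
    have hb := norm_one_add_pow_sub n (hx2.trans (by exact_mod_cast hr1.le) : ‖(x : L) - 1‖ ≤ 1)
    have hxn : x ^ n = 1 := hx
    rw [add_sub_cancel, ← Units.val_pow_eq_pow_val, hxn, Units.val_one, sub_self,
      zero_sub, norm_neg, norm_mul, hn1, one_mul, sq] at hb
    nlinarith [norm_pos_iff.2 hd, hx2, (show (r : ℝ) < 1 by exact_mod_cast hr1)]
  have hkerU : h.ker ≤ U := fun x hx => by
    show ‖(x : L)‖ = 1
    refine (pow_eq_one_iff_of_nonneg (norm_nonneg _) hn0).1 ?_
    have hxn : x ^ n = 1 := hx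
    rw [← norm_pow, ← Units.val_pow_eq_pow_val, hxn, Units.val_one, norm_one]
  have key := relIndex_eq_ker_mul_map h hVU
  rw [hkerV, inf_eq_left.2 hkerU, Subgroup.relIndex_bot_left, hUV,
    Subgroup.relIndex_eq_one.2 hUh, mul_one] at key
  haveI : NeZero n := ⟨hn0⟩
  have hker : (powMonoidHom n : Lˣ →* Lˣ).ker = rootsOfUnity n L := by
    ext x; simp [mem_rootsOfUnity]
  rw [hker] at key
  obtain ⟨g, hg⟩ := IsCyclic.exists_generator (α := rootsOfUnity n L)
  refine ⟨((g : Lˣ) : L), IsPrimitiveRoot.iff_orderOf.2 ?_⟩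
  rw [orderOf_units, Subgroup.orderOf_coe, orderOf_eq_card_of_forall_mem_zpowers hg]
  exact key.symm

end Teichmuller

section Domain

open Polynomial in
/-- The fixed points of the `q`-th power map are the prime ring. -/
theorem exists_zmod_of_pow_eq {R : Type*} [CommRing R] [IsDomain R] {q : ℕ} [hq : Fact q.Prime]
    [CharP R q] {c : R} (hc : c ^ q = c) :
    ∃ z : ZMod q, ZMod.castHom (dvd_refl q) R z = c := by
  classical
  let ι : ZMod q →+* R := ZMod.castHom (dvd_refl q) R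
  have hdeg : (X ^ q - X : R[X]).natDegree = q := by
    rw [natDegree_sub_eq_left_of_natDegree_lt (by
      rw [natDegree_X, natDegree_X_pow]; exact hq.out.one_lt), natDegree_X_pow]
  have hne : (X ^ q - X : R[X]) ≠ 0 := fun h => by
    rw [h, natDegree_zero] at hdeg; exact hq.out.ne_zero hdeg.symm
  let s : Finset R := Finset.univ.image ι
  have hsub : s.val ≤ (X ^ q - X : R[X]).roots := by
    refine (Multiset.le_iff_subset s.nodup).2 fun y hy => ?_
    obtain ⟨z, -, rfl⟩ := Finset.mem_image.1 (Finset.mem_def.2 hy)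
    rw [mem_roots hne, IsRoot, eval_sub, eval_pow, eval_X, ← map_pow, ZMod.pow_card, sub_self]
  have hcard : q = s.card := by
    rw [Finset.card_image_of_injective _ ι.injective, Finset.card_univ, ZMod.card]
  have heq := Multiset.eq_of_le_of_card_le hsub (by
    refine ((Polynomial.card_roots' _).trans ?_).trans hcard.le
    exact le_of_eq hdeg)
  have hmem : c ∈ (X ^ q - X : R[X]).roots := by
    rw [mem_roots hne, IsRoot, eval_sub, eval_pow, eval_X, hc, sub_self]
  rw [← heq] at hmem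
  obtain ⟨z, -, hz⟩ := Finset.mem_image.1 (Finset.mem_def.2 hmem)
  exact ⟨z, hz⟩

open Polynomial in
/-- An endomorphism of a domain of characteristic `q` maps a finite element to a conjugate. -/
theorem exists_pow_of_endomorphism {R : Type} [CommRing R] [IsDomain R] {q : ℕ} [hq : Fact q.Prime]
    [CharP R q] (σ : R →+* R) {x : R} {d : ℕ} (hd0 : 0 < d) (hxd : x ^ q ^ d = x) :
    ∃ i, σ x = x ^ q ^ i := by
  classical
  let P : R[X] := ∏ i ∈ Finset.range d, (X - C (x ^ q ^ i))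
  have hP : P.map (frobenius R q) = P := by
    simp only [P, Polynomial.map_prod, Polynomial.map_sub, Polynomial.map_X, Polynomial.map_C,
      frobenius_def, ← pow_mul, ← pow_succ]
    refine Finset.prod_nbij (fun i => (i + 1) % d) (fun i _ => Finset.mem_range.2 (Nat.mod_lt _ hd0))
      ?_ ?_ fun i hi => ?_
    · intro a ha b hb hab
      simp only [Finset.coe_range, Set.mem_Iio] at ha hb
      exact Nat.ModEq.eq_of_lt_of_lt (Nat.ModEq.add_right_cancel' 1 hab) ha hb
    · intro b hb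
      simp only [Finset.coe_range, Set.mem_Iio] at hb
      refine ⟨(b + (d - 1)) % d, Finset.mem_coe.2 (Finset.mem_range.2 (Nat.mod_lt _ hd0)), ?_⟩
      show (((b + (d - 1)) % d) + 1) % d = b
      rw [Nat.mod_add_mod, show b + (d - 1) + 1 = b + d by omega, Nat.add_mod_right,
        Nat.mod_eq_of_lt hb]
    · rw [Finset.mem_range] at hi
      rcases lt_or_eq_of_le (Nat.succ_le_of_lt hi) with h | h
      · rw [Nat.mod_eq_of_lt h]
      · rw [show i + 1 = d from h, Nat.mod_self, pow_zero, pow_one, hxd]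
  let ι : ZMod q →+* R := ZMod.castHom (dvd_refl q) R
  have hfix : P.map σ = P := by
    ext j
    rw [Polynomial.coeff_map]
    obtain ⟨z, hz⟩ := exists_zmod_of_pow_eq (q := q) (c := P.coeff j) (by
      conv_rhs => rw [← hP, Polynomial.coeff_map, frobenius_def])
    rw [← hz]
    exact RingHom.congr_fun (RingHom.ext_zmod (σ.comp ι) ι) z
  have hev : P.eval (σ x) = 0 := by
    conv_lhs => rw [← hfix]
    rw [Polynomial.eval_map, Polynomial.eval₂_at_apply]
    have : P.eval x = 0 := by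
      rw [Polynomial.eval_prod]
      exact Finset.prod_eq_zero (Finset.mem_range.2 hd0) (by simp)
    rw [this, map_zero]
  rw [Polynomial.eval_prod] at hev
  obtain ⟨i, -, hi⟩ := Finset.prod_eq_zero_iff.1 hev
  rw [eval_sub, eval_X, eval_C, sub_eq_zero] at hi
  exact ⟨i, hi⟩

end Domain

section Roots

variable {L : Type} [NontriviallyNormedField L] [IsUltrametricDist L] {q M : ℕ}

/-- A root of unity of order prime to `q` other than `1` stays away from `1`. -/
theorem norm_sub_one_eq_one (hn1 : ‖(M : L)‖ = 1) {ζ : L} (hζ : ζ ^ M = 1) (hne : ζ ≠ 1) :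
    ‖ζ - 1‖ = 1 := by
  have hM0 : M ≠ 0 := fun h => by simp [h] at hn1
  have hζ1 : ‖ζ‖ = 1 :=
    (pow_eq_one_iff_of_nonneg (norm_nonneg _) hM0).1 (by rw [← norm_pow, hζ, norm_one])
  have hd : ‖ζ - 1‖ ≤ 1 := by
    rw [sub_eq_add_neg]
    exact (IsUltrametricDist.norm_add_le_max ζ (-1)).trans
      (by rw [norm_neg, hζ1, norm_one, max_self])
  refine hd.antisymm (not_lt.1 fun hlt => ?_)
  have hb := norm_one_add_pow_sub M hd
  rw [add_sub_cancel, hζ, sub_self, zero_sub, norm_neg, norm_mul, hn1, one_mul, sq] at hb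
  nlinarith [norm_pos_iff.2 (sub_ne_zero.2 hne)]

/-- The residue map is injective on roots of unity of order prime to `q`. -/
theorem eq_of_residue_eq (hn1 : ‖(M : L)‖ = 1) {a b : normSubring L} (ha : (a : L) ^ M = 1)
    (hb : (b : L) ^ M = 1)
    (hab : Ideal.Quotient.mk (normIdeal L) a = Ideal.Quotient.mk (normIdeal L) b) :
    (a : L) = b := by
  have hM0 : M ≠ 0 := fun h => by simp [h] at hn1
  rw [Ideal.Quotient.eq, mem_normIdeal, AddSubgroupClass.coe_sub] at hab
  have hb1 : ‖(b : L)‖ = 1 :=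
    (pow_eq_one_iff_of_nonneg (norm_nonneg _) hM0).1 (by rw [← norm_pow, hb, norm_one])
  have hb0 : (b : L) ≠ 0 := fun h => by simp [h] at hb1
  by_contra hne
  have := norm_sub_one_eq_one hn1 (ζ := (a : L) / b) (by rw [div_pow, ha, hb, div_one])
    (fun h => hne ((div_eq_one_iff_eq hb0).1 h))
  rw [div_sub_one hb0, norm_div, hb1, div_one] at this
  exact hab.ne this

/-- An isometric endomorphism acts on the roots of unity of order prime to `q` through powers
of `q`. -/
theorem exists_pow_of_isometry [Fact q.Prime] (hq : ‖(q : L)‖ < 1) (hn1 : ‖(M : L)‖ = 1)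
    (hqM : q.Coprime M) (τ : L →+* L) (hτ : ∀ x, ‖τ x‖ = ‖x‖) {ζ₀ : L}
    (hζ₀ : IsPrimitiveRoot ζ₀ M) : ∃ i : ℕ, ∀ ζ : L, ζ ^ M = 1 → τ ζ = ζ ^ q ^ i := by
  have hM0 : M ≠ 0 := fun h => by simp [h] at hn1
  haveI : NeZero M := ⟨hM0⟩
  haveI := residueRing_charP L (q := q) hq
  haveI : IsDomain (residueRing L) := Ideal.Quotient.isDomain _
  let ζ' : normSubring L := ⟨ζ₀, le_of_eq ((pow_eq_one_iff_of_nonneg (norm_nonneg _) hM0).1
    (by rw [← norm_pow, hζ₀.pow_eq_one, norm_one]))⟩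
  let φ : normSubring L →+* normSubring L :=
    (τ.comp (normSubring L).subtype).codRestrict (normSubring L) fun x =>
      le_of_eq_of_le (hτ x) x.2
  let σ : residueRing L →+* residueRing L :=
    Ideal.quotientMap (normIdeal L) φ fun x hx => lt_of_eq_of_lt (hτ x) hx
  set x := Ideal.Quotient.mk (normIdeal L) ζ' with hx
  have hd0 : 0 < orderOf ((q : ℕ) : ZMod M) :=
    orderOf_pos_iff.2 (IsUnit.isOfFinOrder ((ZMod.isUnit_iff_coprime _ _).2 hqM))
  have hxd : x ^ q ^ orderOf ((q : ℕ) : ZMod M) = x := by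
    have h1 : ((q ^ orderOf ((q : ℕ) : ZMod M) : ℕ) : ZMod M) = ((1 : ℕ) : ZMod M) := by
      rw [Nat.cast_pow, pow_orderOf_eq_one, Nat.cast_one]
    have h2 : ζ' ^ M = 1 := Subtype.ext hζ₀.pow_eq_one
    rw [hx, ← map_pow]
    congr 1
    conv_rhs => rw [← pow_one ζ']
    exact pow_eq_pow_of_modEq ((ZMod.natCast_eq_natCast_iff _ _ _).1 h1) h2
  obtain ⟨i, hi⟩ := exists_pow_of_endomorphism σ hd0 hxd
  rw [hx, Ideal.quotientMap_mk, ← map_pow] at hi
  refine ⟨i, ?_⟩
  have h0 : τ ζ₀ = ζ₀ ^ q ^ i := by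
    refine eq_of_residue_eq hn1 ?_ ?_ hi
    · show τ ζ₀ ^ M = 1
      rw [← map_pow, hζ₀.pow_eq_one, map_one]
    · show (ζ₀ ^ q ^ i) ^ M = 1
      rw [← pow_mul, mul_comm, pow_mul, hζ₀.pow_eq_one, one_pow]
  intro ζ hζ
  obtain ⟨k, -, rfl⟩ := hζ₀.eq_pow_of_pow_eq_one hζ
  rw [map_pow, h0, ← pow_mul, ← pow_mul, mul_comm]

end Roots

section Frobenius

variable (q : Nat.Primes)

theorem norm_natCast_prime_lt_one : ‖((q : ℕ) : PadicAlgCl (q : ℕ))‖ < 1 := by
  rw [← map_natCast (algebraMap ℚ_[(q : ℕ)] (PadicAlgCl (q : ℕ))), norm_algebraMap', Padic.norm_p]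
  exact inv_lt_one_of_one_lt₀ (by exact_mod_cast q.2.one_lt)

theorem norm_natCast_coprime {M : ℕ} (hM : (q : ℕ).Coprime M) :
    ‖(M : PadicAlgCl (q : ℕ))‖ = 1 := by
  rw [← map_natCast (algebraMap ℚ_[(q : ℕ)] (PadicAlgCl (q : ℕ))), norm_algebraMap',
    Padic.norm_natCast_eq_one_iff]
  exact hM

/-- The local Galois group acts on the roots of unity of order prime to `q` through powers of
`q`. -/
theorem exists_frobenius_pow (τ : LocGal q) {M : ℕ} (hM : (q : ℕ).Coprime M) :
    ∃ i : ℕ, ∀ ζ : PadicAlgCl (q : ℕ), ζ ^ M = 1 → τ ζ = ζ ^ ((q : ℕ) ^ i) := by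
  have hM0 : M ≠ 0 := fun h => by
    rw [h, Nat.coprime_zero_right] at hM; exact q.2.ne_one hM
  haveI : NeZero M := ⟨hM0⟩
  haveI : NeZero ((M : ℕ) : PadicAlgCl (q : ℕ)) := ⟨Nat.cast_ne_zero.2 hM0⟩
  obtain ⟨ζ₀, hζ₀⟩ := HasEnoughRootsOfUnity.exists_primitiveRoot (PadicAlgCl (q : ℕ)) M
  exact exists_pow_of_isometry (norm_natCast_prime_lt_one q) (norm_natCast_coprime q hM) hM
    (τ : PadicAlgCl (q : ℕ) →+* PadicAlgCl (q : ℕ)) (norm_locGal τ) hζ₀

end Frobenius

end Fermat.Agent.PoitouTate
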