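import Fermat.Agent.PoitouTate.ClassCyclotomicBase
import Fermat.Agent.PoitouTate.ClassLevels
import Fermat.Agent.PoitouTate.LocalDense
import Fermat.Agent.PoitouTate.LocalResidue
import Fermat.Agent.PoitouTate.GlobalPrincipalize
import Fermat.Agent.MW.WeakInertia
import Fermat.Agent.Density.Main
import Mathlib.RingTheory.ZMod.UnitsCyclic

/-!
# The cyclotomic invariant of the classes
-/

set_option autoImplicit false
set_option linter.unusedSectionVars false

open scoped Pointwise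

noncomputable section

namespace Fermat.Agent.PoitouTate

local notation "Qb" => AlgebraicClosure ℚ

variable {T : Finset Nat.Primes} (l : ↥T) (j : ℕ) {n : ℕ}
  (lam : (ZMod ((l.1 : ℕ) ^ j))ˣ →* Multiplicative (ZMod n))

/-- The character. -/
def cycTheta : GQ →* Multiplicative (ZMod n) :=
  haveI : NeZero ((l.1 : ℕ) ^ j) := ⟨pow_ne_zero j l.1.2.ne_zero⟩
  lam.comp (MonoidHom.toHomUnits (Datum.chiMod ((l.1 : ℕ) ^ j)))

theorem cycTheta_eq_of_pow {g : GQ} {a : ℕ} (ha : a.Coprime ((l.1 : ℕ) ^ j))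
    (hg : ∀ μ : Qb, μ ^ ((l.1 : ℕ) ^ j) = 1 → g μ = μ ^ a) :
    cycTheta l j lam g = lam (ZMod.unitOfCoprime a ha) := by
  haveI : NeZero ((l.1 : ℕ) ^ j) := ⟨pow_ne_zero j l.1.2.ne_zero⟩
  refine congrArg lam (Units.ext ?_)
  rw [MonoidHom.coe_toHomUnits, ZMod.coe_unitOfCoprime]
  exact Datum.chiMod_eq_natCast _ g hg

theorem cycTheta_frobenius {q : Nat.Primes} (hq : (q : ℕ).Coprime ((l.1 : ℕ) ^ j))
    {A : ValuationSubring Qb} (hA : A.LiesOverPrime (q : ℕ)) {τ : GQ}
    (hτ : A.IsFrobeniusAt τ (q : ℕ)) :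
    Multiplicative.toAdd (cycTheta l j lam τ) = primeValue l j lam q := by
  rw [cycTheta_eq_of_pow l j lam hq fun μ hμ =>
    Datum.frobenius_apply_root hA hτ hq (pow_ne_zero j l.1.2.ne_zero) hμ, primeValue, dif_pos hq]

variable (hlam : Function.Surjective lam)

include hlam in
theorem cycTheta_surjective : Function.Surjective (cycTheta l j lam) := by
  intro y
  haveI : NeZero ((l.1 : ℕ) ^ j) := ⟨pow_ne_zero j l.1.2.ne_zero⟩
  obtain ⟨u, rfl⟩ := hlam y
  obtain ⟨ζ, hζ⟩ := HasEnoughRootsOfUnity.exists_primitiveRoot Qb ((l.1 : ℕ) ^ j)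
  have hc : (u : ZMod ((l.1 : ℕ) ^ j)).val.Coprime ((l.1 : ℕ) ^ j) := ZMod.val_coe_unit_coprime u
  obtain ⟨σ, hσ⟩ := minpoly.exists_algEquiv_of_root' (K := ℚ) (x := ζ ^ (u : ZMod ((l.1 : ℕ) ^ j)).val)
    (y := ζ) (Algebra.IsAlgebraic.isAlgebraic ζ) (by
      rw [← Polynomial.cyclotomic_eq_minpoly_rat hζ (pow_pos l.1.2.pos j)]
      rw [Polynomial.aeval_def, Polynomial.eval₂_eq_eval_map, Polynomial.map_cyclotomic]
      exact (hζ.pow_of_coprime _ hc).isRoot_cyclotomic (pow_pos l.1.2.pos j))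
  refine ⟨σ, ?_⟩
  rw [cycTheta_eq_of_pow l j lam hc fun μ hμ => ?_]
  · congr 1
    exact Units.ext (by rw [ZMod.coe_unitOfCoprime, ZMod.natCast_zmod_val])
  · obtain ⟨k, -, rfl⟩ := hζ.eq_pow_of_pow_eq_one hμ
    rw [map_pow, hσ, ← pow_mul, ← pow_mul, mul_comm]

/-- A level trivialising the character. -/
theorem exists_cycLevel : ∃ E : IntermediateField ℚ Qb,
    IsLvl T E ∧ E.fixingSubgroup ≤ (cycTheta l j lam).ker := by
  haveI : NeZero ((l.1 : ℕ) ^ j) := ⟨pow_ne_zero j l.1.2.ne_zero⟩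
  obtain ⟨ζ, hζ⟩ := HasEnoughRootsOfUnity.exists_primitiveRoot Qb ((l.1 : ℕ) ^ j)
  let χ := MonoidHom.toHomUnits (Datum.chiMod ((l.1 : ℕ) ^ j))
  have hfix : (IntermediateField.adjoin ℚ ({ζ} : Set Qb)).fixingSubgroup = χ.ker := by
    ext g
    rw [MonoidHom.mem_ker, Units.ext_iff, MonoidHom.coe_toHomUnits, Units.val_one,
      IntermediateField.mem_fixingSubgroup_iff]
    constructor
    · intro h
      have := Datum.chiMod_eq_natCast ((l.1 : ℕ) ^ j) g (a := 1) fun μ hμ => by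
        obtain ⟨k, -, rfl⟩ := hζ.eq_pow_of_pow_eq_one hμ
        rw [map_pow, h ζ (IntermediateField.subset_adjoin ℚ _ rfl), pow_one]
      simpa using this
    · intro h
      have hgζ : g ζ = ζ := by
        rw [Datum.chiMod_spec _ g hζ.pow_eq_one, h]
        rcases Nat.lt_or_ge 1 ((l.1 : ℕ) ^ j) with h1 | h1
        · haveI : Fact (1 < (l.1 : ℕ) ^ j) := ⟨h1⟩
          rw [ZMod.val_one, pow_one]
        · have e : (l.1 : ℕ) ^ j = 1 := le_antisymm h1 (pow_pos l.1.2.pos j)
          have hζ1 : ζ = 1 := by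
            have := hζ.pow_eq_one
            rwa [e, pow_one] at this
          rw [hζ1, one_pow]
      intro x hx
      induction hx using IntermediateField.adjoin_induction with
      | mem x hx => rw [Set.mem_singleton_iff.1 hx, hgζ]
      | algebraMap r => exact g.commutes r
      | add x y _ _ hx hy => rw [map_add, hx, hy]
      | inv x _ hx => rw [map_inv₀, hx]
      | mul x y _ _ hx hy => rw [map_mul, hx, hy]
  refine ⟨_, ⟨⟨IntermediateField.adjoin.finiteDimensional
      (Algebra.IsIntegral.isIntegral ζ), fun q hq A hA σ hσ => ?_⟩, by rw [hfix]; infer_instance⟩,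
    fun g hg => ?_⟩
  · rw [hfix, MonoidHom.mem_ker]
    refine Units.ext ?_
    rw [MonoidHom.coe_toHomUnits, Units.val_one]
    exact Datum.chiMod_inertia ((l.1 : ℕ) ^ j) hA hσ
      (Nat.Coprime.pow_right j ((Nat.coprime_primes q.2 l.1.2).2
        fun e => hq (by rw [Nat.Primes.coe_nat_injective e]; exact l.2)))
  · rw [hfix] at hg
    exact MonoidHom.mem_ker.2 ((congrArg lam (MonoidHom.mem_ker.1 hg)).trans (map_one lam))

/-- The Frobenius value is attained on the local Galois group. -/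
theorem exists_local_primeValue {q : Nat.Primes} (hq : (q : ℕ).Coprime ((l.1 : ℕ) ^ j)) :
    ∃ τ : LocGal q, Multiplicative.toAdd (cycTheta l j lam (loc q τ)) = primeValue l j lam q := by
  obtain ⟨E, hE, hEθ⟩ := exists_cycLevel l j lam
  have := hE.unramified.1
  have hA := liesOverPrime_padicPlace q
  obtain ⟨φ, hφ⟩ := Galois.exists_isFrobeniusAt q.2 hA
  have hmem : ∀ x : Qb, ‖padicEmbedding (q : ℕ) x‖ < 1 ↔ x ∈ (padicPlace (q : ℕ)).nonunits := by
    intro x
    rw [ValuationSubring.mem_nonunits_iff_or, mem_padicPlace_iff, map_inv₀, nnnorm_inv, not_le]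
    rcases eq_or_ne x 0 with rfl | hx
    · simp
    · have hpos : 0 < ‖padicEmbedding (q : ℕ) x‖₊ := nnnorm_pos.2 ((map_ne_zero _).2 hx)
      rw [one_lt_inv₀ hpos, ← NNReal.coe_lt_one]
      simp [hx]
  have hdec : φ • padicPlace (q : ℕ) = padicPlace (q : ℕ) :=
    MulAction.mem_stabilizer_iff.1 hφ.mem_decompositionSubgroup
  obtain ⟨τ, s, hs, he⟩ := exists_local_of_norm_eq (q : ℕ) (L := E) (g := 1) (g' := φ)
    (norm_eq_of_lt_one_iff (q : ℕ) fun x _ => by
      rw [AlgEquiv.one_apply, hmem, hmem]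
      constructor
      · intro h
        rw [← hdec, Galois.mem_smul_nonunits]
        simpa using h
      · intro h
        rw [← hdec, Galois.mem_smul_nonunits] at h
        simpa using h)
  refine ⟨τ, ?_⟩
  rw [← cycTheta_frobenius l j lam hq hA hφ, he, mul_one, map_mul, MonoidHom.mem_ker.1 (hEθ hs),
    mul_one]
  rfl

section Norm

variable [NeZero n] (hT : T.Nonempty) (hn : Odd n)

/-- The sum of an invariant family weighted by an element is a multiple killed in `ℤ/n`. -/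
theorem sum_smul_eq_zero (a : ZMod n) (h : ZMod n → ℤ) (hh : ∀ x, h (x + a) = h x) :
    (∑ x : ZMod n, h x) • a = 0 := by
  have e : ∀ x : ZMod n, h x • a = h (x + a) • (x + a) - h x • x := fun x => by
    rw [hh, smul_add]; abel
  rw [Finset.sum_smul, Finset.sum_congr rfl fun x _ => e x, Finset.sum_sub_distrib, sub_eq_zero]
  exact Fintype.sum_equiv (Equiv.addRight a) _ _ fun x => rfl

theorem relNorm_clsMk {U V : Subgroup GQ} [Finite (↥U ⧸ V.subgroupOf U)] {f : J T}
    (hf : f ∈ fixedPts V ↥(J T)) :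
    relNorm U V (clsMk T f) = clsMk T (relNorm U V f) := by
  have := Fintype.ofFinite (↥U ⧸ V.subgroupOf U)
  have hc : clsMk T f ∈ clsLev T V := fun s hs => by rw [smul_clsMk, hf s hs]
  rw [relNorm_eq_sum (isTransversal_out U V) hc, relNorm_eq_sum (isTransversal_out U V) hf, map_sum]
  exact Finset.sum_congr rfl fun i _ => smul_clsMk T _ _

include hlam in
theorem classPsi_norm : ∀ c ∈ clsLev T (cycTheta l j lam).ker,
    ∀ x : clsLev T (⊤ : Subgroup GQ),
      (x : Cls T) = relNorm ⊤ (cycTheta l j lam).ker c → classPsi l j lam hT hn x = 0 := by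
  classical
  intro c hc x hx
  haveI hl : Fact (l.1 : ℕ).Prime := ⟨l.1.2⟩
  obtain ⟨E, hE, hEθ⟩ := exists_cycLevel l j lam
  haveI := hE.unramified.1
  set θ := cycTheta l j lam
  set U := θ.ker with hUdef
  haveI := finite_quotient_of_level hEθ
  letI : Fintype (GQ ⧸ U) := Fintype.ofFinite _
  choose r hr using cycTheta_surjective l j lam hlam
  let R : ZMod n → GQ := fun a => r (Multiplicative.ofAdd a)
  have htr : IsTransversal (⊤ : Subgroup GQ) U R := by
    refine ⟨fun _ => Subgroup.mem_top _, fun u _ => ⟨Multiplicative.toAdd (θ u), ?_, fun a ha => ?_⟩⟩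
    · show (R _)⁻¹ * u ∈ U
      rw [hUdef, MonoidHom.mem_ker, map_mul, map_inv, hr, inv_mul_eq_one, ofAdd_toAdd]
    · change (R a)⁻¹ * u ∈ U at ha
      rw [hUdef, MonoidHom.mem_ker, map_mul, map_inv, hr, inv_mul_eq_one] at ha
      rw [← ha, toAdd_ofAdd]
  obtain ⟨f, hf, rfl⟩ := levelRepresentatives hT E hE U hEθ c hc
  -- approximate by a principal idele
  set v : ∀ q : ↥T, GQ → PadicAlgCl (q.1 : ℕ) := fun q g =>
    ((Additive.toMul ((f : Amb T).fin q g) : (PadicAlgCl (q.1 : ℕ))ˣ) : PadicAlgCl (q.1 : ℕ)) with hv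
  have hvU : ∀ (q : ↥T) g, ∀ u ∈ U, v q (g * u) = v q g := fun q g u hu => by
    have := congrArg (fun e : J T => (e : Amb T).fin q g) (hf u hu)
    simp only [coe_smul_J, Amb.fin_smul] at this
    simp only [hv, this]
  let ρ : ℝ := ((l.1 : ℕ) : ℝ) ^ (-(j : ℤ)) / 2
  have hρ0 : 0 < ρ := by have := one_lt_prime l.1; positivity
  have hρj : ρ ≤ ((l.1 : ℕ) : ℝ) ^ (-(j : ℤ)) := by
    have : (0 : ℝ) ≤ ((l.1 : ℕ) : ℝ) ^ (-(j : ℤ)) := by positivity
    simp only [ρ]; linarith
  have hρ1 : ρ < 1 := by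
    have : ((l.1 : ℕ) : ℝ) ^ (-(j : ℤ)) ≤ 1 :=
      zpow_le_one_of_nonpos₀ (one_lt_prime l.1).le (by omega)
    simp only [ρ]; linarith
  obtain ⟨ε, hε0, hε⟩ : ∃ ε : ℝ, 0 < ε ∧ ∀ (q : ↥T) g, ε ≤ ρ * ‖v q g‖ := by
    have hne : (Finset.univ : Finset (↥T × (GQ ⧸ U))).Nonempty :=
      ⟨(l, QuotientGroup.mk 1), Finset.mem_univ _⟩
    let F : ↥T × (GQ ⧸ U) → ℝ := fun z => ρ * ‖v z.1 z.2.out‖
    refine ⟨Finset.univ.inf' hne F, ?_, fun q g => ?_⟩
    · rw [Finset.lt_inf'_iff]
      exact fun z _ => mul_pos hρ0 (norm_pos_iff.2 (Units.ne_zero _))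
    · refine (Finset.inf'_le F (Finset.mem_univ (q, QuotientGroup.mk g))).trans_eq ?_
      obtain ⟨u, hu⟩ := QuotientGroup.mk_out_eq_mul U g
      simp only [F, hu, hvU q g u u.2]
  let V : ∀ q : Nat.Primes, GQ → PadicAlgCl (q : ℕ) := fun q g =>
    if h : q ∈ T then v ⟨q, h⟩ g else 0
  obtain ⟨y, hyU, hy⟩ := exists_fixed_near_family hEθ T V
    (fun q hq τ g => by
      simp only [V, dif_pos hq, hv]
      rw [f.2.1 ⟨q, hq⟩ τ g, coe_locAct])
    (fun q hq g u hu => by simp only [V, dif_pos hq]; exact hvU ⟨q, hq⟩ g u hu) hε0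
  have hy' : ∀ (q : ↥T) g, ‖padicEmbedding (q.1 : ℕ) (g y) - v q g‖ < ρ * ‖v q g‖ := fun q g => by
    have := hy q.1 q.2 g
    simp only [V, dif_pos q.2] at this
    exact this.trans_le (hε q g)
  have hynorm : ∀ (q : ↥T) g, ‖padicEmbedding (q.1 : ℕ) (g y)‖ = ‖v q g‖ := fun q g => by
    have hlt : ‖padicEmbedding (q.1 : ℕ) (g y) - v q g‖ < ‖v q g‖ :=
      (hy' q g).trans_le (mul_le_of_le_one_left (norm_nonneg _) hρ1.le)
    calc ‖padicEmbedding (q.1 : ℕ) (g y)‖
        = ‖(padicEmbedding (q.1 : ℕ) (g y) - v q g) + v q g‖ := by rw [sub_add_cancel]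
      _ = ‖v q g‖ := by
        rw [IsUltrametricDist.norm_add_eq_max_of_norm_ne_norm hlt.ne, max_eq_right hlt.le]
  have hy0 : y ≠ 0 := fun h => by
    have := hynorm l 1
    rw [h, map_zero, map_zero, norm_zero] at this
    exact Units.ne_zero _ (norm_eq_zero.1 this.symm)
  have hyE : y ∈ E := by
    rw [← InfiniteGalois.fixedField_fixingSubgroup E]
    exact (IntermediateField.mem_fixedField_iff _ _).2 fun s hs =>
      (IntermediateField.mem_fixedField_iff _ _).1 hyU s (hEθ hs)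
  obtain ⟨P, hP, hP0, hPfix⟩ := exists_principal hE hyE hy0
  set f' : J T := f - P with hf'def
  have hf'U : f' ∈ fixedPts U ↥(J T) := fun u hu => by
    rw [hf'def, smul_sub, hf u hu, hPfix u ((IntermediateField.mem_fixedField_iff _ _).1 hyU u hu)]
  have hf'near : ∀ (q : ↥T) g, ‖((Additive.toMul ((f' : Amb T).fin q g) :
      (PadicAlgCl (q.1 : ℕ))ˣ) : PadicAlgCl (q.1 : ℕ)) - 1‖ ≤ ρ := fun q g => by
    have hcoe : ((Additive.toMul ((f' : Amb T).fin q g) : (PadicAlgCl (q.1 : ℕ))ˣ) :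
        PadicAlgCl (q.1 : ℕ)) = v q g / padicEmbedding (q.1 : ℕ) (g y) := by
      rw [hf'def, AddSubgroup.coe_sub, Amb.fin_sub, toMul_sub, Units.val_div_eq_div_val, hP.fin_eq]
    rw [hcoe, div_sub_one ((map_ne_zero _).2 ((map_ne_zero _).2 hy0)), norm_div, norm_sub_rev,
      hynorm, div_le_iff₀ (norm_pos_iff.2 (Units.ne_zero _))]
    exact (hy' q g).le
  -- the norm
  have hxeq : x = baseClass ⟨relNorm ⊤ U f', by
      haveI := finite_relQuotient (W := U) (⊤ : Subgroup GQ)
      exact relNorm_mem hf'U⟩ := by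
    refine Subtype.ext ?_
    haveI := finite_relQuotient (W := U) (⊤ : Subgroup GQ)
    rw [coe_baseClass, hx, ← relNorm_clsMk hf'U, hf'def, map_sub, hP0, sub_zero]
  rw [hxeq, classPsi_baseClass, idelePsi_apply]
  set N : baseIdeles T := ⟨relNorm ⊤ U f', _⟩
  have hN : (N : J T) = ∑ a, R a • f' := relNorm_eq_sum htr hf'U
  have hNfin : ∀ q : ↥T, ((N : J T) : Amb T).fin q 1 = ∑ a, (f' : Amb T).fin q (R a) := fun q => by
    let ev : J T →+ LocVal q.1 :=
      { toFun := fun e => (e : Amb T).fin q 1, map_zero' := rfl, map_add' := fun _ _ => rfl }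
    show ev (N : J T) = _
    rw [hN, map_sum]
    exact Finset.sum_congr rfl fun a _ => by simp [ev]
  have hball : ∀ q : ↥T, (Additive.toMul (((N : J T) : Amb T).fin q 1)) ∈
      unitBall (PadicAlgCl (q.1 : ℕ)) ⟨ρ, hρ0.le⟩ := fun q => by
    rw [hNfin, toMul_sum]
    refine Subgroup.prod_mem _ fun a _ => ⟨?_, hf'near q (R a)⟩
    have h := hf'near q (R a)
    set z := ((Additive.toMul ((f' : Amb T).fin q (R a)) : (PadicAlgCl (q.1 : ℕ))ˣ) :
      PadicAlgCl (q.1 : ℕ))
    calc ‖z‖ = ‖(z - 1) + 1‖ := by rw [sub_add_cancel]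
      _ = 1 := by
        rw [IsUltrametricDist.norm_add_eq_max_of_norm_ne_norm (by rw [norm_one]; exact (h.trans_lt hρ1).ne),
          norm_one, max_eq_right (h.trans hρ1.le)]
  have hNord0 : ∀ q (h : q ∈ T), baseOrd q N = 0 := fun q h => by
    have h1 := (hball ⟨q, h⟩).1
    rw [← baseEmb_finBase, coe_baseEmb, norm_algebraMap', norm_eq_baseVal] at h1
    rw [baseOrd_of_mem h]
    exact ord_eq_of_zpow_eq (q := q) (b := 0) (by rw [h1, neg_zero, zpow_zero])
  have hdiv : (baseDiv N).sum (fun q a => a • primeValue l j lam q) = 0 := by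
    refine Finset.sum_eq_zero fun q _ => ?_
    show baseDiv N q • primeValue l j lam q = 0
    by_cases h : q ∈ T
    · rw [baseDiv_apply, hNord0 q h, zero_smul]
    have hc : (q : ℕ).Coprime ((l.1 : ℕ) ^ j) := Nat.Coprime.pow_right j
      ((Nat.coprime_primes q.2 l.1.2).2 fun e => h (by rw [Nat.Primes.coe_nat_injective e]; exact l.2))
    have hsum : baseDiv N q = ∑ a, (f' : Amb T).ord ⟨q, h⟩ (R a) := by
      rw [baseDiv_apply, baseOrd_of_not_mem h]
      let ev : J T →+ ℤ :=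
        { toFun := fun e => (e : Amb T).ord ⟨q, h⟩ 1, map_zero' := rfl, map_add' := fun _ _ => rfl }
      show ev (N : J T) = _
      rw [hN, map_sum]
      exact Finset.sum_congr rfl fun a _ => by simp [ev]
    rw [hsum]
    obtain ⟨τ, hτ⟩ := exists_local_primeValue l j lam hc
    refine sum_smul_eq_zero _ _ fun a => ?_
    have hmem : (R (a + primeValue l j lam q))⁻¹ * (loc q τ * R a) ∈ U := by
      rw [hUdef, MonoidHom.mem_ker, map_mul, map_mul, map_inv, hr, hr, inv_mul_eq_one, ← hτ,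
        add_comm, ofAdd_add, ofAdd_toAdd]
    have h2 := congrArg (fun e : J T => (e : Amb T).ord ⟨q, h⟩ (R (a + primeValue l j lam q)))
      (hf'U _ hmem)
    simp only [coe_smul_J, Amb.ord_smul, mul_inv_cancel_left] at h2
    rw [← h2, f'.2.2.1 ⟨q, h⟩ τ]
  rw [hdiv, zero_sub, neg_eq_zero]
  have hunit : Units.map (PadicInt.toZModPow j : ℤ_[(l.1 : ℕ)] →+* ZMod ((l.1 : ℕ) ^ j)).toMonoidHom
      (Additive.toMul (unitPart l.1 (finBase l N))) = 1 := by
    refine Units.ext ?_
    rw [Units.coe_map, Units.val_one]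
    show PadicInt.toZModPow j _ = 1
    rw [← sub_eq_zero, ← map_one (PadicInt.toZModPow j), ← map_sub, ← RingHom.mem_ker,
      PadicInt.ker_toZModPow, ← PadicInt.norm_le_pow_iff_mem_span_pow, PadicInt.norm_def]
    refine le_trans (le_of_eq ?_) ((hball l).2.trans (by exact hρj))
    rw [← baseEmb_finBase, coe_baseEmb, PadicInt.coe_sub, coe_unitPart, PadicInt.coe_one,
      ← baseOrd_of_mem l.2, hNord0 _ l.2, neg_zero, zpow_zero, mul_one,
      ← norm_algebraMap' (PadicAlgCl (l.1 : ℕ)), map_sub, map_one]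
  rw [unitValue_apply, hunit, map_one, toAdd_one]

include hlam in
theorem classPsi_surjective : Function.Surjective (classPsi l j lam hT hn) := by
  intro z
  haveI hl : Fact (l.1 : ℕ).Prime := ⟨l.1.2⟩
  haveI : NeZero ((l.1 : ℕ) ^ j) := ⟨pow_ne_zero j l.1.2.ne_zero⟩
  obtain ⟨u, hu⟩ := hlam (Multiplicative.ofAdd (-z))
  obtain ⟨w, hw, hwu⟩ : ∃ w : Additive (ℚ_[(l.1 : ℕ)])ˣ, baseVal l.1 w = 0 ∧
      ∀ h0 : baseVal l.1 w = 0, Units.map (PadicInt.toZModPow j :
        ℤ_[(l.1 : ℕ)] →+* ZMod ((l.1 : ℕ) ^ j)).toMonoidHom (Additive.toMul (unitPart l.1 w)) = u := by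
    rcases Nat.eq_zero_or_pos j with hj | hj
    · subst hj
      haveI : Subsingleton (ZMod ((l.1 : ℕ) ^ 0)) := by rw [pow_zero]; infer_instance
      exact ⟨0, map_zero _, fun _ => Subsingleton.elim _ _⟩
    set m := (u : ZMod ((l.1 : ℕ) ^ j)).val
    have hcop : (l.1 : ℕ).Coprime m :=
      ((Nat.coprime_pow_right_iff hj _ _).1 (ZMod.val_coe_unit_coprime u)).symm
    have hm0 : (m : ℚ_[(l.1 : ℕ)]) ≠ 0 := Nat.cast_ne_zero.2 fun h => by
      rw [h, Nat.coprime_zero_right] at hcop; exact l.1.2.ne_one hcop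
    refine ⟨Additive.ofMul (Units.mk0 _ hm0), ?_, fun h0 => ?_⟩
    · show Padic.valuation (m : ℚ_[(l.1 : ℕ)]) = 0
      rw [Padic.valuation_natCast, padicValNat.eq_zero_of_not_dvd
        ((l.1.2.coprime_iff_not_dvd).1 hcop), Nat.cast_zero]
    · refine Units.ext ?_
      have he : ((Additive.toMul (unitPart l.1 (Additive.ofMul (Units.mk0 _ hm0))) :
          (ℤ_[(l.1 : ℕ)])ˣ) : ℤ_[(l.1 : ℕ)]) = (m : ℤ_[(l.1 : ℕ)]) := PadicInt.ext (by
        rw [coe_unitPart, h0, neg_zero, zpow_zero, mul_one, PadicInt.coe_natCast]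
        rfl)
      rw [Units.coe_map, he]
      exact (map_natCast (PadicInt.toZModPow j) m).trans (ZMod.natCast_zmod_val _)
  classical
  let F : Amb T := (fun q _ => if h : q = l then baseEmb q.1 (h ▸ w) else 0, fun _ _ => 0)
  have hFl : ∀ g, F.fin l g = baseEmb l.1 w := fun g => by
    show dite _ _ _ = _
    rw [dif_pos rfl]
  have hFne : ∀ q, q ≠ l → ∀ g, F.fin q g = 0 := fun q hq g => by
    show dite _ _ _ = _
    rw [dif_neg hq]
  have hFfix : ∀ σ : GQ, σ • F = F := fun σ =>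
    Amb.ext (fun q g => rfl) fun q g => rfl
  have hFJ : F ∈ J T := by
    refine ⟨fun q τ g => ?_, fun _ _ _ => rfl, ⟨⊥, isLvl_bot T, fun s _ => hFfix s⟩, ?_⟩
    · rcases eq_or_ne q l with rfl | hq
      · rw [hFl, hFl]
        refine Additive.toMul.injective (Units.ext ?_)
        rw [coe_locAct, coe_baseEmb, AlgEquiv.commutes]
      · rw [hFne q hq, hFne q hq, map_zero]
    · refine Set.finite_empty.subset ?_
      rintro q ⟨g, hg⟩
      exact hg rfl
  let N : baseIdeles T := ⟨⟨F, hFJ⟩, fun σ _ => Subtype.ext (hFfix σ)⟩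
  have hfinl : finBase l N = w := finBase_eq (hFl 1)
  have hdiv : baseDiv N = 0 := Finsupp.ext fun q => by
    rw [baseDiv_apply, Finsupp.zero_apply]
    by_cases h : q ∈ T
    · rw [baseOrd_of_mem h]
      rcases eq_or_ne (⟨q, h⟩ : ↥T) l with e | e
      · subst e; rw [hfinl, hw]
      · rw [finBase_eq (w := 0) (by rw [map_zero]; exact hFne _ e 1), map_zero]
    · rw [baseOrd_of_not_mem h]; rfl
  refine ⟨baseClass N, ?_⟩
  rw [classPsi_baseClass, idelePsi_apply, hdiv, Finsupp.sum_zero_index, zero_sub, hfinl,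
    unitValue_apply, hwu hw, hu, toAdd_ofAdd, neg_neg]

/-- An element congruent to its `ℓ`-th power is congruent to an integer. -/
theorem exists_int_sub_mem_nonunits {ℓ : ℕ} (hℓ : ℓ.Prime) {A : ValuationSubring Qb}
    (hA : A.LiesOverPrime ℓ) {x : Qb} (hx : x ∈ A) (hxℓ : x ^ ℓ - x ∈ A.nonunits) :
    ∃ m : ℕ, x - (m : Qb) ∈ A.nonunits := by
  haveI := Fact.mk hℓ
  haveI : CharP (IsLocalRing.ResidueField A) ℓ :=
    (CharP.charP_iff_prime_eq_zero hℓ).2 (by
      rw [← map_natCast (IsLocalRing.residue A), IsLocalRing.residue_eq_zero_iff,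
        ← ValuationSubring.coe_mem_nonunits_iff]
      simpa [ValuationSubring.LiesOverPrime] using hA)
  obtain ⟨z, hz⟩ := exists_zmod_of_pow_eq (q := ℓ) (c := IsLocalRing.residue A ⟨x, hx⟩) (by
    rw [← sub_eq_zero, ← map_pow, ← map_sub, IsLocalRing.residue_eq_zero_iff,
      ← ValuationSubring.coe_mem_nonunits_iff]
    exact hxℓ)
  refine ⟨z.val, ?_⟩
  have h0 : IsLocalRing.residue A (⟨x, hx⟩ - (z.val : A)) = 0 := by
    rw [map_sub, map_natCast, ← hz,
      ← map_natCast (ZMod.castHom (dvd_refl ℓ) (IsLocalRing.ResidueField A)) z.val,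
      ZMod.natCast_zmod_val, sub_self]
  rw [IsLocalRing.residue_eq_zero_iff, ← ValuationSubring.coe_mem_nonunits_iff] at h0
  simpa [-ZMod.natCast_val] using h0

theorem classPsi_level (L : IntermediateField ℚ Qb) (hL : IsLvl T L) :
    ∀ σ ∈ L.fixingSubgroup, ∃ c ∈ clsLev T L.fixingSubgroup,
      ∃ x : clsLev T (⊤ : Subgroup GQ), (x : Cls T) = relNorm ⊤ L.fixingSubgroup c ∧
        Multiplicative.toAdd (cycTheta l j lam σ) ∈ AddSubgroup.zmultiples (classPsi l j lam hT hn x) := by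
  classical
  intro σ hσ
  obtain ⟨E, hE, hEθ⟩ := exists_cycLevel l j lam
  haveI := hL.unramified.1
  haveI := hE.unramified.1
  have hLn := hL.normal
  obtain ⟨ℓ, hℓ, hℓS, A, hA, τ, hτ, hτL, hres, ⟨k, hk⟩, -⟩ :=
    Density.exists_frobenius_pow_over L E σ ((IntermediateField.mem_fixingSubgroup_iff _ _).1 hσ)
      (T.image fun r : Nat.Primes => (r : ℕ))
  let t : Nat.Primes := ⟨ℓ, hℓ⟩
  haveI : Fact (t : ℕ).Prime := ⟨hℓ⟩
  have htT : t ∉ T := fun h => hℓS (Finset.mem_image_of_mem (fun r : Nat.Primes => (r : ℕ)) h)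
  have hc : ℓ.Coprime ((l.1 : ℕ) ^ j) := Nat.Coprime.pow_right j
    ((Nat.coprime_primes hℓ l.1.2).2 fun e =>
      htT ((Nat.Primes.coe_nat_injective (show (t : ℕ) = l.1 from e)) ▸ l.2))
  have hθ : Multiplicative.toAdd (cycTheta l j lam σ) = (k : ℤ) • primeValue l j lam t := by
    rw [← cycTheta_frobenius l j lam (q := t) hc hA hτ, natCast_zsmul, ← toAdd_pow, ← map_pow]
    congr 1
    have h1 : (τ ^ k)⁻¹ * σ ∈ (cycTheta l j lam).ker :=
      hEθ ((IntermediateField.mem_fixingSubgroup_iff _ _).2 fun x hx => by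
        rw [AlgEquiv.mul_apply, hk x hx, ← AlgEquiv.mul_apply, inv_mul_cancel, AlgEquiv.one_apply])
    rw [MonoidHom.mem_ker, map_mul, map_inv, inv_mul_eq_one] at h1
    exact h1.symm
  -- the prime has degree one in `L`
  obtain ⟨g₀, hg₀⟩ := Galois.exists_smul_eq_of_liesOverPrime hℓ hA (liesOverPrime_padicPlace t)
  have hdecA : ∀ d ∈ A.decompositionSubgroup ℚ, d ∈ L.fixingSubgroup := by
    intro d hd
    obtain ⟨τ', hτ', hτ'L⟩ := MW.exists_mem_inertia_eqOn A L d fun x hx hxi => by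
      obtain ⟨m, hm⟩ := exists_int_sub_mem_nonunits hℓ hA
        (Galois.mem_valuationSubring_of_isIntegral A hxi)
        (hres x hx (Galois.mem_valuationSubring_of_isIntegral A hxi))
      have h2 : d x - (m : Qb) ∈ A.nonunits := by
        have h3 : d • (x - (m : Qb)) ∈ (d • A).nonunits := by
          rw [Galois.mem_smul_nonunits, inv_smul_smul]; exact hm
        rw [MulAction.mem_stabilizer_iff.1 hd, AlgEquiv.smul_def, map_sub, map_natCast] at h3
        exact h3
      have h4 := sub_mem h2 hm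
      simpa using h4
    rw [IntermediateField.mem_fixingSubgroup_iff]
    intro x hx
    rw [← hτ'L x hx]
    exact (IntermediateField.mem_fixingSubgroup_iff _ _).1 (hL.unramified.2 t htT A hA hτ') x hx
  have hleft : ∀ δ : LocGal t, g₀⁻¹ * loc t δ * g₀ ∈ L.fixingSubgroup := fun δ => by
    refine hdecA _ (MulAction.mem_stabilizer_iff.2 ?_)
    rw [mul_smul, mul_smul, hg₀,
      show loc t δ • padicPlace (t : ℕ) = padicPlace (t : ℕ) from
        MulAction.mem_stabilizer_iff.1 (localGaloisToGlobal_mem_decompositionSubgroup (t : ℕ) δ),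
      ← hg₀, inv_smul_smul]
  -- the idele
  let F : Amb T := (fun _ _ => 0, fun q g => if q.1 = t ∧ g₀⁻¹ * g ∈ L.fixingSubgroup then 1 else 0)
  have hFfix : ∀ s ∈ L.fixingSubgroup, s • F = F := fun s hs =>
    Amb.ext (fun q g => rfl) fun q g => by
      show (if _ then _ else _) = if _ then _ else _
      rw [← mul_assoc, L.fixingSubgroup.mul_mem_cancel_right hs]
  have hFJ : F ∈ J T := by
    refine ⟨fun q τ g => (map_zero _).symm, fun q δ g => ?_, ⟨L, hL, hFfix⟩, ?_⟩
    · show (if _ then _ else _) = if _ then _ else _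
      rcases q with ⟨q, hq⟩
      by_cases hqt : q = t
      · subst hqt
        rw [show g₀⁻¹ * (loc t δ * g) = g₀⁻¹ * loc t δ * g₀ * (g₀⁻¹ * g) by group,
          L.fixingSubgroup.mul_mem_cancel_left (hleft δ)]
      · simp [hqt]
    · refine (Set.finite_singleton (⟨t, htT⟩ : {q : Nat.Primes // q ∉ T})).subset ?_
      rintro q ⟨g, hg⟩
      simp only [F, Amb.ord] at hg
      rw [ite_ne_right_iff] at hg
      exact Subtype.ext hg.1.1
  set f : J T := ⟨F, hFJ⟩
  have hf : f ∈ fixedPts L.fixingSubgroup ↥(J T) := fun s hs => Subtype.ext (hFfix s hs)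
  haveI := finite_quotient_fixingSubgroup L
  haveI := finite_relQuotient (W := L.fixingSubgroup) (⊤ : Subgroup GQ)
  let N : baseIdeles T := ⟨relNorm ⊤ L.fixingSubgroup f, relNorm_mem hf⟩
  refine ⟨clsMk T f, fun s hs => by rw [smul_clsMk, hf s hs], baseClass N,
    by rw [relNorm_clsMk hf]; rfl, ?_⟩
  letI : Fintype (GQ ⧸ L.fixingSubgroup) := Fintype.ofFinite _
  have htr : IsTransversal (⊤ : Subgroup GQ) L.fixingSubgroup
      fun c : GQ ⧸ L.fixingSubgroup => c.out := by
    refine ⟨fun _ => Subgroup.mem_top _, fun u _ => ⟨QuotientGroup.mk u, ?_, fun c hc => ?_⟩⟩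
    · exact QuotientGroup.eq.1 (QuotientGroup.out_eq' _)
    · rw [← QuotientGroup.out_eq' c]
      exact QuotientGroup.eq.2 hc
  have hN : (N : J T) = ∑ c : GQ ⧸ L.fixingSubgroup, c.out • f := relNorm_eq_sum htr hf
  have hfin0 : ∀ q : ↥T, finBase q N = 0 := fun q => finBase_eq (by
    let ev : J T →+ LocVal q.1 :=
      { toFun := fun e => (e : Amb T).fin q 1, map_zero' := rfl, map_add' := fun _ _ => rfl }
    rw [map_zero]
    show ev (N : J T) = 0
    rw [hN, map_sum]
    exact Finset.sum_eq_zero fun c _ => rfl)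
  have hdiv : baseDiv N = Finsupp.single t 1 := Finsupp.ext fun q => by
    rw [baseDiv_apply, Finsupp.single_apply]
    by_cases h : q ∈ T
    · rw [baseOrd_of_mem h, hfin0, map_zero, if_neg fun e => htT (by rw [e]; exact h)]
    rw [baseOrd_of_not_mem h]
    let ev : J T →+ ℤ :=
      { toFun := fun e => (e : Amb T).ord ⟨q, h⟩ 1, map_zero' := rfl, map_add' := fun _ _ => rfl }
    show ev (N : J T) = _
    rw [hN, map_sum]
    have hev : ∀ c : GQ ⧸ L.fixingSubgroup, ev (c.out • f) =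
        if q = t ∧ g₀⁻¹ * c.out ∈ L.fixingSubgroup then 1 else 0 := fun c => by
      show (if q = t ∧ g₀⁻¹ * (1 * c.out) ∈ L.fixingSubgroup then (1 : ℤ) else 0) = _
      rw [one_mul]
    rw [Finset.sum_congr rfl fun c _ => hev c]
    by_cases hqt : q = t
    · subst hqt
      rw [if_pos rfl, Finset.sum_eq_single (QuotientGroup.mk g₀)]
      · rw [if_pos ⟨rfl, QuotientGroup.eq.1 (QuotientGroup.out_eq' _).symm⟩]
      · intro c _ hcne
        rw [if_neg fun e => hcne (by
          rw [← QuotientGroup.out_eq' c]; exact (QuotientGroup.eq.2 e.2).symm)]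
      · exact fun e => absurd (Finset.mem_univ _) e
    · rw [if_neg (Ne.symm hqt)]
      exact Finset.sum_eq_zero fun c _ => if_neg fun e => hqt e.1
  rw [AddSubgroup.mem_zmultiples_iff]
  refine ⟨k, ?_⟩
  rw [classPsi_baseClass, idelePsi_apply, hdiv,
    Finsupp.sum_single_index (h := fun q a => a • primeValue l j lam q) (zero_smul ℤ _), one_smul,
    hfin0, map_zero, map_zero, sub_zero, hθ]

/-- The cyclotomic invariant attached to a character of `(ℤ/l^j)ˣ`. -/
def cyclotomicInvariant : CyclotomicInvariant T n where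
  theta := cycTheta l j lam
  theta_surjective := cycTheta_surjective l j lam hlam
  level := (exists_cycLevel l j lam).choose
  isLvl := (exists_cycLevel l j lam).choose_spec.1
  fixing_le := (exists_cycLevel l j lam).choose_spec.2
  psi := classPsi l j lam hT hn
  psi_surjective := classPsi_surjective l j lam hlam hT hn
  psi_norm := classPsi_norm l j lam hlam hT hn
  psi_level := classPsi_level l j lam hT hn

theorem cyclotomicInvariant_theta :
    (cyclotomicInvariant l j lam hlam hT hn).theta = cycTheta l j lam := rfl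

theorem cyclotomicInvariant_psi :
    (cyclotomicInvariant l j lam hlam hT hn).psi = classPsi l j lam hT hn := rfl

end Norm

/-- A surjection from a finite cyclic group onto `ℤ/n`, for `n` dividing its order. -/
theorem exists_surjective_to_zmod {G : Type} [CommGroup G] [Finite G] [IsCyclic G] {n : ℕ}
    (h : n ∣ Nat.card G) : ∃ lam : G →* Multiplicative (ZMod n), Function.Surjective lam := by
  let e := zmodMulEquivOfGenerator (IsCyclic.exists_generator (α := G)).choose_spec rfl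
  refine ⟨(ZMod.castHom h (ZMod n)).toAddMonoidHom.toMultiplicative.comp e.symm.toMonoidHom,
    fun y => ?_⟩
  obtain ⟨z, hz⟩ := ZMod.castHom_surjective h (Multiplicative.toAdd y)
  exact ⟨e (Multiplicative.ofAdd z), by simp [hz]⟩

/-- The invariants of `p`-power degree of the classes. -/
theorem nonempty_cyclotomicInvariant_pow {T : Finset Nat.Primes} {p : ℕ} [hp : Fact p.Prime]
    (hp2 : p ≠ 2) (hpT : ExtCitation.pPrime p ∈ T) (a : ℕ) :
    Nonempty (CyclotomicInvariant T (p ^ a)) := by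
  haveI : NeZero (p ^ a) := ⟨pow_ne_zero a hp.out.ne_zero⟩
  haveI : NeZero (((ExtCitation.pPrime p : Nat.Primes) : ℕ) ^ (a + 1)) :=
    ⟨pow_ne_zero _ hp.out.ne_zero⟩
  have hcyc : IsCyclic (ZMod (p ^ (a + 1)))ˣ := ZMod.isCyclic_units_of_prime_pow p hp.out hp2 _
  have hdvd : p ^ a ∣ Nat.card (ZMod (p ^ (a + 1)))ˣ := by
    rw [Nat.card_eq_fintype_card, ZMod.card_units_eq_totient,
      Nat.totient_prime_pow_succ hp.out]
    exact dvd_mul_right _ _
  obtain ⟨lam, hlam⟩ := exists_surjective_to_zmod hdvd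
  exact ⟨cyclotomicInvariant ⟨ExtCitation.pPrime p, hpT⟩ (a + 1) lam hlam ⟨_, hpT⟩
    ((hp.out.odd_of_ne_two hp2).pow)⟩

end Fermat.Agent.PoitouTate
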