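/-
Corestriction of explicit 2-cocycles, its compatibility with induced maps, carry cocycles of
cyclic characters and descent of classes killed on a normal subgroup.
-/
import Fermat.Agent.PoitouTate.AlgebraLayer

set_option autoImplicit false

open groupCohomology

noncomputable section

namespace Fermat.Agent.PoitouTate

variable {Δ : Type} [Group Δ] {C : Type} [AddCommGroup C] [DistribMulAction Δ C]

theorem smul_intMul (g : Δ) (k : ℤ) (a : C) : g • (k • a) = k • g • a :=
  map_zsmul (DistribSMul.toAddMonoidHom C g) k a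

section Cores

variable (H : Subgroup Δ) [Fintype (Δ ⧸ H)]

/-- The `H`-component of the translation of a coset representative. -/
def cosetPart (g : Δ) (q : Δ ⧸ H) : H :=
  ⟨(g • q).out⁻¹ * (g * q.out), by
    have h1 : QuotientGroup.mk (s := H) (g • q).out = QuotientGroup.mk (g * q.out) := by
      rw [QuotientGroup.out_eq']
      conv_lhs => rw [← QuotientGroup.out_eq' q]
      rfl
    exact QuotientGroup.eq.1 h1⟩

theorem out_mul_cosetPart (g : Δ) (q : Δ ⧸ H) :
    (g • q).out * (cosetPart H g q : Δ) = g * q.out := mul_inv_cancel_left _ _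

theorem cosetPart_mul (g h : Δ) (q : Δ ⧸ H) :
    cosetPart H (g * h) q = cosetPart H g (h • q) * cosetPart H h q := Subtype.ext <| by
  change _ = (cosetPart H g (h • q) : Δ) * cosetPart H h q
  apply mul_left_cancel (a := ((g * h) • q).out)
  rw [out_mul_cosetPart, mul_smul g h q, ← mul_assoc (g • h • q).out, out_mul_cosetPart,
    mul_assoc g (h • q).out, out_mul_cosetPart, mul_assoc]

/-- Corestriction on cochains. -/
def coresFun (c : H × H → C) (x : Δ × Δ) : C :=
  ∑ q : Δ ⧸ H, ((x.1 * x.2) • q).out • c (cosetPart H x.1 (x.2 • q), cosetPart H x.2 q)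

theorem coresFun_add (c c' : H × H → C) : coresFun H (c + c') = coresFun H c + coresFun H c' := by
  funext x
  simp [coresFun, Finset.sum_add_distrib]

theorem coresFun_zsmul (k : ℤ) (c : H × H → C) :
    coresFun H (fun y => k • c y) = fun x => k • coresFun H c x := by
  funext x
  simp only [coresFun, Finset.smul_sum]
  exact Finset.sum_congr rfl fun q _ => smul_intMul _ k _

theorem coresFun_coboundary {c : H × H → C} (hc : IsCoboundary₂ c) :
    IsCoboundary₂ (coresFun H c) := by
  obtain ⟨b, hb⟩ := hc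
  refine ⟨fun g => ∑ q : Δ ⧸ H, (g • q).out • b (cosetPart H g q), fun g h => ?_⟩
  have hre : (∑ q : Δ ⧸ H, (g • q).out • b (cosetPart H g q)) =
      ∑ q : Δ ⧸ H, (g • h • q).out • b (cosetPart H g (h • q)) :=
    (Fintype.sum_equiv (MulAction.toPerm h) _ _ fun q => rfl).symm
  simp only [Finset.smul_sum, hre, coresFun, ← Finset.sum_sub_distrib, ← Finset.sum_add_distrib]
  refine Finset.sum_congr rfl fun q _ => ?_
  have e := congrArg (fun t => (g • h • q).out • t) (hb (cosetPart H g (h • q)) (cosetPart H h q))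
  simp only [Subgroup.smul_def, smul_add, smul_sub, ← mul_smul, out_mul_cosetPart,
    ← cosetPart_mul] at e
  rw [mul_smul g h q]
  simp only [← mul_smul g (h • q).out]
  simp only [mul_smul g h q, out_mul_cosetPart] at e
  linear_combination (norm := abel) e

variable {R : Type} [AddCommGroup R] [DistribMulAction Δ R]

/-- The map induced from an `H`-equivariant map. -/
def indHom (g : R →+ C) : R →+ C :=
  ∑ q : Δ ⧸ H, (DistribSMul.toAddMonoidHom C q.out).comp
    (g.comp (DistribSMul.toAddMonoidHom R q.out⁻¹))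

theorem indHom_apply (g : R →+ C) (r : R) :
    indHom H g r = ∑ q : Δ ⧸ H, q.out • g (q.out⁻¹ • r) := by
  simp [indHom, AddMonoidHom.finsetSum_apply]

variable {H}

theorem indTerm_smul {g : R →+ C} (hg : ∀ (h : H) r, g ((h : Δ) • r) = (h : Δ) • g r) (σ : Δ)
    (q : Δ ⧸ H) (r : R) :
    (σ • q).out • g ((σ • q).out⁻¹ • σ • r) = σ • q.out • g (q.out⁻¹ • r) := by
  have h1 : (σ • q).out⁻¹ * σ = (cosetPart H σ q : Δ) * q.out⁻¹ := by
    simp [cosetPart, mul_assoc]
  rw [← mul_smul _ σ r, h1, mul_smul, hg, ← mul_smul, out_mul_cosetPart, mul_smul]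

theorem indHom_isEquivariant {g : R →+ C} (hg : ∀ (h : H) r, g ((h : Δ) • r) = (h : Δ) • g r) :
    IsEquivariant Δ (indHom H g) := fun σ r => by
  rw [indHom_apply, indHom_apply, Finset.smul_sum]
  refine (Fintype.sum_equiv (MulAction.toPerm σ) _ _ fun q => ?_).symm
  exact (indTerm_smul hg σ q r).symm

/-- The induced map sends a class to the corestriction of its local image. -/
theorem indHom_cores {g : R →+ C} (hg : ∀ (h : H) r, g ((h : Δ) • r) = (h : Δ) • g r)
    {z : Δ × Δ → R} (hz : IsCocycle₂ z) :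
    IsCoboundary₂ fun x => indHom H g (z x) - coresFun H (fun y => g (z ((y.1 : Δ), (y.2 : Δ)))) x := by
  let Φ : Δ ⧸ H → R → C := fun q r => q.out • g (q.out⁻¹ • r)
  have hΦσ : ∀ (σ : Δ) q r, σ • Φ q r = Φ (σ • q) (σ • r) := fun σ q r =>
    (indTerm_smul hg σ q r).symm
  have hΦadd : ∀ q r r', Φ q (r + r') = Φ q r + Φ q r' := fun q r r' => by simp [Φ]
  have hΦsub : ∀ q r r', Φ q (r - r') = Φ q r - Φ q r' := fun q r r' => by simp [Φ, smul_sub]
  let A : Δ → Δ ⧸ H → R := fun a q =>
    z (a, q.out) - z ((a • q).out, (cosetPart H a q : Δ))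
  refine ⟨fun a => ∑ q : Δ ⧸ H, Φ (a • q) (A a q), fun a b => ?_⟩
  have hre : (∑ q : Δ ⧸ H, Φ (a • q) (A a q)) = ∑ q : Δ ⧸ H, Φ (a • b • q) (A a (b • q)) :=
    (Fintype.sum_equiv (MulAction.toPerm b) _ _ fun q => rfl).symm
  have hre' : indHom H g (z (a, b)) = ∑ q : Δ ⧸ H, Φ (a • b • q) (z (a, b)) := by
    rw [indHom_apply]
    refine (Fintype.sum_equiv (MulAction.toPerm (a * b)) _ _ fun q => ?_).symm
    simp only [Φ, MulAction.toPerm_apply, mul_smul a b q]
  simp only [Finset.smul_sum, hre, hre', coresFun, ← Finset.sum_sub_distrib,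
    ← Finset.sum_add_distrib, hΦσ]
  refine Finset.sum_congr rfl fun q _ => ?_
  rw [mul_smul a b q]
  have e3 : (a • b • q).out •
      g (z ((cosetPart H a (b • q) : Δ), (cosetPart H b q : Δ))) =
      Φ (a • b • q) ((a • b • q).out • z ((cosetPart H a (b • q) : Δ), (cosetPart H b q : Δ))) := by
    simp [Φ]
  rw [e3, ← hΦsub, ← hΦsub, ← hΦadd]
  congr 1
  have ha := out_mul_cosetPart H a (b • q)
  have hb := out_mul_cosetPart H b q
  have c1 := hz a b q.out
  have c3 := hz a (b • q).out (cosetPart H b q)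
  have c2 := hz (a • b • q).out (cosetPart H a (b • q)) (cosetPart H b q)
  rw [ha] at c2
  rw [hb] at c3
  simp only [A, smul_sub, cosetPart_mul, mul_smul a b q, Subgroup.coe_mul]
  linear_combination (norm := abel) -c2 + c3 - c1

/-- Corestriction of a restricted class. -/
theorem coresFun_res {u : Δ × Δ → C} (hu : IsCocycle₂ u) :
    IsCoboundary₂ fun x => (H.index : ℤ) • u x - coresFun H (fun y => u ((y.1 : Δ), (y.2 : Δ))) x := by
  have h := indHom_cores (H := H) (g := AddMonoidHom.id C) (fun _ _ => rfl) hu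
  convert h using 1
  funext x
  congr 1
  rw [indHom_apply]
  simp only [AddMonoidHom.id_apply, smul_inv_smul, Finset.sum_const, Finset.card_univ,
    ← Nat.card_eq_fintype_card, ← Subgroup.index_eq_card, natCast_zsmul]

end Cores

section Carry

/-- A digit function of a character into `ℤ/n`. -/
structure Digits (Δ : Type) [Group Δ] (n : ℕ) where
  /-- The digit. -/
  e : Δ → ℕ
  lt : ∀ g, e g < n
  hom : ∀ g h, e (g * h) = (e g + e h) % n

variable {n : ℕ}

theorem Digits.map_one (d : Digits Δ n) : d.e 1 = 0 := by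
  have h := d.hom 1 1
  rw [one_mul] at h
  have hlt := d.lt 1
  rcases Nat.lt_or_ge (d.e 1 + d.e 1) n with h' | h'
  · rw [Nat.mod_eq_of_lt h'] at h; omega
  · rw [Nat.mod_eq_sub_mod h', Nat.mod_eq_of_lt (by omega)] at h; omega

/-- The carry. -/
def Digits.carry (d : Digits Δ n) (g h : Δ) : ℤ := (((d.e g + d.e h) / n : ℕ) : ℤ)

theorem Digits.n_carry (d : Digits Δ n) (g h : Δ) :
    (n : ℤ) * d.carry g h = d.e g + d.e h - d.e (g * h) := by
  have := Nat.div_add_mod (d.e g + d.e h) n
  rw [← d.hom] at this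
  simp only [Digits.carry]
  rw [← Nat.cast_mul, ← Nat.cast_add]
  omega

theorem Digits.carry_cocycle (d : Digits Δ n) (hn : n ≠ 0) (g h j : Δ) :
    d.carry (g * h) j + d.carry g h = d.carry h j + d.carry g (h * j) := by
  apply mul_left_cancel₀ (Nat.cast_ne_zero.2 hn : (n : ℤ) ≠ 0)
  rw [mul_add, mul_add, d.n_carry, d.n_carry, d.n_carry, d.n_carry, mul_assoc]
  ring

/-- The cocycle `carry • a`. -/
def Digits.cocycle (d : Digits Δ n) (a : C) (x : Δ × Δ) : C := d.carry x.1 x.2 • a

theorem Digits.cocycle_isCocycle (d : Digits Δ n) (hn : n ≠ 0) {a : C} (ha : ∀ g : Δ, g • a = a) :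
    IsCocycle₂ (d.cocycle a) := fun g h j => by
  simp only [Digits.cocycle]
  rw [smul_intMul, ha, ← add_smul, ← add_smul, d.carry_cocycle hn]

theorem Digits.e_pow (d : Digits Δ n) {σ : Δ} (hσ : d.e σ = 1 % n) (i : ℕ) :
    d.e (σ ^ i) = i % n := by
  induction i with
  | zero => simp [d.map_one]
  | succ i ih => rw [pow_succ, d.hom, ih, hσ, ← Nat.add_mod]

/-- The carries along the powers of a generator add up to one. -/
theorem Digits.sum_carry (d : Digits Δ n) (hn : n ≠ 0) (hn1 : n ≠ 1) {σ : Δ}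
    (hσ : d.e σ = 1 % n) : (∑ i ∈ Finset.range n, d.carry (σ ^ i) σ) = 1 := by
  have he := d.e_pow hσ
  apply mul_left_cancel₀ (Nat.cast_ne_zero.2 hn : (n : ℤ) ≠ 0)
  rw [Finset.mul_sum, Finset.sum_congr rfl fun i _ => d.n_carry (σ ^ i) σ, mul_one]
  simp only [← pow_succ, he, hσ]
  rcases Nat.lt_or_ge 1 n with h1 | h1
  swap
  · omega
  · have h2 : ∀ i ∈ Finset.range n,
        (((i % n : ℕ) : ℤ) + ((1 % n : ℕ) : ℤ) - (((i + 1) % n : ℕ) : ℤ)) =
          if i = n - 1 then (n : ℤ) else 0 := by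
      intro i hi
      rw [Finset.mem_range] at hi
      rw [Nat.mod_eq_of_lt hi, Nat.mod_eq_of_lt h1]
      by_cases h : i = n - 1
      · have : i + 1 = n := by omega
        rw [if_pos h, this, Nat.mod_self]; push_cast; omega
      · rw [if_neg h, Nat.mod_eq_of_lt (by omega : i + 1 < n)]; push_cast; omega
    rw [Finset.sum_congr rfl h2, Finset.sum_ite_eq', if_pos (Finset.mem_range.2 (by omega))]

/-- A multiple of a carry cocycle which is a coboundary is a norm. -/
theorem Digits.norm_of_coboundary (d : Digits Δ n) (hn : n ≠ 0) {σ : Δ} (hσ : d.e σ = 1 % n)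
    (hσn : σ ^ n = 1) {a : C} (hc : IsCoboundary₂ (d.cocycle a)) :
    ∃ b : C, a = ∑ i ∈ Finset.range n, σ ^ i • b := by
  rcases eq_or_ne n 1 with rfl | hn1
  · exact ⟨a, by simp⟩
  obtain ⟨x, hx⟩ := hc
  refine ⟨x σ, ?_⟩
  have hsum := d.sum_carry hn hn1 hσ
  have h3 : (∑ i ∈ Finset.range n, d.carry (σ ^ i) σ • a) =
      ∑ i ∈ Finset.range n, (σ ^ i • x σ - (x (σ ^ (i + 1)) - x (σ ^ i))) := by
    refine Finset.sum_congr rfl fun i _ => ?_
    have := hx (σ ^ i) σ
    simp only [Digits.cocycle] at this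
    rw [← this, ← pow_succ]
    abel
  rw [← Finset.sum_smul, hsum, one_smul, Finset.sum_sub_distrib,
    Finset.sum_range_sub (fun i => x (σ ^ i)), hσn, pow_zero, sub_self, sub_zero] at h3
  exact h3

/-- A carry cocycle of a norm is a coboundary. -/
theorem Digits.coboundary_of_norm (d : Digits Δ n) (hn : n ≠ 0) {σ : Δ}
    (hgen : ∀ g : Δ, g = σ ^ d.e g) (hσn : σ ^ n = 1) (b : C) :
    IsCoboundary₂ (d.cocycle (∑ i ∈ Finset.range n, σ ^ i • b)) := by
  refine ⟨fun g => ∑ i ∈ Finset.range (d.e g), σ ^ i • b, fun g h => ?_⟩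
  have hg : g • (∑ i ∈ Finset.range (d.e h), σ ^ i • b) =
      ∑ i ∈ Finset.range (d.e h), σ ^ (d.e g + i) • b := by
    rw [Finset.smul_sum]
    refine Finset.sum_congr rfl fun i _ => ?_
    rw [← mul_smul, pow_add, ← hgen g]
  have hsplit : (∑ i ∈ Finset.range (d.e g + d.e h), σ ^ i • b) =
      (∑ i ∈ Finset.range (d.e g), σ ^ i • b) +
        ∑ i ∈ Finset.range (d.e h), σ ^ (d.e g + i) • b := Finset.sum_range_add _ _ _
  have hper : (∑ i ∈ Finset.range (d.e g + d.e h), σ ^ i • b) =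
      d.carry g h • (∑ i ∈ Finset.range n, σ ^ i • b) +
        ∑ i ∈ Finset.range (d.e (g * h)), σ ^ i • b := by
    rw [d.hom, Digits.carry, natCast_zsmul]
    conv_lhs => rw [← Nat.div_add_mod (d.e g + d.e h) n]
    generalize (d.e g + d.e h) % n = r
    induction (d.e g + d.e h) / n with
    | zero => simp
    | succ m ih =>
      rw [show n * (m + 1) + r = n + (n * m + r) by ring, Finset.sum_range_add]
      have : ∀ i, σ ^ (n + i) = σ ^ i := fun i => by rw [pow_add, hσn, one_mul]
      simp only [this, ih, succ_nsmul]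
      abel
  simp only [Digits.cocycle, hg]
  linear_combination (norm := abel) hper - hsplit

end Carry

section Descent

variable {p : ℕ} [Fact p.Prime]

/-- A class killed on a normal subgroup with trivial `H¹` is inflated. -/
theorem exists_descent (K : Subgroup Δ) [hKn : K.Normal]
    (hK1 : ∀ c : K → C, (∀ g h : K, c (g * h) = (g : Δ) • c h + c g) →
      ∃ x : C, ∀ g : K, (g : Δ) • x - x = c g)
    {z : Δ × Δ → C} (hz : IsCocycle₂ z)
    (hres : IsCoboundary₂ fun x : K × K => z ((x.1 : Δ), (x.2 : Δ))) :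
    ∃ w : Δ × Δ → C, IsCocycle₂ w ∧ IsCoboundary₂ (fun x => z x - w x) ∧
      (∀ x, w x ∈ fixedPts K C) ∧
      ∀ g h k k', k ∈ K → k' ∈ K → w (g * k, h * k') = w (g, h) := by
  obtain ⟨b, hb⟩ := hres
  let z' : Z2 Δ C := ⟨z, hz⟩
  let S : K →* ExtGroup z' := MonoidHom.mk' (fun k => ⟨-b k, k⟩) fun k l => by
    refine ExtGroup.ext' ?_ rfl
    rw [ExtGroup.mul_left']
    have h1 : (k : Δ) • b l - b (k * l) + b k = z ((k : Δ), (l : Δ)) := hb k l
    change -b (k * l) = -b k + (k : Δ) • -b l + z ((k : Δ), (l : Δ))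
    rw [← h1, smul_neg]
    abel
  have hlift : ∀ g : Δ, ∃ T : ExtGroup z', T.right = g ∧
      ∀ k : K, T * S k * T⁻¹ = S ⟨g * k * g⁻¹, hKn.conj_mem k k.2 g⟩ := by
    intro g
    let T₀ : ExtGroup z' := ⟨0, g⟩
    let cj : K →* K := MonoidHom.mk'
      (fun k => ⟨g⁻¹ * k * g, by simpa using hKn.conj_mem k k.2 g⁻¹⟩) fun k l =>
        Subtype.ext (by simp [mul_assoc])
    let D : K → C := fun k => (T₀ * S (cj k) * T₀⁻¹).left + b k
    have hDr : ∀ k, (T₀ * S (cj k) * T₀⁻¹).right = (k : Δ) := fun k => by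
      change ExtGroup.proj z' (T₀ * S (cj k) * T₀⁻¹) = _
      rw [map_mul, map_mul, map_inv]
      simp [T₀, S, cj, mul_assoc]
    obtain ⟨x, hx⟩ := hK1 D fun k l => by
      have e : T₀ * S (cj (k * l)) * T₀⁻¹ =
          (T₀ * S (cj k) * T₀⁻¹) * (T₀ * S (cj l) * T₀⁻¹) := by
        rw [map_mul, map_mul]; group
      have h1 : (k : Δ) • b l - b (k * l) + b k = z ((k : Δ), (l : Δ)) := hb k l
      simp only [D]
      rw [e, ExtGroup.mul_left', hDr, hDr, smul_add]
      change _ + _ + z ((k : Δ), (l : Δ)) + _ = _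
      rw [← h1]
      abel
    refine ⟨⟨x, g⟩, rfl, fun k => ?_⟩
    rw [mul_inv_eq_iff_eq_mul]
    refine ExtGroup.ext' ?_ (by simp [S])
    let k' : K := ⟨g * k * g⁻¹, hKn.conj_mem k k.2 g⟩
    have hk : cj k' = k := Subtype.ext (by simp [cj, k', mul_assoc])
    have e1 := congrArg ExtGroup.left (show T₀ * S k = (T₀ * S (cj k') * T₀⁻¹) * T₀ by rw [hk]; group)
    rw [ExtGroup.mul_left', ExtGroup.mul_left', hDr] at e1
    have e2 := hx k'
    simp only [D] at e2
    simp only [T₀, smul_zero, add_zero, zero_add] at e1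
    change g • -b k + z (g, (k : Δ)) = _ at e1
    change x + g • -b k + z (g, (k : Δ)) = -b k' + (k' : Δ) • x + z ((k' : Δ), g)
    change _ = _ + z ((k' : Δ), g) at e1
    linear_combination (norm := abel) e1 - e2
  choose T hTr hTconj using hlift
  let rep : Δ → Δ := fun g => (QuotientGroup.mk g : Δ ⧸ K).out
  have hrep : ∀ g, (rep g)⁻¹ * g ∈ K := fun g =>
    QuotientGroup.eq.1 (QuotientGroup.out_eq' (QuotientGroup.mk g : Δ ⧸ K))
  have hrepK : ∀ g k, k ∈ K → rep (g * k) = rep g := fun g k hk =>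
    congrArg Quotient.out (QuotientGroup.eq.2 (by simpa using hk) :
      (QuotientGroup.mk (g * k) : Δ ⧸ K) = QuotientGroup.mk g)
  let s : Δ → ExtGroup z' := fun g => T (rep g) * S ⟨_, hrep g⟩
  have hsr : ∀ g, (s g).right = g := fun g => by
    simp only [s, ExtGroup.mul_right', hTr]
    exact mul_inv_cancel_left _ _
  have hsK : ∀ g (k : K), s (g * k) = s g * S k := fun g k => by
    simp only [s, mul_assoc, ← map_mul, hrepK g k k.2]
    exact congrArg (fun t => T (rep g) * S t) (Subtype.ext (by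
      change (rep g)⁻¹ * (g * k) = (rep g)⁻¹ * g * k
      rw [mul_assoc]))
  have hsconj : ∀ g (k : K), s g * S k * (s g)⁻¹ = S ⟨g * k * g⁻¹, hKn.conj_mem k k.2 g⟩ := by
    intro g k
    set k₀ : K := ⟨_, hrep g⟩
    have : s g * S k * (s g)⁻¹ = T (rep g) * S (k₀ * k * k₀⁻¹) * (T (rep g))⁻¹ := by
      simp only [s, map_mul, map_inv, k₀]; group
    rw [this, hTconj]
    congr 1
    refine Subtype.ext ?_
    change rep g * ((rep g)⁻¹ * g * k * ((rep g)⁻¹ * g)⁻¹) * (rep g)⁻¹ = g * k * g⁻¹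
    group
  let y : Δ → C := fun g => (s g).left
  let w : Δ × Δ → C := fun x => z x + (x.1 • y x.2 - y (x.1 * x.2) + y x.1)
  have hw : ∀ g h, (s g * s h).left = w (g, h) + y (g * h) := fun g h => by
    simp only [ExtGroup.mul_left', hsr, w, y]
    change _ + _ + z (g, h) = _
    abel
  -- the defect as an element of the kernel
  let E : Δ × Δ → ExtGroup z' := fun x => s x.1 * s x.2 * (s (x.1 * x.2))⁻¹
  have hE1 : ∀ x, (E x).right = 1 := fun x => by
    change ExtGroup.proj z' (E x) = 1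
    simp [E, map_mul, map_inv, hsr]
  have hEw : ∀ x, (E x).left + z (1, 1) = w x := fun x => by
    have e := congrArg ExtGroup.left (inv_mul_cancel_right (s x.1 * s x.2) (s (x.1 * x.2)))
    change (E x * s (x.1 * x.2)).left = _ at e
    rw [ExtGroup.mul_left', hE1, hsr, one_smul, hw] at e
    change _ + _ + z (1, _) = _ at e
    rw [map_one_fst_of_isCocycle₂ hz] at e
    change _ + y (x.1 * x.2) + _ = _ at e
    linear_combination (norm := abel) e
  refine ⟨w, fun g h j => ?_, ⟨fun g => -y g, fun g h => ?_⟩, fun x k hk => ?_, ?_⟩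
  · simp only [w, smul_add, smul_sub, mul_smul, mul_assoc]
    linear_combination (norm := abel) hz g h j
  · simp only [w, smul_neg]; abel
  · have hcomm : Commute (E x) (S ⟨k, hk⟩) := by
      have key : ∀ k : K, E x * S k * (E x)⁻¹ = S k := fun k => by
        have h1 : (s (x.1 * x.2))⁻¹ * S k * s (x.1 * x.2) =
            S ⟨(x.1 * x.2)⁻¹ * k * (x.1 * x.2), by
              simpa using hKn.conj_mem k k.2 (x.1 * x.2)⁻¹⟩ := by
          have h2 := hsconj (x.1 * x.2) ⟨(x.1 * x.2)⁻¹ * k * (x.1 * x.2), by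
              simpa using hKn.conj_mem k k.2 (x.1 * x.2)⁻¹⟩
          rw [show S k = s (x.1 * x.2) * S ⟨(x.1 * x.2)⁻¹ * k * (x.1 * x.2), by
              simpa using hKn.conj_mem k k.2 (x.1 * x.2)⁻¹⟩ * (s (x.1 * x.2))⁻¹ from
            (congrArg S (Subtype.ext (by simp [mul_assoc]))).trans h2.symm]
          group
        calc E x * S k * (E x)⁻¹ = s x.1 * (s x.2 *
              ((s (x.1 * x.2))⁻¹ * S k * s (x.1 * x.2)) * (s x.2)⁻¹) * (s x.1)⁻¹ := by
              simp only [E]; group
          _ = S k := by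
              rw [h1, hsconj, hsconj]
              congr 1
              exact Subtype.ext (by simp [mul_assoc])
      exact mul_inv_eq_iff_eq_mul.1 (key _)
    have e := congrArg ExtGroup.left hcomm.eq
    simp only [ExtGroup.mul_left', hE1, one_smul] at e
    change (E x).left + (S ⟨k, hk⟩).left + z (1, k) = (S ⟨k, hk⟩).left + k • (E x).left + z (k, 1) at e
    rw [map_one_snd_of_isCocycle₂ hz k, map_one_fst_of_isCocycle₂ hz k] at e
    rw [← hEw x, smul_add]
    linear_combination (norm := abel) -e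
  · intro g h k k' hk hk'
    have hk'' : h⁻¹ * k * h ∈ K := by simpa using hKn.conj_mem k hk h⁻¹
    have e : E (g * k, h * k') = E (g, h) := by
      have h1 : S ⟨k, hk⟩ * s h = s h * S ⟨_, hk''⟩ := by
        have h2 := hsconj h ⟨_, hk''⟩
        rw [mul_inv_eq_iff_eq_mul] at h2
        rw [h2]
        congr 1
        exact congrArg S (Subtype.ext (by simp [mul_assoc]))
      have h3 : g * k * (h * k') = g * h * ((⟨_, hk''⟩ * ⟨k', hk'⟩ : K) : Δ) := by
        simp [mul_assoc]
      simp only [E, h3, hsK g ⟨k, hk⟩, hsK h ⟨k', hk'⟩, hsK (g * h), map_mul]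
      calc s g * S ⟨k, hk⟩ * (s h * S ⟨k', hk'⟩) *
            (s (g * h) * (S ⟨_, hk''⟩ * S ⟨k', hk'⟩))⁻¹
          = s g * (S ⟨k, hk⟩ * s h) * (S ⟨_, hk''⟩)⁻¹ * (s (g * h))⁻¹ := by group
        _ = s g * s h * (s (g * h))⁻¹ := by rw [h1]; group
    rw [← hEw, ← hEw, e]

end Descent

end Fermat.Agent.PoitouTate
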