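/-
Statements exchanged between the parts of the Poitou-Tate development (S55).

Each statement is recorded as a proposition; the modules proving them must not import this file
for more than these definitions.
-/
import Fermat.Agent.PoitouTate.Defs
import Fermat.Agent.PoitouTate.Cochain

set_option autoImplicit false

open CategoryTheory ExtCitation groupCohomology

noncomputable section

namespace Fermat.Agent.PoitouTate

variable (p : ℕ) [Fact p.Prime]

/-- Classes of level `L` are represented by ideles of level `L` (Hilbert 90). -/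
def LevelRepresentatives (T : Finset Nat.Primes) : Prop :=
  ∀ L, IsLvl T L → ∀ U : Subgroup GQ, L.fixingSubgroup ≤ U → ∀ c ∈ clsLev T U,
    ∃ f : J T, (∀ s ∈ U, s • f = f) ∧ clsMk T f = c

/-- `H¹` vanishes for a cyclic layer of degree `p` over a base containing `μ_p`. -/
def CyclicH1 (T : Finset Nat.Primes) : Prop :=
  ∀ L, IsLvl T L → ∀ U : Subgroup GQ, L.fixingSubgroup ≤ U → ∀ σ : GQ,
    σ ∉ U → σ ^ p ∈ U → (∀ s ∈ U, σ * s * σ⁻¹ ∈ U) →
    (∀ s ∈ U, cycloChar p s = 1) → cycloChar p σ = 1 →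
    ∀ c ∈ clsLev T U, (∑ i ∈ Finset.range p, (σ ^ i) • c) = 0 →
      ∃ d ∈ clsLev T U, σ • d - d = c

/-- The norm index of a cyclic layer of degree `p` over a base containing `μ_p` is `p`. -/
def CyclicNormIndex (T : Finset Nat.Primes) : Prop :=
  ∀ L, IsLvl T L → ∀ U : Subgroup GQ, L.fixingSubgroup ≤ U → ∀ σ : GQ,
    σ ∉ U → σ ^ p ∈ U → (∀ s ∈ U, σ * s * σ⁻¹ ∈ U) →
    (∀ s ∈ U, cycloChar p s = 1) → cycloChar p σ = 1 →
    ((AddSubgroup.map (∑ i ∈ Finset.range p, DistribSMul.toAddMonoidHom (Cls T) (σ ^ i))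
        (clsLev T U)).addSubgroupOf (clsLev T (U ⊔ Subgroup.zpowers σ))).index = p

/-- Cohomology of `p`-subgroups of a layer. -/
def LayerClassModule (T : Finset Nat.Primes) : Prop :=
  ∀ L, (hL : IsLvl T L) → (∀ s ∈ L.fixingSubgroup, cycloChar p s = 1) →
    letI := hL.normal
    ∃ u : (GQ ⧸ L.fixingSubgroup) × (GQ ⧸ L.fixingSubgroup) →
        ↥(fixedPts L.fixingSubgroup (Cls T)),
      IsClassModule p (GQ ⧸ L.fixingSubgroup) ↥(fixedPts L.fixingSubgroup (Cls T)) u

/-- The norm group of an elementary abelian layer contains the multiples of `p`. -/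
def ElementaryNormExponent (T : Finset Nat.Primes) : Prop :=
  ∀ L, IsLvl T L → ∀ U : Subgroup GQ, L.fixingSubgroup ≤ U →
    (∀ s ∈ U, cycloChar p s = 1) → (∀ s ∈ U, s ^ p ∈ L.fixingSubgroup) →
    (∀ s ∈ U, ∀ t ∈ U, s * t * s⁻¹ * t⁻¹ ∈ L.fixingSubgroup) →
    ∀ c ∈ clsLev T U, ∃ d ∈ clsLev T L.fixingSubgroup, relNorm U L.fixingSubgroup d = p • c

/-- The existence theorem: a layer whose norms die in the classes supported at `S`, modulo `p`. -/
def ExistenceTheorem (S : Finset Nat.Primes) : Prop :=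
  ∀ L, IsLvl S L → (∀ s ∈ L.fixingSubgroup, cycloChar p s = 1) →
    ∃ K, L ≤ K ∧ IsLvl S K ∧ ∀ c ∈ clsLev S K.fixingSubgroup,
      ∃ a ∈ clsLev S L.fixingSubgroup, ∃ b ∈ clsFinLev S L.fixingSubgroup,
        relNorm L.fixingSubgroup K.fixingSubgroup c = p • a + b

/-- The description of `Ш²`. -/
def Sha2Description (S : Finset Nat.Primes) : Prop :=
  p ≠ 2 → pPrime p ∈ S →
  ∀ (M : Rep (ZMod p) GQ) [FiniteDimensional (ZMod p) M] (L : IntermediateField ℚ (AlgebraicClosure ℚ)),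
    IsLvl S L → (∀ s ∈ L.fixingSubgroup, cycloChar p s = 1) →
    (∀ s ∈ L.fixingSubgroup, M.ρ s = 1) →
    Nonempty (↥(sha₂ S M) ≃+ Xgrp S L (M.dualTwist (cycloChar p)).ρ)

end Fermat.Agent.PoitouTate
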