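/-
The statements on cyclotomic invariants and local classes used to build fundamental classes (S55).
-/
import Fermat.Agent.PoitouTate.Api

set_option autoImplicit false

open ExtCitation

noncomputable section

namespace Fermat.Agent.PoitouTate

instance locValAction (q : Nat.Primes) : DistribMulAction (LocGal q) (LocVal q) where
  smul τ x := locAct q τ x
  one_smul x := Additive.toMul.injective (Units.ext (by
    change ((Additive.toMul (locAct q 1 x) : (PadicAlgCl (q : ℕ))ˣ) : PadicAlgCl (q : ℕ)) = _
    simp))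
  mul_smul σ τ x := Additive.toMul.injective (Units.ext (by
    change ((Additive.toMul (locAct q (σ * τ) x) : (PadicAlgCl (q : ℕ))ˣ) : PadicAlgCl (q : ℕ)) =
      ((Additive.toMul (locAct q σ (locAct q τ x)) : (PadicAlgCl (q : ℕ))ˣ) : PadicAlgCl (q : ℕ))
    simp [AlgEquiv.mul_apply]))
  smul_zero τ := map_zero (locAct q τ)
  smul_add τ x y := map_add (locAct q τ) x y

theorem locVal_smul_def (q : Nat.Primes) (τ : LocGal q) (x : LocVal q) : τ • x = locAct q τ x := rfl

/-- An invariant of the classes of `ℚ` coming from a cyclic cyclotomic extension of degree `n`: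
`psi` kills norms from the kernel of `theta`, takes the value `1`, and on the norms from any
level reaches all values of `theta` on that level. -/
structure CyclotomicInvariant (T : Finset Nat.Primes) (n : ℕ) where
  /-- The character. -/
  theta : GQ →* Multiplicative (ZMod n)
  theta_surjective : Function.Surjective theta
  /-- A level trivialising the character. -/
  level : IntermediateField ℚ (AlgebraicClosure ℚ)
  isLvl : IsLvl T level
  fixing_le : level.fixingSubgroup ≤ theta.ker
  /-- The invariant. -/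
  psi : ↥(clsLev T (⊤ : Subgroup GQ)) →+ ZMod n
  psi_surjective : Function.Surjective psi
  psi_norm : ∀ c ∈ clsLev T theta.ker, ∀ x : clsLev T (⊤ : Subgroup GQ),
    (x : Cls T) = relNorm ⊤ theta.ker c → psi x = 0
  psi_level : ∀ L, IsLvl T L → ∀ σ ∈ L.fixingSubgroup,
    ∃ c ∈ clsLev T L.fixingSubgroup, ∃ x : clsLev T (⊤ : Subgroup GQ),
      (x : Cls T) = relNorm ⊤ L.fixingSubgroup c ∧
      Multiplicative.toAdd (theta σ) ∈ AddSubgroup.zmultiples (psi x)

/-- The idele of a local value at the place of the identity coset. -/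
def atPlaceFun {q : Nat.Primes} (N : Subgroup GQ) (y : LocVal q) (g : GQ) : LocVal q :=
  letI := Classical.dec (∃ τ : LocGal q, (loc q τ)⁻¹ * g ∈ N)
  if h : ∃ τ : LocGal q, (loc q τ)⁻¹ * g ∈ N then locAct q h.choose y else 0

/-- A class coming from a single place. -/
def IsAtPlace (T : Finset Nat.Primes) (q : ↥T) (N : Subgroup GQ) (y : LocVal q.1) (c : Cls T) :
    Prop :=
  ∃ f : J T, clsMk T f = c ∧ (∀ g, (f : Amb T).fin q g = atPlaceFun N y g) ∧
    (∀ q' g, q' ≠ q → (f : Amb T).fin q' g = 0) ∧ ∀ q' g, (f : Amb T).ord q' g = 0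

/-- A local class whose image has the full `p`-order (statement (E)). -/
def LocalClass (p : ℕ) (T : Finset Nat.Primes) : Prop :=
  ∀ L, (hL : IsLvl T L) → ∀ q : ↥T,
    letI N : Subgroup GQ := L.fixingSubgroup
    letI Nv : Subgroup (LocGal q.1) := N.comap (loc q.1)
    haveI : Nv.Normal := Subgroup.Normal.comap hL.normal (loc q.1)
    ∃ w : (LocGal q.1 ⧸ Nv) × (LocGal q.1 ⧸ Nv) → ↥(fixedPts Nv (LocVal q.1)),
      groupCohomology.IsCocycle₂ w ∧
      ∀ (k : ℤ) (c : (LocGal q.1 ⧸ Nv) × (LocGal q.1 ⧸ Nv) → Cls T)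
        (x : LocGal q.1 ⧸ Nv → Cls T),
        (∀ a, IsAtPlace T q N (w a : LocVal q.1) (c a)) →
        (∀ a, x a ∈ clsLev T N) →
        (∀ σ τ : LocGal q.1, k • c (QuotientGroup.mk σ, QuotientGroup.mk τ) =
          loc q.1 σ • x (QuotientGroup.mk τ) - x (QuotientGroup.mk (σ * τ)) +
            x (QuotientGroup.mk σ)) →
        ((p ^ (Nat.card (LocGal q.1 ⧸ Nv)).factorization p : ℕ) : ℤ) ∣ k

end Fermat.Agent.PoitouTate
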