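/-
Fundamental classes of finite layers, from the statements on cyclic layers and a cyclotomic
invariant (S55).
-/
import Fermat.Agent.PoitouTate.ClassApi
import Fermat.Agent.PoitouTate.ClassLevels
import Fermat.Agent.PoitouTate.AlgebraCores

set_option autoImplicit false

open ExtCitation groupCohomology

noncomputable section

namespace Fermat.Agent.PoitouTate

variable {p : ℕ} [Fact p.Prime] {T : Finset Nat.Primes}

theorem cycloChar_eq_one_of_isPGroup {N : Subgroup GQ} [N.Normal]
    (hN : ∀ s ∈ N, cycloChar p s = 1) {H : Subgroup (GQ ⧸ N)} (hH : IsPGroup p H) {g : GQ}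
    (hg : QuotientGroup.mk g ∈ H) : cycloChar p g = 1 := by
  obtain ⟨k, hk⟩ := hH ⟨_, hg⟩
  have h1 : g ^ p ^ k ∈ N := by
    rw [← QuotientGroup.eq_one_iff]
    simpa using congrArg Subtype.val hk
  have h2 : orderOf (cycloChar p g) ∣ p ^ k :=
    orderOf_dvd_of_pow_eq_one (by rw [← map_pow, hN _ h1])
  have h3 : orderOf (cycloChar p g) ∣ p - 1 :=
    orderOf_dvd_of_pow_eq_one (ZMod.units_pow_card_sub_one_eq_one p _)
  have hp := (Fact.out : p.Prime)
  have h2p := hp.two_le
  have hc : Nat.Coprime (p ^ k) (p - 1) := Nat.Coprime.pow_left _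
    (hp.coprime_iff_not_dvd.2 (Nat.not_dvd_of_pos_of_lt (by omega) (by omega)))
  exact orderOf_eq_one_iff.1 (Nat.eq_one_of_dvd_coprimes hc h2 h3)

/-- The cyclic layers of a level containing the `p`-th roots of unity. -/
theorem cyclicLayers_of_level (h1 : CyclicH1 p T) (hidx : CyclicNormIndex p T)
    {L : IntermediateField ℚ (AlgebraicClosure ℚ)} (hL : IsLvl T L) [L.fixingSubgroup.Normal]
    (hcyc : ∀ s ∈ L.fixingSubgroup, cycloChar p s = 1) :
    CyclicLayers p (GQ ⧸ L.fixingSubgroup) ↥(fixedPts L.fixingSubgroup (Cls T)) := by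
  refine cyclicLayersIdx_quot _ p p (fun U σ hU hp hσ hσp hnorm c hc hsum => ?_)
    fun U σ hU hp hσ hσp hnorm => ?_
  · exact h1 L hL U hU σ hσ hσp hnorm
      (fun s hs => cycloChar_eq_one_of_isPGroup hcyc hp
        (Subgroup.mem_map_of_mem _ (Subgroup.mem_sup_left hs)))
      (cycloChar_eq_one_of_isPGroup hcyc hp
        (Subgroup.mem_map_of_mem _ (Subgroup.mem_sup_right (Subgroup.mem_zpowers σ)))) c hc hsum
  · exact hidx L hL U hU σ hσ hσp hnorm
      (fun s hs => cycloChar_eq_one_of_isPGroup hcyc hp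
        (Subgroup.mem_map_of_mem _ (Subgroup.mem_sup_left hs)))
      (cycloChar_eq_one_of_isPGroup hcyc hp
        (Subgroup.mem_map_of_mem _ (Subgroup.mem_sup_right (Subgroup.mem_zpowers σ))))

section General

variable {G : Type} [Group G] {C : Type} [AddCommGroup C] [DistribMulAction G C]

/-- A crossed homomorphism principal on a subgroup of finite index, after multiplication by the
index. -/
theorem exists_primitive_index (P : Subgroup G) [Finite (G ⧸ P)] {c : G → C}
    (hc : ∀ g h, c (g * h) = g • c h + c g) {x : C} (hx : ∀ g ∈ P, g • x - x = c g) :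
    ∃ y : C, ∀ g, g • y - y = P.index • c g := by
  have := Fintype.ofFinite (G ⧸ P)
  have hinv : ∀ g h, g⁻¹ * h ∈ P → c g - g • x = c h - h • x := fun g h hgh => by
    have e := hc g (g⁻¹ * h)
    rw [← hx _ hgh, mul_inv_cancel_left, smul_sub, ← mul_smul, mul_inv_cancel_left] at e
    rw [e]
    abel
  have hout : ∀ g, c (QuotientGroup.mk g : G ⧸ P).out - (QuotientGroup.mk g : G ⧸ P).out • x =
      c g - g • x := fun g =>
    hinv _ _ (QuotientGroup.eq.1 (QuotientGroup.out_eq' (QuotientGroup.mk g : G ⧸ P)))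
  refine ⟨-∑ q : G ⧸ P, (c q.out - q.out • x), fun s => ?_⟩
  have key : (∑ q : G ⧸ P, (c q.out - q.out • x)) =
      P.index • c s + s • ∑ q : G ⧸ P, (c q.out - q.out • x) := by
    conv_lhs => rw [← Fintype.sum_equiv (MulAction.toPerm s)
      (fun q : G ⧸ P => c (s • q).out - (s • q).out • x) _ fun q => rfl]
    rw [Subgroup.index_eq_card, Nat.card_eq_fintype_card, ← Finset.card_univ, ← Finset.sum_const,
      Finset.smul_sum, ← Finset.sum_add_distrib]
    refine Finset.sum_congr rfl fun q _ => ?_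
    have h := hout (s * q.out)
    rw [← MulAction.Quotient.mk_smul_out] at *
    rw [hc, smul_eq_mul] at *
    rw [h, smul_sub, mul_smul]
    abel
  rw [smul_neg]
  linear_combination (norm := abel) key

end General

section Construction

variable {n : ℕ} [NeZero n] (I : CyclotomicInvariant T n) {M : Subgroup GQ} [M.Normal]
  (hM : M ≤ I.theta.ker)

/-- The character of a finite layer. -/
def layerChar : GQ ⧸ M →* Multiplicative (ZMod n) := QuotientGroup.lift M I.theta hM

theorem layerChar_mk (g : GQ) : layerChar I hM (QuotientGroup.mk g) = I.theta g := rfl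

/-- The digits of the character of a finite layer. -/
def layerDigits : Digits (GQ ⧸ M) n where
  e g := (Multiplicative.toAdd (layerChar I hM g)).val
  lt _ := ZMod.val_lt _
  hom g h := by rw [map_mul, toAdd_mul, ZMod.val_add]

theorem layerDigits_eq_zero_iff (g : GQ ⧸ M) :
    (layerDigits I hM).e g = 0 ↔ layerChar I hM g = 1 :=
  (ZMod.val_eq_zero _).trans toAdd_eq_zero

/-- A class of level one in a layer. -/
def liftTop (α : ↥(clsLev T (⊤ : Subgroup GQ))) : ↥(fixedPts M (Cls T)) :=
  ⟨α, fun s _ => α.2 s (Subgroup.mem_top s)⟩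

theorem smul_liftTop (α : ↥(clsLev T (⊤ : Subgroup GQ))) (g : GQ ⧸ M) :
    g • liftTop (M := M) α = liftTop α := by
  induction g using QuotientGroup.induction_on with | H σ => ?_
  exact Subtype.ext (α.2 σ (Subgroup.mem_top σ))

theorem carry_eq_zero {Δ : Type} [Group Δ] {n : ℕ} (d : Digits Δ n) {g h : Δ}
    (h0 : d.e g = 0 ∨ d.e h = 0) : d.carry g h = 0 := by
  have hl := d.lt g
  have hl' := d.lt h
  rcases h0 with e | e <;> simp [Digits.carry, e, Nat.div_eq_of_lt hl, Nat.div_eq_of_lt hl']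

end Construction

theorem digit_scale {n n' r a b : ℕ} (hr : n = n' * r) (hr0 : r ≠ 0) (ha : r ∣ a) (hb : r ∣ b) :
    (a + b) % n / r = (a / r + b / r) % n' ∧ (a / r + b / r) / n' = (a + b) / n := by
  obtain ⟨a, rfl⟩ := ha
  obtain ⟨b, rfl⟩ := hb
  have h := Nat.pos_of_ne_zero hr0
  subst hr
  rw [Nat.mul_div_cancel_left _ h, Nat.mul_div_cancel_left _ h, ← mul_add, mul_comm n' r,
    Nat.mul_mod_mul_left, Nat.mul_div_cancel_left _ h, Nat.mul_div_mul_left _ _ h]
  exact ⟨rfl, rfl⟩

variable (h1 : CyclicH1 p T) (hidx : CyclicNormIndex p T)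
include h1 hidx

/-- The order of the carry class of the invariant. -/
theorem dvd_of_isCoboundary₂_carry {a : ℕ} {K : IntermediateField ℚ (AlgebraicClosure ℚ)}
    (hK : IsLvl T K) [K.fixingSubgroup.Normal] (hcyc : ∀ s ∈ K.fixingSubgroup, cycloChar p s = 1)
    (I : CyclotomicInvariant T (p ^ a)) (hM : K.fixingSubgroup ≤ I.theta.ker)
    {α : ↥(clsLev T (⊤ : Subgroup GQ))} (hα : I.psi α = 1) {k : ℤ}
    (hcob : IsCoboundary₂ fun x =>
      k • (layerDigits I hM).cocycle (liftTop (M := K.fixingSubgroup) α) x) :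
    ((p ^ a : ℕ) : ℤ) ∣ k := by
  rcases eq_or_ne (p ^ a) 1 with h | hn1
  · rw [h]; exact ⟨k, by simp⟩
  have hn : p ^ a ≠ 0 := pow_ne_zero a (Fact.out : p.Prime).ne_zero
  have := hK.finite_gal
  have hcl := cyclicLayers_of_level h1 hidx hK hcyc
  set d := layerDigits I hM
  set A := liftTop (M := K.fixingSubgroup) α
  set θ := layerChar I hM
  obtain ⟨x, hx⟩ := hcob
  have hker : ∀ g : θ.ker, d.e (g : GQ ⧸ K.fixingSubgroup) = 0 := fun g =>
    (layerDigits_eq_zero_iff I hM _).2 g.2
  have hc : ∀ g h : θ.ker, x ((g * h : θ.ker) : GQ ⧸ K.fixingSubgroup) = g • x h + x g := by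
    intro g h
    have e := hx g h
    simp only [Digits.cocycle, carry_eq_zero d (Or.inl (hker g)), zero_smul, smul_zero] at e
    rw [Subgroup.coe_mul, Subgroup.smul_def]
    linear_combination (norm := abel) -e
  let P : Sylow p θ.ker := default
  obtain ⟨x0, hx0⟩ := hcl.h1_all ((P : Subgroup θ.ker).map θ.ker.subtype) (P.2.map _)
    (fun g => x g) fun g h => by
      obtain ⟨-, g', -, rfl⟩ := g
      obtain ⟨-, h', -, rfl⟩ := h
      exact hc g' h'
  obtain ⟨y, hy⟩ := exists_primitive_index (P : Subgroup θ.ker) (c := fun g : θ.ker => x g) hc (x := x0)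
    fun g hg => hx0 ⟨_, Subgroup.mem_map_of_mem _ hg⟩
  set m := (P : Subgroup θ.ker).index with hm_def
  let x' : GQ ⧸ K.fixingSubgroup → ↥(fixedPts K.fixingSubgroup (Cls T)) :=
    fun g => m • x g - (g • y - y)
  have hx' : ∀ g h, g • x' h - x' (g * h) + x' g = ((m : ℤ) * k * d.carry g h) • A := by
    intro g h
    rw [mul_assoc, mul_smul, natCast_zsmul, mul_smul]
    change g • (m • x h - (h • y - y)) - (m • x (g * h) - ((g * h) • y - y)) +
      (m • x g - (g • y - y)) = m • k • d.cocycle A (g, h)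
    have e : g • x h - x (g * h) + x g = k • d.cocycle A (g, h) := hx g h
    have hns : ∀ z, g • (m • z) = m • g • z := fun z =>
      map_nsmul (DistribSMul.toAddMonoidHom ↥(fixedPts K.fixingSubgroup (Cls T)) g) m z
    rw [← e, mul_smul, smul_sub, smul_sub, hns, smul_add, smul_sub m]
    abel
  have hx'0 : ∀ g : θ.ker, x' g = 0 := fun g => by
    change m • x g - ((g : GQ ⧸ K.fixingSubgroup) • y - y) = 0
    rw [← Subgroup.smul_def, hy, sub_self]
  have hright : ∀ g (h : θ.ker), x' (g * h) = x' g := fun g h => by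
    have e := hx' g h
    rw [hx'0, smul_zero, carry_eq_zero d (Or.inr (hker h)), mul_zero, zero_smul] at e
    linear_combination (norm := abel) -e
  have hleft : ∀ (h : θ.ker) g, (h : GQ ⧸ K.fixingSubgroup) • x' g = x' g := fun h g => by
    have e := hx' h g
    rw [hx'0, carry_eq_zero d (Or.inl (hker h)), mul_zero, zero_smul] at e
    have hconj : g⁻¹ * h * g ∈ θ.ker := by
      simpa using θ.normal_ker.conj_mem _ h.2 g⁻¹
    have e' := hright g ⟨_, hconj⟩
    rw [show g * (g⁻¹ * h * g) = h * g by group] at e'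
    rw [e'] at e
    linear_combination (norm := abel) e
  obtain ⟨σ₀, hσ₀⟩ := I.theta_surjective (Multiplicative.ofAdd 1)
  set σ : GQ ⧸ K.fixingSubgroup := QuotientGroup.mk σ₀
  have hσ : d.e σ = 1 % p ^ a := by
    change (Multiplicative.toAdd (I.theta σ₀)).val = _
    rw [hσ₀, toAdd_ofAdd, ZMod.val_one_eq_one_mod]
  have hend : x' (σ ^ p ^ a) = 0 := by
    refine hx'0 ⟨_, (layerDigits_eq_zero_iff I hM _).1 ?_⟩
    rw [d.e_pow hσ, Nat.mod_self]
  have hsum : ((m : ℤ) * k) • A = ∑ i ∈ Finset.range (p ^ a), σ ^ i • x' σ := by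
    have e : ∀ i ∈ Finset.range (p ^ a), ((m : ℤ) * k * d.carry (σ ^ i) σ) • A =
        σ ^ i • x' σ - (x' (σ ^ (i + 1)) - x' (σ ^ i)) := fun i _ => by
      rw [← hx', ← pow_succ]; abel
    have e' := Finset.sum_congr rfl e
    rw [← Finset.sum_smul, ← Finset.mul_sum, d.sum_carry hn hn1 hσ, mul_one,
      Finset.sum_sub_distrib, Finset.sum_range_sub (fun i => x' (σ ^ i)), hend, pow_zero,
      hx'0 ⟨1, one_mem _⟩, sub_zero, sub_zero] at e'
    exact e'
  have hlev : ((x' σ : fixedPts K.fixingSubgroup (Cls T)) : Cls T) ∈ clsLev T I.theta.ker :=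
    fun s hs => congrArg Subtype.val (hleft ⟨QuotientGroup.mk s, hs⟩ σ)
  have hnorm : (((m : ℤ) * k) • α : clsLev T (⊤ : Subgroup GQ)) =
      relNorm (A := Cls T) ⊤ I.theta.ker ((x' σ : fixedPts K.fixingSubgroup (Cls T)) : Cls T) := by
    rw [relNorm_cyclic (Subgroup.mem_top σ₀) (fun g => (Multiplicative.toAdd (I.theta g)).val)
      (fun g _ => ZMod.val_lt _) (fun g _ i hi => ?_) hlev, ← coe_sum_pow_smul, ← hsum]
    · rfl
    · rw [MonoidHom.mem_ker, map_mul, map_inv, map_pow, hσ₀, inv_mul_eq_one,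
        ← ofAdd_nsmul, ← Equiv.eq_symm_apply, nsmul_one]
      refine ⟨fun h => ?_, fun h => ?_⟩
      · change i = (Multiplicative.toAdd (I.theta g)).val
        rw [show Multiplicative.toAdd (I.theta g) = (i : ZMod (p ^ a)) from h.symm,
          ZMod.val_natCast_of_lt hi]
      · subst h
        exact ZMod.natCast_zmod_val _
  have hz := I.psi_norm _ hlev _ hnorm
  rw [map_zsmul, hα, zsmul_one, ZMod.intCast_zmod_eq_zero_iff_dvd] at hz
  refine Int.dvd_of_dvd_mul_right_of_gcd_one hz ?_
  rw [Int.gcd_natCast_natCast]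
  exact Nat.Coprime.pow_left _ ((Fact.out : p.Prime).coprime_iff_not_dvd.2 P.not_dvd_index)

/-- The carry class dies on the kernel of the projection to a layer of degree divisible by the
degree of the invariant. -/
theorem isCoboundary₂_carry_res {a : ℕ} {L K : IntermediateField ℚ (AlgebraicClosure ℚ)}
    (hL : IsLvl T L) (hK : IsLvl T K) [L.fixingSubgroup.Normal] [K.fixingSubgroup.Normal]
    (hcyc : ∀ s ∈ K.fixingSubgroup, cycloChar p s = 1)
    (I : CyclotomicInvariant T (p ^ a)) (hM : K.fixingSubgroup ≤ I.theta.ker)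
    (hKL : K.fixingSubgroup ≤ L.fixingSubgroup)
    (hLK : ∀ s ∈ L.fixingSubgroup, I.theta s = 1 → s ∈ K.fixingSubgroup)
    (hdiv : p ^ a ∣ L.fixingSubgroup.index)
    {α : ↥(clsLev T (⊤ : Subgroup GQ))} (hα : I.psi α = 1) :
    IsCoboundary₂ fun x : ↥(L.fixingSubgroup.map (QuotientGroup.mk' K.fixingSubgroup)) ×
        ↥(L.fixingSubgroup.map (QuotientGroup.mk' K.fixingSubgroup)) =>
      (layerDigits I hM).cocycle (liftTop (M := K.fixingSubgroup) α)
        ((x.1 : GQ ⧸ K.fixingSubgroup), (x.2 : GQ ⧸ K.fixingSubgroup)) := by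
  classical
  have hp := (Fact.out : p.Prime)
  have := hK.finite_gal
  have := hL.finite_gal
  set N' := L.fixingSubgroup.map (QuotientGroup.mk' K.fixingSubgroup) with hN'def
  have hcom : N'.comap (QuotientGroup.mk' K.fixingSubgroup) = L.fixingSubgroup :=
    Subgroup.comap_map_eq_self (by rwa [QuotientGroup.ker_mk'])
  set d := layerDigits I hM
  set θ := layerChar I hM
  have hinj : Function.Injective (θ.comp N'.subtype) := by
    refine (injective_iff_map_eq_one _).2 ?_
    rintro ⟨-, s, hs, rfl⟩ h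
    exact Subtype.ext ((QuotientGroup.eq_one_iff _).2 (hLK s hs h))
  have hn0 : (p ^ a) ≠ 0 := pow_ne_zero a hp.ne_zero
  set n' := Nat.card N'
  have hn'0 : n' ≠ 0 := Nat.card_pos.ne'
  obtain ⟨r, hr⟩ : n' ∣ (p ^ a) := by
    simpa using Subgroup.card_dvd_of_injective _ hinj
  have hr0 : r ≠ 0 := fun h => hn0 (by rw [show n' * r = 0 by rw [h, mul_zero]] at hr; exact hr)
  have hdvd : ∀ g : N', r ∣ d.e g := fun g => by
    have h := congrArg (fun t => Multiplicative.toAdd (θ.comp N'.subtype t))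
      (pow_card_eq_one' (x := g) : g ^ n' = 1)
    simp only [map_pow, map_one, toAdd_pow, toAdd_one, MonoidHom.comp_apply,
      Subgroup.coe_subtype] at h
    have h' : (p ^ a) ∣ n' * d.e g := by
      rw [← ZMod.natCast_eq_zero_iff, Nat.cast_mul,
        show ((d.e g : ℕ) : ZMod (p ^ a)) = Multiplicative.toAdd (θ g) from ZMod.natCast_zmod_val _,
        ← nsmul_eq_mul, h]
    exact Nat.dvd_of_mul_dvd_mul_left (Nat.pos_of_ne_zero hn'0) ((dvd_of_eq hr.symm).trans h')
  have he : ∀ g : N', d.e g = r * (d.e g / r) := fun g => (Nat.mul_div_cancel' (hdvd g)).symm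
  have hlt : ∀ g : N', d.e g / r < n' := fun g => by
    rw [Nat.div_lt_iff_lt_mul (Nat.pos_of_ne_zero hr0)]
    exact (d.lt _).trans_le hr.le
  let d' : Digits N' n' :=
    { e := fun g => d.e g / r
      lt := hlt
      hom := fun g h => by
        rw [Subgroup.coe_mul, d.hom]
        exact (digit_scale hr hr0 (hdvd g) (hdvd h)).1 }
  have hcarry : ∀ g h : N', d'.carry g h = d.carry g h := fun g h => by
    simp only [Digits.carry, d']
    rw [(digit_scale hr hr0 (hdvd g) (hdvd h)).2]
  have hd'inj : Function.Injective d'.e := fun g h hgh => by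
    have : d.e g = d.e h := by rw [he g, he h]; exact congrArg (r * ·) hgh
    exact hinj (Multiplicative.toAdd.injective (ZMod.val_injective (p ^ a) this))
  obtain ⟨τ, hτ⟩ : ∃ τ : N', d'.e τ = 1 % n' := by
    have := Fintype.ofFinite N'
    let f : N' → Fin n' := fun g => ⟨d'.e g, d'.lt g⟩
    have hf : Function.Bijective f := (Fintype.bijective_iff_injective_and_card f).2
      ⟨fun g h e => hd'inj (congrArg Fin.val e), by simp [n']⟩
    obtain ⟨τ, hτ⟩ := hf.2 ⟨1 % n', Nat.mod_lt _ (Nat.pos_of_ne_zero hn'0)⟩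
    exact ⟨τ, congrArg Fin.val hτ⟩
  have hgen : ∀ g : N', g = τ ^ d'.e g := fun g =>
    hd'inj (by rw [d'.e_pow hτ, Nat.mod_eq_of_lt (d'.lt g)])
  have hτn : τ ^ n' = 1 := pow_card_eq_one'
  -- the classes of level `L`
  have hfix : ∀ (β : fixedPts N' ↥(fixedPts K.fixingSubgroup (Cls T))) (g : N'),
      g • (β : ↥(fixedPts K.fixingSubgroup (Cls T))) = β := fun β g => β.2 g g.2
  let Φ : ↥(fixedPts N' ↥(fixedPts K.fixingSubgroup (Cls T))) →+
      H2C N' ↥(fixedPts K.fixingSubgroup (Cls T)) :=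
    (QuotientAddGroup.mk' _).comp (AddMonoidHom.mk'
      (fun β => (⟨d'.cocycle (β : ↥(fixedPts K.fixingSubgroup (Cls T))),
        d'.cocycle_isCocycle hn'0 (hfix β)⟩ : Z2 N' ↥(fixedPts K.fixingSubgroup (Cls T))))
      fun β γ => Subtype.ext (funext fun x => smul_add (d'.carry x.1 x.2) _ _))
  have hlev : ∀ β : fixedPts N' ↥(fixedPts K.fixingSubgroup (Cls T)),
      ((β : ↥(fixedPts K.fixingSubgroup (Cls T))) : Cls T) ∈ clsLev T L.fixingSubgroup :=
    fun β s hs => congrArg Subtype.val (β.2 _ (Subgroup.mem_map_of_mem _ hs))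
  have := finite_relQuotient (W := L.fixingSubgroup) ⊤
  have := Fintype.ofFinite (↥(⊤ : Subgroup GQ) ⧸ L.fixingSubgroup.subgroupOf ⊤)
  let Ψ : ↥(fixedPts N' ↥(fixedPts K.fixingSubgroup (Cls T))) →+ ZMod (p ^ a) :=
    I.psi.comp (AddMonoidHom.mk'
      (fun β => (⟨relNorm ⊤ L.fixingSubgroup _, relNorm_mem (hlev β)⟩ : clsLev T ⊤))
      fun β γ => Subtype.ext (by
        change relNorm ⊤ L.fixingSubgroup (_ + _) = relNorm (A := Cls T) ⊤ L.fixingSubgroup _ +
          relNorm ⊤ L.fixingSubgroup _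
        rw [relNorm_eq_sum (isTransversal_out _ _) (add_mem (hlev β) (hlev γ)),
          relNorm_eq_sum (isTransversal_out _ _) (hlev β),
          relNorm_eq_sum (isTransversal_out _ _) (hlev γ)]
        simp [Finset.sum_add_distrib]))
  have hle : Φ.ker ≤ Ψ.ker := fun β hβ => by
    rw [AddMonoidHom.mem_ker] at hβ ⊢
    have hcob : IsCoboundary₂ (d'.cocycle (β : ↥(fixedPts K.fixingSubgroup (Cls T)))) :=
      (QuotientAddGroup.eq_zero_iff _).1 hβ
    obtain ⟨b, hb⟩ := d'.norm_of_coboundary hn'0 hτ hτn hcob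
    have := Fintype.ofFinite N'
    have hb' : ((β : ↥(fixedPts K.fixingSubgroup (Cls T))) : Cls T) =
        relNorm L.fixingSubgroup K.fixingSubgroup (b : Cls T) := by
      have e := relNorm_quot K.fixingSubgroup N' b
      rw [hcom] at e
      rw [e, hb]
      congr 1
      symm
      refine Finset.sum_bij' (fun g _ => d'.e g) (fun i _ => τ ^ i)
        (fun g _ => Finset.mem_range.2 (d'.lt g)) (fun _ _ => Finset.mem_univ _)
        (fun g _ => (hgen g).symm)
        (fun i hi => by rw [d'.e_pow hτ, Nat.mod_eq_of_lt (Finset.mem_range.1 hi)])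
        fun g _ => ?_
      rw [← hgen g]
      rfl
    have := finite_relQuotient (W := K.fixingSubgroup) L.fixingSubgroup
    have := finite_relQuotient (W := K.fixingSubgroup) I.theta.ker
    have : Finite (GQ ⧸ I.theta.ker) := by
      have := I.isLvl.finite_gal
      exact Finite.of_surjective (Subgroup.quotientMapOfLE I.fixing_le) fun c => by
        induction c using QuotientGroup.induction_on with | H g => ?_
        exact ⟨QuotientGroup.mk g, rfl⟩
    have := finite_relQuotient (W := I.theta.ker) ⊤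
    refine I.psi_norm (relNorm I.theta.ker K.fixingSubgroup (b : Cls T)) (relNorm_mem b.2) _ ?_
    change relNorm ⊤ L.fixingSubgroup _ = _
    rw [hb', ← relNorm_trans le_top hKL b.2, ← relNorm_trans le_top hM b.2]
  obtain ⟨hfin, hcardH, -⟩ := (cyclicLayers_of_level h1 hidx hK hcyc).finite_h2 hp.ne_zero le_rfl
    N' ((IsPGroup.of_card (n := a) (by simp)).of_injective _ hinj)
  have hΦr : Nat.card Φ.range ≤ n' :=
    (Nat.card_le_card_of_injective _ Subtype.val_injective).trans hcardH
  have hΨr : n' ≤ Nat.card Ψ.range := by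
    refine Nat.card_le_card_of_injective (fun g : N' =>
      (⟨Multiplicative.toAdd (θ g), ?_⟩ : Ψ.range)) fun g h e =>
        hinj (Multiplicative.toAdd.injective (congrArg Subtype.val e))
    obtain ⟨g, s, hs, rfl⟩ := g
    obtain ⟨c, hc, x, hx, hmem⟩ := I.psi_level L hL s hs
    obtain ⟨k, hk⟩ := AddSubgroup.mem_zmultiples_iff.1 hmem
    let cK : ↥(fixedPts K.fixingSubgroup (Cls T)) := ⟨c, fun t ht => hc t (hKL ht)⟩
    let β : ↥(fixedPts N' ↥(fixedPts K.fixingSubgroup (Cls T))) := ⟨cK, by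
      rintro - ⟨t, ht, rfl⟩
      exact Subtype.ext (hc t ht)⟩
    refine ⟨k • β, ?_⟩
    rw [map_zsmul]
    change k • I.psi ⟨relNorm ⊤ L.fixingSubgroup c, _⟩ = Multiplicative.toAdd (I.theta s)
    rw [← hk]
    exact congrArg (fun t => k • I.psi t) (Subtype.ext hx.symm)
  have heq : Ψ.ker ≤ Φ.ker := by
    rw [← AddSubgroup.relIndex_eq_one]
    have h := AddSubgroup.relIndex_mul_index hle
    rw [AddSubgroup.index_ker, AddSubgroup.index_ker] at h
    have hpos : 0 < Nat.card Φ.range := Nat.card_pos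
    have h2 : Φ.ker.relIndex Ψ.ker ≠ 0 := fun h0 => by rw [h0, zero_mul] at h; omega
    by_contra hne
    have : 2 * Nat.card Ψ.range ≤ Nat.card Φ.range := h ▸ Nat.mul_le_mul_right _ (by omega)
    omega
  let αN : ↥(fixedPts N' ↥(fixedPts K.fixingSubgroup (Cls T))) :=
    ⟨liftTop α, fun g _ => smul_liftTop α g⟩
  have hαN : αN ∈ Φ.ker := heq (by
    rw [AddMonoidHom.mem_ker]
    change I.psi ⟨relNorm ⊤ L.fixingSubgroup (α : Cls T), _⟩ = 0
    obtain ⟨c, hc⟩ := hdiv
    have hαL : (α : Cls T) ∈ fixedPts L.fixingSubgroup (Cls T) := fun s _ => α.2 s (Subgroup.mem_top s)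
    have e : (⟨relNorm ⊤ L.fixingSubgroup (α : Cls T), relNorm_mem hαL⟩ : clsLev T ⊤) =
        L.fixingSubgroup.index • α := Subtype.ext (by
      change relNorm ⊤ L.fixingSubgroup (α : Cls T) = _
      rw [relNorm_eq_sum (isTransversal_out _ _) hαL,
        Finset.sum_congr rfl fun i _ => α.2 _ (Subgroup.mem_top _), Finset.sum_const,
        Finset.card_univ, ← Nat.card_eq_fintype_card, ← Subgroup.index_eq_card]
      change L.fixingSubgroup.relIndex ⊤ • (α : Cls T) = _
      rw [Subgroup.relIndex_top_right]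
      rfl)
    refine (congrArg I.psi e).trans ?_
    rw [map_nsmul, hα, nsmul_one, hc]
    simp)
  have hcob : IsCoboundary₂ (d'.cocycle (liftTop (M := K.fixingSubgroup) α)) :=
    (QuotientAddGroup.eq_zero_iff _).1 (AddMonoidHom.mem_ker.1 hαN)
  convert hcob using 1
  funext x
  simp only [Digits.cocycle, hcarry]

/-- Cohomology of the layers: class modules. -/
theorem layerClassModule (hinv : ∀ a : ℕ, Nonempty (CyclotomicInvariant T (p ^ a))) :
    LayerClassModule p T := by
  intro L hL hcyc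
  have hn := hL.normal
  have := hL.finite_gal
  obtain ⟨P⟩ : Nonempty (Sylow p (GQ ⧸ L.fixingSubgroup)) := inferInstance
  obtain ⟨a, ha⟩ := IsPGroup.iff_card.1 P.2
  obtain ⟨I⟩ := hinv a
  obtain ⟨K, hK, hKfix, -⟩ := (hL.sup I.isLvl).exists_of_le
    (U := L.fixingSubgroup ⊓ I.theta.ker) (by
      rw [IntermediateField.fixingSubgroup_sup]
      exact inf_le_inf_left _ I.fixing_le)
  have hKn := hK.normal
  have := hK.finite_gal
  have hKL : K.fixingSubgroup ≤ L.fixingSubgroup := hKfix.trans_le inf_le_left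
  have hM : K.fixingSubgroup ≤ I.theta.ker := hKfix.trans_le inf_le_right
  have hcycK : ∀ s ∈ K.fixingSubgroup, cycloChar p s = 1 := fun s hs => hcyc s (hKL hs)
  obtain ⟨α, hα⟩ := I.psi_surjective 1
  have hdiv : p ^ a ∣ L.fixingSubgroup.index := by
    rw [← ha, Subgroup.index_eq_card]
    exact Subgroup.card_subgroup_dvd_card _
  have hres := isCoboundary₂_carry_res h1 hidx hL hK hcycK I hM hKL
    (fun s hs h => hKfix.symm.le ⟨hs, h⟩) hdiv hα
  set N' := L.fixingSubgroup.map (QuotientGroup.mk' K.fixingSubgroup)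
  have : N'.Normal := hn.map _ (QuotientGroup.mk'_surjective _)
  have hcl := cyclicLayers_of_level h1 hidx hK hcycK
  have hN'p : IsPGroup p N' := by
    refine (IsPGroup.of_card (n := a) (G := Multiplicative (ZMod (p ^ a))) (by simp)).of_injective
      ((layerChar I hM).comp N'.subtype) ((injective_iff_map_eq_one _).2 ?_)
    rintro ⟨-, s, hs, rfl⟩ h
    exact Subtype.ext ((QuotientGroup.eq_one_iff _).2 (hKfix.symm.le ⟨hs, h⟩))
  obtain ⟨w, hw, hzw, hwfix, hwinv⟩ := exists_descent N' (fun c hc => hcl.h1_all N' hN'p c hc)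
    ((layerDigits I hM).cocycle_isCocycle (pow_ne_zero a (Fact.out : p.Prime).ne_zero)
      (smul_liftTop α)) hres
  have hwlev : ∀ x, ((w x : fixedPts K.fixingSubgroup (Cls T)) : Cls T) ∈
      fixedPts L.fixingSubgroup (Cls T) := fun x s hs =>
    congrArg Subtype.val (hwfix x _ (Subgroup.mem_map_of_mem _ hs))
  let u : (GQ ⧸ L.fixingSubgroup) × (GQ ⧸ L.fixingSubgroup) →
      ↥(fixedPts L.fixingSubgroup (Cls T)) := fun x =>
    ⟨(w (QuotientGroup.mk x.1.out, QuotientGroup.mk x.2.out) : fixedPts K.fixingSubgroup (Cls T)),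
      hwlev _⟩
  have hu : ∀ g h : GQ, ((u (QuotientGroup.mk g, QuotientGroup.mk h) :
      fixedPts L.fixingSubgroup (Cls T)) : Cls T) =
      (w (QuotientGroup.mk g, QuotientGroup.mk h) : fixedPts K.fixingSubgroup (Cls T)) := by
    intro g h
    obtain ⟨k, hk, hk'⟩ : ∃ k ∈ L.fixingSubgroup,
        (QuotientGroup.mk g : GQ ⧸ L.fixingSubgroup).out = g * k :=
      ⟨_, QuotientGroup.eq.1 (QuotientGroup.out_eq' _).symm, (mul_inv_cancel_left g _).symm⟩
    obtain ⟨j, hj, hj'⟩ : ∃ j ∈ L.fixingSubgroup,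
        (QuotientGroup.mk h : GQ ⧸ L.fixingSubgroup).out = h * j :=
      ⟨_, QuotientGroup.eq.1 (QuotientGroup.out_eq' _).symm, (mul_inv_cancel_left h _).symm⟩
    change ((w (_, _) : fixedPts K.fixingSubgroup (Cls T)) : Cls T) = _
    rw [hk', hj', QuotientGroup.mk_mul, QuotientGroup.mk_mul,
      hwinv (QuotientGroup.mk g) (QuotientGroup.mk h) (QuotientGroup.mk k) (QuotientGroup.mk j)
        (Subgroup.mem_map_of_mem _ hk) (Subgroup.mem_map_of_mem _ hj)]
  have huc : IsCocycle₂ u := by
    intro g h j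
    induction g using QuotientGroup.induction_on with | H g => ?_
    induction h using QuotientGroup.induction_on with | H h => ?_
    induction j using QuotientGroup.induction_on with | H j => ?_
    refine Subtype.ext ?_
    rw [← QuotientGroup.mk_mul, ← QuotientGroup.mk_mul]
    simp only [AddSubgroup.coe_add, coe_quot_smul, hu]
    exact congrArg Subtype.val (hw (QuotientGroup.mk g) (QuotientGroup.mk h) (QuotientGroup.mk j))
  refine ⟨u, (cyclicLayers_of_level h1 hidx hL hcyc).isClassModule (u := ⟨u, huc⟩) P fun k hk => ?_⟩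
  rw [ha]
  refine dvd_of_isCoboundary₂_carry h1 hidx hK hcycK I hM hα ?_
  obtain ⟨x, hx⟩ := hk
  obtain ⟨y, hy⟩ := hzw
  let π : GQ ⧸ K.fixingSubgroup → GQ ⧸ L.fixingSubgroup := fun g => QuotientGroup.mk g.out
  let xK : GQ ⧸ K.fixingSubgroup → ↥(fixedPts K.fixingSubgroup (Cls T)) := fun g =>
    ⟨(x (π g) : Cls T), fun s hs => (x (π g)).2 s (hKL hs)⟩
  have hπ : ∀ g : GQ, π (QuotientGroup.mk g) = QuotientGroup.mk g := fun g =>
    QuotientGroup.eq.2 (hKL (QuotientGroup.eq.1 (QuotientGroup.out_eq' _)))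
  refine ⟨xK + k • y, fun g h => ?_⟩
  have e : g • xK h - xK (g * h) + xK g = k • w (g, h) := by
    induction g using QuotientGroup.induction_on with | H g => ?_
    induction h using QuotientGroup.induction_on with | H h => ?_
    refine Subtype.ext ?_
    have e0 := congrArg Subtype.val (hx (QuotientGroup.mk g) (QuotientGroup.mk h))
    rw [← QuotientGroup.mk_mul] at e0 ⊢
    simp only [AddSubgroup.coe_add, AddSubgroup.coe_sub, AddSubgroup.coe_zsmul, coe_quot_smul, hu,
      xK, hπ] at e0 ⊢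
    exact e0
  have e' := congrArg (k • ·) (hy g h)
  simp only [smul_sub, smul_add] at e'
  simp only [Pi.add_apply, Pi.smul_apply, smul_add, smul_intMul]
  linear_combination (norm := abel) e + e'

end Fermat.Agent.PoitouTate
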