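import Fermat.Agent.PoitouTate.Defs
import Fermat.Agent.PoitouTate.GlobalLocalConj
import Fermat.Agent.Galois.Frobenius
import Mathlib.NumberTheory.NumberField.ClassNumber
import Mathlib.RingTheory.DedekindDomain.PID
import Mathlib.RingTheory.DedekindDomain.Dvr
import Mathlib.FieldTheory.Galois.Profinite

/-!
# Divisors of a level have principal multiples

The valuations outside `T` of an idele of level `L` are, up to a positive multiple, those of an
element of `L` (finiteness of the class number).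
-/

set_option autoImplicit false

noncomputable section

open NumberField

namespace Fermat.Agent.PoitouTate

local notation "Qb" => AlgebraicClosure ℚ

variable {T : Finset Nat.Primes}

/-- Integral elements have norm at most one under every embedding. -/
theorem norm_padicEmbedding_le_one (q : ℕ) [Fact q.Prime] {y : Qb} (hy : IsIntegral ℤ y) :
    ‖padicEmbedding q y‖ ≤ 1 := by
  have := (mem_padicPlace_iff q).mp
    (Galois.mem_valuationSubring_of_isIntegral (padicPlace q) hy)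
  exact_mod_cast this

section Place

variable (q : Nat.Primes) (g : GQ) (L : IntermediateField ℚ Qb)

theorem norm_along_le_one (y : 𝓞 L) :
    ‖padicEmbedding (q : ℕ) (g ((y : L) : Qb))‖ ≤ 1 := by
  have h : IsIntegral ℤ ((y : L) : Qb) :=
    (isIntegral_algHom_iff ((L.val.restrictScalars ℤ)) L.val.injective).mpr y.2
  exact norm_padicEmbedding_le_one _
    (h.map (((g : Qb →ₐ[ℚ] Qb)).restrictScalars ℤ))

/-- The prime of `L` given by the embedding along `g`. -/
def placeIdeal : Ideal (𝓞 L) where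
  carrier := {y | ‖padicEmbedding (q : ℕ) (g ((y : L) : Qb))‖ < 1}
  zero_mem' := by simp
  add_mem' {a b} ha hb := by
    simp only [Set.mem_setOf_eq] at ha hb ⊢
    rw [show (((a + b : 𝓞 L) : L) : Qb) = ((a : L) : Qb) + ((b : L) : Qb) by push_cast; rfl,
      map_add, map_add]
    exact (IsUltrametricDist.norm_add_le_max _ _).trans_lt (max_lt ha hb)
  smul_mem' c x hx := by
    simp only [Set.mem_setOf_eq, smul_eq_mul] at hx ⊢
    rw [show (((c * x : 𝓞 L) : L) : Qb) = ((c : L) : Qb) * ((x : L) : Qb) by push_cast; rfl,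
      map_mul, map_mul, norm_mul]
    exact mul_lt_one_of_nonneg_of_lt_one_right (norm_along_le_one q g L c) (norm_nonneg _) hx

theorem mem_placeIdeal {y : 𝓞 L} :
    y ∈ placeIdeal q g L ↔ ‖padicEmbedding (q : ℕ) (g ((y : L) : Qb))‖ < 1 := Iff.rfl

theorem isPrime_placeIdeal : (placeIdeal q g L).IsPrime := by
  refine ⟨fun h => ?_, fun {a b} hab => ?_⟩
  · have := (Ideal.eq_top_iff_one _).mp h
    rw [mem_placeIdeal] at this
    simp at this
  · rw [mem_placeIdeal] at hab ⊢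
    rw [mem_placeIdeal]
    by_contra h
    simp only [not_or, not_lt] at h
    rw [show (((a * b : 𝓞 L) : L) : Qb) = ((a : L) : Qb) * ((b : L) : Qb) by push_cast; rfl,
      map_mul, map_mul, norm_mul] at hab
    nlinarith [h.1, h.2]

theorem natCast_mem_placeIdeal : ((q : ℕ) : 𝓞 L) ∈ placeIdeal q g L := by
  rw [mem_placeIdeal]
  rw [show ((((q : ℕ) : 𝓞 L) : L) : Qb) = ((q : ℕ) : Qb) by simp, map_natCast, map_natCast,
    ← map_natCast (algebraMap ℚ_[(q : ℕ)] (PadicAlgCl (q : ℕ))), norm_algebraMap']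
  exact Padic.norm_p_lt_one

theorem placeIdeal_ne_bot : placeIdeal q g L ≠ ⊥ := by
  intro h
  have := natCast_mem_placeIdeal q g L
  rw [h, Ideal.mem_bot, Nat.cast_eq_zero] at this
  exact q.2.ne_zero this

theorem eq_of_placeIdeal_eq {q' : Nat.Primes} {g' : GQ}
    (h : placeIdeal q g L = placeIdeal q' g' L) : q = q' := by
  by_contra hne
  have h1 := natCast_mem_placeIdeal q g L
  have h2 := natCast_mem_placeIdeal q' g' L
  rw [← h] at h2
  have hbez := Nat.gcd_eq_gcd_ab (q : ℕ) (q' : ℕ)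
  rw [(Nat.coprime_primes q.2 q'.2).mpr fun he => hne (Subtype.ext he)] at hbez
  apply (isPrime_placeIdeal q g L).ne_top
  rw [Ideal.eq_top_iff_one]
  have : (1 : 𝓞 L) = ((q : ℕ) : 𝓞 L) * (Nat.gcdA q q' : 𝓞 L) +
      ((q' : ℕ) : 𝓞 L) * (Nat.gcdB q q' : 𝓞 L) := by exact_mod_cast hbez
  rw [this]
  exact add_mem (Ideal.mul_mem_right _ _ h1) (Ideal.mul_mem_right _ _ h2)

variable [FiniteDimensional ℚ L]

/-- An element of `L` or its inverse has denominator prime to a given prime. -/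
theorem exists_num_den_atPrime (P : Ideal (𝓞 L)) [P.IsPrime] (hP : P ≠ ⊥) (x : L) :
    ∃ a s : 𝓞 L, s ∉ P ∧ (x * (s : L) = a ∨ x * (a : L) = s) := by
  haveI : NumberField L := @NumberField.mk _ _ inferInstance inferInstance
  obtain ⟨a, b, hb, rfl⟩ := IsFractionRing.div_surjective (𝓞 L) x
  have hb0 : (b : L) ≠ 0 := by
    simpa using nonZeroDivisors.ne_zero hb
  haveI : IsDiscreteValuationRing (Localization.AtPrime P) :=
    IsLocalization.AtPrime.isDiscreteValuationRing_of_dedekind_domain (𝓞 L) hP _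
  have hinj : Function.Injective (algebraMap (𝓞 L) (Localization.AtPrime P)) :=
    IsLocalization.injective _ P.primeCompl_le_nonZeroDivisors
  rcases ValuationRing.dvd_total (algebraMap (𝓞 L) (Localization.AtPrime P) b)
      (algebraMap (𝓞 L) (Localization.AtPrime P) a) with ⟨z, hz⟩ | ⟨z, hz⟩
  · obtain ⟨⟨c, s⟩, hs⟩ := IsLocalization.surj P.primeCompl z
    refine ⟨c, s, s.2, Or.inl ?_⟩
    have h1 : a * (s : 𝓞 L) = b * c := by
      apply hinj
      rw [map_mul, map_mul, hz, mul_assoc, hs]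
    have h2 : (a : L) * ((s : 𝓞 L) : L) = (b : L) * (c : L) := by exact_mod_cast congrArg (algebraMap (𝓞 L) L) h1
    rw [div_mul_eq_mul_div, h2, mul_div_cancel_left₀ _ hb0]
  · obtain ⟨⟨c, s⟩, hs⟩ := IsLocalization.surj P.primeCompl z
    refine ⟨c, s, s.2, Or.inr ?_⟩
    have h1 : b * (s : 𝓞 L) = a * c := by
      apply hinj
      rw [map_mul, map_mul, hz, mul_assoc, hs]
    have h2 : (b : L) * ((s : 𝓞 L) : L) = (a : L) * (c : L) := by exact_mod_cast congrArg (algebraMap (𝓞 L) L) h1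
    rw [div_mul_eq_mul_div, ← h2, mul_div_cancel_left₀ _ hb0]

theorem norm_along_le_one_of_placeIdeal_le {g' : GQ}
    (h : placeIdeal q g L = placeIdeal q g' L) {x : Qb} (hx : x ∈ L)
    (h1 : ‖padicEmbedding (q : ℕ) (g x)‖ ≤ 1) : ‖padicEmbedding (q : ℕ) (g' x)‖ ≤ 1 := by
  haveI := isPrime_placeIdeal q g L
  obtain ⟨a, s, hs, he | he⟩ := exists_num_den_atPrime L _ (placeIdeal_ne_bot q g L) ⟨x, hx⟩
  · have hs' : ‖padicEmbedding (q : ℕ) (g' ((s : L) : Qb))‖ = 1 :=
      le_antisymm (norm_along_le_one q g' L s) (not_lt.mp (fun hlt => hs (h ▸ hlt)))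
    have he' : x * ((s : L) : Qb) = ((a : L) : Qb) := congrArg Subtype.val he
    calc ‖padicEmbedding (q : ℕ) (g' x)‖
        = ‖padicEmbedding (q : ℕ) (g' (x * ((s : L) : Qb)))‖ := by
          rw [map_mul, map_mul, norm_mul, hs', mul_one]
      _ ≤ 1 := by rw [he']; exact norm_along_le_one q g' L a
  · have hs1 : ∀ g₀ : GQ, placeIdeal q g₀ L = placeIdeal q g L →
        ‖padicEmbedding (q : ℕ) (g₀ ((s : L) : Qb))‖ = 1 := fun g₀ hg₀ =>
      le_antisymm (norm_along_le_one q g₀ L s) (not_lt.mp (fun hlt => hs (hg₀ ▸ hlt)))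
    have he' : x * ((a : L) : Qb) = ((s : L) : Qb) := congrArg Subtype.val he
    have key : ∀ g₀ : GQ, placeIdeal q g₀ L = placeIdeal q g L →
        ‖padicEmbedding (q : ℕ) (g₀ x)‖ * ‖padicEmbedding (q : ℕ) (g₀ ((a : L) : Qb))‖ = 1 := by
      intro g₀ hg₀
      rw [← norm_mul, ← map_mul, ← map_mul, he', hs1 g₀ hg₀]
    have ha : ¬ ‖padicEmbedding (q : ℕ) (g ((a : L) : Qb))‖ < 1 := fun hlt => by
      have := key g rfl
      nlinarith [mul_nonneg (sub_nonneg.mpr h1)
        (norm_nonneg (padicEmbedding (q : ℕ) (g ((a : L) : Qb))))]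
    have ha' : ‖padicEmbedding (q : ℕ) (g' ((a : L) : Qb))‖ = 1 :=
      le_antisymm (norm_along_le_one q g' L a) (not_lt.mp fun hlt => ha (show a ∈ placeIdeal q g L by
        rw [h]; exact hlt))
    have := key g' h.symm
    rw [ha', mul_one] at this
    exact this.le

/-- Two embeddings with the same prime are locally conjugate. -/
theorem exists_local_of_placeIdeal_eq {g' : GQ} (h : placeIdeal q g L = placeIdeal q g' L) :
    ∃ τ : LocGal q, ∃ s ∈ L.fixingSubgroup, g' = loc q τ * g * s := by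
  refine exists_local_of_norm_eq (q : ℕ) (norm_eq_of_lt_one_iff (q : ℕ) fun x hx => ?_)
  by_cases hx0 : x = 0
  · simp [hx0]
  have hi : ∀ g₀ : GQ, ‖padicEmbedding (q : ℕ) (g₀ x⁻¹)‖ = ‖padicEmbedding (q : ℕ) (g₀ x)‖⁻¹ :=
    fun g₀ => by rw [map_inv₀, map_inv₀, norm_inv]
  have hpos : ∀ g₀ : GQ, 0 < ‖padicEmbedding (q : ℕ) (g₀ x)‖ := fun g₀ => by simpa using hx0
  have h1 := norm_along_le_one_of_placeIdeal_le q g L (g' := g') h (L.inv_mem hx)
  have h2 := norm_along_le_one_of_placeIdeal_le q g' L (g' := g) h.symm (L.inv_mem hx)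
  rw [hi, hi, inv_le_one₀ (hpos _), inv_le_one₀ (hpos _)] at h1 h2
  rw [← not_le, ← not_le]
  exact ⟨fun hn hg => hn (h2 hg), fun hn hg => hn (h1 hg)⟩

end Place

/-- Every principal idele exists at its level. -/
def HasPrincipal (T : Finset Nat.Primes) : Prop :=
  ∀ L, IsLvl T L → ∀ x ∈ L, x ≠ 0 →
    ∃ f : J T, IsPrincipalOf (f : Amb T) x ∧ ∀ s ∈ L.fixingSubgroup, s • f = f

/-- For each place there is an element supported exactly at it. -/
theorem exists_elt_supported_at (L : IntermediateField ℚ Qb) [FiniteDimensional ℚ L]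
    (q : Nat.Primes) (g₀ : GQ) :
    ∃ α ∈ L, α ≠ 0 ∧ ‖padicEmbedding (q : ℕ) (g₀ α)‖ < 1 ∧
      ∀ (q' : Nat.Primes) (g : GQ), ‖padicEmbedding (q' : ℕ) (g α)‖ ≠ 1 →
        ∃ h : q' = q, ∃ τ : LocGal q, ∃ s ∈ L.fixingSubgroup, g = loc q τ * g₀ * s := by
  haveI : NumberField L := @NumberField.mk _ _ inferInstance inferInstance
  classical
  haveI := isPrime_placeIdeal q g₀ L
  set P := placeIdeal q g₀ L with hPdef
  have hP : P ≠ ⊥ := placeIdeal_ne_bot q g₀ L
  set n := Fintype.card (ClassGroup (𝓞 L)) with hn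
  have hn0 : n ≠ 0 := Fintype.card_ne_zero
  have hprin : (P ^ n).IsPrincipal := by
    have hmem : P ∈ nonZeroDivisors (Ideal (𝓞 L)) := mem_nonZeroDivisors_of_ne_zero hP
    have h1 : ClassGroup.mk0 (⟨P, hmem⟩ ^ n : nonZeroDivisors (Ideal (𝓞 L))) = 1 := by
      rw [map_pow, hn, pow_card_eq_one]
    exact (ClassGroup.mk0_eq_one_iff _).mp h1
  obtain ⟨α, hα⟩ := hprin
  have hα' : P ^ n = Ideal.span {α} := hα
  have hαP : α ∈ P :=
    Ideal.pow_le_self hn0 (hα' ▸ Ideal.mem_span_singleton_self α)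
  have hα0 : ((α : L) : Qb) ≠ 0 := by
    have : α ≠ 0 := by
      rintro rfl
      rw [Ideal.span_singleton_eq_bot.mpr rfl] at hα'
      exact hP (pow_eq_zero_iff hn0 |>.mp hα')
    simpa using this
  refine ⟨_, (α : L).2, hα0, hαP, fun q' g hg => ?_⟩
  have hlt : α ∈ placeIdeal q' g L := lt_of_le_of_ne (norm_along_le_one q' g L α) hg
  haveI := isPrime_placeIdeal q' g L
  have hle : P ≤ placeIdeal q' g L := by
    refine (Ideal.IsPrime.pow_le_iff hn0).mp ?_
    rw [hα', Ideal.span_singleton_le_iff_mem]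
    exact hlt
  have heq : P = placeIdeal q' g L :=
    ((inferInstance : P.IsPrime).isMaximal hP).eq_of_le (Ideal.IsPrime.ne_top') hle
  obtain rfl : q = q' := eq_of_placeIdeal_eq q g₀ L heq
  exact ⟨rfl, exists_local_of_placeIdeal_eq q g₀ L heq⟩

theorem IsPrincipalOf.add {f f' : Amb T} {x y : Qb} (hx : IsPrincipalOf f x)
    (hy : IsPrincipalOf f' y) : IsPrincipalOf (f + f') (x * y) := by
  refine ⟨mul_ne_zero hx.ne_zero hy.ne_zero, fun q g => ?_, fun q g => ?_⟩
  · simp [map_mul, hx.fin_eq, hy.fin_eq]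
  · rw [map_mul, map_mul, norm_mul, hx.ord_eq, hy.ord_eq, Amb.ord_add, neg_add,
      zpow_add₀ (by exact_mod_cast q.1.2.ne_zero)]

theorem IsPrincipalOf.zsmul {f : Amb T} {x : Qb} (hx : IsPrincipalOf f x) (m : ℤ) :
    IsPrincipalOf (m • f) (x ^ m) := by
  refine ⟨zpow_ne_zero _ hx.ne_zero, fun q g => ?_, fun q g => ?_⟩
  · rw [map_zpow₀, map_zpow₀, show (m • f).fin q g = m • f.fin q g from rfl, toMul_zsmul,
      Units.val_zpow_eq_zpow_val, hx.fin_eq]
  · rw [map_zpow₀, map_zpow₀, norm_zpow, hx.ord_eq, ← zpow_mul,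
      show (m • f).ord q g = m • f.ord q g from rfl, smul_eq_mul, neg_mul, mul_comm m]

/-- The valuations of an idele of level `L` are, up to a positive multiple, principal. -/
theorem exists_nsmul_ord_eq (hprin : HasPrincipal T) {L : IntermediateField ℚ Qb}
    (hL : IsLvl T L) (f : J T) (hf : ∀ s ∈ L.fixingSubgroup, s • f = f) :
    ∃ n : ℕ, 0 < n ∧ ∃ (x : Qb) (d : J T), x ∈ L ∧ IsPrincipalOf (d : Amb T) x ∧
      (∀ s ∈ L.fixingSubgroup, s • d = d) ∧
      ∀ q g, n • (f : Amb T).ord q g = (d : Amb T).ord q g := by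
  haveI := hL.unramified.1
  haveI : Finite (GQ ⧸ L.fixingSubgroup) :=
    Subgroup.quotient_finite_of_isOpen _ (IntermediateField.fixingSubgroup_isOpen L)
  suffices key : ∀ (k : ℕ) (f : J T), (∀ s ∈ L.fixingSubgroup, s • f = f) →
      {z : {q : Nat.Primes // q ∉ T} × (GQ ⧸ L.fixingSubgroup) |
          (f : Amb T).ord z.1 z.2.out ≠ 0}.ncard ≤ k →
      ∃ n : ℕ, 0 < n ∧ ∃ (x : Qb) (d : J T), x ∈ L ∧ IsPrincipalOf (d : Amb T) x ∧
        (∀ s ∈ L.fixingSubgroup, s • d = d) ∧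
        ∀ q g, n • (f : Amb T).ord q g = (d : Amb T).ord q g from key _ f hf le_rfl
  -- values only depend on the coset
  have hout : ∀ (f : J T), (∀ s ∈ L.fixingSubgroup, s • f = f) → ∀ q (g : GQ),
      (f : Amb T).ord q g = (f : Amb T).ord q (Quotient.out (QuotientGroup.mk g : GQ ⧸ L.fixingSubgroup)) := by
    intro f hf q g
    obtain ⟨s, hs⟩ := QuotientGroup.mk_out_eq_mul L.fixingSubgroup g
    rw [hs, ← Amb.ord_smul, ← coe_smul_J, hf s s.2]
  have hsupp : ∀ (f : J T), {z : {q : Nat.Primes // q ∉ T} × (GQ ⧸ L.fixingSubgroup) |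
      (f : Amb T).ord z.1 z.2.out ≠ 0}.Finite := fun f =>
    (f.2.2.2.2.prod Set.finite_univ).subset fun z hz => ⟨⟨_, hz⟩, Set.mem_univ _⟩
  intro k
  induction k with
  | zero =>
    intro f hf hk
    rw [Nat.le_zero, Set.ncard_eq_zero (hsupp f)] at hk
    obtain ⟨d, hd, hdL⟩ := hprin L hL 1 (one_mem L) one_ne_zero
    refine ⟨1, one_pos, 1, d, one_mem L, hd, hdL, fun q g => ?_⟩
    have h0 : (f : Amb T).ord q g = 0 := by
      rw [hout f hf]
      by_contra h
      exact (Set.eq_empty_iff_forall_notMem.mp hk) (q, QuotientGroup.mk g) h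
    have h1 := hd.ord_eq q g
    rw [map_one, map_one, norm_one] at h1
    have := (zpow_eq_one_iff_right₀ (a := ((q.1 : ℕ) : ℝ)) (Nat.cast_nonneg _)
      (by exact_mod_cast q.1.2.ne_one)).mp h1.symm
    simp [h0, neg_eq_zero.mp this]
  | succ k ih =>
    intro f hf hk
    by_cases hle : {z : {q : Nat.Primes // q ∉ T} × (GQ ⧸ L.fixingSubgroup) |
        (f : Amb T).ord z.1 z.2.out ≠ 0}.ncard ≤ k
    · exact ih f hf hle
    obtain ⟨⟨q₀, g₀⟩, hz₀⟩ := Set.nonempty_of_ncard_ne_zero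
      (s := {z : {q : Nat.Primes // q ∉ T} × (GQ ⧸ L.fixingSubgroup) |
        (f : Amb T).ord z.1 z.2.out ≠ 0}) (by omega)
    set a : ℤ := (f : Amb T).ord q₀ g₀.out with ha
    obtain ⟨α, hαL, hα0, hαlt, hαsupp⟩ := exists_elt_supported_at L q₀.1 g₀.out
    obtain ⟨dα, hdα, hdαL⟩ := hprin L hL α hαL hα0
    set c : ℤ := (dα : Amb T).ord q₀ g₀.out with hc
    have hc0 : 0 < c := by
      rw [hdα.ord_eq q₀ g₀.out, zpow_lt_one_iff_right₀ (by exact_mod_cast q₀.1.2.one_lt),
        neg_lt_zero] at hαlt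
      exact hαlt
    lift c to ℕ using hc0.le with c' hc'
    set f' : J T := c' • f - a • dα with hf'
    have hf'L : ∀ s ∈ L.fixingSubgroup, s • f' = f' := fun s hs => by
      rw [hf', smul_sub, smul_comm s c' f, smul_comm s a dα, hf s hs, hdαL s hs]
    have hord : ∀ q g, (f' : Amb T).ord q g = c' • (f : Amb T).ord q g - a • (dα : Amb T).ord q g :=
      fun q g => rfl
    have hord_zero : ∀ q g, (f : Amb T).ord q g = 0 → (f' : Amb T).ord q g = 0 := by
      intro q g hq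
      by_cases hd0 : (dα : Amb T).ord q g = 0
      · simp [hord, hq, hd0]
      obtain ⟨hqq, τ, s, hs, hg⟩ := hαsupp q.1 g (by
        rw [hdα.ord_eq q g]
        intro h
        rw [zpow_eq_one_iff_right₀ (Nat.cast_nonneg _) (by exact_mod_cast q.1.2.ne_one),
          neg_eq_zero] at h
        exact hd0 h)
      obtain rfl : q = q₀ := Subtype.ext hqq
      exfalso
      apply hz₀
      show (f : Amb T).ord q g₀.out = 0
      rw [← hq, hg, ← Amb.ord_smul, ← coe_smul_J, hf s hs, f.2.2.1]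
    have hlt : {z : {q : Nat.Primes // q ∉ T} × (GQ ⧸ L.fixingSubgroup) |
        (f' : Amb T).ord z.1 z.2.out ≠ 0}.ncard <
        {z : {q : Nat.Primes // q ∉ T} × (GQ ⧸ L.fixingSubgroup) |
          (f : Amb T).ord z.1 z.2.out ≠ 0}.ncard := by
      refine Set.ncard_lt_ncard ⟨fun z hz h0 => hz (hord_zero _ _ h0), fun hsub => ?_⟩ (hsupp f)
      refine hsub (a := (q₀, g₀)) hz₀ ?_
      show (f' : Amb T).ord q₀ g₀.out = 0
      rw [hord, ← ha, ← hc, nsmul_eq_mul, smul_eq_mul]; ring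
    obtain ⟨n, hn, x, d, hxL, hd, hdL, hnd⟩ := ih f' hf'L (by omega)
    have hc'0 : 0 < c' := by exact_mod_cast hc0
    -- `n c' f = d + n a dα`
    refine ⟨n * c', Nat.mul_pos hn hc'0, x * α ^ ((n : ℤ) * a), d + ((n : ℤ) * a) • dα,
      mul_mem hxL (zpow_mem hαL _), ?_, fun s hs => ?_, fun q g => ?_⟩
    · rw [AddSubgroup.coe_add, AddSubgroup.coe_zsmul]
      exact hd.add (hdα.zsmul _)
    · rw [smul_add, smul_comm s ((n : ℤ) * a) dα, hdL s hs, hdαL s hs]
    · rw [AddSubgroup.coe_add, Amb.ord_add, ← hnd q g, hord, AddSubgroup.coe_zsmul]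
      show (n * c') • _ = n • (c' • _ - a • _) + ((n : ℤ) * a) • (dα : Amb T).ord q g
      simp only [nsmul_eq_mul, smul_eq_mul, Nat.cast_mul]
      ring

end Fermat.Agent.PoitouTate
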