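/-
The prime of a number field cut out by the fixed embedding into `PadicAlgCl q`, and the value
group at a prime unramified in a normal level.
-/
import Fermat.Agent.PoitouTate.Defs
import Fermat.Agent.MW.WeakUnramified
import Fermat.Agent.Galois.Frobenius

set_option autoImplicit false

open scoped NumberField
open NumberField

noncomputable section

namespace Fermat.Agent.PoitouTate

local notation "Qb" => AlgebraicClosure ℚ

variable (q : Nat.Primes)

theorem norm_padicEmbedding_natCast (n : ℕ) :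
    ‖padicEmbedding (q : ℕ) (n : Qb)‖ = ‖(n : ℚ_[(q : ℕ)])‖ := by
  rw [map_natCast, ← map_natCast (algebraMap ℚ_[(q : ℕ)] (PadicAlgCl (q : ℕ))), norm_algebraMap']

theorem norm_padicEmbedding_prime :
    ‖padicEmbedding (q : ℕ) ((q : ℕ) : Qb)‖ = ((q : ℕ) : ℝ)⁻¹ := by
  rw [norm_padicEmbedding_natCast, Padic.norm_p]

theorem one_lt_prime : (1 : ℝ) < ((q : ℕ) : ℝ) := by exact_mod_cast q.2.one_lt

/-- Algebraic integers have norm at most one along every embedding. -/
theorem norm_padicEmbedding_le_one_of_isIntegral {x : Qb} (hx : IsIntegral ℤ x) :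
    ‖padicEmbedding (q : ℕ) x‖ ≤ 1 := by
  have h := (mem_padicPlace_iff (q : ℕ)).1
    (Galois.mem_valuationSubring_of_isIntegral (padicPlace (q : ℕ)) hx)
  exact_mod_cast h

variable (g : GQ) (L : IntermediateField ℚ Qb) [NumberField L]

theorem isIntegral_apply_coe (x : 𝓞 L) : IsIntegral ℤ (g (((x : L)) : Qb)) :=
  ((NumberField.RingOfIntegers.isIntegral_coe x).map
    (L.val.restrictScalars ℤ)).map ((g : Qb →ₐ[ℚ] Qb).restrictScalars ℤ)

/-- The embedding of the integers of `L` at `q` through `g`. -/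
def placeHom : 𝓞 L →+* PadicAlgCl (q : ℕ) :=
  ((padicEmbedding (q : ℕ)).comp ((g : Qb →ₐ[ℚ] Qb).comp L.val)).toRingHom.comp
    (algebraMap (𝓞 L) L)

theorem placeHom_apply (x : 𝓞 L) :
    placeHom q g L x = padicEmbedding (q : ℕ) (g (((x : L)) : Qb)) := rfl

theorem norm_coe_le_one (x : 𝓞 L) : ‖placeHom q g L x‖ ≤ 1 :=
  norm_padicEmbedding_le_one_of_isIntegral q (isIntegral_apply_coe g L x)

/-- The prime of `L` seen at `q` through `g`. -/
def placePrime : Ideal (𝓞 L) where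
  carrier := {x | ‖placeHom q g L x‖ < 1}
  zero_mem' := by simp
  add_mem' {x y} hx hy := by
    simp only [Set.mem_setOf_eq, map_add] at hx hy ⊢
    exact (PadicAlgCl.isNonarchimedean (q : ℕ) _ _).trans_lt (max_lt hx hy)
  smul_mem' c x hx := by
    simp only [Set.mem_setOf_eq, smul_eq_mul, map_mul, norm_mul] at hx ⊢
    exact mul_lt_one_of_nonneg_of_lt_one_right (norm_coe_le_one q g L c) (norm_nonneg _) hx

theorem mem_placePrime {x : 𝓞 L} : x ∈ placePrime q g L ↔ ‖placeHom q g L x‖ < 1 := Iff.rfl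

theorem norm_placeHom_prime : ‖placeHom q g L ((q : ℕ) : 𝓞 L)‖ = ((q : ℕ) : ℝ)⁻¹ := by
  rw [map_natCast, ← map_natCast (padicEmbedding (q : ℕ)), norm_padicEmbedding_prime]

theorem natCast_mem_placePrime : ((q : ℕ) : 𝓞 L) ∈ placePrime q g L := by
  rw [mem_placePrime, norm_placeHom_prime]
  exact inv_lt_one_of_one_lt₀ (one_lt_prime q)

instance isPrime_placePrime : (placePrime q g L).IsPrime := by
  refine ⟨fun h => ?_, fun {x y} hxy => ?_⟩
  · have h1 : (1 : 𝓞 L) ∈ placePrime q g L := by rw [h]; trivial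
    simp [mem_placePrime] at h1
  · by_contra hcon
    push Not at hcon
    simp only [mem_placePrime, not_lt, map_mul, norm_mul] at hxy hcon
    rw [le_antisymm (norm_coe_le_one q g L x) hcon.1, one_mul] at hxy
    linarith [hcon.2]

theorem placePrime_ne_bot : placePrime q g L ≠ ⊥ := fun h => by
  have h1 := natCast_mem_placePrime q g L
  rw [h, Ideal.mem_bot, Nat.cast_eq_zero] at h1
  exact q.2.ne_zero h1

variable {T : Finset Nat.Primes} {L}

omit [NumberField L] in
theorem IsLvl.isGalois (hL : IsLvl T L) : IsGalois ℚ L :=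
  haveI := hL.unramified.1
  (InfiniteGalois.normal_iff_isGalois _).1 hL.normal

omit [NumberField L] in
theorem IsLvl.numberField (hL : IsLvl T L) : NumberField L :=
  haveI := hL.unramified.1
  @NumberField.mk _ _ inferInstance inferInstance

/-- A prime outside `T` is unramified in a level of `T`: some element outside the prime
multiplies the prime into the multiples of `q`. -/
theorem exists_mul_eq_of_mem (hL : IsLvl T L) (hq : q ∉ T) :
    ∃ s : 𝓞 L, s ∉ placePrime q g L ∧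
      ∀ x ∈ placePrime q g L, ∃ y : 𝓞 L, s * x = (q : ℕ) * y := by
  classical
  have := hL.isGalois
  have := hL.unramified.1
  set P := placePrime q g L
  let S : Finset ℕ := T.map ⟨fun r : Nat.Primes => (r : ℕ), Nat.Primes.coe_nat_injective⟩
  have hS : MW.IsUnramifiedOutside S L.fixingSubgroup := fun ℓ hℓ hℓS A hA =>
    hL.unramified.2 ⟨ℓ, hℓ⟩ (fun h => hℓS (Finset.mem_map.2 ⟨_, h, rfl⟩)) A hA
  have hqP : ((q : ℕ) : 𝓞 L) ∈ P := natCast_mem_placePrime q g L
  have hPm : (MW.primeProduct S : 𝓞 L) ∉ P := by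
    intro hmem
    rw [MW.primeProduct, Nat.cast_prod, Ideal.IsPrime.prod_mem_iff] at hmem
    obtain ⟨ℓ, hℓ, hℓP⟩ := hmem
    obtain ⟨hℓS, hℓp⟩ := Finset.mem_filter.1 hℓ
    obtain ⟨r, hr, hr'⟩ := Finset.mem_map.1 hℓS
    have hne : (q : ℕ) ≠ ℓ := fun he => hq (by
      have : r = q := Nat.Primes.coe_nat_injective ((show (r : ℕ) = ℓ from hr').trans he.symm)
      rwa [this] at hr)
    obtain ⟨a, b, hab⟩ := Int.isCoprime_iff_gcd_eq_one.2
      (show Int.gcd ((q : ℕ) : ℤ) (ℓ : ℤ) = 1 by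
        rw [Int.gcd_natCast_natCast]; exact (Nat.coprime_primes q.2 hℓp).2 hne)
    refine (isPrime_placePrime q g L).ne_top ((Ideal.eq_top_iff_one _).2 ?_)
    have h1 : ((a : 𝓞 L) * ((q : ℕ) : 𝓞 L) + (b : 𝓞 L) * (ℓ : 𝓞 L)) = 1 := by
      exact_mod_cast congrArg (Int.cast : ℤ → 𝓞 L) hab
    rw [← h1]
    exact add_mem (Ideal.mul_mem_left _ _ hqP) (Ideal.mul_mem_left _ _ hℓP)
  have hin := MW.inertia_eq_bot_of_isUnramifiedOutside hS P inferInstance hPm
  have hP0 : P ≠ ⊥ := placePrime_ne_bot q g L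
  have : (P.under ℤ).IsMaximal :=
    Ideal.IsPrime.isMaximal inferInstance (mt Ideal.eq_bot_of_comap_eq_bot hP0)
  have hcard := Ideal.card_inertia_eq_ramificationIdxIn (G := L ≃ₐ[ℚ] L) (P.under ℤ) P
  rw [hin, Subgroup.card_bot,
    Ideal.ramificationIdxIn_eq_ramificationIdx (P.under ℤ) P (L ≃ₐ[ℚ] L)] at hcard
  have hunder : P.under ℤ = Ideal.span {((q : ℕ) : ℤ)} := by
    have hp : Prime ((q : ℕ) : ℤ) := Nat.prime_iff_prime_int.mp q.2
    have hmax := ((Ideal.span_singleton_prime hp.ne_zero).2 hp).isMaximal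
      (by simpa using hp.ne_zero)
    refine (hmax.eq_of_le (Ideal.IsPrime.under ℤ P).ne_top ?_).symm
    rw [Ideal.span_singleton_le_iff_mem, Ideal.mem_comap, map_natCast]
    exact hqP
  have hmap : (P.under ℤ).map (algebraMap ℤ (𝓞 L)) = Ideal.span {((q : ℕ) : 𝓞 L)} := by
    rw [hunder, Ideal.map_span, Set.image_singleton, map_natCast]
  have hq0 : (Ideal.span {((q : ℕ) : 𝓞 L)}) ≠ ⊥ := by
    rw [Ne, Ideal.span_singleton_eq_bot]
    exact_mod_cast q.2.ne_zero
  have hcount : (UniqueFactorizationMonoid.normalizedFactors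
      (Ideal.span {((q : ℕ) : 𝓞 L)})).count P = 1 := by
    rw [← hmap, ← Ideal.IsDedekindDomain.ramificationIdx_eq_normalizedFactors_count (P.under ℤ) P
      (by rw [hmap]; exact hq0)]
    exact hcard.symm
  obtain ⟨Q, hQ⟩ : P ∣ Ideal.span {((q : ℕ) : 𝓞 L)} :=
    Ideal.dvd_iff_le.2 ((Ideal.span_singleton_le_iff_mem _).2 hqP)
  have hnot : ¬ Q ≤ P := by
    intro hle
    obtain ⟨R, hR⟩ : P ∣ Q := Ideal.dvd_iff_le.2 hle
    have hPprime : Prime P := Ideal.prime_of_isPrime hP0 inferInstance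
    have h2 : P ^ 2 ∣ Ideal.span {((q : ℕ) : 𝓞 L)} := ⟨R, by rw [hQ, hR]; ring⟩
    rw [pow_dvd_iff_le_emultiplicity,
      UniqueFactorizationMonoid.emultiplicity_eq_count_normalizedFactors hPprime.irreducible hq0,
      normalize_eq, hcount] at h2
    norm_num at h2
  obtain ⟨s, hsQ, hsP⟩ := SetLike.not_le_iff_exists.1 hnot
  refine ⟨s, hsP, fun x hx => ?_⟩
  have hsx : s * x ∈ Ideal.span {((q : ℕ) : 𝓞 L)} := by
    rw [hQ, mul_comm s x]; exact Ideal.mul_mem_mul hx hsQ
  obtain ⟨y, hy⟩ := Ideal.mem_span_singleton'.1 hsx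
  exact ⟨y, by rw [← hy, mul_comm]⟩

theorem exists_norm_eq_zpow_of_integral (hL : IsLvl T L) (hq : q ∉ T) {x : 𝓞 L} (hx : x ≠ 0) :
    ∃ k : ℕ, ‖placeHom q g L x‖ = ((q : ℕ) : ℝ) ^ (-(k : ℤ)) := by
  obtain ⟨s, hs, hsx⟩ := exists_mul_eq_of_mem q g hL hq
  have hq1 := one_lt_prime q
  have hs1 : ‖placeHom q g L s‖ = 1 :=
    le_antisymm (norm_coe_le_one q g L s) (not_lt.1 hs)
  set N : 𝓞 L → ℝ := fun z => ‖placeHom q g L z‖ with hN
  have hpos : 0 < N x := norm_pos_iff.2 fun h => hx ((map_eq_zero_iff (placeHom q g L) (by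
    simp only [placeHom, RingHom.coe_comp]
    exact (RingHom.injective _).comp RingOfIntegers.coe_injective)).1 h)
  obtain ⟨n, hn⟩ := exists_pow_lt_of_lt_one hpos (inv_lt_one_of_one_lt₀ hq1)
  suffices h : ∀ (n : ℕ) (x : 𝓞 L), ((q : ℕ) : ℝ)⁻¹ ^ n < N x →
      ∃ k : ℕ, N x = ((q : ℕ) : ℝ) ^ (-(k : ℤ)) from h n x hn
  intro n
  induction n with
  | zero => intro x hx; rw [pow_zero] at hx; exact absurd (norm_coe_le_one q g L x) (not_le.2 hx)
  | succ n ih =>
    intro x hx
    by_cases hxP : x ∈ placePrime q g L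
    · obtain ⟨y, hy⟩ := hsx x hxP
      have hxy : N x = ((q : ℕ) : ℝ)⁻¹ * N y := by
        have h := congrArg N hy
        simp only [hN, map_mul, norm_mul, hs1, one_mul, norm_placeHom_prime] at h
        exact h
      have hy' : ((q : ℕ) : ℝ)⁻¹ ^ n < N y := by
        rw [hxy, pow_succ'] at hx
        exact lt_of_mul_lt_mul_left hx (by positivity)
      obtain ⟨k, hk⟩ := ih y hy'
      refine ⟨k + 1, ?_⟩
      rw [hxy, hk, ← zpow_neg_one, ← zpow_add₀ (by positivity)]
      congr 1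
      push_cast; ring
    · exact ⟨0, by
        rw [Nat.cast_zero, neg_zero, zpow_zero]
        exact le_antisymm (norm_coe_le_one q g L x) (not_lt.1 hxP)⟩

omit [NumberField L] in
/-- The value group at a prime unramified in the level is `q ^ ℤ`. -/
theorem exists_norm_eq_zpow (hL : IsLvl T L) (hq : q ∉ T) {x : Qb} (hxL : x ∈ L) (hx : x ≠ 0) :
    ∃ k : ℤ, ‖padicEmbedding (q : ℕ) (g x)‖ = ((q : ℕ) : ℝ) ^ (-k) := by
  have := hL.numberField
  obtain ⟨a, b, hb, hab⟩ := IsFractionRing.div_surjective (𝓞 L) (⟨x, hxL⟩ : L)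
  have ha : a ≠ 0 := by
    rintro rfl
    refine hx ?_
    have := congrArg (fun t : L => (t : Qb)) hab
    simpa using this.symm
  obtain ⟨i, hi⟩ := exists_norm_eq_zpow_of_integral q g hL hq ha
  obtain ⟨j, hj⟩ := exists_norm_eq_zpow_of_integral q g hL hq (nonZeroDivisors.ne_zero hb)
  refine ⟨(i : ℤ) - j, ?_⟩
  have hx' : x = ((a : L) : Qb) / ((b : L) : Qb) := by
    have := congrArg (fun t : L => (t : Qb)) hab.symm
    simpa using this
  rw [hx', map_div₀, map_div₀, norm_div, ← placeHom_apply, ← placeHom_apply, hi, hj, ← zpow_sub₀ (by exact_mod_cast q.2.ne_zero)]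
  congr 1; ring

end Fermat.Agent.PoitouTate
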