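import Fermat.Agent.PoitouTate.LocalNormIndex

/-!
# The index of `n`-th powers in local fields
-/

set_option autoImplicit false
set_option linter.unusedSectionVars false
set_option linter.style.haveILetI false

noncomputable section

namespace Fermat.Agent.PoitouTate

variable {L : Type} [NontriviallyNormedField L] [IsUltrametricDist L]

variable (L) in
/-- The additive closed ball of radius `r` as a subgroup (`r ≥ 0`). -/
def ballSubgroup (r : NNReal) : AddSubgroup L where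
  carrier := {x | ‖x‖ ≤ r}
  zero_mem' := by simp
  add_mem' hx hy := (IsUltrametricDist.norm_add_le_max _ _).trans (max_le hx hy)
  neg_mem' hx := by simpa using hx

theorem mem_ballSubgroup {r : NNReal} {x : L} : x ∈ ballSubgroup L r ↔ ‖x‖ ≤ r := Iff.rfl

variable (L) in
/-- The units within `r` of `1`, intersected with the norm-one units. -/
def unitBall (r : NNReal) : Subgroup Lˣ where
  carrier := {x | ‖(x : L)‖ = 1 ∧ ‖(x : L) - 1‖ ≤ r}
  one_mem' := by simp
  mul_mem' {x y} hx hy := by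
    refine ⟨by simp [hx.1, hy.1], ?_⟩
    have h : ((x * y : Lˣ) : L) - 1 = (x : L) * ((y : L) - 1) + ((x : L) - 1) := by
      rw [Units.val_mul]; ring
    rw [h]
    refine (IsUltrametricDist.norm_add_le_max _ _).trans (max_le ?_ hx.2)
    rw [norm_mul, hx.1, one_mul]; exact hy.2
  inv_mem' {x} hx := by
    refine ⟨by simp [hx.1], ?_⟩
    have h : ((x⁻¹ : Lˣ) : L) - 1 = (x : L)⁻¹ * (1 - (x : L)) := by
      rw [Units.val_inv_eq_inv_val, mul_sub, mul_one, inv_mul_cancel₀ x.ne_zero]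
    rw [h, norm_mul, norm_inv, hx.1, inv_one, one_mul, norm_sub_rev]; exact hx.2

theorem mem_unitBall {r : NNReal} {x : Lˣ} :
    x ∈ unitBall L r ↔ ‖(x : L)‖ = 1 ∧ ‖(x : L) - 1‖ ≤ r := Iff.rfl

theorem norm_one_add_pow_sub (n : ℕ) {d : L} (hd : ‖d‖ ≤ 1) :
    ‖(1 + d) ^ n - 1 - n * d‖ ≤ ‖d‖ ^ 2 := by
  induction n with
  | zero => simp
  | succ n ih =>
    have h : (1 + d) ^ (n + 1) - 1 - ((n + 1 : ℕ) : L) * d
        = ((1 + d) ^ n - 1 - n * d) * (1 + d) + n * d * d := by push_cast; ring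
    rw [h]
    refine (IsUltrametricDist.norm_add_le_max _ _).trans (max_le ?_ ?_)
    · rw [norm_mul]
      refine mul_le_of_le_one_right (norm_nonneg _) ?_ |>.trans ih
      exact (IsUltrametricDist.norm_add_le_max _ _).trans (max_le norm_one.le hd)
    · rw [norm_mul, norm_mul, sq]
      exact mul_le_mul_of_nonneg_right
        (mul_le_of_le_one_left (norm_nonneg _) (IsUltrametricDist.norm_natCast_le_one L n))
        (norm_nonneg _)

variable (L) in
/-- Multiplication by `n` on `L`. -/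
abbrev mulNat (n : ℕ) : L →+ L := AddMonoidHom.mulLeft (n : L)

theorem map_mulNat_ball {n : ℕ} (hn : (n : L) ≠ 0) (r : NNReal) :
    (ballSubgroup L r).map (mulNat L n) = ballSubgroup L (‖(n : L)‖₊ * r) := by
  ext x
  constructor
  · rintro ⟨y, hy, rfl⟩
    show ‖(n : L) * y‖ ≤ _
    rw [norm_mul, NNReal.coe_mul, coe_nnnorm]
    exact mul_le_mul_of_nonneg_left hy (norm_nonneg _)
  · intro hx
    refine ⟨x / n, ?_, mul_div_cancel₀ x hn⟩
    show ‖x / n‖ ≤ r
    rw [norm_div, div_le_iff₀ (norm_pos_iff.2 hn), mul_comm]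
    simpa [mem_ballSubgroup] using hx

theorem relIndex_ball_scale {n : ℕ} (hn : (n : L) ≠ 0) {z : L} (hz : z ≠ 0) :
    (ballSubgroup L (‖(n : L)‖₊ * ‖z‖₊)).relIndex (ballSubgroup L ‖z‖₊)
      = (ballSubgroup L ‖(n : L)‖₊).relIndex (ballSubgroup L 1) := by
  have h : ∀ r : NNReal,
      (ballSubgroup L r).map (AddMonoidHom.mulLeft z) = ballSubgroup L (r * ‖z‖₊) := by
    intro r
    ext x
    constructor
    · rintro ⟨y, hy, rfl⟩
      show ‖z * y‖ ≤ _
      rw [norm_mul, NNReal.coe_mul, coe_nnnorm, mul_comm]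
      exact mul_le_mul_of_nonneg_right hy (norm_nonneg _)
    · intro hx
      refine ⟨x / z, ?_, mul_div_cancel₀ x hz⟩
      show ‖x / z‖ ≤ r
      rw [norm_div, div_le_iff₀ (norm_pos_iff.2 hz)]
      simpa [mem_ballSubgroup] using hx
  conv_lhs => rw [← h, ← one_mul ‖z‖₊, ← h]
  exact AddSubgroup.relIndex_map_map_of_injective _ _ (mul_right_injective₀ hz)

variable [ProperSpace L]

theorem finite_quotient_ball {δ : ℝ} (hδ : 0 < δ) (r : NNReal) (H : AddSubgroup L)
    (hH : ∀ x : L, ‖x‖ < δ → x ∈ H) :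
    H.relIndex (ballSubgroup L r) ≠ 0 := by
  obtain ⟨t, ht, hcov⟩ :=
    Metric.totallyBounded_iff.1 (isCompact_closedBall (0 : L) r).totallyBounded δ hδ
  haveI := ht.to_subtype
  rw [AddSubgroup.relIndex, AddSubgroup.index_ne_zero_iff_finite]
  have hc : ∀ x : ballSubgroup L r, ∃ y : t, ‖(x : L) - y‖ < δ := fun x => by
    obtain ⟨y, hy, hxy⟩ := Set.mem_iUnion₂.1
      (hcov (mem_closedBall_zero_iff.2 (x.2 : ‖(x : L)‖ ≤ r)))
    exact ⟨⟨y, hy⟩, by rwa [← dist_eq_norm]⟩
  choose c hc using hc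
  refine Finite.of_injective (fun q => c q.out) fun a b hab => ?_
  simp only at hab
  rw [← a.out_eq, ← b.out_eq]
  refine QuotientAddGroup.eq.2 ?_
  rw [AddSubgroup.mem_addSubgroupOf]
  refine hH _ ?_
  have := IsUltrametricDist.dist_triangle_max ((b.out : L)) (c b.out : L) (a.out : L)
  rw [dist_eq_norm, dist_eq_norm, dist_eq_norm] at this
  simp only [AddSubgroup.coe_add, AddSubgroup.coe_neg]
  rw [neg_add_eq_sub]
  refine this.trans_lt (max_lt (hc _) ?_)
  rw [← hab, norm_sub_rev]; exact hc _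

theorem relIndex_unitBall_eq_ball {r s : NNReal} (hr : r < 1) :
    (unitBall L s).relIndex (unitBall L r) = (ballSubgroup L s).relIndex (ballSubgroup L r) := by
  have hone : ∀ a : ballSubgroup L r, ‖1 + (a : L)‖ = 1 := fun a => by
    have ha : ‖(a : L)‖ < 1 := lt_of_le_of_lt a.2 (by exact_mod_cast hr)
    rw [IsUltrametricDist.norm_add_eq_max_of_norm_ne_norm (by rw [norm_one]; exact ha.ne'),
      norm_one, max_eq_left ha.le]
  have hne : ∀ a : ballSubgroup L r, 1 + (a : L) ≠ 0 := fun a =>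
    norm_pos_iff.1 (by rw [hone]; exact one_pos)
  let e : unitBall L r ≃ ballSubgroup L r :=
    { toFun := fun x => ⟨((x : Lˣ) : L) - 1, x.2.2⟩
      invFun := fun a => ⟨Units.mk0 (1 + a) (hne a), hone a, (le_of_eq (by simp)).trans (a.2 : ‖(a : L)‖ ≤ r)⟩
      left_inv := fun x => Subtype.ext (Units.ext (by simp))
      right_inv := fun a => Subtype.ext (by simp) }
  rw [Subgroup.relIndex, AddSubgroup.relIndex, Subgroup.index, AddSubgroup.index]
  refine Nat.card_congr (Quotient.congr e fun x y => ?_)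
  rw [QuotientGroup.leftRel_apply, QuotientAddGroup.leftRel_apply, Subgroup.mem_subgroupOf,
    AddSubgroup.mem_addSubgroupOf]
  simp only [e, Equiv.coe_fn_mk, Subgroup.coe_mul, Subgroup.coe_inv, AddSubgroup.coe_add,
    AddSubgroup.coe_neg, mem_unitBall, mem_ballSubgroup, Units.val_mul, Units.val_inv_eq_inv_val]
  have hx1 := x.2.1
  have hy1 := y.2.1
  have hx0 : ((x : Lˣ) : L) ≠ 0 := Units.ne_zero _
  rw [show -(((x : Lˣ) : L) - 1) + (((y : Lˣ) : L) - 1) = ((y : Lˣ) : L) - ((x : Lˣ) : L) by ring,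
    norm_mul, norm_inv, hx1, hy1,
    show ((x : Lˣ) : L)⁻¹ * ((y : Lˣ) : L) - 1
        = ((x : Lˣ) : L)⁻¹ * (((y : Lˣ) : L) - ((x : Lˣ) : L)) by
      rw [mul_sub, inv_mul_cancel₀ hx0],
    norm_mul, norm_inv, hx1]
  simp

theorem map_pow_unitBall {n : ℕ} (hn : (n : L) ≠ 0) {r : NNReal} (hr1 : r < 1)
    (hrn : r < ‖(n : L)‖₊) :
    (unitBall L r).map (powMonoidHom n) = unitBall L (‖(n : L)‖₊ * r) := by
  have hρ : 0 < ‖(n : L)‖ := norm_pos_iff.2 hn
  have hrρ : (r : ℝ) < ‖(n : L)‖ := by exact_mod_cast hrn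
  have hr1' : (r : ℝ) < 1 := by exact_mod_cast hr1
  have hρ1 : ‖(n : L)‖ ≤ 1 := IsUltrametricDist.norm_natCast_le_one L n
  refine le_antisymm ?_ ?_
  · rintro _ ⟨x, ⟨hx1, hx2⟩, rfl⟩
    simp only [powMonoidHom_apply, mem_unitBall, Units.val_pow_eq_pow_val, norm_pow, hx1, one_pow,
      NNReal.coe_mul, coe_nnnorm, true_and]
    have h := norm_one_add_pow_sub n (d := (x : L) - 1) (hx2.trans hr1'.le)
    rw [add_sub_cancel] at h
    rw [show (x : L) ^ n - 1 = ((x : L) ^ n - 1 - n * ((x : L) - 1)) + n * ((x : L) - 1) by ring]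
    refine (IsUltrametricDist.norm_add_le_max _ _).trans (max_le (h.trans ?_) ?_)
    · rw [sq]; exact mul_le_mul (hx2.trans hrρ.le) hx2 (norm_nonneg _) hρ.le
    · rw [norm_mul]; exact mul_le_mul_of_nonneg_left hx2 hρ.le
  · intro y hy
    obtain ⟨hy1, hy2⟩ := hy
    rw [NNReal.coe_mul, coe_nnnorm] at hy2
    set θ : ℝ := r / ‖(n : L)‖ with hθdef
    have hθ : θ < 1 := (div_lt_one hρ).2 hrρ
    have hθ0 : 0 ≤ θ := div_nonneg r.2 hρ.le
    have step : ∀ k : ℕ, ∃ x : Lˣ, x ∈ unitBall L r ∧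
        ‖(y : L) - (x : L) ^ n‖ ≤ ‖(n : L)‖ * r * θ ^ k := by
      intro k
      induction k with
      | zero => exact ⟨1, one_mem _, by simpa using hy2⟩
      | succ k ih =>
        obtain ⟨x, hx, hxe⟩ := ih
        set d : L := ((y : L) - (x : L) ^ n) / (n * (x : L) ^ n) with hd
        have hdn : ‖d‖ ≤ r * θ ^ k := by
          rw [hd, norm_div, norm_mul, norm_pow, hx.1, one_pow, mul_one, div_le_iff₀ hρ]
          linarith
        have hdr : ‖d‖ ≤ r :=
          hdn.trans (mul_le_of_le_one_right r.2 (pow_le_one₀ hθ0 hθ.le))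
        have h1d : ‖1 + d‖ = 1 := by
          have := hdr.trans_lt hr1'
          rw [IsUltrametricDist.norm_add_eq_max_of_norm_ne_norm (by rw [norm_one]; exact this.ne'),
            norm_one, max_eq_left this.le]
        refine ⟨x * Units.mk0 (1 + d) (norm_pos_iff.1 (by rw [h1d]; exact one_pos)),
          mul_mem hx ⟨h1d, by simpa using hdr⟩, ?_⟩
        have he : (y : L) - ((x : L) * (1 + d)) ^ n
            = -((x : L) ^ n * ((1 + d) ^ n - 1 - n * d)) := by
          have : (n : L) * (x : L) ^ n * d = (y : L) - (x : L) ^ n := by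
            rw [hd, mul_div_cancel₀]
            exact mul_ne_zero hn (pow_ne_zero _ x.ne_zero)
          rw [mul_pow]
          linear_combination -this
        rw [Units.val_mul, Units.val_mk0, he, norm_neg, norm_mul, norm_pow, hx.1, one_pow, one_mul]
        refine (norm_one_add_pow_sub n (hdr.trans hr1'.le)).trans ?_
        have hθr : ‖(n : L)‖ * θ = r := mul_div_cancel₀ _ hρ.ne'
        calc ‖d‖ ^ 2 = ‖d‖ * ‖d‖ := sq _
          _ ≤ r * (r * θ ^ k) := mul_le_mul hdr hdn (norm_nonneg _) r.2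
          _ = ‖(n : L)‖ * r * θ ^ (k + 1) := by
              rw [pow_succ]; linear_combination -(r * θ ^ k) * hθr
    have hS : IsCompact ((fun a : L => (1 + a) ^ n) '' Metric.closedBall 0 r) :=
      (isCompact_closedBall _ _).image (by fun_prop)
    have hmem : (y : L) ∈ closure ((fun a : L => (1 + a) ^ n) '' Metric.closedBall 0 r) := by
      rw [Metric.mem_closure_iff]
      intro ε hε
      obtain ⟨k, hk⟩ := exists_pow_lt_of_lt_one hε hθ
      obtain ⟨x, hx, hxe⟩ := step k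
      refine ⟨(x : L) ^ n, ⟨(x : L) - 1, mem_closedBall_zero_iff.2 hx.2, by simp⟩, ?_⟩
      rw [dist_eq_norm]
      refine (hxe.trans ?_).trans_lt hk
      exact mul_le_of_le_one_left (pow_nonneg hθ0 _) (mul_le_one₀ hρ1 r.2 hr1'.le)
    rw [hS.isClosed.closure_eq] at hmem
    obtain ⟨a, ha, he⟩ := hmem
    rw [mem_closedBall_zero_iff] at ha
    have ha1 : ‖1 + a‖ = 1 := by
      have := ha.trans_lt hr1'
      rw [IsUltrametricDist.norm_add_eq_max_of_norm_ne_norm (by rw [norm_one]; exact this.ne'),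
        norm_one, max_eq_left this.le]
    exact ⟨Units.mk0 (1 + a) (norm_pos_iff.1 (by rw [ha1]; exact one_pos)),
      ⟨ha1, by simpa using ha⟩, Units.ext (by simpa using he)⟩

variable (L) in
theorem exists_valueHom :
    ∃ e : Lˣ →* Multiplicative ℤ, Function.Surjective e ∧ e.ker = normOneUnits L := by
  obtain ⟨ϖ, hϖ, hm⟩ := exists_uniformizer (L := L)
  have hϖ0 : 0 < ‖(ϖ : L)‖ := norm_pos_iff.2 ϖ.ne_zero
  have hinj : Function.Injective fun m : ℤ => ‖(ϖ : L)‖ ^ m :=
    (zpow_right_strictAnti₀ hϖ0 hϖ).injective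
  choose v hv using hm
  let e : Lˣ →* Multiplicative ℤ :=
    MonoidHom.mk' (fun x => Multiplicative.ofAdd (v x)) fun x y => by
      rw [← ofAdd_add]
      refine congrArg _ (hinj ?_)
      simp only
      rw [← hv, zpow_add₀ hϖ0.ne', ← hv, ← hv, Units.val_mul, norm_mul]
  have he : ∀ x : Lˣ, ‖(x : L)‖ = ‖(ϖ : L)‖ ^ (Multiplicative.toAdd (e x)) := hv
  have hϖ1 : e ϖ = Multiplicative.ofAdd 1 :=
    Multiplicative.toAdd.injective (hinj (a₂ := 1) (by simpa using (he ϖ).symm))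
  refine ⟨e, fun m => ⟨ϖ ^ Multiplicative.toAdd m, by
    rw [map_zpow, hϖ1]; simp [← ofAdd_zsmul]⟩, ?_⟩
  ext x
  show e x = 1 ↔ ‖(x : L)‖ = 1
  rw [he x]
  refine ⟨fun h => by simp [h], fun h => ?_⟩
  exact Multiplicative.toAdd.injective (hinj (a₂ := 0) (by simpa using h))

/-- **Index of `n`-th powers** in the units of a local field. -/
theorem index_range_pow {n : ℕ} (hn : (n : L) ≠ 0) :
    (powMonoidHom n : Lˣ →* Lˣ).range.index
      = n * Nat.card (powMonoidHom n : Lˣ →* Lˣ).ker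
        * ((ballSubgroup L 1).map (mulNat L n)).relIndex (ballSubgroup L 1) := by
  have hn0 : n ≠ 0 := fun h => hn (by simp [h])
  obtain ⟨z, hz0, hz1⟩ : ∃ z : L, 0 < ‖z‖ ∧ ‖z‖ < ‖(n : L)‖ := by
    obtain ⟨z, hz0, hz⟩ := NormedField.exists_norm_lt L (norm_pos_iff.2 hn)
    exact ⟨z, hz0, hz⟩
  set r : NNReal := ‖z‖₊ with hr
  have hrn : r < ‖(n : L)‖₊ := by exact_mod_cast hz1
  have hr1 : r < 1 := lt_of_lt_of_le hrn (by exact_mod_cast IsUltrametricDist.norm_natCast_le_one L n)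
  set U := normOneUnits L
  set V := unitBall L r with hV
  set h : Lˣ →* Lˣ := powMonoidHom n
  have hVU : V ≤ U := fun x hx => hx.1
  have hVh : V.map h = unitBall L (‖(n : L)‖₊ * r) := map_pow_unitBall hn hr1 hrn
  have hker : h.ker ⊓ V = ⊥ := by
    rw [eq_bot_iff]
    rintro x ⟨hx, hx1, hx2⟩
    by_contra hne
    have hd : (x : L) - 1 ≠ 0 := sub_ne_zero.2 fun h => hne (Subgroup.mem_bot.2 (Units.ext h))
    have hd1 : ‖(x : L) - 1‖ ≤ 1 := hx2.trans (by exact_mod_cast hr1.le)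
    have hb := norm_one_add_pow_sub n hd1
    have hxn : x ^ n = 1 := hx
    rw [add_sub_cancel, ← Units.val_pow_eq_pow_val, hxn, Units.val_one, sub_self,
      zero_sub, norm_neg, norm_mul, sq] at hb
    have := le_of_mul_le_mul_right hb (norm_pos_iff.2 hd)
    exact absurd (this.trans hx2) (not_le.2 (by exact_mod_cast hrn))
  have hkerU : h.ker ≤ U := fun x hx => by
    show ‖(x : L)‖ = 1
    refine (pow_eq_one_iff_of_nonneg (norm_nonneg _) hn0).1 ?_
    have hxn : x ^ n = 1 := hx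
    rw [← norm_pow, ← Units.val_pow_eq_pow_val, hxn, Units.val_one, norm_one]
  have key := relIndex_eq_ker_mul_map h hVU
  rw [hker, inf_eq_left.2 hkerU, Subgroup.relIndex_bot_left] at key
  have hUh : U.map h ≤ U := by
    rintro _ ⟨x, hx, rfl⟩; exact U.pow_mem hx n
  have hfin : V.relIndex U ≠ 0 := by
    obtain ⟨t, ht, hcov⟩ :=
      Metric.totallyBounded_iff.1 (isCompact_sphere (0 : L) 1).totallyBounded (r : ℝ) hz0
    haveI := ht.to_subtype
    rw [Subgroup.relIndex, Subgroup.index_ne_zero_iff_finite]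
    have hc : ∀ x : U, ∃ y : t, ‖((x : Lˣ) : L) - y‖ < r := fun x => by
      obtain ⟨y, hy, hxy⟩ := Set.mem_iUnion₂.1
        (hcov (mem_sphere_zero_iff_norm.2 (x.2 : ‖((x : Lˣ) : L)‖ = 1)))
      exact ⟨⟨y, hy⟩, by rwa [← dist_eq_norm]⟩
    choose c hc using hc
    refine Finite.of_injective (fun q => c q.out) fun a b hab => ?_
    simp only at hab
    rw [← a.out_eq, ← b.out_eq]
    refine QuotientGroup.eq.2 ?_
    rw [Subgroup.mem_subgroupOf]
    refine ⟨(a.out⁻¹ * b.out).2, ?_⟩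
    simp only [Subgroup.coe_mul, Subgroup.coe_inv, Units.val_mul, Units.val_inv_eq_inv_val]
    have ha : ‖((a.out : Lˣ) : L)‖ = 1 := a.out.2
    rw [show ((a.out : Lˣ) : L)⁻¹ * ((b.out : Lˣ) : L) - 1
        = ((a.out : Lˣ) : L)⁻¹ * (((b.out : Lˣ) : L) - ((a.out : Lˣ) : L)) by
      rw [mul_sub, inv_mul_cancel₀ (Units.ne_zero _)], norm_mul, norm_inv, ha, inv_one, one_mul]
    have := IsUltrametricDist.dist_triangle_max ((b.out : Lˣ) : L) (c b.out : L) ((a.out : Lˣ) : L)
    rw [dist_eq_norm, dist_eq_norm, dist_eq_norm] at this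
    refine this.trans (max_le (hc _).le ?_)
    rw [← hab, norm_sub_rev]; exact (hc _).le
  have hVV : (V.map h).relIndex V = (ballSubgroup L ‖(n : L)‖₊).relIndex (ballSubgroup L 1) := by
    rw [hVh, hV, relIndex_unitBall_eq_ball hr1, relIndex_ball_scale hn (norm_pos_iff.1 hz0)]
  -- the index of the powers in the norm-one units
  have hU : (U.map h).relIndex U
      = Nat.card h.ker * (ballSubgroup L ‖(n : L)‖₊).relIndex (ballSubgroup L 1) := by
    have hVhV : V.map h ≤ V := by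
      rintro _ ⟨x, hx, rfl⟩; exact V.pow_mem hx n
    have e1 := Subgroup.relIndex_mul_relIndex _ _ _ hVhV hVU
    have e2 := Subgroup.relIndex_mul_relIndex _ _ _ (Subgroup.map_mono hVU : V.map h ≤ U.map h) hUh
    rw [hVV, key] at e1
    have hne : (V.map h).relIndex (U.map h) ≠ 0 := fun h0 => hfin (by rw [key, h0, mul_zero])
    refine Nat.eq_of_mul_eq_mul_left (Nat.pos_of_ne_zero hne) ?_
    linear_combination e2 - e1
  -- pass to all units
  obtain ⟨e, he, hek⟩ := exists_valueHom L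
  have hsup : (h.range ⊔ U).index = n := by
    rw [← Subgroup.index_map_eq _ he (hek.trans_le le_sup_right), Subgroup.map_sup,
      show U.map e = ⊥ from (Subgroup.map_eq_bot_iff _).2 hek.ge, sup_bot_eq]
    have hr' : h.range.map e = AddSubgroup.toSubgroup (AddSubgroup.zmultiples (n : ℤ)) := by
      ext y
      constructor
      · rintro ⟨_, ⟨x, rfl⟩, rfl⟩
        refine ⟨Multiplicative.toAdd (e x), ?_⟩
        simp [h, mul_comm]
      · rintro ⟨m, hm⟩
        obtain ⟨x, hx⟩ := he (Multiplicative.ofAdd m)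
        refine ⟨h x, ⟨x, rfl⟩, Multiplicative.toAdd.injective ?_⟩
        simp only [smul_eq_mul] at hm
        simp [h, hx, mul_comm, hm]
    rw [hr', AddSubgroup.index_toSubgroup, Int.index_zmultiples, Int.natAbs_natCast]
  have hrU : h.range ⊓ U = U.map h := by
    refine le_antisymm ?_ (le_inf (Subgroup.map_le_range _ _) hUh)
    rintro _ ⟨⟨x, rfl⟩, hx⟩
    refine ⟨x, ?_, rfl⟩
    show ‖(x : L)‖ = 1
    refine (pow_eq_one_iff_of_nonneg (norm_nonneg _) hn0).1 ?_
    rw [← norm_pow, ← Units.val_pow_eq_pow_val]; exact hx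
  rw [← Subgroup.relIndex_mul_index (le_sup_left : h.range ≤ h.range ⊔ U),
    Subgroup.relIndex_sup_left, hsup, ← Subgroup.inf_relIndex_right, hrU, hU,
    map_mulNat_ball hn, mul_one]
  ring

/-! ### Finite extensions of `ℚ_[q]` -/

section Padic

variable {q : ℕ} [Fact q.Prime] [NormedAlgebra ℚ_[q] L] [FiniteDimensional ℚ_[q] L]

theorem relIndex_ball_padic {n : ℕ} (hn : (n : L) ≠ 0) (hnp : n.Prime) :
    ((ballSubgroup L 1).map (mulNat L n)).relIndex (ballSubgroup L 1)
      = if n = q then q ^ Module.finrank ℚ_[q] L else 1 := by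
  let e := (Module.finBasis ℚ_[q] L).equivFun
  let E : L →L[ℚ_[q]] (Fin (Module.finrank ℚ_[q] L) → ℚ_[q]) :=
    ⟨e.toLinearMap, LinearMap.continuous_of_finiteDimensional _⟩
  -- an integral lattice inside the unit ball
  obtain ⟨k, hk⟩ : ∃ k : ℕ, ∀ c : Fin (Module.finrank ℚ_[q] L) → ℤ_[q],
      ‖e.symm (fun i => (q : ℚ_[q]) ^ k * c i)‖ ≤ 1 := by
    let S : (Fin (Module.finrank ℚ_[q] L) → ℚ_[q]) →L[ℚ_[q]] L :=
      ⟨e.symm.toLinearMap, LinearMap.continuous_of_finiteDimensional _⟩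
    have hq : ‖(q : ℚ_[q])‖ < 1 := by
      rw [Padic.norm_p]
      exact inv_lt_one_of_one_lt₀ (by exact_mod_cast (Fact.out : q.Prime).one_lt)
    obtain ⟨k, hk⟩ := exists_pow_lt_of_lt_one (show (0 : ℝ) < 1 / (‖S‖ + 1) by positivity) hq
    refine ⟨k, fun c => ?_⟩
    have hv : ‖(fun i => (q : ℚ_[q]) ^ k * c i)‖ ≤ ‖(q : ℚ_[q])‖ ^ k := by
      refine (pi_norm_le_iff_of_nonneg (by positivity)).2 fun i => ?_
      rw [norm_mul, norm_pow]
      exact mul_le_of_le_one_right (by positivity) (PadicInt.norm_le_one (c i))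
    calc ‖e.symm _‖ = ‖S _‖ := rfl
      _ ≤ ‖S‖ * ‖(q : ℚ_[q])‖ ^ k := (S.le_opNorm _).trans (by gcongr)
      _ ≤ ‖S‖ * (1 / (‖S‖ + 1)) := by gcongr
      _ ≤ 1 := by rw [mul_one_div, div_le_one (by positivity)]; linarith
  let Φ : (Fin (Module.finrank ℚ_[q] L) → ℤ_[q]) →+ L :=
    AddMonoidHom.mk' (fun c => e.symm (fun i => (q : ℚ_[q]) ^ k * c i)) fun a b => by
      rw [← map_add]
      congr 1
      funext i
      simp [mul_add]
  have hΦ : Function.Injective Φ := fun a b hab => by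
    funext i
    have h := congrFun (e.symm.injective hab) i
    exact PadicInt.ext (mul_left_cancel₀
      (pow_ne_zero k (Nat.cast_ne_zero.2 (Fact.out : q.Prime).ne_zero)) h)
  set Λ : AddSubgroup L := Φ.range with hΛdef
  have hΛ : Λ ≤ ballSubgroup L 1 := by rintro _ ⟨c, rfl⟩; exact hk c
  obtain ⟨δ, hδ, hopen⟩ : ∃ δ : ℝ, 0 < δ ∧ ∀ x : L, ‖x‖ < δ → x ∈ Λ := by
    refine ⟨‖(q : ℚ_[q]) ^ k‖ / (‖E‖ + 1), by
      have : (q : ℚ_[q]) ≠ 0 := Nat.cast_ne_zero.2 (Fact.out : q.Prime).ne_zero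
      exact div_pos (norm_pos_iff.2 (pow_ne_zero k this)) (by positivity), fun x hx => ?_⟩
    have hi : ∀ i, ‖e x i / (q : ℚ_[q]) ^ k‖ ≤ 1 := fun i => by
      rw [norm_div, div_le_one (norm_pos_iff.2
        (pow_ne_zero k (Nat.cast_ne_zero.2 (Fact.out : q.Prime).ne_zero)))]
      rw [lt_div_iff₀ (by positivity)] at hx
      calc ‖e x i‖ ≤ ‖E x‖ := norm_le_pi_norm (E x) i
        _ ≤ ‖E‖ * ‖x‖ := E.le_opNorm x
        _ ≤ ‖(q : ℚ_[q]) ^ k‖ := by nlinarith [norm_nonneg x]
    refine ⟨fun i => ⟨e x i / (q : ℚ_[q]) ^ k, hi i⟩, ?_⟩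
    show e.symm _ = x
    rw [e.symm_apply_eq]
    funext i
    exact mul_div_cancel₀ _ (pow_ne_zero k (Nat.cast_ne_zero.2 (Fact.out : q.Prime).ne_zero))
  have hne := finite_quotient_ball hδ 1 Λ hopen
  have hhB : (ballSubgroup L 1).map (mulNat L n) ≤ ballSubgroup L 1 := by
    rintro _ ⟨x, hx, rfl⟩
    show ‖(n : L) * x‖ ≤ 1
    rw [norm_mul]
    exact mul_le_one₀ (IsUltrametricDist.norm_natCast_le_one L n) (norm_nonneg _) hx
  have hhΛ : Λ.map (mulNat L n) ≤ Λ := by
    rintro _ ⟨_, ⟨c, rfl⟩, rfl⟩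
    exact ⟨n • c, by rw [map_nsmul, nsmul_eq_mul]; rfl⟩
  have hscale : (Λ.map (mulNat L n)).relIndex ((ballSubgroup L 1).map (mulNat L n))
      = Λ.relIndex (ballSubgroup L 1) :=
    AddSubgroup.relIndex_map_map_of_injective _ _ (mul_right_injective₀ hn)
  have e1 := AddSubgroup.relIndex_mul_relIndex _ _ _ hhΛ hΛ
  have e2 := AddSubgroup.relIndex_mul_relIndex _ _ _
    (AddSubgroup.map_mono hΛ : Λ.map (mulNat L n) ≤ (ballSubgroup L 1).map (mulNat L n)) hhB
  rw [hscale] at e2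
  have e3 : ((ballSubgroup L 1).map (mulNat L n)).relIndex (ballSubgroup L 1)
      = (Λ.map (mulNat L n)).relIndex Λ :=
    Nat.eq_of_mul_eq_mul_left (Nat.pos_of_ne_zero hne) (by linear_combination e2 - e1)
  have e4 : Λ.map (mulNat L n)
      = (nsmulAddMonoidHom n : (Fin (Module.finrank ℚ_[q] L) → ℤ_[q]) →+ _).range.map Φ := by
    rw [hΛdef, AddMonoidHom.range_eq_map, AddMonoidHom.range_eq_map, AddSubgroup.map_map,
      AddSubgroup.map_map]
    congr 1
    refine AddMonoidHom.ext fun c => ?_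
    show (n : L) * Φ c = Φ (n • c)
    rw [map_nsmul, nsmul_eq_mul]
  rw [e3, e4, hΛdef, AddMonoidHom.range_eq_map (f := Φ),
    AddSubgroup.relIndex_map_map_of_injective _ _ hΦ, AddSubgroup.relIndex_top_right]
  split_ifs with hnq
  · subst hnq
    let R : (Fin (Module.finrank ℚ_[n] L) → ℤ_[n]) →+ (Fin (Module.finrank ℚ_[n] L) → ZMod n) :=
      (PadicInt.toZMod (p := n)).toAddMonoidHom.compLeft _
    have hR : R.ker = (nsmulAddMonoidHom n :
        (Fin (Module.finrank ℚ_[n] L) → ℤ_[n]) →+ _).range := by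
      ext c
      constructor
      · intro hc
        have : ∀ i, ∃ d, (n : ℤ_[n]) * d = c i := fun i => by
          have hi : c i ∈ RingHom.ker (PadicInt.toZMod (p := n)) := congrFun hc i
          rw [PadicInt.ker_toZMod, PadicInt.maximalIdeal_eq_span_p,
            Ideal.mem_span_singleton] at hi
          obtain ⟨d, hd⟩ := hi
          exact ⟨d, hd.symm⟩
        choose d hd using this
        exact ⟨d, funext fun i => by simpa using hd i⟩
      · rintro ⟨d, rfl⟩
        funext i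
        simp [R, AddMonoidHom.compLeft]
    have hsurj : Function.Surjective R := fun c =>
      ⟨fun i => ((c i).val : ℤ_[n]), funext fun i => by simp [R, AddMonoidHom.compLeft]⟩
    rw [← hR, AddSubgroup.index_ker, AddMonoidHom.range_eq_top.2 hsurj,
      Nat.card_congr AddSubgroup.topEquiv.toEquiv, Nat.card_fun, Nat.card_zmod, Nat.card_fin]
  · rw [AddSubgroup.index_eq_one, AddMonoidHom.range_eq_top]
    have hu : IsUnit (n : ℤ_[q]) := by
      rw [PadicInt.isUnit_iff, PadicInt.norm_def]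
      push_cast
      rw [Padic.norm_natCast_eq_one_iff]
      exact (Nat.coprime_primes hnp Fact.out).2 hnq |>.symm
    obtain ⟨u, hu⟩ := hu
    exact fun c => ⟨fun i => ↑u⁻¹ * c i, funext fun i => by simp [← hu]⟩

/-- For a prime `n` with the `n`-th roots of unity in `L`, a finite extension of `ℚ_[q]`. -/
theorem index_range_pow_padic {n : ℕ} (hnp : n.Prime) [CharZero L] {ζ : L}
    (hζ : IsPrimitiveRoot ζ n) :
    (powMonoidHom n : Lˣ →* Lˣ).range.index
      = n ^ 2 * if n = q then q ^ Module.finrank ℚ_[q] L else 1 := by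
  have hn : (n : L) ≠ 0 := Nat.cast_ne_zero.2 hnp.ne_zero
  haveI : NeZero n := ⟨hnp.ne_zero⟩
  rw [index_range_pow hn, relIndex_ball_padic (q := q) hn hnp]
  have hker : (powMonoidHom n : Lˣ →* Lˣ).ker = rootsOfUnity n L := by
    ext x; simp [mem_rootsOfUnity]
  rw [hker, hζ.card_rootsOfUnity, sq]

end Padic

end Fermat.Agent.PoitouTate
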