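import Fermat.Agent.PoitouTate.Defs
import Fermat.Agent.PoitouTate.LocalPowerIndex
import Mathlib.FieldTheory.Galois.Infinite
import Mathlib.FieldTheory.AbsoluteGaloisGroup

/-!
# Finite levels of the local Galois groups

For `U ≤ GQ` of finite level, `g : GQ`, the local subgroup `locSub q U g = {τ | g⁻¹ (loc τ) g ∈ U}`
is the stabiliser of the field of values at `g`; `locField q H` is its fixed field.
-/

set_option autoImplicit false
set_option linter.style.haveILetI false

noncomputable section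

namespace Fermat.Agent.PoitouTate

local notation "Qb" => AlgebraicClosure ℚ

variable (q : Nat.Primes)

instance isGalois_padicAlgCl : IsGalois ℚ_[(q : ℕ)] (PadicAlgCl (q : ℕ)) where

/-- The elements of the local Galois group at `q` lying over `g U g⁻¹`. -/
def locSub (U : Subgroup GQ) (g : GQ) : Subgroup (LocGal q) :=
  (U.map (MulAut.conj g).toMonoidHom).comap (loc q)

variable {q}

theorem mem_locSub {U : Subgroup GQ} {g : GQ} {τ : LocGal q} :
    τ ∈ locSub q U g ↔ g⁻¹ * loc q τ * g ∈ U := by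
  rw [locSub, Subgroup.mem_comap, Subgroup.mem_map]
  constructor
  · rintro ⟨u, hu, he⟩
    rw [← he]
    simpa [MulAut.conj, mul_assoc] using hu
  · intro h
    exact ⟨_, h, by simp [MulAut.conj, mul_assoc]⟩

/-- The subgroup contains the automorphisms fixing a finite set of local values. -/
theorem exists_finite_le_locSub {U : Subgroup GQ} {L : IntermediateField ℚ Qb}
    [FiniteDimensional ℚ L] (hU : L.fixingSubgroup ≤ U) (g : GQ) :
    ∃ F : IntermediateField ℚ_[(q : ℕ)] (PadicAlgCl (q : ℕ)),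
      FiniteDimensional ℚ_[(q : ℕ)] F ∧ F.fixingSubgroup ≤ locSub q U g := by
  let b := Module.finBasis ℚ L
  let s : Set (PadicAlgCl (q : ℕ)) := Set.range fun i => padicEmbedding (q : ℕ) (g (b i : Qb))
  haveI : FiniteDimensional ℚ_[(q : ℕ)] (IntermediateField.adjoin ℚ_[(q : ℕ)] s) :=
    IntermediateField.finiteDimensional_adjoin fun x _ => (Algebra.IsAlgebraic.isAlgebraic x).isIntegral
  refine ⟨IntermediateField.adjoin ℚ_[(q : ℕ)] s, inferInstance, fun τ hτ => ?_⟩
  rw [IntermediateField.mem_fixingSubgroup_iff] at hτ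
  refine mem_locSub.2 (hU ?_)
  rw [IntermediateField.mem_fixingSubgroup_iff]
  intro x hx
  have hlin : ((g⁻¹ * loc q τ * g : GQ).toLinearMap).comp L.val.toLinearMap = L.val.toLinearMap := by
    refine b.ext fun i => ?_
    show g.symm (loc q τ (g (b i : Qb))) = (b i : Qb)
    rw [AlgEquiv.symm_apply_eq]
    refine (padicEmbedding (q : ℕ)).toRingHom.injective ?_
    show padicEmbedding (q : ℕ) _ = padicEmbedding (q : ℕ) _
    rw [padicEmbedding_loc]
    exact hτ _ (IntermediateField.subset_adjoin _ _ ⟨i, rfl⟩)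
  exact LinearMap.congr_fun hlin ⟨x, hx⟩

/-- An open subgroup of the local Galois group. -/
def IsLocLevel (H : Subgroup (LocGal q)) : Prop :=
  ∃ F : IntermediateField ℚ_[(q : ℕ)] (PadicAlgCl (q : ℕ)),
    FiniteDimensional ℚ_[(q : ℕ)] F ∧ F.fixingSubgroup ≤ H

theorem isLocLevel_locSub {U : Subgroup GQ} {L : IntermediateField ℚ Qb} [FiniteDimensional ℚ L]
    (hU : L.fixingSubgroup ≤ U) (g : GQ) : IsLocLevel (locSub q U g) :=
  exists_finite_le_locSub hU g

theorem IsLocLevel.mono {H H' : Subgroup (LocGal q)} (h : IsLocLevel H) (hle : H ≤ H') :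
    IsLocLevel H' :=
  let ⟨F, hF, hFH⟩ := h
  ⟨F, hF, hFH.trans hle⟩

variable (q) in
/-- The fixed field. -/
abbrev locField (H : Subgroup (LocGal q)) : IntermediateField ℚ_[(q : ℕ)] (PadicAlgCl (q : ℕ)) :=
  IntermediateField.fixedField H

theorem IsLocLevel.finiteDimensional {H : Subgroup (LocGal q)} (h : IsLocLevel H) :
    FiniteDimensional ℚ_[(q : ℕ)] (locField q H) := by
  obtain ⟨F, hF, hFH⟩ := h
  have hle : locField q H ≤ F := by
    conv_rhs => rw [← InfiniteGalois.fixedField_fixingSubgroup F]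
    intro x hx
    rw [IntermediateField.mem_fixedField_iff] at hx ⊢
    exact fun τ hτ => hx τ (hFH hτ)
  exact FiniteDimensional.of_injective (IntermediateField.inclusion hle).toLinearMap
    (IntermediateField.inclusion_injective hle)

theorem IsLocLevel.isClosed {H : Subgroup (LocGal q)} (h : IsLocLevel H) :
    IsClosed (H : Set (LocGal q)) := by
  obtain ⟨F, hF, hFH⟩ := h
  refine Subgroup.isClosed_of_isOpen H (Subgroup.isOpen_mono hFH ?_)
  exact F.fixingSubgroup_isOpen

theorem IsLocLevel.fixingSubgroup_locField {H : Subgroup (LocGal q)} (h : IsLocLevel H) :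
    (locField q H).fixingSubgroup = H :=
  InfiniteGalois.fixingSubgroup_fixedField ⟨H, h.isClosed⟩

theorem mem_locField {H : Subgroup (LocGal q)} {x : PadicAlgCl (q : ℕ)} :
    x ∈ locField q H ↔ ∀ τ ∈ H, τ x = x :=
  IntermediateField.mem_fixedField_iff _ _

/-- Values of an idele at `g` lie in the local field of `locSub`. -/
theorem fin_mem_locField {T : Finset Nat.Primes} {f : Amb T} (hf : f ∈ J T) (q : ↥T)
    {U : Subgroup GQ} (hU : ∀ s ∈ U, s • f = f) (g : GQ) {τ : LocGal q.1}
    (hτ : τ ∈ locSub q.1 U g) : locAct q.1 τ (f.fin q g) = f.fin q g := by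
  have h := congrArg (fun f' : Amb T => f'.fin q g) (hU _ (mem_locSub.1 hτ))
  simp only [Amb.fin_smul] at h
  rw [← hf.1 q τ g]
  convert h using 2
  group

/-! ### Norm and valuation on the algebraic closure -/

theorem norm_locGal (τ : LocGal q) (x : PadicAlgCl (q : ℕ)) : ‖τ x‖ = ‖x‖ :=
  (spectralNorm_eq_of_equiv τ x).symm

/-- The restriction of `τ` to a stable finite field. -/
def restrictAut (K : IntermediateField ℚ_[(q : ℕ)] (PadicAlgCl (q : ℕ))) (τ : LocGal q)
    (hτ : K.map τ.toAlgHom = K) : K ≃ₐ[ℚ_[(q : ℕ)]] K :=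
  (IntermediateField.intermediateFieldMap τ K).trans (IntermediateField.equivOfEq hτ)

@[simp] theorem coe_restrictAut (K : IntermediateField ℚ_[(q : ℕ)] (PadicAlgCl (q : ℕ)))
    (τ : LocGal q) (hτ : K.map τ.toAlgHom = K) (x : K) :
    (restrictAut K τ hτ x : PadicAlgCl (q : ℕ)) = τ x := rfl

theorem map_locField_eq {N : Subgroup (LocGal q)} {τ : LocGal q}
    (hτ : ∀ s ∈ N, τ * s * τ⁻¹ ∈ N) (hτ' : ∀ s ∈ N, τ⁻¹ * s * τ ∈ N) :
    (locField q N).map τ.toAlgHom = locField q N := by
  ext x
  constructor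
  · rintro ⟨y, hy, rfl⟩
    refine mem_locField.2 fun s hs => ?_
    have h := mem_locField.1 hy _ (hτ' s hs)
    show s (τ y) = τ y
    conv_rhs => rw [← h]
    simp [AlgEquiv.mul_apply]
  · intro hx
    refine ⟨τ⁻¹ x, mem_locField.2 fun s hs => ?_, ?_⟩
    · have h := mem_locField.1 hx _ (hτ s hs)
      conv_rhs => rw [← h]
      simp [AlgEquiv.mul_apply]
    · simp

/-! ### Subgroups of the local values -/

variable (q) in
/-- The values fixed by a subgroup. -/
def fixedVal (H : Subgroup (LocGal q)) : AddSubgroup (LocVal q) where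
  carrier := {x | ∀ τ ∈ H, locAct q τ x = x}
  zero_mem' _ _ := map_zero _
  add_mem' hx hy τ hτ := by rw [map_add, hx τ hτ, hy τ hτ]
  neg_mem' hx τ hτ := by rw [map_neg, hx τ hτ]

variable (q) in
/-- The values of norm one. -/
def unitVal : AddSubgroup (LocVal q) :=
  (normOneUnits (PadicAlgCl (q : ℕ))).toAddSubgroup

variable (q) in
/-- `∑ i < n, τ ^ i`. -/
def normVal (τ : LocGal q) (n : ℕ) : LocVal q →+ LocVal q :=
  ∑ i ∈ Finset.range n, locAct q (τ ^ i)

end Fermat.Agent.PoitouTate
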