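/-
Primes at which the decomposition group of a finite Galois level is generated by the restriction
of a given automorphism.
-/
import Fermat.Agent.Density.Main
import Fermat.Agent.PoitouTate.IdelePlace
import Fermat.Agent.PoitouTate.GlobalClassFinite
import Fermat.Agent.PoitouTate.GlobalLocalConj
import Fermat.Agent.PoitouTate.GlobalPrincipalize
import Fermat.Agent.PoitouTate.LocalFields

set_option autoImplicit false
set_option linter.style.haveILetI false
set_option maxHeartbeats 400000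

noncomputable section

open NumberField
open scoped Pointwise

namespace Fermat.Agent.PoitouTate

local notation "Qb" => AlgebraicClosure ℚ

/-- The nonunits of the place of `q` are the elements of norm below one. -/
theorem mem_nonunits_padicPlace (q : Nat.Primes) (x : Qb) :
    x ∈ (padicPlace (q : ℕ)).nonunits ↔ ‖padicEmbedding (q : ℕ) x‖ < 1 := by
  rw [ValuationSubring.mem_nonunits_iff_or]
  by_cases hx : x = 0
  · simp [hx]
  have hpos : 0 < ‖padicEmbedding (q : ℕ) x‖ := by simpa using hx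
  rw [mem_padicPlace_iff, map_inv₀, ← NNReal.coe_le_coe, coe_nnnorm, norm_inv, NNReal.coe_one,
    inv_le_one₀ hpos, not_le]
  simp [hx]

/-- For a finite Galois level `M` and an automorphism `σ` there are primes `q` and `g` such that
the decomposition group at `(q, g)` acts on `M` by powers of `σ` and conversely. -/
theorem exists_prime_decomposition_eq (M : IntermediateField ℚ Qb) [FiniteDimensional ℚ M]
    (hM : M.fixingSubgroup.Normal) (σ : GQ) (S : Finset Nat.Primes) :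
    ∃ q : Nat.Primes, q ∉ S ∧ ∃ g : GQ,
      (∀ τ : LocGal q, ∃ k : ℕ, ∀ x ∈ M, (g⁻¹ * loc q τ * g) x = (σ ^ k) x) ∧
      ∃ τ : LocGal q, ∃ k : ℕ, ∀ x ∈ M, σ x = ((g⁻¹ * loc q τ * g) ^ k) x := by
  classical
  haveI : IsGalois ℚ M := (InfiniteGalois.normal_iff_isGalois M).1 hM
  haveI : NumberField M := @NumberField.mk _ _ inferInstance inferInstance
  obtain ⟨m, hm, hgood⟩ := Density.exists_forall_isGoodPrime M ℚ
  obtain ⟨ℓ, hℓ, hℓS, A, hA, φ, hφ, ⟨k₁, hk₁⟩, ⟨k₂, hk₂⟩⟩ := Density.exists_frobenius_pow σ M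
    (S.image (fun r : Nat.Primes => (r : ℕ)) ∪ m.divisors)
  rw [Finset.mem_union, not_or] at hℓS
  obtain ⟨q, rfl⟩ : ∃ q : Nat.Primes, (q : ℕ) = ℓ := ⟨⟨ℓ, hℓ⟩, rfl⟩
  obtain ⟨g, hg⟩ := Galois.exists_smul_eq_of_liesOverPrime hℓ hA (liesOverPrime_padicPlace q)
  have hgoodℓ : Density.IsGoodPrime M ℚ (q : ℕ) :=
    hgood _ hℓ fun h => hℓS.2 (Nat.mem_divisors.2 ⟨h, hm⟩)
  have hAnorm : ∀ x : Qb, x ∈ A.nonunits ↔ ‖padicEmbedding (q : ℕ) (g x)‖ < 1 := fun x => by
    rw [← mem_nonunits_padicPlace q, ← hg, Galois.mem_smul_nonunits]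
    simp [AlgEquiv.smul_def]
  set Q := placeIdeal q g M with hQdef
  have hQp : Q.IsPrime := isPrime_placeIdeal q g M
  have hint : ∀ x : 𝓞 M, IsIntegral ℤ (((x : M) : Qb)) := fun x =>
    (RingOfIntegers.isIntegral_coe x).map (M.val.restrictScalars ℤ)
  have hrestrict : ∀ (e : GQ) (x : 𝓞 M),
      (((AlgEquiv.restrictNormalHom M e • x : 𝓞 M) : M) : Qb) = e ((x : M) : Qb) := fun e x => by
    rw [Density.coe_smul_ringOfIntegers]
    exact AlgEquiv.restrictNormal_commutes e M (x : M)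
  have hfrob : Density.IsFrob ℚ (q : ℕ) (AlgEquiv.restrictNormalHom M φ) Q := fun x => by
    have h1 := Density.sub_pow_mem_nonunits hφ
      (Galois.mem_valuationSubring_of_isIntegral A (hint x))
    rw [hAnorm] at h1
    rw [hQdef, mem_placeIdeal]
    rw [show (((AlgEquiv.restrictNormalHom M φ • x - x ^ (q : ℕ) : 𝓞 M) : M) : Qb)
      = φ ((x : M) : Qb) - ((x : M) : Qb) ^ (q : ℕ) by rw [← hrestrict]; push_cast; rfl]
    exact h1
  have hdec : ∀ τ : LocGal q, ∃ j : ℕ, ∀ x ∈ M, (g⁻¹ * loc q τ * g) x = (φ ^ j) x := by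
    intro τ
    have hnorm : ∀ x : Qb, ‖padicEmbedding (q : ℕ) (g ((g⁻¹ * loc q τ * g) x))‖
        = ‖padicEmbedding (q : ℕ) (g x)‖ := fun x => by
      rw [← AlgEquiv.mul_apply, show g * (g⁻¹ * loc q τ * g) = loc q τ * g by group,
        AlgEquiv.mul_apply]
      exact (congrArg norm (padicEmbedding_loc q τ _)).trans (norm_locGal τ _)
    have hmem : ∀ x : 𝓞 M,
        AlgEquiv.restrictNormalHom M (g⁻¹ * loc q τ * g) • x ∈ Q ↔ x ∈ Q := fun x => by
      rw [hQdef, mem_placeIdeal, mem_placeIdeal, hrestrict]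
      exact Iff.of_eq (congrArg (· < (1 : ℝ)) (hnorm _))
    have hd : AlgEquiv.restrictNormalHom M (g⁻¹ * loc q τ * g) • Q = Q := by
      ext x
      rw [Ideal.mem_pointwise_smul_iff_inv_smul_mem, ← hmem, smul_inv_smul]
    obtain ⟨j, hj⟩ := Density.exists_pow_eq_of_smul_eq hℓ hgoodℓ hQp
      (natCast_mem_placeIdeal q g M) hfrob hd
    refine ⟨j, fun x hx => ?_⟩
    rw [← map_pow] at hj
    have h1 := AlgEquiv.restrictNormal_commutes (φ ^ j) M ⟨x, hx⟩
    have h2 := AlgEquiv.restrictNormal_commutes (g⁻¹ * loc q τ * g) M ⟨x, hx⟩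
    exact h2.symm.trans ((congrArg (fun e : M ≃ₐ[ℚ] M => algebraMap M Qb (e ⟨x, hx⟩)) hj.symm).trans h1)
  have hmapM : ∀ (e : GQ), ∀ x ∈ M, e x ∈ M := fun e x hx => by
    have h1 := AlgEquiv.restrictNormal_commutes e M ⟨x, hx⟩
    rw [show e x = e (algebraMap M Qb ⟨x, hx⟩) from rfl, ← h1]
    exact SetLike.coe_mem _
  have hpow : ∀ (e e' : GQ), (∀ x ∈ M, e x = e' x) → ∀ j : ℕ, ∀ x ∈ M, (e ^ j) x = (e' ^ j) x := by
    intro e e' h j
    induction j with
    | zero => simp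
    | succ j ih =>
      intro x hx
      rw [pow_succ, pow_succ, AlgEquiv.mul_apply, AlgEquiv.mul_apply, h x hx]
      exact ih _ (hmapM e' x hx)
  have hlocal : ∃ τ : LocGal q, ∀ x ∈ M, φ x = (g⁻¹ * loc q τ * g) x := by
    have heq : placeIdeal q g M = placeIdeal q (g * φ) M := by
      have hst : ∀ x : Qb, φ x ∈ A.nonunits ↔ x ∈ A.nonunits := fun x => by
        have hstab : φ • A = A := hφ.mem_decompositionSubgroup
        have h2 := Galois.mem_smul_nonunits φ A (φ x)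
        rw [hstab] at h2
        rw [h2, AlgEquiv.smul_def, ← AlgEquiv.mul_apply, inv_mul_cancel, AlgEquiv.one_apply]
      ext x
      rw [mem_placeIdeal, mem_placeIdeal, AlgEquiv.mul_apply]
      exact (hAnorm _).symm.trans ((hst _).symm.trans (hAnorm _))
    obtain ⟨τ, s, hs, he⟩ := exists_local_of_placeIdeal_eq q g M heq
    refine ⟨τ, fun x hx => ?_⟩
    have h1 : φ = g⁻¹ * loc q τ * g * s := by
      rw [show g⁻¹ * loc q τ * g * s = g⁻¹ * (loc q τ * g * s) by group, ← he]; group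
    rw [h1, AlgEquiv.mul_apply, (IntermediateField.mem_fixingSubgroup_iff _ _).1 hs x hx]
  refine ⟨q, fun hq => hℓS.1 (Finset.mem_image.2 ⟨q, hq, rfl⟩), g, fun τ => ?_, ?_⟩
  · obtain ⟨j, hj⟩ := hdec τ
    refine ⟨k₂ * j, fun x hx => ?_⟩
    rw [hj x hx, pow_mul]
    exact hpow φ (σ ^ k₂) hk₂ j x hx
  · obtain ⟨τ, hτ⟩ := hlocal
    exact ⟨τ, k₁, fun x hx => (hk₁ x hx).trans (hpow φ _ hτ k₁ x hx)⟩

end Fermat.Agent.PoitouTate
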