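/-
Elementary Kummer theory inside `ℚ̄` over a field containing the `p`-th roots of unity.
-/
import Fermat.Agent.Galois.QbarInstances
import Mathlib.FieldTheory.Galois.Infinite
import Mathlib.RingTheory.RootsOfUnity.PrimitiveRoots

set_option autoImplicit false

noncomputable section

namespace Fermat.Agent.PoitouTate

local notation "Qb" => AlgebraicClosure ℚ
local notation "GQ" => (AlgebraicClosure ℚ ≃ₐ[ℚ] AlgebraicClosure ℚ)

variable {K : IntermediateField ℚ Qb}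

theorem mem_of_fixed {y : Qb} (h : ∀ σ ∈ K.fixingSubgroup, σ y = y) : y ∈ K := by
  have := InfiniteGalois.fixedField_fixingSubgroup K
  rw [← this]
  exact (IntermediateField.mem_fixedField_iff _ _).2 h

theorem apply_eq_of_mem {σ : GQ} (hσ : σ ∈ K.fixingSubgroup) {x : Qb} (hx : x ∈ K) : σ x = x :=
  (IntermediateField.mem_fixingSubgroup_iff _ _).1 hσ x hx

variable {p : ℕ} {ζ : Qb}

/-- The Galois translates of a `p`-th root differ by powers of `ζ`. -/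
theorem exists_apply_eq_pow_mul (hζ : IsPrimitiveRoot ζ p) [NeZero p] {σ : GQ}
    (hσ : σ ∈ K.fixingSubgroup) {a : Qb} (ha : a ^ p ∈ K) :
    ∃ j < p, σ a = ζ ^ j * a := by
  rcases eq_or_ne a 0 with rfl | ha0
  · exact ⟨0, Nat.pos_of_ne_zero (NeZero.ne p), by simp⟩
  have h : (σ a / a) ^ p = 1 := by
    rw [div_pow, ← map_pow, apply_eq_of_mem hσ ha, div_self (pow_ne_zero _ ha0)]
  obtain ⟨j, hj, hje⟩ := hζ.eq_pow_of_pow_eq_one h
  exact ⟨j, hj, by rw [hje, div_mul_cancel₀ _ ha0]⟩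

/-- If every automorphism over `K` fixing the `p`-th root `a` fixes the `p`-th root `y`, then
`y ∈ a ^ i * K`. -/
theorem exists_eq_pow_mul_of_fixed (hp : p.Prime) (hζ : IsPrimitiveRoot ζ p) (hζK : ζ ∈ K)
    {a y : Qb} (ha0 : a ≠ 0) (ha : a ^ p ∈ K) (hy : y ^ p ∈ K)
    (h : ∀ σ ∈ K.fixingSubgroup, σ a = a → σ y = y) :
    ∃ i, ∃ c ∈ K, y = a ^ i * c := by
  have : NeZero p := ⟨hp.ne_zero⟩
  by_cases haK : a ∈ K
  · exact ⟨0, y, mem_of_fixed fun σ hσ => h σ hσ (apply_eq_of_mem hσ haK), by simp⟩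
  obtain ⟨σ₀, hσ₀, hne⟩ : ∃ σ₀ ∈ K.fixingSubgroup, σ₀ a ≠ a := by
    by_contra hcon
    push Not at hcon
    exact haK (mem_of_fixed hcon)
  have hpow : ∀ (σ : GQ), σ ∈ K.fixingSubgroup → ∀ (x : Qb) (j : ℕ), σ x = ζ ^ j * x →
      ∀ n : ℕ, (σ ^ n) x = ζ ^ (j * n) * x := by
    intro σ hσ x j hx n
    induction n with
    | zero => simp
    | succ n ih =>
      rw [pow_succ', AlgEquiv.mul_apply, ih, map_mul, map_pow, apply_eq_of_mem hσ hζK, hx]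
      ring
  obtain ⟨k, hk, hka⟩ := exists_apply_eq_pow_mul hζ hσ₀ ha
  have hk0 : k ≠ 0 := by rintro rfl; exact hne (by simpa using hka)
  obtain ⟨m, hm⟩ : ∃ m, k * m % p = 1 % p := by
    obtain ⟨m, hm⟩ := Nat.exists_mul_mod_eq_one_of_coprime (k := p) (n := k)
      ((Nat.coprime_comm.1 (hp.coprime_iff_not_dvd.2 fun hd =>
        absurd (Nat.le_of_dvd (Nat.pos_of_ne_zero hk0) hd) (not_le.2 hk)))) hp.one_lt
    exact ⟨m, by rw [hm.2, Nat.one_mod_eq_one.2 hp.one_lt.ne']⟩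
  set σ := σ₀ ^ m with hσdef
  have hσ : σ ∈ K.fixingSubgroup := Subgroup.pow_mem _ hσ₀ m
  have hσa : σ a = ζ * a := by
    rw [hσdef, hpow σ₀ hσ₀ a k hka m, pow_eq_pow_mod (k * m) hζ.pow_eq_one, hm,
      ← pow_eq_pow_mod 1 hζ.pow_eq_one, pow_one]
  obtain ⟨i, -, hiy⟩ := exists_apply_eq_pow_mul hζ hσ hy
  refine ⟨i, y / a ^ i, mem_of_fixed fun τ hτ => ?_, by field_simp⟩
  obtain ⟨j, -, hja⟩ := exists_apply_eq_pow_mul hζ hτ ha
  -- `σ ^ (p - j) * τ` fixes `a`, hence `y`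
  obtain ⟨n, hn⟩ : ∃ n : ℕ, ζ ^ (n + j) = 1 := ⟨j * (p - 1), by
    have h1 : j * (p - 1) + j = p * j := by
      obtain ⟨q, rfl⟩ : ∃ q, p = q + 1 := ⟨p - 1, by have := hp.one_lt; omega⟩
      rw [Nat.add_sub_cancel]; ring
    rw [h1, pow_mul, hζ.pow_eq_one, one_pow]⟩
  have hfix : (σ ^ n * τ) a = a := by
    rw [AlgEquiv.mul_apply, hja, map_mul, map_pow, apply_eq_of_mem (Subgroup.pow_mem _ hσ n) hζK,
      hpow σ hσ a 1 (by rw [hσa, pow_one]) n, one_mul, ← mul_assoc, ← pow_add, add_comm j n, hn,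
      one_mul]
  have hy' := h _ (Subgroup.mul_mem _ (Subgroup.pow_mem _ hσ n) hτ) hfix
  obtain ⟨l, -, hly⟩ := exists_apply_eq_pow_mul hζ hτ hy
  rw [AlgEquiv.mul_apply, hly, map_mul, map_pow, apply_eq_of_mem (Subgroup.pow_mem _ hσ n) hζK,
    hpow σ hσ y i hiy n, ← mul_assoc, ← pow_add] at hy'
  rcases eq_or_ne y 0 with rfl | hy0
  · simp
  have hli : ζ ^ (l + i * n) = 1 :=
    mul_right_cancel₀ hy0 (hy'.trans (one_mul y).symm)
  have hl : ζ ^ l = ζ ^ (i * j) := by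
    have h2 : ζ ^ (i * n) * ζ ^ (i * j) = 1 := by
      rw [← pow_add, ← mul_add, mul_comm, pow_mul, hn, one_pow]
    calc ζ ^ l = ζ ^ l * (ζ ^ (i * n) * ζ ^ (i * j)) := by rw [h2, mul_one]
      _ = ζ ^ (i * j) := by rw [← mul_assoc, ← pow_add, hli, one_mul]
  rw [map_div₀, map_pow, hly, hja, hl, mul_pow, ← pow_mul, mul_comm j i]
  have hζ0 : ζ ≠ 0 := hζ.ne_zero hp.ne_zero
  field_simp

/-- If `β` is not in `α ^ ℤ * K ^ p`, some automorphism over `K` fixes a root of `α` and moves a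
given root of `β`. -/
theorem exists_fix_and_move (hp : p.Prime) (hζ : IsPrimitiveRoot ζ p) (hζK : ζ ∈ K)
    {a b : Qb} (ha0 : a ≠ 0) (ha : a ^ p ∈ K) (hb : b ^ p ∈ K)
    (h : ∀ (i : ℕ) (c : Qb), c ∈ K → b ^ p ≠ (a ^ p) ^ i * c ^ p) :
    ∃ σ ∈ K.fixingSubgroup, σ a = a ∧ σ b ≠ b := by
  by_contra hcon
  push Not at hcon
  obtain ⟨i, c, hc, rfl⟩ := exists_eq_pow_mul_of_fixed hp hζ hζK ha0 ha hb hcon
  exact h i c hc (by rw [mul_pow, ← pow_mul, ← pow_mul, mul_comm i p])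

end Fermat.Agent.PoitouTate
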