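/-
Equivariant functions on a set with group action: they are determined freely by their values at
orbit representatives, fixed by the stabilisers.
-/
import Mathlib.GroupTheory.GroupAction.Basic
import Mathlib.Algebra.Group.Pi.Basic
import Mathlib.Algebra.GroupWithZero.Action.Defs
import Mathlib.Algebra.Group.Subgroup.Basic

set_option autoImplicit false

noncomputable section

namespace Fermat.Agent.PoitouTate

variable (D X A : Type*) [Group D] [MulAction D X] [AddCommGroup A] [DistribMulAction D A]

/-- The equivariant functions `X → A`. -/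
def equivariantFns : AddSubgroup (X → A) where
  carrier := {f | ∀ (d : D) x, f (d • x) = d • f x}
  zero_mem' d _ := (smul_zero d).symm
  add_mem' {f g} hf hg d x := by simp only [Pi.add_apply, hf d x, hg d x, smul_add]
  neg_mem' {f} hf d x := by simp only [Pi.neg_apply, hf d x, smul_neg]

/-- The elements fixed by the stabiliser of a point. -/
def stabFixed (x : X) : AddSubgroup A where
  carrier := {a | ∀ d ∈ MulAction.stabilizer D x, d • a = a}
  zero_mem' d _ := smul_zero d
  add_mem' {a b} ha hb d hd := by rw [smul_add, ha d hd, hb d hd]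
  neg_mem' {a} ha d hd := by rw [smul_neg, ha d hd]

variable {D X A}

theorem mem_equivariantFns {f : X → A} :
    f ∈ equivariantFns D X A ↔ ∀ (d : D) x, f (d • x) = d • f x := Iff.rfl

theorem mem_stabFixed {x : X} {a : A} :
    a ∈ stabFixed D X A x ↔ ∀ d ∈ MulAction.stabilizer D x, d • a = a := Iff.rfl

variable (r : Quotient (MulAction.orbitRel D X) → X) (hr : ∀ o, ⟦r o⟧ = o)

theorem apply_mem_stabFixed (f : equivariantFns D X A) (x : X) :
    (f : X → A) x ∈ stabFixed D X A x := fun d hd => by
  rw [← f.2 d x, MulAction.mem_stabilizer_iff.1 hd]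

include hr in
theorem exists_smul_rep (x : X) : ∃ d : D, d • r ⟦x⟧ = x :=
  MulAction.orbitRel_apply.1 (Setoid.symm' _ (Quotient.exact (hr ⟦x⟧)))

/-- Evaluation at representatives. -/
def evalReps : equivariantFns D X A ≃+ (∀ o, stabFixed D X A (r o)) where
  toFun f o := ⟨(f : X → A) (r o), apply_mem_stabFixed f _⟩
  invFun a := ⟨fun x => (exists_smul_rep r hr x).choose • (a ⟦x⟧ : A), fun d x => by
    obtain ⟨d₁, hd₁⟩ : ∃ e, e = (exists_smul_rep r hr (d • x)).choose := ⟨_, rfl⟩
    obtain ⟨d₂, hd₂⟩ : ∃ e, e = (exists_smul_rep r hr x).choose := ⟨_, rfl⟩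
    have h₁ : d₁ • r ⟦d • x⟧ = d • x := hd₁ ▸ (exists_smul_rep r hr (d • x)).choose_spec
    have h₂ : d₂ • r ⟦x⟧ = x := hd₂ ▸ (exists_smul_rep r hr x).choose_spec
    show (exists_smul_rep r hr (d • x)).choose • (a ⟦d • x⟧ : A)
      = d • ((exists_smul_rep r hr x).choose • (a ⟦x⟧ : A))
    rw [← hd₁, ← hd₂]
    have he : (⟦d • x⟧ : Quotient (MulAction.orbitRel D X)) = ⟦x⟧ :=
      Quotient.sound (MulAction.mem_orbit x d)
    rw [he] at h₁ ⊢
    have hs : (d * d₂)⁻¹ * d₁ ∈ MulAction.stabilizer D (r ⟦x⟧) := by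
      rw [MulAction.mem_stabilizer_iff, mul_smul, h₁, inv_smul_eq_iff, mul_smul, h₂]
    have := (a ⟦x⟧).2 _ hs
    rw [mul_smul, inv_smul_eq_iff, mul_smul] at this
    exact this⟩
  left_inv f := Subtype.ext (funext fun x => by
    show (exists_smul_rep r hr x).choose • (f : X → A) (r ⟦x⟧) = _
    rw [← f.2, (exists_smul_rep r hr x).choose_spec])
  right_inv a := funext fun o => Subtype.ext (by
    show (exists_smul_rep r hr (r o)).choose • (a ⟦r o⟧ : A) = (a o : A)
    have h := (exists_smul_rep r hr (r o)).choose_spec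
    generalize (exists_smul_rep r hr (r o)).choose = d at h ⊢
    rw [hr o] at h ⊢
    exact (a o).2 d h)
  map_add' _ _ := rfl

@[simp] theorem evalReps_apply (f : equivariantFns D X A) (o) :
    (evalReps r hr f o : A) = (f : X → A) (r o) := rfl

include hr in
/-- Membership in a `D`-stable subgroup may be checked at representatives. -/
theorem forall_mem_iff_reps (B : AddSubgroup A) (hB : ∀ (d : D), ∀ a ∈ B, d • a ∈ B)
    (f : equivariantFns D X A) :
    (∀ x, (f : X → A) x ∈ B) ↔ ∀ o, (f : X → A) (r o) ∈ B := by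
  refine ⟨fun h o => h _, fun h x => ?_⟩
  obtain ⟨d, hd⟩ := exists_smul_rep r hr x
  rw [← hd, f.2]
  exact hB d _ (h _)

end Fermat.Agent.PoitouTate
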