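/-
Principal ideles of the levels, and representatives of fixed classes (Hilbert 90).
-/
import Fermat.Agent.PoitouTate.IdelePlace
import Fermat.Agent.PoitouTate.Api
import Mathlib.RingTheory.Ideal.Norm.AbsNorm
import Mathlib.LinearAlgebra.LinearIndependent.Basic

set_option autoImplicit false

open scoped NumberField
open NumberField

noncomputable section

namespace Fermat.Agent.PoitouTate

local notation "Qb" => AlgebraicClosure ℚ

variable {T : Finset Nat.Primes}

theorem ext_locVal {q : Nat.Primes} {a b : LocVal q}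
    (h : ((Additive.toMul a : (PadicAlgCl (q : ℕ))ˣ) : PadicAlgCl (q : ℕ)) =
      ((Additive.toMul b : (PadicAlgCl (q : ℕ))ˣ) : PadicAlgCl (q : ℕ))) : a = b :=
  Additive.toMul.injective (Units.ext h)

theorem ord_eq_of_zpow_eq {q : Nat.Primes} {a b : ℤ}
    (h : ((q : ℕ) : ℝ) ^ (-a) = ((q : ℕ) : ℝ) ^ (-b)) : a = b :=
  neg_inj.1 (zpow_right_injective₀ (by exact_mod_cast q.2.pos) (one_lt_prime q).ne' h)

theorem IsPrincipalOf.eq {f f' : Amb T} {x : Qb} (h : IsPrincipalOf f x)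
    (h' : IsPrincipalOf f' x) : f = f' :=
  Amb.ext (fun q g => ext_locVal ((h.fin_eq q g).trans (h'.fin_eq q g).symm))
    fun q g => ord_eq_of_zpow_eq ((h.ord_eq q g).symm.trans (h'.ord_eq q g))

theorem IsPrincipalOf.sub {f f' : Amb T} {x y : Qb} (h : IsPrincipalOf f x)
    (h' : IsPrincipalOf f' y) : IsPrincipalOf (f - f') (x / y) := by
  refine ⟨div_ne_zero h.ne_zero h'.ne_zero, fun q g => ?_, fun q g => ?_⟩
  · rw [Amb.fin_sub, toMul_sub, Units.val_div_eq_div_val, h.fin_eq, h'.fin_eq, map_div₀, map_div₀]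
  · rw [map_div₀, map_div₀, norm_div, h.ord_eq, h'.ord_eq, Amb.ord_sub,
      ← zpow_sub₀ (by exact_mod_cast q.1.2.ne_zero)]
    congr 1; ring

theorem isPrincipalOf_one : IsPrincipalOf (0 : Amb T) 1 :=
  ⟨one_ne_zero, fun q g => by simp, fun q g => by simp⟩

/-- The element is determined by its principal idele. -/
theorem IsPrincipalOf.elem_eq (hT : T.Nonempty) {f : Amb T} {x y : Qb} (h : IsPrincipalOf f x)
    (h' : IsPrincipalOf f y) : x = y := by
  obtain ⟨q, hq⟩ := hT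
  exact (padicEmbedding (q : ℕ)).toRingHom.injective
    ((h.fin_eq ⟨q, hq⟩ 1).symm.trans (h'.fin_eq ⟨q, hq⟩ 1))

theorem IsPrincipalOf.smul_eq_self {f : Amb T} {x : Qb} (h : IsPrincipalOf f x) {σ : GQ}
    (hσ : σ x = x) : σ • f = f := by
  have h' := h.smul σ
  rw [hσ] at h'
  exact h'.eq h

theorem IsPrincipalOf.apply_eq_self (hT : T.Nonempty) {f : Amb T} {x : Qb}
    (h : IsPrincipalOf f x) {σ : GQ} (hσ : σ • f = f) : σ x = x := by
  have h' := h.smul σ
  rw [hσ] at h'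
  exact h'.elem_eq hT h

theorem IsPrincipalOf.mem_of_fixed (hT : T.Nonempty) {f : Amb T} {x : Qb}
    (h : IsPrincipalOf f x) {L : IntermediateField ℚ Qb}
    (hf : ∀ s ∈ L.fixingSubgroup, s • f = f) : x ∈ L := by
  rw [← InfiniteGalois.fixedField_fixingSubgroup L, IntermediateField.mem_fixedField_iff]
  exact fun s hs => h.apply_eq_self hT (hf s hs)

variable (T) in
/-- The exponent of `q` in `x` along `g`. -/
def prinOrd (q : Nat.Primes) (g : GQ) (x : Qb) : ℤ :=
  open scoped Classical in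
  if h : ∃ k : ℤ, ‖padicEmbedding (q : ℕ) (g x)‖ = ((q : ℕ) : ℝ) ^ (-k) then h.choose else 0

variable (T) in
/-- The principal element of the ambient group attached to `x ≠ 0`. -/
def prinAmb (x : Qb) (hx : x ≠ 0) : Amb T :=
  (fun q g => Additive.ofMul (Units.mk0 (padicEmbedding (q.1 : ℕ) (g x))
    (by simpa using hx)), fun q g => prinOrd q.1 g x)

theorem prinOrd_spec {L : IntermediateField ℚ Qb} (hL : IsLvl T L) {q : Nat.Primes} (hq : q ∉ T)
    (g : GQ) {x : Qb} (hxL : x ∈ L) (hx : x ≠ 0) :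
    ‖padicEmbedding (q : ℕ) (g x)‖ = ((q : ℕ) : ℝ) ^ (-prinOrd q g x) := by
  have h := exists_norm_eq_zpow q g hL hq hxL hx
  rw [prinOrd, dif_pos h]
  exact h.choose_spec

theorem isPrincipalOf_prinAmb {L : IntermediateField ℚ Qb} (hL : IsLvl T L) {x : Qb} (hxL : x ∈ L)
    (hx : x ≠ 0) : IsPrincipalOf (prinAmb T x hx) x :=
  ⟨hx, fun _ _ => rfl, fun q g => prinOrd_spec hL q.2 g hxL hx⟩

/-- Outside the divisors of the norm, an algebraic integer is a unit. -/
theorem finite_setOf_norm_ne_one {L : IntermediateField ℚ Qb} [NumberField L] {x : Qb}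
    (hxL : x ∈ L) (hx : x ≠ 0) :
    {q : Nat.Primes | ∃ g : GQ, ‖padicEmbedding (q : ℕ) (g x)‖ ≠ 1}.Finite := by
  obtain ⟨a, b, hb, hab⟩ := IsFractionRing.div_surjective (𝓞 L) (⟨x, hxL⟩ : L)
  have hx' : x = ((a : L) : Qb) / ((b : L) : Qb) := by
    have := congrArg (fun t : L => (t : Qb)) hab.symm
    simpa using this
  have ha : a ≠ 0 := by
    rintro rfl
    exact hx (by simpa using hx')
  have key : ∀ c : 𝓞 L, c ≠ 0 →
      {q : Nat.Primes | ∃ g : GQ, ‖placeHom q g L c‖ < 1}.Finite := by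
    intro c hc
    have hn : Ideal.absNorm (Ideal.span {c}) ≠ 0 := by simpa [Ideal.absNorm_eq_zero_iff] using hc
    refine ((Nat.divisors (Ideal.absNorm (Ideal.span {c}))).finite_toSet.preimage
      (Nat.Primes.coe_nat_injective.injOn)).subset ?_
    rintro q ⟨g, hg⟩
    simp only [Set.mem_preimage, Finset.mem_coe, Nat.mem_divisors]
    refine ⟨?_, hn⟩
    by_contra hdvd
    have hmem : ((Ideal.absNorm (Ideal.span {c}) : ℕ) : 𝓞 L) ∈ placePrime q g L :=
      (Ideal.span_singleton_le_iff_mem _).2 (show c ∈ placePrime q g L from hg)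
        (Ideal.absNorm_mem _)
    obtain ⟨u, v, huv⟩ := Int.isCoprime_iff_gcd_eq_one.2
      (show Int.gcd ((q : ℕ) : ℤ) ((Ideal.absNorm (Ideal.span {c}) : ℕ) : ℤ) = 1 by
        rw [Int.gcd_natCast_natCast]; exact (q.2.coprime_iff_not_dvd).2 hdvd)
    refine (isPrime_placePrime q g L).ne_top ((Ideal.eq_top_iff_one _).2 ?_)
    have h1 : ((u : 𝓞 L) * ((q : ℕ) : 𝓞 L) +
        (v : 𝓞 L) * ((Ideal.absNorm (Ideal.span {c}) : ℕ) : 𝓞 L)) = 1 := by
      exact_mod_cast congrArg (Int.cast : ℤ → 𝓞 L) huv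
    rw [← h1]
    exact add_mem (Ideal.mul_mem_left _ _ (natCast_mem_placePrime q g L))
      (Ideal.mul_mem_left _ _ hmem)
  refine ((key a ha).union (key b (nonZeroDivisors.ne_zero hb))).subset ?_
  rintro q ⟨g, hg⟩
  by_contra hcon
  simp only [Set.mem_union, Set.mem_setOf_eq, not_or, not_exists, not_lt] at hcon
  refine hg ?_
  rw [hx', map_div₀, map_div₀, norm_div, ← placeHom_apply, ← placeHom_apply,
    le_antisymm (norm_coe_le_one q g L a) (hcon.1 g),
    le_antisymm (norm_coe_le_one q g L b) (hcon.2 g), div_one]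

theorem prinAmb_mem_J {L : IntermediateField ℚ Qb} (hL : IsLvl T L) {x : Qb} (hxL : x ∈ L)
    (hx : x ≠ 0) : prinAmb T x hx ∈ J T := by
  have := hL.numberField
  have hP := isPrincipalOf_prinAmb hL hxL hx
  refine ⟨fun q τ g => ext_locVal ?_, fun q τ g => ord_eq_of_zpow_eq (q := q.1) ?_,
    ⟨L, hL, fun s hs => hP.smul_eq_self ((IntermediateField.mem_fixingSubgroup_iff _ _).1 hs x hxL)⟩,
    ?_⟩
  · rw [hP.fin_eq, coe_locAct, hP.fin_eq, AlgEquiv.mul_apply, padicEmbedding_loc]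
  · rw [← hP.ord_eq, ← hP.ord_eq, AlgEquiv.mul_apply, padicEmbedding_loc]
    exact congrArg NNReal.toReal (nnnorm_padicAlgCl_algEquiv (q.1 : ℕ) τ _)
  · refine ((finite_setOf_norm_ne_one hxL hx).preimage
      (Subtype.val_injective (p := fun r => r ∉ T)).injOn).subset ?_
    rintro q ⟨g, hg⟩
    refine ⟨g, fun h => hg ?_⟩
    rw [hP.ord_eq] at h
    exact ord_eq_of_zpow_eq (b := 0) (by rw [h, neg_zero, zpow_zero])

/-- The principal idele of an element of a level. -/
theorem exists_principal {L : IntermediateField ℚ Qb} (hL : IsLvl T L) {x : Qb} (hxL : x ∈ L)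
    (hx : x ≠ 0) :
    ∃ f : J T, IsPrincipalOf (f : Amb T) x ∧ clsMk T f = 0 ∧
      ∀ σ : GQ, σ x = x → σ • f = f := by
  refine ⟨⟨_, prinAmb_mem_J hL hxL hx⟩, isPrincipalOf_prinAmb hL hxL hx,
    (clsMk_eq_zero_iff T).2 ⟨x, isPrincipalOf_prinAmb hL hxL hx⟩, fun σ hσ => ?_⟩
  exact Subtype.ext ((isPrincipalOf_prinAmb hL hxL hx).smul_eq_self hσ)

/-- Hilbert's theorem 90 for a subgroup of automorphisms. -/
theorem exists_div_eq {L : IntermediateField ℚ Qb} [FiniteDimensional ℚ L]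
    (H : Subgroup (L ≃ₐ[ℚ] L)) (x : H → L) (hx0 : ∀ h, x h ≠ 0)
    (hx : ∀ g h : H, x (g * h) = (g : L ≃ₐ[ℚ] L) (x h) * x g) :
    ∃ y : L, y ≠ 0 ∧ ∀ g : H, x g = (g : L ≃ₐ[ℚ] L) y / y := by
  classical
  let φ : H → L →* L := fun h => ((h : L ≃ₐ[ℚ] L) : L →* L)
  have hli : LinearIndependent L (fun h : H => (φ h : L → L)) :=
    (linearIndependent_monoidHom L L).comp φ fun a b hab =>
      Subtype.ext (AlgEquiv.ext fun z => DFunLike.congr_fun hab z)
  obtain ⟨z, hz⟩ : ∃ z : L, ∑ h : H, x h * (h : L ≃ₐ[ℚ] L) z ≠ 0 := by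
    by_contra hcon
    push Not at hcon
    have := Fintype.linearIndependent_iff.1 hli x (funext fun z => by
      simpa [Finset.sum_apply, φ] using hcon z) 1
    exact hx0 1 this
  set y := ∑ h : H, x h * (h : L ≃ₐ[ℚ] L) z
  refine ⟨y⁻¹, inv_ne_zero hz, fun g => ?_⟩
  have hgy : x g * (g : L ≃ₐ[ℚ] L) y = y := by
    rw [map_sum, Finset.mul_sum]
    refine Fintype.sum_equiv (Equiv.mulLeft g) _ _ fun h => ?_
    rw [Equiv.coe_mulLeft, hx, map_mul, Subgroup.coe_mul, AlgEquiv.mul_apply]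
    ring
  have hgy0 : (g : L ≃ₐ[ℚ] L) y ≠ 0 := by simpa using hz
  rw [map_inv₀]
  field_simp
  linear_combination hgy

/-- Fixed classes have fixed representatives. -/
theorem exists_fixed_representative (hT : T.Nonempty) {L : IntermediateField ℚ Qb}
    (hL : IsLvl T L) {U : Subgroup GQ} {c : Cls T} (hc : c ∈ clsLev T U)
    {f₀ : J T} (hf₀ : clsMk T f₀ = c) (hf₀L : ∀ s ∈ L.fixingSubgroup, s • f₀ = f₀) :
    ∃ f : J T, (∀ s ∈ U, s • f = f) ∧ clsMk T f = c := by
  have := hL.unramified.1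
  have := hL.isGalois
  have := hL.normal
  have hex : ∀ s ∈ U, ∃ x : Qb, IsPrincipalOf ((s • f₀ - f₀ : J T) : Amb T) x := fun s hs =>
    (clsMk_eq_zero_iff T).1 (by rw [map_sub, ← smul_clsMk, hf₀, hc s hs, sub_self])
  let res : GQ →* (L ≃ₐ[ℚ] L) := AlgEquiv.restrictNormalHom L
  have hres : ∀ (σ : GQ) (z : L), ((res σ z : L) : Qb) = σ z := fun σ z =>
    AlgEquiv.restrictNormal_commutes σ L z
  let H : Subgroup (L ≃ₐ[ℚ] L) := U.map res
  have hlift : ∀ h : H, ∃ s ∈ U, res s = h := fun h => h.2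
  choose s hsU hsres using hlift
  choose x hx using fun h : H => hex _ (hsU h)
  have hsame : ∀ σ τ : GQ, res σ = res τ → σ • f₀ = τ • f₀ := fun σ τ h => by
    have hmem : τ⁻¹ * σ ∈ L.fixingSubgroup := (IntermediateField.mem_fixingSubgroup_iff _ _).2
      fun z hz => by
        rw [AlgEquiv.mul_apply, ← hres σ ⟨z, hz⟩, h, hres]
        exact AlgEquiv.symm_apply_apply τ z
    calc σ • f₀ = τ • ((τ⁻¹ * σ) • f₀) := by rw [← mul_smul, mul_inv_cancel_left]
      _ = τ • f₀ := by rw [hf₀L _ hmem]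
  have hxL : ∀ h, x h ∈ L := fun h => (hx h).mem_of_fixed hT fun t ht => by
    have e : (t * s h) • f₀ = s h • f₀ := by
      have hmem : (s h)⁻¹ * t * s h ∈ L.fixingSubgroup := by
        simpa using hL.normal.conj_mem t ht (s h)⁻¹
      calc (t * s h) • f₀ = s h • ((s h)⁻¹ * t * s h) • f₀ := by
            rw [← mul_smul]; congr 1; group
        _ = s h • f₀ := by rw [hf₀L _ hmem]
    have e' : t • (s h • f₀ - f₀) = s h • f₀ - f₀ := by
      rw [smul_sub, ← mul_smul, e, hf₀L t ht]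
    exact congrArg Subtype.val e'
  have hcoc : ∀ g h : H, (⟨x (g * h), hxL _⟩ : L) = (g : L ≃ₐ[ℚ] L) ⟨x h, hxL h⟩ * ⟨x g, hxL g⟩ := by
    intro g h
    refine Subtype.ext ?_
    show x (g * h) = ((((g : L ≃ₐ[ℚ] L) ⟨x h, hxL h⟩ : L)) : Qb) * x g
    rw [← hsres g, hres]
    refine (hx (g * h)).elem_eq hT ?_
    have e : s (g * h) • f₀ - f₀ = s g • (s h • f₀ - f₀) + (s g • f₀ - f₀) := by
      rw [hsame (s (g * h)) (s g * s h) (by rw [map_mul, hsres, hsres, hsres, Subgroup.coe_mul]),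
        mul_smul, smul_sub]
      abel
    rw [e]
    refine ⟨mul_ne_zero (by simpa using (hx h).ne_zero) (hx g).ne_zero, fun q a => ?_, fun q a => ?_⟩
    · simp only [AddSubgroup.coe_add, coe_smul_J, Amb.fin_add, toMul_add, Units.val_mul, map_mul,
        ((hx h).smul (s g)).fin_eq, (hx g).fin_eq]
    · simp only [AddSubgroup.coe_add, coe_smul_J, Amb.ord_add, map_mul, norm_mul,
        ((hx h).smul (s g)).ord_eq, (hx g).ord_eq]
      rw [neg_add, zpow_add₀ (by exact_mod_cast q.1.2.ne_zero)]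
  obtain ⟨y, hy0, hy⟩ := exists_div_eq H (fun h => (⟨x h, hxL h⟩ : L))
    (fun h h0 => (hx h).ne_zero (congrArg Subtype.val h0)) hcoc
  have hyQ : (y : Qb) ≠ 0 := fun h => hy0 (Subtype.ext h)
  obtain ⟨P, hP, hP0, -⟩ := exists_principal hL y.2 hyQ
  refine ⟨f₀ - P, fun σ hσ => ?_, by rw [map_sub, hf₀, hP0, sub_zero]⟩
  let h : H := ⟨res σ, Subgroup.mem_map_of_mem res hσ⟩
  have e1 : IsPrincipalOf ((σ • f₀ - f₀ : J T) : Amb T) (σ y / y) := by
    rw [hsame σ (s h) (hsres h).symm]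
    have hxy : x h = σ y / y := by
      have := congrArg Subtype.val (hy h)
      simp only [IntermediateField.coe_div] at this
      rw [this]
      exact congrArg (· / (y : Qb)) (hres σ y)
    rw [← hxy]; exact hx h
  have e2 : IsPrincipalOf ((σ • P - P : J T) : Amb T) (σ y / y) := (hP.smul σ).sub hP
  have e3 : σ • f₀ - f₀ = σ • P - P := Subtype.ext (e1.eq e2)
  rw [smul_sub, sub_eq_sub_iff_sub_eq_sub]
  exact e3

/-- `LevelRepresentatives` holds as soon as `T` is nonempty. -/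
theorem levelRepresentatives (hT : T.Nonempty) : LevelRepresentatives T := by
  intro L hL U _ c hc
  obtain ⟨f₀, rfl⟩ := clsMk_surjective T c
  obtain ⟨L', hL', hfix⟩ := f₀.2.2.2.1
  exact exists_fixed_representative hT hL' hc rfl fun s hs => Subtype.ext (hfix s hs)

end Fermat.Agent.PoitouTate
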