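/-
Ideles of a level attached to ideals, and finiteness of the ideles modulo unit and principal
ideles (finiteness of the class number).
-/
import Fermat.Agent.PoitouTate.IdelePrincipal
import Fermat.Agent.PoitouTate.IdeleOrbit
import Fermat.Agent.PoitouTate.LocalDense
import Fermat.Agent.PoitouTate.GlobalClassFinite
import Mathlib.NumberTheory.NumberField.ClassNumber

set_option autoImplicit false

open scoped NumberField nonZeroDivisors
open NumberField

noncomputable section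

namespace Fermat.Agent.PoitouTate

local notation "Qb" => AlgebraicClosure ℚ

section MaxNorm

variable (q : Nat.Primes) (g : GQ) (K : IntermediateField ℚ Qb)

/-- `r` is the largest norm on `I` at `q` along `g`. -/
def IsMaxNorm (I : Ideal (𝓞 K)) (r : ℝ) : Prop :=
  (∃ x ∈ I, ‖placeHom q g K x‖ = r) ∧ ∀ x ∈ I, ‖placeHom q g K x‖ ≤ r

variable {q g K}

variable [NumberField K]

theorem IsMaxNorm.unique {I : Ideal (𝓞 K)} {r r' : ℝ} (h : IsMaxNorm q g K I r)
    (h' : IsMaxNorm q g K I r') : r = r' := by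
  obtain ⟨⟨x, hx, rfl⟩, hle⟩ := h
  obtain ⟨⟨y, hy, rfl⟩, hle'⟩ := h'
  exact le_antisymm (hle' x hx) (hle y hy)

theorem placeHom_injective : Function.Injective (placeHom q g K) := by
  simp only [placeHom, RingHom.coe_comp]
  exact (RingHom.injective _).comp RingOfIntegers.coe_injective

theorem norm_placeHom_pos {x : 𝓞 K} (hx : x ≠ 0) : 0 < ‖placeHom q g K x‖ :=
  norm_pos_iff.2 ((map_ne_zero_iff _ placeHom_injective).2 hx)

theorem exists_isMaxNorm (q : Nat.Primes) (g : GQ) {I : Ideal (𝓞 K)} (hI : I ≠ ⊥) :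
    ∃ r, IsMaxNorm q g K I r ∧ 0 < r := by
  classical
  obtain ⟨s, hs⟩ : I.FG := IsNoetherian.noetherian I
  have hne : s.Nonempty := by
    rw [Finset.nonempty_iff_ne_empty]
    rintro rfl
    exact hI (by rw [← hs, Finset.coe_empty, Ideal.span_empty])
  obtain ⟨x₀, hx₀, hmax⟩ := s.exists_max_image (fun x => ‖placeHom q g K x‖) hne
  have hle : ∀ x ∈ I, ‖placeHom q g K x‖ ≤ ‖placeHom q g K x₀‖ := by
    intro x hx
    rw [← hs] at hx
    induction hx using Submodule.span_induction with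
    | mem y hy => exact hmax y hy
    | zero => simp
    | add a b _ _ ha hb =>
      rw [map_add]
      exact (PadicAlgCl.isNonarchimedean (q : ℕ) _ _).trans (max_le ha hb)
    | smul c a _ ha =>
      rw [smul_eq_mul, map_mul, norm_mul]
      exact (mul_le_of_le_one_left (norm_nonneg _) (norm_coe_le_one q g K c)).trans ha
  refine ⟨_, ⟨⟨x₀, hs ▸ Ideal.subset_span hx₀, rfl⟩, hle⟩, ?_⟩
  obtain ⟨y, hy, hy0⟩ := Submodule.exists_mem_ne_zero_of_ne_bot hI
  exact (norm_placeHom_pos hy0).trans_le (hle y hy)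

theorem IsMaxNorm.mul {I I' : Ideal (𝓞 K)} {r r' : ℝ} (h : IsMaxNorm q g K I r)
    (h' : IsMaxNorm q g K I' r') : IsMaxNorm q g K (I * I') (r * r') := by
  obtain ⟨⟨x, hx, rfl⟩, hle⟩ := h
  obtain ⟨⟨y, hy, rfl⟩, hle'⟩ := h'
  refine ⟨⟨x * y, Ideal.mul_mem_mul hx hy, by rw [map_mul, norm_mul]⟩, fun z hz => ?_⟩
  induction hz using Submodule.mul_induction_on' with
  | mem_mul_mem a ha b hb =>
    rw [map_mul, norm_mul]
    exact mul_le_mul (hle a ha) (hle' b hb) (norm_nonneg _) (norm_nonneg _)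
  | add a _ b _ ha hb =>
    rw [map_add]
    exact (PadicAlgCl.isNonarchimedean (q : ℕ) _ _).trans (max_le ha hb)

theorem isMaxNorm_span {a : 𝓞 K} : IsMaxNorm q g K (Ideal.span {a}) ‖placeHom q g K a‖ := by
  refine ⟨⟨a, Ideal.mem_span_singleton_self a, rfl⟩, fun z hz => ?_⟩
  obtain ⟨c, rfl⟩ := Ideal.mem_span_singleton'.1 hz
  rw [map_mul, norm_mul]
  exact mul_le_of_le_one_left (norm_nonneg _) (norm_coe_le_one q g K c)

/-- The maximal norm only depends on the orbit. -/
theorem IsMaxNorm.conj {I : Ideal (𝓞 K)} {r : ℝ} (h : IsMaxNorm q g K I r) (τ : LocGal q)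
    {u : GQ} (hu : ∀ x ∈ K, u x = x) : IsMaxNorm q (loc q τ * g * u) K I r := by
  have e : ∀ x : 𝓞 K, ‖placeHom q (loc q τ * g * u) K x‖ = ‖placeHom q g K x‖ := fun x => by
    rw [placeHom_apply, placeHom_apply, AlgEquiv.mul_apply, AlgEquiv.mul_apply, hu _ (x : K).2,
      padicEmbedding_loc, norm_locGal]
  simpa [IsMaxNorm, e] using h

end MaxNorm

section Levels

variable {T : Finset Nat.Primes} (U : Subgroup GQ)

/-- The unit ideles of level `U`. -/
def unitJ : AddSubgroup (J T) where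
  carrier := {f | (∀ s ∈ U, s • f = f) ∧ (∀ q g, (f : Amb T).ord q g = 0) ∧
    ∀ (q : ↥T) (g : GQ), (f : Amb T).fin q g ∈ unitVal q.1}
  zero_mem' := ⟨fun s _ => smul_zero s, fun _ _ => rfl, fun q g => (unitVal q.1).zero_mem⟩
  add_mem' := by
    rintro f f' ⟨h1, h2, h3⟩ ⟨h1', h2', h3'⟩
    exact ⟨fun s hs => by rw [smul_add, h1 s hs, h1' s hs], fun q g => by simp [h2 q g, h2' q g],
      fun q g => (unitVal q.1).add_mem (h3 q g) (h3' q g)⟩
  neg_mem' := by
    rintro f ⟨h1, h2, h3⟩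
    exact ⟨fun s hs => by rw [smul_neg, h1 s hs], fun q g => by simp [h2 q g],
      fun q g => (unitVal q.1).neg_mem (h3 q g)⟩

/-- The principal ideles of level `U`. -/
def prinLev : AddSubgroup (J T) := fixedPts U (J T) ⊓ Prin T

theorem unitJ_le : unitJ (T := T) U ≤ fixedPts U (J T) := fun _ hf => hf.1

variable {U}

theorem norm_locVal_pos {q : Nat.Primes} (a : LocVal q) :
    0 < ‖((Additive.toMul a : (PadicAlgCl (q : ℕ))ˣ) : PadicAlgCl (q : ℕ))‖ :=
  norm_pos_iff.2 (Units.ne_zero _)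

theorem mem_unitVal_iff {q : Nat.Primes} (a : LocVal q) :
    a ∈ unitVal q ↔ ‖((Additive.toMul a : (PadicAlgCl (q : ℕ))ˣ) : PadicAlgCl (q : ℕ))‖ = 1 :=
  Iff.rfl

theorem fin_apply_mul {f : J T} (hf : ∀ s ∈ U, s • f = f) (q : ↥T) (g : GQ) {s : GQ} (hs : s ∈ U) :
    (f : Amb T).fin q (g * s) = (f : Amb T).fin q g := by
  rw [← Amb.fin_smul, ← coe_smul_J, hf s hs]

theorem ord_apply_mul {f : J T} (hf : ∀ s ∈ U, s • f = f) (q : {q : Nat.Primes // q ∉ T}) (g : GQ)
    {s : GQ} (hs : s ∈ U) : (f : Amb T).ord q (g * s) = (f : Amb T).ord q g := by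
  rw [← Amb.ord_smul, ← coe_smul_J, hf s hs]

/-- Two ideles of level `U` with the same absolute values differ by a unit idele. -/
theorem sub_mem_unitJ {f f' : J T} (hf : ∀ s ∈ U, s • f = f) (hf' : ∀ s ∈ U, s • f' = f')
    (h₁ : ∀ (q : ↥T) g,
      ‖((Additive.toMul ((f : Amb T).fin q g) : (PadicAlgCl (q.1 : ℕ))ˣ) : PadicAlgCl (q.1 : ℕ))‖ =
      ‖((Additive.toMul ((f' : Amb T).fin q g) : (PadicAlgCl (q.1 : ℕ))ˣ) : PadicAlgCl (q.1 : ℕ))‖)
    (h₂ : ∀ q g, (f : Amb T).ord q g = (f' : Amb T).ord q g) : f - f' ∈ unitJ U := by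
  refine ⟨fun s hs => by rw [smul_sub, hf s hs, hf' s hs], fun q g => ?_, fun q g => ?_⟩
  · rw [AddSubgroup.coe_sub, Amb.ord_sub, h₂, sub_self]
  · rw [AddSubgroup.coe_sub, Amb.fin_sub, mem_unitVal_iff, toMul_sub, Units.val_div_eq_div_val,
      norm_div, h₁, div_self (norm_locVal_pos _).ne']

/-- The idele `f` has the absolute values of the ideal `I`. -/
def IsIdeleOf (K : IntermediateField ℚ Qb) [NumberField K] (I : Ideal (𝓞 K)) (f : J T) : Prop :=
  (∀ (q : ↥T) g, IsMaxNorm q.1 g K I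
    ‖((Additive.toMul ((f : Amb T).fin q g) : (PadicAlgCl (q.1 : ℕ))ˣ) : PadicAlgCl (q.1 : ℕ))‖) ∧
  ∀ (q : {q : Nat.Primes // q ∉ T}) g,
    IsMaxNorm q.1 g K I (((q.1 : ℕ) : ℝ) ^ (-(f : Amb T).ord q g))

theorem IsIdeleOf.sub_mem_unitJ {K : IntermediateField ℚ Qb} [NumberField K] {I : Ideal (𝓞 K)} {f f' : J T}
    (hf : ∀ s ∈ U, s • f = f) (hf' : ∀ s ∈ U, s • f' = f') (h : IsIdeleOf K I f)
    (h' : IsIdeleOf K I f') : f - f' ∈ unitJ U :=
  PoitouTate.sub_mem_unitJ hf hf' (fun q g => (h.1 q g).unique (h'.1 q g))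
    fun q g => ord_eq_of_zpow_eq ((h.2 q g).unique (h'.2 q g))

theorem IsIdeleOf.add {K : IntermediateField ℚ Qb} [NumberField K] {I I' : Ideal (𝓞 K)} {f f' : J T}
    (h : IsIdeleOf K I f) (h' : IsIdeleOf K I' f') : IsIdeleOf K (I * I') (f + f') := by
  refine ⟨fun q g => ?_, fun q g => ?_⟩
  · rw [AddSubgroup.coe_add, Amb.fin_add, toMul_add, Units.val_mul, norm_mul]
    exact (h.1 q g).mul (h'.1 q g)
  · rw [AddSubgroup.coe_add, Amb.ord_add, neg_add, zpow_add₀ (by exact_mod_cast q.1.2.ne_zero)]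
    exact (h.2 q g).mul (h'.2 q g)

variable {L : IntermediateField ℚ Qb} (hL : IsLvl T L) (hU : L.fixingSubgroup ≤ U)

include hL hU in
theorem fixedField_le_level : IntermediateField.fixedField U ≤ L := by
  intro x hx
  rw [← InfiniteGalois.fixedField_fixingSubgroup L, IntermediateField.mem_fixedField_iff]
  exact fun s hs => (IntermediateField.mem_fixedField_iff _ _).1 hx s (hU hs)

include hL hU in
theorem numberField_fixedField : NumberField (IntermediateField.fixedField U) := by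
  have := hL.unramified.1
  have : FiniteDimensional ℚ (IntermediateField.fixedField U) :=
    FiniteDimensional.of_injective
      (IntermediateField.inclusion (fixedField_le_level hL hU)).toLinearMap
      (IntermediateField.inclusion_injective (fixedField_le_level hL hU))
  exact @NumberField.mk _ _ inferInstance inferInstance

omit hL in
theorem apply_eq_self_of_mem {x : Qb} (hx : x ∈ IntermediateField.fixedField U) {s : GQ}
    (hs : s ∈ U) : s x = x :=
  (IntermediateField.mem_fixedField_iff _ _).1 hx s hs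

include hL hU in
/-- Every ideal has an idele of level `U`. -/
theorem exists_isIdeleOf [NumberField (IntermediateField.fixedField U)]
    {I : Ideal (𝓞 (IntermediateField.fixedField U))} (hI : I ≠ ⊥) :
    ∃ f : J T, (∀ s ∈ U, s • f = f) ∧ IsIdeleOf _ I f := by
  classical
  choose r hr hr0 using fun (q : Nat.Primes) (g : GQ) => exists_isMaxNorm q g hI
  -- exponents outside `T`
  have hex : ∀ (q : {q : Nat.Primes // q ∉ T}) (g : GQ),
      ∃ k : ℤ, r q.1 g = ((q.1 : ℕ) : ℝ) ^ (-k) := fun q g => by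
    obtain ⟨⟨x, hx, hxr⟩, -⟩ := hr q.1 g
    have hx0 : x ≠ 0 := by
      rintro rfl
      rw [map_zero, norm_zero] at hxr
      exact (hr0 q.1 g).ne hxr
    obtain ⟨k, hk⟩ := exists_norm_eq_zpow q.1 g hL q.2
      (fixedField_le_level hL hU (x : (IntermediateField.fixedField U)).2) (by simpa using hx0)
    exact ⟨k, hxr ▸ hk⟩
  choose k hk using hex
  -- equivariant components at `T`
  have hfin : ∀ q : ↥T, ∃ F : GQ → LocVal q.1,
      (∀ (τ : LocGal q.1) g, F (loc q.1 τ * g) = locAct q.1 τ (F g)) ∧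
      (∀ g, ∀ s ∈ U, F (g * s) = F g) ∧
      ∀ g, ‖((Additive.toMul (F g) : (PadicAlgCl (q.1 : ℕ))ˣ) : PadicAlgCl (q.1 : ℕ))‖ = r q.1 g := by
    intro q
    letI : MulAction (LocGal q.1) (GQ ⧸ U) := MulAction.compHom _ (loc q.1)
    letI : DistribMulAction (LocGal q.1) (LocVal q.1) :=
      { smul := fun τ a => locAct q.1 τ a
        one_smul := fun a => ext_locVal rfl
        mul_smul := fun a b c => ext_locVal rfl
        smul_zero := fun τ => map_zero _
        smul_add := fun τ a b => map_add _ a b }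
    have hout : ∀ o : Quotient (MulAction.orbitRel (LocGal q.1) (GQ ⧸ U)),
        (⟦o.out⟧ : Quotient (MulAction.orbitRel (LocGal q.1) (GQ ⧸ U))) = o := Quotient.out_eq
    choose x₀ hx₀ hx₀r using fun o : Quotient (MulAction.orbitRel (LocGal q.1) (GQ ⧸ U)) =>
      (hr q.1 (o.out).out).1
    have hx₀0 : ∀ o, placeHom q.1 (o.out).out (IntermediateField.fixedField U) (x₀ o) ≠ 0 := fun o h0 => by
      have := hx₀r o
      rw [h0, norm_zero] at this
      exact (hr0 _ _).ne this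
    have hstab : ∀ o, Additive.ofMul (Units.mk0 _ (hx₀0 o)) ∈
        stabFixed (LocGal q.1) (GQ ⧸ U) (LocVal q.1) o.out := by
      intro o τ hτ
      refine ext_locVal ?_
      show τ (placeHom q.1 (o.out).out (IntermediateField.fixedField U) (x₀ o)) = placeHom q.1 (o.out).out (IntermediateField.fixedField U) (x₀ o)
      rw [placeHom_apply, ← padicEmbedding_loc]
      have hmem : ((o.out).out)⁻¹ * (loc q.1 τ * (o.out).out) ∈ U := by
        refine QuotientGroup.eq.1 ?_
        rw [QuotientGroup.out_eq']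
        have h' : loc q.1 τ • (o.out) = o.out := hτ
        conv_lhs => rw [← h']
        conv_lhs => rw [← QuotientGroup.out_eq' o.out]
        rfl
      have h2 := apply_eq_self_of_mem (x₀ o : (IntermediateField.fixedField U)).2 hmem
      rw [AlgEquiv.mul_apply, AlgEquiv.mul_apply] at h2
      exact congrArg (padicEmbedding (q.1 : ℕ))
        ((AlgEquiv.symm_apply_eq (o.out).out).1 h2)
    let φ := (evalReps (D := LocGal q.1) (X := GQ ⧸ U) (A := LocVal q.1) Quotient.out hout).symm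
      fun o => ⟨_, hstab o⟩
    refine ⟨fun g => (φ : GQ ⧸ U → LocVal q.1) (QuotientGroup.mk g), fun τ g => ?_,
      fun g s hs => ?_, fun g => ?_⟩
    · exact φ.2 τ (QuotientGroup.mk g)
    · exact congrArg _ (QuotientGroup.eq.2 (by simpa using hs))
    · obtain ⟨τ, hτ⟩ := exists_smul_rep (D := LocGal q.1) (X := GQ ⧸ U) Quotient.out hout
        (QuotientGroup.mk g)
      set o : Quotient (MulAction.orbitRel (LocGal q.1) (GQ ⧸ U)) := ⟦QuotientGroup.mk g⟧ with ho
      have hval : (φ : GQ ⧸ U → LocVal q.1) (o.out) = Additive.ofMul (Units.mk0 _ (hx₀0 o)) := by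
        have := (evalReps (D := LocGal q.1) (X := GQ ⧸ U) (A := LocVal q.1)
          Quotient.out hout).apply_symm_apply (fun o => ⟨_, hstab o⟩)
        exact congrArg Subtype.val (congrFun this o)
      show ‖((Additive.toMul ((φ : GQ ⧸ U → LocVal q.1) (QuotientGroup.mk g)) :
        (PadicAlgCl (q.1 : ℕ))ˣ) : PadicAlgCl (q.1 : ℕ))‖ = r q.1 g
      rw [← hτ, φ.2, hval]
      show ‖τ (placeHom q.1 (o.out).out (IntermediateField.fixedField U) (x₀ o))‖ = r q.1 g
      rw [norm_locGal, hx₀r]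
      have he : (QuotientGroup.mk (loc q.1 τ * (o.out).out) : GQ ⧸ U) = QuotientGroup.mk g := by
        rw [← hτ]
        conv_rhs => rw [← QuotientGroup.out_eq' o.out]
        rfl
      have hu := QuotientGroup.eq.1 he
      have h2 := (hr q.1 (o.out).out).conj τ (u := (loc q.1 τ * (o.out).out)⁻¹ * g)
        fun x hx => apply_eq_self_of_mem hx hu
      rw [mul_inv_cancel_left] at h2
      exact h2.unique (hr q.1 g)
  choose F hF₁ hF₂ hF₃ using hfin
  have hkeq : ∀ (q : {q : Nat.Primes // q ∉ T}) (τ : LocGal q.1) (g : GQ), ∀ s ∈ U,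
      k q (loc q.1 τ * g * s) = k q g := by
    intro q τ g s hs
    refine ord_eq_of_zpow_eq (q := q.1) ?_
    rw [← hk, ← hk]
    exact (hr q.1 _).unique ((hr q.1 g).conj τ fun x hx => apply_eq_self_of_mem hx hs)
  let f : Amb T := (F, fun q g => k q g)
  have hfU : ∀ s ∈ U, s • f = f := fun s hs => Amb.ext (fun q g => hF₂ q g s hs) fun q g => by
    have h := hkeq q 1 g s hs
    rw [map_one, one_mul] at h
    exact h
  have hfJ : f ∈ J T := by
    refine ⟨fun q τ g => hF₁ q τ g, fun q τ g => ?_, ⟨L, hL, fun s hs => hfU s (hU hs)⟩, ?_⟩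
    · have h := hkeq q τ g 1 U.one_mem
      rw [mul_one] at h
      exact h
    · obtain ⟨x, hxI, hx0⟩ := Submodule.exists_mem_ne_zero_of_ne_bot hI
      refine ((finite_setOf_norm_ne_one (L := (IntermediateField.fixedField U)) (x : (IntermediateField.fixedField U)).2 (by simpa using hx0)).preimage
        (Subtype.val_injective (p := fun r => r ∉ T)).injOn).subset ?_
      rintro q ⟨g, hg⟩
      refine ⟨g, fun h1 => hg (ord_eq_of_zpow_eq (q := q.1) (b := 0) ?_)⟩
      show ((q.1 : ℕ) : ℝ) ^ (-k q g) = _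
      rw [← hk, neg_zero, zpow_zero]
      refine le_antisymm ?_ ?_
      · obtain ⟨⟨y, -, hy⟩, -⟩ := hr q.1 g
        exact hy ▸ norm_coe_le_one q.1 g (IntermediateField.fixedField U) y
      · exact h1 ▸ (hr q.1 g).2 x hxI
  refine ⟨⟨f, hfJ⟩, fun s hs => Subtype.ext (hfU s hs), fun q g => ?_, fun q g => ?_⟩
  · show IsMaxNorm q.1 g (IntermediateField.fixedField U) I ‖((Additive.toMul (F q g) : (PadicAlgCl (q.1 : ℕ))ˣ) :
      PadicAlgCl (q.1 : ℕ))‖
    rw [hF₃]; exact hr q.1 g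
  · show IsMaxNorm q.1 g (IntermediateField.fixedField U) I (((q.1 : ℕ) : ℝ) ^ (-k q g))
    rw [← hk]; exact hr q.1 g

include hL hU in
/-- An element of `K` matching the absolute values at `T`. -/
theorem exists_elt_norm_eq {f : J T} (hf : ∀ s ∈ U, s • f = f) :
    ∃ x ∈ IntermediateField.fixedField U, x ≠ 0 ∧ ∀ (q : ↥T) g,
      ‖((Additive.toMul ((f : Amb T).fin q g) : (PadicAlgCl (q.1 : ℕ))ˣ) : PadicAlgCl (q.1 : ℕ))‖ =
        ‖padicEmbedding (q.1 : ℕ) (g x)‖ := by
  classical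
  have := hL.unramified.1
  haveI := finite_quotient_of_level hU
  letI : Fintype (GQ ⧸ U) := Fintype.ofFinite _
  rcases T.eq_empty_or_nonempty with hT | hT
  · exact ⟨1, one_mem _, one_ne_zero, fun q => absurd q.2 (by simp [hT])⟩
  obtain ⟨q₁, hq₁⟩ := hT
  let tgt : ∀ q : Nat.Primes, GQ → PadicAlgCl (q : ℕ) := fun q g =>
    if hq : q ∈ T then ((Additive.toMul ((f : Amb T).fin ⟨q, hq⟩ g) :
      (PadicAlgCl (q : ℕ))ˣ) : PadicAlgCl (q : ℕ)) else 0
  let S : Finset (↥T × (GQ ⧸ U)) := Finset.univ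
  have hS : S.Nonempty := ⟨(⟨q₁, hq₁⟩, QuotientGroup.mk 1), Finset.mem_univ _⟩
  set ε := S.inf' hS fun z =>
    ‖((Additive.toMul ((f : Amb T).fin z.1 z.2.out) : (PadicAlgCl (z.1.1 : ℕ))ˣ) :
      PadicAlgCl (z.1.1 : ℕ))‖ with hεdef
  have hε : 0 < ε := (Finset.lt_inf'_iff hS).2 fun z _ => norm_locVal_pos _
  obtain ⟨x, hxK, hx⟩ := exists_fixed_near_family hU T tgt
    (fun q hq τ g => by
      simp only [tgt, dif_pos hq]
      rw [f.2.1 ⟨q, hq⟩ τ g, coe_locAct])
    (fun q hq g u hu => by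
      simp only [tgt, dif_pos hq]
      rw [fin_apply_mul hf ⟨q, hq⟩ g hu]) hε
  have hle : ∀ (q : ↥T) (g : GQ),
      ε ≤ ‖((Additive.toMul ((f : Amb T).fin q g) : (PadicAlgCl (q.1 : ℕ))ˣ) :
        PadicAlgCl (q.1 : ℕ))‖ := by
    intro q g
    obtain ⟨u, hu⟩ := QuotientGroup.mk_out_eq_mul U g
    have h := Finset.inf'_le (fun z : ↥T × (GQ ⧸ U) =>
      ‖((Additive.toMul ((f : Amb T).fin z.1 z.2.out) : (PadicAlgCl (z.1.1 : ℕ))ˣ) :
      PadicAlgCl (z.1.1 : ℕ))‖) (Finset.mem_univ (q, (QuotientGroup.mk g : GQ ⧸ U)))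
    rw [← hεdef] at h
    rwa [show ((QuotientGroup.mk g : GQ ⧸ U)).out = g * u from hu,
      fin_apply_mul hf q g u.2] at h
  have hnorm : ∀ (q : ↥T) (g : GQ),
      ‖((Additive.toMul ((f : Amb T).fin q g) : (PadicAlgCl (q.1 : ℕ))ˣ) : PadicAlgCl (q.1 : ℕ))‖ =
        ‖padicEmbedding (q.1 : ℕ) (g x)‖ := by
    intro q g
    have h := hx q.1 q.2 g
    simp only [tgt, dif_pos q.2] at h
    have hlt := h.trans_le (hle q g)
    set y := padicEmbedding (q.1 : ℕ) (g x)
    set z := ((Additive.toMul ((f : Amb T).fin q g) : (PadicAlgCl (q.1 : ℕ))ˣ) :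
      PadicAlgCl (q.1 : ℕ))
    calc ‖z‖ = max ‖y - z‖ ‖z‖ := (max_eq_right hlt.le).symm
      _ = ‖(y - z) + z‖ := (IsUltrametricDist.norm_add_eq_max_of_norm_ne_norm hlt.ne).symm
      _ = ‖y‖ := by rw [sub_add_cancel]
  refine ⟨x, hxK, ?_, hnorm⟩
  rintro rfl
  have h := hnorm ⟨q₁, hq₁⟩ 1
  simp only [map_zero, norm_zero] at h
  exact (norm_locVal_pos _).ne' h

include hL hU in
/-- The subgroup of units and principal ideles has finite index in the level. -/
theorem finite_quotient_unitJ_sup_prinLev :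
    Finite (fixedPts U (J T) ⧸ (unitJ U ⊔ prinLev U).addSubgroupOf (fixedPts U (J T))) := by
  classical
  have := hL.unramified.1
  haveI := numberField_fixedField hL hU
  haveI := finite_quotient_of_level hU
  set K := IntermediateField.fixedField U
  set A := fixedPts U (J T)
  set N : AddSubgroup A := (unitJ U ⊔ prinLev U).addSubgroupOf A
  let G := A ⧸ N
  have hgen := fun I : (Ideal (𝓞 K))⁰ => exists_isIdeleOf hL hU (nonZeroDivisors.coe_ne_zero I)
  choose Ψ hΨU hΨ using hgen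
  let ψ : (Ideal (𝓞 K))⁰ → G := fun I => QuotientAddGroup.mk ⟨Ψ I, hΨU I⟩
  -- two ideles of one ideal agree in the quotient
  have hwd : ∀ (I : (Ideal (𝓞 K))⁰) (f : J T) (hf : ∀ s ∈ U, s • f = f),
      IsIdeleOf K (I : Ideal (𝓞 K)) f → ψ I = QuotientAddGroup.mk ⟨f, hf⟩ := by
    intro I f hf hI
    rw [QuotientAddGroup.eq]
    show (-(Ψ I) + f : J T) ∈ unitJ U ⊔ prinLev U
    rw [neg_add_eq_sub]
    exact AddSubgroup.mem_sup_left (IsIdeleOf.sub_mem_unitJ hf (hΨU I) hI (hΨ I))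
  have hmul : ∀ I I', ψ (I * I') = ψ I + ψ I' := fun I I' =>
    hwd _ (Ψ I + Ψ I') (fun s hs => by rw [smul_add, hΨU I s hs, hΨU I' s hs])
      ((hΨ I).add (hΨ I'))
  -- principal ideals give zero
  have hprin : ∀ (I : (Ideal (𝓞 K))⁰) (a : 𝓞 K), (I : Ideal (𝓞 K)) = Ideal.span {a} → ψ I = 0 := by
    intro I a ha
    have ha0 : ((a : K) : Qb) ≠ 0 := by
      intro h0
      refine nonZeroDivisors.coe_ne_zero I ?_
      rw [ha, Ideal.zero_eq_bot, Ideal.span_singleton_eq_bot]
      simpa using h0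
    obtain ⟨P, hP, -, hPfix⟩ := exists_principal hL (fixedField_le_level hL hU (a : K).2) ha0
    have hPU : ∀ s ∈ U, s • P = P := fun s hs => hPfix s (apply_eq_self_of_mem (a : K).2 hs)
    rw [hwd I P hPU, QuotientAddGroup.eq_zero_iff]
    · show P ∈ unitJ U ⊔ prinLev U
      exact AddSubgroup.mem_sup_right ⟨hPU, ⟨_, hP⟩⟩
    · rw [ha]
      refine ⟨fun q g => ?_, fun q g => ?_⟩
      · rw [hP.fin_eq]; exact isMaxNorm_span
      · rw [← hP.ord_eq]; exact isMaxNorm_span
  let ψ' : (Ideal (𝓞 K))⁰ →* Multiplicative G :=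
    { toFun := fun I => Multiplicative.ofAdd (ψ I)
      map_one' := congrArg Multiplicative.ofAdd (hprin 1 1 (by simp))
      map_mul' := fun I I' => congrArg Multiplicative.ofAdd (hmul I I') }
  have hfac : ∀ I I', ClassGroup.mk0 I = ClassGroup.mk0 I' → ψ' I = ψ' I' := by
    intro I I' h
    obtain ⟨x, y, hx, hy, hxy⟩ := ClassGroup.mk0_eq_mk0_iff.1 h
    let X : (Ideal (𝓞 K))⁰ := ⟨Ideal.span {x}, mem_nonZeroDivisors_of_ne_zero (by simpa using hx)⟩
    let Y : (Ideal (𝓞 K))⁰ := ⟨Ideal.span {y}, mem_nonZeroDivisors_of_ne_zero (by simpa using hy)⟩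
    have h1 : X * I = Y * I' := Subtype.ext hxy
    have h2 := congrArg ψ' h1
    rw [map_mul, map_mul] at h2
    have hX : ψ' X = 1 := congrArg Multiplicative.ofAdd (hprin X x rfl)
    have hY : ψ' Y = 1 := congrArg Multiplicative.ofAdd (hprin Y y rfl)
    rwa [hX, hY, one_mul, one_mul] at h2
  have hrange : (Set.range ψ').Finite := by
    choose I₀ hI₀ using fun c : ClassGroup (𝓞 K) => ClassGroup.mk0_surjective c
    refine (Set.finite_range fun c => ψ' (I₀ c)).subset ?_
    rintro _ ⟨I, rfl⟩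
    exact ⟨ClassGroup.mk0 I, hfac _ _ (hI₀ _)⟩
  -- the range is a subgroup
  let H : AddSubgroup G :=
    { carrier := {x | Multiplicative.ofAdd x ∈ MonoidHom.mrange ψ'}
      zero_mem' := ⟨1, map_one ψ'⟩
      add_mem' := fun {a b} ha hb => (mul_mem ha hb : Multiplicative.ofAdd a * Multiplicative.ofAdd b ∈ MonoidHom.mrange ψ')
      neg_mem' := fun {x} hx => by
        obtain ⟨m, n, hmn, he⟩ := Set.Finite.exists_lt_map_eq_of_forall_mem
          (f := fun k : ℕ => Multiplicative.ofAdd x ^ k) (t := Set.range ψ')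
          (fun k => (pow_mem hx k : Multiplicative.ofAdd x ^ k ∈ MonoidHom.mrange ψ')) hrange
        show Multiplicative.ofAdd (-x) ∈ MonoidHom.mrange ψ'
        have hinv : (Multiplicative.ofAdd x)⁻¹ = Multiplicative.ofAdd x ^ (n - m - 1) := by
          refine inv_eq_of_mul_eq_one_right ?_
          have h1 : Multiplicative.ofAdd x ^ (n - m) = 1 := by
            rw [pow_sub _ hmn.le, ← he, mul_inv_cancel]
          rw [← pow_succ', show n - m - 1 + 1 = n - m by omega, h1]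
        rw [ofAdd_neg, hinv]
        exact pow_mem hx _ }
  suffices hall : ∀ (c : ℕ) (f : J T) (hf : ∀ s ∈ U, s • f = f),
      (∀ (q : ↥T) g, (f : Amb T).fin q g ∈ unitVal q.1) →
      {z : {q : Nat.Primes // q ∉ T} × (GQ ⧸ U) | (f : Amb T).ord z.1 z.2.out ≠ 0}.ncard ≤ c →
      (QuotientAddGroup.mk ⟨f, hf⟩ : G) ∈ H by
    have htop : ∀ x : G, x ∈ H := by
      intro x
      induction x using QuotientAddGroup.induction_on with
      | H f =>
      obtain ⟨x, hxK, hx0, hxn⟩ := exists_elt_norm_eq hL hU (f := (f : J T)) f.2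
      obtain ⟨P, hP, -, hPfix⟩ := exists_principal hL (fixedField_le_level hL hU hxK) hx0
      have hPU : ∀ s ∈ U, s • P = P := fun s hs => hPfix s (apply_eq_self_of_mem hxK hs)
      have heq : (QuotientAddGroup.mk f : G)
          = QuotientAddGroup.mk ⟨(f : J T) - P, fun s hs => by rw [smul_sub, f.2 s hs, hPU s hs]⟩ := by
        rw [QuotientAddGroup.eq]
        show (-(f : J T) + ((f : J T) - P)) ∈ unitJ U ⊔ prinLev U
        rw [show -(f : J T) + ((f : J T) - P) = -P by abel]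
        exact neg_mem (AddSubgroup.mem_sup_right ⟨hPU, ⟨_, hP⟩⟩)
      rw [heq]
      refine hall _ _ _ (fun q g => ?_) le_rfl
      rw [AddSubgroup.coe_sub, Amb.fin_sub, mem_unitVal_iff, toMul_sub, Units.val_div_eq_div_val,
        norm_div, hP.fin_eq, hxn, div_self]
      rw [← hxn]; exact (norm_locVal_pos _).ne'
    haveI : Finite (H : Set G) := Set.Finite.to_subtype
      ((hrange.preimage Multiplicative.ofAdd.injective.injOn).subset fun x hx => by
        obtain ⟨I, hI⟩ := hx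
        exact ⟨I, hI⟩)
    exact Finite.of_surjective (fun x : (H : Set G) => (x : G)) fun x => ⟨⟨x, htop x⟩, rfl⟩
  have hsupp : ∀ f : J T, {z : {q : Nat.Primes // q ∉ T} × (GQ ⧸ U) |
      (f : Amb T).ord z.1 z.2.out ≠ 0}.Finite := fun f =>
    (f.2.2.2.2.prod Set.finite_univ).subset fun z hz => ⟨⟨_, hz⟩, Set.mem_univ _⟩
  intro c
  induction c with
  | zero =>
    intro f hf hfu hc
    rw [Nat.le_zero, Set.ncard_eq_zero (hsupp f)] at hc
    have h0 : (QuotientAddGroup.mk ⟨f, hf⟩ : G) = 0 := by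
      rw [QuotientAddGroup.eq_zero_iff]
      refine AddSubgroup.mem_sup_left ⟨hf, fun q g => ?_, hfu⟩
      obtain ⟨u, hu⟩ := QuotientGroup.mk_out_eq_mul U g
      by_contra h
      refine (Set.eq_empty_iff_forall_notMem.1 hc) (q, QuotientGroup.mk g) ?_
      show (f : Amb T).ord q _ ≠ 0
      rw [hu, ord_apply_mul hf q g u.2]
      exact h
    rw [h0]; exact H.zero_mem
  | succ c ih =>
    intro f hf hfu hc
    by_cases hle : {z : {q : Nat.Primes // q ∉ T} × (GQ ⧸ U) |
        (f : Amb T).ord z.1 z.2.out ≠ 0}.ncard ≤ c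
    · exact ih f hf hfu hle
    obtain ⟨⟨q₀, g₀⟩, hz₀⟩ := Set.nonempty_of_ncard_ne_zero
      (s := {z : {q : Nat.Primes // q ∉ T} × (GQ ⧸ U) | (f : Amb T).ord z.1 z.2.out ≠ 0}) (by omega)
    set P := placePrime q₀.1 g₀.out K with hPdef
    let I : (Ideal (𝓞 K))⁰ := ⟨P, mem_nonZeroDivisors_of_ne_zero (placePrime_ne_bot _ _ _)⟩
    have hIord : (Ψ I : Amb T).ord q₀ g₀.out = 1 := by
      refine ord_eq_of_zpow_eq (q := q₀.1) (((hΨ I).2 q₀ g₀.out).unique ⟨⟨((q₀.1 : ℕ) : 𝓞 K),
        natCast_mem_placePrime _ _ _, by rw [norm_placeHom_prime, zpow_neg_one]⟩, fun y hy => ?_⟩)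
      rcases eq_or_ne y 0 with rfl | hy0
      · rw [map_zero, norm_zero]; positivity
      obtain ⟨k, hk⟩ := exists_norm_eq_zpow q₀.1 g₀.out hL q₀.2
        (fixedField_le_level hL hU (y : K).2) (by simpa using hy0)
      have hlt : ‖placeHom q₀.1 g₀.out K y‖ < 1 := hy
      rw [placeHom_apply, hk] at hlt ⊢
      rw [zpow_lt_one_iff_right₀ (one_lt_prime _), neg_lt_zero] at hlt
      exact zpow_le_zpow_right₀ (one_lt_prime _).le (by omega)
    have hother : ∀ (q' : Nat.Primes) (g : GQ) (r : ℝ), IsMaxNorm q' g K P r → r < 1 →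
        ∃ h : q' = q₀.1, ∃ τ : LocGal q₀.1, ∃ s ∈ U, g = loc q₀.1 τ * g₀.out * s := by
      intro q' g r hr hr1
      have hle : P ≤ placePrime q' g K := fun y hy => (hr.2 y hy).trans_lt hr1
      haveI : FiniteDimensional ℚ K := inferInstance
      have hPm : P.IsMaximal :=
        (isPrime_placePrime q₀.1 g₀.out K).isMaximal (placePrime_ne_bot _ _ _)
      have heq : placeIdeal q₀.1 g₀.out K = placeIdeal q' g K :=
        Ideal.ext fun y => (SetLike.ext_iff.1
          (hPm.eq_of_le (isPrime_placePrime q' g K).ne_top hle) y)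
      obtain rfl : q₀.1 = q' := eq_of_placeIdeal_eq q₀.1 g₀.out K heq
      obtain ⟨τ, s, hs, hg⟩ := exists_local_of_placeIdeal_eq q₀.1 g₀.out K heq
      refine ⟨rfl, τ, s, ?_, hg⟩
      exact mem_of_forall_fixedField hU fun x hx =>
        (IntermediateField.mem_fixingSubgroup_iff _ _).1 hs x hx
    have hIfin : ∀ (q : ↥T) g, (Ψ I : Amb T).fin q g ∈ unitVal q.1 := by
      intro q g
      have h := (hΨ I).1 q g
      rw [mem_unitVal_iff]
      refine le_antisymm ?_ (not_lt.1 fun hlt => ?_)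
      · obtain ⟨⟨y, -, hy⟩, -⟩ := h
        exact hy ▸ norm_coe_le_one q.1 g K y
      · obtain ⟨hq, -⟩ := hother q.1 g _ h hlt
        exact q₀.2 (hq ▸ q.2)
    set a := (f : Amb T).ord q₀ g₀.out with ha
    set f' := f - a • Ψ I with hf'
    have hf'U : ∀ s ∈ U, s • f' = f' := fun s hs => by
      rw [hf', smul_sub, smul_comm s a (Ψ I), hf s hs, hΨU I s hs]
    have hord : ∀ q g, (f' : Amb T).ord q g = (f : Amb T).ord q g - a • (Ψ I : Amb T).ord q g :=
      fun _ _ => rfl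
    have hzero : ∀ q g, (f : Amb T).ord q g = 0 → (f' : Amb T).ord q g = 0 := by
      intro q g hq
      by_cases h0 : (Ψ I : Amb T).ord q g = 0
      · simp [hord, hq, h0]
      exfalso
      have hI := (hΨ I).2 q g
      have hlt : ((q.1 : ℕ) : ℝ) ^ (-(Ψ I : Amb T).ord q g) < 1 := by
        refine lt_of_le_of_ne ?_ fun he => h0 (neg_eq_zero.1
          ((zpow_eq_one_iff_right₀ (Nat.cast_nonneg _) (one_lt_prime _).ne').1 he))
        obtain ⟨⟨y, -, hy⟩, -⟩ := hI
        exact hy ▸ norm_coe_le_one q.1 g K y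
      obtain ⟨hqq, τ, s, hs, hg⟩ := hother q.1 g _ hI hlt
      obtain rfl : q = q₀ := Subtype.ext hqq
      refine hz₀ ?_
      show (f : Amb T).ord q g₀.out = 0
      rw [← hq, hg, ord_apply_mul hf q _ hs]
      exact (f.2.2.1 q τ g₀.out).symm
    have hf'fin : ∀ (q : ↥T) g, (f' : Amb T).fin q g ∈ unitVal q.1 := fun q g =>
      (unitVal q.1).sub_mem (hfu q g) ((unitVal q.1).zsmul_mem (hIfin q g) a)
    have hlt : {z : {q : Nat.Primes // q ∉ T} × (GQ ⧸ U) | (f' : Amb T).ord z.1 z.2.out ≠ 0}.ncard <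
        {z : {q : Nat.Primes // q ∉ T} × (GQ ⧸ U) | (f : Amb T).ord z.1 z.2.out ≠ 0}.ncard := by
      refine Set.ncard_lt_ncard ⟨fun z hz h0 => hz (hzero _ _ h0), fun hsub => ?_⟩ (hsupp f)
      refine hsub (a := (q₀, g₀)) hz₀ ?_
      show (f' : Amb T).ord q₀ g₀.out = 0
      rw [hord, hIord, smul_eq_mul, mul_one, ha, sub_self]
    have hsplit : (QuotientAddGroup.mk ⟨f, hf⟩ : G)
        = QuotientAddGroup.mk ⟨f', hf'U⟩ + a • ψ I := by
      show _ = _ + a • (QuotientAddGroup.mk _ : G)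
      rw [← QuotientAddGroup.mk_zsmul, ← QuotientAddGroup.mk_add]
      exact congrArg _ (Subtype.ext (sub_add_cancel f (a • Ψ I)).symm)
    rw [hsplit]
    exact H.add_mem (ih f' hf'U hf'fin (by omega)) (H.zsmul_mem ⟨I, rfl⟩ a)

end Levels

end Fermat.Agent.PoitouTate
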