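/-
Cohomology of a pair of endomorphisms `f ∘ g = g ∘ f = 0` of an abelian group, its hexagon for a
short exact sequence, and the resulting multiplicativity of the Herbrand quotient.
-/
import Mathlib.GroupTheory.Index
import Mathlib.GroupTheory.QuotientGroup.Basic
import Mathlib.Data.Rat.Cast.Order
import Mathlib.Tactic.Ring
import Mathlib.Tactic.FieldSimp
import Mathlib.Tactic.LinearCombination

set_option autoImplicit false

namespace Fermat.Agent.PoitouTate

open Function

section Card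

variable {X Y Z : Type*} [AddCommGroup X] [AddCommGroup Y] [AddCommGroup Z]

theorem natCard_eq_range_mul_range (φ : X →+ Y) (ψ : Y →+ Z) (h : φ.range = ψ.ker) :
    Nat.card Y = Nat.card φ.range * Nat.card ψ.range := by
  rw [h, ← AddSubgroup.index_ker, AddSubgroup.card_mul_index]

theorem natCard_ne_zero_of_exact (φ : X →+ Y) (ψ : Y →+ Z) (h : φ.range = ψ.ker)
    (hX : Nat.card X ≠ 0) (hZ : Nat.card Z ≠ 0) : Nat.card Y ≠ 0 := by
  rw [natCard_eq_range_mul_range φ ψ h]
  have : Finite X := Nat.finite_of_card_ne_zero hX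
  have : Finite Z := Nat.finite_of_card_ne_zero hZ
  have : Finite φ.range := Finite.of_surjective φ.rangeRestrict φ.rangeRestrict_surjective
  exact mul_ne_zero Nat.card_pos.ne' Nat.card_pos.ne'

end Card

/-- A pair of endomorphisms with both composites zero. -/
structure EndPair (A : Type*) [AddCommGroup A] where
  fst : A →+ A
  snd : A →+ A
  fst_snd : ∀ x, fst (snd x) = 0
  snd_fst : ∀ x, snd (fst x) = 0

namespace EndPair

variable {A B C : Type*} [AddCommGroup A] [AddCommGroup B] [AddCommGroup C]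

/-- The pair in the other order. -/
def swap (P : EndPair A) : EndPair A := ⟨P.snd, P.fst, P.snd_fst, P.fst_snd⟩

@[simp] theorem swap_swap (P : EndPair A) : P.swap.swap = P := rfl
@[simp] theorem swap_fst (P : EndPair A) : P.swap.fst = P.snd := rfl
@[simp] theorem swap_snd (P : EndPair A) : P.swap.snd = P.fst := rfl

/-- The cycles. -/
def cycles (P : EndPair A) : AddSubgroup A := AddMonoidHom.ker (P.fst : A →+ A)

theorem mem_cycles (P : EndPair A) {x : A} : x ∈ P.cycles ↔ P.fst x = 0 := Iff.rfl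

/-- The boundaries. -/
def bounds (P : EndPair A) : AddSubgroup A := AddMonoidHom.range (P.snd : A →+ A)

theorem mem_bounds (P : EndPair A) {x : A} : x ∈ P.bounds ↔ ∃ y, P.snd y = x := Iff.rfl

theorem bounds_le_cycles (P : EndPair A) : P.bounds ≤ P.cycles := by
  rintro x ⟨y, rfl⟩
  exact P.fst_snd y

/-- `ker fst / range snd`. -/
abbrev Coh (P : EndPair A) : Type _ := P.cycles ⧸ P.bounds.addSubgroupOf P.cycles

/-- The class of a cycle. -/
def cls (P : EndPair A) : P.cycles →+ P.Coh := QuotientAddGroup.mk' _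

theorem cls_surjective (P : EndPair A) : Surjective P.cls := QuotientAddGroup.mk'_surjective _

theorem cls_eq_zero_iff (P : EndPair A) (x : P.cycles) : P.cls x = 0 ↔ ∃ y, P.snd y = (x : A) := by
  rw [cls, QuotientAddGroup.mk'_apply, QuotientAddGroup.eq_zero_iff]
  rfl

theorem natCard_coh (P : EndPair A) : Nat.card P.Coh = P.bounds.relIndex P.cycles := rfl

/-- A homomorphism commuting with two pairs. -/
structure Hom (P : EndPair A) (Q : EndPair B) where
  toHom : A →+ B
  comm_fst : ∀ x, toHom (P.fst x) = Q.fst (toHom x)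
  comm_snd : ∀ x, toHom (P.snd x) = Q.snd (toHom x)

namespace Hom

variable {P : EndPair A} {Q : EndPair B} {R : EndPair C}

/-- The same homomorphism for the swapped pairs. -/
def swap (u : Hom P Q) : Hom P.swap Q.swap := ⟨u.toHom, u.comm_snd, u.comm_fst⟩

/-- The restriction to cycles. -/
def onCycles (u : Hom P Q) : P.cycles →+ Q.cycles :=
  (u.toHom.comp P.cycles.subtype).codRestrict Q.cycles fun x => by
    show Q.fst (u.toHom x) = 0
    rw [← u.comm_fst, P.mem_cycles.1 x.2, map_zero]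

@[simp] theorem coe_onCycles (u : Hom P Q) (x : P.cycles) :
    (u.onCycles x : B) = u.toHom x := rfl

/-- The induced map on cohomology. -/
def cohMap (u : Hom P Q) : P.Coh →+ Q.Coh :=
  QuotientAddGroup.map _ _ u.onCycles fun x hx => by
    obtain ⟨y, hy⟩ := hx
    exact ⟨u.toHom y, by simp only [← u.comm_snd]; exact congrArg u.toHom hy⟩

@[simp] theorem cohMap_cls (u : Hom P Q) (x : P.cycles) :
    u.cohMap (P.cls x) = Q.cls (u.onCycles x) := rfl

end Hom

/-- A short exact sequence of pairs. -/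
structure ShortExact (P : EndPair A) (Q : EndPair B) (R : EndPair C) where
  inl : Hom P Q
  prj : Hom Q R
  inj : Injective inl.toHom
  surj : Surjective prj.toHom
  exact : ∀ x, prj.toHom x = 0 ↔ ∃ a, inl.toHom a = x

namespace ShortExact

variable {P : EndPair A} {Q : EndPair B} {R : EndPair C} (E : ShortExact P Q R)

/-- The swapped short exact sequence. -/
def swap : ShortExact P.swap Q.swap R.swap :=
  ⟨E.inl.swap, E.prj.swap, E.inj, E.surj, E.exact⟩

theorem exists_delta (c : R.cycles) :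
    ∃ a : P.swap.cycles, ∃ b : B, E.prj.toHom b = c ∧ E.inl.toHom a = Q.fst b := by
  obtain ⟨b, hb⟩ := E.surj c
  obtain ⟨a, ha⟩ := (E.exact (Q.fst b)).1 (by rw [E.prj.comm_fst, hb, R.mem_cycles.1 c.2])
  refine ⟨⟨a, E.inj ?_⟩, b, hb, ha⟩
  rw [swap_fst, E.inl.comm_snd, ha, Q.snd_fst, map_zero]

theorem delta_congr (a a' : P.swap.cycles) (b b' : B) (c : C)
    (hb : E.prj.toHom b = c) (ha : E.inl.toHom a = Q.fst b)
    (hb' : E.prj.toHom b' = c) (ha' : E.inl.toHom a' = Q.fst b') :
    P.swap.cls a = P.swap.cls a' := by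
  rw [← sub_eq_zero, ← map_sub, EndPair.cls_eq_zero_iff]
  obtain ⟨z, hz⟩ := (E.exact (b - b')).1 (by rw [map_sub, hb, hb', sub_self])
  refine ⟨z, E.inj ?_⟩
  rw [swap_snd, E.inl.comm_fst, hz, map_sub, ← ha, ← ha', ← map_sub]
  rfl

/-- The connecting map on cycles. -/
noncomputable def deltaCycles : R.cycles →+ P.swap.Coh where
  toFun c := P.swap.cls (E.exists_delta c).choose
  map_zero' := by
    obtain ⟨b, hb, ha⟩ := (E.exists_delta 0).choose_spec
    rw [E.delta_congr _ 0 b 0 ((0 : R.cycles) : C) hb ha (by simp) (by simp), map_zero]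
  map_add' c d := by
    obtain ⟨b, hb, ha⟩ := (E.exists_delta c).choose_spec
    obtain ⟨b', hb', ha'⟩ := (E.exists_delta d).choose_spec
    obtain ⟨b'', hb'', ha''⟩ := (E.exists_delta (c + d)).choose_spec
    rw [← map_add]
    exact E.delta_congr _ _ b'' (b + b') ((c + d : R.cycles) : C) hb'' ha''
      (by simp [hb, hb']) (by simp [ha, ha'])

theorem deltaCycles_eq (c : R.cycles) (a : P.swap.cycles) (b : B) (hb : E.prj.toHom b = c)
    (ha : E.inl.toHom a = Q.fst b) : E.deltaCycles c = P.swap.cls a := by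
  obtain ⟨b', hb', ha'⟩ := (E.exists_delta c).choose_spec
  exact E.delta_congr _ a b' b c hb' ha' hb ha

/-- The connecting map. -/
noncomputable def delta : R.Coh →+ P.swap.Coh :=
  QuotientAddGroup.lift _ E.deltaCycles fun c hc => by
    obtain ⟨y, hy⟩ := hc
    obtain ⟨b, hb⟩ := E.surj y
    change R.snd y = (c : C) at hy
    rw [AddMonoidHom.mem_ker, E.deltaCycles_eq c 0 (Q.snd b) (by rw [E.prj.comm_snd, hb, hy])
      (by simp [Q.fst_snd]), map_zero]

theorem delta_cls (c : R.cycles) (a : P.swap.cycles) (b : B) (hb : E.prj.toHom b = c)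
    (ha : E.inl.toHom a = Q.fst b) : E.delta (R.cls c) = P.swap.cls a :=
  E.deltaCycles_eq c a b hb ha

theorem range_cohMap_inl : E.inl.cohMap.range = E.prj.cohMap.ker := by
  refine le_antisymm ?_ fun y hy => ?_
  · rintro _ ⟨x, rfl⟩
    obtain ⟨x, rfl⟩ := P.cls_surjective x
    rw [AddMonoidHom.mem_ker, Hom.cohMap_cls, Hom.cohMap_cls, EndPair.cls_eq_zero_iff]
    refine ⟨0, ?_⟩
    simp only [map_zero, Hom.coe_onCycles]
    exact ((E.exact _).2 ⟨_, rfl⟩).symm
  · obtain ⟨y, rfl⟩ := Q.cls_surjective y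
    rw [AddMonoidHom.mem_ker, Hom.cohMap_cls, EndPair.cls_eq_zero_iff] at hy
    obtain ⟨z, hz⟩ := hy
    obtain ⟨b, rfl⟩ := E.surj z
    obtain ⟨a, ha⟩ := (E.exact ((y : B) - Q.snd b)).1 (by
      rw [map_sub, E.prj.comm_snd, hz]; simp)
    have hac : a ∈ P.cycles := P.mem_cycles.2 (E.inj (by
      rw [E.inl.comm_fst, ha, map_sub, Q.mem_cycles.1 y.2, Q.fst_snd, sub_zero, map_zero]))
    refine ⟨P.cls ⟨a, hac⟩, ?_⟩
    rw [Hom.cohMap_cls, ← sub_eq_zero, ← map_sub, EndPair.cls_eq_zero_iff]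
    refine ⟨-b, ?_⟩
    simp [ha]

theorem range_cohMap_prj : E.prj.cohMap.range = E.delta.ker := by
  refine le_antisymm ?_ fun y hy => ?_
  · rintro _ ⟨x, rfl⟩
    obtain ⟨x, rfl⟩ := Q.cls_surjective x
    rw [AddMonoidHom.mem_ker, Hom.cohMap_cls,
      E.delta_cls _ 0 (x : B) rfl (by simp [Q.mem_cycles.1 x.2]), map_zero]
  · obtain ⟨y, rfl⟩ := R.cls_surjective y
    obtain ⟨a, b, hb, ha⟩ := E.exists_delta y
    rw [AddMonoidHom.mem_ker, E.delta_cls y a b hb ha, EndPair.cls_eq_zero_iff] at hy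
    obtain ⟨z, hz⟩ := hy
    have hq : b - E.inl.toHom z ∈ Q.cycles := Q.mem_cycles.2 (by
      rw [map_sub, ← E.inl.comm_fst, ← ha, ← hz, swap_snd, sub_self])
    refine ⟨Q.cls ⟨_, hq⟩, ?_⟩
    rw [Hom.cohMap_cls]
    congr 1
    ext
    simp [hb, (E.exact _).2 ⟨z, rfl⟩]

theorem range_delta : E.delta.range = E.swap.inl.cohMap.ker := by
  refine le_antisymm ?_ fun y hy => ?_
  · rintro _ ⟨x, rfl⟩
    obtain ⟨x, rfl⟩ := R.cls_surjective x
    obtain ⟨a, b, hb, ha⟩ := E.exists_delta x
    rw [E.delta_cls x a b hb ha, AddMonoidHom.mem_ker, Hom.cohMap_cls, EndPair.cls_eq_zero_iff]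
    exact ⟨b, ha.symm⟩
  · obtain ⟨y, rfl⟩ := P.swap.cls_surjective y
    rw [AddMonoidHom.mem_ker, Hom.cohMap_cls, EndPair.cls_eq_zero_iff] at hy
    obtain ⟨b, hb⟩ := hy
    change Q.fst b = E.inl.toHom y at hb
    have hc : E.prj.toHom b ∈ R.cycles := R.mem_cycles.2 (by
      rw [← E.prj.comm_fst, hb]; exact (E.exact _).2 ⟨_, rfl⟩)
    exact ⟨R.cls ⟨_, hc⟩, E.delta_cls ⟨_, hc⟩ y b rfl hb.symm⟩

include E in
theorem natCard_mul :
    Nat.card Q.Coh * Nat.card P.swap.Coh * Nat.card R.swap.Coh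
      = Nat.card Q.swap.Coh * Nat.card P.Coh * Nat.card R.Coh := by
  have h1 : Nat.card Q.Coh = _ := natCard_eq_range_mul_range _ _ E.range_cohMap_inl
  have h2 : Nat.card R.Coh = _ := natCard_eq_range_mul_range _ _ E.range_cohMap_prj
  have h3 : Nat.card P.swap.Coh = _ := natCard_eq_range_mul_range _ _ E.range_delta
  have h4 : Nat.card Q.swap.Coh = _ := natCard_eq_range_mul_range _ _ E.swap.range_cohMap_inl
  have h5 : Nat.card R.swap.Coh = _ := natCard_eq_range_mul_range _ _ E.swap.range_cohMap_prj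
  have h6 : Nat.card P.Coh = _ := natCard_eq_range_mul_range _ _ E.swap.range_delta
  rw [h1, h2, h3, h4, h5, h6]
  have h7 : Nat.card E.swap.swap.inl.cohMap.range = Nat.card E.inl.cohMap.range := rfl
  have key : ∀ a b c d e f a' : ℕ, a' = a →
      a * b * (c * d) * (e * f) = d * e * (f * a') * (b * c) := by
    intro a b c d e f a' h; subst h; ring
  exact key _ _ _ _ _ _ _ h7

end ShortExact

/-- Both cohomology groups are finite. -/
def HasHerbrand (P : EndPair A) : Prop := Nat.card P.Coh ≠ 0 ∧ Nat.card P.swap.Coh ≠ 0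

/-- The Herbrand quotient. -/
noncomputable def herbrand (P : EndPair A) : ℚ := Nat.card P.Coh / Nat.card P.swap.Coh

theorem HasHerbrand.swap {P : EndPair A} (h : P.HasHerbrand) : P.swap.HasHerbrand := ⟨h.2, h.1⟩

theorem HasHerbrand.herbrand_ne_zero {P : EndPair A} (h : P.HasHerbrand) : P.herbrand ≠ 0 :=
  div_ne_zero (Nat.cast_ne_zero.2 h.1) (Nat.cast_ne_zero.2 h.2)

namespace ShortExact

variable {P : EndPair A} {Q : EndPair B} {R : EndPair C} (E : ShortExact P Q R)

include E in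
theorem hasHerbrand_mid (hP : P.HasHerbrand) (hR : R.HasHerbrand) : Q.HasHerbrand :=
  ⟨natCard_ne_zero_of_exact _ _ E.range_cohMap_inl hP.1 hR.1,
    natCard_ne_zero_of_exact _ _ E.swap.range_cohMap_inl hP.2 hR.2⟩

include E in
theorem hasHerbrand_right (hP : P.HasHerbrand) (hQ : Q.HasHerbrand) : R.HasHerbrand :=
  ⟨natCard_ne_zero_of_exact _ _ E.range_cohMap_prj hQ.1 hP.2,
    natCard_ne_zero_of_exact _ _ E.swap.range_cohMap_prj hQ.2 hP.1⟩

include E in
theorem hasHerbrand_left (hQ : Q.HasHerbrand) (hR : R.HasHerbrand) : P.HasHerbrand :=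
  ⟨natCard_ne_zero_of_exact _ _ E.swap.range_delta hR.2 hQ.1,
    natCard_ne_zero_of_exact _ _ E.range_delta hR.1 hQ.2⟩

include E in
theorem herbrand_mid (hP : P.HasHerbrand) (hR : R.HasHerbrand) :
    Q.herbrand = P.herbrand * R.herbrand := by
  have hQ := E.hasHerbrand_mid hP hR
  have h : (Nat.card Q.Coh : ℚ) * Nat.card P.swap.Coh * Nat.card R.swap.Coh
      = Nat.card Q.swap.Coh * Nat.card P.Coh * Nat.card R.Coh := by
    exact_mod_cast E.natCard_mul
  simp only [herbrand]
  rw [div_mul_div_comm, div_eq_div_iff (Nat.cast_ne_zero.2 hQ.2)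
    (mul_ne_zero (Nat.cast_ne_zero.2 hP.2) (Nat.cast_ne_zero.2 hR.2))]
  linear_combination h

end ShortExact

/-- Finite groups have Herbrand quotient one. -/
theorem natCard_coh_eq_of_finite [Finite A] (P : EndPair A) :
    Nat.card P.Coh = Nat.card P.swap.Coh := by
  have k1 : Nat.card P.cycles * Nat.card P.swap.bounds = Nat.card A := by
    rw [show P.swap.bounds = AddMonoidHom.range (P.fst : A →+ A) from rfl, ← AddSubgroup.index_ker]
    exact AddSubgroup.card_mul_index _
  have k2 : Nat.card P.swap.cycles * Nat.card P.bounds = Nat.card A := by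
    rw [show P.bounds = AddMonoidHom.range (P.snd : A →+ A) from rfl, ← AddSubgroup.index_ker]
    exact AddSubgroup.card_mul_index _
  have r1 : Nat.card P.bounds * Nat.card P.Coh = Nat.card P.cycles := by
    rw [← AddSubgroup.card_mul_index (P.bounds.addSubgroupOf P.cycles),
      Nat.card_congr (AddSubgroup.addSubgroupOfEquivOfLe P.bounds_le_cycles).toEquiv]
    rfl
  have r2 : Nat.card P.swap.bounds * Nat.card P.swap.Coh = Nat.card P.swap.cycles := by
    rw [← AddSubgroup.card_mul_index (P.swap.bounds.addSubgroupOf P.swap.cycles),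
      Nat.card_congr (AddSubgroup.addSubgroupOfEquivOfLe P.swap.bounds_le_cycles).toEquiv]
    rfl
  have hb : Nat.card P.bounds * Nat.card P.swap.bounds ≠ 0 :=
    mul_ne_zero Nat.card_pos.ne' Nat.card_pos.ne'
  refine mul_left_cancel₀ hb ?_
  calc Nat.card P.bounds * Nat.card P.swap.bounds * Nat.card P.Coh
      = Nat.card P.cycles * Nat.card P.swap.bounds := by rw [← r1]; ring
    _ = Nat.card A := k1
    _ = Nat.card P.swap.cycles * Nat.card P.bounds := k2.symm
    _ = Nat.card P.bounds * Nat.card P.swap.bounds * Nat.card P.swap.Coh := by rw [← r2]; ring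

theorem hasHerbrand_of_finite [Finite A] (P : EndPair A) : P.HasHerbrand :=
  ⟨Nat.card_pos.ne', Nat.card_pos.ne'⟩

theorem herbrand_of_finite [Finite A] (P : EndPair A) : P.herbrand = 1 := by
  rw [herbrand, natCard_coh_eq_of_finite, div_self]
  exact Nat.cast_ne_zero.2 Nat.card_pos.ne'

/-- The pair induced on a stable subgroup. -/
def restrict (P : EndPair A) (S : AddSubgroup A) (h₁ : ∀ x ∈ S, P.fst x ∈ S)
    (h₂ : ∀ x ∈ S, P.snd x ∈ S) : EndPair S where
  fst := ((P.fst : A →+ A).comp S.subtype).codRestrict S fun x => h₁ x x.2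
  snd := ((P.snd : A →+ A).comp S.subtype).codRestrict S fun x => h₂ x x.2
  fst_snd x := Subtype.ext (P.fst_snd x)
  snd_fst x := Subtype.ext (P.snd_fst x)

/-- The pair induced on a quotient by a stable subgroup. -/
def quotient (P : EndPair A) (S : AddSubgroup A) (h₁ : ∀ x ∈ S, P.fst x ∈ S)
    (h₂ : ∀ x ∈ S, P.snd x ∈ S) : EndPair (A ⧸ S) where
  fst := QuotientAddGroup.map S S (P.fst : A →+ A) fun x hx => h₁ x hx
  snd := QuotientAddGroup.map S S (P.snd : A →+ A) fun x hx => h₂ x hx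
  fst_snd x := by
    induction x using QuotientAddGroup.induction_on with
    | H x => exact congrArg QuotientAddGroup.mk (P.fst_snd x)
  snd_fst x := by
    induction x using QuotientAddGroup.induction_on with
    | H x => exact congrArg QuotientAddGroup.mk (P.snd_fst x)

/-- The tautological short exact sequence of a stable subgroup. -/
def shortExactQuotient (P : EndPair A) (S : AddSubgroup A) (h₁ : ∀ x ∈ S, P.fst x ∈ S)
    (h₂ : ∀ x ∈ S, P.snd x ∈ S) :
    ShortExact (P.restrict S h₁ h₂) P (P.quotient S h₁ h₂) where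
  inl := ⟨S.subtype, fun _ => rfl, fun _ => rfl⟩
  prj := ⟨QuotientAddGroup.mk' S, fun _ => rfl, fun _ => rfl⟩
  inj := Subtype.val_injective
  surj := QuotientAddGroup.mk'_surjective S
  exact x := by
    show (x : A ⧸ S) = 0 ↔ _
    rw [QuotientAddGroup.eq_zero_iff]
    exact ⟨fun h => ⟨⟨x, h⟩, rfl⟩, fun ⟨a, ha⟩ => ha ▸ a.2⟩

/-- An equivariant homomorphism with finite kernel and cokernel preserves the Herbrand quotient. -/
theorem Hom.herbrand_eq {P : EndPair A} {Q : EndPair B} (u : Hom P Q) [Finite u.toHom.ker]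
    [Finite (B ⧸ u.toHom.range)] (hP : P.HasHerbrand) :
    Q.HasHerbrand ∧ Q.herbrand = P.herbrand := by
  have k₁ : ∀ x ∈ u.toHom.ker, P.fst x ∈ u.toHom.ker := fun x hx => by
    rw [AddMonoidHom.mem_ker] at *; rw [u.comm_fst, hx, map_zero]
  have k₂ : ∀ x ∈ u.toHom.ker, P.snd x ∈ u.toHom.ker := fun x hx => by
    rw [AddMonoidHom.mem_ker] at *; rw [u.comm_snd, hx, map_zero]
  have i₁ : ∀ x ∈ u.toHom.range, Q.fst x ∈ u.toHom.range := by
    rintro _ ⟨y, rfl⟩; exact ⟨P.fst y, u.comm_fst y⟩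
  have i₂ : ∀ x ∈ u.toHom.range, Q.snd x ∈ u.toHom.range := by
    rintro _ ⟨y, rfl⟩; exact ⟨P.snd y, u.comm_snd y⟩
  let E : ShortExact (P.restrict _ k₁ k₂) P (Q.restrict _ i₁ i₂) :=
    { inl := ⟨u.toHom.ker.subtype, fun _ => rfl, fun _ => rfl⟩
      prj := ⟨u.toHom.rangeRestrict, fun x => Subtype.ext (u.comm_fst x),
        fun x => Subtype.ext (u.comm_snd x)⟩
      inj := Subtype.val_injective
      surj := u.toHom.rangeRestrict_surjective
      exact := fun x => ⟨fun h => ⟨⟨x, congrArg Subtype.val h⟩, rfl⟩,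
        fun ⟨a, ha⟩ => Subtype.ext (ha ▸ a.2)⟩ }
  have hK := hasHerbrand_of_finite (P.restrict _ k₁ k₂)
  have hI := E.hasHerbrand_right hK hP
  have hC := hasHerbrand_of_finite (Q.quotient _ i₁ i₂)
  let E' := Q.shortExactQuotient _ i₁ i₂
  refine ⟨E'.hasHerbrand_mid hI hC, ?_⟩
  rw [E'.herbrand_mid hI hC, herbrand_of_finite (Q.quotient _ i₁ i₂),
    E.herbrand_mid hK hI, herbrand_of_finite (P.restrict _ k₁ k₂), mul_one, one_mul]

/-- The product of two pairs. -/
def prod (P : EndPair A) (Q : EndPair B) : EndPair (A × B) where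
  fst := (P.fst : A →+ A).prodMap (Q.fst : B →+ B)
  snd := (P.snd : A →+ A).prodMap (Q.snd : B →+ B)
  fst_snd x := Prod.ext (P.fst_snd x.1) (Q.fst_snd x.2)
  snd_fst x := Prod.ext (P.snd_fst x.1) (Q.snd_fst x.2)

/-- The split short exact sequence. -/
def shortExactProd (P : EndPair A) (Q : EndPair B) : ShortExact P (P.prod Q) Q where
  inl := ⟨AddMonoidHom.inl A B, fun x => Prod.ext rfl (map_zero (Q.fst : B →+ B)).symm,
    fun x => Prod.ext rfl (map_zero (Q.snd : B →+ B)).symm⟩
  prj := ⟨AddMonoidHom.snd A B, fun _ => rfl, fun _ => rfl⟩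
  inj _ _ h := congrArg Prod.fst h
  surj b := ⟨(0, b), rfl⟩
  exact x := ⟨fun h => ⟨x.1, Prod.ext rfl h.symm⟩, fun ⟨a, ha⟩ => ha ▸ rfl⟩

end EndPair

end Fermat.Agent.PoitouTate
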