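/-
Herbrand quotients for an automorphism of prime order of a finitely generated abelian group:
`h(M) ^ (p - 1) = p ^ (p * rank M^σ - rank M)`.
-/
import Fermat.Agent.PoitouTate.IdeleHerbrand
import Mathlib.LinearAlgebra.FreeModule.ModN
import Mathlib.LinearAlgebra.FreeModule.PID
import Mathlib.LinearAlgebra.Dimension.Torsion.Finite
import Mathlib.GroupTheory.FiniteAbelian.Basic
import Mathlib.Algebra.Ring.GeomSum
import Mathlib.Data.Nat.Choose.Sum
import Mathlib.Data.Nat.Choose.Dvd
import Mathlib.Data.Nat.Prime.Basic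

set_option autoImplicit false

namespace Fermat.Agent.PoitouTate

open Function Finset

namespace EndPair

variable {A B : Type*} [AddCommGroup A] [AddCommGroup B]

/-- The pair `(σ - 1, 1 + σ + ⋯ + σ^(n-1))` for `σ ^ n = 1`. -/
def cyclic (σ : AddMonoid.End A) (n : ℕ) (h : σ ^ n = 1) : EndPair A where
  fst := (σ - 1 : AddMonoid.End A)
  snd := (∑ i ∈ range n, σ ^ i : AddMonoid.End A)
  fst_snd x := by
    show ((σ - 1) * ∑ i ∈ range n, σ ^ i : AddMonoid.End A) x = 0
    rw [mul_geom_sum, h, sub_self]; rfl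
  snd_fst x := by
    show ((∑ i ∈ range n, σ ^ i) * (σ - 1) : AddMonoid.End A) x = 0
    rw [geom_sum_mul, h, sub_self]; rfl

@[simp] theorem cyclic_fst_apply (σ : AddMonoid.End A) (n : ℕ) (h : σ ^ n = 1) (x : A) :
    (cyclic σ n h).fst x = σ x - x := rfl

@[simp] theorem cyclic_snd_apply (σ : AddMonoid.End A) (n : ℕ) (h : σ ^ n = 1) (x : A) :
    (cyclic σ n h).snd x = ∑ i ∈ range n, (σ ^ i) x :=
  AddMonoidHom.finsetSum_apply (fun i => ((σ ^ i : AddMonoid.End A) : A →+ A)) (range n) x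

/-- An equivariant homomorphism is a morphism of cyclic pairs. -/
def Hom.ofEquivariant {σ : AddMonoid.End A} {τ : AddMonoid.End B} {n : ℕ} (h : σ ^ n = 1)
    (h' : τ ^ n = 1) (u : A →+ B) (hu : ∀ x, u (σ x) = τ (u x)) :
    Hom (cyclic σ n h) (cyclic τ n h') where
  toHom := u
  comm_fst x := by simp [hu]
  comm_snd x := by
    have key : ∀ (i : ℕ) (x : A), u ((σ ^ i) x) = (τ ^ i) (u x) := by
      intro i
      induction i with
      | zero => exact fun _ => rfl
      | succ i ih =>
        intro x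
        rw [pow_succ, pow_succ]
        show u ((σ ^ i) (σ x)) = (τ ^ i) (τ (u x))
        rw [ih, hu]
    rw [cyclic_snd_apply, cyclic_snd_apply, map_sum]
    exact Finset.sum_congr rfl fun i _ => key i x

theorem snd_self (σ : AddMonoid.End A) (n : ℕ) (h : σ ^ n = 1) (x : A) :
    (cyclic σ n h).snd ((cyclic σ n h).snd x) = n • (cyclic σ n h).snd x := by
  have hfix : ∀ (i : ℕ) (y : A), (cyclic σ n h).fst y = 0 → (σ ^ i) y = y := by
    intro i y hy
    rw [cyclic_fst_apply, sub_eq_zero] at hy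
    induction i with
    | zero => rfl
    | succ i ih =>
      rw [pow_succ]
      show (σ ^ i) (σ y) = y
      rw [hy, ih]
  rw [cyclic_snd_apply, Finset.sum_congr rfl fun i _ => hfix i _ ((cyclic σ n h).fst_snd x),
    Finset.sum_const, card_range]

theorem snd_of_fixed (σ : AddMonoid.End A) (n : ℕ) (h : σ ^ n = 1) (x : A)
    (hx : (cyclic σ n h).fst x = 0) : (cyclic σ n h).snd x = n • x := by
  rw [cyclic_fst_apply, sub_eq_zero] at hx
  have hfix : ∀ i : ℕ, (σ ^ i) x = x := by
    intro i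
    induction i with
    | zero => rfl
    | succ i ih => rw [pow_succ]; show (σ ^ i) (σ x) = x; rw [hx, ih]
  rw [cyclic_snd_apply, Finset.sum_congr rfl fun i _ => hfix i, Finset.sum_const, card_range]

end EndPair

section FG

variable {M : Type*} [AddCommGroup M] [Module.Finite ℤ M]

theorem finite_of_nsmul_eq_zero {n : ℕ} (hn : n ≠ 0) (h : ∀ x : M, n • x = 0) : Finite M :=
  Module.finite_of_fg_torsion M fun x =>
    ⟨⟨(n : ℤ), mem_nonZeroDivisors_of_ne_zero (Int.natCast_ne_zero.2 hn)⟩,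
      (natCast_zsmul x n).trans (h x)⟩

theorem finite_torsion : Finite (Submodule.torsion ℤ M) :=
  Module.finite_of_fg_torsion _ (Submodule.torsion_isTorsion)

theorem finite_of_forall_exists_nsmul (S : AddSubgroup M)
    (h : ∀ x ∈ S, ∃ n : ℕ, n ≠ 0 ∧ n • x = 0) : Finite S := by
  have := finite_torsion (M := M)
  have hle : ∀ x ∈ S, x ∈ Submodule.torsion ℤ M := fun x hx => by
    obtain ⟨n, hn, hnx⟩ := h x hx
    exact ⟨⟨(n : ℤ), mem_nonZeroDivisors_of_ne_zero (Int.natCast_ne_zero.2 hn)⟩,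
      (natCast_zsmul x n).trans hnx⟩
  exact Finite.of_injective (fun x : S => (⟨x, hle x x.2⟩ : Submodule.torsion ℤ M))
    fun a b hab => Subtype.ext (congrArg (fun t : Submodule.torsion ℤ M => (t : M)) hab)

/-- A pair of endomorphisms descends to the quotient by the torsion submodule. -/
noncomputable def EndPair.modTorsion (P : EndPair M) :
    EndPair (M ⧸ Submodule.torsion ℤ M) :=
  P.quotient (Submodule.torsion ℤ M).toAddSubgroup
    (fun x ⟨a, ha⟩ => ⟨a, by rw [Submonoid.smul_def] at ha ⊢; rw [← map_zsmul, ha, map_zero]⟩)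
    (fun x ⟨a, ha⟩ => ⟨a, by rw [Submonoid.smul_def] at ha ⊢; rw [← map_zsmul, ha, map_zero]⟩)

/-- The projection to the quotient by torsion. -/
noncomputable def EndPair.toModTorsion (P : EndPair M) : EndPair.Hom P P.modTorsion :=
  ⟨(Submodule.torsion ℤ M).mkQ.toAddMonoidHom, fun _ => rfl, fun _ => rfl⟩

theorem EndPair.herbrand_modTorsion (P : EndPair M) (h : P.modTorsion.HasHerbrand) :
    P.HasHerbrand ∧ P.herbrand = P.modTorsion.herbrand := by
  have := finite_torsion (M := M)
  let T := (Submodule.torsion ℤ M).toAddSubgroup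
  have : Finite T := finite_torsion (M := M)
  let h₁ : ∀ x ∈ T, P.fst x ∈ T :=
    fun x ⟨a, ha⟩ => ⟨a, by rw [Submonoid.smul_def] at ha ⊢; rw [← map_zsmul, ha, map_zero]⟩
  let h₂ : ∀ x ∈ T, P.snd x ∈ T :=
    fun x ⟨a, ha⟩ => ⟨a, by rw [Submonoid.smul_def] at ha ⊢; rw [← map_zsmul, ha, map_zero]⟩
  let E := P.shortExactQuotient T h₁ h₂
  have hT := EndPair.hasHerbrand_of_finite (P.restrict T h₁ h₂)
  exact ⟨E.hasHerbrand_mid hT h,
    (E.herbrand_mid hT h).trans (by rw [EndPair.herbrand_of_finite, one_mul]; rfl)⟩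

theorem finrank_modTorsion :
    Module.finrank ℤ (M ⧸ Submodule.torsion ℤ M) = Module.finrank ℤ M := by
  have h := Submodule.finrank_quotient_add_finrank (Submodule.torsion ℤ M)
  rw [Module.finrank_eq_zero_iff_isTorsion.2 (Submodule.torsion_isTorsion (R := ℤ) (M := M)),
    add_zero] at h
  exact h

theorem natCard_quotient_range_nsmul [Module.Free ℤ M] (n : ℕ) [NeZero n] :
    (AddMonoidHom.range (n • AddMonoidHom.id M)).index = n ^ Module.finrank ℤ M := by
  rw [← ModN.natCard_eq, AddSubgroup.index]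
  refine Nat.card_congr (QuotientAddGroup.quotientAddEquivOfEq ?_).toEquiv
  ext x
  simp [LinearMap.mem_range, AddMonoidHom.mem_range, natCast_zsmul]

/-- Herbrand quotient of multiplication by `p` (trivial action). -/
theorem herbrand_trivial (P : EndPair M) {p : ℕ} (hp : p ≠ 0) (h₁ : ∀ x, P.fst x = 0)
    (h₂ : ∀ x, P.snd x = p • x) :
    P.HasHerbrand ∧ P.herbrand = (p : ℚ) ^ Module.finrank ℤ M := by
  have : NeZero p := ⟨hp⟩
  set Q := P.modTorsion with hQdef
  have h₁' : ∀ x, Q.fst x = 0 := fun x => by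
    induction x using Submodule.Quotient.induction_on with
    | _ x => exact (congrArg _ (h₁ x)).trans (map_zero (Submodule.torsion ℤ M).mkQ)
  have h₂' : ∀ x, Q.snd x = p • x := fun x => by
    induction x using Submodule.Quotient.induction_on with
    | _ x => exact (congrArg _ (h₂ x)).trans (map_nsmul (Submodule.torsion ℤ M).mkQ p x)
  have e0 : Nat.card Q.Coh = p ^ Module.finrank ℤ M := by
    have hc : Q.cycles = ⊤ := eq_top_iff.2 fun x _ => Q.mem_cycles.2 (h₁' x)
    have hb : Q.bounds = AddMonoidHom.range (p • AddMonoidHom.id _) := by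
      ext x; simp [EndPair.mem_bounds, AddMonoidHom.mem_range, h₂']
    rw [EndPair.natCard_coh, hc, AddSubgroup.relIndex_top_right, hb,
      natCard_quotient_range_nsmul, finrank_modTorsion]
  have e1 : Nat.card Q.swap.Coh = 1 := by
    have hc : Q.swap.cycles = ⊥ := (AddSubgroup.eq_bot_iff_forall _).2 fun x hx => by
      rw [EndPair.mem_cycles, EndPair.swap_fst, h₂'] at hx
      exact (smul_eq_zero.1 ((natCast_zsmul x p).trans hx)).resolve_left (Int.natCast_ne_zero.2 hp)
    rw [EndPair.natCard_coh, hc, AddSubgroup.relIndex_bot_right]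
  have hQ : Q.HasHerbrand := ⟨by rw [e0]; exact pow_ne_zero _ hp, by rw [e1]; exact one_ne_zero⟩
  obtain ⟨hP, e⟩ := P.herbrand_modTorsion hQ
  refine ⟨hP, e.trans ?_⟩
  show Q.herbrand = _
  rw [EndPair.herbrand, e0, e1]; simp

end FG

section NormZero

variable {F : Type*} [AddCommGroup F] [Module.Finite ℤ F] [Module.Free ℤ F]

/-- On a lattice killed by the norm, `(σ-1)^(p-1) F = p F`. -/
theorem index_range_sub_one_pow {p : ℕ} (hp : p.Prime) (σ : AddMonoid.End F) (hσ : σ ^ p = 1)
    (hN : ∀ x, (EndPair.cyclic σ p hσ).snd x = 0) :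
    Injective (EndPair.cyclic σ p hσ).fst ∧
      (AddMonoidHom.range (EndPair.cyclic σ p hσ).fst).index ^ (p - 1)
        = p ^ Module.finrank ℤ F := by
  have : NeZero p := ⟨hp.ne_zero⟩
  set D : AddMonoid.End F := σ - 1 with hDdef
  have hDinj : Injective D := by
    refine (injective_iff_map_eq_zero _).2 fun x hx => ?_
    have h := EndPair.snd_of_fixed σ p hσ x hx
    rw [hN] at h
    exact (smul_eq_zero.1 ((natCast_zsmul x p).trans h.symm)).resolve_left
      (Int.natCast_ne_zero.2 hp.ne_zero)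
  refine ⟨hDinj, ?_⟩
  have hrel : ∀ x : F, ∑ k ∈ range p, (p.choose (k + 1)) • (D ^ k) x = 0 := fun x => hDinj <| by
    have e : (D + 1) ^ p = 1 := by rw [hDdef, sub_add_cancel, hσ]
    rw [(Commute.one_right D).add_pow, sum_range_succ'] at e
    simp only [one_pow, mul_one, pow_zero, Nat.choose_zero_right, Nat.cast_one,
      add_eq_right] at e
    have := DFunLike.congr_fun e x
    rw [AddMonoid.End.zero_apply] at this
    refine Eq.trans ?_ (this.trans (map_zero D).symm)
    rw [map_sum]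
    refine Eq.trans ?_ (AddMonoidHom.finsetSum_apply _ (range p) x).symm
    refine Finset.sum_congr rfl fun k _ => ?_
    rw [map_nsmul, pow_succ']
    show _ = (D * D ^ k : AddMonoid.End F) (((p.choose (k + 1) : ℕ) : AddMonoid.End F) x)
    rw [AddMonoid.End.natCast_apply, map_nsmul]
    rfl
  obtain ⟨q, hq⟩ : ∃ q, p = q + 1 := ⟨p - 1, by have := hp.one_lt; omega⟩
  have hdvd : ∀ k, k < q → p ∣ p.choose (k + 1) := fun k hk =>
    hp.dvd_choose_self k.succ_ne_zero (by omega)
  -- `p F ⊆ D^j F` for `j ≤ q`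
  have hdown : ∀ j ≤ q, ∀ x : F, ∃ y, (D ^ j) y = p • x := by
    intro j
    induction j with
    | zero => exact fun _ x => ⟨p • x, rfl⟩
    | succ j ih =>
      intro hj x
      have h := hrel x
      have hrange : range p = range (q + 1) := by rw [hq]
      rw [hrange, sum_range_succ] at h
      have htop : p.choose (q + 1) = 1 := by rw [← hq, Nat.choose_self]
      rw [htop, one_smul] at h
      obtain ⟨m, rfl⟩ : ∃ m, q = m + 1 := ⟨q - 1, by omega⟩
      rw [sum_range_succ'] at h
      simp only [zero_add, Nat.choose_one_right, pow_zero] at h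
      choose c hc using fun (k : ℕ) (hk : k < m) => hdvd (k + 1) (by omega)
      obtain ⟨z, hz⟩ := ih (by omega)
        (∑ k ∈ (range m).attach, c k (mem_range.1 k.2) • (D ^ (k : ℕ)) x)
      obtain ⟨w, hw⟩ : ∃ w, m = j + w := ⟨m - j, by omega⟩
      refine ⟨-(z + (D ^ w) x), ?_⟩
      have hDz : (D ^ (j + 1)) z
          = ∑ k ∈ range m, p.choose (k + 1 + 1) • (D ^ (k + 1)) x := by
        rw [pow_succ']
        show D ((D ^ j) z) = _
        rw [hz, smul_sum, map_sum, ← Finset.sum_attach (range m)]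
        refine Finset.sum_congr rfl fun k _ => ?_
        rw [map_nsmul, map_nsmul, smul_smul, ← hc, pow_succ']
        rfl
      have hDw : (D ^ (j + 1)) ((D ^ w) x) = (D ^ (m + 1)) x := by
        rw [hw, show j + w + 1 = j + 1 + w by omega, pow_add D (j + 1) w]; rfl
      rw [map_neg, map_add, hDz, hDw]
      refine neg_eq_iff_add_eq_zero.2 ?_
      rw [← h]
      show _ + p • x = _ + p • x + _
      abel
  have hup : ∀ x : F, ∃ y, p • y = (D ^ q) x := by
    intro x
    have h := hrel x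
    have hrange : range p = range (q + 1) := by rw [hq]
    have htop : p.choose (q + 1) = 1 := by rw [← hq, Nat.choose_self]
    rw [hrange, sum_range_succ, htop, one_smul] at h
    choose c hc using fun (k : ℕ) (hk : k < q) => hdvd k hk
    refine ⟨-∑ k ∈ (range q).attach, c k (mem_range.1 k.2) • (D ^ (k : ℕ)) x, ?_⟩
    rw [smul_neg, neg_eq_iff_add_eq_zero, ← h, smul_sum, ← Finset.sum_attach (range q)]
    congr 1
    refine Finset.sum_congr rfl fun k _ => ?_
    rw [smul_smul, ← hc]
  have hpow : ∀ j, (AddMonoidHom.range (D ^ j : AddMonoid.End F)).index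
      = (AddMonoidHom.range (D : F →+ F)).index ^ j := by
    intro j
    induction j with
    | zero =>
      rw [pow_zero, pow_zero, AddSubgroup.index_eq_one, eq_top_iff]
      exact fun x _ => ⟨x, rfl⟩
    | succ j ih =>
      have : AddMonoidHom.range (D ^ (j + 1) : AddMonoid.End F)
          = (AddMonoidHom.range (D ^ j : AddMonoid.End F)).map (D : F →+ F) := by
        rw [pow_succ']
        exact AddMonoidHom.range_comp (D : F →+ F) ((D ^ j : AddMonoid.End F) : F →+ F)
      rw [this, AddSubgroup.index_map_of_injective (H := _) hDinj, ih, pow_succ]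
  have hrange : AddMonoidHom.range (D ^ q : AddMonoid.End F)
      = AddMonoidHom.range (p • AddMonoidHom.id F) := by
    refine le_antisymm ?_ ?_
    · rintro _ ⟨x, rfl⟩; obtain ⟨y, hy⟩ := hup x; exact ⟨y, hy⟩
    · rintro _ ⟨x, rfl⟩; exact hdown q le_rfl x
  rw [show p - 1 = q by omega]
  show (AddMonoidHom.range (D : F →+ F)).index ^ q = _
  rw [← hpow, hrange, natCard_quotient_range_nsmul]

end NormZero

section Main

variable {M : Type*} [AddCommGroup M] [Module.Finite ℤ M] {p : ℕ}

theorem herbrand_norm_zero (hp : p.Prime) (σ : AddMonoid.End M) (hσ : σ ^ p = 1)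
    (hN : ∀ x, (EndPair.cyclic σ p hσ).snd x = 0) :
    (EndPair.cyclic σ p hσ).HasHerbrand ∧
      (EndPair.cyclic σ p hσ).herbrand ^ (p - 1) * (p : ℚ) ^ Module.finrank ℤ M = 1 := by
  set P := EndPair.cyclic σ p hσ
  let T := Submodule.torsion ℤ M
  let τ : AddMonoid.End (M ⧸ T) := (T.mapQ T σ.toIntLinearMap fun x ⟨a, ha⟩ => ⟨a, by
    rw [Submonoid.smul_def] at ha ⊢
    show (a : ℤ) • (σ : M →+ M) x = 0
    rw [← map_zsmul, ha, map_zero]⟩).toAddMonoidHom
  have hτi : ∀ (i : ℕ) (x : M), (τ ^ i) (Submodule.Quotient.mk x) =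
      Submodule.Quotient.mk ((σ ^ i) x) := by
    intro i
    induction i with
    | zero => exact fun _ => rfl
    | succ i ih => intro x; rw [pow_succ, pow_succ]; exact ih (σ x)
  have hτ : τ ^ p = 1 := AddMonoidHom.ext fun x => by
    induction x using Submodule.Quotient.induction_on with
    | _ x => exact (hτi p x).trans (by rw [hσ]; rfl)
  have hN' : ∀ x, (EndPair.cyclic τ p hτ).snd x = 0 := fun x => by
    induction x using Submodule.Quotient.induction_on with
    | _ x =>
      rw [EndPair.cyclic_snd_apply, Finset.sum_congr rfl fun i _ => hτi i x]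
      exact (map_sum T.mkQ _ _).symm.trans (by
        rw [← EndPair.cyclic_snd_apply σ p hσ, hN]; exact map_zero _)
  have hPQ : P.modTorsion = EndPair.cyclic τ p hτ := by
    have h1 : P.modTorsion.fst = (EndPair.cyclic τ p hτ).fst := AddMonoidHom.ext fun x => by
      induction x using Submodule.Quotient.induction_on with
      | _ x => rfl
    have h2 : P.modTorsion.snd = (EndPair.cyclic τ p hτ).snd := AddMonoidHom.ext fun x => by
      rw [hN']
      induction x using Submodule.Quotient.induction_on with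
      | _ x => exact (congrArg _ (hN x)).trans (map_zero T.mkQ)
    revert h1 h2
    generalize P.modTorsion = X, EndPair.cyclic τ p hτ = Y
    rintro h1 h2; cases X; cases Y; simp only at h1 h2; subst h1 h2; rfl
  obtain ⟨hinj, hidx⟩ := index_range_sub_one_pow hp τ hτ hN'
  set Q := EndPair.cyclic τ p hτ
  have e0 : Nat.card Q.Coh = 1 := by
    have hc : Q.cycles = ⊥ := (AddSubgroup.eq_bot_iff_forall _).2 fun x hx =>
      (injective_iff_map_eq_zero _).1 hinj x hx
    rw [EndPair.natCard_coh, hc, AddSubgroup.relIndex_bot_right]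
  have e1 : Nat.card Q.swap.Coh = (AddMonoidHom.range Q.fst).index := by
    have hc : Q.swap.cycles = ⊤ := eq_top_iff.2 fun x _ => Q.swap.mem_cycles.2 (hN' x)
    rw [EndPair.natCard_coh, hc, AddSubgroup.relIndex_top_right]; rfl
  have hne : (AddMonoidHom.range Q.fst).index ≠ 0 := fun h0 => by
    rw [h0, zero_pow (by have := hp.one_lt; omega)] at hidx
    exact pow_ne_zero _ hp.ne_zero hidx.symm
  have hQ : Q.HasHerbrand := ⟨by rw [e0]; exact one_ne_zero, by rw [e1]; exact hne⟩
  obtain ⟨hP, e⟩ := P.herbrand_modTorsion (hPQ ▸ hQ)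
  refine ⟨hP, ?_⟩
  rw [e, hPQ, EndPair.herbrand, e0, e1, ← finrank_modTorsion (M := M)]
  rw [Nat.cast_one, one_div, inv_pow,
    show ((AddMonoidHom.range Q.fst).index : ℚ) ^ (p - 1)
      = (p : ℚ) ^ Module.finrank ℤ (M ⧸ T) by exact_mod_cast hidx,
    inv_mul_cancel₀ (pow_ne_zero _ (Nat.cast_ne_zero.2 hp.ne_zero))]

/-- The fixed subgroup of `σ`. -/
def fixedSubgroup (σ : AddMonoid.End M) : AddSubgroup M :=
  AddMonoidHom.ker ((σ - 1 : AddMonoid.End M) : M →+ M)

omit [Module.Finite ℤ M] in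
theorem mem_fixedSubgroup (σ : AddMonoid.End M) (x : M) : x ∈ fixedSubgroup σ ↔ σ x = x :=
  AddMonoidHom.mem_ker.trans sub_eq_zero

/-- `h(M) ^ (p - 1) * p ^ rank M = p ^ (p * rank M^σ)`. -/
theorem herbrand_cyclic_pow (hp : p.Prime) (σ : AddMonoid.End M) (hσ : σ ^ p = 1) :
    (EndPair.cyclic σ p hσ).HasHerbrand ∧
      (EndPair.cyclic σ p hσ).herbrand ^ (p - 1) * (p : ℚ) ^ Module.finrank ℤ M
        = (p : ℚ) ^ (p * Module.finrank ℤ (fixedSubgroup σ)) := by
  set P := EndPair.cyclic σ p hσ with hPdef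
  let M₀ := P.cycles
  let M₁ := P.swap.cycles
  have : Module.Finite ℤ M₀ :=
    Module.Finite.iff_fg.2 (IsNoetherian.noetherian (AddSubgroup.toIntSubmodule M₀))
  have : Module.Finite ℤ M₁ :=
    Module.Finite.iff_fg.2 (IsNoetherian.noetherian (AddSubgroup.toIntSubmodule M₁))
  have z1 : ∀ x ∈ M₀, P.fst x ∈ M₀ := fun x hx => by
    rw [P.mem_cycles.1 hx]; exact M₀.zero_mem
  have z2 : ∀ x ∈ M₀, P.snd x ∈ M₀ := fun x _ => P.mem_cycles.2 (P.fst_snd x)
  have w1 : ∀ x ∈ M₁, P.fst x ∈ M₁ := fun x _ => P.swap.mem_cycles.2 (P.snd_fst x)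
  have w2 : ∀ x ∈ M₁, P.snd x ∈ M₁ := fun x hx => by
    rw [show P.snd x = 0 from hx]; exact M₁.zero_mem
  let P₀ := P.restrict M₀ z1 z2
  let P₁ := P.restrict M₁ w1 w2
  obtain ⟨h0, e0⟩ := herbrand_trivial P₀ hp.ne_zero (fun x => Subtype.ext (P.mem_cycles.1 x.2))
    (fun x => Subtype.ext (by
      show P.snd (x : M) = ((p • x : M₀) : M)
      rw [hPdef, EndPair.snd_of_fixed σ p hσ (x : M) (P.mem_cycles.1 x.2)]; rfl))
  have hσM₁ : ∀ x ∈ M₁, σ x ∈ M₁ := fun x hx => by
    have : σ x = P.fst x + x := by simp [hPdef]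
    rw [this]; exact M₁.add_mem (w1 x hx) hx
  let σ₁ : AddMonoid.End M₁ := ((σ : M →+ M).comp M₁.subtype).codRestrict M₁ fun x => hσM₁ x x.2
  have hσ₁i : ∀ (i : ℕ) (x : M₁), (((σ₁ ^ i) x : M₁) : M) = (σ ^ i) (x : M) := by
    intro i
    induction i with
    | zero => exact fun _ => rfl
    | succ i ih => intro x; rw [pow_succ, pow_succ]; exact ih (σ₁ x)
  have hσ₁ : σ₁ ^ p = 1 := AddMonoidHom.ext fun x => Subtype.ext
    ((hσ₁i p x).trans (by rw [hσ]; rfl))
  have hsnd1 : ∀ x, (EndPair.cyclic σ₁ p hσ₁).snd x = 0 := fun x => Subtype.ext (by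
    rw [EndPair.cyclic_snd_apply, AddSubgroup.val_finset_sum,
      Finset.sum_congr rfl fun i _ => hσ₁i i x, ← EndPair.cyclic_snd_apply σ p hσ]
    exact x.2)
  obtain ⟨h1, e1⟩ := herbrand_norm_zero hp σ₁ hσ₁ hsnd1
  have hP₁ : P₁ = EndPair.cyclic σ₁ p hσ₁ := by
    have a1 : P₁.fst = (EndPair.cyclic σ₁ p hσ₁).fst := AddMonoidHom.ext fun x => Subtype.ext rfl
    have a2 : P₁.snd = (EndPair.cyclic σ₁ p hσ₁).snd := AddMonoidHom.ext fun x => by
      rw [hsnd1]; exact Subtype.ext x.2
    revert a1 a2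
    generalize P₁ = X, EndPair.cyclic σ₁ p hσ₁ = Y
    rintro a1 a2; cases X; cases Y; simp only at a1 a2; subst a1 a2; rfl
  rw [← hP₁] at h1 e1
  let E := EndPair.shortExactProd P₀ P₁
  have hprod := E.hasHerbrand_mid h0 h1
  let u : EndPair.Hom (P₀.prod P₁) P :=
    ⟨M₀.subtype.coprod M₁.subtype, fun x => (map_add P.fst (x.1 : M) (x.2 : M)).symm,
      fun x => (map_add P.snd (x.1 : M) (x.2 : M)).symm⟩
  have hker : Finite u.toHom.ker := by
    have hfin : Finite ((M₀ ⊓ M₁ : AddSubgroup M)) :=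
      finite_of_forall_exists_nsmul _ fun x hx => ⟨p, hp.ne_zero, by
        rw [← EndPair.snd_of_fixed σ p hσ x hx.1]; exact hx.2⟩
    have hmem : ∀ x : u.toHom.ker, ((x.1.1 : M₀) : M) ∈ M₀ ⊓ M₁ := fun x => by
      refine ⟨x.1.1.2, ?_⟩
      have hx : (x.1.1 : M) + (x.1.2 : M) = 0 := x.2
      rw [eq_neg_of_add_eq_zero_left hx]
      exact M₁.neg_mem x.1.2.2
    refine Finite.of_injective (fun x => (⟨_, hmem x⟩ : (M₀ ⊓ M₁ : AddSubgroup M))) ?_
    intro a b hab
    have h' : (a.1.1 : M) = b.1.1 :=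
      congrArg (fun t : (M₀ ⊓ M₁ : AddSubgroup M) => (t : M)) hab
    have ha : (a.1.1 : M) + (a.1.2 : M) = 0 := a.2
    have hb : (b.1.1 : M) + (b.1.2 : M) = 0 := b.2
    refine Subtype.ext (Prod.ext (Subtype.ext h') (Subtype.ext ?_))
    rw [eq_neg_of_add_eq_zero_right ha, eq_neg_of_add_eq_zero_right hb, h']
  have hcok : Finite (M ⧸ u.toHom.range) := by
    have : Module.Finite ℤ (M ⧸ u.toHom.range) :=
      Module.Finite.of_surjective (QuotientAddGroup.mk' u.toHom.range).toIntLinearMap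
        (QuotientAddGroup.mk'_surjective _)
    refine finite_of_nsmul_eq_zero hp.ne_zero fun x => ?_
    induction x using QuotientAddGroup.induction_on with
    | H x =>
      rw [← QuotientAddGroup.mk_nsmul, QuotientAddGroup.eq_zero_iff]
      refine ⟨(⟨P.snd x, P.mem_cycles.2 (P.fst_snd x)⟩,
        ⟨p • x - P.snd x, P.swap.mem_cycles.2 ?_⟩), add_sub_cancel _ _⟩
      show P.snd (p • x - P.snd x) = 0
      rw [map_sub, map_nsmul, hPdef, EndPair.snd_self, sub_self]
  obtain ⟨hP, eP⟩ := u.herbrand_eq hprod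
  refine ⟨hP, ?_⟩
  -- ranks
  have hrank : Module.finrank ℤ M = Module.finrank ℤ M₀ + Module.finrank ℤ M₁ := by
    have hN := Submodule.finrank_quotient_add_finrank
      (LinearMap.ker (P.snd.toIntLinearMap))
    rw [LinearEquiv.finrank_eq (P.snd.toIntLinearMap.quotKerEquivRange)] at hN
    have k1 : Module.finrank ℤ (LinearMap.ker P.snd.toIntLinearMap) = Module.finrank ℤ M₁ :=
      LinearEquiv.finrank_eq (LinearEquiv.ofBijective
        ({ toFun := fun x => ⟨x.1, x.2⟩, map_add' := fun _ _ => rfl,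
           map_zero' := rfl } : LinearMap.ker P.snd.toIntLinearMap →+ M₁).toIntLinearMap
        ⟨fun a b h => Subtype.ext (congrArg (fun t : M₁ => (t : M)) h),
          fun x => ⟨⟨x.1, x.2⟩, rfl⟩⟩)
    let g : (LinearMap.range P.snd.toIntLinearMap) →+ M₀ :=
      { toFun := fun x => ⟨x.1, P.mem_cycles.2 (by obtain ⟨y, hy⟩ := x.2; rw [← hy]; exact P.fst_snd y)⟩
        map_add' := fun _ _ => rfl
        map_zero' := rfl }
    let g' : M₀ →+ (LinearMap.range P.snd.toIntLinearMap) :=
      { toFun := fun x => ⟨p • (x : M), ⟨x, by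
          show P.snd (x : M) = _
          rw [hPdef, EndPair.snd_of_fixed σ p hσ _ (P.mem_cycles.1 x.2)]⟩⟩
        map_add' := fun a b => Subtype.ext (smul_add p (a : M) b)
        map_zero' := Subtype.ext (smul_zero p) }
    have l1 : Module.finrank ℤ (LinearMap.range P.snd.toIntLinearMap) ≤ Module.finrank ℤ M₀ :=
      LinearMap.finrank_le_finrank_of_injective (f := g.toIntLinearMap)
        fun a b h => Subtype.ext (congrArg (fun t : M₀ => (t : M)) h)
    have l2 : Module.finrank ℤ M₀ ≤ Module.finrank ℤ (LinearMap.range P.snd.toIntLinearMap) := by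
      have h := Submodule.finrank_quotient_add_finrank (LinearMap.ker g'.toIntLinearMap)
      rw [LinearEquiv.finrank_eq (g'.toIntLinearMap.quotKerEquivRange)] at h
      have hk : Module.finrank ℤ (LinearMap.ker g'.toIntLinearMap) = 0 := by
        refine Module.finrank_eq_zero_iff_isTorsion.2 fun x => ⟨⟨(p : ℤ),
          mem_nonZeroDivisors_of_ne_zero (Int.natCast_ne_zero.2 hp.ne_zero)⟩, ?_⟩
        have hx : p • ((x.1 : M₀) : M) = 0 := congrArg Subtype.val x.2
        refine Subtype.ext (Subtype.ext ?_)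
        show (p : ℤ) • ((x.1 : M₀) : M) = 0
        rw [natCast_zsmul, hx]
      have := Submodule.finrank_le (LinearMap.range g'.toIntLinearMap)
      omega
    omega
  rw [eP, E.herbrand_mid h0 h1, mul_pow, hrank, pow_add, e0,
    show ((p : ℚ) ^ Module.finrank ℤ M₀) ^ (p - 1) * P₁.herbrand ^ (p - 1) *
        ((p : ℚ) ^ Module.finrank ℤ M₀ * (p : ℚ) ^ Module.finrank ℤ M₁)
      = (((p : ℚ) ^ Module.finrank ℤ M₀) ^ (p - 1) * (p : ℚ) ^ Module.finrank ℤ M₀) *
        (P₁.herbrand ^ (p - 1) * (p : ℚ) ^ Module.finrank ℤ M₁) by ring,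
    e1, mul_one, ← pow_succ, show p - 1 + 1 = p from Nat.sub_add_cancel hp.one_lt.le,
    ← pow_mul, mul_comm]
  rfl

end Main

end Fermat.Agent.PoitouTate
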