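/-
Cohomology of pairs: transfer along equivalences, finite products, and cyclically permuted factors.
-/
import Fermat.Agent.PoitouTate.IdeleHerbrandCyclic
import Mathlib.Algebra.BigOperators.Fin
import Mathlib.Data.ZMod.Basic

set_option autoImplicit false

namespace Fermat.Agent.PoitouTate

open Function Finset

namespace EndPair

variable {A B : Type*} [AddCommGroup A] [AddCommGroup B] {P : EndPair A} {Q : EndPair B}

theorem Hom.bijective_cohMap (u : Hom P Q) (h : Bijective u.toHom) : Bijective u.cohMap := by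
  refine ⟨(injective_iff_map_eq_zero _).2 fun x hx => ?_, fun y => ?_⟩
  · obtain ⟨x, rfl⟩ := P.cls_surjective x
    rw [Hom.cohMap_cls, cls_eq_zero_iff] at hx
    obtain ⟨z, hz⟩ := hx
    obtain ⟨w, rfl⟩ := h.2 z
    rw [Hom.coe_onCycles, ← u.comm_snd] at hz
    exact (cls_eq_zero_iff _ _).2 ⟨w, h.1 hz⟩
  · obtain ⟨y, rfl⟩ := Q.cls_surjective y
    obtain ⟨x, hx⟩ := h.2 y
    have hxc : x ∈ P.cycles := P.mem_cycles.2 (h.1 (by
      rw [u.comm_fst, hx, Q.mem_cycles.1 y.2, map_zero]))
    exact ⟨P.cls ⟨x, hxc⟩, by rw [Hom.cohMap_cls]; congr 1; exact Subtype.ext hx⟩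

theorem Hom.natCard_eq (u : Hom P Q) (h : Bijective u.toHom) :
    Nat.card P.Coh = Nat.card Q.Coh ∧ Nat.card P.swap.Coh = Nat.card Q.swap.Coh :=
  ⟨Nat.card_eq_of_bijective _ (u.bijective_cohMap h),
    Nat.card_eq_of_bijective _ (u.swap.bijective_cohMap h)⟩

theorem Hom.herbrand_eq_of_bijective (u : Hom P Q) (h : Bijective u.toHom) :
    P.herbrand = Q.herbrand := by
  rw [herbrand, herbrand, (u.natCard_eq h).1, (u.natCard_eq h).2]

theorem Hom.hasHerbrand_iff (u : Hom P Q) (h : Bijective u.toHom) :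
    P.HasHerbrand ↔ Q.HasHerbrand := by
  rw [HasHerbrand, HasHerbrand, (u.natCard_eq h).1, (u.natCard_eq h).2]

section Pi

variable {ι : Type*} {M : ι → Type*} [∀ i, AddCommGroup (M i)] (R : ∀ i, EndPair (M i))

/-- The product of a family of pairs. -/
def pi : EndPair (∀ i, M i) where
  fst := AddMonoidHom.pi fun i => (R i).fst.comp (Pi.evalAddMonoidHom M i)
  snd := AddMonoidHom.pi fun i => (R i).snd.comp (Pi.evalAddMonoidHom M i)
  fst_snd x := funext fun i => (R i).fst_snd (x i)
  snd_fst x := funext fun i => (R i).snd_fst (x i)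

theorem natCard_coh_pi [Fintype ι] : Nat.card (pi R).Coh = ∏ i, Nat.card (R i).Coh := by
  let pr : ∀ i, Hom (pi R) (R i) := fun i => ⟨Pi.evalAddMonoidHom M i, fun _ => rfl, fun _ => rfl⟩
  let φ : (pi R).Coh →+ ∀ i, (R i).Coh := AddMonoidHom.pi fun i => (pr i).cohMap
  have hφ : ∀ z i, φ z i = (pr i).cohMap z := fun _ _ => rfl
  rw [← Nat.card_pi]
  refine Nat.card_eq_of_bijective φ ⟨(injective_iff_map_eq_zero _).2 fun x hx => ?_, fun y => ?_⟩
  · obtain ⟨x, rfl⟩ := (pi R).cls_surjective x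
    have h : ∀ i, ∃ z, (R i).snd z = (x : ∀ i, M i) i := fun i =>
      ((R i).cls_eq_zero_iff _).1 (congrFun hx i)
    choose z hz using h
    exact ((pi R).cls_eq_zero_iff x).2 ⟨z, funext hz⟩
  · choose c hc using fun i => (R i).cls_surjective (y i)
    refine ⟨(pi R).cls ⟨fun i => c i, funext fun i => (R i).mem_cycles.1 (c i).2⟩, funext fun i => ?_⟩
    rw [hφ]
    rw [Hom.cohMap_cls, ← hc i]
    rfl

theorem pi_hasHerbrand [Fintype ι] (h : ∀ i, (R i).HasHerbrand) : (pi R).HasHerbrand :=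
  ⟨by rw [natCard_coh_pi]; exact Finset.prod_ne_zero_iff.2 fun i _ => (h i).1,
    by rw [show (pi R).swap = pi (fun i => (R i).swap) from rfl, natCard_coh_pi]
       exact Finset.prod_ne_zero_iff.2 fun i _ => (h i).2⟩

theorem herbrand_pi [Fintype ι] : (pi R).herbrand = ∏ i, (R i).herbrand := by
  simp only [herbrand]
  rw [natCard_coh_pi, show (pi R).swap = pi (fun i => (R i).swap) from rfl, natCard_coh_pi,
    Nat.cast_prod, Nat.cast_prod, ← Finset.prod_div_distrib]

end Pi

section Shift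

variable {n : ℕ} [NeZero n]

variable (A n) in
/-- The cyclic shift of `n` copies of `A`. -/
def shiftEnd : AddMonoid.End (ZMod n → A) where
  toFun f i := f (i + 1)
  map_zero' := rfl
  map_add' _ _ := rfl

theorem shiftEnd_pow_apply (k : ℕ) (f : ZMod n → A) (i : ZMod n) :
    ((shiftEnd A n ^ k) f) i = f (i + k) := by
  induction k generalizing f with
  | zero => simp
  | succ k ih =>
    rw [pow_succ]
    show ((shiftEnd A n ^ k) (shiftEnd A n f)) i = _
    rw [ih, Nat.cast_succ, ← add_assoc]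
    rfl

theorem shiftEnd_pow_self : shiftEnd A n ^ n = 1 :=
  AddMonoidHom.ext fun f => funext fun i => by
    show ((shiftEnd A n ^ n) f) i = f i
    rw [shiftEnd_pow_apply, ZMod.natCast_self, add_zero]

theorem sum_range_natCast (f : ZMod n → A) : ∑ k ∈ range n, f k = ∑ i, f i := by
  refine Finset.sum_bij' (fun k _ => (k : ZMod n)) (fun i _ => i.val) (fun _ _ => mem_univ _)
    (fun i _ => mem_range.2 (ZMod.val_lt i)) (fun k hk => ZMod.val_cast_of_lt (mem_range.1 hk))
    (fun i _ => ZMod.natCast_zmod_val i) (fun _ _ => rfl)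

theorem shift_snd_apply (f : ZMod n → A) (i : ZMod n) :
    (cyclic (shiftEnd A n) n shiftEnd_pow_self).snd f i = ∑ j, f j := by
  rw [cyclic_snd_apply, Finset.sum_apply]
  simp only [shiftEnd_pow_apply]
  rw [sum_range_natCast (fun j => f (i + j))]
  exact Fintype.sum_equiv (Equiv.addLeft i) _ _ fun _ => rfl

/-- Cyclically permuted copies are cohomologically trivial. -/
theorem natCard_coh_shift :
    Nat.card (cyclic (shiftEnd A n) n shiftEnd_pow_self).Coh = 1 ∧
      Nat.card (cyclic (shiftEnd A n) n shiftEnd_pow_self).swap.Coh = 1 := by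
  set P := cyclic (shiftEnd A n) n shiftEnd_pow_self with hP
  refine ⟨?_, ?_⟩ <;> rw [natCard_coh, AddSubgroup.relIndex_eq_one]
  · intro f hf
    have hconst : ∀ k : ℕ, f (k : ZMod n) = f 0 := by
      intro k
      induction k with
      | zero => simp
      | succ k ih =>
        rw [Nat.cast_succ, ← ih]
        have := congrFun (sub_eq_zero.1 ((cyclic_fst_apply _ _ _ f).symm.trans hf)) (k : ZMod n)
        exact this
    refine ⟨Pi.single 0 (f 0), funext fun i => ?_⟩
    rw [shift_snd_apply, Finset.sum_pi_single' (0 : ZMod n) (f 0) univ, if_pos (mem_univ _),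
      ← ZMod.natCast_zmod_val i, hconst]
  · intro f hf
    have hsum : ∑ j, f j = 0 := (shift_snd_apply f 0).symm.trans (congrFun hf 0)
    refine ⟨fun i => ∑ k ∈ range i.val, f k, funext fun i => ?_⟩
    rw [swap_snd]
    show (∑ k ∈ range (i + 1).val, f k) - ∑ k ∈ range i.val, f k = f i
    obtain ⟨m, hm, rfl⟩ : ∃ m, m < n ∧ (m : ZMod n) = i :=
      ⟨i.val, ZMod.val_lt i, ZMod.natCast_zmod_val i⟩
    rw [ZMod.val_cast_of_lt hm]
    rcases Nat.lt_or_ge (m + 1) n with h | h
    · rw [← Nat.cast_succ, ZMod.val_cast_of_lt h, sum_range_succ, add_sub_cancel_left]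
    · have hmn : m + 1 = n := le_antisymm hm h
      have h0 : ((m : ZMod n) + 1) = 0 := by rw [← Nat.cast_succ, Nat.succ_eq_add_one, hmn, ZMod.natCast_self]
      rw [h0, ZMod.val_zero, range_zero, sum_empty, zero_sub, neg_eq_iff_add_eq_zero,
        ← sum_range_succ (fun k : ℕ => f k), hmn, sum_range_natCast, hsum]

theorem herbrand_shift :
    (cyclic (shiftEnd A n) n shiftEnd_pow_self).HasHerbrand ∧
      (cyclic (shiftEnd A n) n shiftEnd_pow_self).herbrand = 1 := by
  obtain ⟨h0, h1⟩ := natCard_coh_shift (A := A) (n := n)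
  exact ⟨⟨by rw [h0]; exact one_ne_zero, by rw [h1]; exact one_ne_zero⟩,
    by rw [herbrand, h0, h1]; simp⟩

end Shift

end EndPair

end Fermat.Agent.PoitouTate
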