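/-
Cyclic layers of degree `p` inside the absolute Galois group, and the associated pairs on fixed
points.
-/
import Fermat.Agent.PoitouTate.Defs
import Fermat.Agent.PoitouTate.IdeleHerbrandPi

set_option autoImplicit false

noncomputable section

namespace Fermat.Agent.PoitouTate

/-- `σ` generates a cyclic layer of degree `p` over `U`. -/
structure IsLayer (p : ℕ) (U : Subgroup GQ) (σ : GQ) : Prop where
  not_mem : σ ∉ U
  pow_mem : σ ^ p ∈ U
  conj_mem : ∀ s ∈ U, σ * s * σ⁻¹ ∈ U

namespace IsLayer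

variable {p : ℕ} {U : Subgroup GQ} {σ : GQ} (h : IsLayer p U σ)
include h

theorem pow_conj_mem (k : ℕ) : ∀ s ∈ U, σ ^ k * s * (σ ^ k)⁻¹ ∈ U := by
  induction k with
  | zero => simp
  | succ k ih =>
    intro s hs
    have := h.conj_mem _ (ih s hs)
    simpa [pow_succ', mul_assoc] using this

theorem conj_mem_inv [hp : Fact p.Prime] : ∀ s ∈ U, σ⁻¹ * s * σ ∈ U := by
  intro s hs
  obtain ⟨m, hm⟩ : ∃ m, p = m + 1 := ⟨p - 1, by have := hp.out.pos; omega⟩
  have h1 := U.mul_mem (U.mul_mem (U.inv_mem h.pow_mem) (h.pow_conj_mem m s hs)) h.pow_mem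
  have e : (σ ^ p)⁻¹ * (σ ^ m * s * (σ ^ m)⁻¹) * σ ^ p = σ⁻¹ * s * σ := by
    simp [hm, pow_succ, mul_assoc]
  rwa [e] at h1

theorem zpow_conj_mem [Fact p.Prime] (k : ℤ) : ∀ s ∈ U, σ ^ k * s * (σ ^ k)⁻¹ ∈ U := by
  induction k using Int.induction_on with
  | zero => simp
  | succ i ih =>
    intro s hs
    have := h.conj_mem _ (ih s hs)
    rw [show (i : ℤ) + 1 = 1 + i by ring, zpow_one_add]
    simpa [mul_assoc] using this
  | pred i ih =>
    intro s hs
    have := ih _ (h.conj_mem_inv s hs)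
    simpa [zpow_sub_one, mul_assoc] using this

theorem normal_subgroupOf [Fact p.Prime] :
    (U.subgroupOf (U ⊔ Subgroup.zpowers σ)).Normal := by
  constructor
  rintro ⟨x, hx⟩ hxU ⟨g, hg⟩
  rw [Subgroup.mem_subgroupOf] at hxU ⊢
  show g * x * g⁻¹ ∈ U
  let St : Subgroup GQ :=
    { carrier := {g | ∀ s ∈ U, g * s * g⁻¹ ∈ U ∧ g⁻¹ * s * g ∈ U}
      one_mem' := fun s hs => by simp [hs]
      mul_mem' := fun {a b} ha hb s hs => by
        refine ⟨?_, ?_⟩
        · simpa [mul_assoc] using (ha _ (hb s hs).1).1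
        · simpa [mul_assoc] using (hb _ (ha s hs).2).2
      inv_mem' := fun {a} ha s hs => by simpa [and_comm] using ha s hs }
  have hle : U ⊔ Subgroup.zpowers σ ≤ St := by
    refine sup_le (fun u hu s hs => ⟨U.mul_mem (U.mul_mem hu hs) (U.inv_mem hu),
      U.mul_mem (U.mul_mem (U.inv_mem hu) hs) hu⟩) ?_
    rw [Subgroup.zpowers_le]
    exact fun s hs => ⟨h.conj_mem s hs, h.conj_mem_inv s hs⟩
  exact (hle hg x hxU).1

variable (A : Type) [AddCommGroup A] [DistribMulAction GQ A]

theorem smul_mem_fixed [Fact p.Prime] {c : A} (hc : c ∈ fixedPts U A) :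
    σ • c ∈ fixedPts U A := by
  intro s hs
  calc s • σ • c = σ • ((σ⁻¹ * s * σ) • c) := by rw [← mul_smul, ← mul_smul]; congr 1; group
    _ = σ • c := by rw [hc _ (h.conj_mem_inv s hs)]

omit h in
theorem mem_fixed_sup {c : A} :
    c ∈ fixedPts (U ⊔ Subgroup.zpowers σ) A ↔ c ∈ fixedPts U A ∧ σ • c = c := by
  refine ⟨fun hc => ⟨fun s hs => hc s (Subgroup.mem_sup_left hs),
    hc σ (Subgroup.mem_sup_right (Subgroup.mem_zpowers σ))⟩, fun hc s hs => ?_⟩
  have hle : U ⊔ Subgroup.zpowers σ ≤ MulAction.stabilizer GQ c :=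
    sup_le (fun u hu => hc.1 u hu) ((Subgroup.zpowers_le).2 hc.2)
  exact hle hs

end IsLayer

variable {p : ℕ} [Fact p.Prime] {U : Subgroup GQ} {σ : GQ} (h : IsLayer p U σ)
variable (A : Type) [AddCommGroup A] [DistribMulAction GQ A]

/-- The generator acting on the fixed points. -/
def layerEnd : AddMonoid.End ↥(fixedPts U A) :=
  ((DistribSMul.toAddMonoidHom A σ).comp (fixedPts U A).subtype).codRestrict (fixedPts U A)
    fun c => h.smul_mem_fixed A c.2

theorem coe_layerEnd (c : fixedPts U A) : (layerEnd h A c : A) = σ • (c : A) := rfl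

theorem coe_layerEnd_pow (i : ℕ) (c : fixedPts U A) :
    (((layerEnd h A ^ i) c : fixedPts U A) : A) = σ ^ i • (c : A) := by
  induction i generalizing c with
  | zero => exact (one_smul GQ (c : A)).symm
  | succ i ih =>
    rw [pow_succ, pow_succ, mul_smul]
    exact ih (layerEnd h A c)

theorem layerEnd_pow_eq_one : layerEnd h A ^ p = 1 :=
  AddMonoidHom.ext fun c => Subtype.ext ((coe_layerEnd_pow h A p c).trans (c.2 _ h.pow_mem))

/-- The pair `(σ - 1, N)` on the fixed points. -/
def layerPair : EndPair ↥(fixedPts U A) :=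
  EndPair.cyclic (layerEnd h A) p (layerEnd_pow_eq_one h A)

theorem coe_layerPair_fst (c : fixedPts U A) :
    (((layerPair h A).fst c : fixedPts U A) : A) = σ • (c : A) - c := rfl

theorem coe_layerPair_snd (c : fixedPts U A) :
    (((layerPair h A).snd c : fixedPts U A) : A) = ∑ i ∈ Finset.range p, σ ^ i • (c : A) := by
  rw [layerPair, EndPair.cyclic_snd_apply, AddSubgroup.val_finsetSum]
  exact Finset.sum_congr rfl fun i _ => coe_layerEnd_pow h A i c

theorem layer_mem_cycles (c : fixedPts U A) :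
    c ∈ (layerPair h A).cycles ↔ (c : A) ∈ fixedPts (U ⊔ Subgroup.zpowers σ) A := by
  rw [EndPair.mem_cycles, IsLayer.mem_fixed_sup A, Subtype.ext_iff, coe_layerPair_fst, AddSubgroup.coe_zero,
    sub_eq_zero]
  exact ⟨fun e => ⟨c.2, e⟩, fun e => e.2⟩

/-- The norm index of a layer is the order of the cohomology of its pair. -/
theorem natCard_layer_coh :
    Nat.card (layerPair h A).Coh =
      (AddSubgroup.map (∑ i ∈ Finset.range p, DistribSMul.toAddMonoidHom A (σ ^ i))
        (fixedPts U A)).relIndex (fixedPts (U ⊔ Subgroup.zpowers σ) A) := by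
  rw [EndPair.natCard_coh, ← AddSubgroup.relIndex_map_map_of_injective
    (f := (fixedPts U A).subtype) _ _ Subtype.val_injective]
  congr 1
  · ext x
    constructor
    · rintro ⟨y, ⟨z, rfl⟩, rfl⟩
      refine ⟨z, z.2, ?_⟩
      rw [AddMonoidHom.finsetSum_apply]
      exact (coe_layerPair_snd h A z).symm
    · rintro ⟨z, hz, rfl⟩
      refine ⟨_, ⟨⟨z, hz⟩, rfl⟩, ?_⟩
      rw [AddMonoidHom.finsetSum_apply]
      exact coe_layerPair_snd h A ⟨z, hz⟩
  · ext x
    constructor
    · rintro ⟨y, hy, rfl⟩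
      exact (layer_mem_cycles h A y).1 hy
    · intro hx
      exact ⟨⟨x, ((IsLayer.mem_fixed_sup A).1 hx).1⟩, (layer_mem_cycles h A _).2 hx, rfl⟩

/-- Triviality of the second cohomology group of the pair, unfolded. -/
theorem exists_sub_of_natCard_swap_eq_one (hcard : Nat.card (layerPair h A).swap.Coh = 1)
    {c : A} (hc : c ∈ fixedPts U A) (hN : ∑ i ∈ Finset.range p, σ ^ i • c = 0) :
    ∃ d ∈ fixedPts U A, σ • d - d = c := by
  rw [EndPair.natCard_coh, AddSubgroup.relIndex_eq_one] at hcard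
  obtain ⟨d, hd⟩ := hcard (x := ⟨c, hc⟩) ((layerPair h A).swap.mem_cycles.2
    (Subtype.ext ((coe_layerPair_snd h A ⟨c, hc⟩).trans hN)))
  exact ⟨d, d.2, (coe_layerPair_fst h A d).symm.trans (congrArg Subtype.val hd)⟩

variable {A}

/-- An equivariant homomorphism gives a morphism of layer pairs. -/
def layerHom {B : Type} [AddCommGroup B] [DistribMulAction GQ B] (f : A →+ B)
    (hf : ∀ (g : GQ) (a : A), f (g • a) = g • f a) :
    EndPair.Hom (layerPair h A) (layerPair h B) :=
  EndPair.Hom.ofEquivariant _ _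
    ((f.comp (fixedPts U A).subtype).codRestrict (fixedPts U B) fun c s hs => by
      rw [AddMonoidHom.comp_apply, ← hf]
      exact congrArg f (c.2 s hs))
    fun c => Subtype.ext (hf σ c)

end Fermat.Agent.PoitouTate
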