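/-
The Herbrand quotient of the units of a cyclic extension of degree `p` of totally complex number
fields is `1 / p`.
-/
import Fermat.Agent.PoitouTate.IdeleHerbrandCyclic
import Mathlib.NumberTheory.NumberField.Units.DirichletTheorem
import Mathlib.NumberTheory.NumberField.InfinitePlace.TotallyRealComplex
import Mathlib.FieldTheory.Galois.Basic
import Mathlib.GroupTheory.SpecificGroups.Cyclic

set_option autoImplicit false

namespace Fermat.Agent.PoitouTate

open NumberField
open scoped NumberField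

/-- A number field containing a primitive `p`-th root of unity, `p` odd, is totally complex. -/
theorem isTotallyComplex_of_isPrimitiveRoot {K : Type*} [Field K] [NumberField K] {p : ℕ}
    (hp : 2 < p) {ζ : K} (hζ : IsPrimitiveRoot ζ p) : IsTotallyComplex K where
  isComplex w := by
    rw [← InfinitePlace.not_isReal_iff_isComplex]
    intro hw
    have h := hζ.map_of_injective (f := InfinitePlace.embedding_of_isReal hw)
      (RingHom.injective _)
    have hpow := h.pow_eq_one
    have hne : InfinitePlace.embedding_of_isReal hw ζ ≠ 1 := h.ne_one (by omega)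
    rcases pow_eq_one_iff_cases.1 hpow with h0 | h1 | ⟨h2, _⟩
    · omega
    · exact hne h1
    · rw [h2] at h
      have := h.eq_orderOf
      simp [orderOf_neg_one] at this
      omega

section Units

variable {L : Type*} [Field L] [NumberField L]

/-- The action of a field automorphism on the unit group, written additively. -/
noncomputable def unitsEnd {K : Type*} [Field K] [Algebra K L] (σ : L ≃ₐ[K] L) :
    AddMonoid.End (Additive (𝓞 L)ˣ) :=
  MonoidHom.toAdditive (Units.map (RingOfIntegers.mapRingHom (σ : L →+* L)).toMonoidHom)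

omit [NumberField L] in
theorem coe_unitsEnd {K : Type*} [Field K] [Algebra K L] (σ : L ≃ₐ[K] L) (x : Additive (𝓞 L)ˣ) :
    (((unitsEnd σ x).toMul : (𝓞 L)ˣ) : L) = σ ((x.toMul : (𝓞 L)ˣ) : L) := rfl

omit [NumberField L] in
theorem units_ext {x y : Additive (𝓞 L)ˣ}
    (h : ((x.toMul : (𝓞 L)ˣ) : L) = ((y.toMul : (𝓞 L)ˣ) : L)) : x = y :=
  Additive.toMul.injective (Units.ext (RingOfIntegers.coe_injective h))

theorem coe_unitsEnd_pow {K : Type*} [Field K] [Algebra K L] (σ : L ≃ₐ[K] L) (i : ℕ)
    (x : Additive (𝓞 L)ˣ) :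
    ((((unitsEnd σ ^ i) x).toMul : (𝓞 L)ˣ) : L) = (σ ^ i) ((x.toMul : (𝓞 L)ˣ) : L) := by
  induction i generalizing x with
  | zero => rfl
  | succ i ih =>
    rw [pow_succ, pow_succ]
    exact (ih _).trans (congrArg _ (coe_unitsEnd σ x))

theorem unitsEnd_pow_eq_one {K : Type*} [Field K] [Algebra K L] {σ : L ≃ₐ[K] L} {p : ℕ}
    (hσ : σ ^ p = 1) : unitsEnd σ ^ p = 1 :=
  AddMonoidHom.ext fun x => units_ext ((coe_unitsEnd_pow σ p x).trans (by rw [hσ]; rfl))

open Units Units.dirichletUnitTheorem in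
theorem finrank_units : Module.finrank ℤ (Additive (𝓞 L)ˣ) = Units.rank L := by
  set f : Additive (𝓞 L)ˣ →ₗ[ℤ] logSpace L := (logEmbedding L).toIntLinearMap
  have hrange : LinearMap.range f = unitLattice L := by
    rw [unitLattice, Submodule.map_top]
  have h := Submodule.finrank_quotient_add_finrank (LinearMap.ker f)
  rw [LinearEquiv.finrank_eq f.quotKerEquivRange, hrange, unitLattice_rank] at h
  have hk : Module.finrank ℤ (LinearMap.ker f) = 0 := by
    refine Module.finrank_eq_zero_iff_isTorsion.2 fun x => ?_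
    obtain ⟨x, hx⟩ := x
    obtain ⟨n, hn, hn1⟩ := isOfFinOrder_iff_pow_eq_one.1
      (logEmbedding_eq_zero_iff.1 hx : x.toMul ∈ Units.torsion L)
    refine ⟨⟨(n : ℤ), mem_nonZeroDivisors_of_ne_zero (by exact_mod_cast hn.ne')⟩, Subtype.ext ?_⟩
    show (n : ℤ) • x = 0
    rw [natCast_zsmul]
    exact congrArg Additive.ofMul hn1
  omega

variable {K : Type*} [Field K] [NumberField K] [Algebra K L]

theorem finrank_units_of_isTotallyComplex [IsTotallyComplex L] :
    2 * (Module.finrank ℤ (Additive (𝓞 L)ˣ) + 1) = Module.finrank ℚ L := by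
  rw [finrank_units, Units.rank, IsTotallyComplex.finrank,
    InfinitePlace.card_eq_nrRealPlaces_add_nrComplexPlaces,
    IsTotallyComplex.nrRealPlaces_eq_zero, zero_add]
  have : 0 < InfinitePlace.nrComplexPlaces L := by
    have h := Module.finrank_pos (R := ℚ) (M := L)
    rw [IsTotallyComplex.finrank] at h
    omega
  omega

/-- `h(𝓞_Lˣ) = 1 / p` for `L / K` cyclic of degree `p`, `K` totally complex. -/
theorem herbrand_units [IsTotallyComplex K] [IsGalois K L] {p : ℕ} (hp : p.Prime)
    (hdeg : Module.finrank K L = p) {σ : L ≃ₐ[K] L} (hσ1 : σ ≠ 1) (hσ : σ ^ p = 1) :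
    (EndPair.cyclic (unitsEnd σ) p (unitsEnd_pow_eq_one hσ)).HasHerbrand ∧
      (EndPair.cyclic (unitsEnd σ) p (unitsEnd_pow_eq_one hσ)).herbrand * p = 1 := by
  have : FiniteDimensional K L := Module.finite_of_finrank_pos (hdeg ▸ hp.pos)
  have : IsTotallyComplex L := isTotallyComplex_of_algebra K L
  obtain ⟨h, e⟩ := herbrand_cyclic_pow hp (unitsEnd σ) (unitsEnd_pow_eq_one hσ)
  refine ⟨h, ?_⟩
  -- the fixed units are the units of `K`
  have hfix : ∀ x : L, σ x = x → x ∈ (algebraMap K L).range := by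
    intro x hx
    have hcard : Nat.card (L ≃ₐ[K] L) = p := by rw [IsGalois.card_aut_eq_finrank, hdeg]
    have hgen : ∀ τ : L ≃ₐ[K] L, τ ∈ Subgroup.zpowers σ := fun τ => by
      have := Fact.mk hp
      exact mem_zpowers_of_prime_card hcard hσ1
    obtain ⟨y, hy⟩ := IntermediateField.mem_bot.1
      ((IsGalois.mem_bot_iff_fixed x).2 fun τ => by
        obtain ⟨i, rfl⟩ := Subgroup.mem_zpowers_iff.1 (hgen τ)
        have hs : σ ∈ MulAction.stabilizer (L ≃ₐ[K] L) x := hx
        exact (MulAction.stabilizer (L ≃ₐ[K] L) x).zpow_mem hs i)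
    exact ⟨y, hy⟩
  let ι : Additive (𝓞 K)ˣ →+ fixedSubgroup (unitsEnd σ) :=
    (MonoidHom.toAdditive (Units.map (RingOfIntegers.mapRingHom (algebraMap K L)).toMonoidHom)
      ).codRestrict _ fun x => (mem_fixedSubgroup _ _).2
        (units_ext ((coe_unitsEnd σ _).trans (σ.commutes _)))
  have hι : Function.Bijective ι := by
    refine ⟨fun a b hab => ?_, fun y => ?_⟩
    · have h' := congrArg
        (fun t : fixedSubgroup (unitsEnd σ) =>
          (((t : Additive (𝓞 L)ˣ).toMul : (𝓞 L)ˣ) : L)) hab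
      exact units_ext ((algebraMap K L).injective h')
    · obtain ⟨u, hu⟩ : ∃ u : (𝓞 L)ˣ, Additive.ofMul u = (y : Additive (𝓞 L)ˣ) :=
        ⟨_, ofMul_toMul _⟩
      have hy : ∀ v : (𝓞 L)ˣ, σ (v : L) = v → ∃ k : 𝓞 K, algebraMap K L k = (v : L) := by
        intro v hv
        obtain ⟨k, hk⟩ := hfix _ hv
        refine ⟨⟨k, (isIntegral_algebraMap_iff (algebraMap K L).injective).1
          (by rw [hk]; exact RingOfIntegers.isIntegral_coe _)⟩, hk⟩
      have hσy : σ (u : L) = u := by
        have h := coe_unitsEnd σ (y : Additive (𝓞 L)ˣ)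
        rw [(mem_fixedSubgroup _ _).1 y.2, ← hu] at h
        exact h.symm
      obtain ⟨k, hk⟩ := hy u hσy
      obtain ⟨k', hk'⟩ := hy u⁻¹ (by rw [map_units_inv, map_inv₀, hσy])
      refine ⟨Additive.ofMul ⟨k, k', ?_, ?_⟩, Subtype.ext ?_⟩
      · refine RingOfIntegers.coe_injective ((algebraMap K L).injective ?_)
        simp only [map_mul, map_one, hk, hk', map_units_inv]
        exact mul_inv_cancel₀ (Units.ne_zero ((Units.map
          ((algebraMap (𝓞 L) L).toMonoidHom)) u))
      · refine RingOfIntegers.coe_injective ((algebraMap K L).injective ?_)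
        simp only [map_mul, map_one, hk, hk', map_units_inv]
        exact inv_mul_cancel₀ (Units.ne_zero ((Units.map
          ((algebraMap (𝓞 L) L).toMonoidHom)) u))
      · rw [← hu]; exact units_ext hk
  have hr : Module.finrank ℤ (fixedSubgroup (unitsEnd σ))
      = Module.finrank ℤ (Additive (𝓞 K)ˣ) :=
    (LinearEquiv.ofBijective ι.toIntLinearMap hι).finrank_eq.symm
  rw [hr] at e
  have hL := finrank_units_of_isTotallyComplex (L := L)
  have hK := finrank_units_of_isTotallyComplex (L := K)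
  rw [← Module.finrank_mul_finrank ℚ K L, hdeg, ← hK] at hL
  set rK := Module.finrank ℤ (Additive (𝓞 K)ˣ)
  set rL := Module.finrank ℤ (Additive (𝓞 L)ˣ)
  have hrel : p * rK + (p - 1) = rL := by
    have h2 : rL + 1 = p * rK + p := by linarith
    have := hp.one_lt
    omega
  rw [← hrel, pow_add] at e
  have hp0 : (p : ℚ) ≠ 0 := Nat.cast_ne_zero.2 hp.ne_zero
  have e' : ((EndPair.cyclic (unitsEnd σ) p (unitsEnd_pow_eq_one hσ)).herbrand * p) ^ (p - 1)
      = 1 := by
    rw [mul_pow]
    refine mul_left_cancel₀ (pow_ne_zero (p * rK) hp0) ?_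
    rw [mul_one]
    linear_combination e
  have hnn : 0 ≤ (EndPair.cyclic (unitsEnd σ) p (unitsEnd_pow_eq_one hσ)).herbrand * (p : ℚ) :=
    mul_nonneg (div_nonneg (Nat.cast_nonneg _) (Nat.cast_nonneg _)) (Nat.cast_nonneg _)
  exact (pow_eq_one_iff_of_nonneg hnn (by have := hp.one_lt; omega)).1 e'

end Units

end Fermat.Agent.PoitouTate
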