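/-
The base field of a cyclic layer with `μ_p` in the base: totally complex, with the layer Galois of
degree `p` over it.
-/
import Fermat.Agent.PoitouTate.IdeleLayer
import Fermat.Agent.PoitouTate.IdeleDiv
import Fermat.Agent.PoitouTate.IdeleUnits
import Fermat.Prelude.Def_ExtCitation_KummerBridge

set_option autoImplicit false
set_option linter.style.haveILetI false

noncomputable section

namespace Fermat.Agent.PoitouTate

open NumberField

local notation "Qb" => AlgebraicClosure ℚ

variable {T : Finset Nat.Primes} {L : IntermediateField ℚ Qb}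

/-- A subgroup containing the fixing group of a level is the fixing group of its fixed field. -/
theorem fixingSubgroup_fixedField_of_le (hL : IsLvl T L) {U : Subgroup GQ}
    (hU : L.fixingSubgroup ≤ U) : (IntermediateField.fixedField U).fixingSubgroup = U := by
  haveI := hL.unramified.1
  exact InfiniteGalois.fixingSubgroup_fixedField
    ⟨U, Subgroup.isClosed_of_isOpen U (Subgroup.isOpen_mono hU L.fixingSubgroup_isOpen)⟩

theorem apply_eq_self_of_cycloChar_eq_one {p : ℕ} [Fact p.Prime] {s : GQ}
    (hs : ExtCitation.cycloChar p s = 1) {x : Qb} (hx : x ^ p = 1) : s x = x := by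
  haveI : NeZero p := ⟨(Fact.out : p.Prime).ne_zero⟩
  have hp := (Fact.out : p.Prime)
  have hx0 : x ≠ 0 := fun h => by
    rw [h, zero_pow hp.ne_zero] at hx
    exact zero_ne_one hx
  have hmem : Units.mk0 x hx0 ∈ rootsOfUnity p Qb := by
    rw [mem_rootsOfUnity, Units.ext_iff, Units.val_pow_eq_pow_val, Units.val_one, Units.val_mk0, hx]
  have h := modularCyclotomicCharacter.spec Qb (ExtCitation.card_rootsOfUnity_eq_self p)
    (s : Qb ≃+* Qb) hmem
  have h1 : ((ExtCitation.cycloChar p s : (ZMod p)ˣ) : ZMod p).val = 1 := by
    rw [hs, Units.val_one]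
    exact ZMod.val_one'' hp.one_lt.ne'
  have h2 : s x = x ^ ((ExtCitation.cycloChar p s : (ZMod p)ˣ) : ZMod p).val := h
  rw [h2, h1, pow_one]

section Layer

variable (hL : IsLvl T L) {U : Subgroup GQ} (hU : L.fixingSubgroup ≤ U) {p : ℕ} [Fact p.Prime]
  {σ : GQ}

include hL hU in
theorem isTotallyComplex_fixedField (hp : 2 < p)
    (hcyc : ∀ s ∈ U, ExtCitation.cycloChar p s = 1) :
    IsTotallyComplex (IntermediateField.fixedField U) := by
  haveI := numberField_fixedField hL hU
  obtain ⟨ζ, hζ⟩ := HasEnoughRootsOfUnity.exists_primitiveRoot Qb p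
  have hmem : ζ ∈ IntermediateField.fixedField U :=
    (IntermediateField.mem_fixedField_iff _ _).2 fun s hs =>
      apply_eq_self_of_cycloChar_eq_one (hcyc s hs) hζ.pow_eq_one
  exact isTotallyComplex_of_isPrimitiveRoot hp
    (IsPrimitiveRoot.of_map_of_injective (f := (IntermediateField.fixedField U).val)
      (by exact hζ : IsPrimitiveRoot ((IntermediateField.fixedField U).val ⟨ζ, hmem⟩) p)
      Subtype.val_injective)

omit [Fact p.Prime] in
theorem fixedField_sup_le : IntermediateField.fixedField (U ⊔ Subgroup.zpowers σ) ≤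
    IntermediateField.fixedField U := fun _ hx =>
  (IntermediateField.mem_fixedField_iff _ _).2 fun s hs =>
    (IntermediateField.mem_fixedField_iff _ _).1 hx s (Subgroup.mem_sup_left hs)

omit [Fact p.Prime] in
/-- The field of the layer as an extension of the base. -/
@[reducible] def baseAlgebra (U : Subgroup GQ) (σ : GQ) :
    Algebra (IntermediateField.fixedField (U ⊔ Subgroup.zpowers σ))
      (IntermediateField.fixedField U) :=
  (IntermediateField.inclusion fixedField_sup_le).toRingHom.toAlgebra

variable (h : IsLayer p U σ)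

include h in
theorem apply_mem_fixedField {x : Qb} (hx : x ∈ IntermediateField.fixedField U) :
    σ x ∈ IntermediateField.fixedField U := by
  refine (IntermediateField.mem_fixedField_iff _ _).2 fun s hs => ?_
  have := (IntermediateField.mem_fixedField_iff _ _).1 hx _ (h.conj_mem_inv s hs)
  conv_rhs => rw [← this]
  simp [AlgEquiv.mul_apply]

/-- The generator as an endomorphism of the field of the layer. -/
def layerHomFun :
    letI := baseAlgebra U σ
    IntermediateField.fixedField U →ₐ[IntermediateField.fixedField (U ⊔ Subgroup.zpowers σ)]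
      IntermediateField.fixedField U :=
  letI := baseAlgebra U σ
  { toFun := fun x => ⟨σ (x : Qb), apply_mem_fixedField h x.2⟩
    map_one' := Subtype.ext (map_one σ)
    map_mul' := fun x y => Subtype.ext (map_mul σ (x : Qb) (y : Qb))
    map_zero' := Subtype.ext (map_zero σ)
    map_add' := fun x y => Subtype.ext (map_add σ (x : Qb) (y : Qb))
    commutes' := fun r => Subtype.ext
      ((IntermediateField.mem_fixedField_iff _ _).1 r.2 σ
        (Subgroup.mem_sup_right (Subgroup.mem_zpowers σ))) }

theorem coe_layerHomFun_iterate (n : ℕ) (x : IntermediateField.fixedField U) :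
    letI := baseAlgebra U σ
    ((layerHomFun h)^[n] x : Qb) = (σ ^ n) (x : Qb) := by
  letI := baseAlgebra U σ
  induction n with
  | zero => rfl
  | succ n ih =>
    rw [Function.iterate_succ_apply', pow_succ', AlgEquiv.mul_apply, ← ih]
    rfl

include hL hU h in
/-- The layer is cyclic of degree `p` over its base. -/
theorem exists_layerAut :
    letI := baseAlgebra U σ
    ∃ e : IntermediateField.fixedField U
        ≃ₐ[IntermediateField.fixedField (U ⊔ Subgroup.zpowers σ)] IntermediateField.fixedField U,
      (∀ x, (e x : Qb) = σ (x : Qb)) ∧ e ≠ 1 ∧ e ^ p = 1 ∧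
      IsGalois (IntermediateField.fixedField (U ⊔ Subgroup.zpowers σ))
        (IntermediateField.fixedField U) ∧
      Module.finrank (IntermediateField.fixedField (U ⊔ Subgroup.zpowers σ))
        (IntermediateField.fixedField U) = p := by
  letI := baseAlgebra U σ
  haveI := numberField_fixedField hL hU
  haveI := numberField_fixedField hL (hU.trans (le_sup_left : U ≤ U ⊔ Subgroup.zpowers σ))
  haveI : IsScalarTower ℚ (IntermediateField.fixedField (U ⊔ Subgroup.zpowers σ)) (IntermediateField.fixedField U) := IsScalarTower.of_algebraMap_eq fun r => Subtype.ext (by simp)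
  haveI : FiniteDimensional (IntermediateField.fixedField (U ⊔ Subgroup.zpowers σ)) (IntermediateField.fixedField U) := Module.Finite.of_restrictScalars_finite ℚ (IntermediateField.fixedField (U ⊔ Subgroup.zpowers σ)) (IntermediateField.fixedField U)
  have hbij : Function.Bijective (layerHomFun h) :=
    ⟨fun x y hxy => Subtype.ext (σ.injective (congrArg Subtype.val hxy)), fun y => by
      obtain ⟨m, hm⟩ : ∃ m, p = m + 1 := ⟨p - 1, by have := (Fact.out : p.Prime).pos; omega⟩
      refine ⟨(layerHomFun h)^[m] y, Subtype.ext ?_⟩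
      show σ (((layerHomFun h)^[m] y : (IntermediateField.fixedField U)) : Qb) = y
      rw [coe_layerHomFun_iterate, ← AlgEquiv.mul_apply, ← pow_succ', ← hm]
      exact (IntermediateField.mem_fixedField_iff _ _).1 y.2 _ h.pow_mem⟩
  let e : (IntermediateField.fixedField U) ≃ₐ[(IntermediateField.fixedField (U ⊔ Subgroup.zpowers σ))] (IntermediateField.fixedField U) := AlgEquiv.ofBijective (layerHomFun h) hbij
  have he : ∀ x, (e x : Qb) = σ (x : Qb) := fun x => rfl
  have hpow : ∀ (n : ℕ) (x : (IntermediateField.fixedField U)), ((e ^ n) x : Qb) = (σ ^ n) (x : Qb) := by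
    intro n
    induction n with
    | zero => exact fun x => rfl
    | succ n ih =>
      intro x
      rw [pow_succ', AlgEquiv.mul_apply, he, ih, pow_succ' σ, AlgEquiv.mul_apply]
  have he1 : e ≠ 1 := fun h1 => h.not_mem <| by
    rw [← fixingSubgroup_fixedField_of_le hL hU, IntermediateField.mem_fixingSubgroup_iff]
    intro x hx
    have := congrArg Subtype.val (AlgEquiv.congr_fun h1 ⟨x, hx⟩)
    rw [he] at this
    exact this
  have hep : e ^ p = 1 := AlgEquiv.ext fun x => Subtype.ext
    ((hpow p x).trans ((IntermediateField.mem_fixedField_iff _ _).1 x.2 _ h.pow_mem))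
  have hbot : IntermediateField.fixedField (Subgroup.zpowers e) = ⊥ := by
    rw [eq_bot_iff]
    intro x hx
    rw [IntermediateField.mem_fixedField_iff] at hx
    have h1 : σ (x : Qb) = x := by
      rw [← he, hx e (Subgroup.mem_zpowers e)]
    have h2 : (x : Qb) ∈ (IntermediateField.fixedField (U ⊔ Subgroup.zpowers σ)) := by
      rw [IntermediateField.mem_fixedField_iff]
      intro s hs
      let St : Subgroup GQ := MulAction.stabilizer GQ (x : Qb)
      exact (sup_le (fun u hu => (IntermediateField.mem_fixedField_iff _ _).1 x.2 u hu)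
        (Subgroup.zpowers_le.2 h1) : U ⊔ Subgroup.zpowers σ ≤ St) hs
    exact IntermediateField.mem_bot.2 ⟨⟨(x : Qb), h2⟩, Subtype.ext rfl⟩
  have hgal : IsGalois (IntermediateField.fixedField (U ⊔ Subgroup.zpowers σ)) (IntermediateField.fixedField U) := IsGalois.of_fixedField_eq_bot _ _ <| by
    rw [eq_bot_iff, ← hbot]
    intro x hx
    rw [IntermediateField.mem_fixedField_iff] at hx ⊢
    exact fun s _ => hx s (Subgroup.mem_top s)
  refine ⟨e, he, he1, hep, hgal, ?_⟩
  rw [← IsGalois.card_aut_eq_finrank]
  have htop : Subgroup.zpowers e = ⊤ := by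
    rw [← IntermediateField.fixingSubgroup_fixedField (Subgroup.zpowers e), hbot,
      IntermediateField.fixingSubgroup_bot]
  rw [← Subgroup.card_top, ← htop, Nat.card_zpowers, orderOf_eq_prime hep he1]

end Layer

end Fermat.Agent.PoitouTate
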