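import Mathlib.GroupTheory.GroupAction.Basic
import Mathlib.Algebra.GroupWithZero.Action.Defs
import Mathlib.Algebra.BigOperators.Intervals
import Mathlib.Algebra.BigOperators.GroupWithZero.Action
import Mathlib.Tactic.Abel
import Mathlib.Tactic.Ring
import Mathlib.Data.Nat.Prime.Basic
import Mathlib.Data.Nat.ModEq
import Mathlib.Data.Int.GCD
import Mathlib.Algebra.Group.Submonoid.BigOperators
import Mathlib.Algebra.Group.Subgroup.Basic

/-!
# Cyclic cohomology of equivariant functions

`D` acts on `X` and on `A`, `s` is a permutation of prime period `p` of `X` commuting with `D`. If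
the cyclic cohomology vanishes at every point `x` with `s x` in the orbit of `x`, then it vanishes
for the equivariant functions `X → A` with values in a stable subgroup `P`.
-/

set_option autoImplicit false

namespace Fermat.Agent.PoitouTate

variable {D X A : Type*} [Group D] [MulAction D X] [AddCommGroup A] [DistribMulAction D A]
variable (P : AddSubgroup A) (hP : ∀ (d : D), ∀ a ∈ P, d • a ∈ P)
variable (s : X → X) (hs : ∀ (d : D) x, s (d • x) = d • s x) {p : ℕ} (hp : p.Prime)
  (hsp : ∀ x, s^[p] x = x)

include hs in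
theorem iterate_smul (n : ℕ) (d : D) (x : X) : s^[n] (d • x) = d • s^[n] x := by
  induction n with
  | zero => rfl
  | succ n ih => rw [Function.iterate_succ_apply', ih, hs, Function.iterate_succ_apply']

include hsp in
theorem iterate_mul_period (n : ℕ) (x : X) : s^[p * n] x = x := by
  induction n with
  | zero => rfl
  | succ n ih => rw [Nat.mul_succ, Function.iterate_add_apply, hsp, ih]

include hsp in
theorem iterate_eq_mod (n : ℕ) (x : X) : s^[n] x = s^[n % p] x := by
  conv_lhs => rw [← Nat.mod_add_div n p, Function.iterate_add_apply,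
    iterate_mul_period s hsp]

include hs hp hsp in
theorem dvd_of_iterate_mem_orbit {x : X} (hx : ∀ d : D, d • x ≠ s x) {m : ℕ} {e : D}
    (he : e • x = s^[m] x) : p ∣ m := by
  by_contra hdvd
  have hco : Nat.Coprime m p := ((hp.coprime_iff_not_dvd).2 hdvd).symm
  obtain ⟨k, -, hk⟩ := Nat.exists_mul_mod_eq_one_of_coprime hco hp.one_lt
  have hpow : ∀ n : ℕ, (e ^ n) • x = s^[m * n] x := by
    intro n
    induction n with
    | zero => simp
    | succ n ih =>
      rw [pow_succ', mul_smul, ih, ← iterate_smul s hs, he, ← Function.iterate_add_apply,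
        Nat.mul_succ]
  refine hx (e ^ k) ?_
  rw [hpow, iterate_eq_mod s hsp, hk, Function.iterate_one]

include hsp in
theorem sum_iterate_period_eq_zero {u : X → A} (hu : ∀ x, ∑ i ∈ Finset.range p, u (s^[i] x) = 0)
    (n : ℕ) (x : X) : ∑ i ∈ Finset.range (p * n), u (s^[i] x) = 0 := by
  induction n with
  | zero => simp
  | succ n ih =>
    rw [Nat.mul_succ, Finset.sum_range_add, ih, zero_add]
    conv_lhs => arg 2; ext i; rw [add_comm, Function.iterate_add_apply, iterate_mul_period s hsp]
    exact hu x

include hs hp hsp in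
/-- Representatives for the classes of `D` and `s` together. -/
theorem exists_reps : ∃ r : X → X,
    (∀ x, ∃ (d : D) (i : ℕ), d • s^[i] (r x) = x) ∧ ∀ (d : D) (x : X) (i : ℕ), r (d • s^[i] x) = r x := by
  let S : Setoid X :=
    { r := fun x y => ∃ (d : D) (i : ℕ), d • s^[i] x = y
      iseqv :=
        { refl := fun x => ⟨1, 0, by simp⟩
          symm := by
            rintro x _ ⟨d, i, rfl⟩
            refine ⟨d⁻¹, p * i - i, ?_⟩
            rw [iterate_smul s hs, inv_smul_smul, ← Function.iterate_add_apply,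
              Nat.sub_add_cancel (Nat.le_mul_of_pos_left i hp.pos), iterate_mul_period s hsp]
          trans := by
            rintro x _ _ ⟨d, i, rfl⟩ ⟨e, j, rfl⟩
            exact ⟨e * d, j + i, by rw [iterate_smul s hs, mul_smul, Function.iterate_add_apply]⟩ } }
  refine ⟨fun x => (Quotient.mk S x).out, fun x => (Quotient.exact (Quotient.out_eq (Quotient.mk S x)) :
    S.r (Quotient.mk S x).out x), ?_⟩
  intro d x i
  show (Quotient.mk S (d • s^[i] x)).out = (Quotient.mk S x).out
  congr 1
  exact (Quotient.sound (s := S) ⟨d, i, rfl⟩).symm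

include hP hs hp hsp in
/-- Twisting: a norm-zero equivariant function is a difference. -/
theorem exists_twist (u : X → A) (hu : ∀ (d : D) x, u (d • x) = d • u x) (huP : ∀ x, u x ∈ P)
    (hu0 : ∀ x, ∑ i ∈ Finset.range p, u (s^[i] x) = 0)
    (hloc : ∀ x (d : D), d • x = s x → ∀ a ∈ P, (∀ e : D, e • x = x → e • a = a) →
      ∑ i ∈ Finset.range p, d ^ i • a = 0 →
      ∃ b ∈ P, (∀ e : D, e • x = x → e • b = b) ∧ d • b - b = a) :
    ∃ w : X → A, (∀ (d : D) x, w (d • x) = d • w x) ∧ (∀ x, w x ∈ P) ∧
      ∀ x, w (s x) - w x = u x := by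
  classical
  obtain ⟨r, hr, hr'⟩ := exists_reps (D := D) s hs hp hsp
  let S : X → ℕ → A := fun x n => ∑ i ∈ Finset.range n, u (s^[i] x)
  have hbase : ∀ x, ∃ a ∈ P, ∀ (e : D) (m : ℕ), e • x = s^[m] x → e • a = a + S x m := by
    intro x
    by_cases hd : ∃ d : D, d • x = s x
    · obtain ⟨d, hd⟩ := hd
      have hpow : ∀ n : ℕ, (d ^ n) • x = s^[n] x := by
        intro n
        induction n with
        | zero => simp
        | succ n ih =>
          rw [pow_succ', mul_smul, ih, ← iterate_smul s hs, hd, ← Function.iterate_succ_apply]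
      obtain ⟨b, hb, hbfix, hbe⟩ := hloc x d hd (u x) (huP x)
        (fun e he => by rw [← hu, he])
        (by rw [← hu0 x]; exact Finset.sum_congr rfl fun i _ => by rw [← hu, hpow])
      refine ⟨b, hb, fun e m he => ?_⟩
      have hdm : ∀ n : ℕ, d ^ n • b = b + S x n := by
        intro n
        induction n with
        | zero => simp [S]
        | succ n ih =>
          rw [pow_succ, mul_smul, eq_add_of_sub_eq hbe, smul_add, ih, ← hu, hpow]
          simp only [S, Finset.sum_range_succ]
          abel
      have h1 := hbfix (e⁻¹ * d ^ m) (by rw [mul_smul, hpow, ← he, inv_smul_smul])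
      rw [mul_smul, inv_smul_eq_iff] at h1
      rw [← h1, hdm]
    · push Not at hd
      refine ⟨0, P.zero_mem, fun e m he => ?_⟩
      obtain ⟨k, rfl⟩ := dvd_of_iterate_mem_orbit s hs hp hsp hd he
      rw [smul_zero, zero_add]
      exact (sum_iterate_period_eq_zero s hsp hu0 k x).symm
  choose a haP ha using hbase
  have hrep : ∀ x, ∃ (di : D × ℕ), di.1 • s^[di.2] (r x) = x := fun x =>
    let ⟨d, i, h⟩ := hr x; ⟨(d, i), h⟩
  choose δ hδ using hrep
  have key : ∀ (y : X) (e e' : D) (i j : ℕ), e • s^[i] y = e' • s^[j] y →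
      e • (a y + S y i) = e' • (a y + S y j) := by
    intro y e e' i j h
    have hm : (e'⁻¹ * e) • y = s^[j + (p * i - i)] y := by
      have := congrArg (fun z => s^[p * i - i] (e'⁻¹ • z)) h
      simp only [inv_smul_smul, iterate_smul s hs] at this
      rw [← Function.iterate_add_apply, Nat.sub_add_cancel (Nat.le_mul_of_pos_left i hp.pos),
        iterate_mul_period s hsp, ← Function.iterate_add_apply, ← mul_smul] at this
      rw [this, add_comm]
    have ha' := ha y _ _ hm
    set m := j + (p * i - i)
    have hshift : (e'⁻¹ * e) • S y i = S y (m + i) - S y m := by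
      simp only [S, Finset.sum_range_add, add_sub_cancel_left, Finset.smul_sum]
      refine Finset.sum_congr rfl fun l _ => ?_
      rw [← hu, ← iterate_smul s hs, hm, ← Function.iterate_add_apply, add_comm m l]
    have hper : S y (m + i) = S y j := by
      have hmi : m + i = j + p * i := by
        have := Nat.le_mul_of_pos_left i hp.pos
        omega
      simp only [S, hmi, Finset.sum_range_add]
      rw [add_eq_left]
      conv_lhs => arg 2; ext l; rw [add_comm, Function.iterate_add_apply]
      exact sum_iterate_period_eq_zero s hsp hu0 i (s^[j] y)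
    rw [show e • (a y + S y i) = e' • ((e'⁻¹ * e) • (a y + S y i)) by
      rw [← mul_smul, mul_inv_cancel_left], smul_add, ha', hshift, hper]
    congr 1
    abel
  refine ⟨fun x => (δ x).1 • (a (r x) + S (r x) (δ x).2), ?_, ?_, ?_⟩
  · intro d x
    have hr1 : r (d • x) = r x := by simpa using hr' d x 0
    show (δ (d • x)).1 • (a (r (d • x)) + S (r (d • x)) (δ (d • x)).2)
      = d • ((δ x).1 • (a (r x) + S (r x) (δ x).2))
    rw [hr1, ← mul_smul]
    refine key _ _ _ _ _ ?_
    have h1 := hδ (d • x)
    rw [hr1] at h1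
    rw [h1, mul_smul, hδ]
  · intro x
    exact hP _ _ (P.add_mem (haP _) (sum_mem fun i _ => huP _))
  · intro x
    have hr1 : r (s x) = r x := by simpa using hr' (1 : D) x 1
    show (δ (s x)).1 • (a (r (s x)) + S (r (s x)) (δ (s x)).2) - _ = _
    rw [hr1, key (r x) (δ (s x)).1 (δ x).1 (δ (s x)).2 ((δ x).2 + 1) (by
      have h1 := hδ (s x)
      rw [hr1] at h1
      rw [h1, Function.iterate_succ_apply', ← hs, hδ])]
    rw [← smul_sub]
    simp only [S, Finset.sum_range_succ, add_sub_add_left_eq_sub, add_sub_cancel_left]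
    rw [← hu, hδ]

include hP hs hp hsp in
/-- An invariant equivariant function is a norm. -/
theorem exists_norm (u : X → A) (hu : ∀ (d : D) x, u (d • x) = d • u x) (huP : ∀ x, u x ∈ P)
    (hinv : ∀ x, u (s x) = u x)
    (hloc : ∀ x (d : D), d • x = s x → ∀ a ∈ P, (∀ e : D, e • x = x → e • a = a) → d • a = a →
      ∃ b ∈ P, (∀ e : D, e • x = x → e • b = b) ∧ ∑ i ∈ Finset.range p, d ^ i • b = a) :
    ∃ w : X → A, (∀ (d : D) x, w (d • x) = d • w x) ∧ (∀ x, w x ∈ P) ∧
      ∀ x, ∑ i ∈ Finset.range p, w (s^[i] x) = u x := by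
  classical
  obtain ⟨r, hr, hr'⟩ := exists_reps (D := D) s hs hp hsp
  have huiter : ∀ n x, u (s^[n] x) = u x := fun n x => by
    induction n with
    | zero => rfl
    | succ n ih => rw [Function.iterate_succ_apply', hinv, ih]
  have hbase : ∀ y, ∃ b ∈ P, (∀ e : D, e • y = y → e • b = b) ∧
      ((∀ d : D, d • y ≠ s y) → b = u y) ∧
      ∀ d : D, d • y = s y → ∑ i ∈ Finset.range p, d ^ i • b = u y := by
    intro y
    by_cases hd : ∃ d : D, d • y = s y
    · obtain ⟨d, hd⟩ := hd
      obtain ⟨b, hb, hbfix, hbe⟩ := hloc y d hd (u y) (huP y) (fun e he => by rw [← hu, he])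
        (by rw [← hu, hd, hinv])
      refine ⟨b, hb, hbfix, fun h => absurd hd (h d), fun d' hd' => ?_⟩
      rw [← hbe]
      refine Finset.sum_congr rfl fun i _ => ?_
      have hpow : ∀ f : D, f • y = s y → ∀ n : ℕ, (f ^ n) • y = s^[n] y := by
        intro f hf n
        induction n with
        | zero => simp
        | succ n ih =>
          rw [pow_succ', mul_smul, ih, ← iterate_smul s hs, hf, ← Function.iterate_succ_apply]
      have h1 := hbfix ((d ^ i)⁻¹ * d' ^ i)
        (by rw [mul_smul, hpow d' hd', ← hpow d hd, inv_smul_smul])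
      rwa [mul_smul, inv_smul_eq_iff] at h1
    · push Not at hd
      exact ⟨u y, huP y, fun e he => by rw [← hu, he], fun _ => rfl,
        fun d h => absurd h (hd d)⟩
  choose b hbP hbfix hbfree hbnorm using hbase
  let w : X → A := fun x => if h : ∃ d : D, d • r x = x then h.choose • b (r x) else 0
  have hw : ∀ (x : X) (d : D), d • r x = x → w x = d • b (r x) := by
    intro x d hd
    have h : ∃ d : D, d • r x = x := ⟨d, hd⟩
    simp only [w, dif_pos h]
    have h1 := hbfix (r x) (d⁻¹ * h.choose) (by
      rw [mul_smul, inv_smul_eq_iff, h.choose_spec, hd])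
    rwa [mul_smul, inv_smul_eq_iff] at h1
  have hw0 : ∀ x : X, (∀ d : D, d • r x ≠ x) → w x = 0 := fun x h => dif_neg (fun ⟨d, hd⟩ => h d hd)
  refine ⟨w, fun d x => ?_, fun x => ?_, fun x => ?_⟩
  · have hr1 : r (d • x) = r x := by simpa using hr' d x 0
    by_cases h : ∃ e : D, e • r x = x
    · obtain ⟨e, he⟩ := h
      rw [hw x e he, hw (d • x) (d * e) (by rw [hr1, mul_smul, he]), hr1, mul_smul]
    · push Not at h
      rw [hw0 x h, smul_zero, hw0 (d • x) (fun e he => h (d⁻¹ * e) (by
        rw [mul_smul, ← hr1, he, inv_smul_smul]))]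
  · by_cases h : ∃ e : D, e • r x = x
    · obtain ⟨e, he⟩ := h
      rw [hw x e he]; exact hP _ _ (hbP _)
    · push Not at h
      rw [hw0 x h]; exact P.zero_mem
  · obtain ⟨e, j, hej⟩ := hr x
    have hri : ∀ i, r (s^[i] x) = r x := fun i => by simpa using hr' (1 : D) x i
    have hux : u x = e • u (r x) := by
      conv_lhs => rw [← hej]
      rw [hu, huiter]
    by_cases hd : ∃ d : D, d • r x = s (r x)
    · obtain ⟨d, hd⟩ := hd
      have hpow : ∀ n : ℕ, (d ^ n) • r x = s^[n] (r x) := by
        intro n
        induction n with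
        | zero => simp
        | succ n ih =>
          rw [pow_succ', mul_smul, ih, ← iterate_smul s hs, hd, ← Function.iterate_succ_apply]
      have hterm : ∀ i, w (s^[i] x) = (e * d ^ j) • (d ^ i • b (r x)) := fun i => by
        rw [hw (s^[i] x) (e * d ^ j * d ^ i) ?_, hri, mul_smul]
        rw [hri, mul_assoc, ← pow_add, mul_smul, hpow, Nat.add_comm j i,
          Function.iterate_add_apply, ← iterate_smul s hs, hej]
      rw [Finset.sum_congr rfl fun i _ => hterm i, ← Finset.smul_sum, hbnorm (r x) d hd, mul_smul,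
        ← hu (d ^ j), hpow, huiter, hux]
    · push Not at hd
      obtain ⟨i₀, hi₀, hi₀'⟩ : ∃ i < p, (i + j) % p = 0 := by
        refine ⟨(p - j % p) % p, Nat.mod_lt _ hp.pos, ?_⟩
        have hj := Nat.mod_lt j hp.pos
        rw [Nat.mod_add_mod]
        have hdm := Nat.mod_add_div j p
        have h2 : p - j % p + j = p * (j / p + 1) := by rw [Nat.mul_succ]; omega
        rw [h2, Nat.mul_mod_right]
      rw [Finset.sum_eq_single_of_mem i₀ (Finset.mem_range.2 hi₀) fun i hi hne => ?_]
      · rw [hw (s^[i₀] x) e ?_, hri, hbfree _ hd, hux]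
        rw [hri]
        conv_rhs => rw [← hej, iterate_smul s hs, ← Function.iterate_add_apply,
          iterate_eq_mod s hsp, hi₀']
        rfl
      · refine hw0 _ fun f hf => hne ?_
        rw [hri] at hf
        conv_rhs at hf => rw [← hej, iterate_smul s hs, ← Function.iterate_add_apply]
        have hdvd := dvd_of_iterate_mem_orbit s hs hp hsp hd (m := i + j) (e := e⁻¹ * f)
          (by rw [mul_smul, hf, inv_smul_smul])
        have h1 : (i + j) % p = (i₀ + j) % p := by
          rw [hi₀']; exact Nat.mod_eq_zero_of_dvd hdvd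
        have h2 : i % p = i₀ % p := Nat.ModEq.add_right_cancel (Nat.ModEq.refl j) h1
        rwa [Nat.mod_eq_of_lt (Finset.mem_range.1 hi), Nat.mod_eq_of_lt hi₀] at h2

end Fermat.Agent.PoitouTate
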