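/-
The Herbrand quotient of a module of equivariant functions, reduced to the points where the cyclic
permutation stays in an orbit.

`D` acts on the finite set `X` and on `A`, `s` is a permutation of prime period `p` of `X` commuting
with `D`; the module is that of the equivariant functions with values in a stable subgroup `P`, on
which `s` acts by composition. It is the product over the classes of `X` for `D` and `s` together
of the submodules of functions on one class, and these are either cyclically permuted copies or
the values at one point.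
-/
import Fermat.Agent.PoitouTate.IdeleOrbit
import Fermat.Agent.PoitouTate.IdeleHerbrandPi
import Fermat.Agent.PoitouTate.LocalTwist

set_option autoImplicit false

noncomputable section

namespace Fermat.Agent.PoitouTate

open Finset

variable (D : Type*) {X A : Type*} [Group D] [MulAction D X] [AddCommGroup A] [DistribMulAction D A]
variable (P : AddSubgroup A)

variable (X) in
/-- Equivariant functions with values in `P`. -/
def famIn : AddSubgroup (X → A) where
  carrier := {f | (∀ (d : D) x, f (d • x) = d • f x) ∧ ∀ x, f x ∈ P}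
  zero_mem' := ⟨fun d _ => (smul_zero d).symm, fun _ => P.zero_mem⟩
  add_mem' {f g} hf hg := ⟨fun d x => by simp only [Pi.add_apply, hf.1 d x, hg.1 d x, smul_add],
    fun x => P.add_mem (hf.2 x) (hg.2 x)⟩
  neg_mem' {f} hf := ⟨fun d x => by simp only [Pi.neg_apply, hf.1 d x, smul_neg],
    fun x => P.neg_mem (hf.2 x)⟩

/-- The values in `P` fixed by the stabiliser of `x`. -/
def pointVals (x : X) : AddSubgroup A := stabFixed D X A x ⊓ P

variable (s : X → X) (p : ℕ)

/-- The functions on one class for `D` and `s` together, in coordinates. -/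
def lineVals (x : X) : AddSubgroup (ZMod p → A) where
  carrier := {F | (∀ i, F i ∈ P) ∧
    ∀ (e : D) (i j : ZMod p), e • s^[i.val] x = s^[j.val] x → F j = e • F i}
  zero_mem' := ⟨fun _ => P.zero_mem, fun e _ _ _ => (smul_zero e).symm⟩
  add_mem' {F G} hF hG := ⟨fun i => P.add_mem (hF.1 i) (hG.1 i),
    fun e i j h => by simp only [Pi.add_apply, hF.2 e i j h, hG.2 e i j h, smul_add]⟩
  neg_mem' {F} hF := ⟨fun i => P.neg_mem (hF.1 i),
    fun e i j h => by simp only [Pi.neg_apply, hF.2 e i j h, smul_neg]⟩

variable {D P s p}
variable [hp : Fact p.Prime] (hs : ∀ (d : D) x, s (d • x) = d • s x) (hsp : ∀ x : X, s^[p] x = x)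

include hsp in
theorem iterate_val_add_natCast (i : ZMod p) (k : ℕ) (x : X) :
    s^[(i + k).val] x = s^[i.val + k] x := by
  rw [iterate_eq_mod s hsp (i.val + k)]
  congr 2
  rw [← ZMod.natCast_zmod_val i, ← Nat.cast_add, ZMod.val_natCast, ZMod.natCast_zmod_val]

include hsp in
theorem iterate_val_add_one (i : ZMod p) (x : X) : s^[(i + 1).val] x = s (s^[i.val] x) := by
  have h := iterate_val_add_natCast hsp i 1 x
  rw [Nat.cast_one] at h
  rw [h, Function.iterate_succ_apply']

variable (D P) in
/-- Composition with `s`. -/
def famShift : AddMonoid.End (famIn D X P) where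
  toFun f := ⟨(f : X → A) ∘ s, fun d x => by simp only [Function.comp_apply, hs, f.2.1],
    fun x => f.2.2 _⟩
  map_zero' := rfl
  map_add' _ _ := rfl

theorem famShift_apply (f : famIn D X P) (x : X) :
    ((famShift D P hs f : famIn D X P) : X → A) x = (f : X → A) (s x) := rfl

theorem famShift_pow_apply (i : ℕ) (f : famIn D X P) (x : X) :
    (((famShift D P hs ^ i) f : famIn D X P) : X → A) x = (f : X → A) (s^[i] x) := by
  induction i generalizing f with
  | zero => rfl
  | succ i ih =>
    rw [pow_succ, Function.iterate_succ_apply']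
    exact ih _

include hsp in
theorem famShift_pow_self : famShift D P hs ^ p = 1 :=
  AddMonoidHom.ext fun f => Subtype.ext (funext fun x =>
    (famShift_pow_apply hs p f x).trans (congrArg (f : X → A) (hsp x)))

variable (D P) in
/-- The shift of a class. -/
def lineShift (x : X) : AddMonoid.End (lineVals D P s p x) where
  toFun F := ⟨fun i => (F : ZMod p → A) (i + 1), fun i => F.2.1 _, fun e i j h => F.2.2 e _ _ (by
    rw [iterate_val_add_one hsp, iterate_val_add_one hsp, ← h, hs])⟩
  map_zero' := rfl
  map_add' _ _ := rfl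

theorem lineShift_apply (x : X) (F : lineVals D P s p x) (i : ZMod p) :
    ((lineShift D P hs hsp x F : lineVals D P s p x) : ZMod p → A) i = (F : ZMod p → A) (i + 1) :=
  rfl

theorem lineShift_pow_apply (x : X) (k : ℕ) (F : lineVals D P s p x) (i : ZMod p) :
    (((lineShift D P hs hsp x ^ k) F : lineVals D P s p x) : ZMod p → A) i
      = (F : ZMod p → A) (i + k) := by
  induction k generalizing F with
  | zero => simp
  | succ k ih =>
    rw [pow_succ, Nat.cast_succ, ← add_assoc]
    exact ih _

theorem lineShift_pow_self (x : X) : lineShift D P hs hsp x ^ p = 1 :=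
  AddMonoidHom.ext fun F => Subtype.ext (funext fun i =>
    (lineShift_pow_apply hs hsp x p F i).trans
      (congrArg (F : ZMod p → A) (by rw [ZMod.natCast_self, add_zero])))

variable (hP : ∀ (d : D), ∀ a ∈ P, d • a ∈ P)

include hs hsp hP in
/-- The class of `x` contributes trivially, if the values at `x` do. -/
theorem herbrand_lineShift (x : X)
    (hfix : ∀ d : D, d • x = s x → ∀ (E : AddMonoid.End (pointVals D P x)) (hE : E ^ p = 1),
      (∀ b, (E b : A) = d • (b : A)) →
      (EndPair.cyclic E p hE).HasHerbrand ∧ (EndPair.cyclic E p hE).herbrand = 1) :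
    (EndPair.cyclic _ p (lineShift_pow_self (D := D) (P := P) hs hsp x)).HasHerbrand ∧
      (EndPair.cyclic _ p (lineShift_pow_self (D := D) (P := P) hs hsp x)).herbrand = 1 := by
  by_cases hd : ∃ d : D, d • x = s x
  · obtain ⟨d, hd⟩ := hd
    have hpow : ∀ n : ℕ, (d ^ n) • x = s^[n] x := by
      intro n
      induction n with
      | zero => simp
      | succ n ih =>
        rw [pow_succ', mul_smul, ih, ← iterate_smul s hs, hd, ← Function.iterate_succ_apply]
    have hstab : ∀ (b : pointVals D P x) (e e' : D), e • x = e' • x → e • (b : A) = e' • (b : A) := by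
      intro b e e' h
      have h1 := b.2.1 (e'⁻¹ * e) (by rw [MulAction.mem_stabilizer_iff, mul_smul, h, inv_smul_smul])
      rwa [mul_smul, inv_smul_eq_iff] at h1
    let E : AddMonoid.End (pointVals D P x) :=
      { toFun := fun b => ⟨d • (b : A), fun e he => by
          rw [← mul_smul]
          refine hstab b _ _ ?_
          rw [mul_smul, hd, MulAction.mem_stabilizer_iff] at *
          rw [← hs, he], hP _ _ b.2.2⟩
        map_zero' := Subtype.ext (smul_zero d)
        map_add' := fun _ _ => Subtype.ext (smul_add d _ _) }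
    have hEpow : ∀ (n : ℕ) (b : pointVals D P x),
        ((E ^ n) b : A) = d ^ n • (b : A) := by
      intro n
      induction n with
      | zero => simp
      | succ n ih =>
        intro b
        rw [pow_succ, pow_succ, mul_smul]
        exact ih _
    have hE : E ^ p = 1 := AddMonoidHom.ext fun b => Subtype.ext
      ((hEpow p b).trans
        ((hstab b (d ^ p) 1 (by rw [hpow, hsp, one_smul])).trans (one_smul D _)))
    obtain ⟨h1, h2⟩ := hfix d hd E hE fun b => rfl
    let u : lineVals D P s p x →+ pointVals D P x :=
      { toFun := fun F => ⟨(F : ZMod p → A) 0, fun e he => (F.2.2 e 0 0 (by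
          simpa [MulAction.mem_stabilizer_iff] using he)).symm, F.2.1 0⟩
        map_zero' := rfl
        map_add' := fun _ _ => rfl }
    have hu : ∀ F, u (lineShift D P hs hsp x F) = E (u F) := fun F => Subtype.ext (by
      show (F : ZMod p → A) (0 + 1) = d • (F : ZMod p → A) 0
      refine F.2.2 d 0 (0 + 1) ?_
      rw [iterate_val_add_one hsp, ZMod.val_zero, Function.iterate_zero, id, hd])
    have hbij : Function.Bijective u := by
      refine ⟨(injective_iff_map_eq_zero _).2 fun F hF => Subtype.ext (funext fun i => ?_),
        fun b => ⟨⟨fun i => d ^ i.val • (b : A), fun i => hP _ _ b.2.2, fun e i j h => ?_⟩, ?_⟩⟩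
      · have h0 : (F : ZMod p → A) 0 = 0 := congrArg Subtype.val hF
        have h1 := F.2.2 (d ^ i.val) 0 i (by rw [ZMod.val_zero, Function.iterate_zero, id, hpow])
        rw [h0, smul_zero] at h1
        exact h1
      · rw [← mul_smul]
        exact hstab b _ _ (by rw [mul_smul, hpow, hpow, h])
      · exact Subtype.ext (by
          show d ^ (0 : ZMod p).val • (b : A) = b
          rw [ZMod.val_zero, pow_zero, one_smul])
    let v := EndPair.Hom.ofEquivariant (lineShift_pow_self (D := D) (P := P) hs hsp x) hE u hu
    exact ⟨(v.hasHerbrand_iff hbij).2 h1, (v.herbrand_eq_of_bijective hbij).trans h2⟩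
  · push Not at hd
    have hdvd : ∀ (e : D) (i j : ZMod p), e • s^[i.val] x = s^[j.val] x → i = j ∧ e • x = x := by
      intro e i j h
      have h' : e • x = s^[j.val + (p * i.val - i.val)] x := by
        have := congrArg (fun z => s^[p * i.val - i.val] z) h
        simp only [iterate_smul s hs, ← Function.iterate_add_apply,
          Nat.sub_add_cancel (Nat.le_mul_of_pos_left i.val hp.out.pos),
          iterate_mul_period s hsp] at this
        rw [this, Nat.add_comm]
      obtain ⟨k, hk⟩ := dvd_of_iterate_mem_orbit s hs hp.out hsp hd h'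
      refine ⟨?_, by rw [h', hk, iterate_mul_period s hsp]⟩
      have hle := Nat.le_mul_of_pos_left i.val hp.out.pos
      have hcast : ((j.val + (p * i.val - i.val) : ℕ) : ZMod p) = 0 := by
        rw [hk, Nat.cast_mul, ZMod.natCast_self, zero_mul]
      rw [Nat.cast_add, Nat.cast_sub hle, Nat.cast_mul, ZMod.natCast_self, zero_mul, zero_sub,
        ZMod.natCast_zmod_val, ZMod.natCast_zmod_val, ← sub_eq_add_neg, sub_eq_zero] at hcast
      exact hcast.symm
    let u : lineVals D P s p x →+ (ZMod p → pointVals D P x) :=
      { toFun := fun F i => ⟨(F : ZMod p → A) i, fun e he => (F.2.2 e i i (by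
          rw [← iterate_smul s hs, MulAction.mem_stabilizer_iff.1 he])).symm, F.2.1 i⟩
        map_zero' := rfl
        map_add' := fun _ _ => rfl }
    have hbij : Function.Bijective u := by
      refine ⟨(injective_iff_map_eq_zero _).2 fun F hF => Subtype.ext (funext fun i =>
          congrArg Subtype.val (congrFun hF i)),
        fun G => ⟨⟨fun i => (G i : A), fun i => (G i).2.2, fun e i j h => ?_⟩, rfl⟩⟩
      obtain ⟨rfl, he⟩ := hdvd e i j h
      exact ((G i).2.1 e (MulAction.mem_stabilizer_iff.2 he)).symm
    let v := EndPair.Hom.ofEquivariant (lineShift_pow_self (D := D) (P := P) hs hsp x)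
      (EndPair.shiftEnd_pow_self (A := pointVals D P x) (n := p)) u fun _ => rfl
    obtain ⟨h1, h2⟩ := EndPair.herbrand_shift (A := pointVals D P x) (n := p)
    exact ⟨(v.hasHerbrand_iff hbij).2 h1, (v.herbrand_eq_of_bijective hbij).trans h2⟩

include hs hsp hP in
/-- The Herbrand quotient of the equivariant functions is trivial if it is so at every point
`x` with `s x` in the orbit of `x`. -/
theorem herbrand_famShift [Finite X]
    (hfix : ∀ (x : X) (d : D), d • x = s x → ∀ (E : AddMonoid.End (pointVals D P x)) (hE : E ^ p = 1),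
      (∀ b, (E b : A) = d • (b : A)) →
      (EndPair.cyclic E p hE).HasHerbrand ∧ (EndPair.cyclic E p hE).herbrand = 1) :
    (EndPair.cyclic _ p (famShift_pow_self (D := D) (P := P) hs hsp)).HasHerbrand ∧
      (EndPair.cyclic _ p (famShift_pow_self (D := D) (P := P) hs hsp)).herbrand = 1 := by
  classical
  obtain ⟨r, hr, hr'⟩ := exists_reps (D := D) s hs hp.out hsp
  let C := {c : X // r c = c}
  have : Fintype C := Fintype.ofFinite _
  let toLine : famIn D X P →+ ∀ c : C, lineVals D P s p (c : X) :=
    { toFun := fun f c => ⟨fun i => (f : X → A) (s^[i.val] c), fun i => f.2.2 _,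
        fun e i j h => by
          show (f : X → A) (s^[j.val] c) = e • (f : X → A) (s^[i.val] c)
          rw [← h, f.2.1]⟩
      map_zero' := rfl
      map_add' := fun _ _ => rfl }
  have htoLine : ∀ f (c : C) (i : ZMod p),
      ((toLine f c : lineVals D P s p (c : X)) : ZMod p → A) i = (f : X → A) (s^[i.val] c) :=
    fun _ _ _ => rfl
  have hidem : ∀ x, r (r x) = r x := fun x => by
    obtain ⟨d, i, h⟩ := hr x
    have := hr' d (r x) i
    rw [h] at this
    exact this.symm
  have hcoord : ∀ x, ∃ (d : D) (i : ZMod p), d • s^[i.val] (r x) = x := fun x => by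
    obtain ⟨d, i, h⟩ := hr x
    refine ⟨d, (i : ZMod p), ?_⟩
    rwa [ZMod.val_natCast, ← iterate_eq_mod s hsp]
  choose δ ι hδ using hcoord
  have hbij : Function.Bijective toLine := by
    refine ⟨(injective_iff_map_eq_zero _).2 fun f hf => Subtype.ext (funext fun x => ?_), fun F => ?_⟩
    · show (f : X → A) x = 0
      rw [← hδ x, f.2.1, ← htoLine f ⟨r x, hidem x⟩, hf]
      exact smul_zero _
    · let f : X → A := fun x => δ x • (F ⟨r x, hidem x⟩ : ZMod p → A) (ι x)
      have hf : ∀ (e : D) (x : X) (c : C) (i : ZMod p), e • s^[i.val] (c : X) = x →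
          f x = e • (F c : ZMod p → A) i := by
        intro e x c i h
        have hc : r x = c := by rw [← h, hr', c.2]
        have hcc : (⟨r x, hidem x⟩ : C) = c := Subtype.ext hc
        show δ x • (F ⟨r x, hidem x⟩ : ZMod p → A) (ι x) = _
        rw [hcc]
        have h1 : (e⁻¹ * δ x) • s^[(ι x).val] (c : X) = s^[i.val] (c : X) := by
          rw [mul_smul, inv_smul_eq_iff, h, ← hc, hδ]
        rw [(F c).2.2 _ _ _ h1, ← mul_smul, mul_inv_cancel_left]
      refine ⟨⟨f, fun d x => ?_, fun x => hP _ _ ((F _).2.1 _)⟩,
        funext fun c => Subtype.ext (funext fun i => ?_)⟩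
      · rw [hf (d * δ x) (d • x) ⟨r x, hidem x⟩ (ι x) (by rw [mul_smul, hδ]), mul_smul]
      · rw [htoLine]
        exact (hf 1 _ c i (one_smul _ _)).trans (one_smul _ _)
  let R : ∀ c : C, EndPair (lineVals D P s p (c : X)) := fun c =>
    EndPair.cyclic _ p (lineShift_pow_self (D := D) (P := P) hs hsp (c : X))
  let u : ∀ c : C, EndPair.Hom (EndPair.cyclic _ p (famShift_pow_self (D := D) (P := P) hs hsp)) (R c) :=
    fun c => EndPair.Hom.ofEquivariant _ _ ((Pi.evalAddMonoidHom _ c).comp toLine) fun f =>
      Subtype.ext (funext fun i => by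
        show (f : X → A) (s (s^[i.val] (c : X))) = (f : X → A) (s^[(i + 1).val] (c : X))
        rw [iterate_val_add_one hsp])
  let v : EndPair.Hom (EndPair.cyclic _ p (famShift_pow_self (D := D) (P := P) hs hsp)) (EndPair.pi R) :=
    ⟨toLine, fun f => funext fun c => (u c).comm_fst f, fun f => funext fun c => (u c).comm_snd f⟩
  have hR := fun c : C => herbrand_lineShift hs hsp hP (c : X) (hfix c)
  refine ⟨(v.hasHerbrand_iff hbij).2 (EndPair.pi_hasHerbrand R fun c => (hR c).1), ?_⟩
  rw [v.herbrand_eq_of_bijective hbij, EndPair.herbrand_pi]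
  exact Finset.prod_eq_one fun c _ => (hR c).2

end Fermat.Agent.PoitouTate
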