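import Fermat.Agent.PoitouTate.LocalCyclic
import Fermat.Agent.PoitouTate.LocalDense
import Fermat.Agent.PoitouTate.LocalTwist
import Fermat.Agent.PoitouTate.IdelePlace

/-!
# Unit families at a prime unramified in a level

At a prime outside `T` the equivariant families of local units of a level of `T` have trivial
cohomology in cyclic layers of prime degree.
-/

set_option autoImplicit false
set_option linter.style.haveILetI false

noncomputable section

namespace Fermat.Agent.PoitouTate

local notation "Qb" => AlgebraicClosure ℚ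

variable {T : Finset Nat.Primes} {q : Nat.Primes}

theorem locAct_mul (a b : LocGal q) (x : LocVal q) :
    locAct q (a * b) x = locAct q a (locAct q b x) :=
  locVal_ext rfl

theorem locAct_one (x : LocVal q) : locAct q 1 x = x := locVal_ext rfl

theorem locAct_mem_unitVal (τ : LocGal q) {x : LocVal q} (hx : x ∈ unitVal q) :
    locAct q τ x ∈ unitVal q := by
  show ‖((Additive.toMul (locAct q τ x) : (PadicAlgCl (q : ℕ))ˣ) : PadicAlgCl (q : ℕ))‖ = 1
  rw [coe_locAct, norm_locGal]
  exact hx

/-- The value group of a local field of a level at a prime outside it is `q ^ ℤ`. -/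
theorem exists_norm_eq_zpow_locField {L : IntermediateField ℚ Qb} (hL : IsLvl T L) (hq : q ∉ T)
    {U : Subgroup GQ} (hU : L.fixingSubgroup ≤ U) (g : GQ) {x : PadicAlgCl (q : ℕ)}
    (hx : x ∈ locField q (locSub q U g)) (hx0 : x ≠ 0) :
    ∃ k : ℤ, ‖x‖ = ((q : ℕ) : ℝ) ^ (-k) := by
  haveI := hL.unramified.1
  haveI := finite_quotient_of_level hU
  letI : Fintype (GQ ⧸ U) := Fintype.ofFinite _
  obtain ⟨w, hw, hwe⟩ := exists_conjSpan_eval hU g hx
  obtain ⟨_, ⟨z, rfl⟩, hz⟩ :=
    Metric.mem_closure_iff.1 (conjSpan_le_closure hw) ‖x‖ (norm_pos_iff.2 hx0)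
  have h1 : ‖padicEmbedding (q : ℕ) (g (z : Qb)) - x‖ < ‖x‖ := by
    have h := (dist_le_pi_dist _ _ (QuotientGroup.mk g)).trans_lt hz
    rw [hwe, conjFamilies_apply, dist_comm, dist_eq_norm] at h
    exact h
  have h2 : ‖padicEmbedding (q : ℕ) (g (z : Qb))‖ = ‖x‖ := by
    have := IsUltrametricDist.norm_add_eq_max_of_norm_ne_norm (x := padicEmbedding (q : ℕ) (g (z : Qb)) - x)
      (y := x) h1.ne
    rw [sub_add_cancel] at this
    rw [this, max_eq_right h1.le]
  have hzL : (z : Qb) ∈ L := by
    rw [← InfiniteGalois.fixedField_fixingSubgroup L, IntermediateField.mem_fixedField_iff]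
    exact fun s hs => (IntermediateField.mem_fixedField_iff _ _).1 z.2 s (hU hs)
  have hz0 : (z : Qb) ≠ 0 := fun h => by
    rw [h, map_zero, map_zero, norm_zero] at h2
    exact norm_pos_iff.2 hx0 |>.ne h2
  obtain ⟨k, hk⟩ := exists_norm_eq_zpow q g hL hq hzL hz0
  exact ⟨k, by rw [← h2, hk]⟩

variable (q) in
/-- `q`, as a local value. -/
def primeVal : LocVal q :=
  Additive.ofMul (Units.mk0 ((q : ℕ) : PadicAlgCl (q : ℕ)) (Nat.cast_ne_zero.2 q.2.ne_zero))

theorem locAct_primeVal (τ : LocGal q) : locAct q τ (primeVal q) = primeVal q :=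
  locVal_ext (map_natCast τ _)

/-- Layers inside a level of `T` are unramified outside `T`. -/
theorem unramified_layer {L : IntermediateField ℚ Qb} (hL : IsLvl T L) (hq : q ∉ T)
    {U : Subgroup GQ} (hU : L.fixingSubgroup ≤ U) (g : GQ) (H : Subgroup (LocGal q)) :
    ∀ x ∈ fixedVal q (locSub q U g), ∃ y ∈ fixedVal q H, x - y ∈ unitVal q := by
  intro x hx
  obtain ⟨k, hk⟩ := exists_norm_eq_zpow_locField hL hq hU g
    (x := ((Additive.toMul x : (PadicAlgCl (q : ℕ))ˣ) : PadicAlgCl (q : ℕ)))
    (mem_locField.2 fun τ hτ => by rw [← coe_locAct, hx τ hτ]) (Units.ne_zero _)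
  refine ⟨k • primeVal q, fun τ _ => by rw [map_zsmul, locAct_primeVal], ?_⟩
  show ‖((Additive.toMul (x - k • primeVal q) : (PadicAlgCl (q : ℕ))ˣ) : PadicAlgCl (q : ℕ))‖ = 1
  have hp : ‖((q : ℕ) : PadicAlgCl (q : ℕ))‖ = ((q : ℕ) : ℝ)⁻¹ := by
    rw [← map_natCast (algebraMap ℚ_[(q : ℕ)] (PadicAlgCl (q : ℕ))), norm_algebraMap', Padic.norm_p]
  simp only [toMul_sub, toMul_zsmul, primeVal, toMul_ofMul, Units.val_div_eq_div_val,
    Units.val_zpow_eq_zpow_val, Units.val_mk0, norm_div, norm_zpow, hp, hk, inv_zpow, ← zpow_neg]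
  exact div_self (zpow_ne_zero _ (Nat.cast_ne_zero.2 q.2.ne_zero))

/-- The hypotheses on a cyclic layer of levels. -/
theorem isCycLayer_locSub {L : IntermediateField ℚ Qb} [FiniteDimensional ℚ L] {U : Subgroup GQ}
    (hU : L.fixingSubgroup ≤ U) {σ : GQ} {p : ℕ} (hp : p.Prime) (hσ : σ ∉ U) (hσp : σ ^ p ∈ U)
    (hnorm : ∀ s ∈ U, σ * s * σ⁻¹ ∈ U) (g : GQ) {τ : LocGal q}
    (hτ : (g * σ)⁻¹ * (loc q τ * g) ∈ U) : IsCycLayer (locSub q U g) τ p := by
  obtain ⟨u, hu, hτ'⟩ : ∃ u ∈ U, g⁻¹ * loc q τ * g = σ * u :=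
    ⟨_, hτ, by simp [mul_assoc]⟩
  refine IsCycLayer.of_prime hp (isLocLevel_locSub hU g) (fun s hs => ?_) (fun hmem => ?_) ?_
  · rw [mem_locSub] at hs ⊢
    rw [map_mul, map_mul, map_inv]
    have he : g⁻¹ * (loc q τ * loc q s * (loc q τ)⁻¹) * g
        = σ * (u * (g⁻¹ * loc q s * g) * u⁻¹) * σ⁻¹ := by
      calc _ = (g⁻¹ * loc q τ * g) * (g⁻¹ * loc q s * g) * (g⁻¹ * loc q τ * g)⁻¹ := by group
        _ = _ := by rw [hτ']; group
    rw [he]
    exact hnorm _ (U.mul_mem (U.mul_mem hu hs) (U.inv_mem hu))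
  · rw [mem_locSub, hτ'] at hmem
    exact hσ (by simpa using U.mul_mem hmem (U.inv_mem hu))
  · rw [mem_locSub, map_pow]
    have he : g⁻¹ * loc q τ ^ p * g = (σ * u) ^ p := by
      rw [← hτ']
      simpa using (conj_pow (a := g⁻¹) (b := loc q τ) (i := p)).symm
    rw [he]
    have hgen : ∀ n : ℕ, ∃ v ∈ U, (σ * u) ^ n = σ ^ n * v := by
      intro n
      induction n with
      | zero => exact ⟨1, U.one_mem, by simp⟩
      | succ n ih =>
        obtain ⟨v, hv, he⟩ := ih
        have hconj : ∀ s ∈ U, σ⁻¹ * s * σ ∈ U := fun s hs => by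
          have hpw : ∀ k : ℕ, ∀ s ∈ U, σ ^ k * s * (σ ^ k)⁻¹ ∈ U := by
            intro k
            induction k with
            | zero => simp
            | succ k ih =>
              intro s hs
              simpa [pow_succ', mul_assoc] using hnorm _ (ih s hs)
          obtain ⟨m, rfl⟩ := Nat.exists_eq_succ_of_ne_zero hp.ne_zero
          have h1 := U.mul_mem (U.mul_mem (U.inv_mem hσp) (hpw m s hs)) hσp
          simpa [pow_succ, mul_assoc] using h1
        refine ⟨σ⁻¹ * v * σ * u, U.mul_mem (hconj v hv) hu, ?_⟩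
        rw [pow_succ, he, pow_succ]; group
    obtain ⟨v, hv, he'⟩ := hgen p
    rw [he']
    exact U.mul_mem hσp hv

section Families

variable {L : IntermediateField ℚ Qb} (hL : IsLvl T L) (hq : q ∉ T) {U : Subgroup GQ}
  (hU : L.fixingSubgroup ≤ U) {p : ℕ} (hp : p.Prime) {σ : GQ} (hσ : σ ∉ U) (hσp : σ ^ p ∈ U)
  (hnorm : ∀ s ∈ U, σ * s * σ⁻¹ ∈ U)
  (f : GQ → LocVal q) (hf : ∀ (τ : LocGal q) g, f (loc q τ * g) = locAct q τ (f g))
  (hfU : ∀ g, ∀ u ∈ U, f (g * u) = f g) (hunit : ∀ g, f g ∈ unitVal q)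

include hσp hnorm hp in
theorem conj_inv_mem {s : GQ} (hs : s ∈ U) : σ⁻¹ * s * σ ∈ U := by
  have hpw : ∀ k : ℕ, ∀ s ∈ U, σ ^ k * s * (σ ^ k)⁻¹ ∈ U := by
    intro k
    induction k with
    | zero => simp
    | succ k ih =>
      intro s hs
      simpa [pow_succ', mul_assoc] using hnorm _ (ih s hs)
  obtain ⟨m, rfl⟩ := Nat.exists_eq_succ_of_ne_zero hp.ne_zero
  have h1 := U.mul_mem (U.mul_mem (U.inv_mem hσp) (hpw m s hs)) hσp
  simpa [pow_succ, mul_assoc] using h1

variable (U) in
/-- Right translation on the cosets of a normalised subgroup. -/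
def rightShift (σ : GQ) (hconj : ∀ s ∈ U, σ⁻¹ * s * σ ∈ U) : GQ ⧸ U → GQ ⧸ U :=
  Quotient.map' (· * σ) fun a b h => by
    rw [QuotientGroup.leftRel_apply] at h ⊢
    simpa [mul_assoc] using hconj _ h

include hL hq hU hp hσ hσp hnorm hf hfU hunit in
/-- **Hilbert 90** for families of local units. -/
theorem exists_unit_twist (h0 : ∀ g, ∑ i ∈ Finset.range p, f (g * σ ^ i) = 0) :
    ∃ w : GQ → LocVal q, (∀ (τ : LocGal q) g, w (loc q τ * g) = locAct q τ (w g)) ∧
      (∀ g, ∀ u ∈ U, w (g * u) = w g) ∧ (∀ g, w g ∈ unitVal q) ∧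
      ∀ g, w (g * σ) - w g = f g := by
  haveI := hL.unramified.1
  letI : MulAction (LocGal q) (GQ ⧸ U) := MulAction.compHom _ (loc q)
  letI : DistribMulAction (LocGal q) (LocVal q) :=
    { smul := fun τ x => locAct q τ x
      one_smul := locAct_one
      mul_smul := locAct_mul
      smul_zero := fun τ => map_zero _
      smul_add := fun τ => map_add _ }
  set s := rightShift U σ (fun s hs => conj_inv_mem hp hσp hnorm hs) with hsdef
  have hs_mk : ∀ (n : ℕ) (g : GQ), s^[n] (QuotientGroup.mk g) = QuotientGroup.mk (g * σ ^ n) := by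
    intro n
    induction n with
    | zero => simp
    | succ n ih =>
      intro g
      rw [Function.iterate_succ_apply', ih, pow_succ, ← mul_assoc]
      rfl
  have hmk : ∀ g, f (QuotientGroup.mk g : GQ ⧸ U).out = f g := fun g => by
    obtain ⟨u, hu⟩ : ∃ u : U, ((QuotientGroup.mk g : GQ ⧸ U).out : GQ) = g * u :=
      QuotientGroup.mk_out_eq_mul U g
    rw [hu, hfU g u u.2]
  obtain ⟨w, hw, hwP, hwe⟩ := exists_twist (D := LocGal q) (unitVal q)
    (fun τ a ha => locAct_mem_unitVal τ ha) s
    (fun τ c => by induction c using QuotientGroup.induction_on with | H g => exact congrArg QuotientGroup.mk (mul_assoc (loc q τ) g σ))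
    hp
    (fun c => by
      induction c using QuotientGroup.induction_on with | H g => ?_
      rw [hs_mk, QuotientGroup.eq]; simpa using U.inv_mem hσp)
    (fun c => f c.out)
    (fun τ c => by
      induction c using QuotientGroup.induction_on with | H g => ?_
      show f (QuotientGroup.mk (loc q τ * g) : GQ ⧸ U).out = locAct q τ _
      simp only [hmk, hf])
    (fun c => hunit _)
    (fun c => by
      induction c using QuotientGroup.induction_on with | H g => ?_
      simp only [hs_mk, hmk]; exact h0 g)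
    (by
      intro c τ hτ a ha hafix hsum
      induction c using QuotientGroup.induction_on with | H g => ?_
      have h1 : (g * σ)⁻¹ * (loc q τ * g) ∈ U := QuotientGroup.eq.1 (Eq.symm hτ)
      have hlay := isCycLayer_locSub hU hp hσ hσp hnorm g h1
      have hstab : ∀ e : LocGal q, e ∈ locSub q U g → e • (QuotientGroup.mk g : GQ ⧸ U) = QuotientGroup.mk g := by
        intro e he
        show QuotientGroup.mk (loc q e * g) = QuotientGroup.mk g
        rw [QuotientGroup.eq]
        have := U.inv_mem (mem_locSub.1 he)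
        simpa [mul_assoc] using this
      have hn : normVal q τ p a = 0 := by
        rw [← hsum, normVal, AddMonoidHom.finsetSum_apply]; rfl
      obtain ⟨b, ⟨hb, hb1⟩, hbe⟩ := hlay.exists_unit_sub_of_normVal_eq_zero
        (unramified_layer hL hq hU g _) (fun e he => hafix e (hstab e he)) hn
      refine ⟨b, hb1, fun e he => hb e (mem_locSub.2 ?_), hbe⟩
      have he' : (loc q e * g)⁻¹ * g ∈ U := QuotientGroup.eq.1 he
      simpa [mul_assoc] using U.inv_mem he')
  refine ⟨fun g => w (QuotientGroup.mk g), fun τ g => hw τ (QuotientGroup.mk g), fun g u hu => ?_,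
    fun g => hwP _, fun g => ?_⟩
  · show w _ = w _
    congr 1
    rw [QuotientGroup.eq]; simpa using U.inv_mem hu
  · have := hwe (QuotientGroup.mk g)
    simp only [hmk] at this
    exact this

include hL hq hU hp hσ hσp hnorm hf hfU hunit in
/-- Invariant families of local units are norms. -/
theorem exists_unit_norm (hinv : ∀ g, f (g * σ) = f g) :
    ∃ w : GQ → LocVal q, (∀ (τ : LocGal q) g, w (loc q τ * g) = locAct q τ (w g)) ∧
      (∀ g, ∀ u ∈ U, w (g * u) = w g) ∧ (∀ g, w g ∈ unitVal q) ∧
      ∀ g, ∑ i ∈ Finset.range p, w (g * σ ^ i) = f g := by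
  haveI := hL.unramified.1
  letI : MulAction (LocGal q) (GQ ⧸ U) := MulAction.compHom _ (loc q)
  letI : DistribMulAction (LocGal q) (LocVal q) :=
    { smul := fun τ x => locAct q τ x
      one_smul := locAct_one
      mul_smul := locAct_mul
      smul_zero := fun τ => map_zero _
      smul_add := fun τ => map_add _ }
  set s := rightShift U σ (fun s hs => conj_inv_mem hp hσp hnorm hs) with hsdef
  have hs_mk : ∀ (n : ℕ) (g : GQ), s^[n] (QuotientGroup.mk g) = QuotientGroup.mk (g * σ ^ n) := by
    intro n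
    induction n with
    | zero => simp
    | succ n ih =>
      intro g
      rw [Function.iterate_succ_apply', ih, pow_succ, ← mul_assoc]
      rfl
  have hmk : ∀ g, f (QuotientGroup.mk g : GQ ⧸ U).out = f g := fun g => by
    obtain ⟨u, hu⟩ : ∃ u : U, ((QuotientGroup.mk g : GQ ⧸ U).out : GQ) = g * u :=
      QuotientGroup.mk_out_eq_mul U g
    rw [hu, hfU g u u.2]
  obtain ⟨w, hw, hwP, hwe⟩ := exists_norm (D := LocGal q) (unitVal q)
    (fun τ a ha => locAct_mem_unitVal τ ha) s
    (fun τ c => by induction c using QuotientGroup.induction_on with | H g => exact congrArg QuotientGroup.mk (mul_assoc (loc q τ) g σ))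
    hp
    (fun c => by
      induction c using QuotientGroup.induction_on with | H g => ?_
      rw [hs_mk, QuotientGroup.eq]; simpa using U.inv_mem hσp)
    (fun c => f c.out)
    (fun τ c => by
      induction c using QuotientGroup.induction_on with | H g => ?_
      show f (QuotientGroup.mk (loc q τ * g) : GQ ⧸ U).out = locAct q τ _
      simp only [hmk, hf])
    (fun c => hunit _)
    (fun c => by
      induction c using QuotientGroup.induction_on with | H g => ?_
      show f (QuotientGroup.mk (g * σ) : GQ ⧸ U).out = _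
      simp only [hmk, hinv])
    (by
      intro c τ hτ a ha hafix hτa
      induction c using QuotientGroup.induction_on with | H g => ?_
      have h1 : (g * σ)⁻¹ * (loc q τ * g) ∈ U := QuotientGroup.eq.1 (Eq.symm hτ)
      have hlay := isCycLayer_locSub hU hp hσ hσp hnorm g h1
      have hfixH : a ∈ fixedVal q (locSub q U g ⊔ Subgroup.zpowers τ) := by
        let St : Subgroup (LocGal q) := MulAction.stabilizer (LocGal q) a
        have hle : locSub q U g ⊔ Subgroup.zpowers τ ≤ St := by
          refine sup_le (fun e he => hafix e ?_) (Subgroup.zpowers_le.2 hτa)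
          show QuotientGroup.mk (loc q e * g) = QuotientGroup.mk g
          rw [QuotientGroup.eq]
          have := U.inv_mem (mem_locSub.1 he)
          simpa [mul_assoc] using this
        exact fun e he => hle he
      obtain ⟨b, ⟨hb, hb1⟩, hbe⟩ := hlay.exists_unit_normVal
        (unramified_layer hL hq hU g _) hfixH ha
      refine ⟨b, hb1, fun e he => hb e (mem_locSub.2 ?_), ?_⟩
      · have he' : (loc q e * g)⁻¹ * g ∈ U := QuotientGroup.eq.1 he
        simpa [mul_assoc] using U.inv_mem he'
      · rw [← hbe, normVal, AddMonoidHom.finsetSum_apply]; rfl)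
  refine ⟨fun g => w (QuotientGroup.mk g), fun τ g => hw τ (QuotientGroup.mk g), fun g u hu => ?_,
    fun g => hwP _, fun g => ?_⟩
  · show w _ = w _
    congr 1
    rw [QuotientGroup.eq]; simpa using U.inv_mem hu
  · have := hwe (QuotientGroup.mk g)
    simp only [hmk, hs_mk] at this
    exact this

end Families

end Fermat.Agent.PoitouTate
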