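/-
The Herbrand quotient of the unit ideles of a cyclic layer is one.
-/
import Fermat.Agent.PoitouTate.IdeleLines
import Fermat.Agent.PoitouTate.IdeleLayer
import Fermat.Agent.PoitouTate.IdeleDiv
import Fermat.Agent.PoitouTate.LocalUnits

set_option autoImplicit false
set_option linter.style.haveILetI false
set_option synthInstance.maxHeartbeats 200000

noncomputable section

namespace Fermat.Agent.PoitouTate

local notation "Qb" => AlgebraicClosure ℚ

section Local

attribute [local instance] Units.mulDistribMulActionRight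

variable {q : Nat.Primes} {N : Subgroup (LocGal q)} {τ : LocGal q} {p : ℕ}
  (h : IsCycLayer N τ p)
include h

theorem IsCycLayer.relIndex_normVal_units_ne_zero :
    ((fixedVal q N ⊓ unitVal q).map (normVal q τ p)).relIndex
      (fixedVal q (N ⊔ Subgroup.zpowers τ) ⊓ unitVal q) ≠ 0 := by
  haveI := h.level.finiteDimensional
  haveI : ProperSpace (locField q N) := FiniteDimensional.proper ℚ_[(q : ℕ)] _
  letI : Fintype h.gal := Fintype.ofFinite _
  have hFU : valSub (locField q N) (fixedUnits h.gal (locField q N) ⊓ normOneUnits (locField q N))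
      = fixedVal q (N ⊔ Subgroup.zpowers τ) ⊓ unitVal q := by
    rw [valSub_inf, h.valSub_fixedUnits, valSub_normOneUnits, ← inf_assoc,
      inf_eq_left.2 (show fixedVal q (N ⊔ Subgroup.zpowers τ) ≤ fixedVal q N from
        fun x hx s hs => hx s (Subgroup.mem_sup_left hs))]
  rw [← valSub_normOneUnits, ← h.valSub_map_norm, ← hFU, relIndex_valSub]
  exact (relIndex_norm_units_eq h.isom h.gen h.gen_spec).2

/-- The Herbrand quotient of the units of a local layer is one. -/
theorem IsCycLayer.herbrand_unitVals {B : AddSubgroup (LocVal q)}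
    (hB : B = fixedVal q N ⊓ unitVal q) (E : AddMonoid.End B) (hE : E ^ p = 1)
    (hEe : ∀ b, (E b : LocVal q) = locAct q τ (b : LocVal q)) :
    (EndPair.cyclic E p hE).HasHerbrand ∧ (EndPair.cyclic E p hE).herbrand = 1 := by
  subst hB
  set FH := fixedVal q (N ⊔ Subgroup.zpowers τ) with hFH
  have hEpow : ∀ (i : ℕ) (b : ↥(fixedVal q N ⊓ unitVal q)), ((E ^ i) b : LocVal q) = locAct q (τ ^ i) (b : LocVal q) := by
    intro i
    induction i with
    | zero => exact fun b => (locAct_one _).symm
    | succ i ih =>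
      intro b
      rw [pow_succ τ, locAct_mul, ← hEe]
      exact ih (E b)
  have hsnd : ∀ b : ↥(fixedVal q N ⊓ unitVal q), ((EndPair.cyclic E p hE).snd b : LocVal q) = normVal q τ p b := fun b => by
    rw [EndPair.cyclic_snd_apply, AddSubgroup.val_finsetSum, normVal,
      AddMonoidHom.finsetSum_apply]
    exact Finset.sum_congr rfl fun i _ => hEpow i b
  have hfst : ∀ b : ↥(fixedVal q N ⊓ unitVal q),
      ((EndPair.cyclic E p hE).fst b : LocVal q) = locAct q τ (b : LocVal q) - b := fun b => by
    rw [EndPair.cyclic_fst_apply, AddSubgroup.coe_sub, hEe]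
  have hFHle : FH ≤ fixedVal q N := fun x hx s hs => hx s (Subgroup.mem_sup_left hs)
  have hmemFH : ∀ x, x ∈ fixedVal q N → locAct q τ x = x → x ∈ FH := by
    intro x hx hxτ s hs
    let St : Subgroup (LocGal q) :=
      { carrier := {s | locAct q s x = x}
        one_mem' := locAct_one x
        mul_mem' := fun {a b} ha hb => by
          show locAct q (a * b) x = x
          rw [locAct_mul, hb, ha]
        inv_mem' := fun {a} ha => by
          show locAct q a⁻¹ x = x
          conv_lhs => rw [← (ha : locAct q a x = x)]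
          rw [← locAct_mul, inv_mul_cancel, locAct_one] }
    exact (sup_le (fun s hs => hx s hs) (Subgroup.zpowers_le.2 hxτ) :
      N ⊔ Subgroup.zpowers τ ≤ St) hs
  -- the first group
  have h0 : Nat.card (EndPair.cyclic E p hE).Coh = ((fixedVal q N ⊓ unitVal q).map (normVal q τ p)).relIndex (FH ⊓ unitVal q) := by
    rw [EndPair.natCard_coh, ← AddSubgroup.relIndex_map_map_of_injective (f := (fixedVal q N ⊓ unitVal q).subtype) _ _
      Subtype.val_injective]
    congr 1
    · ext x
      constructor
      · rintro ⟨y, ⟨z, rfl⟩, rfl⟩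
        exact ⟨z, z.2, (hsnd z).symm⟩
      · rintro ⟨z, hz, rfl⟩
        exact ⟨_, ⟨⟨z, hz⟩, rfl⟩, hsnd ⟨z, hz⟩⟩
    · ext x
      constructor
      · rintro ⟨y, hy, rfl⟩
        exact ⟨hmemFH _ y.2.1 (sub_eq_zero.1 ((hfst y).symm.trans (congrArg Subtype.val hy))),
          y.2.2⟩
      · intro hx
        refine ⟨⟨x, hFHle hx.1, hx.2⟩, Subtype.ext ?_, rfl⟩
        rw [hfst, hx.1 τ (Subgroup.mem_sup_right (Subgroup.mem_zpowers τ)), sub_self]
        rfl
  -- the second group
  let T1 : fixedVal q N →+ LocVal q :=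
    (locAct q τ - AddMonoidHom.id _).comp (fixedVal q N).subtype
  have hT1 : ∀ z : fixedVal q N, T1 z = locAct q τ (z : LocVal q) - z := fun _ => rfl
  have hT1mem : ∀ z : fixedVal q N, T1 z ∈ (fixedVal q N ⊓ unitVal q) ∧ normVal q τ p (T1 z) = 0 := by
    intro z
    rw [hT1]
    refine ⟨⟨(fixedVal q N).sub_mem (fun s hs => ?_) z.2, ?_⟩, ?_⟩
    · rw [← locAct_mul, show s * τ = τ * (τ⁻¹ * s * τ) by group, locAct_mul,
        z.2 _ (h.conj_mem_inv s hs)]
    · refine (mem_unitVal_iff _).2 ?_
      rw [toMul_sub, Units.val_div_eq_div_val, norm_div, coe_locAct, norm_locGal,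
        div_self (norm_locVal_pos _).ne']
    · rw [normVal, AddMonoidHom.finsetSum_apply,
        Finset.sum_congr rfl fun i _ => show locAct q (τ ^ i) (locAct q τ (z : LocVal q) - z)
          = locAct q (τ ^ (i + 1)) (z : LocVal q) - locAct q (τ ^ i) z by
            rw [map_sub, pow_succ, locAct_mul],
        Finset.sum_range_sub (fun i => locAct q (τ ^ i) (z : LocVal q)), pow_zero, locAct_one,
        z.2 _ h.pow_mem, sub_self]
  have h1 : Nat.card (EndPair.cyclic E p hE).swap.Coh
      = ((fixedVal q N ⊓ unitVal q) ⊔ FH).relIndex (fixedVal q N) := by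
    have hstep : ((fixedVal q N ⊓ unitVal q) ⊔ FH).relIndex (fixedVal q N) = (((fixedVal q N ⊓ unitVal q).addSubgroupOf (fixedVal q N)).map T1).relIndex
        ((⊤ : AddSubgroup (fixedVal q N)).map T1) := by
      have hker : T1.ker = FH.addSubgroupOf (fixedVal q N) := by
        ext z
        rw [AddMonoidHom.mem_ker, hT1, sub_eq_zero, AddSubgroup.mem_addSubgroupOf]
        exact ⟨hmemFH _ z.2, fun hz => hz τ (Subgroup.mem_sup_right (Subgroup.mem_zpowers τ))⟩
      rw [AddSubgroup.relIndex_map_map, hker, top_sup_eq, AddSubgroup.relIndex_top_right,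
        ← AddSubgroup.addSubgroupOf_sup inf_le_left hFHle]
      rfl
    rw [hstep, EndPair.natCard_coh, ← AddSubgroup.relIndex_map_map_of_injective (f := (fixedVal q N ⊓ unitVal q).subtype) _ _
      Subtype.val_injective]
    congr 1
    · ext x
      constructor
      · rintro ⟨y, ⟨z, rfl⟩, rfl⟩
        exact ⟨⟨z, z.2.1⟩, z.2, (hfst z).symm⟩
      · rintro ⟨z, hz, rfl⟩
        exact ⟨_, ⟨⟨z, hz⟩, rfl⟩, hfst ⟨z, hz⟩⟩
    · ext x
      constructor
      · rintro ⟨y, hy, rfl⟩
        obtain ⟨z, hz, hze⟩ := h.exists_sub_of_normVal_eq_zero y.2.1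
          ((hsnd y).symm.trans (congrArg Subtype.val hy))
        exact ⟨⟨z, hz⟩, trivial, hze⟩
      · rintro ⟨z, -, rfl⟩
        refine ⟨⟨T1 z, (hT1mem z).1⟩, Subtype.ext ?_, rfl⟩
        rw [EndPair.swap_fst, hsnd]
        exact (hT1mem z).2
  have e := h.relIndex_normVal_units
  have hne := h.relIndex_normVal_units_ne_zero
  rw [← hFH] at e hne
  rw [e] at h0 hne
  refine ⟨⟨by rw [h0]; exact hne, by rw [h1]; exact hne⟩, ?_⟩
  rw [EndPair.herbrand, h0, h1, div_self (Nat.cast_ne_zero.2 hne)]

end Local

section Layer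

/-- The local group on the cosets, on the left. -/
@[reducible] def locCosetAction (q : Nat.Primes) (U : Subgroup GQ) :
    MulAction (LocGal q) (GQ ⧸ U) :=
  MulAction.compHom _ (loc q)

/-- The local group on the local values. -/
@[reducible] def famValAction (q : Nat.Primes) : DistribMulAction (LocGal q) (LocVal q) where
  smul τ x := locAct q τ x
  one_smul := locAct_one
  mul_smul := locAct_mul
  smul_zero _ := map_zero _
  smul_add _ := map_add _

attribute [local instance] locCosetAction famValAction

variable {T : Finset Nat.Primes} {U : Subgroup GQ} {p : ℕ} [Fact p.Prime] {σ : GQ}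
  (h : IsLayer p U σ)

/-- Right translation by the generator on the cosets. -/
def cosetShift : GQ ⧸ U → GQ ⧸ U := rightShift U σ h.conj_mem_inv

theorem cosetShift_mk (g : GQ) : cosetShift h (QuotientGroup.mk g) = QuotientGroup.mk (g * σ) := rfl

theorem cosetShift_iterate_mk (n : ℕ) (g : GQ) :
    (cosetShift h)^[n] (QuotientGroup.mk g) = QuotientGroup.mk (g * σ ^ n) := by
  induction n generalizing g with
  | zero => simp
  | succ n ih =>
    rw [Function.iterate_succ_apply', ih, cosetShift_mk, pow_succ, mul_assoc]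

theorem cosetShift_smul (q : Nat.Primes) (τ : LocGal q) (x : GQ ⧸ U) :
    cosetShift h (τ • x) = τ • cosetShift h x := by
  induction x using QuotientGroup.induction_on with
  | H g => exact congrArg QuotientGroup.mk (mul_assoc (loc q τ) g σ)

theorem cosetShift_iterate_self (x : GQ ⧸ U) : (cosetShift h)^[p] x = x := by
  induction x using QuotientGroup.induction_on with
  | H g =>
    rw [cosetShift_iterate_mk, QuotientGroup.eq]
    simpa using U.inv_mem h.pow_mem

theorem pointVals_mk (q : Nat.Primes) (g : GQ) :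
    pointVals (LocGal q) (unitVal q) (QuotientGroup.mk g : GQ ⧸ U)
      = fixedVal q (locSub q U g) ⊓ unitVal q := by
  have hst : ∀ e : LocGal q,
      e • (QuotientGroup.mk g : GQ ⧸ U) = QuotientGroup.mk g ↔ e ∈ locSub q U g := by
    intro e
    rw [mem_locSub, ← U.inv_mem_iff]
    show (QuotientGroup.mk (loc q e * g) : GQ ⧸ U) = QuotientGroup.mk g ↔ _
    rw [QuotientGroup.eq]
    simp [mul_assoc]
  refine le_antisymm (inf_le_inf (fun x hx e he => hx e ?_) le_rfl)
    (inf_le_inf (fun x hx e he => hx e ?_) le_rfl)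
  · exact (hst e).2 he
  · exact (hst e).1 he

variable {L : IntermediateField ℚ Qb} (hL : IsLvl T L) (hU : L.fixingSubgroup ≤ U)

include hL hU in
/-- The Herbrand quotient of the equivariant families of units at one prime. -/
theorem herbrand_unitFam (q : Nat.Primes) :
    (EndPair.cyclic _ p (famShift_pow_self (D := LocGal q) (P := unitVal q)
        (cosetShift_smul h q) (cosetShift_iterate_self h))).HasHerbrand ∧
      (EndPair.cyclic _ p (famShift_pow_self (D := LocGal q) (P := unitVal q)
        (cosetShift_smul h q) (cosetShift_iterate_self h))).herbrand = 1 := by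
  haveI := hL.unramified.1
  haveI := finite_quotient_of_level hU
  refine herbrand_famShift (cosetShift_smul h q) (cosetShift_iterate_self h)
    (fun τ a ha => locAct_mem_unitVal τ ha) ?_
  intro x τ hτ E hE hEe
  induction x using QuotientGroup.induction_on with
  | H g =>
    have h1 : (g * σ)⁻¹ * (loc q τ * g) ∈ U := QuotientGroup.eq.1 (Eq.symm hτ)
    exact (isCycLayer_locSub hU (Fact.out) h.not_mem h.pow_mem h.conj_mem g h1).herbrand_unitVals
      (pointVals_mk q g) E hE hEe

/-- The generator on the unit ideles of the level. -/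
def unitJShift : AddMonoid.End (unitJ (T := T) U) where
  toFun f := ⟨σ • (f : J T), fun s hs => h.smul_mem_fixed (J T) (fun s hs => f.2.1 s hs) s hs,
    fun q g => f.2.2.1 q (g * σ), fun q g => f.2.2.2 q (g * σ)⟩
  map_zero' := Subtype.ext (smul_zero σ)
  map_add' _ _ := Subtype.ext (smul_add σ _ _)

theorem coe_unitJShift_pow (i : ℕ) (f : unitJ (T := T) U) :
    (((unitJShift h ^ i) f : unitJ (T := T) U) : J T) = σ ^ i • (f : J T) := by
  induction i generalizing f with
  | zero => exact (one_smul GQ (f : J T)).symm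
  | succ i ih =>
    rw [pow_succ, pow_succ, mul_smul]
    exact ih _

theorem unitJShift_pow_self : unitJShift (T := T) h ^ p = 1 :=
  AddMonoidHom.ext fun f =>
    Subtype.ext ((coe_unitJShift_pow h p f).trans (f.2.1 _ h.pow_mem))

include hL hU in
/-- The unit ideles of a layer have trivial Herbrand quotient. -/
theorem herbrand_unitJ :
    (EndPair.cyclic _ p (unitJShift_pow_self (T := T) h)).HasHerbrand ∧
      (EndPair.cyclic _ p (unitJShift_pow_self (T := T) h)).herbrand = 1 := by
  classical
  have hout : ∀ (f : unitJ (T := T) U) (q : ↥T) (g : GQ),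
      ((f : J T) : Amb T).fin q (QuotientGroup.mk g : GQ ⧸ U).out = ((f : J T) : Amb T).fin q g := by
    intro f q g
    obtain ⟨u, hu⟩ := QuotientGroup.mk_out_eq_mul U g
    rw [hu, fin_apply_mul f.2.1 q g u.2]
  let toFam : unitJ (T := T) U →+ ∀ q : ↥T, famIn (LocGal q.1) (GQ ⧸ U) (unitVal q.1) :=
    { toFun := fun f q => ⟨fun x => ((f : J T) : Amb T).fin q x.out, fun τ x => by
        induction x using QuotientGroup.induction_on with
        | H g =>
          show ((f : J T) : Amb T).fin q (QuotientGroup.mk (loc q.1 τ * g) : GQ ⧸ U).out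
            = locAct q.1 τ (((f : J T) : Amb T).fin q (QuotientGroup.mk g : GQ ⧸ U).out)
          rw [hout, hout, (f : J T).2.1 q τ g],
        fun x => f.2.2.2 q _⟩
      map_zero' := rfl
      map_add' := fun _ _ => rfl }
  have hbij : Function.Bijective toFam := by
    refine ⟨(injective_iff_map_eq_zero _).2 fun f hf => Subtype.ext (Subtype.ext
      (Amb.ext (fun q g => ?_) fun q g => f.2.2.1 q g)), fun F => ?_⟩
    · rw [← hout]
      exact congrFun (congrArg Subtype.val (congrFun hf q)) (QuotientGroup.mk g)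
    · let a : Amb T := (fun q g => (F q : GQ ⧸ U → LocVal q.1) (QuotientGroup.mk g), fun _ _ => 0)
      have hfix : ∀ s ∈ U, s • a = a := fun s hs => Amb.ext (fun q g => by
        show (F q : GQ ⧸ U → LocVal q.1) (QuotientGroup.mk (g * s)) = _
        rw [(QuotientGroup.eq.2 (by simpa using U.inv_mem hs) :
          (QuotientGroup.mk (g * s) : GQ ⧸ U) = QuotientGroup.mk g)]
        rfl) fun _ _ => rfl
      have ha : a ∈ J T := ⟨fun q τ g => (F q).2.1 τ (QuotientGroup.mk g), fun _ _ _ => rfl,
        ⟨L, hL, fun s hs => hfix s (hU hs)⟩, by simp [a, Amb.ord]⟩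
      refine ⟨⟨⟨a, ha⟩, fun s hs => Subtype.ext (hfix s hs), fun _ _ => rfl,
        fun q g => (F q).2.2 _⟩, funext fun q => Subtype.ext (funext fun x => ?_)⟩
      induction x using QuotientGroup.induction_on with
      | H g =>
        exact congrArg (F q : GQ ⧸ U → LocVal q.1) (QuotientGroup.out_eq' (QuotientGroup.mk g))
  let R : ∀ q : ↥T, EndPair (famIn (LocGal q.1) (GQ ⧸ U) (unitVal q.1)) := fun q =>
    EndPair.cyclic _ p (famShift_pow_self (D := LocGal q.1) (P := unitVal q.1)
      (cosetShift_smul h q.1) (cosetShift_iterate_self h))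
  let u : ∀ q : ↥T, EndPair.Hom (EndPair.cyclic _ p (unitJShift_pow_self (T := T) h)) (R q) :=
    fun q => EndPair.Hom.ofEquivariant _ _ ((Pi.evalAddMonoidHom _ q).comp toFam) fun f =>
      Subtype.ext (funext fun x => by
        induction x using QuotientGroup.induction_on with
        | H g =>
          show ((unitJShift h f : J T) : Amb T).fin q (QuotientGroup.mk g : GQ ⧸ U).out
            = ((f : J T) : Amb T).fin q (QuotientGroup.mk (g * σ) : GQ ⧸ U).out
          rw [hout, hout]
          rfl)
  let v : EndPair.Hom (EndPair.cyclic _ p (unitJShift_pow_self (T := T) h)) (EndPair.pi R) :=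
    ⟨toFam, fun f => funext fun q => (u q).comm_fst f, fun f => funext fun q => (u q).comm_snd f⟩
  refine ⟨(v.hasHerbrand_iff hbij).2
    (EndPair.pi_hasHerbrand R fun q => (herbrand_unitFam h hL hU q.1).1), ?_⟩
  rw [v.herbrand_eq_of_bijective hbij, EndPair.herbrand_pi]
  exact Finset.prod_eq_one fun q _ => (herbrand_unitFam h hL hU q.1).2

end Layer

end Fermat.Agent.PoitouTate
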