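/-
An algebraic number which is integral along every embedding is an algebraic integer.
-/
import Fermat.Agent.PoitouTate.IdelePlace
import Fermat.Agent.PoitouTate.GlobalLocalConj

set_option autoImplicit false

noncomputable section

namespace Fermat.Agent.PoitouTate

open Polynomial

local notation "Qb" => AlgebraicClosure ℚ

theorem den_eq_one_of_forall_norm_le_one (r : ℚ)
    (h : ∀ q : Nat.Primes, ‖padicEmbedding (q : ℕ) (r : Qb)‖ ≤ 1) : r.den = 1 := by
  by_contra hne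
  obtain ⟨q, hq, hqd⟩ := Nat.exists_prime_and_dvd hne
  have hfact : Fact q.Prime := ⟨hq⟩
  have h1 : ‖((r.den : ℤ) : ℚ_[q])‖ < 1 :=
    Padic.norm_intCast_lt_one_iff.2 (Int.natCast_dvd_natCast.2 hqd)
  have h2 : ¬ ‖((r.num : ℤ) : ℚ_[q])‖ < 1 := fun hlt =>
    hq.one_lt.ne' (Nat.Coprime.eq_one_of_dvd
      (Nat.Coprime.coprime_dvd_left hqd r.reduced.symm)
      (Int.natCast_dvd.1 (Padic.norm_intCast_lt_one_iff.1 hlt)))
  have h3 : ‖(r : ℚ_[q])‖ ≤ 1 := by
    have := h ⟨q, hq⟩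
    rw [padicEmbedding_ratCast, norm_algebraMap'] at this
    exact this
  refine h2 ?_
  have he : ((r.num : ℤ) : ℚ_[q]) = (r : ℚ_[q]) * ((r.den : ℤ) : ℚ_[q]) := by
    have := congrArg (fun t : ℚ => (t : ℚ_[q])) (Rat.mul_den_eq_num r)
    push_cast at this ⊢
    exact this.symm
  rw [he, norm_mul]
  exact lt_of_le_of_lt (mul_le_of_le_one_left (norm_nonneg _) h3) h1

/-- Integrality is detected by the embeddings. -/
theorem isIntegral_of_forall_norm_le_one {x : Qb}
    (h : ∀ (q : Nat.Primes) (g : GQ), ‖padicEmbedding (q : ℕ) (g x)‖ ≤ 1) : IsIntegral ℤ x := by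
  have hx : IsIntegral ℚ x := Algebra.IsIntegral.isIntegral x
  have hsplit : ((minpoly ℚ x).map (algebraMap ℚ Qb)).Splits := IsAlgClosed.splits _
  have hmonic : ((minpoly ℚ x).map (algebraMap ℚ Qb)).Monic := (minpoly.monic hx).map _
  have hcoeff : ∀ (q : Nat.Primes) (n : ℕ),
      ‖padicEmbedding (q : ℕ) (((minpoly ℚ x).coeff n : ℚ) : Qb)‖ ≤ 1 := by
    intro q n
    let O : Subring Qb := (padicPlace (q : ℕ)).toSubring
    have hO : ∀ y : Qb, y ∈ O → ‖padicEmbedding (q : ℕ) y‖ ≤ 1 := fun y hy => by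
      exact_mod_cast (mem_padicPlace_iff (q : ℕ)).1 hy
    have hO' : ∀ y : Qb, ‖padicEmbedding (q : ℕ) y‖ ≤ 1 → y ∈ O := fun y hy =>
      (mem_padicPlace_iff (q : ℕ)).2 (by exact_mod_cast hy)
    have hmem : (minpoly ℚ x).map (algebraMap ℚ Qb) ∈ liftsRing O.subtype := by
      rw [hsplit.eq_prod_roots_of_monic hmonic]
      refine Subring.multiset_prod_mem _ _ fun f hf => ?_
      obtain ⟨r, hr, rfl⟩ := Multiset.mem_map.1 hf
      have hroot : aeval r (minpoly ℚ x) = 0 := by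
        rw [aeval_def, ← eval_map]
        exact ((mem_roots hmonic.ne_zero).1 hr).eq_zero
      obtain ⟨σ, hσ⟩ := minpoly.exists_algEquiv_of_root' hx.isAlgebraic hroot
      refine ⟨X - C ⟨r, hO' r (hσ ▸ h q σ)⟩, ?_⟩
      simp [Polynomial.map_sub, O]
    obtain ⟨f, hf⟩ := hmem
    have h2 := congrArg (fun P => P.coeff n) hf
    simp only [coe_mapRingHom, coeff_map, Subring.subtype_apply, eq_ratCast] at h2
    rw [← h2]
    exact hO _ (f.coeff n).2
  have hlift : minpoly ℚ x ∈ lifts (Int.castRingHom ℚ) := by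
    rw [lifts_iff_coeff_lifts]
    exact fun n => ⟨((minpoly ℚ x).coeff n).num,
      Rat.den_eq_one_iff _ |>.1 (den_eq_one_of_forall_norm_le_one _ fun q => hcoeff q n)⟩
  obtain ⟨f, hf, -, hfm⟩ := lifts_and_natDegree_eq_and_monic hlift (minpoly.monic hx)
  refine ⟨f, hfm, ?_⟩
  have h3 := minpoly.aeval ℚ x
  rw [← hf, aeval_def, eval₂_map] at h3
  rwa [RingHom.ext_int ((algebraMap ℚ Qb).comp (Int.castRingHom ℚ)) (algebraMap ℤ Qb)] at h3

end Fermat.Agent.PoitouTate
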