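/-
The Herbrand quotient of the idele classes of a cyclic layer of degree `p` over a base containing
`μ_p` is `p`.
-/
import Fermat.Agent.PoitouTate.IdeleFam
import Fermat.Agent.PoitouTate.IdeleBaseField
import Fermat.Agent.PoitouTate.IdeleIntegral

set_option autoImplicit false
set_option linter.style.haveILetI false

noncomputable section

namespace Fermat.Agent.PoitouTate

open NumberField

local notation "Qb" => AlgebraicClosure ℚ

variable {T : Finset Nat.Primes} {L : IntermediateField ℚ Qb} (hL : IsLvl T L)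
  {U : Subgroup GQ} (hU : L.fixingSubgroup ≤ U) {p : ℕ} [Fact p.Prime] {σ : GQ}

include hL hU in
/-- The embedding of the units of a level into the unit ideles. -/
theorem exists_unitsToUnitJ (hT : T.Nonempty) :
    ∃ φ : Additive (𝓞 (IntermediateField.fixedField U))ˣ →+ unitJ (T := T) U,
      Function.Injective φ ∧
      (∀ u, IsPrincipalOf ((φ u : J T) : Amb T)
        (((u.toMul : (𝓞 (IntermediateField.fixedField U))ˣ) : IntermediateField.fixedField U) : Qb)) ∧
      ∀ f : unitJ (T := T) U, clsMk T (f : J T) = 0 ↔ ∃ u, φ u = f := by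
  haveI := numberField_fixedField hL hU
  let ι : Additive (𝓞 (IntermediateField.fixedField U))ˣ → Qb := fun u =>
    (((u.toMul : (𝓞 (IntermediateField.fixedField U))ˣ) : IntermediateField.fixedField U) : Qb)
  have hιmem : ∀ u, ι u ∈ IntermediateField.fixedField U := fun u => SetLike.coe_mem _
  have hι0 : ∀ u, ι u ≠ 0 := fun u => by simp [ι]
  have hι : ∀ u v, ι (u + v) = ι u * ι v := fun u v => by simp [ι]
  have hnorm : ∀ u (q : Nat.Primes) (g : GQ), ‖padicEmbedding (q : ℕ) (g (ι u))‖ = 1 := by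
    intro u q g
    have h1 : ∀ v, ‖padicEmbedding (q : ℕ) (g (ι v))‖ ≤ 1 := fun v =>
      norm_coe_le_one q g (IntermediateField.fixedField U)
        ((v.toMul : (𝓞 (IntermediateField.fixedField U))ˣ) : 𝓞 (IntermediateField.fixedField U))
    have h2 : ι u * ι (-u) = 1 := by
      rw [← hι, add_neg_cancel]
      simp [ι]
    have h3 := congrArg (fun t => ‖padicEmbedding (q : ℕ) (g t)‖) h2
    simp only [map_mul, map_one, norm_mul, norm_one] at h3
    refine le_antisymm (h1 u) ?_
    rw [← h3]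
    exact mul_le_of_le_one_right (norm_nonneg _) (h1 (-u))
  have hex : ∀ u, ∃ f : unitJ (T := T) U, IsPrincipalOf ((f : J T) : Amb T) (ι u) := by
    intro u
    obtain ⟨P, hP, -, hfix⟩ := exists_principal hL (fixedField_le_level hL hU (hιmem u)) (hι0 u)
    refine ⟨⟨P, fun s hs => hfix s (apply_eq_self_of_mem (hιmem u) hs), fun q g => ?_, fun q g => ?_⟩, hP⟩
    · refine ord_eq_of_zpow_eq (q := q.1) ?_
      rw [← hP.ord_eq, hnorm, neg_zero, zpow_zero]
    · rw [mem_unitVal_iff, hP.fin_eq, hnorm]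
  choose φ₀ hφ₀ using hex
  let φ : Additive (𝓞 (IntermediateField.fixedField U))ˣ →+ unitJ (T := T) U :=
    AddMonoidHom.mk' φ₀ fun u v => Subtype.ext (Subtype.ext ((hι u v ▸ hφ₀ (u + v)).eq
      ((hφ₀ u).add (hφ₀ v))))
  refine ⟨φ, fun u v huv => units_ext (Subtype.ext ?_), hφ₀, fun f => ⟨fun hf => ?_, ?_⟩⟩
  · have huv' : φ₀ u = φ₀ v := huv
    exact (huv' ▸ hφ₀ u).elem_eq hT (hφ₀ v)
  · obtain ⟨x, hx⟩ := (clsMk_eq_zero_iff T).1 hf
    have hxK : x ∈ IntermediateField.fixedField U := (IntermediateField.mem_fixedField_iff _ _).2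
      fun s hs => hx.apply_eq_self hT (congrArg Subtype.val (f.2.1 s hs))
    have hone : ∀ (q : Nat.Primes) (g : GQ), ‖padicEmbedding (q : ℕ) (g x)‖ = 1 := by
      intro q g
      by_cases hq : q ∈ T
      · rw [← hx.fin_eq ⟨q, hq⟩ g]
        exact (mem_unitVal_iff _).1 (f.2.2.2 ⟨q, hq⟩ g)
      · rw [hx.ord_eq ⟨q, hq⟩ g, f.2.2.1, neg_zero, zpow_zero]
    have hint : ∀ y : IntermediateField.fixedField U, IsIntegral ℤ (y : Qb) → IsIntegral ℤ y :=
      fun y hy => (isIntegral_algHom_iff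
        ((IntermediateField.fixedField U).val.restrictScalars ℤ) Subtype.val_injective).1 hy
    have hx0 : (⟨x, hxK⟩ : IntermediateField.fixedField U) ≠ 0 := fun h0 =>
      hx.ne_zero (congrArg Subtype.val h0)
    let a : 𝓞 (IntermediateField.fixedField U) :=
      ⟨⟨x, hxK⟩, hint _ (isIntegral_of_forall_norm_le_one fun q g => (hone q g).le)⟩
    let b : 𝓞 (IntermediateField.fixedField U) :=
      ⟨(⟨x, hxK⟩ : IntermediateField.fixedField U)⁻¹, hint _
        (isIntegral_of_forall_norm_le_one fun q g => le_of_eq (by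
          show ‖padicEmbedding (q : ℕ) (g x⁻¹)‖ = 1
          rw [map_inv₀, map_inv₀, norm_inv, hone, inv_one]))⟩
    refine ⟨Additive.ofMul ⟨a, b, ?_, ?_⟩, Subtype.ext (Subtype.ext ((hφ₀ _).eq hx))⟩
    · exact RingOfIntegers.coe_injective (mul_inv_cancel₀ hx0)
    · exact RingOfIntegers.coe_injective (inv_mul_cancel₀ hx0)
  · rintro ⟨u, rfl⟩
    exact (clsMk_eq_zero_iff T).2 ⟨_, hφ₀ u⟩

variable (T) in
/-- The class of a unit idele, in the classes of the level. -/
def unitClsMap (U : Subgroup GQ) : unitJ (T := T) U →+ ↥(fixedPts U (Cls T)) :=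
  ((clsMk T).comp (unitJ U).subtype).codRestrict _ fun f s hs => by
    show s • clsMk T (f : J T) = clsMk T (f : J T)
    rw [smul_clsMk, f.2.1 s hs]

include hL hU in
/-- Up to a finite index the classes of a level come from unit ideles. -/
theorem finite_quotient_range_unitClsMap (hT : T.Nonempty) :
    Finite (↥(fixedPts U (Cls T)) ⧸ (unitClsMap T U).range) := by
  let π : fixedPts U (J T) →+ ↥(fixedPts U (Cls T)) :=
    ((clsMk T).comp (fixedPts U (J T)).subtype).codRestrict _ fun f s hs => by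
      show s • clsMk T (f : J T) = clsMk T (f : J T)
      rw [smul_clsMk, f.2 s hs]
  have hle : (unitJ U ⊔ prinLev U).addSubgroupOf (fixedPts U (J T))
      ≤ (unitClsMap T U).range.comap π := by
    intro f hf
    obtain ⟨a, ha, b, hb, hab⟩ := AddSubgroup.mem_sup.1 (AddSubgroup.mem_addSubgroupOf.1 hf)
    refine ⟨⟨a, ha⟩, Subtype.ext ?_⟩
    show clsMk T a = clsMk T (f : J T)
    rw [← hab, map_add, (clsMk_eq_zero_iff T).2 hb.2, add_zero]
  haveI := finite_quotient_unitJ_sup_prinLev hL hU (T := T)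
  refine Finite.of_surjective (QuotientAddGroup.map _ _ π hle) fun y => ?_
  obtain ⟨c, rfl⟩ := QuotientAddGroup.mk_surjective y
  obtain ⟨f, hf, hfc⟩ := levelRepresentatives hT L hL U hU c c.2
  exact ⟨QuotientAddGroup.mk ⟨f, hf⟩, congrArg QuotientAddGroup.mk (Subtype.ext hfc)⟩

include hL hU in
/-- **The Herbrand quotient of the idele classes.** -/
theorem herbrand_clsLev (hp : 2 < p) (hT : T.Nonempty) (h : IsLayer p U σ)
    (hcyc : ∀ s ∈ U, ExtCitation.cycloChar p s = 1) (hcycσ : ExtCitation.cycloChar p σ = 1) :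
    (layerPair h (Cls T)).HasHerbrand ∧ (layerPair h (Cls T)).herbrand = p := by
  classical
  letI := baseAlgebra U σ
  haveI := numberField_fixedField hL hU
  have hU' : L.fixingSubgroup ≤ U ⊔ Subgroup.zpowers σ := hU.trans le_sup_left
  haveI := numberField_fixedField hL hU'
  have hcyc' : ∀ s ∈ U ⊔ Subgroup.zpowers σ, ExtCitation.cycloChar p s = 1 := fun s hs =>
    (sup_le hcyc (Subgroup.zpowers_le.2 hcycσ) :
      U ⊔ Subgroup.zpowers σ ≤ (ExtCitation.cycloChar p).ker) hs
  haveI := isTotallyComplex_fixedField hL hU' hp hcyc'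
  obtain ⟨e, he, he1, hep, hgal, hdeg⟩ := exists_layerAut hL hU h
  obtain ⟨hu, hu'⟩ := herbrand_units (Fact.out) hdeg he1 hep
  obtain ⟨hj, hj'⟩ := herbrand_unitJ h hL hU
  obtain ⟨φ, hφinj, hφ, hker⟩ := exists_unitsToUnitJ hL hU hT
  let uI : EndPair.Hom (EndPair.cyclic (unitsEnd e) p (unitsEnd_pow_eq_one hep))
      (EndPair.cyclic _ p (unitJShift_pow_self (T := T) h)) :=
    EndPair.Hom.ofEquivariant _ _ φ fun u => Subtype.ext (Subtype.ext (by
      refine (hφ _).eq ?_
      show IsPrincipalOf (σ • ((φ u : J T) : Amb T)) _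
      rw [coe_unitsEnd, he]
      exact (hφ u).smul σ))
  let uC : EndPair.Hom (EndPair.cyclic _ p (unitJShift_pow_self (T := T) h)) (layerPair h (Cls T)) :=
    EndPair.Hom.ofEquivariant _ _ (unitClsMap T U) fun f => Subtype.ext (smul_clsMk T σ (f : J T)).symm
  have i₁ : ∀ x ∈ uC.toHom.range, (layerPair h (Cls T)).fst x ∈ uC.toHom.range := by
    rintro _ ⟨y, rfl⟩; exact ⟨_, uC.comm_fst y⟩
  have i₂ : ∀ x ∈ uC.toHom.range, (layerPair h (Cls T)).snd x ∈ uC.toHom.range := by
    rintro _ ⟨y, rfl⟩; exact ⟨_, uC.comm_snd y⟩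
  let E : EndPair.ShortExact (EndPair.cyclic (unitsEnd e) p (unitsEnd_pow_eq_one hep))
      (EndPair.cyclic _ p (unitJShift_pow_self (T := T) h))
      ((layerPair h (Cls T)).restrict _ i₁ i₂) :=
    { inl := uI
      prj := ⟨uC.toHom.rangeRestrict, fun x => Subtype.ext (uC.comm_fst x),
        fun x => Subtype.ext (uC.comm_snd x)⟩
      inj := hφinj
      surj := uC.toHom.rangeRestrict_surjective
      exact := fun f => ⟨fun hf => (hker f).1
          (congrArg (fun c : uC.toHom.range => ((c : ↥(fixedPts U (Cls T))) : Cls T)) hf),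
        fun hf => Subtype.ext (Subtype.ext ((hker f).2 hf))⟩ }
  have hR := E.hasHerbrand_right hu hj
  have hR' := E.herbrand_mid hu hR
  haveI : Finite (↥(fixedPts U (Cls T)) ⧸ uC.toHom.range) :=
    finite_quotient_range_unitClsMap hL hU hT
  let E' := (layerPair h (Cls T)).shortExactQuotient _ i₁ i₂
  have hC := EndPair.hasHerbrand_of_finite ((layerPair h (Cls T)).quotient _ i₁ i₂)
  refine ⟨E'.hasHerbrand_mid hR hC, ?_⟩
  rw [E'.herbrand_mid hR hC, EndPair.herbrand_of_finite ((layerPair h (Cls T)).quotient _ i₁ i₂),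
    mul_one]
  rw [hj'] at hR'
  calc ((layerPair h (Cls T)).restrict _ i₁ i₂).herbrand
      = (EndPair.cyclic (unitsEnd e) p (unitsEnd_pow_eq_one hep)).herbrand * p *
          ((layerPair h (Cls T)).restrict _ i₁ i₂).herbrand := by rw [hu', one_mul]
    _ = (p : ℚ) := by rw [mul_right_comm, ← hR', one_mul]

end Fermat.Agent.PoitouTate
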