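/-
The ideles of a level supported at `T`, as a product over the places of the level above `T`: their
valuations, and the index of their `p`-th multiples.
-/
import Fermat.Agent.PoitouTate.IdeleFam
import Fermat.Agent.PoitouTate.IdeleBaseField
import Fermat.Prelude.Def_ExtEndgame_ProductionDatum

set_option autoImplicit false
set_option linter.style.haveILetI false
set_option synthInstance.maxHeartbeats 200000
set_option maxHeartbeats 400000

noncomputable section

namespace Fermat.Agent.PoitouTate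

local notation "Qb" => AlgebraicClosure ℚ

section Mul

/-- Multiplication by `p`, as a pair. -/
def mulPair (p : ℕ) (A : Type*) [AddCommGroup A] : EndPair A where
  fst := 0
  snd := nsmulAddMonoidHom p
  fst_snd _ := rfl
  snd_fst _ := map_zero _

variable {p : ℕ} {A B : Type*} [AddCommGroup A] [AddCommGroup B]

theorem mulPair_snd (x : A) : (mulPair p A).snd x = p • x := rfl

theorem mulPair_fst (x : A) : (mulPair p A).fst x = 0 := rfl

/-- Every homomorphism is a morphism of multiplication pairs. -/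
def mulHom (p : ℕ) (f : A →+ B) : EndPair.Hom (mulPair p A) (mulPair p B) :=
  ⟨f, fun _ => map_zero f, fun x => map_nsmul f p x⟩

theorem natCard_mulPair_coh :
    Nat.card (mulPair p A).Coh = (nsmulAddMonoidHom (α := A) p).range.index := by
  rw [EndPair.natCard_coh, show (mulPair p A).cycles = ⊤ from eq_top_iff.2 fun x _ => rfl,
    AddSubgroup.relIndex_top_right]
  rfl

theorem natCard_mulPair_swap :
    Nat.card (mulPair p A).swap.Coh = Nat.card (nsmulAddMonoidHom (α := A) p).ker := by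
  rw [EndPair.natCard_coh, show (mulPair p A).swap.bounds = ⊥ from ?_,
    AddSubgroup.relIndex_bot_left]
  · rfl
  · rw [eq_bot_iff]
    rintro x ⟨y, rfl⟩
    rfl

theorem natCard_mulPair_coh_addSubgroup (H : AddSubgroup A) :
    Nat.card (mulPair p H).Coh = (H.map (nsmulAddMonoidHom p)).relIndex H := by
  rw [natCard_mulPair_coh, ← AddSubgroup.relIndex_top_right, ← AddSubgroup.relIndex_map_map_of_injective
    (f := H.subtype) _ _ Subtype.val_injective]
  congr 1
  · ext x
    constructor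
    · rintro ⟨y, ⟨z, rfl⟩, rfl⟩
      exact ⟨z, z.2, (map_nsmul H.subtype p z).symm⟩
    · rintro ⟨z, hz, rfl⟩
      exact ⟨_, ⟨⟨z, hz⟩, rfl⟩, map_nsmul H.subtype p ⟨z, hz⟩⟩
  · rw [← AddMonoidHom.range_eq_map, AddSubgroup.range_subtype]

/-- A homomorphism onto `B` multiplies the Herbrand quotients. -/
theorem herbrand_mulPair_of_surjective (f : A →+ B) (hf : Function.Surjective f)
    {C : AddSubgroup A} (hC : ∀ x, f x = 0 ↔ x ∈ C) (hA : (mulPair p C).HasHerbrand)
    (hB : (mulPair p B).HasHerbrand) :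
    (mulPair p A).HasHerbrand ∧
      (mulPair p A).herbrand = (mulPair p C).herbrand * (mulPair p B).herbrand := by
  let E : EndPair.ShortExact (mulPair p C) (mulPair p A) (mulPair p B) :=
    { inl := mulHom p C.subtype
      prj := mulHom p f
      inj := Subtype.val_injective
      surj := hf
      exact := fun x => ⟨fun hx => ⟨⟨x, (hC x).1 hx⟩, rfl⟩,
        fun ⟨a, ha⟩ => (hC x).2 (ha ▸ a.2)⟩ }
  exact ⟨E.hasHerbrand_mid hA hB, E.herbrand_mid hA hB⟩

end Mul

section OneLocal

attribute [local instance] Units.mulDistribMulActionRight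

variable {q : Nat.Primes}

/-- The normalised valuation of a local level. -/
theorem exists_valueHom_fixedVal {H : Subgroup (LocGal q)} (hH : IsLocLevel H) :
    ∃ v : fixedVal q H →+ ℤ, Function.Surjective v ∧
      ∀ x, v x = 0 ↔ (x : LocVal q) ∈ unitVal q := by
  haveI := hH.finiteDimensional
  haveI : ProperSpace (locField q H) := FiniteDimensional.proper ℚ_[(q : ℕ)] _
  obtain ⟨e, he, hker⟩ := exists_valueHom (locField q H)
  have hmem : ∀ x : fixedVal q H, ∃ y : Additive (locField q H)ˣ, valEmb _ y = (x : LocVal q) :=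
    fun x => by
      obtain ⟨y, -, hy⟩ := (valSub_top H).ge x.2
      exact ⟨y, hy⟩
  choose κ hκ using hmem
  let v : fixedVal q H →+ ℤ :=
    AddMonoidHom.mk' (fun x => Multiplicative.toAdd (e (Additive.toMul (κ x)))) fun x y => by
      rw [← toAdd_mul, ← map_mul, ← toMul_add]
      congr 3
      refine valEmb_injective _ ?_
      rw [map_add, hκ, hκ, hκ]
      rfl
  refine ⟨v, fun m => ?_, fun x => ?_⟩
  · obtain ⟨y, hy⟩ := he (Multiplicative.ofAdd m)
    refine ⟨⟨valEmb _ (Additive.ofMul y), (valSub_top H).le ⟨_, trivial, rfl⟩⟩, ?_⟩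
    show Multiplicative.toAdd (e (Additive.toMul (κ _))) = m
    rw [show κ (⟨valEmb _ (Additive.ofMul y), _⟩ : fixedVal q H) = Additive.ofMul y from
      valEmb_injective _ (hκ _), toMul_ofMul, hy, toAdd_ofAdd]
  · show Multiplicative.toAdd (e (Additive.toMul (κ x))) = 0 ↔ _
    rw [toAdd_eq_zero, ← MonoidHom.mem_ker, hker, ← hκ x]
    rfl

variable {p : ℕ} [hp : Fact p.Prime]

theorem natCard_ker_nsmul_fixedVal {H : Subgroup (LocGal q)} {ζ : PadicAlgCl (q : ℕ)}
    (hζ : IsPrimitiveRoot ζ p) (hfix : ∀ τ ∈ H, τ ζ = ζ) {B : AddSubgroup (LocVal q)}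
    (hB : B ≤ fixedVal q H) (hζB : ∀ x : LocVal q, p • x = 0 → x ∈ fixedVal q H → x ∈ B) :
    Nat.card (nsmulAddMonoidHom (α := B) p).ker = p := by
  haveI : NeZero p := ⟨hp.out.ne_zero⟩
  have hmem : ∀ x : LocVal q, p • x = 0 → x ∈ fixedVal q H := by
    intro x hx τ hτ
    refine locVal_ext ?_
    rw [coe_locAct]
    have h1 : ((Additive.toMul x : (PadicAlgCl (q : ℕ))ˣ) : PadicAlgCl (q : ℕ)) ^ p = 1 := by
      rw [← Units.val_pow_eq_pow_val, ← toMul_nsmul, hx]; rfl
    obtain ⟨i, -, hi⟩ := hζ.eq_pow_of_pow_eq_one h1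
    rw [← hi, map_pow, hfix τ hτ]
  have e : (nsmulAddMonoidHom (α := B) p).ker ≃ rootsOfUnity p (PadicAlgCl (q : ℕ)) :=
    { toFun := fun x => ⟨Additive.toMul ((x : B) : LocVal q), by
        rw [mem_rootsOfUnity, ← toMul_nsmul]
        exact congrArg (fun b : B => Additive.toMul (b : LocVal q)) (x : _).2⟩
      invFun := fun u => ⟨⟨Additive.ofMul (u : (PadicAlgCl (q : ℕ))ˣ), hζB _ (by
        rw [← ofMul_pow, (mem_rootsOfUnity _ _).1 u.2]; rfl) (hmem _ (by
        rw [← ofMul_pow, (mem_rootsOfUnity _ _).1 u.2]; rfl))⟩, Subtype.ext (by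
        show p • Additive.ofMul (u : (PadicAlgCl (q : ℕ))ˣ) = 0
        rw [← ofMul_pow, (mem_rootsOfUnity _ _).1 u.2]; rfl)⟩
      left_inv := fun _ => rfl
      right_inv := fun _ => rfl }
  rw [Nat.card_congr e, hζ.card_rootsOfUnity]

/-- The index of the `p`-th powers in the units of a place of degree one prime to `p`. -/
theorem natCard_units_mod_pow {ζ : PadicAlgCl (q : ℕ)} (hζ : IsPrimitiveRoot ζ p) (hqp : p ≠ (q : ℕ))
    (hfix : ∀ τ : LocGal q, τ ζ = ζ) :
    Nat.card (mulPair p (fixedVal q ⊤ ⊓ unitVal q : AddSubgroup (LocVal q))).Coh = p ∧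
    Nat.card (mulPair p (fixedVal q ⊤ ⊓ unitVal q : AddSubgroup (LocVal q))).swap.Coh = p := by
  have htop : IsLocLevel (⊤ : Subgroup (LocGal q)) := ⟨⊥, inferInstance, le_top⟩
  obtain ⟨v, hv, hker⟩ := exists_valueHom_fixedVal htop
  have h1 := relIndex_nsmul_fixedVal htop hp.out hζ (fun τ _ => hfix τ)
  rw [if_neg hqp, mul_one] at h1
  have hF0 : Nat.card (mulPair p (fixedVal q (⊤ : Subgroup (LocGal q)))).Coh = p ^ 2 :=
    (natCard_mulPair_coh_addSubgroup _).trans h1
  have hU1 : Nat.card (mulPair p (fixedVal q ⊤ ⊓ unitVal q : AddSubgroup (LocVal q))).swap.Coh = p := by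
    rw [natCard_mulPair_swap]
    refine natCard_ker_nsmul_fixedVal hζ (fun τ _ => hfix τ) inf_le_left fun x hx hxF => ⟨hxF, ?_⟩
    refine (mem_unitVal_iff _).2 ((pow_eq_one_iff_of_nonneg (norm_nonneg _) hp.out.ne_zero).1 ?_)
    rw [← norm_pow, ← Units.val_pow_eq_pow_val, ← toMul_nsmul, hx]
    simp
  let C : AddSubgroup (fixedVal q (⊤ : Subgroup (LocGal q))) :=
    (unitVal q).addSubgroupOf _
  let f : C →+ (fixedVal q ⊤ ⊓ unitVal q : AddSubgroup (LocVal q)) :=
    ((fixedVal q (⊤ : Subgroup (LocGal q))).subtype.comp C.subtype).codRestrict _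
      fun x => ⟨x.1.2, x.2⟩
  have hf : Function.Bijective f :=
    ⟨fun a b hab => Subtype.ext (Subtype.ext (congrArg
        (fun z : (fixedVal q ⊤ ⊓ unitVal q : AddSubgroup (LocVal q)) => (z : LocVal q)) hab)),
      fun y => ⟨⟨⟨y, y.2.1⟩, y.2.2⟩, rfl⟩⟩
  obtain ⟨hZ0, hZ1⟩ := herbrand_trivial (mulPair p ℤ) hp.out.ne_zero (fun _ => rfl) (fun _ => rfl)
  rw [Module.finrank_self, pow_one] at hZ1
  have hU0 : Nat.card (mulPair p (fixedVal q ⊤ ⊓ unitVal q : AddSubgroup (LocVal q))).Coh ≠ 0 := by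
    intro h0
    -- the exact sequence bounds the units by the values and the torsion of `ℤ`
    let E : EndPair.ShortExact (mulPair p C) (mulPair p (fixedVal q (⊤ : Subgroup (LocGal q))))
        (mulPair p ℤ) :=
      { inl := mulHom p C.subtype
        prj := mulHom p v
        inj := Subtype.val_injective
        surj := hv
        exact := fun x => ⟨fun hx => ⟨⟨x, (hker x).1 hx⟩, rfl⟩,
          fun ⟨a, ha⟩ => (hker x).2 (ha ▸ a.2)⟩ }
    have hF1 : Nat.card (mulPair p (fixedVal q (⊤ : Subgroup (LocGal q)))).swap.Coh = p := by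
      rw [natCard_mulPair_swap]
      exact natCard_ker_nsmul_fixedVal hζ (fun τ _ => hfix τ) le_rfl fun x _ hx => hx
    have hC := E.hasHerbrand_left ⟨by rw [hF0]; exact pow_ne_zero _ hp.out.ne_zero,
      by rw [hF1]; exact hp.out.ne_zero⟩ hZ0
    exact hC.1 (((mulHom p f).natCard_eq hf).1.trans h0)
  refine ⟨?_, hU1⟩
  have hUh : (mulPair p (fixedVal q ⊤ ⊓ unitVal q : AddSubgroup (LocVal q))).HasHerbrand :=
    ⟨hU0, by rw [hU1]; exact hp.out.ne_zero⟩
  have hF1 : Nat.card (mulPair p (fixedVal q (⊤ : Subgroup (LocGal q)))).swap.Coh = p := by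
    rw [natCard_mulPair_swap]
    exact natCard_ker_nsmul_fixedVal hζ (fun τ _ => hfix τ) le_rfl fun x _ hx => hx
  obtain ⟨-, hmul⟩ := herbrand_mulPair_of_surjective (p := p) v hv
    (C := C) (fun x => hker x) (((mulHom p f).hasHerbrand_iff hf).2 hUh) hZ0
  rw [(mulHom p f).herbrand_eq_of_bijective hf, hZ1] at hmul
  unfold EndPair.herbrand at hmul
  rw [hF0, hF1, hU1, Nat.cast_pow, pow_two, mul_div_cancel_right₀ _ (Nat.cast_ne_zero.2 hp.out.ne_zero),
    div_mul_cancel₀ _ (Nat.cast_ne_zero.2 hp.out.ne_zero)] at hmul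
  exact_mod_cast hmul.symm

end OneLocal

section Global

attribute [local instance] locCosetAction famValAction

variable {T : Finset Nat.Primes} (U : Subgroup GQ)

/-- The ideles of the level supported at `T`. -/
def locJ : AddSubgroup (J T) := fixedPts U (J T) ⊓ Jfin T

variable (T) in
/-- The places of the level above `T`. -/
abbrev PlaceIdx : Type :=
  Σ q : ↥T, Quotient (MulAction.orbitRel (LocGal q.1) (GQ ⧸ U))

variable {U}

/-- A representative of a place. -/
def placeRep (v : PlaceIdx T U) : GQ := Quotient.out (Quotient.out v.2 : GQ ⧸ U)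

/-- The values at the places. -/
def locJEval : locJ (T := T) U →+ ∀ v : PlaceIdx T U, fixedVal v.1.1 (locSub v.1.1 U (placeRep v)) where
  toFun f v := ⟨((f : J T) : Amb T).fin v.1 (placeRep v), fun _ hτ =>
    fin_mem_locField (f : J T).2 v.1 (fun s hs => congrArg Subtype.val (f.2.1 s hs)) _ hτ⟩
  map_zero' := rfl
  map_add' _ _ := rfl

variable {L : IntermediateField ℚ Qb} (hL : IsLvl T L) (hU : L.fixingSubgroup ≤ U)

include hL hU in
theorem finite_placeIdx : Finite (PlaceIdx T U) := by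
  haveI := hL.unramified.1
  haveI := finite_quotient_of_level hU
  infer_instance

include hL hU in
theorem bijective_locJEval : Function.Bijective (locJEval (T := T) (U := U)) := by
  classical
  have hout : ∀ (f : locJ (T := T) U) (q : ↥T) (g : GQ),
      ((f : J T) : Amb T).fin q (QuotientGroup.mk g : GQ ⧸ U).out = ((f : J T) : Amb T).fin q g := by
    intro f q g
    obtain ⟨u, hu⟩ := QuotientGroup.mk_out_eq_mul U g
    rw [hu, fin_apply_mul f.2.1 q g u.2]
  refine ⟨(injective_iff_map_eq_zero _).2 fun f hf => Subtype.ext (Subtype.ext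
    (Amb.ext (fun q g => ?_) fun q g => f.2.2 q g)), fun F => ?_⟩
  · obtain ⟨τ, hτ⟩ := exists_smul_rep (D := LocGal q.1) (X := GQ ⧸ U) Quotient.out Quotient.out_eq
      (QuotientGroup.mk g)
    have h0 := congrArg Subtype.val
      (congrFun hf ⟨q, ⟦(QuotientGroup.mk g : GQ ⧸ U)⟧⟩)
    rw [← hout f q g, ← hτ]
    set o := Quotient.out (⟦(QuotientGroup.mk g : GQ ⧸ U)⟧ :
      Quotient (MulAction.orbitRel (LocGal q.1) (GQ ⧸ U)))
    rw [← QuotientGroup.out_eq' o]
    show ((f : J T) : Amb T).fin q (QuotientGroup.mk (loc q.1 τ * o.out) : GQ ⧸ U).out = 0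
    rw [hout, (f : J T).2.1 q τ]
    exact (congrArg (locAct q.1 τ) h0).trans (map_zero _)
  · have hstab : ∀ v : PlaceIdx T U, (F v : LocVal v.1.1) ∈
        stabFixed (LocGal v.1.1) (GQ ⧸ U) (LocVal v.1.1) v.2.out := by
      intro v τ hτ
      refine (F v).2 τ (mem_locSub.2 ?_)
      have h' : loc v.1.1 τ • (v.2.out : GQ ⧸ U) = v.2.out := MulAction.mem_stabilizer_iff.1 hτ
      have h2 : (QuotientGroup.mk (loc v.1.1 τ * placeRep v) : GQ ⧸ U)
          = QuotientGroup.mk (placeRep v) := by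
        have h3 : (QuotientGroup.mk (placeRep v) : GQ ⧸ U) = v.2.out := QuotientGroup.out_eq' _
        rw [h3]
        conv_rhs => rw [← h', ← h3]
        rfl
      have h4 := U.inv_mem (QuotientGroup.eq.1 h2)
      simpa [mul_assoc] using h4
    let φ : ∀ q : ↥T, equivariantFns (LocGal q.1) (GQ ⧸ U) (LocVal q.1) := fun q =>
      (evalReps (D := LocGal q.1) (X := GQ ⧸ U) (A := LocVal q.1) Quotient.out Quotient.out_eq).symm
        fun o => ⟨_, hstab ⟨q, o⟩⟩
    let a : Amb T := (fun q g => (φ q : GQ ⧸ U → LocVal q.1) (QuotientGroup.mk g), fun _ _ => 0)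
    have hfix : ∀ s ∈ U, s • a = a := fun s hs => Amb.ext (fun q g => by
      show (φ q : GQ ⧸ U → LocVal q.1) (QuotientGroup.mk (g * s)) = _
      rw [(QuotientGroup.eq.2 (by simpa using U.inv_mem hs) :
        (QuotientGroup.mk (g * s) : GQ ⧸ U) = QuotientGroup.mk g)]
      rfl) fun _ _ => rfl
    have ha : a ∈ J T := ⟨fun q τ g => (φ q).2 τ (QuotientGroup.mk g), fun _ _ _ => rfl,
      ⟨L, hL, fun s hs => hfix s (hU hs)⟩, by simp [a, Amb.ord]⟩
    refine ⟨⟨⟨a, ha⟩, fun s hs => Subtype.ext (hfix s hs), fun _ _ => rfl⟩,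
      funext fun v => Subtype.ext ?_⟩
    have h1 := congrArg Subtype.val (congrFun
      ((evalReps (D := LocGal v.1.1) (X := GQ ⧸ U) (A := LocVal v.1.1) Quotient.out
        Quotient.out_eq).apply_symm_apply (fun o => ⟨_, hstab ⟨v.1, o⟩⟩)) v.2)
    refine Eq.trans ?_ h1
    exact congrArg (φ v.1 : GQ ⧸ U → LocVal v.1.1) (QuotientGroup.out_eq' v.2.out)

include hL hU in
/-- The valuations at the places above `T`. -/
theorem exists_locJVal :
    ∃ v : locJ (T := T) U →+ (PlaceIdx T U → ℤ), Function.Surjective v ∧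
      ∀ f, v f = 0 ↔ (f : J T) ∈ unitJ U := by
  haveI := hL.unramified.1
  choose w hw hwk using fun v : PlaceIdx T U =>
    exists_valueHom_fixedVal (isLocLevel_locSub hU (placeRep v) (q := v.1.1))
  obtain ⟨hinj, hsurj⟩ := bijective_locJEval hL hU
  let V : locJ (T := T) U →+ (PlaceIdx T U → ℤ) :=
    AddMonoidHom.pi fun v => (w v).comp ((Pi.evalAddMonoidHom _ v).comp locJEval)
  refine ⟨V, fun m => ?_, fun f => ⟨fun h => ?_, fun h => funext fun v => ?_⟩⟩
  · choose y hy using fun v => hw v (m v)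
    obtain ⟨f, hf⟩ := hsurj y
    refine ⟨f, funext fun v => ?_⟩
    show w v (locJEval f v) = m v
    rw [hf, hy]
  · refine ⟨f.2.1, f.2.2, fun q g => ?_⟩
    obtain ⟨τ, hτ⟩ := exists_smul_rep (D := LocGal q.1) (X := GQ ⧸ U) Quotient.out Quotient.out_eq
      (QuotientGroup.mk g)
    set v : PlaceIdx T U := ⟨q, ⟦(QuotientGroup.mk g : GQ ⧸ U)⟧⟩ with hv
    have h1 : ((f : J T) : Amb T).fin q (placeRep v) ∈ unitVal q.1 :=
      (hwk v (locJEval f v)).1 (congrFun h v)
    have h2 : (QuotientGroup.mk (loc q.1 τ * placeRep v) : GQ ⧸ U) = QuotientGroup.mk g := by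
      rw [← hτ]
      conv_rhs => rw [← QuotientGroup.out_eq' (Quotient.out v.2 : GQ ⧸ U)]
      rfl
    obtain ⟨u, hu, hgu⟩ : ∃ u ∈ U, g = loc q.1 τ * placeRep v * u :=
      ⟨_, QuotientGroup.eq.1 h2, (mul_inv_cancel_left _ _).symm⟩
    rw [hgu, fin_apply_mul f.2.1 q _ hu, (f : J T).2.1 q τ]
    exact locAct_mem_unitVal τ h1
  · exact (hwk v (locJEval f v)).2 (h.2.2 v.1 (placeRep v))

variable {p : ℕ} [hp : Fact p.Prime]

include hL hU in
/-- The index of the `p`-th multiples in the ideles supported at `T`. -/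
theorem natCard_locJ_mod_pow (hpT : ExtCitation.pPrime p ∈ T)
    (hcyc : ∀ s ∈ U, ExtCitation.cycloChar p s = 1) :
    Nat.card (mulPair p (locJ (T := T) U)).Coh
      = p ^ (2 * Nat.card (PlaceIdx T U) + U.index) := by
  classical
  haveI := hL.unramified.1
  haveI := finite_quotient_of_level hU
  letI : ∀ q : ↥T, Fintype (Quotient (MulAction.orbitRel (LocGal q.1) (GQ ⧸ U))) :=
    fun q => Fintype.ofFinite _
  haveI : NeZero p := ⟨hp.out.ne_zero⟩
  obtain ⟨ζ, hζ⟩ := HasEnoughRootsOfUnity.exists_primitiveRoot Qb p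
  let R : ∀ v : PlaceIdx T U, EndPair (fixedVal v.1.1 (locSub v.1.1 U (placeRep v))) :=
    fun v => mulPair p _
  let e : EndPair.Hom (mulPair p (locJ (T := T) U)) (EndPair.pi R) :=
    ⟨locJEval, fun f => funext fun v => (mulHom p ((Pi.evalAddMonoidHom _ v).comp locJEval)).comm_fst f,
      fun f => funext fun v => (mulHom p ((Pi.evalAddMonoidHom _ v).comp locJEval)).comm_snd f⟩
  rw [(e.natCard_eq (bijective_locJEval hL hU)).1, EndPair.natCard_coh_pi]
  have hloc : ∀ v : PlaceIdx T U, Nat.card (R v).Coh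
      = p ^ (2 + if (v.1.1 : ℕ) = p then (MulAction.orbit (LocGal v.1.1) (v.2.out : GQ ⧸ U)).ncard else 0) := by
    intro v
    have hH : IsLocLevel (locSub v.1.1 U (placeRep v)) := isLocLevel_locSub hU _
    have hζ' : IsPrimitiveRoot (padicEmbedding (v.1.1 : ℕ) (placeRep v ζ)) p :=
      (hζ.map_of_injective (f := (placeRep v : Qb →ₐ[ℚ] Qb)) (placeRep v).injective).map_of_injective
        (f := padicEmbedding (v.1.1 : ℕ)) (padicEmbedding (v.1.1 : ℕ)).toRingHom.injective
    rw [natCard_mulPair_coh_addSubgroup, relIndex_nsmul_fixedVal hH hp.out hζ' (fun τ hτ => by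
      rw [← padicEmbedding_loc]
      have h1 : ((placeRep v)⁻¹ * loc v.1.1 τ * placeRep v) ζ = ζ :=
        apply_eq_self_of_cycloChar_eq_one (hcyc _ (mem_locSub.1 hτ)) hζ.pow_eq_one
      rw [AlgEquiv.mul_apply, AlgEquiv.mul_apply] at h1
      exact congrArg (padicEmbedding (v.1.1 : ℕ)) ((AlgEquiv.symm_apply_eq (placeRep v)).1 h1))]
    by_cases hv : (v.1.1 : ℕ) = p
    · rw [if_pos hv.symm, if_pos hv, pow_add]
      congr 1
      rw [IntermediateField.finrank_eq_fixingSubgroup_index, hH.fixingSubgroup_locField,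
        ← MulAction.index_stabilizer]
      refine (congrArg₂ (· ^ ·) hv ?_)
      congr 1
      ext τ
      rw [MulAction.mem_stabilizer_iff, mem_locSub, ← U.inv_mem_iff]
      have h3 : (QuotientGroup.mk (placeRep v) : GQ ⧸ U) = v.2.out := QuotientGroup.out_eq' _
      conv_rhs => rw [← h3]
      show _ ↔ (QuotientGroup.mk (loc v.1.1 τ * placeRep v) : GQ ⧸ U) = _
      rw [QuotientGroup.eq]
      simp [mul_assoc]
    · rw [if_neg (Ne.symm hv), if_neg hv, mul_one, add_zero]
  rw [Finset.prod_congr rfl fun v _ => hloc v, Finset.prod_pow_eq_pow_sum, Finset.sum_add_distrib,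
    Finset.sum_const, Finset.card_univ, smul_eq_mul, mul_comm, ← Nat.card_eq_fintype_card]
  congr 2
  rw [Fintype.sum_sigma, Finset.sum_eq_single (⟨ExtCitation.pPrime p, hpT⟩ : ↥T)]
  · simp only [ExtCitation.pPrime_coe, if_true]
    haveI : Fintype (MulAction.orbitRel.Quotient (LocGal (ExtCitation.pPrime p)) (GQ ⧸ U)) :=
      ‹∀ q : ↥T, Fintype (Quotient (MulAction.orbitRel (LocGal q.1) (GQ ⧸ U)))› ⟨_, hpT⟩
    rw [show U.index = Nat.card (GQ ⧸ U) from rfl,
      Nat.card_congr (MulAction.selfEquivSigmaOrbits' (LocGal (ExtCitation.pPrime p)) (GQ ⧸ U)),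
      Nat.card_sigma]
    refine Finset.sum_congr (by congr 1; exact Subsingleton.elim _ _) fun o _ => ?_
    rw [← Nat.card_coe_set_eq]
    refine Nat.card_congr (Equiv.setCongr ?_)
    ext x
    rw [MulAction.orbitRel.Quotient.mem_orbit]
    conv_rhs => rw [← Quotient.out_eq o]
    exact MulAction.orbitRel_apply.symm.trans Quotient.eq''.symm
  · intro q _ hq
    refine Finset.sum_eq_zero fun o _ => if_neg fun h => hq (Subtype.ext (Subtype.ext ?_))
    exact h
  · exact fun h => absurd (Finset.mem_univ _) h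

end Global

end Fermat.Agent.PoitouTate
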