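/-
The `S`-units of a level containing `μ_p`, as principal ideles: their ranks and the orders of
their groups modulo `p`-th powers.
-/
import Fermat.Agent.PoitouTate.IdelePlaces
import Fermat.Agent.PoitouTate.IdeleClassHerbrand

set_option autoImplicit false
set_option linter.style.haveILetI false
set_option maxHeartbeats 400000

noncomputable section

namespace Fermat.Agent.PoitouTate

open NumberField

local notation "Qb" => AlgebraicClosure ℚ

variable {T : Finset Nat.Primes} {V : Subgroup GQ}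

/-- The element of a principal idele, as a homomorphism. -/
theorem exists_prinElt (hT : T.Nonempty) :
    ∃ ε : Prin T →+ Additive Qbˣ, Function.Injective ε ∧
      ∀ f : Prin T, IsPrincipalOf ((f : J T) : Amb T)
        (((Additive.toMul (ε f)) : Qbˣ) : Qb) := by
  choose x hx using fun f : Prin T => f.2
  refine ⟨AddMonoidHom.mk' (fun f => Additive.ofMul (Units.mk0 (x f) (hx f).ne_zero))
    (fun f g => ?_), fun f g h => ?_, hx⟩
  · refine Additive.toMul.injective (Units.ext ?_)
    exact (hx (f + g)).elem_eq hT ((hx f).add (hx g))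
  · have he : x f = x g := congrArg (fun a : Additive Qbˣ => ((Additive.toMul a : Qbˣ) : Qb)) h
    exact Subtype.ext (Subtype.ext ((he ▸ hx f).eq (hx g)))

/-- The principal element of a principal idele. -/
def prinElt (hT : T.Nonempty) : Prin T →+ Additive Qbˣ := (exists_prinElt hT).choose

theorem prinElt_injective (hT : T.Nonempty) : Function.Injective (prinElt hT) :=
  (exists_prinElt hT).choose_spec.1

theorem prinElt_spec (hT : T.Nonempty) (f : Prin T) :
    IsPrincipalOf ((f : J T) : Amb T) (((Additive.toMul (prinElt hT f)) : Qbˣ) : Qb) :=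
  (exists_prinElt hT).choose_spec.2 f

theorem prinElt_mem_fixedField (hT : T.Nonempty) {f : Prin T}
    (hf : ∀ s ∈ V, s • (f : J T) = f) :
    (((Additive.toMul (prinElt hT f)) : Qbˣ) : Qb) ∈ IntermediateField.fixedField V :=
  (IntermediateField.mem_fixedField_iff _ _).2 fun s hs =>
    (prinElt_spec hT f).apply_eq_self hT (congrArg Subtype.val (hf s hs))

variable (T V) in
/-- The `T`-units of the level, as principal ideles. -/
def sUnits : AddSubgroup (J T) := locJ V ⊓ Prin T

variable {L : IntermediateField ℚ Qb} (hL : IsLvl T L) (hV : L.fixingSubgroup ≤ V)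
  {p : ℕ} [hp : Fact p.Prime]

include hL hV in
/-- In a subgroup of principal ideles of the level containing the roots of unity, the `p`-torsion
has order `p`. -/
theorem natCard_ker_nsmul_prin (hT : T.Nonempty)
    (hcyc : ∀ s ∈ V, ExtCitation.cycloChar p s = 1) (W : AddSubgroup (J T))
    (hW : W ≤ Prin T) (hWu : sUnits T V ≤ W) :
    Nat.card (mulPair p W).swap.Coh = p := by
  haveI : NeZero p := ⟨hp.out.ne_zero⟩
  obtain ⟨ζ, hζ⟩ := HasEnoughRootsOfUnity.exists_primitiveRoot Qb p
  have hfix : ∀ x : Qb, x ^ p = 1 → x ∈ IntermediateField.fixedField V := fun x hx =>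
    (IntermediateField.mem_fixedField_iff _ _).2 fun s hs =>
      apply_eq_self_of_cycloChar_eq_one (hcyc s hs) hx
  have hnorm : ∀ x : Qb, x ^ p = 1 → ∀ (q : Nat.Primes) (g : GQ),
      ‖padicEmbedding (q : ℕ) (g x)‖ = 1 := fun x hx q g =>
    (pow_eq_one_iff_of_nonneg (norm_nonneg _) hp.out.ne_zero).1 (by
      rw [← norm_pow, ← map_pow, ← map_pow, hx, map_one, map_one, norm_one])
  have hex : ∀ u : rootsOfUnity p Qb, ∃ f : W, IsPrincipalOf (((f : W) : J T) : Amb T) ((u : Qbˣ) : Qb) := by
    intro u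
    have hu : ((u : Qbˣ) : Qb) ^ p = 1 := by
      rw [← Units.val_pow_eq_pow_val, (mem_rootsOfUnity _ _).1 u.2, Units.val_one]
    obtain ⟨P, hP, -, hPfix⟩ :=
      exists_principal hL (fixedField_le_level hL hV (hfix _ hu)) (Units.ne_zero _)
    refine ⟨⟨P, hWu ⟨⟨fun s hs => hPfix s (apply_eq_self_of_mem (hfix _ hu) hs), fun q g => ?_⟩,
      ⟨_, hP⟩⟩⟩, hP⟩
    refine ord_eq_of_zpow_eq (q := q.1) ?_
    rw [← hP.ord_eq, hnorm _ hu, neg_zero, zpow_zero]
  choose φ hφ using hex
  have hker : ∀ u, φ u ∈ (nsmulAddMonoidHom (α := W) p).ker := by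
    intro u
    have hpow : ∀ n : ℕ, IsPrincipalOf (((n • φ u : W) : J T) : Amb T) (((u : Qbˣ) : Qb) ^ n) := by
      intro n
      induction n with
      | zero =>
        rw [zero_smul, pow_zero]
        exact isPrincipalOf_one
      | succ n ih =>
        rw [succ_nsmul, pow_succ]
        exact ih.add (hφ u)
    have h := hpow p
    rw [← Units.val_pow_eq_pow_val, (mem_rootsOfUnity _ _).1 u.2, Units.val_one] at h
    exact Subtype.ext (Subtype.ext (h.eq isPrincipalOf_one))
  have hbij : Function.Bijective fun u => (⟨φ u, hker u⟩ : (nsmulAddMonoidHom (α := W) p).ker) := by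
    refine ⟨fun u v huv => Subtype.ext (Units.ext ?_), fun f => ?_⟩
    · have huv' : φ u = φ v := congrArg Subtype.val huv
      exact (huv' ▸ hφ u).elem_eq hT (hφ v)
    · let P : Prin T := ⟨((f : W) : J T), hW (f : W).2⟩
      have hP : p • P = 0 := Subtype.ext (congrArg (fun z : W => (z : J T)) (f : _).2)
      have hx : Additive.toMul (prinElt hT P) ∈ rootsOfUnity p Qb := by
        rw [mem_rootsOfUnity, ← toMul_nsmul, ← map_nsmul, hP, map_zero]
        rfl
      exact ⟨⟨_, hx⟩, Subtype.ext (Subtype.ext (Subtype.ext ((hφ _).eq (prinElt_spec hT P))))⟩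
  rw [natCard_mulPair_swap, ← Nat.card_eq_of_bijective _ hbij, hζ.card_rootsOfUnity]

include hL hV in
/-- The rank of the `T`-units. -/
theorem finrank_sUnits (hT : T.Nonempty) :
    Module.Finite ℤ (sUnits T V) ∧
      Module.finrank ℤ (sUnits T V) =
        Module.finrank ℤ (Additive (𝓞 (IntermediateField.fixedField V))ˣ) +
          Nat.card (PlaceIdx T V) := by
  classical
  haveI := numberField_fixedField hL hV
  haveI := finite_placeIdx hL hV
  letI : Fintype (PlaceIdx T V) := Fintype.ofFinite _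
  obtain ⟨v, hv, hvk⟩ := exists_locJVal hL hV
  obtain ⟨φ, hφinj, hφ, hker⟩ := exists_unitsToUnitJ hL hV hT
  let v₀ : sUnits T V →ₗ[ℤ] (PlaceIdx T V → ℤ) :=
    (v.comp (AddSubgroup.inclusion (inf_le_left : sUnits T V ≤ locJ V))).toIntLinearMap
  -- the kernel is the image of the units
  have hmem : ∀ u, (φ u : J T) ∈ sUnits T V := fun u =>
    ⟨⟨(φ u).2.1, (φ u).2.2.1⟩, ⟨_, hφ u⟩⟩
  let e : Additive (𝓞 (IntermediateField.fixedField V))ˣ →ₗ[ℤ] LinearMap.ker v₀ :=
    ((((unitJ V).subtype.comp φ).codRestrict (sUnits T V) hmem).codRestrict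
      (LinearMap.ker v₀).toAddSubgroup fun u => (hvk _).2 (φ u).2).toIntLinearMap
  have he : Function.Bijective e := by
    refine ⟨fun a b hab => hφinj (Subtype.ext (congrArg
      (fun z : LinearMap.ker v₀ => ((z : sUnits T V) : J T)) hab)), fun z => ?_⟩
    obtain ⟨u, hu⟩ := (hker ⟨_, (hvk _).1 z.2⟩).1
      ((clsMk_eq_zero_iff T).2 (z : sUnits T V).2.2)
    exact ⟨u, Subtype.ext (Subtype.ext (congrArg (fun w : unitJ (T := T) V => (w : J T)) hu :))⟩
  have hkerfin : Module.Finite ℤ (LinearMap.ker v₀) :=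
    Module.Finite.equiv (LinearEquiv.ofBijective e he)
  have hrangefin : Module.Finite ℤ (LinearMap.range v₀) := inferInstance
  have hfin : Module.Finite ℤ (sUnits T V) := by
    haveI : Module.Finite ℤ (sUnits T V ⧸ LinearMap.ker v₀) :=
      Module.Finite.equiv v₀.quotKerEquivRange.symm
    exact Module.Finite.of_submodule_quotient (LinearMap.ker v₀)
  refine ⟨hfin, ?_⟩
  -- the image has finite index
  let Θ : locJ (T := T) V →+
      fixedPts V (J T) ⧸ (unitJ V ⊔ prinLev V).addSubgroupOf (fixedPts V (J T)) :=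
    (QuotientAddGroup.mk' _).comp (AddSubgroup.inclusion (inf_le_left : locJ V ≤ fixedPts V (J T)))
  let π : locJ (T := T) V →+ (PlaceIdx T V → ℤ) ⧸ (LinearMap.range v₀).toAddSubgroup :=
    (QuotientAddGroup.mk' _).comp v
  have hΘ : Θ.ker ≤ π.ker := by
    intro f hf
    have hf' : ((f : J T)) ∈ unitJ V ⊔ prinLev V :=
      AddSubgroup.mem_addSubgroupOf.1 ((QuotientAddGroup.eq_zero_iff
        (AddSubgroup.inclusion (inf_le_left : locJ V ≤ fixedPts V (J T)) f)).1 hf)
    obtain ⟨u, hu, P, hP, huP⟩ := AddSubgroup.mem_sup.1 hf'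
    have huJ : u ∈ locJ (T := T) V := ⟨hu.1, hu.2.1⟩
    have hPJ : P ∈ locJ (T := T) V := by
      rw [eq_sub_of_add_eq' huP]
      exact (locJ V).sub_mem f.2 huJ
    have hsum : f = ⟨u, huJ⟩ + ⟨P, hPJ⟩ := Subtype.ext huP.symm
    show (QuotientAddGroup.mk (v f) : (PlaceIdx T V → ℤ) ⧸ (LinearMap.range v₀).toAddSubgroup) = 0
    rw [QuotientAddGroup.eq_zero_iff, hsum, map_add, (hvk ⟨u, huJ⟩).2 hu, zero_add]
    exact ⟨⟨P, hPJ, hP.2⟩, rfl⟩
  haveI := finite_quotient_unitJ_sup_prinLev hL hV (T := T)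
  haveI : Finite (locJ (T := T) V ⧸ Θ.ker) :=
    Finite.of_injective _ (QuotientAddGroup.kerLift_injective Θ)
  haveI hcoker : Finite ((PlaceIdx T V → ℤ) ⧸ LinearMap.range v₀) := by
    refine Finite.of_surjective (QuotientAddGroup.lift Θ.ker π hΘ) fun y => ?_
    obtain ⟨m, rfl⟩ := QuotientAddGroup.mk_surjective y
    obtain ⟨f, hf⟩ := hv m
    exact ⟨QuotientAddGroup.mk f, by rw [← hf]; rfl⟩
  have hr : Module.finrank ℤ (LinearMap.range v₀) = Nat.card (PlaceIdx T V) := by
    have h := Submodule.finrank_quotient_add_finrank (LinearMap.range v₀)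
    rw [Module.finrank_eq_zero_iff_isTorsion.2 (fun {x} => ?_), zero_add,
      Module.finrank_fintype_fun_eq_card, ← Nat.card_eq_fintype_card] at h
    · exact h
    · refine ⟨⟨(Nat.card ((PlaceIdx T V → ℤ) ⧸ LinearMap.range v₀) : ℤ),
        mem_nonZeroDivisors_of_ne_zero (Int.natCast_ne_zero.2 Nat.card_pos.ne')⟩, ?_⟩
      exact (natCast_zsmul x _).trans (card_nsmul_eq_zero' (x := x))
  rw [← Submodule.finrank_quotient_add_finrank (LinearMap.ker v₀),
    v₀.quotKerEquivRange.finrank_eq, hr, ← (LinearEquiv.ofBijective e he).finrank_eq, add_comm]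

end Fermat.Agent.PoitouTate
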