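/-
Auxiliary places of degree one for the second inequality: the `T`-units map onto the local units
modulo `p`-th powers at these places, and a given `p`-th root is locally rational there.
-/
import Fermat.Agent.PoitouTate.IdeleSUnits
import Fermat.Agent.PoitouTate.IdeleDensity
import Fermat.Agent.PoitouTate.IdeleKummer

set_option autoImplicit false
set_option linter.style.haveILetI false
set_option maxHeartbeats 400000

noncomputable section

namespace Fermat.Agent.PoitouTate

open NumberField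

local notation "Qb" => AlgebraicClosure ℚ

variable {T : Finset Nat.Primes} {V : Subgroup GQ}

variable (T V) in
/-- A place outside `T` of degree one over the base at which the field of `a` is split. -/
structure IsSplitPlace (a : Qb) (v : Nat.Primes × GQ) : Prop where
  not_mem : v.1 ∉ T
  dec : ∀ τ : LocGal v.1, v.2⁻¹ * loc v.1 τ * v.2 ∈ V
  split : ∀ τ : LocGal v.1, (v.2⁻¹ * loc v.1 τ * v.2) a = a

/-- The local units of the rational field. -/
abbrev unitTop (q : Nat.Primes) : AddSubgroup (LocVal q) := fixedVal q ⊤ ⊓ unitVal q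

/-- The value of an algebraic number along a place. -/
def valAt (v : Nat.Primes × GQ) : Additive Qbˣ →+ LocVal v.1 :=
  MonoidHom.toAdditive (Units.map
    (((padicEmbedding (v.1 : ℕ)).comp (v.2 : Qb →ₐ[ℚ] Qb) : Qb →ₐ[ℚ] PadicAlgCl (v.1 : ℕ)) :
      Qb →* PadicAlgCl (v.1 : ℕ)))

theorem coe_valAt (v : Nat.Primes × GQ) (x : Additive Qbˣ) :
    ((Additive.toMul (valAt v x) : (PadicAlgCl (v.1 : ℕ))ˣ) : PadicAlgCl (v.1 : ℕ)) =
      padicEmbedding (v.1 : ℕ) (v.2 ((Additive.toMul x : Qbˣ) : Qb)) := rfl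

/-- The value of a `T`-unit along a place. -/
def sUnitVal (hT : T.Nonempty) (v : Nat.Primes × GQ) : sUnits T V →+ LocVal v.1 :=
  ((valAt v).comp (prinElt hT)).comp
    (AddSubgroup.inclusion (inf_le_right : sUnits T V ≤ Prin T))

/-- The element of a `T`-unit. -/
def sUnitElt (hT : T.Nonempty) (w : sUnits T V) : Qb :=
  ((Additive.toMul (prinElt hT ⟨(w : J T), w.2.2⟩) : Qbˣ) : Qb)

theorem isPrincipalOf_sUnitElt (hT : T.Nonempty) (w : sUnits T V) :
    IsPrincipalOf ((w : J T) : Amb T) (sUnitElt hT w) :=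
  prinElt_spec hT ⟨(w : J T), w.2.2⟩

theorem sUnitElt_mem (hT : T.Nonempty) (w : sUnits T V) :
    sUnitElt hT w ∈ IntermediateField.fixedField V :=
  prinElt_mem_fixedField hT (f := ⟨(w : J T), w.2.2⟩) w.2.1.1

theorem norm_sUnitElt (hT : T.Nonempty) (w : sUnits T V) {q : Nat.Primes} (hq : q ∉ T) (g : GQ) :
    ‖padicEmbedding (q : ℕ) (g (sUnitElt hT w))‖ = 1 := by
  rw [(isPrincipalOf_sUnitElt hT w).ord_eq ⟨q, hq⟩ g, w.2.1.2, neg_zero, zpow_zero]

theorem sUnitVal_mem (hT : T.Nonempty) {a : Qb} {v : Nat.Primes × GQ}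
    (hv : IsSplitPlace T V a v) (w : sUnits T V) : sUnitVal hT v w ∈ unitTop v.1 := by
  refine ⟨fun τ _ => locVal_ext ?_, (mem_unitVal_iff _).2 (norm_sUnitElt hT w hv.not_mem v.2)⟩
  rw [coe_locAct]
  show τ (padicEmbedding (v.1 : ℕ) (v.2 (sUnitElt hT w))) = padicEmbedding (v.1 : ℕ) (v.2 (sUnitElt hT w))
  have h := apply_eq_self_of_mem (sUnitElt_mem hT w) (hv.dec τ)
  rw [AlgEquiv.mul_apply, AlgEquiv.mul_apply] at h
  rw [← padicEmbedding_loc]
  exact congrArg (padicEmbedding (v.1 : ℕ)) ((AlgEquiv.symm_apply_eq v.2).1 h)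

variable {p : ℕ} [hp : Fact p.Prime]

variable (p) in
/-- The `T`-units cover the units modulo `p`-th powers at the given places. -/
def CoversUnits (hT : T.Nonempty) (V : Subgroup GQ) (Q : Finset (Nat.Primes × GQ)) : Prop :=
  ∀ u : ∀ q : Nat.Primes, LocVal q, (∀ v ∈ Q, u v.1 ∈ unitTop v.1) →
    ∃ w : sUnits T V, ∀ v ∈ Q, ∃ y ∈ unitTop v.1, sUnitVal hT v w - u v.1 = p • y

variable {L : IntermediateField ℚ Qb} (hL : IsLvl T L) (hV : L.fixingSubgroup ≤ V)

/-- The root of unity seen at a place of degree one is fixed. -/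
theorem exists_fixed_root {a : Qb} {v : Nat.Primes × GQ} (hv : IsSplitPlace T V a v)
    (hcyc : ∀ s ∈ V, ExtCitation.cycloChar p s = 1) :
    ∃ ζ : PadicAlgCl (v.1 : ℕ), IsPrimitiveRoot ζ p ∧ ∀ τ : LocGal v.1, τ ζ = ζ := by
  haveI : NeZero p := ⟨hp.out.ne_zero⟩
  obtain ⟨z, hz⟩ := HasEnoughRootsOfUnity.exists_primitiveRoot Qb p
  refine ⟨padicEmbedding (v.1 : ℕ) (v.2 z),
    (hz.map_of_injective (f := (v.2 : Qb →ₐ[ℚ] Qb)) v.2.injective).map_of_injective
      (f := padicEmbedding (v.1 : ℕ)) (padicEmbedding (v.1 : ℕ)).toRingHom.injective, fun τ => ?_⟩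
  have h := apply_eq_self_of_cycloChar_eq_one (hcyc _ (hv.dec τ)) hz.pow_eq_one
  rw [AlgEquiv.mul_apply, AlgEquiv.mul_apply] at h
  rw [← padicEmbedding_loc]
  exact congrArg (padicEmbedding (v.1 : ℕ)) ((AlgEquiv.symm_apply_eq v.2).1 h)

include hL hV in
/-- **Auxiliary places.** -/
theorem exists_splitPlaces (hpT : ExtCitation.pPrime p ∈ T) (hT : T.Nonempty)
    (hcyc : ∀ s ∈ V, ExtCitation.cycloChar p s = 1) {a : Qb} (ha0 : a ≠ 0)
    (ha : a ^ p ∈ IntermediateField.fixedField V)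
    (haT : ∀ (q : Nat.Primes), q ∉ T → ∀ g : GQ, ‖padicEmbedding (q : ℕ) (g a)‖ = 1)
    {n : ℕ} (hn : Nat.card (mulPair p (sUnits T V)).Coh = p ^ (n + 1)) :
    ∀ k ≤ n, ∃ Q : Finset (Nat.Primes × GQ), Q.card = k ∧ Set.InjOn Prod.fst (Q : Set (Nat.Primes × GQ)) ∧
      (∀ v ∈ Q, IsSplitPlace T V a v) ∧ CoversUnits p hT V Q := by
  classical
  intro k
  induction k with
  | zero =>
    exact fun _ => ⟨∅, rfl, by simp, by simp, fun u _ => ⟨0, by simp⟩⟩
  | succ k ih =>
    intro hk
    obtain ⟨Q, hcard, hinj, hsplit, hcov⟩ := ih (Nat.le_of_succ_le hk)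
    haveI : NeZero p := ⟨hp.out.ne_zero⟩
    haveI := hL.unramified.1
    obtain ⟨ζ, hζ⟩ := HasEnoughRootsOfUnity.exists_primitiveRoot Qb p
    have hζV : ζ ∈ IntermediateField.fixedField V := (IntermediateField.mem_fixedField_iff _ _).2
      fun s hs => apply_eq_self_of_cycloChar_eq_one (hcyc s hs) hζ.pow_eq_one
    -- the unit `a ^ p`
    obtain ⟨Pα, hPα, -, hPαfix⟩ := exists_principal hL (fixedField_le_level hL hV ha) (pow_ne_zero p ha0)
    have hPαW : Pα ∈ sUnits T V := ⟨⟨fun s hs => hPαfix s (apply_eq_self_of_mem ha hs), fun q g => by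
      refine ord_eq_of_zpow_eq (q := q.1) ?_
      rw [← hPα.ord_eq, map_pow, map_pow, norm_pow, haT q.1 q.2, one_pow, neg_zero, zpow_zero]⟩,
      ⟨_, hPα⟩⟩
    set W := mulPair p (sUnits T V) with hW
    -- evaluation modulo `p` at the places of `Q`
    let ev : ∀ v : Q, sUnits T V →+ unitTop (v : Nat.Primes × GQ).1 := fun v =>
      (sUnitVal hT (v : Nat.Primes × GQ)).codRestrict _ fun w => sUnitVal_mem hT (hsplit v v.2) w
    let evC : W.Coh →+ ∀ v : Q, (mulPair p (unitTop (v : Nat.Primes × GQ).1)).Coh :=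
      AddMonoidHom.pi fun v => (mulHom p (ev v)).cohMap
    have hUcard : ∀ v : Nat.Primes × GQ, IsSplitPlace T V a v →
        Nat.card (mulPair p (unitTop v.1)).Coh = p := fun v hv => by
      obtain ⟨z, hz, hzfix⟩ := exists_fixed_root hv hcyc
      refine (natCard_units_mod_pow hz (fun h => hv.not_mem ?_) hzfix).1
      rwa [show v.1 = ExtCitation.pPrime p from Subtype.ext h.symm]
    have htarget : Nat.card (∀ v : Q, (mulPair p (unitTop (v : Nat.Primes × GQ).1)).Coh) = p ^ k := by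
      rw [Nat.card_pi, Finset.prod_congr rfl fun v _ => hUcard v.1 (hsplit v.1 v.2), Finset.prod_const,
        Finset.card_univ, Fintype.card_coe, hcard]
    haveI : Finite W.Coh := Nat.finite_of_card_ne_zero (by rw [hn]; exact pow_ne_zero _ hp.out.ne_zero)
    haveI : Finite (∀ v : Q, (mulPair p (unitTop (v : Nat.Primes × GQ).1)).Coh) :=
      Nat.finite_of_card_ne_zero (by rw [htarget]; exact pow_ne_zero _ hp.out.ne_zero)
    let αc : W.Coh := W.cls ⟨⟨Pα, hPαW⟩, rfl⟩
    have hαle : Nat.card (AddSubgroup.zmultiples αc) ≤ p := by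
      rw [Nat.card_zmultiples]
      refine Nat.le_of_dvd hp.out.pos (addOrderOf_dvd_of_nsmul_eq_zero ?_)
      rw [← map_nsmul, EndPair.cls_eq_zero_iff]
      exact ⟨⟨Pα, hPαW⟩, rfl⟩
    obtain ⟨z, hz, hzα⟩ : ∃ z ∈ evC.ker, z ∉ AddSubgroup.zmultiples αc := by
      by_contra hcon
      push Not at hcon
      have h1 : Nat.card evC.ker ≤ p :=
        (Nat.card_le_card_of_injective (AddSubgroup.inclusion hcon)
          (AddSubgroup.inclusion_injective _)).trans hαle
      have h2 : Nat.card evC.range ≤ p ^ k :=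
        htarget ▸ Nat.card_le_card_of_injective _ Subtype.val_injective
      have h3 := AddSubgroup.card_mul_index evC.ker
      rw [AddSubgroup.index_ker, hn] at h3
      have h4 : p ^ (n + 1) ≤ p * p ^ k := h3 ▸ Nat.mul_le_mul h1 h2
      rw [← pow_succ'] at h4
      have := (Nat.pow_le_pow_iff_right hp.out.one_lt).1 h4
      omega
    obtain ⟨⟨β, hβc⟩, rfl⟩ := W.cls_surjective z
    -- an automorphism fixing `a` and moving a root of `β`
    set x := sUnitElt hT β with hx
    obtain ⟨b, hb⟩ := IsAlgClosed.exists_pow_nat_eq x hp.out.pos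
    have hb0 : b ≠ 0 := fun h0 => (isPrincipalOf_sUnitElt hT β).ne_zero (by
      rw [← hx, ← hb, h0, zero_pow hp.out.ne_zero])
    have hindep : ∀ (i : ℕ) (c : Qb), c ∈ IntermediateField.fixedField V →
        b ^ p ≠ (a ^ p) ^ i * c ^ p := by
      intro i c hc heq
      refine hzα ⟨(i : ℤ), ?_⟩
      have hc0 : c ≠ 0 := fun h0 => pow_ne_zero p hb0 (by
        rw [heq, h0, zero_pow hp.out.ne_zero, mul_zero])
      obtain ⟨Pc, hPc, -, hPcfix⟩ := exists_principal hL (fixedField_le_level hL hV hc) hc0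
      have hcn : ∀ q : Nat.Primes, q ∉ T → ∀ g : GQ, ‖padicEmbedding (q : ℕ) (g c)‖ = 1 := by
        intro q hq g
        have h1 := norm_sUnitElt hT β hq g
        rw [← hx, ← hb, heq, map_mul, map_mul, norm_mul, map_pow, map_pow, map_pow, map_pow,
          norm_pow, norm_pow, map_pow, map_pow, norm_pow, haT q hq, one_pow, one_pow, one_mul] at h1
        exact (pow_eq_one_iff_of_nonneg (norm_nonneg _) hp.out.ne_zero).1 h1
      have hPcW : Pc ∈ sUnits T V := ⟨⟨fun s hs => hPcfix s (apply_eq_self_of_mem hc hs), fun q g => by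
        refine ord_eq_of_zpow_eq (q := q.1) ?_
        rw [← hPc.ord_eq, hcn q.1 q.2, neg_zero, zpow_zero]⟩, ⟨_, hPc⟩⟩
      have hpow : ∀ {f : J T} {y : Qb}, IsPrincipalOf (f : Amb T) y → ∀ m : ℕ,
          IsPrincipalOf ((m • f : J T) : Amb T) (y ^ m) := by
        intro f y hf m
        induction m with
        | zero => rw [zero_smul, pow_zero]; exact isPrincipalOf_one
        | succ m ihm => rw [succ_nsmul, pow_succ]; exact ihm.add hf
      have hβ : β = i • (⟨Pα, hPαW⟩ : sUnits T V) + p • ⟨Pc, hPcW⟩ := by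
        refine Subtype.ext (Subtype.ext ((isPrincipalOf_sUnitElt hT β).eq ?_))
        rw [← hx, ← hb, heq]
        exact (hpow hPα i).add (hpow hPc p)
      show (i : ℤ) • αc = W.cls ⟨β, hβc⟩
      rw [natCast_zsmul, ← map_nsmul, eq_comm, ← sub_eq_zero, ← map_sub, EndPair.cls_eq_zero_iff]
      refine ⟨⟨Pc, hPcW⟩, ?_⟩
      show p • (⟨Pc, hPcW⟩ : sUnits T V) = β - i • ⟨Pα, hPαW⟩
      rw [hβ, add_sub_cancel_left]
    obtain ⟨σ, hσV, hσa, hσb⟩ := exists_fix_and_move hp.out hζ hζV ha0 ha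
      (hb.symm ▸ sUnitElt_mem hT β) hindep
    -- a normal field containing everything
    haveI : FiniteDimensional ℚ (IntermediateField.adjoin ℚ ({a, b} : Set Qb)) :=
      IntermediateField.finiteDimensional_adjoin fun z _ => (Algebra.IsIntegral.isIntegral z)
    set M := IntermediateField.normalClosure ℚ
      (↥(L ⊔ IntermediateField.adjoin ℚ ({a, b} : Set Qb))) Qb with hM
    haveI : Normal ℚ M := normalClosure.normal ℚ _ Qb
    haveI : IsGalois ℚ M := ⟨⟩
    have hMn : M.fixingSubgroup.Normal := (InfiniteGalois.normal_iff_isGalois M).2 inferInstance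
    have hle : L ⊔ IntermediateField.adjoin ℚ ({a, b} : Set Qb) ≤ M :=
      IntermediateField.le_normalClosure _
    have haM : a ∈ M := hle ((le_sup_right : _ ≤ L ⊔ _) (IntermediateField.subset_adjoin ℚ _ (by simp)))
    have hbM : b ∈ M := hle ((le_sup_right : _ ≤ L ⊔ _) (IntermediateField.subset_adjoin ℚ _ (by simp)))
    obtain ⟨q, hq, g, hdec, τ₀, m, hm⟩ :=
      exists_prime_decomposition_eq M hMn σ (T ∪ Q.image Prod.fst)
    rw [Finset.mem_union, not_or] at hq
    have hσfix : ∀ y ∈ IntermediateField.fixedField V, σ y = y := fun y hy =>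
      apply_eq_of_mem hσV hy
    have hpowfix : ∀ (e : GQ) (y : Qb), e y = y → ∀ j : ℕ, (e ^ j) y = y := by
      intro e y hy j
      induction j with
      | zero => rfl
      | succ j ihj => rw [pow_succ, AlgEquiv.mul_apply, hy, ihj]
    have hv : IsSplitPlace T V a (q, g) := by
      refine ⟨hq.1, fun τ => ?_, fun τ => ?_⟩
      · obtain ⟨j, hj⟩ := hdec τ
        rw [← fixingSubgroup_fixedField_of_le hL hV, IntermediateField.mem_fixingSubgroup_iff]
        intro y hy
        rw [hj y (hle ((le_sup_left : L ≤ _) (fixedField_le_level hL hV hy)))]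
        exact hpowfix σ y (hσfix y hy) j
      · obtain ⟨j, hj⟩ := hdec τ
        rw [hj a haM]
        exact hpowfix σ a hσa j
    -- `β` is not a `p`-th power at the new place
    have hnew : (mulPair p (unitTop q)).cls ⟨⟨sUnitVal hT (q, g) β, sUnitVal_mem hT hv β⟩, rfl⟩ ≠ 0 := by
      intro h0
      obtain ⟨y, hy⟩ := (EndPair.cls_eq_zero_iff _ _).1 h0
      have hy' : ((Additive.toMul (y : LocVal q) : (PadicAlgCl (q : ℕ))ˣ) : PadicAlgCl (q : ℕ)) ^ p
          = padicEmbedding (q : ℕ) (g b) ^ p := by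
        rw [← map_pow, ← map_pow, hb, ← Units.val_pow_eq_pow_val, ← toMul_nsmul]
        exact congrArg (fun z : LocVal q => ((Additive.toMul z : (PadicAlgCl (q : ℕ))ˣ) :
          PadicAlgCl (q : ℕ))) (congrArg Subtype.val hy)
      obtain ⟨ξ, hξ, hξfix⟩ := exists_fixed_root hv hcyc
      set Y := ((Additive.toMul (y : LocVal q) : (PadicAlgCl (q : ℕ))ˣ) : PadicAlgCl (q : ℕ)) with hY
      have hY0 : Y ≠ 0 := Units.ne_zero _
      obtain ⟨j, -, hj⟩ := hξ.eq_pow_of_pow_eq_one (ξ := padicEmbedding (q : ℕ) (g b) / Y)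
        (by rw [div_pow, ← hy', div_self (pow_ne_zero _ hY0)])
      have hgb : padicEmbedding (q : ℕ) (g b) = ξ ^ j * Y := by rw [hj, div_mul_cancel₀ _ hY0]
      have hfixb : ∀ τ : LocGal q, (g⁻¹ * loc q τ * g) b = b := by
        intro τ
        rw [AlgEquiv.mul_apply, AlgEquiv.mul_apply]
        refine (AlgEquiv.symm_apply_eq g).2 ((padicEmbedding (q : ℕ)).toRingHom.injective ?_)
        show padicEmbedding (q : ℕ) (loc q τ (g b)) = padicEmbedding (q : ℕ) (g b)
        rw [padicEmbedding_loc, hgb, map_mul, map_pow, hξfix τ]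
        congr 1
        rw [hY, ← coe_locAct, y.2.1 τ (Subgroup.mem_top τ)]
      refine hσb ?_
      rw [hm b hbM]
      exact hpowfix _ b (hfixb τ₀) m
    have hQnot : (q, g) ∉ Q := fun h => hq.2 (Finset.mem_image.2 ⟨_, h, rfl⟩)
    refine ⟨insert (q, g) Q, by rw [Finset.card_insert_of_notMem hQnot, hcard], ?_, ?_, ?_⟩
    · rw [Finset.coe_insert, Set.injOn_insert (by simpa using hQnot)]
      refine ⟨hinj, ?_⟩
      rintro ⟨v, hvQ, hvq⟩
      exact hq.2 (Finset.mem_image.2 ⟨v, by simpa using hvQ, hvq⟩)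
    · intro v hv'
      rcases Finset.mem_insert.1 hv' with rfl | hv'
      · exact hv
      · exact hsplit v hv'
    · intro u hu
      obtain ⟨w₁, hw₁⟩ := hcov u fun v h => hu v (Finset.mem_insert_of_mem h)
      let cU : unitTop q →+ (mulPair p (unitTop q)).Coh :=
        (mulPair p (unitTop q)).cls.comp
          ((AddMonoidHom.id (unitTop q)).codRestrict (mulPair p (unitTop q)).cycles fun _ => rfl)
      let dβ : unitTop q := ⟨sUnitVal hT (q, g) β, sUnitVal_mem hT hv β⟩
      let du : unitTop q := ⟨u q, hu (q, g) (Finset.mem_insert_self _ _)⟩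
      let dw : unitTop q := ⟨sUnitVal hT (q, g) w₁, sUnitVal_mem hT hv w₁⟩
      obtain ⟨r, hr⟩ := AddSubgroup.mem_zmultiples_iff.1
        (mem_zmultiples_of_prime_card (hUcard (q, g) hv) (g := cU dβ) (g' := cU (du - dw)) hnew)
      refine ⟨w₁ + r • β, fun v hv' => ?_⟩
      rcases Finset.mem_insert.1 hv' with rfl | hvQ
      · have h0 : cU (dw + r • dβ - du) = 0 := by
          rw [map_sub, map_add, map_zsmul, hr, map_sub]
          abel
        obtain ⟨y, hy⟩ := (EndPair.cls_eq_zero_iff _ _).1 h0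
        refine ⟨(y : LocVal q), y.2, ?_⟩
        rw [map_add, map_zsmul]
        exact (congrArg Subtype.val hy).symm
      · obtain ⟨y, hy, hye⟩ := hw₁ v hvQ
        obtain ⟨⟨t, ht⟩, hte⟩ :=
          (EndPair.cls_eq_zero_iff _ _).1 (congrFun (AddMonoidHom.mem_ker.1 hz) ⟨v, hvQ⟩)
        refine ⟨y + r • t, (unitTop v.1).add_mem hy ((unitTop v.1).zsmul_mem ht r), ?_⟩
        have hte' : p • t = sUnitVal hT v β := congrArg Subtype.val hte
        have hc : p • (r • t) = r • (p • t) := map_zsmul (nsmulAddMonoidHom p) r t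
        rw [map_add, map_zsmul, nsmul_add, ← hye, hc, hte']
        abel

end Fermat.Agent.PoitouTate
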