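/-
Norms of equivariant families in a cyclic layer, away from a stable set where the family vanishes;
value groups in a Kummer extension by the root of a unit, prime to the residue characteristic.
-/
import Fermat.Agent.PoitouTate.IdeleFam

set_option autoImplicit false
set_option linter.style.haveILetI false

noncomputable section

namespace Fermat.Agent.PoitouTate

open Finset

local notation "Qb" => AlgebraicClosure ℚ

attribute [local instance] locCosetAction famValAction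

variable {U : Subgroup GQ} {p : ℕ} [hp : Fact p.Prime] {σ : GQ}

/-- A family fixed by the generator of a layer is a norm, if it is so at the points outside a stable
set `Z` on which it vanishes. -/
theorem exists_family_norm (h : IsLayer p U σ) (q : Nat.Primes) (P : AddSubgroup (LocVal q))
    (hP : ∀ τ : LocGal q, ∀ a ∈ P, locAct q τ a ∈ P) (f : GQ → LocVal q)
    (hf : ∀ (τ : LocGal q) g, f (loc q τ * g) = locAct q τ (f g))
    (hfU : ∀ g, ∀ u ∈ U, f (g * u) = f g) (hfσ : ∀ g, f (g * σ) = f g) (hfP : ∀ g, f g ∈ P)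
    (Z : Set GQ) (hZl : ∀ (τ : LocGal q) g, loc q τ * g ∈ Z ↔ g ∈ Z)
    (hZr : ∀ g, ∀ u ∈ U, (g * u ∈ Z ↔ g ∈ Z)) (hZσ : ∀ g, g * σ ∈ Z ↔ g ∈ Z)
    (hZ0 : ∀ g ∈ Z, f g = 0)
    (hloc : ∀ g, g ∉ Z → ∀ τ : LocGal q, (g * σ)⁻¹ * (loc q τ * g) ∈ U → ∀ a ∈ P,
      a ∈ fixedVal q (locSub q U g) → locAct q τ a = a →
      ∃ b ∈ P, b ∈ fixedVal q (locSub q U g) ∧ normVal q τ p b = a) :
    ∃ w : GQ → LocVal q, (∀ (τ : LocGal q) g, w (loc q τ * g) = locAct q τ (w g)) ∧
      (∀ g, ∀ u ∈ U, w (g * u) = w g) ∧ (∀ g, w g ∈ P) ∧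
      ∀ g, ∑ i ∈ range p, w (g * σ ^ i) = f g := by
  classical
  let good : GQ ⧸ U → Prop := fun x => x.out ∉ Z
  have hgood : ∀ g, good (QuotientGroup.mk g) ↔ g ∉ Z := fun g => by
    obtain ⟨u, hu⟩ := QuotientGroup.mk_out_eq_mul U g
    show (QuotientGroup.mk g : GQ ⧸ U).out ∉ Z ↔ _
    rw [hu, hZr g u u.2]
  have hgsmul : ∀ (τ : LocGal q) (x : GQ ⧸ U), good x → good (τ • x) := fun τ x => by
    induction x using QuotientGroup.induction_on with
    | H g =>
      intro hx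
      show good (QuotientGroup.mk (loc q τ * g))
      rw [hgood, hZl]
      exact (hgood g).1 hx
  have hgshift : ∀ x : GQ ⧸ U, good x → good (cosetShift h x) := fun x => by
    induction x using QuotientGroup.induction_on with
    | H g =>
      intro hx
      rw [cosetShift_mk, hgood, hZσ]
      exact (hgood g).1 hx
  let X := {x : GQ ⧸ U // good x}
  letI : MulAction (LocGal q) X :=
    { smul := fun τ x => ⟨τ • (x : GQ ⧸ U), hgsmul τ _ x.2⟩
      one_smul := fun x => Subtype.ext (one_smul _ _)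
      mul_smul := fun a b x => Subtype.ext (mul_smul _ _ _) }
  let s : X → X := fun x => ⟨cosetShift h x, hgshift _ x.2⟩
  have hs_it : ∀ (n : ℕ) (x : X), ((s^[n] x : X) : GQ ⧸ U) = (cosetShift h)^[n] x := by
    intro n
    induction n with
    | zero => exact fun x => rfl
    | succ n ih =>
      intro x
      rw [Function.iterate_succ_apply', Function.iterate_succ_apply']
      exact congrArg (cosetShift h) (ih x)
  have hmk : ∀ g, f (QuotientGroup.mk g : GQ ⧸ U).out = f g := fun g => by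
    obtain ⟨u, hu⟩ := QuotientGroup.mk_out_eq_mul U g
    rw [hu, hfU g u u.2]
  obtain ⟨w, hw, hwP, hwe⟩ := exists_norm (D := LocGal q) P hP s
    (fun τ x => Subtype.ext (cosetShift_smul h q τ x)) hp.out
    (fun x => Subtype.ext ((hs_it p x).trans (cosetShift_iterate_self h _)))
    (fun x => f (x : GQ ⧸ U).out)
    (fun τ ⟨x, hx⟩ => by
      induction x using QuotientGroup.induction_on with | H g => ?_
      show f (QuotientGroup.mk (loc q τ * g) : GQ ⧸ U).out = locAct q τ _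
      rw [hmk, hf]
      exact congrArg _ (hmk g).symm)
    (fun x => hfP _)
    (fun ⟨x, hx⟩ => by
      induction x using QuotientGroup.induction_on with | H g => ?_
      show f (QuotientGroup.mk (g * σ) : GQ ⧸ U).out = f (QuotientGroup.mk g : GQ ⧸ U).out
      rw [hmk, hmk, hfσ])
    (by
      rintro ⟨x, hx⟩ τ hτ a ha hafix hτa
      induction x using QuotientGroup.induction_on with | H g => ?_
      have h1 : (g * σ)⁻¹ * (loc q τ * g) ∈ U :=
        QuotientGroup.eq.1 (Eq.symm (congrArg Subtype.val hτ))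
      have hst : ∀ e : LocGal q,
          e • (⟨QuotientGroup.mk g, hx⟩ : X) = ⟨QuotientGroup.mk g, hx⟩ ↔ e ∈ locSub q U g := by
        intro e
        rw [mem_locSub, ← U.inv_mem_iff, Subtype.ext_iff]
        show (QuotientGroup.mk (loc q e * g) : GQ ⧸ U) = QuotientGroup.mk g ↔ _
        rw [QuotientGroup.eq]
        simp [mul_assoc]
      obtain ⟨b, hb, hbfix, hbe⟩ := hloc g ((hgood g).1 hx) τ h1 a ha
        (fun e he => hafix e ((hst e).2 he)) hτa
      refine ⟨b, hb, fun e he => hbfix e ((hst e).1 he), ?_⟩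
      rw [← hbe, normVal, AddMonoidHom.finsetSum_apply]
      rfl)
  let W : GQ → LocVal q := fun g =>
    if hg : g ∉ Z then w ⟨QuotientGroup.mk g, (hgood g).2 hg⟩ else 0
  have hW : ∀ g (hg : g ∉ Z), W g = w ⟨QuotientGroup.mk g, (hgood g).2 hg⟩ := fun g hg => dif_pos hg
  have hW0 : ∀ g, g ∈ Z → W g = 0 := fun g hg => dif_neg (not_not.2 hg)
  have hZpow : ∀ (i : ℕ) g, g * σ ^ i ∈ Z ↔ g ∈ Z := by
    intro i
    induction i with
    | zero => simp
    | succ i ih => intro g; rw [pow_succ, ← mul_assoc, hZσ, ih]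
  refine ⟨W, fun τ g => ?_, fun g u hu => ?_, fun g => ?_, fun g => ?_⟩
  · by_cases hg : g ∈ Z
    · rw [hW0 _ hg, hW0 _ ((hZl τ g).2 hg), map_zero]
    · rw [hW _ hg, hW _ (mt (hZl τ g).1 hg)]
      exact hw τ ⟨QuotientGroup.mk g, (hgood g).2 hg⟩
  · by_cases hg : g ∈ Z
    · rw [hW0 _ hg, hW0 _ ((hZr g u hu).2 hg)]
    · rw [hW _ hg, hW _ (mt (hZr g u hu).1 hg)]
      congr 1
      exact Subtype.ext (QuotientGroup.eq.2 (by simpa using U.inv_mem hu))
  · by_cases hg : g ∈ Z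
    · rw [hW0 _ hg]; exact P.zero_mem
    · rw [hW _ hg]; exact hwP _
  · by_cases hg : g ∈ Z
    · rw [hZ0 g hg]
      exact Finset.sum_eq_zero fun i _ => hW0 _ ((hZpow i g).2 hg)
    · have h2 := hwe ⟨QuotientGroup.mk g, (hgood g).2 hg⟩
      simp only [hmk] at h2
      rw [← h2]
      refine Finset.sum_congr rfl fun i _ => ?_
      rw [hW _ (mt (hZpow i g).1 hg)]
      congr 1
      exact Subtype.ext (((hs_it i _).trans (cosetShift_iterate_mk h i g)).symm)

/-- In a Kummer extension by a root of a unit, prime to the residue characteristic, every norm of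
an element is the norm of an element of the base. -/
theorem exists_norm_eq_of_kummer {q : Nat.Primes} {τ : LocGal q} {N : Subgroup (LocGal q)}
    (hN : ∀ e ∈ N, τ⁻¹ * e * τ ∈ N) (hτp : τ ^ p ∈ N) (hqp : p ≠ (q : ℕ))
    {β ζ : PadicAlgCl (q : ℕ)} (hζ : IsPrimitiveRoot ζ p) (hτζ : τ ζ = ζ)
    (hNζ : ∀ e ∈ N, e ζ = ζ) (hNβ : ∀ e ∈ N, e β = β) (hτβ : τ β = ζ * β) (hβ : ‖β‖ = 1)
    {y : PadicAlgCl (q : ℕ)} (hy : ∀ e ∈ N, e y = y) :
    ∃ c : PadicAlgCl (q : ℕ), (∀ e ∈ N, e c = c) ∧ τ c = c ∧ ‖c‖ = ‖y‖ := by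
  classical
  haveI : NeZero p := ⟨hp.out.ne_zero⟩
  rcases eq_or_ne y 0 with rfl | hy0
  · exact ⟨0, fun e _ => map_zero e, map_zero τ, rfl⟩
  have hζ1 : ‖ζ‖ = 1 := (pow_eq_one_iff_of_nonneg (norm_nonneg _) hp.out.ne_zero).1 (by
    rw [← norm_pow, hζ.pow_eq_one, norm_one])
  have hNpow : ∀ (i : ℕ), ∀ e ∈ N, (τ ^ i)⁻¹ * e * τ ^ i ∈ N := by
    intro i
    induction i with
    | zero => simp
    | succ i ih =>
      intro e he
      have := hN _ (ih e he)
      simpa [pow_succ, mul_assoc] using this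
  have hζp : ∀ j : ℕ, (ζ ^ (p - 1)) ^ j * ζ ^ j = 1 := fun j => by
    rw [← mul_pow, ← pow_succ, Nat.sub_add_cancel hp.out.pos, hζ.pow_eq_one, one_pow]
  let Y : ℕ → PadicAlgCl (q : ℕ) := fun j =>
    ∑ m ∈ range p, (ζ ^ (p - 1)) ^ (j * m) * (τ ^ m) y
  have hYle : ∀ j, ‖Y j‖ ≤ ‖y‖ := fun j =>
    IsUltrametricDist.norm_sum_le_of_forall_le_of_nonneg (norm_nonneg _) fun m _ => by
      rw [norm_mul, norm_pow, norm_pow, hζ1, one_pow, one_pow, one_mul, norm_locGal]
  have hYfix : ∀ j, ∀ e ∈ N, e (Y j) = Y j := by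
    intro j e he
    rw [map_sum]
    refine Finset.sum_congr rfl fun m _ => ?_
    rw [map_mul, map_pow, map_pow, hNζ e he, ← AlgEquiv.mul_apply,
      show e * τ ^ m = τ ^ m * ((τ ^ m)⁻¹ * e * τ ^ m) by group, AlgEquiv.mul_apply,
      hy _ (hNpow m e he)]
  have hYτ : ∀ j, τ (Y j) = ζ ^ j * Y j := by
    intro j
    have h1 : τ (Y j) = ∑ m ∈ range p, (ζ ^ (p - 1)) ^ (j * m) * (τ ^ (m + 1)) y := by
      rw [map_sum]
      refine Finset.sum_congr rfl fun m _ => ?_
      rw [map_mul, map_pow, map_pow, hτζ, pow_succ', AlgEquiv.mul_apply]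
    have h2 : ∀ m, ζ ^ j * ((ζ ^ (p - 1)) ^ (j * (m + 1)) * (τ ^ (m + 1)) y)
        = (ζ ^ (p - 1)) ^ (j * m) * (τ ^ (m + 1)) y := fun m => by
      rw [mul_add, mul_one, pow_add]
      linear_combination ((ζ ^ (p - 1)) ^ (j * m) * (τ ^ (m + 1)) y) * hζp j
    rw [h1, ← Finset.sum_congr rfl fun m _ => h2 m, ← Finset.mul_sum]
    congr 1
    have e1 := Finset.sum_range_succ' (fun m => (ζ ^ (p - 1)) ^ (j * m) * (τ ^ m) y) p
    rw [Finset.sum_range_succ] at e1
    simp only [mul_zero, pow_zero, one_mul, AlgEquiv.one_apply] at e1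
    rw [hy _ hτp, ← pow_mul, show (p - 1) * (j * p) = p * ((p - 1) * j) by ring, pow_mul,
      hζ.pow_eq_one, one_pow, one_mul] at e1
    exact (add_right_cancel e1).symm
  have hsum : ∑ j ∈ range p, Y j = (p : PadicAlgCl (q : ℕ)) * y := by
    rw [Finset.sum_comm, Finset.sum_eq_single_of_mem 0 (Finset.mem_range.2 hp.out.pos)]
    · simp
    · intro m hm hm0
      rw [← Finset.sum_mul, mul_eq_zero]
      left
      have h1 : (ζ ^ (p - 1)) ^ m ≠ 1 := by
        intro h1
        have h2 := hζp m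
        rw [h1, one_mul] at h2
        exact hζ.pow_ne_one_of_pos_of_lt hm0 (Finset.mem_range.1 hm) h2
      have h3 := geom_sum_mul ((ζ ^ (p - 1)) ^ m) p
      have h4 : ((ζ ^ (p - 1)) ^ m) ^ p = 1 := by
        rw [pow_right_comm, pow_right_comm ζ, hζ.pow_eq_one, one_pow, one_pow]
      rw [h4, sub_self, mul_eq_zero] at h3
      refine Eq.trans (Finset.sum_congr rfl fun j _ => ?_) (h3.resolve_right (sub_ne_zero.2 h1))
      rw [mul_comm j m, pow_mul]
  have hpn : ‖(p : PadicAlgCl (q : ℕ))‖ = 1 := by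
    rw [← map_natCast (algebraMap ℚ_[(q : ℕ)] (PadicAlgCl (q : ℕ))), norm_algebraMap']
    exact Padic.norm_natCast_eq_one_iff.2 ((Nat.coprime_primes q.2 hp.out).2 (Ne.symm hqp))
  obtain ⟨j, -, hj⟩ : ∃ j ∈ range p, ‖y‖ ≤ ‖Y j‖ := by
    obtain ⟨j, hj, hle⟩ :=
      IsUltrametricDist.exists_norm_finset_sum_le (range p) Y
    refine ⟨j, hj (Finset.nonempty_range_iff.2 hp.out.ne_zero), ?_⟩
    rwa [hsum, norm_mul, hpn, one_mul] at hle
  have hβ0 : β ≠ 0 := fun h0 => by rw [h0, norm_zero] at hβ; exact zero_ne_one hβ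
  refine ⟨Y j / β ^ j, fun e he => by rw [map_div₀, map_pow, hYfix j e he, hNβ e he], ?_, ?_⟩
  · rw [map_div₀, map_pow, hYτ, hτβ, mul_pow, mul_div_mul_left _ _ (pow_ne_zero _ ?_)]
    exact hζ.ne_zero hp.out.ne_zero
  · rw [norm_div, norm_pow, hβ, one_pow, div_one]
    exact le_antisymm (hYle j) hj

end Fermat.Agent.PoitouTate
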