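import Fermat.Agent.PoitouTate.LocalUnits
import Fermat.Agent.PoitouTate.IdelePrincipal

/-!
# Lowering the set of primes

For `T ⊆ T'` the ideles for `T'` of the levels of `T` map to the ideles for `T`, by taking
valuations at the primes of `T' \ T`. The kernel consists of unit families.
-/

set_option autoImplicit false
set_option linter.style.haveILetI false

noncomputable section

namespace Fermat.Agent.PoitouTate

local notation "Qb" => AlgebraicClosure ℚ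

open Classical in
/-- The valuation of a local value whose norm is a power of `q`. -/
def valOrd (q : Nat.Primes) (x : LocVal q) : ℤ :=
  if h : ∃ k : ℤ, ‖((Additive.toMul x : (PadicAlgCl (q : ℕ))ˣ) : PadicAlgCl (q : ℕ))‖
      = ((q : ℕ) : ℝ) ^ (-k) then h.choose else 0

theorem valOrd_eq {q : Nat.Primes} {x : LocVal q} {k : ℤ}
    (h : ‖((Additive.toMul x : (PadicAlgCl (q : ℕ))ˣ) : PadicAlgCl (q : ℕ))‖
      = ((q : ℕ) : ℝ) ^ (-k)) : valOrd q x = k := by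
  have hex : ∃ k : ℤ, ‖((Additive.toMul x : (PadicAlgCl (q : ℕ))ˣ) : PadicAlgCl (q : ℕ))‖
      = ((q : ℕ) : ℝ) ^ (-k) := ⟨k, h⟩
  rw [valOrd, dif_pos hex]
  exact ord_eq_of_zpow_eq (hex.choose_spec.symm.trans h)

theorem valOrd_add {q : Nat.Primes} {x y : LocVal q} {a b : ℤ}
    (hx : ‖((Additive.toMul x : (PadicAlgCl (q : ℕ))ˣ) : PadicAlgCl (q : ℕ))‖
      = ((q : ℕ) : ℝ) ^ (-a))
    (hy : ‖((Additive.toMul y : (PadicAlgCl (q : ℕ))ˣ) : PadicAlgCl (q : ℕ))‖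
      = ((q : ℕ) : ℝ) ^ (-b)) : valOrd q (x + y) = a + b := by
  refine valOrd_eq ?_
  rw [toMul_add, Units.val_mul, norm_mul, hx, hy, ← zpow_add₀ (Nat.cast_ne_zero.2 q.2.ne_zero)]
  congr 1; ring

theorem valOrd_nsmul_primeVal (q : Nat.Primes) (k : ℤ) : valOrd q (k • primeVal q) = k := by
  refine valOrd_eq ?_
  have hp : ‖((q : ℕ) : PadicAlgCl (q : ℕ))‖ = ((q : ℕ) : ℝ)⁻¹ := by
    rw [← map_natCast (algebraMap ℚ_[(q : ℕ)] (PadicAlgCl (q : ℕ))), norm_algebraMap', Padic.norm_p]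
  simp only [toMul_zsmul, primeVal, toMul_ofMul, Units.val_zpow_eq_zpow_val, Units.val_mk0,
    norm_zpow, hp, inv_zpow, ← zpow_neg]

theorem valOrd_eq_zero_of_mem_unitVal {q : Nat.Primes} {x : LocVal q} (hx : x ∈ unitVal q) :
    valOrd q x = 0 :=
  valOrd_eq (by rw [neg_zero, zpow_zero]; exact hx)

variable (T T' : Finset Nat.Primes)

/-- The ideles for `T'` of the levels of `T`. -/
def lowerable : AddSubgroup (J T') where
  carrier := {f | ∃ L, IsLvl T L ∧ ∀ s ∈ L.fixingSubgroup, s • f = f}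
  zero_mem' := ⟨⊥, isLvl_bot T, fun s _ => smul_zero s⟩
  add_mem' := by
    rintro f f' ⟨L, hL, h⟩ ⟨L', hL', h'⟩
    exact ⟨L ⊔ L', hL.sup hL', fun s hs => by
      rw [smul_add, h s (IntermediateField.fixingSubgroup_antitone le_sup_left hs),
        h' s (IntermediateField.fixingSubgroup_antitone le_sup_right hs)]⟩
  neg_mem' := by
    rintro f ⟨L, hL, h⟩
    exact ⟨L, hL, fun s hs => by rw [smul_neg, h s hs]⟩

variable {T T'}

theorem smul_mem_lowerable (σ : GQ) {f : J T'} (hf : f ∈ lowerable T T') :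
    σ • f ∈ lowerable T T' := by
  obtain ⟨L, hL, h⟩ := hf
  refine ⟨L, hL, fun s hs => ?_⟩
  have h1 := h (σ⁻¹ * s * σ) (by simpa using hL.normal.conj_mem s hs σ⁻¹)
  calc s • σ • f = σ • ((σ⁻¹ * s * σ) • f) := by rw [← mul_smul, ← mul_smul]; congr 1; group
    _ = σ • f := by rw [h1]

theorem exists_norm_fin {f : J T'} (hf : f ∈ lowerable T T') (q : ↥T') (hq : q.1 ∉ T) (g : GQ) :
    ∃ k : ℤ, ‖((Additive.toMul ((f : Amb T').fin q g) : (PadicAlgCl (q.1 : ℕ))ˣ) :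
      PadicAlgCl (q.1 : ℕ))‖ = ((q.1 : ℕ) : ℝ) ^ (-k) := by
  obtain ⟨L, hL, h⟩ := hf
  refine exists_norm_eq_zpow_locField hL hq le_rfl g (mem_locField.2 fun τ hτ => ?_)
    (Units.ne_zero _)
  rw [← coe_locAct, fin_mem_locField f.2 q (fun s hs => congrArg Subtype.val (h s hs)) g hτ]

variable (hTT' : T ⊆ T')

open Classical in
/-- The lowered family. -/
def lowerAmb (f : Amb T') : Amb T :=
  (fun q g => f.fin ⟨q.1, hTT' q.2⟩ g,
    fun q g => if h : q.1 ∈ T' then valOrd q.1 (f.fin ⟨q.1, h⟩ g) else f.ord ⟨q.1, h⟩ g)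

theorem lowerAmb_fin (f : Amb T') (q : ↥T) (g : GQ) :
    (lowerAmb hTT' f).fin q g = f.fin ⟨q.1, hTT' q.2⟩ g := rfl

theorem lowerAmb_ord_of_mem (f : Amb T') (q : {q : Nat.Primes // q ∉ T}) (h : q.1 ∈ T') (g : GQ) :
    (lowerAmb hTT' f).ord q g = valOrd q.1 (f.fin ⟨q.1, h⟩ g) := by
  classical
  show (if h : q.1 ∈ T' then valOrd q.1 (f.fin ⟨q.1, h⟩ g) else f.ord ⟨q.1, h⟩ g) = _
  rw [dif_pos h]

theorem lowerAmb_ord_of_not_mem (f : Amb T') (q : {q : Nat.Primes // q ∉ T}) (h : q.1 ∉ T')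
    (g : GQ) : (lowerAmb hTT' f).ord q g = f.ord ⟨q.1, h⟩ g := by
  classical
  show (if h : q.1 ∈ T' then valOrd q.1 (f.fin ⟨q.1, h⟩ g) else f.ord ⟨q.1, h⟩ g) = _
  rw [dif_neg h]

theorem lowerAmb_add {f f' : J T'} (hf : f ∈ lowerable T T') (hf' : f' ∈ lowerable T T') :
    lowerAmb hTT' ((f + f' : J T') : Amb T') = lowerAmb hTT' f + lowerAmb hTT' f' := by
  refine Amb.ext (fun q g => rfl) fun q g => ?_
  by_cases h : q.1 ∈ T'
  · rw [Amb.ord_add, lowerAmb_ord_of_mem hTT' _ q h, lowerAmb_ord_of_mem hTT' _ q h,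
      lowerAmb_ord_of_mem hTT' _ q h]
    obtain ⟨a, ha⟩ := exists_norm_fin hf ⟨q.1, h⟩ q.2 g
    obtain ⟨b, hb⟩ := exists_norm_fin hf' ⟨q.1, h⟩ q.2 g
    rw [valOrd_eq ha, valOrd_eq hb, AddSubgroup.coe_add, Amb.fin_add, valOrd_add ha hb]
  · rw [Amb.ord_add, lowerAmb_ord_of_not_mem hTT' _ q h, lowerAmb_ord_of_not_mem hTT' _ q h,
      lowerAmb_ord_of_not_mem hTT' _ q h]
    rfl

theorem lowerAmb_smul (σ : GQ) (f : Amb T') :
    lowerAmb hTT' (σ • f) = σ • lowerAmb hTT' f := by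
  refine Amb.ext (fun q g => rfl) fun q g => ?_
  by_cases h : q.1 ∈ T'
  · rw [Amb.ord_smul, lowerAmb_ord_of_mem hTT' _ q h, lowerAmb_ord_of_mem hTT' _ q h]; rfl
  · rw [Amb.ord_smul, lowerAmb_ord_of_not_mem hTT' _ q h, lowerAmb_ord_of_not_mem hTT' _ q h]; rfl

theorem lowerAmb_mem_J {f : J T'} (hf : f ∈ lowerable T T') :
    lowerAmb hTT' (f : Amb T') ∈ J T := by
  refine ⟨fun q τ g => f.2.1 ⟨q.1, hTT' q.2⟩ τ g, fun q τ g => ?_, ?_, ?_⟩
  · by_cases h : q.1 ∈ T'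
    · rw [lowerAmb_ord_of_mem hTT' _ q h, lowerAmb_ord_of_mem hTT' _ q h]
      obtain ⟨a, ha⟩ := exists_norm_fin hf ⟨q.1, h⟩ q.2 g
      rw [valOrd_eq ha]
      refine valOrd_eq ?_
      rw [f.2.1 ⟨q.1, h⟩ τ g, coe_locAct, norm_locGal]
      exact ha
    · rw [lowerAmb_ord_of_not_mem hTT' _ q h, lowerAmb_ord_of_not_mem hTT' _ q h]
      exact f.2.2.1 ⟨q.1, h⟩ τ g
  · obtain ⟨L, hL, h⟩ := hf
    exact ⟨L, hL, fun s hs => by rw [← lowerAmb_smul, ← coe_smul_J, h s hs]⟩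
  · refine Set.Finite.of_finite_image (f := fun q => q.1) ?_ Subtype.val_injective.injOn
    refine (T'.finite_toSet.union ((f.2.2.2.2).image fun q => q.1)).subset ?_
    rintro _ ⟨q, ⟨g, hg⟩, rfl⟩
    by_cases h : q.1 ∈ T'
    · exact Or.inl h
    · exact Or.inr ⟨⟨q.1, h⟩, ⟨g, by rwa [lowerAmb_ord_of_not_mem hTT' _ q h] at hg⟩, rfl⟩

/-- The lowering homomorphism. -/
def lower : lowerable T T' →+ J T :=
  AddMonoidHom.mk' (fun f => ⟨lowerAmb hTT' ((f : J T') : Amb T'), lowerAmb_mem_J hTT' f.2⟩)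
    fun f f' => Subtype.ext (lowerAmb_add hTT' f.2 f'.2)

theorem coe_lower (f : lowerable T T') :
    ((lower hTT' f : J T) : Amb T) = lowerAmb hTT' ((f : J T') : Amb T') := rfl

theorem lower_smul (σ : GQ) (f : lowerable T T') :
    lower hTT' ⟨σ • (f : J T'), smul_mem_lowerable σ f.2⟩ = σ • lower hTT' f :=
  Subtype.ext (lowerAmb_smul hTT' σ _)

/-- Lowering a principal idele gives the principal idele of the same element. -/
theorem isPrincipalOf_lower {f : lowerable T T'} {x : Qb}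
    (hx : IsPrincipalOf ((f : J T') : Amb T') x) :
    IsPrincipalOf ((lower hTT' f : J T) : Amb T) x := by
  refine ⟨hx.ne_zero, fun q g => hx.fin_eq ⟨q.1, hTT' q.2⟩ g, fun q g => ?_⟩
  rw [coe_lower]
  by_cases h : q.1 ∈ T'
  · obtain ⟨a, ha⟩ := exists_norm_fin f.2 ⟨q.1, h⟩ q.2 g
    rw [lowerAmb_ord_of_mem hTT' _ q h, valOrd_eq ha, ← ha, hx.fin_eq ⟨q.1, h⟩ g]
  · rw [lowerAmb_ord_of_not_mem hTT' _ q h, hx.ord_eq ⟨q.1, h⟩ g]

/-- Lowering is onto, level by level. -/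
theorem exists_lift {L : IntermediateField ℚ Qb} (hL : IsLvl T L) {U : Subgroup GQ}
    (hU : L.fixingSubgroup ≤ U) (f : J T) (hf : ∀ s ∈ U, s • f = f) :
    ∃ f' : lowerable T T', (∀ s ∈ U, s • (f' : J T') = f') ∧ lower hTT' f' = f := by
  classical
  have hfA : ∀ s ∈ U, s • (f : Amb T) = (f : Amb T) := fun s hs => congrArg Subtype.val (hf s hs)
  let F : Amb T' :=
    (fun q g => if h : q.1 ∈ T then (f : Amb T).fin ⟨q.1, h⟩ g
        else ((f : Amb T).ord ⟨q.1, h⟩ g) • primeVal q.1,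
      fun q g => (f : Amb T).ord ⟨q.1, fun h => q.2 (hTT' h)⟩ g)
  have hF1 : ∀ (q : ↥T') (h : q.1 ∈ T) g, F.fin q g = (f : Amb T).fin ⟨q.1, h⟩ g := fun q h g => by
    show dite _ _ _ = _
    rw [dif_pos h]
  have hF2 : ∀ (q : ↥T') (h : q.1 ∉ T) g,
      F.fin q g = ((f : Amb T).ord ⟨q.1, h⟩ g) • primeVal q.1 := fun q h g => by
    show dite _ _ _ = _
    rw [dif_neg h]
  have hfix : ∀ s ∈ U, s • F = F := fun s hs => by
    refine Amb.ext (fun q g => ?_) fun q g => ?_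
    · by_cases h : q.1 ∈ T
      · rw [Amb.fin_smul, hF1 q h, hF1 q h]
        exact congrArg (fun e : Amb T => e.fin ⟨q.1, h⟩ g) (hfA s hs)
      · rw [Amb.fin_smul, hF2 q h, hF2 q h]
        exact congrArg (fun e : Amb T => e.ord ⟨q.1, h⟩ g • primeVal q.1) (hfA s hs)
    · exact congrArg (fun e : Amb T => e.ord ⟨q.1, fun h => q.2 (hTT' h)⟩ g) (hfA s hs)
  have hFJ : F ∈ J T' := by
    refine ⟨fun q τ g => ?_, fun q τ g => f.2.2.1 ⟨q.1, fun h => q.2 (hTT' h)⟩ τ g,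
      ⟨L, hL.mono hTT', fun s hs => hfix s (hU hs)⟩, ?_⟩
    · by_cases h : q.1 ∈ T
      · rw [hF1 q h, hF1 q h]; exact f.2.1 ⟨q.1, h⟩ τ g
      · rw [hF2 q h, hF2 q h, map_zsmul, locAct_primeVal, f.2.2.1 ⟨q.1, h⟩ τ g]
    · refine Set.Finite.of_finite_image (f := fun q => q.1) ?_ Subtype.val_injective.injOn
      refine ((f.2.2.2.2).image fun q => q.1).subset ?_
      rintro _ ⟨q, ⟨g, hg⟩, rfl⟩
      exact ⟨⟨q.1, fun h => q.2 (hTT' h)⟩, ⟨g, hg⟩, rfl⟩
  refine ⟨⟨⟨F, hFJ⟩, L, hL, fun s hs => Subtype.ext (hfix s (hU hs))⟩,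
    fun s hs => Subtype.ext (hfix s hs), Subtype.ext (Amb.ext (fun q g => ?_) fun q g => ?_)⟩
  · rw [coe_lower, lowerAmb_fin]; exact hF1 ⟨q.1, hTT' q.2⟩ q.2 g
  · rw [coe_lower]
    by_cases h : q.1 ∈ T'
    · rw [lowerAmb_ord_of_mem hTT' _ q h]
      show valOrd _ (F.fin ⟨q.1, h⟩ g) = _
      rw [hF2 ⟨q.1, h⟩ q.2]
      exact valOrd_nsmul_primeVal _ _
    · rw [lowerAmb_ord_of_not_mem hTT' _ q h]; rfl

variable (T T') in
/-- The kernel of lowering: unit families at the primes of `T' \ T`. -/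
def unitKer : AddSubgroup (J T') where
  carrier := {f | f ∈ lowerable T T' ∧ (∀ q g, (f : Amb T').ord q g = 0) ∧
    (∀ (q : ↥T'), q.1 ∈ T → ∀ g, (f : Amb T').fin q g = 0) ∧
    ∀ (q : ↥T') g, (f : Amb T').fin q g ∈ unitVal q.1}
  zero_mem' := ⟨zero_mem _, fun q g => rfl, fun q _ g => rfl, fun q g => (unitVal q.1).zero_mem⟩
  add_mem' := by
    rintro f f' ⟨h, h1, h2, h3⟩ ⟨h', h1', h2', h3'⟩
    exact ⟨add_mem h h', fun q g => by simp [h1 q g, h1' q g],
      fun q hq g => by simp [h2 q hq g, h2' q hq g],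
      fun q g => (unitVal q.1).add_mem (h3 q g) (h3' q g)⟩
  neg_mem' := by
    rintro f ⟨h, h1, h2, h3⟩
    exact ⟨neg_mem h, fun q g => by simp [h1 q g], fun q hq g => by simp [h2 q hq g],
      fun q g => (unitVal q.1).neg_mem (h3 q g)⟩

theorem lower_eq_zero_iff {f : lowerable T T'} :
    lower hTT' f = 0 ↔ (f : J T') ∈ unitKer T T' := by
  refine ⟨fun h => ?_, fun h => ?_⟩
  · have h0 : lowerAmb hTT' ((f : J T') : Amb T') = 0 := congrArg Subtype.val h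
    refine ⟨f.2, fun q g => ?_, fun q hq g => ?_, fun q g => ?_⟩
    · have := congrArg (fun e : Amb T => e.ord ⟨q.1, fun h => q.2 (hTT' h)⟩ g) h0
      simp only [Amb.ord_zero] at this
      rwa [lowerAmb_ord_of_not_mem hTT' _ _ q.2] at this
    · exact congrArg (fun e : Amb T => e.fin ⟨q.1, hq⟩ g) h0
    · by_cases hq : q.1 ∈ T
      · have : ((f : J T') : Amb T').fin q g = 0 :=
          congrArg (fun e : Amb T => e.fin ⟨q.1, hq⟩ g) h0
        rw [this]; exact (unitVal q.1).zero_mem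
      · obtain ⟨a, ha⟩ := exists_norm_fin f.2 q hq g
        have h1 := congrArg (fun e : Amb T => e.ord ⟨q.1, hq⟩ g) h0
        simp only [Amb.ord_zero] at h1
        rw [lowerAmb_ord_of_mem hTT' _ _ q.2, valOrd_eq ha] at h1
        rw [h1, neg_zero, zpow_zero] at ha
        exact ha
  · obtain ⟨-, h1, h2, h3⟩ := h
    refine Subtype.ext (Amb.ext (fun q g => ?_) fun q g => ?_)
    · rw [coe_lower, lowerAmb_fin]; exact h2 _ q.2 g
    · rw [coe_lower]
      by_cases hq : q.1 ∈ T'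
      · rw [lowerAmb_ord_of_mem hTT' _ q hq]
        exact valOrd_eq_zero_of_mem_unitVal (h3 ⟨q.1, hq⟩ g)
      · rw [lowerAmb_ord_of_not_mem hTT' _ q hq]; exact h1 _ g

/-! ### Cyclic cohomology of the kernel -/

section Cyclic

variable {L : IntermediateField ℚ Qb} (hL : IsLvl T L) {U : Subgroup GQ}
  (hU : L.fixingSubgroup ≤ U) {p : ℕ} (hp : p.Prime) {σ : GQ} (hσ : σ ∉ U) (hσp : σ ^ p ∈ U)
  (hnorm : ∀ s ∈ U, σ * s * σ⁻¹ ∈ U)

include hTT' hL hU in
/-- Assemble a family of units into an element of the kernel. -/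
theorem exists_unitKer (w : ∀ q : ↥T', GQ → LocVal q.1)
    (hw : ∀ (q : ↥T') (τ : LocGal q.1) (g : GQ), w q (loc q.1 τ * g) = locAct q.1 τ (w q g))
    (hwU : ∀ (q : ↥T') (g : GQ), ∀ u ∈ U, w q (g * u) = w q g)
    (hwP : ∀ (q : ↥T') (g : GQ), w q g ∈ unitVal q.1)
    (hw0 : ∀ q : ↥T', q.1 ∈ T → ∀ g, w q g = 0) :
    ∃ f : J T', f ∈ unitKer T T' ∧ (∀ s ∈ U, s • f = f) ∧ ∀ q g, (f : Amb T').fin q g = w q g := by
  let F : Amb T' := (w, fun _ _ => 0)
  have hfix : ∀ s ∈ U, s • F = F := fun s hs =>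
    Amb.ext (fun q g => by rw [Amb.fin_smul]; exact hwU q g s hs)
      fun q g => by rw [Amb.ord_smul]; rfl
  have hFJ : F ∈ J T' :=
    ⟨hw, fun _ _ _ => rfl, ⟨L, hL.mono hTT', fun s hs => hfix s (hU hs)⟩, by
      refine Set.finite_empty.subset ?_
      rintro q ⟨g, hg⟩
      exact hg rfl⟩
  exact ⟨⟨F, hFJ⟩, ⟨⟨L, hL, fun s hs => Subtype.ext (hfix s (hU hs))⟩, fun _ _ => rfl, hw0, hwP⟩,
    fun s hs => Subtype.ext (hfix s hs), fun _ _ => rfl⟩

include hTT' hL hU hp hσ hσp hnorm in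
/-- A norm-zero element of the kernel is a difference. -/
theorem exists_unitKer_twist {u : J T'} (hu : u ∈ unitKer T T') (huU : ∀ s ∈ U, s • u = u)
    (h0 : ∑ i ∈ Finset.range p, σ ^ i • u = 0) :
    ∃ w ∈ unitKer T T', (∀ s ∈ U, s • w = w) ∧ σ • w - w = u := by
  classical
  obtain ⟨-, h1, h2, h3⟩ := hu
  have hsum : ∀ (q : ↥T') g, ∑ i ∈ Finset.range p, (u : Amb T').fin q (g * σ ^ i) = 0 := fun q g => by
    let ev : J T' →+ LocVal q.1 :=
      { toFun := fun f => (f : Amb T').fin q g, map_zero' := rfl, map_add' := fun _ _ => rfl }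
    have h := congrArg ev h0
    rw [map_sum, map_zero] at h
    exact h
  have hex : ∀ q : ↥T', ∃ w : GQ → LocVal q.1,
      (∀ (τ : LocGal q.1) g, w (loc q.1 τ * g) = locAct q.1 τ (w g)) ∧
      (∀ g, ∀ s ∈ U, w (g * s) = w g) ∧ (∀ g, w g ∈ unitVal q.1) ∧
      (q.1 ∈ T → ∀ g, w g = 0) ∧ ∀ g, w (g * σ) - w g = (u : Amb T').fin q g := by
    intro q
    by_cases hq : q.1 ∈ T
    · exact ⟨0, fun τ g => (map_zero _).symm, fun _ _ _ => rfl, fun _ => (unitVal q.1).zero_mem,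
        fun _ _ => rfl, fun g => by simp [h2 q hq g]⟩
    · obtain ⟨w, hw, hwU, hwP, hwe⟩ := exists_unit_twist hL hq hU hp hσ hσp hnorm
        ((u : Amb T').fin q) (fun τ g => u.2.1 q τ g)
        (fun g s hs => congrArg (fun e : J T' => (e : Amb T').fin q g) (huU s hs)) (h3 q) (hsum q)
      exact ⟨w, hw, hwU, hwP, fun h => absurd h hq, hwe⟩
  choose w hw hwU hwP hw0 hwe using hex
  obtain ⟨f, hf, hfU, hfe⟩ := exists_unitKer hTT' hL hU w hw hwU hwP hw0
  refine ⟨f, hf, hfU, Subtype.ext (Amb.ext (fun q g => ?_) fun q g => ?_)⟩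
  · simp [hfe, hwe]
  · simp [h1 q g, hf.2.1 q]

include hTT' hL hU hp hσ hσp hnorm in
/-- A fixed element of the kernel is a norm. -/
theorem exists_unitKer_norm {u : J T'} (hu : u ∈ unitKer T T') (huU : ∀ s ∈ U, s • u = u)
    (hσu : σ • u = u) :
    ∃ w ∈ unitKer T T', (∀ s ∈ U, s • w = w) ∧ ∑ i ∈ Finset.range p, σ ^ i • w = u := by
  classical
  obtain ⟨-, h1, h2, h3⟩ := hu
  have hex : ∀ q : ↥T', ∃ w : GQ → LocVal q.1,
      (∀ (τ : LocGal q.1) g, w (loc q.1 τ * g) = locAct q.1 τ (w g)) ∧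
      (∀ g, ∀ s ∈ U, w (g * s) = w g) ∧ (∀ g, w g ∈ unitVal q.1) ∧
      (q.1 ∈ T → ∀ g, w g = 0) ∧
      ∀ g, ∑ i ∈ Finset.range p, w (g * σ ^ i) = (u : Amb T').fin q g := by
    intro q
    by_cases hq : q.1 ∈ T
    · exact ⟨0, fun τ g => (map_zero _).symm, fun _ _ _ => rfl, fun _ => (unitVal q.1).zero_mem,
        fun _ _ => rfl, fun g => by simp [h2 q hq g]⟩
    · obtain ⟨w, hw, hwU, hwP, hwe⟩ := exists_unit_norm hL hq hU hp hσ hσp hnorm
        ((u : Amb T').fin q) (fun τ g => u.2.1 q τ g)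
        (fun g s hs => congrArg (fun e : J T' => (e : Amb T').fin q g) (huU s hs)) (h3 q)
        (fun g => congrArg (fun e : J T' => (e : Amb T').fin q g) hσu)
      exact ⟨w, hw, hwU, hwP, fun h => absurd h hq, hwe⟩
  choose w hw hwU hwP hw0 hwe using hex
  obtain ⟨f, hf, hfU, hfe⟩ := exists_unitKer hTT' hL hU w hw hwU hwP hw0
  refine ⟨f, hf, hfU, Subtype.ext (Amb.ext (fun q g => ?_) fun q g => ?_)⟩
  · let ev : J T' →+ LocVal q.1 :=
      { toFun := fun f => (f : Amb T').fin q g, map_zero' := rfl, map_add' := fun _ _ => rfl }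
    show ev (∑ i ∈ Finset.range p, σ ^ i • f) = _
    rw [map_sum, ← hwe q g]
    exact Finset.sum_congr rfl fun i _ => hfe q _
  · let ev : J T' →+ ℤ :=
      { toFun := fun f => (f : Amb T').ord q g, map_zero' := rfl, map_add' := fun _ _ => rfl }
    show ev (∑ i ∈ Finset.range p, σ ^ i • f) = _
    rw [map_sum, h1 q g]
    exact Finset.sum_eq_zero fun i _ => hf.2.1 q _

end Cyclic

/-! ### Classes -/

/-- The classes of lowerable ideles. -/
def clsLowerable (T T' : Finset Nat.Primes) : AddSubgroup (Cls T') :=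
  (lowerable T T').map (clsMk T')

theorem exists_lowerable_representative (hT' : T'.Nonempty) {L : IntermediateField ℚ Qb}
    (hL : IsLvl T L) (hTT' : T ⊆ T') {U : Subgroup GQ} (hU : L.fixingSubgroup ≤ U) {c : Cls T'}
    (hc : c ∈ clsLev T' U) :
    ∃ f : lowerable T T', (∀ s ∈ U, s • (f : J T') = f) ∧ clsMk T' f = c := by
  obtain ⟨f, hf, rfl⟩ := levelRepresentatives hT' L (hL.mono hTT') U hU c hc
  exact ⟨⟨f, L, hL, fun s hs => hf s (hU hs)⟩, hf, rfl⟩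

theorem clsMk_lower_eq_of_eq {f f' : lowerable T T'} (h : clsMk T' (f : J T') = clsMk T' f') :
    clsMk T (lower hTT' f) = clsMk T (lower hTT' f') := by
  rw [← sub_eq_zero, ← map_sub, clsMk_eq_zero_iff] at h
  obtain ⟨x, hx⟩ := h
  rw [← sub_eq_zero, ← map_sub, ← map_sub, clsMk_eq_zero_iff]
  exact ⟨x, isPrincipalOf_lower hTT' (f := f - f') hx⟩

/-- Lowering of classes. -/
def clsLower : clsLowerable T T' →+ Cls T :=
  AddMonoidHom.mk' (fun c => clsMk T (lower hTT'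
    ⟨(AddSubgroup.mem_map.1 c.2).choose, (AddSubgroup.mem_map.1 c.2).choose_spec.1⟩)) fun c c' => by
    rw [← map_add, ← map_add]
    refine clsMk_lower_eq_of_eq hTT' ?_
    exact ((AddSubgroup.mem_map.1 (c + c').2).choose_spec.2).trans
      (((map_add (clsMk T') _ _).trans (congrArg₂ (· + ·) (AddSubgroup.mem_map.1 c.2).choose_spec.2
        (AddSubgroup.mem_map.1 c'.2).choose_spec.2)).symm)

theorem clsLower_mk (f : lowerable T T') :
    clsLower hTT' ⟨clsMk T' f, AddSubgroup.mem_map_of_mem _ f.2⟩ = clsMk T (lower hTT' f) :=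
  clsMk_lower_eq_of_eq hTT'
    ((AddSubgroup.mem_map.1 (AddSubgroup.mem_map_of_mem (clsMk T') f.2)).choose_spec.2)

/-- Lowering of classes is onto, level by level. -/
theorem exists_cls_lift (hT : T.Nonempty) {L : IntermediateField ℚ Qb} (hL : IsLvl T L)
    {U : Subgroup GQ} (hU : L.fixingSubgroup ≤ U) {c : Cls T} (hc : c ∈ clsLev T U) :
    ∃ c' : clsLowerable T T', (c' : Cls T') ∈ clsLev T' U ∧ clsLower hTT' c' = c := by
  obtain ⟨f, hf, rfl⟩ := levelRepresentatives hT L hL U hU c hc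
  obtain ⟨f', hf', he⟩ := exists_lift hTT' hL hU f hf
  refine ⟨⟨clsMk T' f', AddSubgroup.mem_map_of_mem _ f'.2⟩, fun s hs => ?_, ?_⟩
  · show s • clsMk T' (f' : J T') = clsMk T' (f' : J T')
    rw [smul_clsMk, hf' s hs]
  · rw [clsLower_mk, he]

/-- The kernel on classes of a level comes from the unit families of that level. -/
theorem exists_unitKer_of_clsLower_eq_zero (hT : T.Nonempty) {L : IntermediateField ℚ Qb}
    (hL : IsLvl T L) {U : Subgroup GQ} (hU : L.fixingSubgroup ≤ U) {c : clsLowerable T T'}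
    (hc : (c : Cls T') ∈ clsLev T' U) (h0 : clsLower hTT' c = 0) :
    ∃ u ∈ unitKer T T', (∀ s ∈ U, s • u = u) ∧ clsMk T' u = c := by
  obtain ⟨f, hf, he⟩ := exists_lowerable_representative (hT.mono hTT') hL hTT' hU hc
  have hc' : c = ⟨clsMk T' f, AddSubgroup.mem_map_of_mem _ f.2⟩ := Subtype.ext he.symm
  rw [hc', clsLower_mk, clsMk_eq_zero_iff] at h0
  obtain ⟨x, hx⟩ := h0
  have hlow : ∀ s ∈ U, s • lower hTT' f = lower hTT' f := fun s hs => by
    rw [← lower_smul]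
    exact congrArg (lower hTT') (Subtype.ext (hf s hs))
  have hfix : ∀ s ∈ U, s x = x := fun s hs =>
    hx.apply_eq_self hT (congrArg Subtype.val (hlow s hs))
  have hxL : x ∈ L := by
    rw [← InfiniteGalois.fixedField_fixingSubgroup L, IntermediateField.mem_fixedField_iff]
    exact fun s hs => hfix s (hU hs)
  obtain ⟨P, hP, hP0, hPfix⟩ := exists_principal (hL.mono hTT') hxL hx.ne_zero
  have hPl : P ∈ lowerable T T' := ⟨L, hL, fun s hs => hPfix s (hfix s (hU hs))⟩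
  refine ⟨(f : J T') - P, ?_, fun s hs => by rw [smul_sub, hf s hs, hPfix s (hfix s hs)],
    by rw [map_sub, hP0, sub_zero, he]⟩
  refine (lower_eq_zero_iff hTT' (f := f - ⟨P, hPl⟩)).1 ?_
  rw [map_sub, sub_eq_zero]
  exact Subtype.ext (hx.eq (isPrincipalOf_lower hTT' (f := ⟨P, hPl⟩) hP))

theorem clsLower_eq_zero_of_unitKer {u : J T'} (hu : u ∈ unitKer T T') :
    clsLower hTT' ⟨clsMk T' u, AddSubgroup.mem_map_of_mem _ hu.1⟩ = 0 := by
  have h := clsLower_mk hTT' ⟨u, hu.1⟩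
  rw [h, (lower_eq_zero_iff hTT').2 hu, map_zero]

end Fermat.Agent.PoitouTate
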