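/-
An element of a level which is a unit away from auxiliary places and locally a `p`-th power above
`T` is a `p`-th power: otherwise every class of the Kummer layer would be a norm, against the
Herbrand quotient.
-/
import Fermat.Agent.PoitouTate.IdeleSplit
import Fermat.Agent.PoitouTate.IdeleUnitNorm
import Fermat.Agent.PoitouTate.LocalLower
import Fermat.Agent.PoitouTate.GlobalKummer

set_option autoImplicit false
set_option linter.style.haveILetI false
set_option maxHeartbeats 400000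

noncomputable section

open scoped Pointwise

namespace Fermat.Agent.PoitouTate

local notation "Qb" => AlgebraicClosure ℚ

/-- An element of norm one along every embedding at `q` has valuation one at the places above `q`. -/
theorem valuation_eq_one_of_norm {q : Nat.Primes} {x : Qb}
    (h : ∀ g : GQ, ‖padicEmbedding (q : ℕ) (g x)‖ = 1) {A : ValuationSubring Qb}
    (hA : A.LiesOverPrime (q : ℕ)) : A.valuation x = 1 := by
  obtain ⟨g, hg⟩ := Galois.exists_smul_eq_of_liesOverPrime q.2 hA (liesOverPrime_padicPlace q)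
  have hmem : ∀ y : Qb, ‖padicEmbedding (q : ℕ) (g y)‖ ≤ 1 → y ∈ A := fun y hy => by
    have h1 : g y ∈ padicPlace (q : ℕ) := (mem_padicPlace_iff (q : ℕ)).2 (by exact_mod_cast hy)
    rw [← hg, ValuationSubring.mem_pointwise_smul_iff_inv_smul_mem, AlgEquiv.smul_def,
      ← AlgEquiv.mul_apply, inv_mul_cancel, AlgEquiv.one_apply] at h1
    exact h1
  have h1 := (A.valuation_le_one_iff _).2 (hmem x (h g).le)
  have h2 := (A.valuation_le_one_iff _).2 (hmem x⁻¹ (by rw [map_inv₀, map_inv₀, norm_inv, h g, inv_one]))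
  have hx : x ≠ 0 := fun h0 => by
    have := h g
    rw [h0, map_zero, map_zero, norm_zero] at this
    exact zero_ne_one this
  refine le_antisymm h1 ?_
  rw [map_inv₀] at h2
  exact (inv_le_one₀ (lt_of_le_of_ne zero_le' (Ne.symm ((Valuation.ne_zero_iff _).2 hx)))).1 h2

theorem mem_fixedVal_sup {q : Nat.Primes} {N : Subgroup (LocGal q)} {τ : LocGal q} {x : LocVal q}
    (hx : x ∈ fixedVal q N) (hτ : locAct q τ x = x) : x ∈ fixedVal q (N ⊔ Subgroup.zpowers τ) := by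
  intro s hs
  let St : Subgroup (LocGal q) :=
    { carrier := {s | locAct q s x = x}
      one_mem' := locAct_one x
      mul_mem' := fun {a b} ha hb => by
        show locAct q (a * b) x = x
        rw [locAct_mul, hb, ha]
      inv_mem' := fun {a} ha => by
        show locAct q a⁻¹ x = x
        conv_lhs => rw [← (ha : locAct q a x = x)]
        rw [← locAct_mul, inv_mul_cancel, locAct_one] }
  exact (sup_le (fun s hs => hx s hs) (Subgroup.zpowers_le.2 hτ) :
    N ⊔ Subgroup.zpowers τ ≤ St) hs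

variable {T : Finset Nat.Primes} {V : Subgroup GQ} {L : IntermediateField ℚ Qb}
  {p : ℕ} [hp : Fact p.Prime]

/-- **The injectivity behind the second inequality.** -/
theorem exists_pow_eq_of_locally_pow (hL : IsLvl T L) (hV : L.fixingSubgroup ≤ V) (hp2 : 2 < p)
    (hpT : ExtCitation.pPrime p ∈ T) (hT : T.Nonempty)
    (hcyc : ∀ s ∈ V, ExtCitation.cycloChar p s = 1) {a : Qb}
    {Q : Finset (Nat.Primes × GQ)} (hinj : Set.InjOn Prod.fst (Q : Set (Nat.Primes × GQ)))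
    (hsplit : ∀ v ∈ Q, IsSplitPlace T V a v) (hcov : CoversUnits p hT V Q)
    (hgen : ∀ f ∈ fixedPts V (J T), ∃ P ∈ prinLev V, f - P ∈ Jfin T)
    {x : Qb} (hxV : x ∈ IntermediateField.fixedField V) (hx0 : x ≠ 0)
    (hxunit : ∀ (q : Nat.Primes), q ∉ T → ∀ g : GQ,
      (∀ v ∈ Q, v.1 = q → v.2⁻¹ * g ∉ V) → ‖padicEmbedding (q : ℕ) (g x)‖ = 1)
    (hxT : ∀ (q : ↥T) (g : GQ), ∃ y : PadicAlgCl (q.1 : ℕ),
      (∀ τ ∈ locSub q.1 V g, τ y = y) ∧ y ^ p = padicEmbedding (q.1 : ℕ) (g x)) :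
    ∃ c ∈ IntermediateField.fixedField V, c ^ p = x := by
  classical
  by_contra hcon
  haveI : NeZero p := ⟨hp.out.ne_zero⟩
  haveI := hL.unramified.1
  obtain ⟨b, hb⟩ := IsAlgClosed.exists_pow_nat_eq x hp.out.pos
  have hb0 : b ≠ 0 := fun h0 => hx0 (by rw [← hb, h0, zero_pow hp.out.ne_zero])
  obtain ⟨τ₀, hτ₀, hτ₀b⟩ : ∃ τ₀ ∈ V, τ₀ b ≠ b := by
    by_contra h1
    push Not at h1
    exact hcon ⟨b, (IntermediateField.mem_fixedField_iff _ _).2 h1, hb⟩
  have hxfix : ∀ s ∈ V, s x = x := fun s hs => apply_eq_self_of_mem hxV hs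
  set z := τ₀ b / b with hzdef
  have hzp : z ^ p = 1 := by
    rw [hzdef, div_pow, ← map_pow, hb, hxfix _ hτ₀, div_self hx0]
  have hz1 : z ≠ 1 := fun h1 => hτ₀b ((div_eq_one_iff_eq hb0).1 h1)
  have hz : IsPrimitiveRoot z p := by
    have := orderOf_eq_prime hzp hz1
    exact this ▸ IsPrimitiveRoot.orderOf z
  have hzfix : ∀ s ∈ V, s z = z := fun s hs => apply_eq_self_of_cycloChar_eq_one (hcyc s hs) hzp
  have hτb : τ₀ b = z * b := by rw [hzdef, div_mul_cancel₀ _ hb0]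
  have hτpow : ∀ i : ℕ, (τ₀ ^ i) b = z ^ i * b := by
    intro i
    induction i with
    | zero => simp
    | succ i ih =>
      rw [pow_succ', AlgEquiv.mul_apply, ih, map_mul, map_pow, hzfix _ hτ₀, hτb, pow_succ]
      ring
  have hroot : ∀ s ∈ V, ∃ j : ℕ, s b = z ^ j * b := by
    intro s hs
    obtain ⟨j, -, hj⟩ := hz.eq_pow_of_pow_eq_one (ξ := s b / b)
      (by rw [div_pow, ← map_pow, hb, hxfix s hs, div_self hx0])
    exact ⟨j, by rw [hj, div_mul_cancel₀ _ hb0]⟩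
  set U' : Subgroup GQ := V ⊓ MulAction.stabilizer GQ b with hU'
  have hU'mem : ∀ s, s ∈ U' ↔ s ∈ V ∧ s b = b := fun s => Iff.rfl
  have hlayer : IsLayer p U' τ₀ := by
    refine ⟨fun h => hτ₀b ((hU'mem _).1 h).2,
      (hU'mem _).2 ⟨V.pow_mem hτ₀ p, by rw [hτpow, hzp, one_mul]⟩, fun s hs => ?_⟩
    obtain ⟨hsV, hsb⟩ := (hU'mem _).1 hs
    refine (hU'mem _).2 ⟨V.mul_mem (V.mul_mem hτ₀ hsV) (V.inv_mem hτ₀), ?_⟩
    obtain ⟨j, hj⟩ := hroot _ (V.inv_mem hτ₀)
    rw [AlgEquiv.mul_apply, AlgEquiv.mul_apply, hj, map_mul, map_pow, hzfix s hsV, hsb, ← hj,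
      ← AlgEquiv.mul_apply, mul_inv_cancel, AlgEquiv.one_apply]
  have hsup : U' ⊔ Subgroup.zpowers τ₀ = V := by
    refine le_antisymm (sup_le inf_le_left (Subgroup.zpowers_le.2 hτ₀)) fun s hs => ?_
    obtain ⟨j, hj⟩ := hroot s hs
    have h1 : (τ₀ ^ j)⁻¹ * s ∈ U' := (hU'mem _).2 ⟨V.mul_mem (V.inv_mem (V.pow_mem hτ₀ j)) hs, by
      rw [AlgEquiv.mul_apply, hj, ← hτpow, ← AlgEquiv.mul_apply, inv_mul_cancel,
        AlgEquiv.one_apply]⟩
    rw [show s = τ₀ ^ j * ((τ₀ ^ j)⁻¹ * s) by group]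
    exact Subgroup.mul_mem _ (Subgroup.mem_sup_right (Subgroup.npow_mem_zpowers _ _))
      (Subgroup.mem_sup_left h1)
  -- the level of the extension
  set T₂ : Finset Nat.Primes := T ∪ Q.image Prod.fst with hT₂
  have hTT₂ : T ⊆ T₂ := Finset.subset_union_left
  have hpT₂ : ExtCitation.pPrime p ∈ T₂ := hTT₂ hpT
  have hnotQ : ∀ {q : Nat.Primes}, q ∉ T₂ → ∀ v ∈ Q, v.1 ≠ q := fun hq v hv he =>
    hq (Finset.mem_union_right _ (Finset.mem_image.2 ⟨v, hv, he⟩))
  have hbL : b ^ p ∈ L := hb.symm ▸ fixedField_le_level hL hV hxV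
  obtain ⟨L₂, hL₂u, hL₂n, hle⟩ := exists_normal_isUnramifiedOutside_ge
    (isUnramifiedOutside_sup_adjoin_of_unit hpT₂ (hL.mono hTT₂).unramified hb0 1
      (by rwa [pow_one]) fun q hq A hA => by
        rw [pow_one, hb]
        refine valuation_eq_one_of_norm (fun g => hxunit q (fun h => hq (hTT₂ h)) g ?_) hA
        exact fun v hv he => absurd he (hnotQ hq v hv))
  haveI := hL₂n
  haveI := hL₂u.1
  haveI hgal₂ : IsGalois ℚ L₂ := ⟨⟩
  have hL₂ : IsLvl T₂ L₂ := ⟨hL₂u, (InfiniteGalois.normal_iff_isGalois L₂).2 hgal₂⟩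
  have hbL₂ : b ∈ L₂ :=
    hle ((le_sup_right : _ ≤ L ⊔ _) (IntermediateField.mem_adjoin_simple_self ℚ b))
  have hU'L₂ : L₂.fixingSubgroup ≤ U' := fun s hs => (hU'mem s).2
    ⟨hV (IntermediateField.fixingSubgroup_antitone (le_sup_left.trans hle) hs),
      (IntermediateField.mem_fixingSubgroup_iff _ _).1 hs b hbL₂⟩
  have hT₂ne : T₂.Nonempty := hT.mono hTT₂
  obtain ⟨hH, hH'⟩ := herbrand_clsLev hL₂ hU'L₂ hp2 hT₂ne hlayer
    (fun s hs => hcyc s ((hU'mem s).1 hs).1) (hcyc _ hτ₀)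
  -- it suffices that every class be a norm
  suffices hall : Nat.card (layerPair hlayer (Cls T₂)).Coh = 1 by
    rw [EndPair.herbrand, hall, Nat.cast_one, div_eq_iff (Nat.cast_ne_zero.2 hH.2)] at hH'
    have h1 : p * Nat.card (layerPair hlayer (Cls T₂)).swap.Coh = 1 := by exact_mod_cast hH'.symm
    exact hp.out.one_lt.ne' (Nat.eq_one_of_mul_eq_one_right h1)
  rw [EndPair.natCard_coh, AddSubgroup.relIndex_eq_one]
  intro c hc
  have hcV : (c : Cls T₂) ∈ clsLev T₂ V := by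
    have := (layer_mem_cycles hlayer (Cls T₂) c).1 hc
    rwa [hsup] at this
  obtain ⟨f₂, hf₂, hf₂c⟩ := levelRepresentatives hT₂ne L₂ hL₂ V
    (hU'L₂.trans inf_le_left) c hcV
  let fl : lowerable T T₂ := ⟨f₂, L, hL, fun s hs => hf₂ s (hV hs)⟩
  have hlow : lower hTT₂ fl ∈ fixedPts V (J T) := fun s hs => by
    rw [← lower_smul]
    congr 1
    exact Subtype.ext (hf₂ s hs)
  obtain ⟨P, hP, hjfin⟩ := hgen _ hlow
  obtain ⟨x₁, hx₁⟩ := hP.2
  have hx₁V : x₁ ∈ IntermediateField.fixedField V := (IntermediateField.mem_fixedField_iff _ _).2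
    fun s hs => hx₁.apply_eq_self hT (congrArg Subtype.val (hP.1 s hs))
  obtain ⟨P₂, hP₂, hP₂cls, hP₂fix⟩ := exists_principal hL₂
    (hle ((le_sup_left : L ≤ _) (fixedField_le_level hL hV hx₁V))) hx₁.ne_zero
  set f₃ : J T₂ := f₂ - P₂ with hf₃def
  have hf₃V : ∀ s ∈ V, s • f₃ = f₃ := fun s hs => by
    rw [hf₃def, smul_sub, hf₂ s hs, hP₂fix s (apply_eq_self_of_mem hx₁V hs)]
  have hordeq : ∀ (q : {q : Nat.Primes // q ∉ T}) g,
      (lowerAmb hTT₂ (f₂ : Amb T₂)).ord q g = (P : Amb T).ord q g := fun q g => sub_eq_zero.1 (hjfin q g)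
  have hf₃ord : ∀ q g, (f₃ : Amb T₂).ord q g = 0 := fun q g => by
    have hq : q.1 ∉ T := fun h => q.2 (hTT₂ h)
    rw [hf₃def, AddSubgroup.coe_sub, Amb.ord_sub, sub_eq_zero]
    have h1 := hordeq ⟨q.1, hq⟩ g
    rw [lowerAmb_ord_of_not_mem hTT₂ _ _ q.2] at h1
    refine ord_eq_of_zpow_eq (q := q.1) ?_
    rw [← hP₂.ord_eq, h1, ← hx₁.ord_eq ⟨q.1, hq⟩ g]
  have hf₃unit : ∀ (q : ↥T₂), q.1 ∉ T → ∀ g, (f₃ : Amb T₂).fin q g ∈ unitVal q.1 := by
    intro q hq g
    obtain ⟨k, hk⟩ := exists_norm_fin fl.2 q hq g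
    have h1 := hordeq ⟨q.1, hq⟩ g
    rw [lowerAmb_ord_of_mem hTT₂ _ _ q.2, valOrd_eq hk] at h1
    rw [hf₃def, AddSubgroup.coe_sub, Amb.fin_sub, mem_unitVal_iff, toMul_sub,
      Units.val_div_eq_div_val, norm_div, hk, hP₂.fin_eq, h1, ← hx₁.ord_eq ⟨q.1, hq⟩ g, div_self]
    simpa using hx₁.ne_zero
  -- correct at the auxiliary places
  let u : ∀ q : Nat.Primes, LocVal q := fun q =>
    if hq : ∃ v ∈ Q, v.1 = q then
      (f₃ : Amb T₂).fin ⟨q, Finset.mem_union_right _ (Finset.mem_image.2 hq)⟩ hq.choose.2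
    else 0
  have hQmem : ∀ {v}, v ∈ Q → v.1 ∈ T₂ := fun hv =>
    Finset.mem_union_right _ (Finset.mem_image.2 ⟨_, hv, rfl⟩)
  have hu : ∀ v (hv : v ∈ Q), u v.1 = (f₃ : Amb T₂).fin ⟨v.1, hQmem hv⟩ v.2 := by
    intro v hv
    have hq : ∃ w ∈ Q, w.1 = v.1 := ⟨v, hv, rfl⟩
    show (if hq : ∃ w ∈ Q, w.1 = v.1 then _ else _) = _
    rw [dif_pos hq]
    exact congrArg (fun w : Nat.Primes × GQ => (f₃ : Amb T₂).fin ⟨v.1, hQmem hv⟩ w.2)
      (hinj hq.choose_spec.1 hv hq.choose_spec.2)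
  have huU : ∀ v ∈ Q, u v.1 ∈ unitTop v.1 := by
    intro v hv
    rw [hu v hv]
    refine ⟨fun τ _ => ?_, hf₃unit ⟨v.1, hQmem hv⟩ (hsplit v hv).not_mem v.2⟩
    exact fin_mem_locField f₃.2 ⟨v.1, hQmem hv⟩ (fun s hs => congrArg Subtype.val (hf₃V s hs)) v.2
      (mem_locSub.2 ((hsplit v hv).dec τ))
  obtain ⟨w, hw⟩ := hcov u huU
  obtain ⟨Pw, hPw, hPwcls, hPwfix⟩ := exists_principal hL₂
    (hle ((le_sup_left : L ≤ _) (fixedField_le_level hL hV (sUnitElt_mem hT w))))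
    (isPrincipalOf_sUnitElt hT w).ne_zero
  set f₄ : J T₂ := f₃ - Pw with hf₄def
  have hf₄V : ∀ s ∈ V, s • f₄ = f₄ := fun s hs => by
    rw [hf₄def, smul_sub, hf₃V s hs, hPwfix s (apply_eq_self_of_mem (sUnitElt_mem hT w) hs)]
  have hf₄cls : clsMk T₂ f₄ = (c : Cls T₂) := by
    rw [hf₄def, hf₃def, map_sub, map_sub, hPwcls, hP₂cls, sub_zero, sub_zero, hf₂c]
  have hf₄ord : ∀ q g, (f₄ : Amb T₂).ord q g = 0 := fun q g => by
    have hq : q.1 ∉ T := fun h => q.2 (hTT₂ h)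
    rw [hf₄def, AddSubgroup.coe_sub, Amb.ord_sub, hf₃ord, zero_sub, neg_eq_zero]
    refine ord_eq_of_zpow_eq (q := q.1) ?_
    rw [← hPw.ord_eq, norm_sUnitElt hT w hq g, neg_zero, zpow_zero]
  have hf₄unit : ∀ (q : ↥T₂), q.1 ∉ T → ∀ g, (f₄ : Amb T₂).fin q g ∈ unitVal q.1 := by
    intro q hq g
    rw [hf₄def, AddSubgroup.coe_sub, Amb.fin_sub]
    refine (unitVal q.1).sub_mem (hf₃unit q hq g) ((mem_unitVal_iff _).2 ?_)
    rw [hPw.fin_eq]
    exact norm_sUnitElt hT w hq g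
  have hf₄U : ∀ (q : ↥T₂) g, ∀ s ∈ V, (f₄ : Amb T₂).fin q (g * s) = (f₄ : Amb T₂).fin q g :=
    fun q g s hs => fin_apply_mul hf₄V q g hs
  -- local norms
  have hnorm : ∀ q : ↥T₂, ∃ W : GQ → LocVal q.1,
      (∀ (τ : LocGal q.1) g, W (loc q.1 τ * g) = locAct q.1 τ (W g)) ∧
      (∀ g, ∀ s ∈ U', W (g * s) = W g) ∧
      ∀ g, ∑ i ∈ Finset.range p, W (g * τ₀ ^ i) = (f₄ : Amb T₂).fin q g := by
    intro q
    by_cases hqT : q.1 ∈ T
    · obtain ⟨W, h1, h2, -, h3⟩ := exists_family_norm hlayer q.1 ⊤ (fun _ _ _ => trivial)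
        (fun g => (f₄ : Amb T₂).fin q g) (fun τ g => f₄.2.1 q τ g)
        (fun g s hs => hf₄U q g s ((hU'mem s).1 hs).1) (fun g => hf₄U q g τ₀ hτ₀)
        (fun _ => trivial) ∅ (fun _ _ => Iff.rfl) (fun _ _ _ => Iff.rfl) (fun _ => Iff.rfl)
        (fun g hg => absurd hg (Set.notMem_empty g))
        (fun g _ τ hτ => by
          exfalso
          have he : τ₀⁻¹ * (g⁻¹ * loc q.1 τ * g) ∈ U' := by simpa [mul_assoc] using hτ
          have heV : g⁻¹ * loc q.1 τ * g ∈ V := by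
            have := V.mul_mem hτ₀ ((hU'mem _).1 he).1
            simpa [mul_assoc] using this
          obtain ⟨y, hyfix, hy⟩ := hxT ⟨q.1, hqT⟩ g
          have hz' : IsPrimitiveRoot (padicEmbedding (q.1 : ℕ) (g z)) p :=
            (hz.map_of_injective (f := (g : Qb →ₐ[ℚ] Qb)) g.injective).map_of_injective
              (f := padicEmbedding (q.1 : ℕ)) (padicEmbedding (q.1 : ℕ)).toRingHom.injective
          have hy0 : y ≠ 0 := fun h0 => hx0 (g.injective ((padicEmbedding (q.1 : ℕ)).toRingHom.injective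
            (show padicEmbedding (q.1 : ℕ) (g x) = padicEmbedding (q.1 : ℕ) (g 0) by
              rw [← hy, h0, zero_pow hp.out.ne_zero, map_zero, map_zero])))
          obtain ⟨j, -, hj⟩ := hz'.eq_pow_of_pow_eq_one (ξ := padicEmbedding (q.1 : ℕ) (g b) / y)
            (by rw [div_pow, ← map_pow, ← map_pow, hb, hy, div_self (hy ▸ pow_ne_zero _ hy0)])
          have hgb : padicEmbedding (q.1 : ℕ) (g b) = padicEmbedding (q.1 : ℕ) (g (z ^ j)) * y := by
            rw [map_pow, map_pow, hj, div_mul_cancel₀ _ hy0]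
          have h2 : (g⁻¹ * loc q.1 τ * g) b = b := by
            have hzj : (g⁻¹ * loc q.1 τ * g) (z ^ j) = z ^ j := by rw [map_pow, hzfix _ heV]
            rw [AlgEquiv.mul_apply, AlgEquiv.mul_apply] at hzj ⊢
            refine (AlgEquiv.symm_apply_eq g).2 ((padicEmbedding (q.1 : ℕ)).toRingHom.injective ?_)
            show padicEmbedding (q.1 : ℕ) (loc q.1 τ (g b)) = padicEmbedding (q.1 : ℕ) (g b)
            rw [padicEmbedding_loc, hgb, map_mul τ, hyfix τ (mem_locSub.2 heV), ← padicEmbedding_loc,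
              (AlgEquiv.symm_apply_eq g).1 hzj]
          have h3 : g⁻¹ * loc q.1 τ * g ∈ U' := (hU'mem _).2 ⟨heV, h2⟩
          refine hlayer.not_mem ?_
          have := U'.mul_mem h3 (U'.inv_mem he)
          simpa [mul_assoc] using this)
      exact ⟨W, h1, h2, h3⟩
    · obtain ⟨v, hv, hvq⟩ : ∃ v ∈ Q, v.1 = q.1 :=
        Finset.mem_image.1 ((Finset.mem_union.1 q.2).resolve_left hqT)
      obtain ⟨q, hqmem⟩ := q
      obtain rfl : v.1 = q := hvq
      obtain ⟨y, hy, hye⟩ := hw v hv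
      have hval : (f₄ : Amb T₂).fin ⟨v.1, hqmem⟩ v.2 = p • (-y) := by
        rw [hf₄def, AddSubgroup.coe_sub, Amb.fin_sub,
          show (Pw : Amb T₂).fin ⟨v.1, hqmem⟩ v.2 = sUnitVal hT v w from locVal_ext (hPw.fin_eq _ _),
          ← hu v hv, neg_nsmul, ← hye, neg_sub]
      have hZmem : ∀ (τ : LocGal v.1) g, v.2⁻¹ * (loc v.1 τ * g) ∈ V ↔ v.2⁻¹ * g ∈ V := fun τ g => by
        have h2 : v.2⁻¹ * (loc v.1 τ * g) = (v.2⁻¹ * loc v.1 τ * v.2) * (v.2⁻¹ * g) := by group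
        rw [h2]
        exact V.mul_mem_cancel_left ((hsplit v hv).dec τ)
      let Z : GQ → LocVal v.1 := fun g => if v.2⁻¹ * g ∈ V then -y else 0
      have hZl : ∀ (τ : LocGal v.1) g, Z (loc v.1 τ * g) = locAct v.1 τ (Z g) := fun τ g => by
        by_cases hg : v.2⁻¹ * g ∈ V
        · simp only [Z, if_pos hg, if_pos ((hZmem τ g).2 hg), map_neg]
          rw [hy.1 τ (Subgroup.mem_top τ)]
        · simp only [Z, if_neg hg, if_neg (mt (hZmem τ g).1 hg), map_zero]
      have hZr : ∀ g, ∀ s ∈ V, Z (g * s) = Z g := fun g s hs => by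
        simp only [Z]
        rw [show v.2⁻¹ * (g * s) = (v.2⁻¹ * g) * s by group]
        simp only [V.mul_mem_cancel_right hs]
      obtain ⟨W, h1, h2, -, h3⟩ := exists_family_norm hlayer v.1 (unitVal v.1)
        (fun τ a ha => locAct_mem_unitVal τ ha)
        (fun g => (f₄ : Amb T₂).fin ⟨v.1, hqmem⟩ g - p • Z g)
        (fun τ g => by rw [f₄.2.1 ⟨v.1, hqmem⟩ τ g, hZl, map_sub, map_nsmul])
        (fun g s hs => by rw [hf₄U _ g s ((hU'mem s).1 hs).1, hZr g s ((hU'mem s).1 hs).1])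
        (fun g => by rw [hf₄U _ g τ₀ hτ₀, hZr g τ₀ hτ₀])
        (fun g => (unitVal v.1).sub_mem (hf₄unit _ hqT g) ((unitVal v.1).nsmul_mem (by
          by_cases hg : v.2⁻¹ * g ∈ V
          · simp only [Z, if_pos hg]; exact (unitVal v.1).neg_mem hy.2
          · simp only [Z, if_neg hg]; exact (unitVal v.1).zero_mem) p))
        {g | v.2⁻¹ * g ∈ V} (fun τ g => hZmem τ g)
        (fun g s hs => by
          show v.2⁻¹ * (g * s) ∈ V ↔ v.2⁻¹ * g ∈ V
          rw [← mul_assoc]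
          exact V.mul_mem_cancel_right ((hU'mem s).1 hs).1)
        (fun g => by
          show v.2⁻¹ * (g * τ₀) ∈ V ↔ v.2⁻¹ * g ∈ V
          rw [← mul_assoc]
          exact V.mul_mem_cancel_right hτ₀)
        (fun g hg => by
          have hg' : v.2⁻¹ * g ∈ V := hg
          show (f₄ : Amb T₂).fin ⟨v.1, hqmem⟩ g - p • Z g = 0
          rw [sub_eq_zero, show Z g = -y from if_pos hg', ← hval]
          conv_lhs => rw [show g = v.2 * (v.2⁻¹ * g) by group]
          exact hf₄U _ _ _ hg')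
        (fun g hg τ hτ a ha hafix hτa => by
          have hlay := isCycLayer_locSub hU'L₂ hp.out hlayer.not_mem hlayer.pow_mem hlayer.conj_mem
            g hτ
          have he : τ₀⁻¹ * (g⁻¹ * loc v.1 τ * g) ∈ U' := by simpa [mul_assoc] using hτ
          obtain ⟨u', hu', hdec⟩ : ∃ u' ∈ U', g⁻¹ * loc v.1 τ * g = τ₀ * u' :=
            ⟨_, he, by group⟩
          have hb' : (g⁻¹ * loc v.1 τ * g) b = z * b := by
            rw [hdec, AlgEquiv.mul_apply, ((hU'mem _).1 hu').2, hτb]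
          have hz'' : (g⁻¹ * loc v.1 τ * g) z = z := by
            rw [hdec, AlgEquiv.mul_apply, hzfix _ ((hU'mem _).1 hu').1, hzfix _ hτ₀]
          rw [AlgEquiv.mul_apply, AlgEquiv.mul_apply] at hb' hz''
          have hgu : ‖padicEmbedding (v.1 : ℕ) (g x)‖ = 1 := by
            refine hxunit v.1 hqT g fun v' hv' he' => ?_
            obtain rfl : v' = v := hinj hv' hv he'
            exact hg
          have hunr : ∀ X ∈ fixedVal v.1 (locSub v.1 U' g),
              ∃ Y ∈ fixedVal v.1 (locSub v.1 U' g ⊔ Subgroup.zpowers τ), X - Y ∈ unitVal v.1 := by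
            intro X hX
            have hfixN : ∀ e ∈ locSub v.1 U' g, ∀ t : Qb, (g⁻¹ * loc v.1 e * g) t = t →
                e (padicEmbedding (v.1 : ℕ) (g t)) = padicEmbedding (v.1 : ℕ) (g t) := fun e _ t ht => by
              rw [AlgEquiv.mul_apply, AlgEquiv.mul_apply] at ht
              rw [← padicEmbedding_loc]
              exact congrArg (padicEmbedding (v.1 : ℕ)) ((AlgEquiv.symm_apply_eq g).1 ht)
            obtain ⟨C, hC, hCτ, hCn⟩ := exists_norm_eq_of_kummer (p := p) hlay.conj_mem_inv hlay.pow_mem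
              (fun h => hqT (show v.1 ∈ T by
                rwa [show v.1 = ExtCitation.pPrime p from Subtype.ext h.symm]))
              (β := padicEmbedding (v.1 : ℕ) (g b)) (ζ := padicEmbedding (v.1 : ℕ) (g z))
              ((hz.map_of_injective (f := (g : Qb →ₐ[ℚ] Qb)) g.injective).map_of_injective
                (f := padicEmbedding (v.1 : ℕ)) (padicEmbedding (v.1 : ℕ)).toRingHom.injective)
              (by
                rw [← padicEmbedding_loc]
                exact congrArg (padicEmbedding (v.1 : ℕ)) ((AlgEquiv.symm_apply_eq g).1 hz''))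
              (fun e he' => hfixN e he' z (hzfix _ ((hU'mem _).1 (mem_locSub.1 he')).1))
              (fun e he' => hfixN e he' b ((hU'mem _).1 (mem_locSub.1 he')).2)
              (by
                rw [← padicEmbedding_loc, (AlgEquiv.symm_apply_eq g).1 hb', map_mul, map_mul])
              ((pow_eq_one_iff_of_nonneg (norm_nonneg _) hp.out.ne_zero).1 (by
                rw [← norm_pow, ← map_pow, ← map_pow, hb, hgu]))
              (y := ((Additive.toMul X : (PadicAlgCl (v.1 : ℕ))ˣ) : PadicAlgCl (v.1 : ℕ)))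
              (fun e he' => by rw [← coe_locAct, hX e he'])
            have hC0 : C ≠ 0 := fun h0 => by
              rw [h0, norm_zero] at hCn
              exact (norm_locVal_pos X).ne hCn
            refine ⟨Additive.ofMul (Units.mk0 C hC0), mem_fixedVal_sup
              (fun e he' => locVal_ext (hC e he')) (locVal_ext hCτ), (mem_unitVal_iff _).2 ?_⟩
            rw [toMul_sub, Units.val_div_eq_div_val, norm_div]
            show _ / ‖C‖ = 1
            rw [hCn, div_self (norm_locVal_pos X).ne']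
          obtain ⟨W, ⟨hW1, hW2⟩, hW3⟩ :=
            hlay.exists_unit_normVal hunr (mem_fixedVal_sup hafix hτa) ha
          exact ⟨W, hW2, hW1, hW3⟩)
      refine ⟨fun g => W g + Z g, fun τ g => ((congrArg₂ (· + ·) (h1 τ g) (hZl τ g)).trans
          (map_add (locAct v.1 τ) _ _).symm),
        fun g s hs => congrArg₂ (· + ·) (h2 g s hs) (hZr g s ((hU'mem s).1 hs).1), fun g => ?_⟩
      rw [Finset.sum_add_distrib, h3, Finset.sum_congr rfl fun i _ => hZr g _ (V.pow_mem hτ₀ i),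
        Finset.sum_const, Finset.card_range, sub_add_cancel]
  choose W hW1 hW2 hW3 using hnorm
  let A : Amb T₂ := (W, fun _ _ => 0)
  have hAfix : ∀ s ∈ U', s • A = A := fun s hs => Amb.ext (fun q g => hW2 q g s hs) fun _ _ => rfl
  have hA : A ∈ J T₂ := ⟨fun q τ g => hW1 q τ g, fun _ _ _ => rfl,
    ⟨L₂, hL₂, fun s hs => hAfix s (hU'L₂ hs)⟩, by simp [A, Amb.ord]⟩
  have hsum : ∑ i ∈ Finset.range p, τ₀ ^ i • (⟨A, hA⟩ : J T₂) = f₄ := by
    refine Subtype.ext (Amb.ext (fun q g => ?_) fun q g => ?_)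
    · let ev : J T₂ →+ LocVal q.1 :=
        { toFun := fun f => (f : Amb T₂).fin q g, map_zero' := rfl, map_add' := fun _ _ => rfl }
      show ev _ = _
      rw [map_sum]
      exact hW3 q g
    · let ev : J T₂ →+ ℤ :=
        { toFun := fun f => (f : Amb T₂).ord q g, map_zero' := rfl, map_add' := fun _ _ => rfl }
      show ev _ = _
      rw [map_sum, hf₄ord]
      exact Finset.sum_eq_zero fun _ _ => rfl
  have hmem : clsMk T₂ (⟨A, hA⟩ : J T₂) ∈ fixedPts U' (Cls T₂) := fun s hs => by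
    show s • clsMk T₂ (⟨A, hA⟩ : J T₂) = _
    rw [smul_clsMk]
    exact congrArg (clsMk T₂) (Subtype.ext (hAfix s hs))
  refine ⟨⟨_, hmem⟩, Subtype.ext ?_⟩
  rw [coe_layerPair_snd, ← hf₄cls, ← hsum, map_sum]
  exact Finset.sum_congr rfl fun i _ => smul_clsMk T₂ _ _

end Fermat.Agent.PoitouTate
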