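/-
The second inequality for a cyclic Kummer layer of degree `p`, when the ideles supported at `T`
exhaust the classes and the radical is a unit outside `T`.
-/
import Fermat.Agent.PoitouTate.IdeleKummerClaim

set_option autoImplicit false
set_option linter.style.haveILetI false
set_option maxHeartbeats 400000

noncomputable section

namespace Fermat.Agent.PoitouTate

open NumberField

local notation "Qb" => AlgebraicClosure ℚ

variable {T : Finset Nat.Primes}

section LocPart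

variable (T) in
/-- The part of an idele supported at `T`. -/
def locPart : J T →+ J T where
  toFun f := ⟨((f : Amb T).1, 0), f.2.1, fun _ _ _ => rfl, by
    obtain ⟨L, hL, hf⟩ := f.2.2.2.1
    exact ⟨L, hL, fun s hs => Amb.ext
      (fun q g => (congrArg (fun e : Amb T => e.fin q g) (hf s hs) :)) fun _ _ => rfl⟩,
    by simp [Amb.ord]⟩
  map_zero' := rfl
  map_add' f f' := Subtype.ext (Amb.ext (fun _ _ => rfl) fun _ _ => (add_zero (0 : ℤ)).symm)

theorem fin_locPart (f : J T) (q : ↥T) (g : GQ) :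
    ((locPart T f : J T) : Amb T).fin q g = (f : Amb T).fin q g := rfl

theorem ord_locPart (f : J T) (q : {q : Nat.Primes // q ∉ T}) (g : GQ) :
    ((locPart T f : J T) : Amb T).ord q g = 0 := rfl

theorem locPart_mem_locJ {V : Subgroup GQ} {f : J T} (hf : f ∈ fixedPts V (J T)) :
    locPart T f ∈ locJ V :=
  ⟨fun s hs => Subtype.ext (Amb.ext (fun q g => fin_apply_mul (fun s hs => hf s hs) q g hs)
    fun _ _ => rfl), fun _ _ => rfl⟩

end LocPart

section Layer

variable {U : Subgroup GQ} {p : ℕ} [hp : Fact p.Prime] {σ : GQ}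

theorem IsLayer.exists_pow_mul_mem (h : IsLayer p U σ) {v : GQ}
    (hv : v ∈ U ⊔ Subgroup.zpowers σ) : ∃ j < p, v * σ ^ j ∈ U := by
  have hn : Subgroup.zpowers σ ≤ Subgroup.normalizer (U : Set GQ) := by
    rw [Subgroup.zpowers_le, Subgroup.mem_normalizer_iff]
    intro s
    refine ⟨h.conj_mem s, fun hs => ?_⟩
    have := h.conj_mem_inv _ hs
    simpa [mul_assoc] using this
  rw [← SetLike.mem_coe, Subgroup.coe_mul_of_right_le_normalizer_left U _ hn] at hv
  obtain ⟨u, hu, _, ⟨k, rfl⟩, rfl⟩ := hv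
  refine ⟨((-k) % p).toNat, ?_, ?_⟩
  · have := Int.emod_lt_of_pos (-k) (by exact_mod_cast hp.out.pos : (0 : ℤ) < p)
    have h0 := Int.emod_nonneg (-k) (by exact_mod_cast hp.out.ne_zero : (p : ℤ) ≠ 0)
    omega
  · rw [← zpow_natCast, Int.toNat_of_nonneg (Int.emod_nonneg _ (by exact_mod_cast hp.out.ne_zero)),
      mul_assoc]
    refine U.mul_mem hu ?_
    show σ ^ k * σ ^ ((-k) % p) ∈ U
    rw [← zpow_add, show k + (-k) % p = (p : ℤ) * (-((-k) / p)) by
      rw [Int.emod_def]; ring, zpow_mul, zpow_natCast]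
    exact U.zpow_mem h.pow_mem _

theorem IsLayer.eq_of_pow_mul_mem (h : IsLayer p U σ) {v : GQ} {i j : ℕ} (hi : i < p) (hj : j < p)
    (h1 : v * σ ^ i ∈ U) (h2 : v * σ ^ j ∈ U) : i = j := by
  by_contra hne
  wlog hle : i ≤ j generalizing i j
  · exact this hj hi h2 h1 (Ne.symm hne) (le_of_not_ge hle)
  have hk : σ ^ (j - i) ∈ U := by
    have := U.mul_mem (U.inv_mem h1) h2
    rw [show (v * σ ^ i)⁻¹ * (v * σ ^ j) = (σ ^ i)⁻¹ * σ ^ j by group] at this
    rwa [show σ ^ (j - i) = (σ ^ i)⁻¹ * σ ^ j by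
      rw [eq_inv_mul_iff_mul_eq, ← pow_add, Nat.add_sub_cancel' hle]]
  have hco : Nat.Coprime (j - i) p := ((hp.out.coprime_iff_not_dvd).2 fun hd =>
    absurd (Nat.le_of_dvd (by omega) hd) (by omega)).symm
  obtain ⟨k, -, hk'⟩ := Nat.exists_mul_mod_eq_one_of_coprime hco hp.out.one_lt
  refine h.not_mem ?_
  have h3 := U.pow_mem hk k
  rw [← pow_mul, ← Nat.mod_add_div ((j - i) * k) p, hk', pow_add, pow_one, pow_mul] at h3
  simpa using U.mul_mem h3 (U.inv_mem (U.pow_mem h.pow_mem (((j - i) * k) / p)))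

end Layer

section Bound

variable (T) in
/-- The ideles whose valuations outside `T` are supported at the given places. -/
def ordSupp (V : Subgroup GQ) (Q : Finset (Nat.Primes × GQ)) : AddSubgroup (J T) where
  carrier := {f | ∀ q g, (∀ v ∈ Q, v.1 = q.1 → v.2⁻¹ * g ∉ V) → (f : Amb T).ord q g = 0}
  zero_mem' _ _ _ := rfl
  add_mem' hf hf' q g h := by simp [hf q g h, hf' q g h]
  neg_mem' hf q g h := by simp [hf q g h]

variable {U : Subgroup GQ} {p : ℕ} [hp : Fact p.Prime] {σ : GQ}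
variable {L : IntermediateField ℚ Qb} (hL : IsLvl T L) (hU : L.fixingSubgroup ≤ U)
  (h : IsLayer p U σ)

include hL hU in
/-- Valuations supported at split places are norms. -/
theorem exists_norm_ordPart {Q : Finset (Nat.Primes × GQ)}
    (hQ : ∀ v ∈ Q, ∀ τ : LocGal v.1, v.2⁻¹ * loc v.1 τ * v.2 ∈ U)
    (hinj : Set.InjOn Prod.fst (Q : Set (Nat.Primes × GQ))) {f : J T}
    (hf : f ∈ fixedPts (U ⊔ Subgroup.zpowers σ) (J T))
    (hfS : f ∈ ordSupp T (U ⊔ Subgroup.zpowers σ) Q) (h : IsLayer p U σ) :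
    ∃ e : J T, (∀ s ∈ U, s • e = e) ∧
      ∑ i ∈ Finset.range p, σ ^ i • e = f - locPart T f := by
  classical
  let E : Amb T := (fun _ _ => 0, fun q g =>
    if ∃ v ∈ Q, v.1 = q.1 ∧ v.2⁻¹ * g ∈ U then (f : Amb T).ord q g else 0)
  have hEord : ∀ q g, E.ord q g = if ∃ v ∈ Q, v.1 = q.1 ∧ v.2⁻¹ * g ∈ U then (f : Amb T).ord q g
      else 0 := fun _ _ => rfl
  have hEU : ∀ s ∈ U, s • E = E := fun s hs => Amb.ext (fun _ _ => rfl) fun q g => by
    rw [Amb.ord_smul, hEord, hEord, ord_apply_mul (fun s hs => hf s hs) q g (Subgroup.mem_sup_left hs)]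
    simp only [← mul_assoc, U.mul_mem_cancel_right hs]
  have hEJ : E ∈ J T := by
    refine ⟨fun _ τ _ => (map_zero (locAct _ τ)).symm, fun q τ g => ?_,
      ⟨L, hL, fun s hs => hEU s (hU hs)⟩, ?_⟩
    · rw [hEord, hEord, f.2.2.1 q τ g]
      refine if_congr ?_ rfl rfl
      constructor
      · rintro ⟨v, hv, hvq, hg⟩
        refine ⟨v, hv, hvq, ?_⟩
        obtain ⟨q, hq⟩ := q
        obtain rfl : v.1 = q := hvq
        have h2 : v.2⁻¹ * (loc v.1 τ * g) = (v.2⁻¹ * loc v.1 τ * v.2) * (v.2⁻¹ * g) := by group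
        rw [h2] at hg
        exact (U.mul_mem_cancel_left (hQ v hv τ)).1 hg
      · rintro ⟨v, hv, hvq, hg⟩
        refine ⟨v, hv, hvq, ?_⟩
        obtain ⟨q, hq⟩ := q
        obtain rfl : v.1 = q := hvq
        have h2 : v.2⁻¹ * (loc v.1 τ * g) = (v.2⁻¹ * loc v.1 τ * v.2) * (v.2⁻¹ * g) := by group
        rw [h2]
        exact U.mul_mem (hQ v hv τ) hg
    · refine f.2.2.2.2.subset ?_
      rintro q ⟨g, hg⟩
      refine ⟨g, fun h0 => hg ?_⟩
      rw [hEord, h0, ite_self]
  refine ⟨⟨E, hEJ⟩, fun s hs => Subtype.ext (hEU s hs), Subtype.ext (Amb.ext (fun q g => ?_) fun q g => ?_)⟩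
  · let ev : J T →+ LocVal q.1 :=
      { toFun := fun f => (f : Amb T).fin q g, map_zero' := rfl, map_add' := fun _ _ => rfl }
    show ev _ = ev (f - locPart T f)
    rw [map_sum, map_sub]
    exact (Finset.sum_eq_zero fun _ _ => rfl).trans (sub_self _).symm
  · let ev : J T →+ ℤ :=
      { toFun := fun f => (f : Amb T).ord q g, map_zero' := rfl, map_add' := fun _ _ => rfl }
    show ev _ = ev (f - locPart T f)
    rw [map_sum, map_sub]
    show ∑ i ∈ Finset.range p, E.ord q (g * σ ^ i) = (f : Amb T).ord q g - 0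
    rw [sub_zero]
    have hfσ : ∀ i : ℕ, (f : Amb T).ord q (g * σ ^ i) = (f : Amb T).ord q g := fun i =>
      ord_apply_mul (fun s hs => hf s hs) q g
        (Subgroup.pow_mem _ (Subgroup.mem_sup_right (Subgroup.mem_zpowers σ)) i)
    by_cases hex : ∃ v ∈ Q, v.1 = q.1 ∧ v.2⁻¹ * g ∈ U ⊔ Subgroup.zpowers σ
    · obtain ⟨v, hv, hvq, hg⟩ := hex
      obtain ⟨j, hj, hju⟩ := h.exists_pow_mul_mem hg
      rw [Finset.sum_eq_single_of_mem j (Finset.mem_range.2 hj) fun i hi hne => ?_]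
      · rw [hEord, if_pos ⟨v, hv, hvq, by rwa [← mul_assoc]⟩, hfσ]
      · rw [hEord, if_neg]
        rintro ⟨v', hv', hvq', hg'⟩
        obtain rfl := hinj hv' hv (hvq'.trans hvq.symm)
        rw [← mul_assoc] at hg'
        exact hne (h.eq_of_pow_mul_mem (Finset.mem_range.1 hi) hj hg' hju)
    · push Not at hex
      rw [hfS q g hex]
      refine Finset.sum_eq_zero fun i _ => ?_
      rw [hEord, hfσ, hfS q g hex, ite_self]

include hL hU in
/-- **The second inequality.** -/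
theorem natCard_coh_le (hp2 : 2 < p) (hpT : ExtCitation.pPrime p ∈ T)
    (hcyc : ∀ s ∈ U, ExtCitation.cycloChar p s = 1) (hcycσ : ExtCitation.cycloChar p σ = 1)
    {a : Qb} (ha0 : a ≠ 0)
    (ha : a ^ p ∈ IntermediateField.fixedField (U ⊔ Subgroup.zpowers σ))
    (haU : ∀ s ∈ U, s a = a) (hσa : σ a ≠ a)
    (haT : ∀ q : Nat.Primes, q ∉ T → ∀ g : GQ, ‖padicEmbedding (q : ℕ) (g a)‖ = 1)
    (hgen : ∀ f ∈ fixedPts (U ⊔ Subgroup.zpowers σ) (J T),
      ∃ P ∈ prinLev (U ⊔ Subgroup.zpowers σ), f - P ∈ Jfin T) :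
    Nat.card (layerPair h (Cls T)).Coh ≤ p := by
  classical
  set V := U ⊔ Subgroup.zpowers σ with hVdef
  have hV : L.fixingSubgroup ≤ V := hU.trans le_sup_left
  have hT : T.Nonempty := ⟨_, hpT⟩
  haveI : NeZero p := ⟨hp.out.ne_zero⟩
  haveI := hL.unramified.1
  haveI := numberField_fixedField hL hV
  have hcycV : ∀ s ∈ V, ExtCitation.cycloChar p s = 1 := fun s hs =>
    (sup_le hcyc (Subgroup.zpowers_le.2 hcycσ) :
      U ⊔ Subgroup.zpowers σ ≤ (ExtCitation.cycloChar p).ker) hs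
  haveI := isTotallyComplex_fixedField hL hV hp2 hcycV
  -- orders
  obtain ⟨hWfin, hWrank⟩ := finrank_sUnits hL hV hT
  set r := Module.finrank ℤ (Additive (𝓞 (IntermediateField.fixedField V))ˣ)
  set c := Nat.card (PlaceIdx T V)
  have hr : 2 * (r + 1) = V.index := by
    rw [finrank_units_of_isTotallyComplex, IntermediateField.finrank_eq_fixingSubgroup_index,
      fixingSubgroup_fixedField_of_le hL hV]
  have hcard : ∀ (W : AddSubgroup (J T)) [Module.Finite ℤ W] (m : ℕ), Module.finrank ℤ W = m →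
      W ≤ Prin T → sUnits T V ≤ W → Nat.card (mulPair p W).Coh = p ^ (m + 1) := by
    intro W _ m hm hW1 hW2
    obtain ⟨hW, hW'⟩ := herbrand_trivial (mulPair p W) hp.out.ne_zero (fun _ => rfl) (fun _ => rfl)
    have hs := natCard_ker_nsmul_prin hL hV hT hcycV W hW1 hW2
    rw [EndPair.herbrand, hs, hm, div_eq_iff (Nat.cast_ne_zero.2 hp.out.ne_zero), ← pow_succ] at hW'
    exact_mod_cast hW'
  obtain ⟨Q, hQc, hinj, hsplit, hcov⟩ := exists_splitPlaces hL hV hpT hT hcycV ha0 ha haT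
    (hcard (sUnits T V) (r + c) hWrank inf_le_right le_rfl) (r + c) le_rfl
  have hQU : ∀ v ∈ Q, ∀ τ : LocGal v.1, v.2⁻¹ * loc v.1 τ * v.2 ∈ U := by
    intro v hv τ
    obtain ⟨j, hj, hju⟩ := h.exists_pow_mul_mem ((hsplit v hv).dec τ)
    rcases Nat.eq_zero_or_pos j with rfl | hj0
    · simpa using hju
    exfalso
    have h1 : (σ ^ j) a = a := by
      have h2 := haU _ hju
      rw [AlgEquiv.mul_apply] at h2
      refine (v.2⁻¹ * loc v.1 τ * v.2).injective ?_
      rw [h2, (hsplit v hv).split τ]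
    have hco : Nat.Coprime j p := ((hp.out.coprime_iff_not_dvd).2 fun hd =>
      absurd (Nat.le_of_dvd hj0 hd) (by omega)).symm
    obtain ⟨k, -, hk⟩ := Nat.exists_mul_mod_eq_one_of_coprime hco hp.out.one_lt
    refine hσa ?_
    have h3 : σ ^ (j * k) ∈ MulAction.stabilizer GQ a := by
      rw [pow_mul]; exact Subgroup.pow_mem _ h1 k
    have h4 : σ ^ p ∈ MulAction.stabilizer GQ a := haU _ h.pow_mem
    rw [← Nat.mod_add_div (j * k) p, hk, pow_add, pow_one, pow_mul] at h3
    exact (Subgroup.mul_mem_cancel_right _ (Subgroup.pow_mem _ h4 _)).1 h3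
  -- the units at the auxiliary places
  set WQ : AddSubgroup (J T) := prinLev V ⊓ ordSupp T V Q with hWQ
  have hle : sUnits T V ≤ WQ := fun f hf => ⟨⟨hf.1.1, hf.2⟩, fun q g _ => hf.1.2 q g⟩
  let ρ : WQ →ₗ[ℤ] (Q → ℤ) := (AddMonoidHom.pi fun v : Q =>
    (⟨⟨fun f => ((f : J T) : Amb T).ord ⟨(v : Nat.Primes × GQ).1, (hsplit v.1 v.2).not_mem⟩
      (v : Nat.Primes × GQ).2, rfl⟩, fun _ _ => rfl⟩ : WQ →+ ℤ)).toIntLinearMap
  have hρker : ∀ f : WQ, ρ f = 0 → (f : J T) ∈ sUnits T V := by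
    intro f hf
    refine ⟨⟨f.2.1.1, fun q g => ?_⟩, f.2.1.2⟩
    by_cases hex : ∀ v ∈ Q, v.1 = q.1 → v.2⁻¹ * g ∉ V
    · exact f.2.2 q g hex
    push Not at hex
    obtain ⟨v, hv, hvq, hg⟩ := hex
    obtain ⟨q, hq⟩ := q
    obtain rfl : v.1 = q := hvq
    rw [show g = v.2 * (v.2⁻¹ * g) by group, ord_apply_mul (fun s hs => f.2.1.1 s hs) _ _ hg]
    exact congrFun hf ⟨v, hv⟩
  have hρsurj : Function.Surjective ρ := by
    intro m
    let E : Amb T := (fun _ _ => 0, fun q g =>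
      ∑ v : Q, if (v : Nat.Primes × GQ).1 = q.1 ∧ (v : Nat.Primes × GQ).2⁻¹ * g ∈ V then m v else 0)
    have hEV : ∀ s ∈ V, s • E = E := fun s hs => Amb.ext (fun _ _ => rfl) fun q g => by
      refine Finset.sum_congr rfl fun v _ => ?_
      simp only [← mul_assoc, V.mul_mem_cancel_right hs]
    have hEJ : E ∈ J T := by
      refine ⟨fun _ τ _ => (map_zero (locAct _ τ)).symm, fun q τ g => ?_,
        ⟨L, hL, fun s hs => hEV s (hV hs)⟩, ?_⟩
      · refine Finset.sum_congr rfl fun v _ => if_congr (and_congr_right fun hvq => ?_) rfl rfl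
        obtain ⟨q, hq⟩ := q
        obtain rfl : (v : Nat.Primes × GQ).1 = q := hvq
        have h2 : (v : Nat.Primes × GQ).2⁻¹ * (loc _ τ * g)
            = ((v : Nat.Primes × GQ).2⁻¹ * loc _ τ * (v : Nat.Primes × GQ).2)
              * ((v : Nat.Primes × GQ).2⁻¹ * g) := by group
        rw [h2]
        exact V.mul_mem_cancel_left ((hsplit v.1 v.2).dec τ)
      · refine ((Q.image Prod.fst).finite_toSet.preimage
          (Subtype.val_injective (p := fun q => q ∉ T)).injOn).subset ?_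
        rintro q ⟨g, hg⟩
        by_contra hne
        refine hg (Finset.sum_eq_zero fun v _ => if_neg fun hc => hne ?_)
        exact Finset.mem_coe.2 (Finset.mem_image.2 ⟨v.1, v.2, hc.1⟩)
    obtain ⟨P, hP, hPd⟩ := hgen ⟨E, hEJ⟩ fun s hs => Subtype.ext (hEV s hs)
    have hPord : ∀ q g, (P : Amb T).ord q g = E.ord q g := fun q g => (sub_eq_zero.1 (hPd q g)).symm
    refine ⟨⟨P, hP, fun q g hno => ?_⟩, funext fun v => ?_⟩
    · rw [hPord]
      exact Finset.sum_eq_zero fun v _ => if_neg fun hc => hno v.1 v.2 hc.1 hc.2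
    · show (P : Amb T).ord ⟨_, (hsplit v.1 v.2).not_mem⟩ _ = m v
      rw [hPord]
      refine (Finset.sum_eq_single v (fun w _ hne => if_neg fun hc => hne ?_)
        fun h' => absurd (Finset.mem_univ v) h').trans
        (if_pos ⟨rfl, by rw [inv_mul_cancel]; exact V.one_mem⟩)
      exact Subtype.ext (hinj w.2 v.2 hc.1)
  let e : sUnits T V →ₗ[ℤ] LinearMap.ker ρ :=
    ((AddSubgroup.inclusion hle).codRestrict (LinearMap.ker ρ).toAddSubgroup fun f =>
      funext fun v => f.2.1.2 _ _).toIntLinearMap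
  have he : Function.Bijective e :=
    ⟨fun a b hab => Subtype.ext (congrArg (fun z : LinearMap.ker ρ => ((z : WQ) : J T)) hab),
      fun z => ⟨⟨_, hρker z z.2⟩, rfl⟩⟩
  haveI : Module.Finite ℤ (LinearMap.ker ρ) := Module.Finite.equiv (LinearEquiv.ofBijective e he)
  haveI : Module.Finite ℤ (WQ ⧸ LinearMap.ker ρ) :=
    Module.Finite.equiv (ρ.quotKerEquivOfSurjective hρsurj).symm
  haveI : Module.Finite ℤ WQ := Module.Finite.of_submodule_quotient (LinearMap.ker ρ)
  have hWQcard : Nat.card (mulPair p WQ).Coh = p ^ (2 * (r + c) + 1) := by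
    refine hcard WQ _ ?_ (fun f hf => hf.1.2) hle
    rw [← Submodule.finrank_quotient_add_finrank (LinearMap.ker ρ),
      (ρ.quotKerEquivOfSurjective hρsurj).finrank_eq, ← (LinearEquiv.ofBijective e he).finrank_eq,
      Module.finrank_fintype_fun_eq_card, Fintype.card_coe, hQc, hWrank]
    ring
  have hI : Nat.card (mulPair p (locJ (T := T) V)).Coh = p ^ (2 * (r + c) + 2) := by
    rw [natCard_locJ_mod_pow hL hV hpT hcycV, ← hr]
    congr 1
    ring
  -- the map to the cohomology of the classes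
  let P := layerPair h (Cls T)
  have hmem : ∀ f : locJ (T := T) V, clsMk T (f : J T) ∈ fixedPts U (Cls T) := fun f s hs => by
    show s • clsMk T (f : J T) = _
    rw [smul_clsMk, f.2.1 s (Subgroup.mem_sup_left hs)]
  let ψ : locJ (T := T) V →+ P.Coh := P.cls.comp
    ((((clsMk T).comp (locJ V).subtype).codRestrict (fixedPts U (Cls T)) hmem).codRestrict P.cycles
      fun f => (layer_mem_cycles h (Cls T) ⟨_, hmem f⟩).2 fun s hs => by
        show s • clsMk T (f : J T) = _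
        rw [smul_clsMk, f.2.1 s hs])
  have hψsurj : Function.Surjective ψ := by
    intro y
    obtain ⟨⟨x, hx⟩, rfl⟩ := P.cls_surjective y
    obtain ⟨f, hf, hfc⟩ := levelRepresentatives hT L hL V hV _ ((layer_mem_cycles h (Cls T) x).1 hx)
    obtain ⟨P', hP', hd⟩ := hgen f hf
    refine ⟨⟨f - P', (fixedPts V (J T)).sub_mem hf hP'.1, hd⟩, congrArg P.cls (Subtype.ext (Subtype.ext ?_))⟩
    show clsMk T (f - P') = _
    rw [map_sub, (clsMk_eq_zero_iff T).2 hP'.2, sub_zero, hfc]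
  have hψp : ∀ f, ψ (p • f) = 0 := fun f => by
    rw [map_nsmul]
    refine (map_nsmul P.cls p _).symm.trans ((P.cls_eq_zero_iff _).2 ⟨⟨_, hmem f⟩, Subtype.ext ?_⟩)
    rw [coe_layerPair_snd]
    show ∑ i ∈ Finset.range p, σ ^ i • clsMk T (f : J T) = p • clsMk T (f : J T)
    rw [Finset.sum_congr rfl fun i _ => (smul_clsMk T (σ ^ i) (f : J T)).trans (by
      rw [f.2.1 _ (Subgroup.pow_mem _ (Subgroup.mem_sup_right (Subgroup.mem_zpowers σ)) i)]),
      Finset.sum_const, Finset.card_range]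
  let Φ : WQ →+ locJ (T := T) V :=
    ((locPart T).comp WQ.subtype).codRestrict _ fun w => locPart_mem_locJ w.2.1.1
  have hψΦ : ∀ w, ψ (Φ w) = 0 := fun w => by
    obtain ⟨e, heU, he⟩ := exists_norm_ordPart hL hU hQU hinj w.2.1.1 w.2.2 h
    have hme : clsMk T (-e) ∈ fixedPts U (Cls T) := fun s hs => by
      show s • clsMk T (-e) = _
      rw [smul_clsMk, smul_neg, heU s hs]
    refine (P.cls_eq_zero_iff _).2 ⟨⟨_, hme⟩, Subtype.ext ?_⟩
    rw [coe_layerPair_snd]
    show ∑ i ∈ Finset.range p, σ ^ i • clsMk T (-e) = clsMk T (locPart T (w : J T))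
    rw [map_neg, Finset.sum_congr rfl fun i _ => smul_neg (σ ^ i) (clsMk T e),
      Finset.sum_neg_distrib, Finset.sum_congr rfl fun i _ => smul_clsMk T (σ ^ i) e, ← map_sum, he,
      map_sub, (clsMk_eq_zero_iff T).2 w.2.1.2, zero_sub, neg_neg]
  let M := mulPair p (locJ (T := T) V)
  let cM : locJ (T := T) V →+ M.Coh := M.cls.comp ((AddMonoidHom.id _).codRestrict M.cycles fun _ => rfl)
  let ψ' : M.Coh →+ P.Coh := QuotientAddGroup.lift _ (ψ.comp M.cycles.subtype) fun x hx => by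
    obtain ⟨y, hy⟩ := hx
    show ψ (x : locJ (T := T) V) = 0
    rw [show (x : locJ (T := T) V) = p • y from hy.symm, hψp]
  have hψ'surj : Function.Surjective ψ' := fun y => by
    obtain ⟨f, rfl⟩ := hψsurj y
    exact ⟨cM f, rfl⟩
  have hrange : (mulHom p Φ).cohMap.range ≤ ψ'.ker := by
    rintro _ ⟨z, rfl⟩
    obtain ⟨⟨w, hw⟩, rfl⟩ := (mulPair p WQ).cls_surjective z
    exact hψΦ w
  have hinjΦ : Function.Injective (mulHom p Φ).cohMap := by
    refine (injective_iff_map_eq_zero _).2 fun z hz => ?_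
    obtain ⟨⟨w, hw⟩, rfl⟩ := (mulPair p WQ).cls_surjective z
    obtain ⟨⟨y, hy⟩, hye⟩ := ((mulPair p (locJ (T := T) V)).cls_eq_zero_iff _).1 hz
    have hye' : p • y = locPart T (w : J T) := congrArg Subtype.val hye
    obtain ⟨x, hx⟩ := (w : WQ).2.1.2
    have hxV : x ∈ IntermediateField.fixedField V := (IntermediateField.mem_fixedField_iff _ _).2
      fun s hs => hx.apply_eq_self hT (congrArg Subtype.val (w.2.1.1 s hs))
    obtain ⟨c', hc'V, hc'⟩ := exists_pow_eq_of_locally_pow hL hV hp2 hpT hT hcycV hinj hsplit hcov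
      hgen hxV hx.ne_zero
      (fun q hq g hno => by rw [hx.ord_eq ⟨q, hq⟩ g, w.2.2 ⟨q, hq⟩ g hno, neg_zero, zpow_zero])
      fun q g => by
        refine ⟨_, fun τ hτ => (coe_locAct _ τ _).symm.trans (congrArg
          (fun t : LocVal q.1 => ((Additive.toMul t : (PadicAlgCl (q.1 : ℕ))ˣ) : PadicAlgCl (q.1 : ℕ)))
          (fin_mem_locField y.2 q (fun s hs => congrArg Subtype.val (hy.1 s hs)) g hτ)), ?_⟩
        rw [← Units.val_pow_eq_pow_val, ← toMul_nsmul, ← hx.fin_eq]
        exact congrArg (fun t : J T => ((Additive.toMul ((t : Amb T).fin q g) :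
          (PadicAlgCl (q.1 : ℕ))ˣ) : PadicAlgCl (q.1 : ℕ))) hye'
    have hc0 : c' ≠ 0 := fun h0 => hx.ne_zero (by rw [← hc', h0, zero_pow hp.out.ne_zero])
    obtain ⟨Pc, hPc, -, hPcfix⟩ := exists_principal hL (fixedField_le_level hL hV hc'V) hc0
    have hpow : ∀ m : ℕ, IsPrincipalOf ((m • Pc : J T) : Amb T) (c' ^ m) := by
      intro m
      induction m with
      | zero => rw [zero_smul, pow_zero]; exact isPrincipalOf_one
      | succ m ihm => rw [succ_nsmul, pow_succ]; exact ihm.add hPc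
    have hpPc : p • Pc = (w : J T) := Subtype.ext ((hc' ▸ hpow p).eq hx)
    have hPcW : Pc ∈ WQ := ⟨⟨fun s hs => hPcfix s (apply_eq_self_of_mem hc'V hs), ⟨_, hPc⟩⟩,
      fun q g hno => by
        have h1 : (p : ℤ) * (Pc : Amb T).ord q g = 0 := by
          have h2 := w.2.2 q g hno
          rw [← hpPc] at h2
          rw [← h2]
          let ev : J T →+ ℤ :=
            { toFun := fun f => (f : Amb T).ord q g, map_zero' := rfl, map_add' := fun _ _ => rfl }
          show (p : ℤ) * ev Pc = ev (p • Pc)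
          rw [map_nsmul, nsmul_eq_mul]
        exact (mul_eq_zero.1 h1).resolve_left (Int.natCast_ne_zero.2 hp.out.ne_zero)⟩
    exact ((mulPair p WQ).cls_eq_zero_iff _).2 ⟨⟨Pc, hPcW⟩, Subtype.ext hpPc⟩
  haveI : Finite M.Coh := Nat.finite_of_card_ne_zero (by rw [hI]; exact pow_ne_zero _ hp.out.ne_zero)
  have hrc : Nat.card (mulHom p Φ).cohMap.range = p ^ (2 * (r + c) + 1) := by
    rw [← hWQcard]
    exact (Nat.card_eq_of_bijective _
      ⟨fun a b hab => hinjΦ (congrArg Subtype.val hab), (mulHom p Φ).cohMap.rangeRestrict_surjective⟩).symm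
  have hker : p ^ (2 * (r + c) + 1) ≤ Nat.card ψ'.ker :=
    hrc ▸ Nat.card_le_card_of_injective (AddSubgroup.inclusion hrange) (AddSubgroup.inclusion_injective _)
  have hmul := AddSubgroup.card_mul_index ψ'.ker
  rw [AddSubgroup.index_ker, AddMonoidHom.range_eq_top.2 hψ'surj, AddSubgroup.card_top, hI,
    pow_succ _ (2 * (r + c) + 1)] at hmul
  have h1 : p ^ (2 * (r + c) + 1) * Nat.card P.Coh ≤ p ^ (2 * (r + c) + 1) * p :=
    hmul ▸ Nat.mul_le_mul_right _ hker
  exact Nat.le_of_mul_le_mul_left h1 (Nat.pow_pos hp.out.pos)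

end Bound

end Fermat.Agent.PoitouTate
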