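/-
Cyclic layers of degree `p` over a base containing `μ_p`: the norm index of the idele classes is
`p` and the first cohomology group vanishes.
-/
import Fermat.Agent.PoitouTate.IdeleSecond
import Fermat.Agent.PoitouTate.Api
import Mathlib.FieldTheory.KummerExtension

set_option autoImplicit false
set_option linter.style.haveILetI false
set_option maxHeartbeats 400000

noncomputable section

namespace Fermat.Agent.PoitouTate

local notation "Qb" => AlgebraicClosure ℚ

variable {T : Finset Nat.Primes} {L : IntermediateField ℚ Qb} (hL : IsLvl T L)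
  {U : Subgroup GQ} (hU : L.fixingSubgroup ≤ U) {p : ℕ} [hp : Fact p.Prime] {σ : GQ}
  (h : IsLayer p U σ)

include hL hU h in
/-- A radical of the layer. -/
theorem exists_kummer_root (hcyc : ∀ s ∈ U, ExtCitation.cycloChar p s = 1)
    (hcycσ : ExtCitation.cycloChar p σ = 1) :
    ∃ a : Qb, a ≠ 0 ∧ a ^ p ∈ IntermediateField.fixedField (U ⊔ Subgroup.zpowers σ) ∧
      (∀ s ∈ U, s a = a) ∧ σ a ≠ a := by
  letI := baseAlgebra U σ
  haveI : NeZero p := ⟨hp.out.ne_zero⟩
  obtain ⟨e, he, he1, hep, hgal, hdeg⟩ := exists_layerAut hL hU h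
  haveI := hgal
  haveI : FiniteDimensional (IntermediateField.fixedField (U ⊔ Subgroup.zpowers σ))
      (IntermediateField.fixedField U) := Module.finite_of_finrank_pos (hdeg ▸ hp.out.pos)
  haveI : IsCyclic Gal((IntermediateField.fixedField U)/(IntermediateField.fixedField (U ⊔ Subgroup.zpowers σ))) :=
    isCyclic_of_prime_card (p := p) (by rw [IsGalois.card_aut_eq_finrank, hdeg])
  obtain ⟨ζ, hζ⟩ := HasEnoughRootsOfUnity.exists_primitiveRoot Qb p
  have hζV : ζ ∈ IntermediateField.fixedField (U ⊔ Subgroup.zpowers σ) :=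
    (IntermediateField.mem_fixedField_iff _ _).2 fun s hs =>
      apply_eq_self_of_cycloChar_eq_one ((sup_le hcyc (Subgroup.zpowers_le.2 hcycσ) :
        U ⊔ Subgroup.zpowers σ ≤ (ExtCitation.cycloChar p).ker) hs) hζ.pow_eq_one
  have hroots : (primitiveRoots (Module.finrank (IntermediateField.fixedField (U ⊔ Subgroup.zpowers σ))
      (IntermediateField.fixedField U)) (IntermediateField.fixedField (U ⊔ Subgroup.zpowers σ))).Nonempty := by
    rw [hdeg]
    exact ⟨⟨ζ, hζV⟩, (mem_primitiveRoots hp.out.pos).2 (IsPrimitiveRoot.of_map_of_injective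
      (f := (IntermediateField.fixedField (U ⊔ Subgroup.zpowers σ)).val) hζ Subtype.val_injective)⟩
  obtain ⟨α, ⟨k, hk⟩, htop⟩ := exists_root_adjoin_eq_top_of_isCyclic _ _ hroots
  rw [hdeg] at hk
  have hmove : σ (α : Qb) ≠ α := by
    intro hfix
    refine he1 (AlgEquiv.ext fun x => ?_)
    have hle : IntermediateField.adjoin (IntermediateField.fixedField (U ⊔ Subgroup.zpowers σ))
        ({α} : Set (IntermediateField.fixedField U)) ≤
        IntermediateField.fixedField (Subgroup.zpowers e) := by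
      rw [IntermediateField.adjoin_simple_le_iff, IntermediateField.mem_fixedField_iff]
      intro s hs
      have heα : e ∈ MulAction.stabilizer _ α := Subtype.ext ((he α).trans hfix)
      exact (Subgroup.zpowers_le.2 heα) hs
    rw [htop] at hle
    exact (IntermediateField.mem_fixedField_iff _ _).1 (hle IntermediateField.mem_top) e
      (Subgroup.mem_zpowers e)
  refine ⟨α, fun h0 => hmove (by rw [h0, map_zero]), ?_,
    fun s hs => apply_eq_self_of_mem α.2 hs, hmove⟩
  have hk' := congrArg (fun z : IntermediateField.fixedField U => (z : Qb)) hk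
  simp only [SubmonoidClass.coe_pow] at hk'
  rw [← hk']
  exact k.2

include hL hU h in
/-- The second inequality descends along an enlargement of `T`. -/
theorem natCard_coh_le_of_subset {T' : Finset Nat.Primes} (hTT' : T ⊆ T') (hT : T.Nonempty)
    (hfin : Nat.card (layerPair h (Cls T')).Coh ≠ 0) :
    Nat.card (layerPair h (Cls T)).Coh ≤ Nat.card (layerPair h (Cls T')).Coh := by
  haveI : Finite (layerPair h (Cls T')).Coh := Nat.finite_of_card_ne_zero hfin
  have hT' : T'.Nonempty := hT.mono hTT'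
  have hrep : ∀ c : fixedPts U (Cls T'), ∃ f : lowerable T T', (∀ s ∈ U, s • (f : J T') = f) ∧
      clsMk T' (f : J T') = (c : Cls T') := fun c =>
    exists_lowerable_representative hT' hL hTT' hU c.2
  choose F hFU hF using hrep
  let f : fixedPts U (Cls T') →+ fixedPts U (Cls T) :=
    AddMonoidHom.mk' (fun c => ⟨clsMk T (lower hTT' (F c)), fun s hs => by
        show s • clsMk T (lower hTT' (F c)) = _
        rw [smul_clsMk, ← lower_smul]
        congr 2
        exact Subtype.ext (hFU c s hs)⟩)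
      fun c d => Subtype.ext (by
        show clsMk T (lower hTT' (F (c + d))) = clsMk T (lower hTT' (F c)) + clsMk T (lower hTT' (F d))
        rw [← map_add, ← map_add]
        refine clsMk_lower_eq_of_eq hTT' ?_
        rw [AddSubgroup.coe_add, map_add, hF, hF, hF]
        rfl)
  have hfval : ∀ (c : fixedPts U (Cls T')) (g : lowerable T T'), clsMk T' (g : J T') = (c : Cls T') →
      ((f c : fixedPts U (Cls T)) : Cls T) = clsMk T (lower hTT' g) := fun c g hg =>
    clsMk_lower_eq_of_eq hTT' ((hF c).trans hg.symm)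
  let u : EndPair.Hom (layerPair h (Cls T')) (layerPair h (Cls T)) :=
    EndPair.Hom.ofEquivariant _ _ f fun c => Subtype.ext (by
      rw [hfval (layerEnd h (Cls T') c) ⟨σ • (F c : J T'), smul_mem_lowerable σ (F c).2⟩
        (by rw [← smul_clsMk, hF]; rfl), lower_smul, ← smul_clsMk]
      rfl)
  refine Nat.card_le_card_of_surjective u.cohMap fun y => ?_
  obtain ⟨⟨c, hc⟩, rfl⟩ := (layerPair h (Cls T)).cls_surjective y
  obtain ⟨⟨c', hc'm⟩, hc'V, hc'⟩ := exists_cls_lift hTT' hT hL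
    (hU.trans le_sup_left) ((layer_mem_cycles h (Cls T) c).1 hc)
  obtain ⟨g, hg, rfl⟩ := AddSubgroup.mem_map.1 hc'm
  let d : fixedPts U (Cls T') := ⟨clsMk T' g, fun s hs => hc'V s (Subgroup.mem_sup_left hs)⟩
  refine ⟨(layerPair h (Cls T')).cls ⟨d, (layer_mem_cycles h (Cls T') d).2 hc'V⟩, ?_⟩
  rw [EndPair.Hom.cohMap_cls]
  congr 1
  refine Subtype.ext (Subtype.ext ?_)
  exact (hfval d ⟨g, hg⟩ rfl).trans ((clsLower_mk hTT' ⟨g, hg⟩).symm.trans hc')

include hL hU h in
/-- The cohomology of the classes of a cyclic layer of degree `p`. -/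
theorem natCard_coh_layer (hp2 : 2 < p) (hpT : ExtCitation.pPrime p ∈ T)
    (hcyc : ∀ s ∈ U, ExtCitation.cycloChar p s = 1) (hcycσ : ExtCitation.cycloChar p σ = 1) :
    Nat.card (layerPair h (Cls T)).Coh = p ∧ Nat.card (layerPair h (Cls T)).swap.Coh = 1 := by
  classical
  have hT : T.Nonempty := ⟨_, hpT⟩
  set V := U ⊔ Subgroup.zpowers σ with hVdef
  have hV : L.fixingSubgroup ≤ V := hU.trans le_sup_left
  haveI := hL.unramified.1
  haveI : NumberField L := hL.numberField
  obtain ⟨a, ha0, ha, haU, hσa⟩ := exists_kummer_root hL hU h hcyc hcycσ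
  haveI := finite_quotient_unitJ_sup_prinLev hL hV (T := T)
  set G := fixedPts V (J T) ⧸ (unitJ V ⊔ prinLev V).addSubgroupOf (fixedPts V (J T))
  let R : G → J T := fun c => ((Quotient.out c : fixedPts V (J T)) : J T)
  have hsupp : (⋃ c : G, {q : Nat.Primes | ∃ hq : q ∉ T, ∃ g, (R c : Amb T).ord ⟨q, hq⟩ g ≠ 0}).Finite := by
    refine Set.finite_iUnion fun c => ((R c).2.2.2.2.image Subtype.val).subset ?_
    rintro q ⟨hq, g, hg⟩
    exact ⟨⟨q, hq⟩, ⟨g, hg⟩, rfl⟩
  have haL : a ∈ L := fixedField_le_level hL hU ((IntermediateField.mem_fixedField_iff _ _).2 haU)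
  set T₀ : Finset Nat.Primes := T ∪ hsupp.toFinset ∪ (finite_setOf_norm_ne_one haL ha0).toFinset with hT₀
  have hTT₀ : T ⊆ T₀ := Finset.subset_union_left.trans Finset.subset_union_left
  have haT₀ : ∀ q : Nat.Primes, q ∉ T₀ → ∀ g : GQ, ‖padicEmbedding (q : ℕ) (g a)‖ = 1 := by
    intro q hq g
    by_contra hne
    exact hq (Finset.mem_union_right _ ((Set.Finite.mem_toFinset _).2 ⟨g, hne⟩))
  have hgen : ∀ f ∈ fixedPts V (J T₀), ∃ P ∈ prinLev V, f - P ∈ Jfin T₀ := by
    intro f hf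
    let fl : lowerable T T₀ := ⟨f, L, hL, fun s hs => hf s (hV hs)⟩
    have hlow : lower hTT₀ fl ∈ fixedPts V (J T) := fun s hs => by
      rw [← lower_smul]
      congr 1
      exact Subtype.ext (hf s hs)
    set c : G := QuotientAddGroup.mk ⟨lower hTT₀ fl, hlow⟩ with hc
    have hmem : lower hTT₀ fl - R c ∈ unitJ V ⊔ prinLev V := by
      have h1 : (QuotientAddGroup.mk (Quotient.out c) : G) = QuotientAddGroup.mk ⟨lower hTT₀ fl, hlow⟩ :=
        QuotientAddGroup.out_eq' c
      have h2 := AddSubgroup.mem_addSubgroupOf.1 (QuotientAddGroup.eq.1 h1)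
      rw [AddSubgroup.coe_add, AddSubgroup.coe_neg, neg_add_eq_sub] at h2
      exact h2
    obtain ⟨u, hu, P, hP, huP⟩ := AddSubgroup.mem_sup.1 hmem
    obtain ⟨x, hx⟩ := hP.2
    have hxV : x ∈ IntermediateField.fixedField V := (IntermediateField.mem_fixedField_iff _ _).2
      fun s hs => hx.apply_eq_self hT (congrArg Subtype.val (hP.1 s hs))
    obtain ⟨P₀, hP₀, -, hP₀fix⟩ := exists_principal (hL.mono hTT₀)
      (fixedField_le_level hL hV hxV) hx.ne_zero
    refine ⟨P₀, ⟨fun s hs => hP₀fix s (apply_eq_self_of_mem hxV hs), ⟨x, hP₀⟩⟩, fun q g => ?_⟩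
    have hq : q.1 ∉ T := fun hqT => q.2 (hTT₀ hqT)
    have hR : (R c : Amb T).ord ⟨q.1, hq⟩ g = 0 := by
      by_contra hne
      exact q.2 (Finset.mem_union_left _ (Finset.mem_union_right _
        ((Set.Finite.mem_toFinset _).2 (Set.mem_iUnion.2 ⟨c, hq, g, hne⟩))))
    have h3 : (lowerAmb hTT₀ (f : Amb T₀)).ord ⟨q.1, hq⟩ g - (R c : Amb T).ord ⟨q.1, hq⟩ g
        = (u : Amb T).ord ⟨q.1, hq⟩ g + (P : Amb T).ord ⟨q.1, hq⟩ g :=
      congrArg (fun e : J T => (e : Amb T).ord ⟨q.1, hq⟩ g) huP.symm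
    rw [lowerAmb_ord_of_not_mem hTT₀ _ _ q.2, hR, sub_zero, hu.2.1, zero_add] at h3
    rw [AddSubgroup.coe_sub, Amb.ord_sub, sub_eq_zero, h3]
    refine ord_eq_of_zpow_eq (q := q.1) ?_
    rw [← hP₀.ord_eq, ← hx.ord_eq ⟨q.1, hq⟩ g]
  obtain ⟨hH₀, -⟩ := herbrand_clsLev (hL.mono hTT₀) hU hp2 (hT.mono hTT₀) h hcyc hcycσ
  have hle₀ := natCard_coh_le (hL.mono hTT₀) hU h hp2 (hTT₀ hpT) hcyc hcycσ ha0 ha haU hσa haT₀ hgen
  have hle := (natCard_coh_le_of_subset hL hU h hTT₀ hT hH₀.1).trans hle₀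
  obtain ⟨hH, hH'⟩ := herbrand_clsLev hL hU hp2 hT h hcyc hcycσ
  rw [EndPair.herbrand, div_eq_iff (Nat.cast_ne_zero.2 hH.2)] at hH'
  have heq : Nat.card (layerPair h (Cls T)).Coh = p * Nat.card (layerPair h (Cls T)).swap.Coh := by
    exact_mod_cast hH'
  have h1 : Nat.card (layerPair h (Cls T)).swap.Coh = 1 := by
    have h2 : p * Nat.card (layerPair h (Cls T)).swap.Coh ≤ p * 1 := by
      rw [mul_one, ← heq]; exact hle
    have := Nat.le_of_mul_le_mul_left h2 hp.out.pos
    have := hH.2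
    omega
  exact ⟨by rw [heq, h1, mul_one], h1⟩

/-- The norm index of cyclic layers. -/
theorem cyclicNormIndex (p : ℕ) [Fact p.Prime] (T : Finset Nat.Primes) (hp2 : p ≠ 2)
    (hpT : ExtCitation.pPrime p ∈ T) : CyclicNormIndex p T := by
  intro L hL U hU σ h1 h2 h3 hcyc hcycσ
  have hp : 2 < p := lt_of_le_of_ne (Fact.out : p.Prime).two_le (Ne.symm hp2)
  have h := natCard_layer_coh (⟨h1, h2, h3⟩ : IsLayer p U σ) (Cls T)
  rw [(natCard_coh_layer hL hU ⟨h1, h2, h3⟩ hp hpT hcyc hcycσ).1] at h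
  exact h.symm

/-- The vanishing of `H¹` for cyclic layers. -/
theorem cyclicH1 (p : ℕ) [Fact p.Prime] (T : Finset Nat.Primes) (hp2 : p ≠ 2)
    (hpT : ExtCitation.pPrime p ∈ T) : CyclicH1 p T := by
  intro L hL U hU σ h1 h2 h3 hcyc hcycσ c hc hN
  have hp : 2 < p := lt_of_le_of_ne (Fact.out : p.Prime).two_le (Ne.symm hp2)
  exact exists_sub_of_natCard_swap_eq_one ⟨h1, h2, h3⟩ (Cls T)
    (natCard_coh_layer hL hU ⟨h1, h2, h3⟩ hp hpT hcyc hcycσ).2 hc hN

end Fermat.Agent.PoitouTate
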