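import Fermat.Agent.PoitouTate.LocalClassData
import Fermat.Agent.PoitouTate.ClassApi

/-!
# The local class of a level, descended from an unramified layer
-/

set_option autoImplicit false
set_option linter.unusedSectionVars false
set_option linter.style.haveILetI false

noncomputable section

namespace Fermat.Agent.PoitouTate

variable {q : Nat.Primes}

theorem IsLocLevel.index_ne_zero {H : Subgroup (LocGal q)} (hH : IsLocLevel H) : H.index ≠ 0 := by
  obtain ⟨D⟩ := nonempty_levelData hH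
  rw [← D.mul_eq]
  refine mul_ne_zero (fun h0 => ?_) D.f_pos.ne'
  have := D.norm_eq
  rw [h0, pow_zero] at this
  exact (norm_natCast_prime_lt_one q).ne this.symm

theorem mem_fixedPts_iff_fixedVal {H : Subgroup (LocGal q)} {x : LocVal q} :
    x ∈ fixedPts H (LocVal q) ↔ x ∈ fixedVal q H := Iff.rfl

/-- The carry of a character of the local Galois group. -/
def thetaCarry {n : ℕ} {G : Type} [Group G] (θ : G →* Multiplicative (ZMod n)) (σ τ : G) : ℤ :=
  ((((Multiplicative.toAdd (θ σ)).val + (Multiplicative.toAdd (θ τ)).val) / n : ℕ) : ℤ)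

/-- The data of the local class. -/
theorem exists_local_cocycle {H : Subgroup (LocGal q)} [H.Normal] (hH : IsLocLevel H) {M : ℕ}
    (hM : (q : ℕ).Coprime M) {n : ℕ} [NeZero n] (θ : LocGal q →* Multiplicative (ZMod n))
    {Λ : ZMod n}
    (hθ : ∀ (τ : LocGal q) (i : ℕ),
      (∀ μ : PadicAlgCl (q : ℕ), μ ^ M = 1 → τ μ = μ ^ ((q : ℕ) ^ i)) →
      θ τ = Multiplicative.ofAdd (i • Λ))
    (hΛ : H.index • Λ = 0) :
    ∃ (w : LocGal q → LocGal q → LocVal q) (y : LocGal q → LocVal q),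
      (∀ a b c : LocGal q, w (a * b) c + w a b = locAct q a (w b c) + w a (b * c)) ∧
      (∀ a b, ∀ s ∈ H, w (a * s) b = w a b ∧ w a (b * s) = w a b) ∧
      (∀ a b, w a b ∈ fixedVal q H) ∧
      (∀ a, y a ∈ fixedVal q (H ⊓ θ.ker)) ∧
      (∀ a, ∀ s ∈ H ⊓ θ.ker, y (a * s) = y a) ∧
      ∀ a b, thetaCarry θ a b • primeVal q - w a b = locAct q a (y b) - y (a * b) + y a := by
  classical
  set Mv : Subgroup (LocGal q) := H ⊓ θ.ker with hMv
  have hM0 : M ≠ 0 := fun h => by
    rw [h, Nat.coprime_zero_right] at hM; exact q.2.ne_one hM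
  have hroot : rootFixer q M ≤ θ.ker := fun τ hτ => by
    rw [MonoidHom.mem_ker, hθ τ 0 fun μ hμ => by rw [pow_zero, pow_one]; exact hτ μ hμ,
      zero_smul, ofAdd_zero]
  have hMvlev : IsLocLevel Mv :=
    (isLocLevel_inf hH (isLocLevel_rootFixer hM0)).mono (inf_le_inf_left _ hroot)
  haveI : Mv.FiniteIndex := ⟨hMvlev.index_ne_zero⟩
  let θq : LocGal q ⧸ Mv →* Multiplicative (ZMod n) :=
    QuotientGroup.lift Mv θ (show Mv ≤ θ.ker from inf_le_right)
  let d : Digits (LocGal q ⧸ Mv) n :=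
    { e := fun g => (Multiplicative.toAdd (θq g)).val
      lt := fun g => ZMod.val_lt _
      hom := fun g h => by rw [map_mul, toAdd_mul, ZMod.val_add] }
  set Hv : Subgroup (LocGal q ⧸ Mv) := H.map (QuotientGroup.mk' Mv) with hHv
  haveI : Hv.Normal := Subgroup.Normal.map inferInstance _ (QuotientGroup.mk'_surjective _)
  have hinj : Function.Injective fun g : Hv => d.e (g : LocGal q ⧸ Mv) := by
    rintro ⟨-, a, ha, rfl⟩ ⟨-, b, hb, rfl⟩ he
    refine Subtype.ext (QuotientGroup.eq.2 ⟨H.mul_mem (H.inv_mem ha) hb, ?_⟩)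
    show θ (a⁻¹ * b) = 1
    rw [map_mul, map_inv, inv_mul_eq_one]
    exact Multiplicative.toAdd.injective (ZMod.val_injective n he)
  set h := Nat.card Hv with hh
  obtain ⟨d', τ, hcarry, hτe, hgen, hτh⟩ := d.exists_restrict (NeZero.ne n) Hv hinj
  have hh0 : h ≠ 0 := Nat.card_pos.ne'
  obtain ⟨τ₀, hτ₀H, hτ₀⟩ : ∃ τ₀ ∈ H, QuotientGroup.mk τ₀ = (τ : LocGal q ⧸ Mv) :=
    Subgroup.mem_map.1 τ.2
  have hτpow : ∀ i : ℕ, ((τ ^ i : Hv) : LocGal q ⧸ Mv) = QuotientGroup.mk (τ₀ ^ i) := fun i => by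
    rw [Subgroup.coe_pow, ← hτ₀, QuotientGroup.mk_pow]
  have hord : ∀ i, τ₀ ^ i ∈ Mv → h ∣ i := fun i hi => by
    have h1 : (τ : Hv) ^ i = 1 := Subtype.ext (by
      rw [hτpow, Subgroup.coe_one]; exact (QuotientGroup.eq_one_iff _).2 hi)
    have h2 := congrArg d'.e h1
    rw [d'.e_pow hτe, d'.map_one] at h2
    exact Nat.dvd_of_mod_eq_zero h2
  have hcyc : IsCycLayer Mv τ₀ h :=
    { level := hMvlev
      pos := Nat.pos_of_ne_zero hh0
      conj_mem := fun s hs => (inferInstance : Mv.Normal).conj_mem s hs τ₀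
      pow_mem := (QuotientGroup.eq_one_iff _).1 (by rw [← hτpow, hτh, Subgroup.coe_one])
      pow_not_mem := fun i hi0 hih hmem =>
        absurd (Nat.le_of_dvd hi0 (hord i hmem)) (not_le.2 hih) }
  have hsup : Mv ⊔ Subgroup.zpowers τ₀ = H := by
    refine le_antisymm (sup_le inf_le_left (Subgroup.zpowers_le.2 hτ₀H)) fun s hs => ?_
    have h1 := hgen ⟨QuotientGroup.mk s, Subgroup.mem_map_of_mem _ hs⟩
    have h2 : (QuotientGroup.mk s : LocGal q ⧸ Mv) =
        QuotientGroup.mk (τ₀ ^ d'.e ⟨QuotientGroup.mk s, Subgroup.mem_map_of_mem _ hs⟩) := by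
      rw [← hτpow]; exact congrArg Subtype.val h1
    have h3 := QuotientGroup.eq.1 h2.symm
    rw [show s = τ₀ ^ d'.e ⟨QuotientGroup.mk s, Subgroup.mem_map_of_mem _ hs⟩ *
      ((τ₀ ^ d'.e ⟨QuotientGroup.mk s, Subgroup.mem_map_of_mem _ hs⟩)⁻¹ * s) by group]
    exact mul_mem (Subgroup.mem_sup_right (Subgroup.npow_mem_zpowers _ _))
      (Subgroup.mem_sup_left h3)
  -- the degree of the layer divides the ramification index
  obtain ⟨D⟩ := nonempty_levelData hH
  have hhe : h ∣ D.e := by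
    refine hord _ ⟨H.pow_mem hτ₀H _, ?_⟩
    obtain ⟨i, ⟨t, rfl⟩, hi⟩ := D.exists_dvd_pow hτ₀H hM
    show θ (τ₀ ^ D.e) = 1
    rw [map_pow, hθ τ₀ _ hi, ← ofAdd_nsmul, ← mul_smul,
      show D.e * (D.f * t) = t * H.index by rw [← D.mul_eq]; ring, mul_smul, hΛ, smul_zero,
      ofAdd_zero]
  -- the prime is a norm
  have hunr : ∀ x ∈ fixedVal q Mv, ∃ y ∈ fixedVal q (Mv ⊔ Subgroup.zpowers τ₀),
      x - y ∈ unitVal q := fun x hx => by
    rw [hsup]
    exact D.unramified hH hM x fun s hs => hx s ⟨hs.1, hroot hs.2⟩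
  obtain ⟨t, ht⟩ := hhe
  obtain ⟨u, hu, hu'⟩ := hcyc.exists_unit_normVal hunr (u := primeVal q - (D.e : ℤ) • D.pi)
    (by
      rw [hsup]
      exact fun s hs => by rw [map_sub, map_zsmul, locAct_primeVal, D.pi_mem s hs])
    D.prime_val
  let C := ↥(fixedPts Mv (LocVal q))
  have hπ : D.pi ∈ fixedPts Mv (LocVal q) := fun s hs => D.pi_mem s hs.1
  let b : C := ⟨u + (t : ℤ) • D.pi, add_mem (hu.1 : u ∈ fixedPts Mv (LocVal q))
    (zsmul_mem hπ _)⟩
  let α : C := ⟨primeVal q, fun s _ => locAct_primeVal s⟩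
  have hαfix : ∀ g : LocGal q ⧸ Mv, g • α = α := fun g => by
    induction g using QuotientGroup.induction_on with | H σ => ?_
    exact Subtype.ext (locAct_primeVal σ)
  have hnorm : α = ∑ i ∈ Finset.range h, τ ^ i • b := by
    refine Subtype.ext ?_
    rw [AddSubmonoidClass.coe_finset_sum]
    have e1 : ∀ i ∈ Finset.range h, (((τ ^ i • b : C)) : LocVal q) = locAct q (τ₀ ^ i) u +
        (t : ℤ) • D.pi := fun i _ => by
      rw [Subgroup.smul_def, hτpow]
      show locAct q (τ₀ ^ i) (u + (t : ℤ) • D.pi) = _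
      rw [map_add, map_zsmul, D.pi_mem _ (H.pow_mem hτ₀H i)]
    rw [Finset.sum_congr rfl e1, Finset.sum_add_distrib, Finset.sum_const, Finset.card_range]
    rw [normVal, AddMonoidHom.finsetSum_apply] at hu'
    rw [hu', ← natCast_zsmul ((t : ℤ) • D.pi) h, ← mul_smul, ← Nat.cast_mul, ← ht]
    show primeVal q = _
    abel
  -- H¹ of the layer
  have h1K : ∀ c : Hv → C, (∀ g k : Hv, c (g * k) = (g : LocGal q ⧸ Mv) • c k + c g) →
      ∃ x : C, ∀ g : Hv, (g : LocGal q ⧸ Mv) • x - x = c g := by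
    intro c hc
    have hc1 : c 1 = 0 := by simpa using hc 1 1
    have hpow : ∀ i : ℕ, c (τ ^ i) = ∑ k ∈ Finset.range i, τ ^ k • c τ := fun i => by
      induction i with
      | zero => simpa using hc1
      | succ i ih =>
        rw [pow_succ, hc, ih, Finset.sum_range_succ, ← Subgroup.smul_def]
        abel
    have hsum0 : normVal q τ₀ h (c τ : LocVal q) = 0 := by
      have e := congrArg Subtype.val (hpow h)
      rw [hτh, hc1, AddSubmonoidClass.coe_finset_sum] at e
      rw [normVal, AddMonoidHom.finsetSum_apply]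
      refine (Finset.sum_congr rfl fun i _ => ?_).trans e.symm
      rw [Subgroup.smul_def, hτpow]
      rfl
    obtain ⟨x, hx, hxe⟩ := hcyc.exists_sub_of_normVal_eq_zero (c τ).2 hsum0
    let xC : C := ⟨x, hx⟩
    have hxe' : τ • xC - xC = c τ := Subtype.ext (by
      rw [AddSubgroup.coe_sub, Subgroup.smul_def, ← hτ₀]
      exact hxe)
    refine ⟨xC, fun g => ?_⟩
    rw [hgen g, hpow, ← Subgroup.smul_def]
    generalize d'.e g = m
    induction m with
    | zero => rw [pow_zero, one_smul, sub_self, Finset.sum_range_zero]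
    | succ k ih =>
      rw [Finset.sum_range_succ, ← ih, ← hxe', pow_succ, mul_smul, smul_sub]
      abel
  have hres : groupCohomology.IsCoboundary₂ fun x : Hv × Hv =>
      d.cocycle α ((x.1 : LocGal q ⧸ Mv), (x.2 : LocGal q ⧸ Mv)) := by
    have e := d'.coboundary_of_norm (C := C) hh0 hgen hτh b
    rw [← hnorm] at e
    have hf : (fun x : Hv × Hv => d.cocycle α ((x.1 : LocGal q ⧸ Mv), (x.2 : LocGal q ⧸ Mv))) =
        d'.cocycle α := funext fun x => by simp only [Digits.cocycle, hcarry]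
    rw [hf]
    exact e
  obtain ⟨w, hw, ⟨y, hy⟩, hwfix, hwinv⟩ := exists_descent Hv h1K
    (d.cocycle_isCocycle (NeZero.ne n) hαfix) hres
  refine ⟨fun a a' => (w (QuotientGroup.mk a, QuotientGroup.mk a') : C),
    fun a => (y (QuotientGroup.mk a) : C), fun a a' a'' => ?_, fun a a' s hs => ⟨?_, ?_⟩,
    fun a a' s hs => ?_, fun a => (y _).2, fun a s hs => ?_, fun a a' => ?_⟩
  · have e := congrArg Subtype.val
      (hw (QuotientGroup.mk a) (QuotientGroup.mk a') (QuotientGroup.mk a''))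
    rw [← QuotientGroup.mk_mul, ← QuotientGroup.mk_mul, AddSubgroup.coe_add, AddSubgroup.coe_add,
      coe_quot_smul] at e
    exact e
  · dsimp only
    rw [QuotientGroup.mk_mul]
    conv_lhs => rw [show (QuotientGroup.mk a' : LocGal q ⧸ Mv) = QuotientGroup.mk a' * 1 by
      rw [mul_one]]
    exact congrArg (fun z : C => (z : LocVal q)) (hwinv _ _ _ _ (Subgroup.mem_map_of_mem _ hs) (one_mem _))
  · dsimp only
    rw [QuotientGroup.mk_mul]
    conv_lhs => rw [show (QuotientGroup.mk a : LocGal q ⧸ Mv) = QuotientGroup.mk a * 1 by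
      rw [mul_one]]
    exact congrArg (fun z : C => (z : LocVal q)) (hwinv _ _ _ _ (one_mem _) (Subgroup.mem_map_of_mem _ hs))
  · exact congrArg Subtype.val (hwfix _ (QuotientGroup.mk s) (Subgroup.mem_map_of_mem _ hs))
  · exact congrArg (fun g => ((y g : C) : LocVal q)) (QuotientGroup.eq.2 (by simpa using hs) :
      (QuotientGroup.mk (a * s) : LocGal q ⧸ Mv) = QuotientGroup.mk a)
  · have e := congrArg Subtype.val (hy (QuotientGroup.mk a) (QuotientGroup.mk a'))
    rw [← QuotientGroup.mk_mul] at e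
    simp only [Digits.cocycle, AddSubgroup.coe_add, AddSubgroup.coe_sub, AddSubgroup.coe_zsmul,
      coe_quot_smul] at e
    exact e.symm

end Fermat.Agent.PoitouTate
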