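import Fermat.Agent.PoitouTate.Sha2Units
import Mathlib.RingTheory.Noetherian.Basic
import Mathlib.LinearAlgebra.FreeModule.Finite.Basic

/-!
# The connecting relation between classes and two-cocycles

`Rel c F`: the equivariant map `c` from the relations to the classes lifts to ideles supported at
`S`, whose coboundary is given by units; extending these units to the free module, the coboundary
of the extension is `F`.
-/

set_option autoImplicit false

open CategoryTheory ExtCitation groupCohomology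

noncomputable section

namespace Fermat.Agent.PoitouTate

local notation "Qb" => AlgebraicClosure ℚ

variable {p : ℕ} [Fact p.Prime] {S : Finset Nat.Primes} {M : Rep (ZMod p) GQ}
  {K : IntermediateField ℚ Qb}

/-- The hypotheses of the description of `Ш²`. -/
structure Setup (p : ℕ) [Fact p.Prime] (S : Finset Nat.Primes) (M : Rep (ZMod p) GQ)
    (K : IntermediateField ℚ Qb) : Prop where
  mem : pPrime p ∈ S
  lvl : IsLvl S K
  triv : TrivialOn M.ρ (cycloChar p) K
  fd : FiniteDimensional (ZMod p) M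

/-- The index set. -/
abbrev XI (M : Rep (ZMod p) GQ) (K : IntermediateField ℚ Qb) : Type :=
  Idx (Module.Dual (ZMod p) M) K

/-- The relation lattice. -/
abbrev RL (M : Rep (ZMod p) GQ) (K : IntermediateField ℚ Qb) : Type :=
  ↥(Rmod K (dualRep M.ρ (cycloChar p)))

/-- Evaluation on the relations. -/
abbrev evR {A : Type} [AddCommGroup A] : (XI M K → A) →+ (RL M K →+ A) :=
  evalR (ρ := M.ρ) (χ := cycloChar p)

/-- The embedding of `M` in the functions on the index set. -/
abbrev iotaU (M : Rep (ZMod p) GQ) (K : IntermediateField ℚ Qb) : M →+ (XI M K → Qu) :=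
  iota M.ρ (cycloChar p) (zHom p)

/-- The coboundary of a cochain with values in functions on the index set. -/
def qd (g : GQ → XI M K → Qu) (σ τ : GQ) : XI M K → Qu :=
  idxAct (quAct σ) σ (g τ) - g (σ * τ) + g σ

theorem idxAct_quAct_mul (σ τ : GQ) (φ : XI M K → Qu) :
    idxAct (quAct (σ * τ)) (σ * τ) φ = idxAct (quAct σ) σ (idxAct (quAct τ) τ φ) := by
  rw [← idxAct_comp]
  congr 2

theorem qd_add (g g' : GQ → XI M K → Qu) (σ τ : GQ) : qd (g + g') σ τ = qd g σ τ + qd g' σ τ := by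
  simp only [qd, Pi.add_apply, map_add]; abel

theorem qd_neg (g : GQ → XI M K → Qu) (σ τ : GQ) : qd (-g) σ τ = -qd g σ τ := by
  simp only [qd, Pi.neg_apply, map_neg]; abel

theorem qd_cocycle (g : GQ → XI M K → Qu) (σ τ υ : GQ) :
    idxAct (quAct σ) σ (qd g τ υ) + qd g σ (τ * υ) = qd g (σ * τ) υ + qd g σ τ := by
  simp only [qd, map_add, map_sub, idxAct_quAct_mul, mul_assoc]
  abel

theorem idxAct_eq_self (hK : K.fixingSubgroup.Normal) {s : GQ} (hs : s ∈ K.fixingSubgroup)
    {φ : XI M K → Qu} (hφ : ∀ x, s • φ x = φ x) : idxAct (quAct s) s φ = φ := by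
  funext x
  obtain ⟨c, w⟩ := x
  rw [idxAct_apply, quAct_apply]
  have hc : s⁻¹ • c = c := by
    induction c using QuotientGroup.induction_on with
    | H g =>
      rw [MulAction.Quotient.smul_mk, QuotientGroup.eq, smul_eq_mul]
      simpa [mul_assoc] using hK.conj_mem _ hs g⁻¹
  rw [hc]
  exact hφ _

/-- A level containing a field unramified outside `S`. -/
theorem exists_isLvl_ge {F : IntermediateField ℚ Qb} (hF : F.IsUnramifiedOutside S) :
    ∃ L, IsLvl S L ∧ F ≤ L := by
  obtain ⟨L, hL, hn, hle⟩ := exists_normal_isUnramifiedOutside_ge hF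
  exact ⟨L, isLvl_of_normal hL hn, hle⟩

theorem IsLvl.finite_quotient {L : IntermediateField ℚ Qb} (hL : IsLvl S L) :
    Finite (GQ ⧸ L.fixingSubgroup) :=
  haveI := hL.unramified.1
  Subgroup.quotient_finite_of_isOpen _ (IntermediateField.fixingSubgroup_isOpen L)

/-- A level-constant function has finitely many values. -/
theorem finite_range_of_level {X : Type} {L : IntermediateField ℚ Qb} (hL : IsLvl S L)
    {f : GQ → X} (hf : ∀ σ, ∀ s ∈ L.fixingSubgroup, f (σ * s) = f σ) : (Set.range f).Finite := by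
  haveI := hL.finite_quotient
  refine (Set.finite_range fun c : GQ ⧸ L.fixingSubgroup => f c.out).subset ?_
  rintro _ ⟨σ, rfl⟩
  obtain ⟨s, hs⟩ := QuotientGroup.mk_out_eq_mul L.fixingSubgroup σ
  exact ⟨QuotientGroup.mk σ, by simp only [hs, hf σ s s.2]⟩

/-- Finitely many elements of `EU S` are fixed by one level. -/
theorem exists_lvl_fixes (hS : S.Nonempty) {s : Set Qu} (hs : s.Finite)
    (hsU : ∀ x ∈ s, x ∈ EU S) :
    ∃ L, IsLvl S L ∧ ∀ τ ∈ L.fixingSubgroup, ∀ x ∈ s, τ • x = x := by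
  induction s, hs using Set.Finite.induction_on with
  | empty => exact ⟨⊥, isLvl_bot S, by simp⟩
  | @insert a t _ _ ih =>
    obtain ⟨L, hL, hfix⟩ := ih fun x hx => hsU x (Set.mem_insert_of_mem _ hx)
    obtain ⟨L', hL', hfix'⟩ := exists_lvl_fixes_EU hS (hsU a (Set.mem_insert _ _))
    refine ⟨L ⊔ L', hL.sup hL', fun τ hτ x hx => ?_⟩
    rcases hx with rfl | hx
    · exact hfix' τ (IntermediateField.fixingSubgroup_antitone le_sup_right hτ)
    · exact hfix τ (IntermediateField.fixingSubgroup_antitone le_sup_left hτ) x hx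

namespace Setup

theorem nonempty (h : Setup p S M K) : S.Nonempty := ⟨_, h.mem⟩

theorem finite_idx (h : Setup p S M K) : Finite (XI M K) := by
  haveI := h.lvl.finite_quotient
  haveI := h.fd
  haveI : Finite (Module.Dual (ZMod p) M) := Module.finite_of_finite (ZMod p)
  infer_instance

/-- A homomorphism out of the relations into the ideles has a level. -/
theorem exists_lvl_hom (h : Setup p S M K) (Φ : RL M K →+ J S) :
    ∃ L, IsLvl S L ∧ K ≤ L ∧ ∀ τ ∈ L.fixingSubgroup, ∀ r, τ • Φ r = Φ r := by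
  haveI := h.finite_idx
  haveI : IsNoetherian ℤ (Pmod (Module.Dual (ZMod p) M) K) :=
    isNoetherian_of_isNoetherianRing_of_finite ℤ _
  have hfg : (AddSubgroup.toIntSubmodule (Rmod K (dualRep M.ρ (cycloChar p)))).FG :=
    IsNoetherian.noetherian _
  obtain ⟨s, hs⟩ := hfg
  have key : ∀ t : Finset (Pmod (Module.Dual (ZMod p) M) K), ∃ L, IsLvl S L ∧ K ≤ L ∧
      ∀ τ ∈ L.fixingSubgroup, ∀ r : RL M K, (r : Pmod _ K) ∈ t → τ • Φ r = Φ r := by
    classical
    intro t
    induction t using Finset.induction_on with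
    | empty => exact ⟨K, h.lvl, le_rfl, by simp⟩
    | @insert a t _ ih =>
      obtain ⟨L, hL, hKL, hfix⟩ := ih
      by_cases ha : a ∈ Rmod K (dualRep M.ρ (cycloChar p))
      · obtain ⟨L', hL', hfix'⟩ := (Φ ⟨a, ha⟩).2.2.2.1
        refine ⟨L ⊔ L', hL.sup hL', hKL.trans le_sup_left, fun τ hτ r hr => ?_⟩
        rcases Finset.mem_insert.mp hr with hr | hr
        · obtain rfl : r = ⟨a, ha⟩ := Subtype.ext hr
          exact Subtype.ext (hfix' τ (IntermediateField.fixingSubgroup_antitone le_sup_right hτ))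
        · exact hfix τ (IntermediateField.fixingSubgroup_antitone le_sup_left hτ) r hr
      · refine ⟨L, hL, hKL, fun τ hτ r hr => ?_⟩
        rcases Finset.mem_insert.mp hr with hr | hr
        · exact absurd (hr ▸ r.2) ha
        · exact hfix τ hτ r hr
  obtain ⟨L, hL, hKL, hfix⟩ := key s
  refine ⟨L, hL, hKL, fun τ hτ r => ?_⟩
  have hr : (r : Pmod _ K) ∈ Submodule.span ℤ (s : Set (Pmod (Module.Dual (ZMod p) M) K)) := by
    rw [hs]; exact r.2
  suffices ∀ x ∈ Submodule.span ℤ (s : Set (Pmod (Module.Dual (ZMod p) M) K)),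
      ∀ hx : x ∈ Rmod K (dualRep M.ρ (cycloChar p)), τ • Φ ⟨x, hx⟩ = Φ ⟨x, hx⟩ from this _ hr r.2
  have hsub : ∀ x ∈ Submodule.span ℤ (s : Set (Pmod (Module.Dual (ZMod p) M) K)),
      x ∈ Rmod K (dualRep M.ρ (cycloChar p)) := fun x hx => by rw [hs] at hx; exact hx
  intro x hx
  induction hx using Submodule.span_induction with
  | mem y hy => exact fun hy' => hfix τ hτ ⟨y, hy'⟩ hy
  | zero =>
    exact fun hy' => by
      rw [show (⟨0, hy'⟩ : RL M K) = 0 from rfl, map_zero, smul_zero]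
  | add y z hy hz ihy ihz =>
    exact fun hyz => by
      rw [show (⟨y + z, hyz⟩ : RL M K) = ⟨y, hsub y hy⟩ + ⟨z, hsub z hz⟩ from rfl, map_add,
        smul_add, ihy, ihz]
  | smul n y hy ihy =>
    exact fun hny => by
      rw [show (⟨n • y, hny⟩ : RL M K) = n • ⟨y, hsub y hy⟩ from rfl, map_zsmul,
        smul_comm, ihy]

/-- The coboundary of a lift. -/
def dPhi (h : Setup p S M K) (Φ : RL M K →+ J S) (σ : GQ) : RL M K →+ J S :=
  ((DistribSMul.toAddMonoidHom (J S) σ).comp (Φ.comp (rAct h.triv σ⁻¹))) - Φ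

theorem dPhi_apply (h : Setup p S M K) (Φ : RL M K →+ J S) (σ : GQ) (r : RL M K) :
    h.dPhi Φ σ r = σ • Φ (rAct h.triv σ⁻¹ r) - Φ r := rfl

/-- The connecting relation. -/
def Rel (h : Setup p S M K) (c : RL M K →+ Cls S) (F : GQ × GQ → M) : Prop :=
  ∃ (Φ : RL M K →+ J S) (g : GQ → XI M K → Qu),
    (∀ r, Φ r ∈ Jfin S) ∧ (∀ r, clsMk S (Φ r) = c r) ∧ (∀ σ x, g σ x ∈ EU S) ∧
    IsLevelConstantS₁ S g ∧ (∀ σ r, IsPrinU S (h.dPhi Φ σ r) (evR (g σ) r)) ∧
    ∀ σ τ, iotaU M K (F (σ, τ)) = qd g σ τ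

theorem Rel.zero (h : Setup p S M K) : h.Rel 0 0 := by
  refine ⟨0, 0, fun _ => zero_mem _, fun _ => map_zero _, fun _ _ => zero_mem _,
    isLevelConstantS₁_const S 0, fun σ r => ?_, fun σ τ => ?_⟩
  · have : evR ((0 : GQ → XI M K → Qu) σ) r = 0 := by simp
    rw [this, dPhi_apply]
    simpa using isPrinU_zero
  · simp [qd]

theorem Rel.add {h : Setup p S M K} {c c' : RL M K →+ Cls S} {F F' : GQ × GQ → M}
    (hr : h.Rel c F) (hr' : h.Rel c' F') : h.Rel (c + c') (F + F') := by
  obtain ⟨Φ, g, h1, h2, h3, h4, h5, h6⟩ := hr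
  obtain ⟨Φ', g', h1', h2', h3', h4', h5', h6'⟩ := hr'
  refine ⟨Φ + Φ', g + g', fun r => add_mem (h1 r) (h1' r), fun r => ?_,
    fun σ x => add_mem (h3 σ x) (h3' σ x), h4.add h4', fun σ r => ?_, fun σ τ => ?_⟩
  · simp [h2, h2']
  · have := (h5 σ r).add (h5' σ r)
    rw [dPhi_apply] at this ⊢
    rw [Pi.add_apply, map_add, AddMonoidHom.add_apply, AddMonoidHom.add_apply,
      AddMonoidHom.add_apply, smul_add]
    convert this using 1
    rw [dPhi_apply]
    abel
  · rw [Pi.add_apply, map_add, h6, h6', qd_add]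

theorem Rel.neg {h : Setup p S M K} {c : RL M K →+ Cls S} {F : GQ × GQ → M}
    (hr : h.Rel c F) : h.Rel (-c) (-F) := by
  obtain ⟨Φ, g, h1, h2, h3, h4, h5, h6⟩ := hr
  refine ⟨-Φ, -g, fun r => neg_mem (h1 r), fun r => by simp [h2],
    fun σ x => neg_mem (h3 σ x), h4.comp (fun y => -y), fun σ r => ?_, fun σ τ => ?_⟩
  · have := isPrinU_zero.sub (h5 σ r)
    rw [dPhi_apply] at this ⊢
    rw [Pi.neg_apply, map_neg, AddMonoidHom.neg_apply, AddMonoidHom.neg_apply,
      AddMonoidHom.neg_apply, smul_neg]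
    convert this using 1 <;> abel
  · rw [Pi.neg_apply, map_neg, h6, qd_neg]

/-- The relation is total on maps with a lift supported at `S`. -/
theorem rel_exists (h : Setup p S M K) {c : RL M K →+ Cls S}
    (hc : c ∈ homR S K (dualRep M.ρ (cycloChar p))) (Φ : RL M K →+ J S)
    (hΦ : ∀ r, Φ r ∈ Jfin S) (hcΦ : ∀ r, clsMk S (Φ r) = c r) :
    ∃ F, h.Rel c F := by
  have hd : ∀ σ r, clsMk S (h.dPhi Φ σ r) = 0 := by
    intro σ r
    rw [dPhi_apply, map_sub, ← smul_clsMk, hcΦ, hcΦ, sub_eq_zero]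
    refine (hc σ (rAct h.triv σ⁻¹ r) r ?_).symm
    rw [coe_rAct, ← pmodAct_mul, mul_inv_cancel, pmodAct_one, AddMonoidHom.id_apply]
  choose e he using fun σ r => exists_isPrinU_of_clsMk_eq_zero (hd σ r)
  let E : GQ → (RL M K →+ Qu) := fun σ => AddMonoidHom.mk' (e σ) fun r r' =>
    (he σ (r + r')).elem_eq h.nonempty (by rw [map_add]; exact (he σ r).add (he σ r'))
  choose ext hext using fun φ : RL M K →+ Qu => exists_evalR_eq φ
  let g : GQ → XI M K → Qu := fun σ => ext (E σ)
  obtain ⟨L, hL, hKL, hfix⟩ := h.exists_lvl_hom Φ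
  have hg : ∀ σ, ∀ s ∈ L.fixingSubgroup, g (σ * s) = g σ := by
    intro σ s hs
    suffices E (σ * s) = E σ by simp only [g, this]
    ext r : 1
    refine (he (σ * s) r).elem_eq h.nonempty ?_
    have : h.dPhi Φ (σ * s) r = h.dPhi Φ σ r := by
      rw [dPhi_apply, dPhi_apply, mul_inv_rev, rAct_mul, mul_smul, hfix s hs]
      congr 2
      congr 1
      haveI := h.lvl.normal
      exact Subtype.ext (pmodAct_eq_self
        (inv_mem (IntermediateField.fixingSubgroup_antitone hKL hs)) _)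
    rw [this]
    exact he σ r
  have hgU : ∀ σ x, g σ x ∈ EU S := by
    intro σ x
    refine mem_EU_of_nsmul_mem h.nonempty h.mem ?_
    rw [← evalR_pSingle (ρ := M.ρ) (χ := cycloChar p)]
    simp only [g, hext]
    exact ⟨_, sub_mem (smul_mem_Jfin _ (hΦ _)) (hΦ _), he σ _⟩
  have hprin : ∀ σ r, IsPrinU S (h.dPhi Φ σ r) (evR (g σ) r) := by
    intro σ r
    simp only [g, evR, hext]
    exact he σ r
  have hker : ∀ σ τ, evR (qd g σ τ) = (0 : RL M K →+ Qu) := by
    intro σ τ
    ext r : 1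
    rw [qd, map_add, map_sub, AddMonoidHom.add_apply, AddMonoidHom.sub_apply,
      evalR_idxAct h.triv, quAct_apply]
    have h1 := (((hprin τ (rAct h.triv σ⁻¹ r)).smul σ).sub (hprin (σ * τ) r)).add (hprin σ r)
    rw [dPhi_apply, dPhi_apply, dPhi_apply, smul_sub, ← mul_smul, mul_inv_rev, rAct_mul] at h1
    refine h1.elem_eq h.nonempty ?_
    convert (isPrinU_zero (T := S)) using 1 <;> first | abel | simp
  haveI := h.fd
  choose F hF using fun σ τ => exists_iota_eq (torsGen_zHom p) h.triv (hker σ τ)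
  exact ⟨fun z => F z.1 z.2, Φ, g, hΦ, hcΦ, hgU, ⟨L, hL.unramified, hg⟩, hprin, hF⟩

/-- The cochain of the relation is a level cocycle. -/
theorem Rel.mem_levelCocycles {h : Setup p S M K} {c : RL M K →+ Cls S} {F : GQ × GQ → M}
    (hr : h.Rel c F) : F ∈ levelCocyclesS₂ S M := by
  obtain ⟨Φ, g, -, -, hgU, ⟨L₀, hL₀, hg⟩, -, hF⟩ := hr
  have hinj := iota_injective (K := K) (hhom := (torsGen_zHom p).injective) h.triv
  rw [mem_levelCocyclesS₂_iff]
  refine ⟨(mem_cocycles₂_iff F).mpr fun σ τ υ => hinj ?_, ?_⟩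
  · rw [map_add, map_add, hF, hF, hF,
      ← idxAct_iota h.triv (a := quAct σ) (fun k => smul_zHom p σ k), hF]
    exact (qd_cocycle g σ τ υ).symm
  · obtain ⟨L₁, hL₁, hle₁⟩ := exists_isLvl_ge hL₀
    haveI := h.finite_idx
    have hfin : (Set.range fun z : GQ × XI M K => g z.1 z.2).Finite := by
      refine ((finite_range_of_level hL₁ (f := g) fun σ s hs => hg σ s
        (IntermediateField.fixingSubgroup_antitone hle₁ hs)).biUnion
          fun φ _ => Set.finite_range φ).subset ?_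
      rintro _ ⟨⟨σ, x⟩, rfl⟩
      exact Set.mem_biUnion ⟨σ, rfl⟩ ⟨x, rfl⟩
    obtain ⟨L₂, hL₂, hfix⟩ := exists_lvl_fixes h.nonempty hfin (by rintro _ ⟨z, rfl⟩; exact hgU _ _)
    have hL := (h.lvl.sup hL₁).sup hL₂
    set L := (K ⊔ L₁) ⊔ L₂ with hLdef
    have hgL : ∀ σ, ∀ s ∈ L.fixingSubgroup, g (σ * s) = g σ := fun σ s hs =>
      hg σ s (IntermediateField.fixingSubgroup_antitone
        (hle₁.trans (le_sup_right.trans le_sup_left)) hs)
    refine ⟨L, hL.unramified, fun σ τ s t hs ht => hinj ?_⟩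
    rw [hF, hF, qd, qd, hgL _ t ht, hgL _ s hs, idxAct_quAct_mul,
      idxAct_eq_self (φ := g τ) h.lvl.normal
        (IntermediateField.fixingSubgroup_antitone (le_sup_left.trans le_sup_left) hs)
        (fun x => hfix s (IntermediateField.fixingSubgroup_antitone le_sup_right hs) _
          ⟨(τ, x), rfl⟩),
      show σ * s * (τ * t) = σ * τ * ((τ⁻¹ * s * τ) * t) by group,
      hgL _ _ (mul_mem (by simpa using hL.normal.conj_mem s hs τ⁻¹) ht)]

/-- The relation is functional up to level coboundaries. -/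
theorem Rel.mem_coboundaries_of_zero {h : Setup p S M K} {F : GQ × GQ → M}
    (hr : h.Rel 0 F) : F ∈ levelCoboundariesS₂ S M := by
  obtain ⟨Φ, g, hΦ, hcΦ, hgU, ⟨L₀, hL₀, hg⟩, hprin, hF⟩ := hr
  choose y hy using fun r => exists_isPrinU_of_clsMk_eq_zero (hcΦ r)
  let Y : RL M K →+ Qu := AddMonoidHom.mk' y fun r r' =>
    (hy (r + r')).elem_eq h.nonempty (by rw [map_add]; exact (hy r).add (hy r'))
  obtain ⟨ψ, hψ⟩ := exists_evalR_eq Y
  have hψU : ∀ x, ψ x ∈ EU S := by
    intro x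
    refine mem_EU_of_nsmul_mem h.nonempty h.mem ?_
    rw [← evalR_pSingle (ρ := M.ρ) (χ := cycloChar p), hψ]
    exact ⟨_, hΦ _, hy _⟩
  haveI := h.finite_idx
  obtain ⟨L₁, hL₁, hfix⟩ := exists_lvl_fixes h.nonempty (Set.finite_range ψ)
    (by rintro _ ⟨x, rfl⟩; exact hψU x)
  let u : GQ → XI M K → Qu := fun σ => g σ - (idxAct (quAct σ) σ ψ - ψ)
  have hu : ∀ σ, evR (u σ) = (0 : RL M K →+ Qu) := by
    intro σ
    ext r : 1
    simp only [u, map_sub, AddMonoidHom.sub_apply, evalR_idxAct h.triv, quAct_apply]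
    rw [evR, hψ, AddMonoidHom.zero_apply, sub_eq_zero]
    refine (hprin σ r).elem_eq h.nonempty ?_
    rw [dPhi_apply]
    exact ((hy _).smul σ).sub (hy r)
  haveI := h.fd
  choose x hx using fun σ => exists_iota_eq (torsGen_zHom p) h.triv (hu σ)
  have hinj := iota_injective (K := K) (hhom := (torsGen_zHom p).injective) h.triv
  rw [mem_levelCoboundariesS₂_iff]
  refine ⟨x, ⟨(L₀ ⊔ K) ⊔ L₁, (hL₀.sup h.lvl.unramified).sup hL₁.unramified,
    fun σ s hs => hinj ?_⟩, funext fun z => hinj ?_⟩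
  · rw [hx, hx]
    simp only [u]
    rw [hg σ s (IntermediateField.fixingSubgroup_antitone (le_sup_left.trans le_sup_left) hs),
      idxAct_quAct_mul, idxAct_eq_self h.lvl.normal
        (IntermediateField.fixingSubgroup_antitone (le_sup_right.trans le_sup_left) hs)
        (fun w => hfix s (IntermediateField.fixingSubgroup_antitone le_sup_right hs) _ ⟨w, rfl⟩)]
  · obtain ⟨σ, τ⟩ := z
    rw [d₁₂_hom_apply]
    simp only [map_add, map_sub]
    rw [← idxAct_iota h.triv (a := quAct σ) (fun k => smul_zHom p σ k), hx, hx, hx, hF]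
    simp only [u, qd, map_sub, idxAct_quAct_mul]
    abel

end Setup

end Fermat.Agent.PoitouTate
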