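import Fermat.Agent.PoitouTate.Sha2Coeff
import Fermat.Agent.PoitouTate.IdelePrincipal
import Fermat.Agent.PoitouTate.GlobalPrincipalize

/-!
# The units of the maximal extension unramified outside `T`, additively

`Qu` is the multiplicative group of the algebraic closure of `ℚ`, written additively; `EU T` is
the subgroup of the elements of some level whose valuations outside `T` vanish.
-/

set_option autoImplicit false

noncomputable section

open scoped Pointwise

namespace Fermat.Agent.PoitouTate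

local notation "Qb" => AlgebraicClosure ℚ

/-- The multiplicative group of the algebraic closure, written additively. -/
def Qu : Type := Additive (AlgebraicClosure ℚ)ˣ

instance : AddCommGroup Qu := inferInstanceAs (AddCommGroup (Additive (AlgebraicClosure ℚ)ˣ))

/-- The value of an element of `Qu`. -/
def uval (x : Qu) : Qb := ((Additive.toMul (α := (Qb)ˣ) x : (Qb)ˣ) : Qb)

/-- The element of `Qu` with given non-zero value. -/
def umk (x : Qb) (hx : x ≠ 0) : Qu := Additive.ofMul (Units.mk0 x hx)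

@[simp] theorem uval_umk (x : Qb) (hx : x ≠ 0) : uval (umk x hx) = x := rfl
theorem uval_ne_zero (x : Qu) : uval x ≠ 0 := Units.ne_zero _
@[simp] theorem uval_zero : uval 0 = 1 := rfl
@[simp] theorem uval_add (x y : Qu) : uval (x + y) = uval x * uval y := rfl
@[simp] theorem uval_neg (x : Qu) : uval (-x) = (uval x)⁻¹ := Units.val_inv_eq_inv_val _

theorem uval_injective : Function.Injective uval := fun _ _ h => Units.ext h

@[ext] theorem Qu.ext {x y : Qu} (h : uval x = uval y) : x = y := uval_injective h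

@[simp] theorem uval_sub (x y : Qu) : uval (x - y) = uval x / uval y := by
  rw [sub_eq_add_neg, uval_add, uval_neg, div_eq_mul_inv]

@[simp] theorem uval_nsmul (n : ℕ) (x : Qu) : uval (n • x) = uval x ^ n := by
  induction n with
  | zero => simp
  | succ n ih => rw [succ_nsmul, uval_add, ih, pow_succ]

/-- The Galois action on `Qu`. -/
def quAct (σ : GQ) : Qu →+ Qu :=
  MonoidHom.toAdditive (Units.map ((σ : Qb →ₐ[ℚ] Qb) : Qb →* Qb))

instance : SMul GQ Qu := ⟨fun σ x => quAct σ x⟩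

@[simp] theorem uval_smul (σ : GQ) (x : Qu) : uval (σ • x) = σ (uval x) := rfl

instance : DistribMulAction GQ Qu where
  one_smul x := Qu.ext rfl
  mul_smul σ τ x := Qu.ext rfl
  smul_zero σ := map_zero (quAct σ)
  smul_add σ x y := map_add (quAct σ) x y

theorem quAct_apply (σ : GQ) (x : Qu) : quAct σ x = σ • x := rfl

theorem exists_pow_eq_unit {F : Type} [Field F] [IsAlgClosed F] {n : ℕ} (hn : n ≠ 0) (x : Fˣ) :
    ∃ y : Fˣ, y ^ n = x := by
  obtain ⟨y, hy⟩ := IsAlgClosed.exists_pow_nat_eq (x : F) (Nat.pos_of_ne_zero hn)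
  have hy0 : y ≠ 0 := by
    rintro rfl
    rw [zero_pow hn] at hy
    exact x.ne_zero hy.symm
  exact ⟨Units.mk0 y hy0, Units.ext hy⟩

open Classical in
/-- Units of an algebraically closed field form a divisible group. -/
@[instance_reducible] def divisibleUnits (F : Type) [Field F] [IsAlgClosed F] : DivisibleBy (Additive Fˣ) ℤ where
  div x n := if hn : n = 0 then 0 else
    Additive.ofMul ((exists_pow_eq_unit (Int.natAbs_ne_zero.mpr hn) (Additive.toMul x ^ n.sign)).choose)
  div_zero x := dif_pos rfl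
  div_cancel {n} x hn := by
    simp only [dif_neg hn]
    have h := (exists_pow_eq_unit (Int.natAbs_ne_zero.mpr hn) (Additive.toMul x ^ n.sign)).choose_spec
    apply Additive.toMul.injective
    rw [toMul_zsmul, toMul_ofMul]
    revert h
    generalize (exists_pow_eq_unit (Int.natAbs_ne_zero.mpr hn)
      (Additive.toMul x ^ n.sign)).choose = y
    intro h
    calc y ^ n = (y ^ n.natAbs) ^ n.sign := by
          conv_lhs => rw [← Int.sign_mul_natAbs n, mul_comm, zpow_mul, zpow_natCast]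
      _ = Additive.toMul x := by
          rw [h, ← zpow_mul]
          rcases Int.lt_trichotomy n 0 with hlt | heq | hgt
          · simp [Int.sign_eq_neg_one_of_neg hlt]
          · exact absurd heq hn
          · simp [Int.sign_eq_one_of_pos hgt]

instance : DivisibleBy Qu ℤ := divisibleUnits Qb

variable (p : ℕ) [Fact p.Prime]

/-- A primitive `p`-th root of unity. -/
theorem exists_primitive_root : ∃ ζ : Qb, IsPrimitiveRoot ζ p :=
  haveI : NeZero (p : Qb) := ⟨Nat.cast_ne_zero.mpr (Fact.out : p.Prime).ne_zero⟩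
  HasEnoughRootsOfUnity.exists_primitiveRoot Qb p

/-- The chosen primitive `p`-th root of unity in `Qu`. -/
def zetaU : Qu :=
  umk (exists_primitive_root p).choose
    ((exists_primitive_root p).choose_spec.ne_zero (Fact.out : p.Prime).ne_zero)

theorem isPrimitiveRoot_zetaU : IsPrimitiveRoot (uval (zetaU p)) p :=
  (exists_primitive_root p).choose_spec

theorem nsmul_zetaU : p • zetaU p = 0 :=
  Qu.ext (by rw [uval_nsmul, uval_zero, (isPrimitiveRoot_zetaU p).pow_eq_one])

/-- `k ↦ k • ζ`. -/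
def zHom : ZMod p →+ Qu :=
  ZMod.lift p ⟨zmultiplesHom Qu (zetaU p), by simpa using nsmul_zetaU p⟩

theorem zHom_natCast (k : ℕ) : zHom p (k : ZMod p) = k • zetaU p := by
  rw [zHom, ← Int.cast_natCast (R := ZMod p) k, ZMod.lift_coe]
  simp

theorem zHom_eq (k : ZMod p) : zHom p k = k.val • zetaU p := by
  conv_lhs => rw [← ZMod.natCast_zmod_val k, zHom_natCast]

theorem uval_zHom (k : ZMod p) : uval (zHom p k) = uval (zetaU p) ^ k.val := by
  rw [zHom_eq, uval_nsmul]

theorem torsGen_comp_zHom {F : Type} [Field F] (j : Qu →+ Additive Fˣ) (φ : Qb →+* F)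
    (hj : ∀ x, ((Additive.toMul (j x) : Fˣ) : F) = φ (uval x)) :
    TorsGen p (j.comp (zHom p)) := by
  have hp : p.Prime := Fact.out
  haveI : NeZero p := ⟨hp.ne_zero⟩
  have hζ : IsPrimitiveRoot (φ (uval (zetaU p))) p :=
    (isPrimitiveRoot_zetaU p).map_of_injective φ.injective
  have hpow : ∀ k : ZMod p, ((Additive.toMul (j (zHom p k)) : Fˣ) : F) =
      φ (uval (zetaU p)) ^ k.val := fun k => by rw [hj, uval_zHom, map_pow]
  refine ⟨fun a b hab => ?_, fun x hx => ?_⟩
  · have h := congrArg (fun y : Additive Fˣ => ((Additive.toMul y : Fˣ) : F)) hab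
    simp only [AddMonoidHom.comp_apply, hpow] at h
    exact ZMod.val_injective p (hζ.pow_inj (ZMod.val_lt a) (ZMod.val_lt b) h)
  · have hx1 : ((Additive.toMul x : Fˣ) : F) ^ p = 1 := by
      rw [← Units.val_pow_eq_pow_val, ← toMul_nsmul, hx, toMul_zero, Units.val_one]
    obtain ⟨i, hi, hi'⟩ := hζ.eq_pow_of_pow_eq_one hx1
    refine ⟨(i : ZMod p), Additive.toMul.injective (Units.ext ?_)⟩
    rw [AddMonoidHom.comp_apply, hpow, ZMod.val_natCast, Nat.mod_eq_of_lt hi, hi']

theorem torsGen_zHom : TorsGen p (zHom p) :=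
  torsGen_comp_zHom p (j := (AddMonoidHom.id (Additive (Qb)ˣ) : Qu →+ Additive (Qb)ˣ))
    (RingHom.id Qb) fun _ => rfl

theorem smul_zHom (σ : GQ) (k : ZMod p) :
    σ • zHom p k = zHom p ((ExtCitation.cycloChar p σ : ZMod p) * k) := by
  have hp : p.Prime := Fact.out
  haveI : NeZero p := ⟨hp.ne_zero⟩
  apply Qu.ext
  rw [uval_smul, uval_zHom, map_pow, uval_zHom]
  have ht : (Additive.toMul (α := (Qb)ˣ) (zetaU p)) ∈ rootsOfUnity p Qb := by
    rw [mem_rootsOfUnity, Units.ext_iff, Units.val_pow_eq_pow_val, Units.val_one]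
    exact (isPrimitiveRoot_zetaU p).pow_eq_one
  have hσ : σ (uval (zetaU p)) =
      uval (zetaU p) ^ (ExtCitation.cycloChar p σ : ZMod p).val :=
    modularCyclotomicCharacter.spec Qb (ExtCitation.card_rootsOfUnity_eq_self p)
      (σ : Qb ≃+* Qb) ht
  rw [hσ, ← pow_mul, ZMod.val_mul]
  exact pow_eq_pow_mod _ (isPrimitiveRoot_zetaU p).pow_eq_one

/-- The embedding at `q`. -/
def embU (q : Nat.Primes) : Qu →+ LocVal q :=
  MonoidHom.toAdditive (Units.map ((padicEmbedding (q : ℕ)) : Qb →* PadicAlgCl (q : ℕ)))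

theorem coe_embU (q : Nat.Primes) (x : Qu) :
    ((Additive.toMul (embU q x) : (PadicAlgCl (q : ℕ))ˣ) : PadicAlgCl (q : ℕ)) =
      padicEmbedding (q : ℕ) (uval x) := rfl

theorem locAct_embU (q : Nat.Primes) (τ : LocGal q) (x : Qu) :
    locAct q τ (embU q x) = embU q (loc q τ • x) := by
  apply ext_locVal
  rw [coe_locAct, coe_embU, coe_embU, uval_smul, padicEmbedding_loc]

theorem torsGen_embU (q : Nat.Primes) : TorsGen p ((embU q).comp (zHom p)) :=
  torsGen_comp_zHom p (embU q) (padicEmbedding (q : ℕ)).toRingHom fun _ => rfl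

instance divisibleLocVal (q : Nat.Primes) : DivisibleBy (LocVal q) ℤ :=
  haveI : IsAlgClosed (PadicAlgCl (q : ℕ)) :=
    inferInstanceAs (IsAlgClosed (AlgebraicClosure ℚ_[(q : ℕ)]))
  divisibleUnits _

variable (T : Finset Nat.Primes)

/-- `x` is the element of the idele `f`. -/
def IsPrinU (f : J T) (x : Qu) : Prop := IsPrincipalOf (f : Amb T) (uval x)

variable {T}

theorem IsPrinU.add {f f' : J T} {x y : Qu} (h : IsPrinU T f x) (h' : IsPrinU T f' y) :
    IsPrinU T (f + f') (x + y) := by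
  unfold IsPrinU
  rw [AddSubgroup.coe_add, uval_add]
  exact IsPrincipalOf.add h h'

theorem IsPrinU.sub {f f' : J T} {x y : Qu} (h : IsPrinU T f x) (h' : IsPrinU T f' y) :
    IsPrinU T (f - f') (x - y) := by
  unfold IsPrinU
  rw [AddSubgroup.coe_sub, uval_sub]
  exact IsPrincipalOf.sub h h'

theorem isPrinU_zero : IsPrinU T 0 0 := isPrincipalOf_one

theorem IsPrinU.smul {f : J T} {x : Qu} (h : IsPrinU T f x) (σ : GQ) :
    IsPrinU T (σ • f) (σ • x) :=
  IsPrincipalOf.smul h σ

theorem IsPrinU.eq {f f' : J T} {x : Qu} (h : IsPrinU T f x) (h' : IsPrinU T f' x) : f = f' :=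
  Subtype.ext (IsPrincipalOf.eq h h')

theorem IsPrinU.elem_eq (hT : T.Nonempty) {f : J T} {x y : Qu} (h : IsPrinU T f x)
    (h' : IsPrinU T f y) : x = y :=
  uval_injective (IsPrincipalOf.elem_eq hT h h')

theorem IsPrinU.clsMk_eq_zero {f : J T} {x : Qu} (h : IsPrinU T f x) : clsMk T f = 0 :=
  (clsMk_eq_zero_iff T).2 ⟨_, h⟩

theorem exists_isPrinU_of_clsMk_eq_zero {f : J T} (h : clsMk T f = 0) : ∃ x, IsPrinU T f x := by
  obtain ⟨x, hx⟩ := (clsMk_eq_zero_iff T).1 h
  exact ⟨umk x hx.ne_zero, hx⟩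

theorem IsPrinU.fin_eq {f : J T} {x : Qu} (h : IsPrinU T f x) (q : ↥T) (g : GQ) :
    (f : Amb T).fin q g = embU q.1 (g • x) :=
  ext_locVal (IsPrincipalOf.fin_eq h q g)

/-- The `T`-units of the maximal extension unramified outside `T`. -/
def EU (T : Finset Nat.Primes) : AddSubgroup Qu where
  carrier := {x | ∃ f ∈ Jfin T, IsPrinU T f x}
  zero_mem' := ⟨0, zero_mem _, isPrinU_zero⟩
  add_mem' := by
    rintro x y ⟨f, hf, hx⟩ ⟨f', hf', hy⟩
    exact ⟨f + f', add_mem hf hf', hx.add hy⟩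
  neg_mem' := by
    rintro x ⟨f, hf, hx⟩
    exact ⟨-f, neg_mem hf, by simpa using isPrinU_zero.sub hx⟩

theorem mem_EU {x : Qu} : x ∈ EU T ↔ ∃ f ∈ Jfin T, IsPrinU T f x := Iff.rfl

theorem smul_mem_Jfin (σ : GQ) {f : J T} (hf : f ∈ Jfin T) : σ • f ∈ Jfin T :=
  fun q g => hf q (g * σ)

theorem smul_mem_EU (σ : GQ) {x : Qu} (hx : x ∈ EU T) : σ • x ∈ EU T := by
  obtain ⟨f, hf, h⟩ := hx
  exact ⟨σ • f, smul_mem_Jfin σ hf, h.smul σ⟩

theorem exists_lvl_fixes_EU (hT : T.Nonempty) {x : Qu} (hx : x ∈ EU T) :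
    ∃ L, IsLvl T L ∧ ∀ s ∈ L.fixingSubgroup, s • x = x := by
  obtain ⟨f, -, h⟩ := hx
  obtain ⟨L, hL, hfix⟩ := f.2.2.2.1
  refine ⟨L, hL, fun s hs => (h.smul s).elem_eq hT ?_⟩
  have : s • f = f := Subtype.ext (hfix s hs)
  rw [this]
  exact h

/-- `p`-th roots of `T`-units are `T`-units when `p ∈ T`. -/
theorem mem_EU_of_nsmul_mem (hT : T.Nonempty) {p : ℕ} [Fact p.Prime]
    (hpT : ExtCitation.pPrime p ∈ T) {x : Qu} (hx : p • x ∈ EU T) : x ∈ EU T := by
  obtain ⟨f, hf, h⟩ := hx
  obtain ⟨L, hL, hfix⟩ := f.2.2.2.1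
  have hxL : uval x ^ p ^ 1 ∈ L := by
    rw [pow_one, ← uval_nsmul]
    exact IsPrincipalOf.mem_of_fixed hT h hfix
  have hunr : (L ⊔ IntermediateField.adjoin ℚ {uval x}).IsUnramifiedOutside T := by
    refine isUnramifiedOutside_sup_adjoin_of_unit hpT hL.unramified (uval_ne_zero x) 1 hxL
      fun q hq A hA => ?_
    obtain ⟨g, hg⟩ := exists_place_eq_norm q hA
    rw [← map_one A.valuation, pow_one]
    refine hg _ _ (pow_ne_zero _ (uval_ne_zero x)) one_ne_zero ?_
    rw [← uval_nsmul, IsPrincipalOf.ord_eq h ⟨q, hq⟩ g,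
      show (f : Amb T).ord ⟨q, hq⟩ g = 0 from hf _ g, map_one, map_one, norm_one, neg_zero,
      zpow_zero]
  obtain ⟨L', hL', hn', hle⟩ := exists_normal_isUnramifiedOutside_ge hunr
  obtain ⟨d, hd, -, -⟩ := exists_principal (isLvl_of_normal hL' hn')
    (hle ((le_sup_right : _ ≤ L ⊔ _) (IntermediateField.mem_adjoin_simple_self ℚ (uval x))))
    (uval_ne_zero x)
  refine ⟨d, fun q g => ?_, hd⟩
  have h1 : (f : Amb T).ord q g = (p : ℤ) * (d : Amb T).ord q g :=
    IsPrincipalOf.ord_unique h q g (by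
      rw [uval_nsmul, map_pow, map_pow, norm_pow, hd.ord_eq, ← zpow_natCast, ← zpow_mul]
      congr 1
      ring)
  rw [hf q g] at h1
  exact (mul_eq_zero.mp h1.symm).resolve_left (by exact_mod_cast (Fact.out : p.Prime).ne_zero)

theorem mem_EU_of_nsmul_eq_zero (hT : T.Nonempty) {p : ℕ} [Fact p.Prime]
    (hpT : ExtCitation.pPrime p ∈ T) {x : Qu} (hx : p • x = 0) : x ∈ EU T :=
  mem_EU_of_nsmul_mem hT hpT (hx ▸ zero_mem _)

end Fermat.Agent.PoitouTate
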