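/-
The pairing between equivariant maps on a relation lattice and one-cocycles with values in the
presented module: both non degeneracies, relative to a family of local parts.

For a presentation `0 → R → P → W → 0` the pairing is `(f, x) ↦ inv (f ∘ δx)`. The local parts are
the induced maps `indHom H (Φ ∘ g)`; the maps orthogonal to the cocycles which are trivial on all
the `H` are, up to a factor prime to `p`, sums of local parts, restrictions from `P` and norms.
-/
import Fermat.Agent.PoitouTate.AlgebraTN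
import Fermat.Agent.PoitouTate.AlgebraCores
import Mathlib.LinearAlgebra.Dual.Lemmas
import Mathlib.Algebra.Module.ZMod
import Mathlib.Algebra.Field.ZMod

set_option autoImplicit false

open groupCohomology

noncomputable section

namespace Fermat.Agent.PoitouTate

variable {p : ℕ} [Fact p.Prime]

/-- A nondegenerate substitute of `tn_right` with coefficients mapped into another module. -/
theorem tn_right_map {D : Type} [Group D] [Fintype D] {E C : Type} [AddCommGroup E]
    [DistribMulAction D E] [AddCommGroup C] [DistribMulAction D C] {R : Type} [AddCommGroup R]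
    [DistribMulAction D R] [Module.Free ℤ R] [Module.Finite ℤ R] (w : Z2 D E) {Φ : E →+ C}
    (hΦ : IsEquivariant D Φ)
    (hord : ∀ k : ℤ, IsCoboundary₂ (fun x : D × D => k • Φ ((w : D × D → E) x)) →
      ((p ^ (Nat.card D).factorization p : ℕ) : ℤ) ∣ k)
    {z : D × D → R} (hz : IsCocycle₂ z) (hpz : IsCoboundary₂ fun x => p • z x)
    (hne : ¬ IsCoboundary₂ z) :
    ∃ g : R →+ E, IsEquivariant D g ∧ ¬ IsCoboundary₂ fun x => Φ (g (z x)) := by
  set P : Sylow p D := default
  set n' := (P : Subgroup D).index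
  have hn' : ¬ p ∣ n' := P.not_dvd_index
  obtain ⟨y₂, hy⟩ := exists_shiftRel hz
  have hn'y := hy.nsmul n'
  have hnot : (⟨n' • y₂, mem_fixSub.2 hn'y.fixed⟩ : fixSub D (Up D (Up D R))) ∉
      (trFix (Δ := D) (X := Up D (Up D R))).range := by
    rintro ⟨t, ht⟩
    obtain ⟨a, ha⟩ := hn'y.isCoboundary₂_of_norm (congrArg Subtype.val ht).symm
    obtain ⟨b, hb⟩ := hpz
    obtain ⟨i, j, hij⟩ := Nat.isCoprime_iff_coprime.2
      ((Nat.Prime.coprime_iff_not_dvd (Fact.out : p.Prime)).2 hn')
    refine hne ⟨i • b + j • a, fun g h => ?_⟩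
    simp only [Pi.add_apply, Pi.smul_apply, smul_add, smul_intMul]
    calc i • g • b h + j • g • a h - (i • b (g * h) + j • a (g * h)) + (i • b g + j • a g)
        = i • (g • b h - b (g * h) + b g) + j • (g • a h - a (g * h) + a g) := by
          simp only [smul_add, smul_sub]; abel
      _ = (i * (p : ℤ) + j * (n' : ℤ)) • z (g, h) := by
          rw [hb, ha, add_smul, mul_smul, mul_smul, natCast_zsmul, natCast_zsmul]
      _ = z (g, h) := by rw [hij, one_smul]
  obtain ⟨ψ, hψ, hψn⟩ := exists_invariantFn_not_dvd hnot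
  obtain ⟨f, hf⟩ := exists_splitLift w hψ
  refine ⟨f, hf.isEquivariant, fun hcob => hψn ?_⟩
  obtain ⟨a, ha⟩ := hcob
  obtain ⟨b, hb⟩ := hf.apply_shift hy
  obtain ⟨m, hm⟩ := hord (ψ y₂) ⟨fun g => a g - Φ (b g), fun g h => by
    have e := congrArg Φ (hb g h)
    simp only [map_add, map_sub, map_zsmul, hΦ _ _] at e
    simp only [smul_sub]
    linear_combination (norm := abel) ha g h - e⟩
  refine ⟨m, ?_⟩
  have hcard : (Fintype.card D : ℤ) =
      ((p ^ (Nat.card D).factorization p : ℕ) : ℤ) * n' := by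
    rw [← Sylow.card_eq_multiplicity P, ← Nat.cast_mul, Subgroup.card_mul_index,
      Nat.card_eq_fintype_card]
  rw [map_nsmul, nsmul_eq_mul, hm, hcard]
  ring

/-- A presentation of a module killed by `p`. -/
structure IsPresentation (p : ℕ) (Δ : Type) [Group Δ] {R P W : Type} [AddCommGroup R]
    [DistribMulAction Δ R] [AddCommGroup P] [DistribMulAction Δ P] [AddCommGroup W]
    [DistribMulAction Δ W] (j : R →+ P) (π : P →+ W) : Prop where
  j_equiv : IsEquivariant Δ j
  π_equiv : IsEquivariant Δ π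
  inj : Function.Injective j
  surj : Function.Surjective π
  exact_mid : ∀ x, π x = 0 ↔ x ∈ j.range
  killed : ∀ w : W, p • w = 0

variable {Δ : Type} [Group Δ] {R P W : Type} [AddCommGroup R] [DistribMulAction Δ R]
  [AddCommGroup P] [DistribMulAction Δ P] [AddCommGroup W] [DistribMulAction Δ W]
  {j : R →+ P} {π : P →+ W}

/-- A set-theoretic section of a presentation. -/
def presSection (π : P →+ W) (w : W) : P := Function.invFun π w

/-- The connecting map on cochains. -/
def connect (j : R →+ P) (π : P →+ W) (x : Δ → W) (y : Δ × Δ) : R :=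
  Function.invFun j (y.1 • presSection π (x y.2) - presSection π (x (y.1 * y.2)) +
    presSection π (x y.1))

namespace IsPresentation

variable (hP : IsPresentation p Δ j π)
include hP

omit [Fact p.Prime] in
theorem π_section (w : W) : π (presSection π w) = w := Function.invFun_eq (hP.surj w)

omit [Fact p.Prime] in
theorem π_j (r : R) : π (j r) = 0 := (hP.exact_mid _).2 ⟨r, rfl⟩

omit [Fact p.Prime] in
theorem exists_j {x : P} (hx : π x = 0) : ∃ r, j r = x := (hP.exact_mid x).1 hx

omit [Fact p.Prime] in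
theorem res (H : Subgroup Δ) : IsPresentation p H j π :=
  ⟨fun g r => hP.j_equiv (g : Δ) r, fun g x => hP.π_equiv (g : Δ) x, hP.inj, hP.surj,
    hP.exact_mid, hP.killed⟩

variable {x : Δ → W} (hx : IsCocycle₁ x)
include hx

omit [Fact p.Prime] in
theorem j_connect (g h : Δ) :
    j (connect j π x (g, h)) =
      g • presSection π (x h) - presSection π (x (g * h)) + presSection π (x g) := by
  refine Function.invFun_eq (hP.exists_j ?_)
  rw [map_add, map_sub, hP.π_equiv, hP.π_section, hP.π_section, hP.π_section, hx g h]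
  abel

omit [Fact p.Prime] in
theorem connect_isCocycle : IsCocycle₂ (connect j π x) := fun g h k => by
  apply hP.inj
  simp only [map_add, hP.j_equiv _ _, hP.j_connect hx, smul_add, smul_sub, mul_smul, mul_assoc]
  abel

omit [Fact p.Prime] in
theorem nsmul_connect : IsCoboundary₂ fun y => p • connect j π x y := by
  have h : ∀ g, ∃ r, j r = p • presSection π (x g) := fun g =>
    hP.exists_j (by rw [map_nsmul]; exact hP.killed _)
  choose β hβ using h
  refine ⟨β, fun g h => hP.inj ?_⟩
  have hns : g • (p • presSection π (x h)) = p • g • presSection π (x h) :=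
    map_nsmul (DistribSMul.toAddMonoidHom P g) p _
  rw [map_add, map_sub, map_nsmul, hP.j_equiv, hβ, hβ, hβ, hP.j_connect hx, nsmul_add, nsmul_sub,
    hns]

omit [Fact p.Prime] in
theorem isCoboundary₁_of_connect (hP1 : ∀ c : Δ → P, IsCocycle₁ c → IsCoboundary₁ c)
    (h : IsCoboundary₂ (connect j π x)) : IsCoboundary₁ x := by
  obtain ⟨β, hβ⟩ := h
  obtain ⟨e, he⟩ := hP1 (fun g => presSection π (x g) - j (β g)) fun g k => by
    have e := congrArg j (hβ g k)
    rw [map_add, map_sub, hP.j_equiv, hP.j_connect hx] at e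
    dsimp only
    rw [smul_sub]
    linear_combination (norm := abel) e
  refine ⟨π e, fun g => ?_⟩
  rw [← hP.π_equiv, ← map_sub, he, map_sub, hP.π_section, hP.π_j, sub_zero]

omit [Fact p.Prime] in
theorem connect_of_isCoboundary₁ (h : IsCoboundary₁ x) : IsCoboundary₂ (connect j π x) := by
  obtain ⟨w, hw⟩ := h
  have h' : ∀ g, ∃ r, j r =
      presSection π (x g) - (g • presSection π w - presSection π w) := fun g => hP.exists_j (by
    rw [map_sub, map_sub, hP.π_equiv, hP.π_section, hP.π_section, hw, sub_self])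
  choose β hβ using h'
  refine ⟨β, fun g k => hP.inj ?_⟩
  simp only [map_add, map_sub, hP.j_equiv _ _, hβ, hP.j_connect hx, smul_sub, mul_smul]
  abel

omit [Fact p.Prime] in
theorem connect_add {y : Δ → W} (hy : IsCocycle₁ y) :
    IsCoboundary₂ fun t => connect j π (x + y) t - (connect j π x t + connect j π y t) := by
  have hxy : IsCocycle₁ (x + y) := fun g h => by
    simp only [Pi.add_apply, hx g h, hy g h, smul_add]; abel
  have h' : ∀ g, ∃ r, j r =
      presSection π ((x + y) g) - (presSection π (x g) + presSection π (y g)) := fun g =>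
    hP.exists_j (by simp [hP.π_section])
  choose β hβ using h'
  refine ⟨β, fun g k => hP.inj ?_⟩
  simp only [map_add, map_sub, hP.j_equiv _ _, hβ, hP.j_connect hx, hP.j_connect hy,
    hP.j_connect hxy, smul_sub, smul_add]
  abel

omit hx

omit [Fact p.Prime] in
theorem exists_cocycle_of_map {z : Δ × Δ → R} (hz : IsCoboundary₂ fun y => j (z y)) :
    ∃ x : Δ → W, IsCocycle₁ x ∧ IsCoboundary₂ fun y => z y - connect j π x y := by
  obtain ⟨β, hβ⟩ := hz
  have hx : IsCocycle₁ fun g => π (β g) := fun g k => by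
    have e := congrArg π (hβ g k)
    rw [map_add, map_sub, hP.π_equiv, hP.π_j] at e
    linear_combination (norm := abel) -e
  have h' : ∀ g, ∃ r, j r = β g - presSection π (π (β g)) := fun g =>
    hP.exists_j (by rw [map_sub, hP.π_section, sub_self])
  choose γ hγ using h'
  refine ⟨_, hx, γ, fun g k => hP.inj ?_⟩
  simp only [map_add, map_sub, hP.j_equiv _ _, hγ, hP.j_connect hx, smul_sub]
  linear_combination (norm := abel) hβ g k

end IsPresentation

section Classes

variable [Fintype Δ] {C : Type} [AddCommGroup C] [DistribMulAction Δ C]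

theorem isCoboundary₂_map {A B : Type} [AddCommGroup A] [DistribMulAction Δ A] [AddCommGroup B]
    [DistribMulAction Δ B] {f : A →+ B} (hf : IsEquivariant Δ f) {z : Δ × Δ → A}
    (hz : IsCoboundary₂ z) : IsCoboundary₂ fun x => f (z x) := by
  obtain ⟨b, hb⟩ := hz
  exact ⟨fun g => f (b g), fun g h => by rw [← hf, ← map_sub, ← map_add, hb]⟩

theorem isCocycle₂_map {A B : Type} [AddCommGroup A] [DistribMulAction Δ A] [AddCommGroup B]
    [DistribMulAction Δ B] {f : A →+ B} (hf : IsEquivariant Δ f) {z : Δ × Δ → A}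
    (hz : IsCocycle₂ z) : IsCocycle₂ fun x => f (z x) := fun g h k => by
  rw [← hf, ← map_add, ← map_add, hz g h k]

theorem cocycle₂_res {A : Type} [AddCommGroup A] [DistribMulAction Δ A] {z : Δ × Δ → A}
    (hz : IsCocycle₂ z) (H : Subgroup Δ) :
    IsCocycle₂ fun y : H × H => z ((y.1 : Δ), (y.2 : Δ)) := fun g h k => hz g h k

/-- A class killed by `p` on a subgroup and killed by corestriction is trivial. -/
theorem IsClassModule.cores_injective {u : Z2 Δ C} (hu : IsClassModule p Δ C (u : Δ × Δ → C))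
    (H : Subgroup Δ) [Fintype (Δ ⧸ H)] {z : H × H → C} (hz : IsCocycle₂ z)
    (hpz : IsCoboundary₂ fun y => p • z y) (hcor : IsCoboundary₂ (coresFun H z)) :
    IsCoboundary₂ z := by
  classical
  have hp := (Fact.out : p.Prime)
  let P0 : Sylow p H := default
  let P0' : Subgroup Δ := (P0 : Subgroup H).map H.subtype
  have hP0' : IsPGroup p P0' := P0.2.map _
  let e : P0' → H := fun g => ⟨g, Subgroup.map_subtype_le _ g.2⟩
  obtain ⟨k, x, hx⟩ := hu.generates P0' hP0' (fun y => z (e y.1, e y.2))
    fun g h i => hz (e g) (e h) (e i)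
  set uH : H × H → C := fun y => (u : Δ × Δ → C) ((y.1 : Δ), (y.2 : Δ))
  have huH : IsCocycle₂ uH := cocycle₂_res u.2 H
  -- the difference dies on `P0`, hence after multiplication by its index
  have hy : IsCocycle₂ fun y => z y - k • uH y := fun a b c => by
    have := congrArg₂ (fun s t => s - k • t) (hz a b c) (huH a b c)
    simp only [smul_add, Subgroup.smul_def, smul_sub, smul_intMul] at this ⊢
    linear_combination (norm := abel) this
  have hmem : ∀ g : ↥(P0 : Subgroup H), ((g : H) : Δ) ∈ P0' := fun g =>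
    Subgroup.mem_map_of_mem H.subtype g.2
  obtain ⟨b, hb⟩ := isCoboundary₂_index_nsmul hy (P0 : Subgroup H) 1
    ⟨fun g => x ⟨(g : H), hmem g⟩, fun g h => by
      refine Eq.trans ?_ (one_smul ℤ _).symm
      exact (hx ⟨(g : H), hmem g⟩ ⟨(h : H), hmem h⟩).symm⟩
  set m := (P0 : Subgroup H).index
  have hm : ¬ p ∣ m := P0.not_dvd_index
  simp only [mul_one] at hb
  -- the corestriction gives the divisibility of `k`
  obtain ⟨c1, hc1⟩ := coresFun_coboundary H (c := fun y => (m : ℤ) • (z y - k • uH y)) ⟨b, hb⟩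
  obtain ⟨c2, hc2⟩ := hcor
  obtain ⟨c3, hc3⟩ := coresFun_res (H := H) u.2
  have hk : IsCoboundary₂ fun y => ((m : ℤ) * k * H.index) • (u : Δ × Δ → C) y := by
    refine ⟨(m : ℤ) • c2 - c1 + ((m : ℤ) * k) • c3, fun g h => ?_⟩
    have e2 : coresFun H (fun y => ((m : ℤ)) • (z y - k • uH y)) (g, h) =
        (m : ℤ) • coresFun H z (g, h) - ((m : ℤ) * k) • coresFun H uH (g, h) := by
      simp only [coresFun, Finset.smul_sum, ← Finset.sum_sub_distrib]
      refine Finset.sum_congr rfl fun q _ => ?_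
      rw [smul_intMul, smul_sub, smul_intMul, smul_sub, smul_smul (m : ℤ) k]
    have e3 := (hc1 g h).trans e2
    rw [← hc2 g h] at e3
    have e4 := congrArg (((m : ℤ) * k) • ·) (hc3 g h)
    simp only [smul_sub, smul_add] at e3 e4
    simp only [Pi.add_apply, Pi.sub_apply, Pi.smul_apply, smul_add, smul_sub, smul_intMul,
      mul_smul ((m : ℤ) * k)]
    linear_combination (norm := abel) e4 - e3
  obtain ⟨H0, n', hH0, hn', -, hcard⟩ := exists_coprime_factor Δ p
  have hdvd : (Nat.card P0' : ℤ) ∣ k := by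
    have h1 : (Fintype.card Δ : ℤ) ∣ (m : ℤ) * k * H.index * n' := by
      rw [hcard]
      exact mul_dvd_mul_right (hu.dvd_of_coboundary hk hH0) _
    have h2 : (Fintype.card Δ : ℤ) = Nat.card P0' * m * H.index := by
      rw [← Nat.card_eq_fintype_card, ← Subgroup.card_mul_index H,
        ← Subgroup.card_mul_index (P0 : Subgroup H),
        Subgroup.card_map_of_injective H.subtype_injective]
      push_cast
      rfl
    have h3 : (m : ℤ) * H.index ≠ 0 := mul_ne_zero
      (by exact_mod_cast Subgroup.index_ne_zero_of_finite)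
      (by exact_mod_cast Subgroup.index_ne_zero_of_finite)
    rw [h2, show (Nat.card P0' : ℤ) * m * H.index = (m : ℤ) * H.index * Nat.card P0' by ring,
      show (m : ℤ) * k * H.index * n' = (m : ℤ) * H.index * (k * n') by ring] at h1
    refine Int.dvd_of_dvd_mul_left_of_gcd_one ((mul_dvd_mul_iff_left h3).1 h1) ?_
    rw [Int.gcd_natCast_natCast]
    obtain ⟨i, hi⟩ := IsPGroup.iff_card.1 hP0'
    rw [hi]
    exact Nat.Coprime.pow_left _ ((Nat.Prime.coprime_iff_not_dvd hp).2 hn')
  obtain ⟨x', hx'⟩ := (hu.order P0' hP0' k).2 hdvd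
  have hzm := isCoboundary₂_index_nsmul hz (P0 : Subgroup H) 1
    ⟨fun g => x ⟨(g : H), hmem g⟩ + x' ⟨(g : H), hmem g⟩, fun g h => by
      refine Eq.trans ?_ (one_smul ℤ _).symm
      have e1 := hx ⟨(g : H), hmem g⟩ ⟨(h : H), hmem h⟩
      have e2 := hx' ⟨(g : H), hmem g⟩ ⟨(h : H), hmem h⟩
      dsimp only [e] at e1
      change ((g : H) : Δ) • (x ⟨(h : H), hmem h⟩ + x' ⟨(h : H), hmem h⟩) -
        (x (⟨(g : H), hmem g⟩ * ⟨(h : H), hmem h⟩) + x' (⟨(g : H), hmem g⟩ * ⟨(h : H), hmem h⟩)) +
        (x ⟨(g : H), hmem g⟩ + x' ⟨(g : H), hmem g⟩) = z ((g : H), (h : H))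
      rw [smul_add]
      linear_combination (norm := abel) -e1 - e2⟩
  obtain ⟨a, ha⟩ := hzm
  obtain ⟨c, hc⟩ := hpz
  obtain ⟨i, l, hil⟩ := Nat.isCoprime_iff_coprime.2 ((Nat.Prime.coprime_iff_not_dvd hp).2 hm)
  refine ⟨i • c + l • a, fun g h => ?_⟩
  simp only [Pi.add_apply, Pi.smul_apply, smul_add, smul_intMul]
  calc i • g • c h + l • g • a h - (i • c (g * h) + l • a (g * h)) + (i • c g + l • a g)
      = i • (g • c h - c (g * h) + c g) + l • (g • a h - a (g * h) + a g) := by
        simp only [smul_add, smul_sub]; abel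
    _ = (i * (p : ℤ) + l * (m : ℤ)) • z (g, h) := by
        rw [hc, ha, mul_one, add_smul, mul_smul, mul_smul, natCast_zsmul]
    _ = z (g, h) := by rw [hil, one_smul]

/-- The classes killed by `p`. -/
def torClasses (p : ℕ) (Δ C : Type) [Group Δ] [AddCommGroup C] [DistribMulAction Δ C] :
    AddSubgroup (H2C Δ C) := (nsmulAddMonoidHom p).ker

theorem torClasses_eq_zero_iff {z : Z2 Δ C} (h : (QuotientAddGroup.mk z : H2C Δ C) ∈ torClasses p Δ C) :
    (⟨_, h⟩ : torClasses p Δ C) = 0 ↔ IsCoboundary₂ (z : Δ × Δ → C) :=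
  ⟨fun e => (QuotientAddGroup.eq_zero_iff _).1 (congrArg Subtype.val e),
    fun e => Subtype.ext ((QuotientAddGroup.eq_zero_iff _).2 e)⟩

/-- The invariant on classes killed by `p`. -/
theorem IsClassModule.exists_inv {u : Z2 Δ C} (hu : IsClassModule p Δ C (u : Δ × Δ → C)) :
    ∃ inv : ↥(torClasses p Δ C) →+ ZMod p, Function.Injective inv := by
  classical
  have hp := (Fact.out : p.Prime)
  let P : Sylow p Δ := default
  let P' : Subgroup Δ := P
  let uP : Z2 P' C := ⟨fun y => (u : Δ × Δ → C) ((y.1 : Δ), (y.2 : Δ)), cocycle₂_res u.2 P'⟩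
  let r : H2C Δ C →+ H2C P' C := QuotientAddGroup.map _ _
    (AddMonoidHom.mk' (fun z : Z2 Δ C => (⟨fun y => (z : Δ × Δ → C) ((y.1 : Δ), (y.2 : Δ)),
      cocycle₂_res z.2 P'⟩ : Z2 P' C)) fun _ _ => rfl)
    fun z hz => by
      obtain ⟨b, hb⟩ := hz
      exact ⟨fun g => b g, fun g h => hb g h⟩
  have hgen : ∀ a : H2C P' C, a ∈ AddSubgroup.zmultiples (QuotientAddGroup.mk uP : H2C P' C) := by
    intro a
    obtain ⟨z, rfl⟩ := QuotientAddGroup.mk_surjective a
    obtain ⟨k, x, hx⟩ := hu.generates P' P.2 (z : P' × P' → C) fun g h i => z.2 g h i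
    refine ⟨k, ?_⟩
    change k • (QuotientAddGroup.mk uP : H2C P' C) = _
    rw [← QuotientAddGroup.mk_zsmul]
    refine Eq.symm (QuotientAddGroup.eq_iff_sub_mem.2 ⟨x, fun g h => ?_⟩)
    exact (hx g h).symm
  have : IsAddCyclic (H2C P' C) := ⟨⟨_, hgen⟩⟩
  have : Finite (H2C P' C) := by
    have hfin : IsOfFinAddOrder (QuotientAddGroup.mk uP : H2C P' C) := by
      refine isOfFinAddOrder_iff_nsmul_eq_zero.2 ⟨Nat.card P', Nat.card_pos, ?_⟩
      obtain ⟨x, hx⟩ := (hu.order P' P.2 (Nat.card P')).2 dvd_rfl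
      rw [← QuotientAddGroup.mk_nsmul, QuotientAddGroup.eq_zero_iff]
      exact ⟨x, fun g h => ((hx g h).symm.trans (natCast_zsmul _ _))⟩
    have : Finite (AddSubgroup.zmultiples (QuotientAddGroup.mk uP : H2C P' C)) :=
      hfin.finite_zmultiples.to_subtype
    exact Finite.of_injective (fun a => (⟨a, hgen a⟩ : AddSubgroup.zmultiples _))
      fun a b e => congrArg Subtype.val e
  have hrinj : ∀ a ∈ torClasses p Δ C, r a = 0 → a = 0 := by
    intro a ha h0
    obtain ⟨z, rfl⟩ := QuotientAddGroup.mk_surjective a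
    obtain ⟨b, hb⟩ := (QuotientAddGroup.eq_zero_iff _).1 h0
    have hm : (P' : Subgroup Δ).index • (QuotientAddGroup.mk z : H2C Δ C) = 0 := by
      obtain ⟨c, hc⟩ := isCoboundary₂_index_nsmul z.2 P' 1
        ⟨b, fun g h => (hb g h).trans (one_smul ℤ _).symm⟩
      rw [← QuotientAddGroup.mk_nsmul, QuotientAddGroup.eq_zero_iff]
      exact ⟨c, fun g h => by rw [hc]; simp⟩
    have hc : (P' : Subgroup Δ).index.Coprime p :=
      ((Nat.Prime.coprime_iff_not_dvd hp).2 P.not_dvd_index).symm
    exact AddMonoid.addOrderOf_eq_one_iff.1 (Nat.eq_one_of_dvd_coprimes hc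
      (addOrderOf_dvd_of_nsmul_eq_zero hm) (addOrderOf_dvd_of_nsmul_eq_zero ha))
  have hinj : Function.Injective
      (fun a : torClasses p Δ C => (⟨r a, by
        change p • r a = 0
        rw [← map_nsmul, show p • (a : H2C Δ C) = 0 from a.2, map_zero]⟩ :
          {b : H2C P' C // p • b = 0})) := fun a b e => Subtype.ext (by
    rw [← sub_eq_zero]
    exact hrinj _ (sub_mem a.2 b.2) (by rw [map_sub]; exact sub_eq_zero.2 (congrArg Subtype.val e)))
  have hcard : Nat.card (torClasses p Δ C) ≤ p := by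
    have := Fintype.ofFinite (H2C P' C)
    refine (Nat.card_le_card_of_injective _ hinj).trans ?_
    rw [Nat.card_eq_fintype_card, Fintype.card_subtype]
    exact IsAddCyclic.card_nsmul_eq_zero_le hp.pos
  have hfin : Finite (torClasses p Δ C) := Finite.of_injective _ hinj
  rcases subsingleton_or_nontrivial (torClasses p Δ C) with h | h
  · exact ⟨0, fun a b _ => Subsingleton.elim a b⟩
  · have hpk : p ≤ Nat.card (torClasses p Δ C) := by
      obtain ⟨a, ha⟩ := exists_ne (0 : torClasses p Δ C)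
      exact (addOrderOf_eq_prime (Subtype.ext a.2 : p • a = 0) ha).symm.le.trans
        (Nat.le_of_dvd Nat.card_pos (addOrderOf_dvd_natCard a))
    have he := le_antisymm hcard hpk
    have : IsAddCyclic (torClasses p Δ C) := isAddCyclic_of_prime_card he
    exact ⟨((zmodAddCyclicAddEquiv ‹IsAddCyclic (torClasses p Δ C)›).symm.trans
      (ZMod.ringEquivCongr he).toAddEquiv).toAddMonoidHom, AddEquiv.injective _⟩

end Classes

/-- Functionals on a finite vector space: a subgroup of functionals with common kernel contained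
in the kernel of a functional contains it. -/
theorem exists_mem_of_perp_module {V : Type} [AddCommGroup V] [Finite V] [Module (ZMod p) V]
    {G : Type} [AddCommGroup G] (Λ : G →+ (V →+ ZMod p)) (L : AddSubgroup G) (F : G)
    (h : ∀ x, (∀ g ∈ L, Λ g x = 0) → Λ F x = 0) : ∃ g ∈ L, Λ g = Λ F := by
  have : Module.Finite (ZMod p) V := Module.Finite.of_finite
  let lin : (V →+ ZMod p) →+ Module.Dual (ZMod p) V :=
    (AddMonoidHom.toZModLinearMapEquiv p).toAddMonoidHom
  let A : Submodule (ZMod p) (Module.Dual (ZMod p) V) :=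
    AddSubgroup.toZModSubmodule p (L.map (lin.comp Λ))
  have e : A.dualCoannihilator.dualAnnihilator = A :=
    Subspace.dualCoannihilator_dualAnnihilator_eq
  have hmem : lin (Λ F) ∈ A := by
    rw [← e, Submodule.mem_dualAnnihilator]
    intro x hx
    rw [Submodule.mem_dualCoannihilator] at hx
    exact h x fun g hg => hx (lin (Λ g)) ⟨g, hg, rfl⟩
  obtain ⟨g, hg, hgF⟩ := hmem
  exact ⟨g, hg, AddMonoidHom.ext fun x => DFunLike.congr_fun hgF x⟩

/-- Functionals on a finite group killed by `p`: a subgroup of functionals with common kernel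
contained in the kernel of a functional contains it. -/
theorem exists_mem_of_perp {V : Type} [AddCommGroup V] [Finite V] (hV : ∀ x : V, p • x = 0) {G : Type} [AddCommGroup G] (Λ : G →+ (V →+ ZMod p)) (L : AddSubgroup G) (F : G)
    (h : ∀ x, (∀ g ∈ L, Λ g x = 0) → Λ F x = 0) : ∃ g ∈ L, Λ g = Λ F :=
  @exists_mem_of_perp_module p _ V _ _ (AddCommGroup.zmodModule hV) G _ Λ L F h

section Abstract

variable [Fintype Δ] {C : Type} [AddCommGroup C] [DistribMulAction Δ C] {u : Z2 Δ C}

/-- The sums of local parts. -/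
def localPart {ι : Type} (H : ι → Subgroup Δ) [∀ q, Fintype (Δ ⧸ H q)] {E : ι → Type}
    [∀ q, AddCommGroup (E q)] [∀ q, DistribMulAction (H q) (E q)] (Φ : ∀ q, E q →+ C) :
    AddSubgroup (R →+ C) :=
  AddSubgroup.closure {f | ∃ q, ∃ g : R →+ E q, IsEquivariant (H q) g ∧
    f = indHom (H q) ((Φ q).comp g)}

variable [Module.Free ℤ R] [Module.Finite ℤ R] [Module.Free ℤ P] [Module.Finite ℤ P]
  [Finite W] {ι : Type} (H : ι → Subgroup Δ) [∀ q, Fintype (Δ ⧸ H q)] [∀ q, Fintype (H q)]
  {E : ι → Type} [∀ q, AddCommGroup (E q)] [∀ q, DistribMulAction (H q) (E q)]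
  {Φ : ∀ q, E q →+ C}

theorem indHom_equivariant_of (hΦ : ∀ q, IsEquivariant (H q) (Φ q)) {q : ι} {g : R →+ E q}
    (hg : IsEquivariant (H q) g) : IsEquivariant Δ (indHom (H q) ((Φ q).comp g)) :=
  indHom_isEquivariant fun h r => by
    simp only [AddMonoidHom.comp_apply, ← Subgroup.smul_def, hg h r, hΦ q h _]

theorem localPart_equivariant (hΦ : ∀ q, IsEquivariant (H q) (Φ q)) {f : R →+ C}
    (hf : f ∈ localPart H Φ) : IsEquivariant Δ f := by
  induction hf using AddSubgroup.closure_induction with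
  | mem f hf =>
    obtain ⟨q, g, hg, rfl⟩ := hf
    exact indHom_equivariant_of H hΦ hg
  | zero => exact fun σ r => (smul_zero σ).symm
  | add f f' _ _ hf hf' => exact fun σ r => by simp [hf σ r, hf' σ r]
  | neg f _ hf => exact fun σ r => by simp [hf σ r]

variable {H} (hP : IsPresentation p Δ j π)
include hP

omit [Module.Free ℤ R] [Module.Finite ℤ R] [Finite W] [Module.Free ℤ P] [Module.Finite ℤ P]
  [Fact p.Prime] in
/-- Local parts are orthogonal to locally trivial cocycles. -/
theorem localPart_perp (hΦ : ∀ q, IsEquivariant (H q) (Φ q)) {f : R →+ C}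
    (hf : f ∈ localPart H Φ) {x : Δ → W} (hx : IsCocycle₁ x)
    (hloc : ∀ q, IsCoboundary₁ fun h : H q => x h) :
    IsCoboundary₂ fun y => f (connect j π x y) := by
  induction hf using AddSubgroup.closure_induction with
  | mem f hf =>
    obtain ⟨q, g, hg, rfl⟩ := hf
    obtain ⟨a, ha⟩ := indHom_cores (H := H q) (g := (Φ q).comp g)
      (fun h r => by simp only [AddMonoidHom.comp_apply, ← Subgroup.smul_def, hg h r, hΦ q h _])
      (hP.connect_isCocycle hx)
    have h1 : IsCoboundary₂ fun y : H q × H q => connect j π (fun h : H q => x h) y :=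
      (hP.res (H q)).connect_of_isCoboundary₁ (fun g h => hx g h) (hloc q)
    obtain ⟨b, hb⟩ := coresFun_coboundary (H q)
      (isCoboundary₂_map (f := (Φ q).comp g)
        (fun h r => by simp only [AddMonoidHom.comp_apply, hg h r, hΦ q h _]) h1)
    refine ⟨a + b, fun s t => ?_⟩
    have e := hb s t
    have e2 := ha s t
    change _ = coresFun (H q) (fun y => ((Φ q).comp g) (connect j π x ((y.1 : Δ), (y.2 : Δ)))) (s, t)
      at e
    dsimp only [Pi.add_apply] at e e2 ⊢
    rw [smul_add]
    linear_combination (norm := abel) e2 + e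
  | zero => exact ⟨0, fun _ _ => by simp⟩
  | add f f' _ _ hf hf' =>
    exact (B2 Δ C).add_mem (mem_B2.2 hf) (mem_B2.2 hf')
  | neg f _ hf => exact (B2 Δ C).neg_mem (mem_B2.2 hf)

omit [Module.Free ℤ R] [Module.Finite ℤ R] [Finite W] [Module.Free ℤ P] [Module.Finite ℤ P]
  [Fact p.Prime] [Fintype Δ] in
/-- Restrictions from `P` are orthogonal to all cocycles. -/
theorem resPart_perp {h : P →+ C} (hh : IsEquivariant Δ h) {x : Δ → W} (hx : IsCocycle₁ x) :
    IsCoboundary₂ fun y => h (j (connect j π x y)) :=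
  ⟨fun g => h (presSection π (x g)), fun s t => by
    dsimp only
    rw [hP.j_connect hx, map_add, map_sub, hh]⟩

omit [Finite W] [Module.Free ℤ P] [Module.Finite ℤ P] in
/-- Right nondegeneracy. -/
theorem exists_pairing_ne_zero (hu : IsClassModule p Δ C (u : Δ × Δ → C))
    (hP1 : ∀ c : Δ → P, IsCocycle₁ c → IsCoboundary₁ c) {x : Δ → W} (hx : IsCocycle₁ x)
    (hne : ¬ IsCoboundary₁ x) :
    ∃ f : R →+ C, IsEquivariant Δ f ∧ ¬ IsCoboundary₂ fun y => f (connect j π x y) :=
  tn_right hu (hP.connect_isCocycle hx) (hP.nsmul_connect hx)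
    fun h => hne (hP.isCoboundary₁_of_connect hx hP1 h)

/-- Left nondegeneracy, up to the local parts, restrictions from `P` and norms. -/
theorem exists_decomposition (hu : IsClassModule p Δ C (u : Δ × Δ → C))
    (hP1 : ∀ (H' : Subgroup Δ) (c : H' → P), IsCocycle₁ c → IsCoboundary₁ c)
    (hΦ : ∀ q, IsEquivariant (H q) (Φ q)) (w : ∀ q, Z2 (H q) (E q))
    (hord : ∀ q (k : ℤ), IsCoboundary₂ (fun y : H q × H q => k • Φ q ((w q : H q × H q → E q) y)) →
      ((p ^ (Nat.card (H q)).factorization p : ℕ) : ℤ) ∣ k)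
    {f : R →+ C} (hf : IsEquivariant Δ f)
    (hperp : ∀ x : Δ → W, IsCocycle₁ x → (∀ q, IsCoboundary₁ fun h : H q => x h) →
      IsCoboundary₂ fun y => f (connect j π x y)) :
    ∃ (m : ℕ) (ℓ : R →+ C) (h : P →+ C) (d : R →+ C), ¬ p ∣ m ∧ ℓ ∈ localPart H Φ ∧
      IsEquivariant Δ h ∧ ∀ r, m • f r = ℓ r + h (j r) + nm (Δ := Δ) d r := by
  classical
  let V : AddSubgroup (Δ → W) :=
    { carrier := {x | IsCocycle₁ x}
      zero_mem' := fun g h => by simp
      add_mem' := fun {a b} ha hb g h => by simp only [Pi.add_apply, ha g h, hb g h, smul_add]; abel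
      neg_mem' := fun {a} ha g h => by simp only [Pi.neg_apply, ha g h, smul_neg]; abel }
  obtain ⟨inv, hinv⟩ := hu.exists_inv
  let Hom : AddSubgroup (R →+ C) :=
    { carrier := {f | IsEquivariant Δ f}
      zero_mem' := fun σ r => (smul_zero σ).symm
      add_mem' := fun {a b} ha hb σ r => by simp [ha σ r, hb σ r]
      neg_mem' := fun {a} ha σ r => by simp [ha σ r] }
  let cls : Hom → V → torClasses p Δ C := fun f x =>
    ⟨QuotientAddGroup.mk (⟨fun y => f.1 (connect j π x.1 y),
      isCocycle₂_map f.2 (hP.connect_isCocycle x.2)⟩ : Z2 Δ C), by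
      change p • (QuotientAddGroup.mk _ : H2C Δ C) = 0
      rw [← QuotientAddGroup.mk_nsmul, QuotientAddGroup.eq_zero_iff]
      obtain ⟨b, hb⟩ := isCoboundary₂_map f.2 (hP.nsmul_connect x.2)
      exact ⟨b, fun s t => (hb s t).trans (map_nsmul f.1 p _)⟩⟩
  have hcls0 : ∀ f x, inv (cls f x) = 0 ↔
      IsCoboundary₂ fun y => f.1 (connect j π x.1 y) := fun f x => by
    rw [map_eq_zero_iff inv hinv]
    exact torClasses_eq_zero_iff _
  have hclsadd : ∀ f x y, cls f (x + y) = cls f x + cls f y := fun f x y => Subtype.ext <| by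
    refine QuotientAddGroup.eq_iff_sub_mem.2 ?_
    obtain ⟨b, hb⟩ := isCoboundary₂_map f.2 (hP.connect_add x.2 y.2)
    exact ⟨b, fun s t => (hb s t).trans ((map_sub f.1 _ _).trans
      (congrArg (fun w => f.1 (connect j π (x + y).1 (s, t)) - w) (map_add f.1 _ _)))⟩
  let ΛH : Hom →+ (V →+ ZMod p) :=
    AddMonoidHom.mk' (fun f => AddMonoidHom.mk' (fun x => inv (cls f x)) fun x y => by
      rw [hclsadd, map_add]) fun f g => AddMonoidHom.ext fun x => by
      simp only [AddMonoidHom.mk'_apply, AddMonoidHom.add_apply]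
      rw [← map_add]
      congr 1
  let L : AddSubgroup Hom := (localPart H Φ).addSubgroupOf Hom
  let F : Hom := ⟨f, hf⟩
  have hex : ∃ G ∈ L, ΛH G = ΛH F := by
    refine exists_mem_of_perp (fun x : V => Subtype.ext (funext fun g => hP.killed (x.1 g))) ΛH L F
      fun x hx => ?_
    refine (hcls0 F x).2 (hperp x.1 x.2 fun q => ?_)
    by_contra hne
    have hPq := hP.res (H q)
    have hxq : IsCocycle₁ fun h : H q => x.1 h := fun g h => x.2 g h
    obtain ⟨g, hg, hgne⟩ := tn_right_map (R := R) (w q) (hΦ q) (hord q)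
      (hPq.connect_isCocycle hxq) (hPq.nsmul_connect hxq)
      fun h => hne (hPq.isCoboundary₁_of_connect hxq (hP1 (H q)) h)
    let G : Hom := ⟨_, indHom_equivariant_of H hΦ hg⟩
    have h0 := hx G (AddSubgroup.subset_closure ⟨q, g, hg, rfl⟩)
    have hcob := (hcls0 G x).1 h0
    obtain ⟨a, ha⟩ := indHom_cores (H := H q) (g := (Φ q).comp g)
      (fun h r => by simp only [AddMonoidHom.comp_apply, ← Subgroup.smul_def, hg h r, hΦ q h _])
      (hP.connect_isCocycle x.2)
    obtain ⟨b, hb⟩ := hcob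
    refine hgne (hu.cores_injective (H q)
      (isCocycle₂_map (f := (Φ q).comp g)
        (fun h r => by simp only [AddMonoidHom.comp_apply, hg h r, hΦ q h _])
        (hPq.connect_isCocycle hxq))
      ?_ ⟨b - a, fun s t => ?_⟩)
    · obtain ⟨c, hc⟩ := isCoboundary₂_map (f := (Φ q).comp g)
        (fun h r => by simp only [AddMonoidHom.comp_apply, hg h r, hΦ q h _])
        (hPq.nsmul_connect hxq)
      exact ⟨c, fun s t => (hc s t).trans (map_nsmul ((Φ q).comp g) p _)⟩
    · simp only [Pi.sub_apply, smul_sub]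
      have e1 := hb s t
      have e2 := ha s t
      change _ = indHom (H q) ((Φ q).comp g) (connect j π x.1 (s, t)) at e1
      change _ = coresFun (H q) (fun y => ((Φ q).comp g) (connect j π x.1 ((y.1 : Δ), (y.2 : Δ))))
        (s, t)
      dsimp only at e1 e2 ⊢
      linear_combination (norm := abel) e1 - e2
  obtain ⟨G, hG, hGΛ⟩ := hex
  have hperp' : ∀ z : Δ × Δ → R, IsCocycle₂ z → IsCoboundary₂ (fun y => j (z y)) →
      IsCoboundary₂ fun y => (F - G).1 (z y) := by
    intro z hz hjz
    obtain ⟨x, hx, hzx⟩ := hP.exists_cocycle_of_map hjz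
    have h0 : inv (cls (F - G) ⟨x, hx⟩) = 0 := by
      have : ΛH (F - G) ⟨x, hx⟩ = 0 := by rw [map_sub, hGΛ, sub_self]; rfl
      exact this
    obtain ⟨a, ha⟩ := (hcls0 _ _).1 h0
    obtain ⟨b, hb⟩ := isCoboundary₂_map (F - G).2 hzx
    refine ⟨a + b, fun s t => ?_⟩
    have e := hb s t
    dsimp only at e
    rw [map_sub] at e
    dsimp only [Pi.add_apply]
    rw [smul_add]
    linear_combination (norm := abel) ha s t + e
  obtain ⟨m, h, d, hm, hh, hmd⟩ := tn_left hu hP.j_equiv (F - G).2 hperp'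
  refine ⟨m, m • G.1, h, d, hm, nsmul_mem hG m, hh, fun r => ?_⟩
  have e := hmd r
  change m • (f r - G.1 r) = _ at e
  rw [nsmul_sub] at e
  rw [AddMonoidHom.smul_apply]
  linear_combination (norm := abel) e

end Abstract

end Fermat.Agent.PoitouTate
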