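import Fermat.Agent.PoitouTate.ClassApi
import Fermat.Agent.PoitouTate.IdelePrincipal
import Fermat.Agent.PoitouTate.GlobalLocalConj
import Fermat.Agent.Datum.Roots
import Mathlib.NumberTheory.Padics.RingHoms
import Mathlib.Data.Nat.Factorization.Induction
import Mathlib.RingTheory.Polynomial.Cyclotomic.Roots

/-!
# Ideles of `ℚ` and the invariant attached to a cyclotomic character
-/

set_option autoImplicit false
set_option linter.unusedSectionVars false

noncomputable section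

namespace Fermat.Agent.PoitouTate

local notation "Qb" => AlgebraicClosure ℚ

variable (q : Nat.Primes)

/-- The local values of the base field. -/
def baseEmb : Additive (ℚ_[(q : ℕ)])ˣ →+ LocVal q :=
  MonoidHom.toAdditive (Units.map (algebraMap ℚ_[(q : ℕ)] (PadicAlgCl (q : ℕ)) :
    ℚ_[(q : ℕ)] →* PadicAlgCl (q : ℕ)))

theorem coe_baseEmb (w : Additive (ℚ_[(q : ℕ)])ˣ) :
    ((Additive.toMul (baseEmb q w) : (PadicAlgCl (q : ℕ))ˣ) : PadicAlgCl (q : ℕ)) =
      algebraMap ℚ_[(q : ℕ)] (PadicAlgCl (q : ℕ))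
        ((Additive.toMul w : (ℚ_[(q : ℕ)])ˣ) : ℚ_[(q : ℕ)]) := rfl

theorem baseEmb_injective : Function.Injective (baseEmb q) := fun a b h =>
  Additive.toMul.injective (Units.ext ((algebraMap ℚ_[(q : ℕ)] (PadicAlgCl (q : ℕ))).injective
    (by rw [← coe_baseEmb, ← coe_baseEmb, h])))

theorem exists_baseEmb_eq {x : LocVal q} (hx : ∀ τ : LocGal q, locAct q τ x = x) :
    ∃ w, baseEmb q w = x := by
  obtain ⟨c, hc⟩ : ∃ c : ℚ_[(q : ℕ)], algebraMap ℚ_[(q : ℕ)] (PadicAlgCl (q : ℕ)) c =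
      ((Additive.toMul x : (PadicAlgCl (q : ℕ))ˣ) : PadicAlgCl (q : ℕ)) := by
    refine IntermediateField.mem_bot.1 ?_
    haveI : IsGalois ℚ_[(q : ℕ)] (PadicAlgCl (q : ℕ)) := ⟨⟩
    rw [← InfiniteGalois.fixedField_fixingSubgroup
      (⊥ : IntermediateField ℚ_[(q : ℕ)] (PadicAlgCl (q : ℕ))), IntermediateField.mem_fixedField_iff]
    intro τ _
    conv_rhs => rw [← hx τ, coe_locAct]
  have hc0 : c ≠ 0 := fun h => by
    rw [h, map_zero] at hc
    exact Units.ne_zero _ hc.symm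
  exact ⟨Additive.ofMul (Units.mk0 c hc0), Additive.toMul.injective (Units.ext hc)⟩

/-- The valuation on the base field. -/
def baseVal : Additive (ℚ_[(q : ℕ)])ˣ →+ ℤ :=
  AddMonoidHom.mk' (fun w => Padic.valuation ((Additive.toMul w : (ℚ_[(q : ℕ)])ˣ) : ℚ_[(q : ℕ)]))
    fun a b => by rw [toMul_add, Units.val_mul, Padic.valuation_mul (Units.ne_zero _) (Units.ne_zero _)]

theorem norm_eq_baseVal (w : Additive (ℚ_[(q : ℕ)])ˣ) :
    ‖((Additive.toMul w : (ℚ_[(q : ℕ)])ˣ) : ℚ_[(q : ℕ)])‖ = ((q : ℕ) : ℝ) ^ (-baseVal q w) :=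
  Padic.norm_eq_zpow_neg_valuation (Units.ne_zero _)

theorem norm_unitPart (w : Additive (ℚ_[(q : ℕ)])ˣ) :
    ‖((Additive.toMul w : (ℚ_[(q : ℕ)])ˣ) : ℚ_[(q : ℕ)]) * ((q : ℕ) : ℚ_[(q : ℕ)]) ^ (-baseVal q w)‖
      = 1 := by
  rw [norm_mul, norm_zpow, Padic.norm_p, norm_eq_baseVal, inv_zpow', neg_neg,
    ← zpow_add₀ (by exact_mod_cast q.2.ne_zero), neg_add_cancel, zpow_zero]

/-- The unit part. -/
def unitPart : Additive (ℚ_[(q : ℕ)])ˣ →+ Additive (ℤ_[(q : ℕ)])ˣ :=
  AddMonoidHom.mk' (fun w => Additive.ofMul (PadicInt.mkUnits (norm_unitPart q w)))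
    fun a b => by
      refine Additive.toMul.injective (Units.ext (PadicInt.ext ?_))
      simp only [toMul_ofMul, toMul_add, Units.val_mul, PadicInt.coe_mul, PadicInt.mkUnits_eq,
        map_add, neg_add, zpow_add₀ (Nat.cast_ne_zero.2 q.2.ne_zero : ((q : ℕ) : ℚ_[(q : ℕ)]) ≠ 0)]
      ring

theorem coe_unitPart (w : Additive (ℚ_[(q : ℕ)])ˣ) :
    (((Additive.toMul (unitPart q w) : (ℤ_[(q : ℕ)])ˣ) : ℤ_[(q : ℕ)]) : ℚ_[(q : ℕ)]) =
      ((Additive.toMul w : (ℚ_[(q : ℕ)])ˣ) : ℚ_[(q : ℕ)]) *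
        ((q : ℕ) : ℚ_[(q : ℕ)]) ^ (-baseVal q w) := rfl

variable (T : Finset Nat.Primes)

/-- The ideles of `ℚ`. -/
abbrev baseIdeles : AddSubgroup (J T) := fixedPts (⊤ : Subgroup GQ) ↥(J T)

variable {T}

theorem fin_fixed (f : baseIdeles T) (q : ↥T) (τ : LocGal q.1) :
    locAct q.1 τ (((f : J T) : Amb T).fin q 1) = ((f : J T) : Amb T).fin q 1 := by
  rw [← (f : J T).2.1 q τ 1, mul_one]
  have h := congrArg (fun e : J T => (e : Amb T).fin q 1) (f.2 (loc q.1 τ) (Subgroup.mem_top _))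
  simpa using h

theorem fin_eq_fin_one (f : baseIdeles T) (q : ↥T) (g : GQ) :
    ((f : J T) : Amb T).fin q g = ((f : J T) : Amb T).fin q 1 := by
  have h := congrArg (fun e : J T => (e : Amb T).fin q 1) (f.2 g (Subgroup.mem_top _))
  simpa using h

theorem ord_eq_ord_one (f : baseIdeles T) (q : {q : Nat.Primes // q ∉ T}) (g : GQ) :
    ((f : J T) : Amb T).ord q g = ((f : J T) : Amb T).ord q 1 := by
  have h := congrArg (fun e : J T => (e : Amb T).ord q 1) (f.2 g (Subgroup.mem_top _))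
  simpa using h

/-- The component of an idele of `ℚ` at a prime of `T`. -/
def finBase (q : ↥T) : baseIdeles T →+ Additive (ℚ_[(q.1 : ℕ)])ˣ :=
  AddMonoidHom.mk' (fun f => (exists_baseEmb_eq q.1 (fin_fixed f q)).choose) fun f f' => by
    refine baseEmb_injective q.1 ?_
    rw [map_add, (exists_baseEmb_eq q.1 (fin_fixed (f + f') q)).choose_spec,
      (exists_baseEmb_eq q.1 (fin_fixed f q)).choose_spec,
      (exists_baseEmb_eq q.1 (fin_fixed f' q)).choose_spec]
    rfl

theorem baseEmb_finBase (q : ↥T) (f : baseIdeles T) :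
    baseEmb q.1 (finBase q f) = ((f : J T) : Amb T).fin q 1 :=
  (exists_baseEmb_eq q.1 (fin_fixed f q)).choose_spec

theorem finBase_eq {q : ↥T} {f : baseIdeles T} {w : Additive (ℚ_[(q.1 : ℕ)])ˣ}
    (h : ((f : J T) : Amb T).fin q 1 = baseEmb q.1 w) : finBase q f = w :=
  baseEmb_injective q.1 (by rw [baseEmb_finBase, h])

/-- The valuation of an idele of `ℚ`. -/
def baseOrd (q : Nat.Primes) : baseIdeles T →+ ℤ :=
  if h : q ∈ T then (baseVal q).comp (finBase ⟨q, h⟩)
  else AddMonoidHom.mk' (fun f => ((f : J T) : Amb T).ord ⟨q, h⟩ 1) fun _ _ => rfl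

theorem baseOrd_of_mem {q : Nat.Primes} (h : q ∈ T) (f : baseIdeles T) :
    baseOrd q f = baseVal q (finBase ⟨q, h⟩ f) := by
  rw [baseOrd, dif_pos h]; rfl

theorem baseOrd_of_not_mem {q : Nat.Primes} (h : q ∉ T) (f : baseIdeles T) :
    baseOrd q f = ((f : J T) : Amb T).ord ⟨q, h⟩ 1 := by
  rw [baseOrd, dif_neg h]; rfl

theorem baseOrd_finite (f : baseIdeles T) : {q | baseOrd q f ≠ 0}.Finite := by
  refine (T.finite_toSet.union (((f : J T).2.2.2.2).image fun q => q.1)).subset fun q hq => ?_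
  by_cases h : q ∈ T
  · exact Or.inl h
  · exact Or.inr ⟨⟨q, h⟩, ⟨1, by rwa [Set.mem_setOf_eq, baseOrd_of_not_mem h] at hq⟩, rfl⟩

/-- The divisor of an idele of `ℚ`. -/
def baseDiv : baseIdeles T →+ (Nat.Primes →₀ ℤ) :=
  AddMonoidHom.mk' (fun f => Finsupp.ofSupportFinite (fun q => baseOrd q f) (baseOrd_finite f))
    fun f f' => Finsupp.ext fun q => map_add (baseOrd q) f f'

theorem baseDiv_apply (f : baseIdeles T) (q : Nat.Primes) : baseDiv f q = baseOrd q f := rfl

section Invariant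

variable (l : ↥T) (j : ℕ) {n : ℕ} (lam : (ZMod ((l.1 : ℕ) ^ j))ˣ →* Multiplicative (ZMod n))

/-- The value of the character at a prime. -/
def primeValue (q : Nat.Primes) : ZMod n :=
  if h : (q : ℕ).Coprime ((l.1 : ℕ) ^ j) then Multiplicative.toAdd (lam (ZMod.unitOfCoprime _ h))
  else 0

/-- The value of the character at a local unit. -/
def unitValue : Additive (ℤ_[(l.1 : ℕ)])ˣ →+ ZMod n :=
  AddMonoidHom.mk' (fun u => Multiplicative.toAdd (lam (Units.map
      (PadicInt.toZModPow j : ℤ_[(l.1 : ℕ)] →+* ZMod ((l.1 : ℕ) ^ j)).toMonoidHom (Additive.toMul u))))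
    fun a b => by rw [toMul_add, map_mul, map_mul, toAdd_mul]

theorem unitValue_apply (u : Additive (ℤ_[(l.1 : ℕ)])ˣ) :
    unitValue l j lam u = Multiplicative.toAdd (lam (Units.map
      (PadicInt.toZModPow j : ℤ_[(l.1 : ℕ)] →+* ZMod ((l.1 : ℕ) ^ j)).toMonoidHom (Additive.toMul u))) :=
  rfl

/-- The invariant on ideles of `ℚ`. -/
def idelePsi : baseIdeles T →+ ZMod n :=
  (Finsupp.liftAddHom fun q => zmultiplesHom (ZMod n) (primeValue l j lam q)).comp baseDiv -
    (unitValue l j lam).comp ((unitPart l.1).comp (finBase l))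

theorem idelePsi_apply (f : baseIdeles T) :
    idelePsi l j lam f = (baseDiv f).sum (fun q a => a • primeValue l j lam q) -
      unitValue l j lam (unitPart l.1 (finBase l f)) := rfl

theorem baseOrd_principal {f : baseIdeles T} {r : ℚ}
    (hf : IsPrincipalOf ((f : J T) : Amb T) (r : Qb)) (q : Nat.Primes) :
    baseOrd q f = padicValRat q r := by
  have hr : r ≠ 0 := fun h => hf.ne_zero (by simp [h])
  haveI : Fact (q : ℕ).Prime := ⟨q.2⟩
  by_cases h : q ∈ T
  · have hw : finBase ⟨q, h⟩ f = Additive.ofMul (Units.mk0 (r : ℚ_[(q : ℕ)]) (Rat.cast_ne_zero.2 hr)) := by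
      refine finBase_eq (Additive.toMul.injective (Units.ext ?_))
      rw [hf.fin_eq, AlgEquiv.one_apply, padicEmbedding_ratCast]
      rfl
    rw [baseOrd_of_mem h, hw]
    exact Padic.valuation_ratCast r
  · have h1 := hf.ord_eq ⟨q, h⟩ 1
    rw [AlgEquiv.one_apply, padicEmbedding_ratCast, norm_algebraMap',
      Padic.norm_eq_zpow_neg_valuation (Rat.cast_ne_zero.2 hr), Padic.valuation_ratCast] at h1
    rw [baseOrd_of_not_mem h]
    exact (ord_eq_of_zpow_eq h1).symm

theorem finBase_principal {f : baseIdeles T} {r : ℚ}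
    (hf : IsPrincipalOf ((f : J T) : Amb T) (r : Qb)) (q : ↥T) :
    ((Additive.toMul (finBase q f) : (ℚ_[(q.1 : ℕ)])ˣ) : ℚ_[(q.1 : ℕ)]) = r := by
  have hr : r ≠ 0 := fun h => hf.ne_zero (by simp [h])
  have hw : finBase q f = Additive.ofMul (Units.mk0 (r : ℚ_[(q.1 : ℕ)]) (Rat.cast_ne_zero.2 hr)) := by
    refine finBase_eq (Additive.toMul.injective (Units.ext ?_))
    rw [hf.fin_eq, AlgEquiv.one_apply, padicEmbedding_ratCast]
    rfl
  rw [hw]; rfl

theorem idelePsi_prime {f : baseIdeles T} (t : Nat.Primes)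
    (hf : IsPrincipalOf ((f : J T) : Amb T) (((t : ℕ) : ℚ) : Qb)) : idelePsi l j lam f = 0 := by
  have hdiv : baseDiv f = Finsupp.single t 1 := Finsupp.ext fun q => by
    haveI : Fact (q : ℕ).Prime := ⟨q.2⟩
    rw [baseDiv_apply, baseOrd_principal hf, padicValRat.of_nat, Finsupp.single_apply]
    split_ifs with h
    · subst h; rw [padicValNat_self]; rfl
    · rw [padicValNat_primes fun e : (q : ℕ) = (t : ℕ) => h (Nat.Primes.coe_nat_injective e.symm)]; rfl
  have hval : baseVal l.1 (finBase l f) = if t = l.1 then 1 else 0 := by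
    rw [← baseOrd_of_mem l.2, ← baseDiv_apply, hdiv, Finsupp.single_apply]
  rw [idelePsi_apply, hdiv, Finsupp.sum_single_index (h := fun q a => a • primeValue l j lam q)
    (zero_smul ℤ _), one_smul, unitValue_apply,
    sub_eq_zero]
  by_cases htl : t = l.1
  · rw [if_pos htl] at hval
    subst htl
    have hu : Additive.toMul (unitPart l.1 (finBase l f)) = 1 := Units.ext (PadicInt.ext (by
      rw [coe_unitPart, finBase_principal hf, hval, Units.val_one, PadicInt.coe_one,
        Rat.cast_natCast, zpow_neg, zpow_one,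
        mul_inv_cancel₀ (Nat.cast_ne_zero.2 l.1.2.ne_zero)]))
    rw [hu, map_one, map_one, toAdd_one, primeValue]
    split_ifs with hc
    · rcases Nat.eq_zero_or_pos j with hj | hj
      · subst hj
        haveI : Subsingleton (ZMod ((l.1 : ℕ) ^ 0)) := by rw [pow_zero]; infer_instance
        rw [Subsingleton.elim (ZMod.unitOfCoprime _ hc) 1, map_one, toAdd_one]
      · exact absurd ((Nat.coprime_pow_right_iff hj _ _).1 hc)
          (by rw [Nat.coprime_self]; exact l.1.2.ne_one)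
    · rfl
  · rw [if_neg htl] at hval
    have hc : (t : ℕ).Coprime ((l.1 : ℕ) ^ j) := Nat.Coprime.pow_right j
      ((Nat.coprime_primes t.2 l.1.2).2 fun e => htl (Nat.Primes.coe_nat_injective e))
    have hu : ((Additive.toMul (unitPart l.1 (finBase l f)) : (ℤ_[(l.1 : ℕ)])ˣ) : ℤ_[(l.1 : ℕ)]) =
        ((t : ℕ) : ℤ_[(l.1 : ℕ)]) := PadicInt.ext (by
      rw [coe_unitPart, finBase_principal hf, hval, neg_zero, zpow_zero, mul_one, Rat.cast_natCast,
        PadicInt.coe_natCast])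
    rw [primeValue, dif_pos hc]
    congr 2
    refine Units.ext ?_
    rw [ZMod.coe_unitOfCoprime, Units.coe_map, hu]
    exact (map_natCast (PadicInt.toZModPow j) _).symm

variable (hT : T.Nonempty)

theorem exists_base_principal {r : ℚ} (hr : r ≠ 0) :
    ∃ f : baseIdeles T, IsPrincipalOf ((f : J T) : Amb T) (r : Qb) := by
  obtain ⟨f, hf, -, hfix⟩ := exists_principal (isLvl_bot T) (x := (r : Qb))
    (SubfieldClass.ratCast_mem ⊥ r) (by simpa using hr)
  exact ⟨⟨f, fun σ _ => hfix σ (map_ratCast σ r)⟩, hf⟩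

include hT in
theorem idelePsi_principal (hn : Odd n) {f : baseIdeles T} {x : Qb}
    (hx : IsPrincipalOf ((f : J T) : Amb T) x) : idelePsi l j lam f = 0 := by
  obtain ⟨r, rfl⟩ : ∃ r : ℚ, (r : Qb) = x := by
    obtain ⟨r, hr⟩ := IntermediateField.mem_bot.1 (show x ∈ (⊥ : IntermediateField ℚ Qb) by
      rw [← InfiniteGalois.fixedField_fixingSubgroup (⊥ : IntermediateField ℚ Qb),
        IntermediateField.mem_fixedField_iff]
      exact fun σ _ => hx.apply_eq_self hT (congrArg Subtype.val (f.2 σ (Subgroup.mem_top σ))))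
    exact ⟨r, by rw [← hr]; exact (eq_ratCast (algebraMap ℚ Qb) r).symm⟩
  let P : ℚ → Prop := fun r => ∀ f : baseIdeles T,
    IsPrincipalOf ((f : J T) : Amb T) (r : Qb) → idelePsi l j lam f = 0
  have hmul : ∀ a b : ℚ, a ≠ 0 → b ≠ 0 → P a → P b → P (a * b) := fun a b ha hb hPa hPb f hf => by
    obtain ⟨fa, hfa⟩ := exists_base_principal (T := T) ha
    obtain ⟨fb, hfb⟩ := exists_base_principal (T := T) hb
    have h : f = fa + fb := Subtype.ext (Subtype.ext (hf.eq
      ⟨hf.ne_zero, fun q g => by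
        simp [map_mul, hfa.fin_eq, hfb.fin_eq], fun q g => by
        rw [Rat.cast_mul, map_mul, map_mul, norm_mul, hfa.ord_eq, hfb.ord_eq,
          AddSubgroup.coe_add, AddSubgroup.coe_add, Amb.ord_add, neg_add,
          zpow_add₀ (by exact_mod_cast q.1.2.ne_zero)]⟩))
    rw [h, map_add, hPa fa hfa, hPb fb hfb, add_zero]
  have hone : P 1 := fun f hf => by
    have h : f = 0 := Subtype.ext (Subtype.ext (hf.eq (by
      rw [Rat.cast_one]; exact isPrincipalOf_one)))
    rw [h, map_zero]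
  have hinv : ∀ a : ℚ, a ≠ 0 → P a → P a⁻¹ := fun a ha hPa f hf => by
    obtain ⟨fa, hfa⟩ := exists_base_principal (T := T) ha
    have h1 : idelePsi l j lam (f + fa) = 0 := by
      refine hone _ ⟨by simp, fun q g => ?_, fun q g => ?_⟩
      · simp [hf.fin_eq, hfa.fin_eq, ha]
      · rw [AddSubgroup.coe_add, AddSubgroup.coe_add, Amb.ord_add, neg_add,
          zpow_add₀ (by exact_mod_cast q.1.2.ne_zero), ← hf.ord_eq, ← hfa.ord_eq, ← norm_mul,
          ← map_mul, ← map_mul, ← Rat.cast_mul, inv_mul_cancel₀ ha]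
    rwa [map_add, hPa fa hfa, add_zero] at h1
  have hneg : P (-1) := fun f hf => by
    have h2 : idelePsi l j lam (f + f) = 0 := by
      refine hone _ ⟨by simp, fun q g => ?_, fun q g => ?_⟩
      · simp [hf.fin_eq]
      · rw [AddSubgroup.coe_add, AddSubgroup.coe_add, Amb.ord_add, neg_add,
          zpow_add₀ (by exact_mod_cast q.1.2.ne_zero), ← hf.ord_eq]
        simp
    rw [map_add, ← two_nsmul, nsmul_eq_mul] at h2
    have hu : IsUnit ((2 : ℕ) : ZMod n) :=
      (ZMod.isUnit_iff_coprime _ _).2 (Nat.coprime_two_left.2 hn)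
    exact (hu.mul_right_eq_zero).1 h2
  have hnat : ∀ m : ℕ, m ≠ 0 → P (m : ℚ) := fun m => by
    induction m using Nat.recOnMul with
    | zero => exact fun h => absurd rfl h
    | one => exact fun _ => by rw [Nat.cast_one]; exact hone
    | prime t ht => exact fun _ f hf => idelePsi_prime l j lam ⟨t, ht⟩ hf
    | mul a b iha ihb =>
      intro hab
      obtain ⟨ha, hb⟩ := mul_ne_zero_iff.1 hab
      rw [Nat.cast_mul]
      exact hmul _ _ (Nat.cast_ne_zero.2 ha) (Nat.cast_ne_zero.2 hb) (iha ha) (ihb hb)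
  have hr : r ≠ 0 := fun h => hx.ne_zero (by simp [h])
  have hint : ∀ z : ℤ, z ≠ 0 → P (z : ℚ) := fun z hz => by
    rcases Int.natAbs_eq z with e | e
    · rw [e, Int.cast_natCast]; exact hnat _ (Int.natAbs_ne_zero.2 hz)
    · rw [e, Int.cast_neg, Int.cast_natCast, ← neg_one_mul]
      exact hmul _ _ (by norm_num) (Nat.cast_ne_zero.2 (Int.natAbs_ne_zero.2 hz)) hneg
        (hnat _ (Int.natAbs_ne_zero.2 hz))
  have hPr : P r := by
    have hnum : r.num ≠ 0 := Rat.num_ne_zero.2 hr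
    rw [← Rat.num_div_den r, div_eq_mul_inv]
    exact hmul _ _ (Int.cast_ne_zero.2 hnum) (inv_ne_zero (Nat.cast_ne_zero.2 r.den_nz))
      (hint _ hnum) (hinv _ (Nat.cast_ne_zero.2 r.den_nz) (hnat _ r.den_nz))
  exact hPr f hx

/-- The projection to the classes of `ℚ`. -/
def baseClass : baseIdeles T →+ ↥(clsLev T (⊤ : Subgroup GQ)) :=
  ((clsMk T).comp (baseIdeles T).subtype).codRestrict _ fun f s hs => by
    show s • clsMk T (f : J T) = clsMk T (f : J T)
    rw [smul_clsMk, f.2 s hs]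

theorem coe_baseClass (f : baseIdeles T) : (baseClass f : Cls T) = clsMk T (f : J T) := rfl

include hT in
theorem baseClass_surjective : Function.Surjective (baseClass (T := T)) := fun c => by
  obtain ⟨f, hf, hfc⟩ := levelRepresentatives hT ⊥ (isLvl_bot T) ⊤
    (by rw [IntermediateField.fixingSubgroup_bot]) (c : Cls T) c.2
  exact ⟨⟨f, hf⟩, Subtype.ext hfc⟩

/-- The invariant on classes of `ℚ`. -/
def classPsi (hn : Odd n) : ↥(clsLev T (⊤ : Subgroup GQ)) →+ ZMod n :=
  AddMonoidHom.liftOfSurjective baseClass (baseClass_surjective hT)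
    ⟨idelePsi l j lam, fun f hf => by
      rw [AddMonoidHom.mem_ker] at hf ⊢
      obtain ⟨x, hx⟩ := (clsMk_eq_zero_iff T).1 (congrArg Subtype.val hf)
      exact idelePsi_principal l j lam hT hn hx⟩

theorem classPsi_baseClass (hn : Odd n) (f : baseIdeles T) :
    classPsi l j lam hT hn (baseClass f) = idelePsi l j lam f :=
  AddMonoidHom.liftOfRightInverse_comp_apply _ _ _ _ f

end Invariant

end Fermat.Agent.PoitouTate
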