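/-
Algebra for the existence theorem: the index bound given by a class module, and the index
bookkeeping comparing `A / (p A + P)` with the group of radicals.
-/
import Fermat.Agent.PoitouTate.AlgebraTN
import Fermat.Agent.PoitouTate.AlgebraCores
import Mathlib.LinearAlgebra.Dual.Lemmas
import Mathlib.Algebra.Field.ZMod
import Mathlib.Algebra.Group.Subgroup.Order
import Mathlib.GroupTheory.SpecificGroups.Cyclic

set_option autoImplicit false
set_option linter.style.haveILetI false

open groupCohomology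

noncomputable section

namespace Fermat.Agent.PoitouTate

section Counting

variable {A : Type*} [AddCommGroup A]

/-- The multiples of `p`. -/
def pMul (A : Type*) [AddCommGroup A] (p : ℕ) : AddSubgroup A :=
  (⊤ : AddSubgroup A).map (nsmulAddMonoidHom p)

theorem mem_pMul {p : ℕ} {x : A} : x ∈ pMul A p ↔ ∃ y, p • y = x := by
  simp [pMul, AddSubgroup.mem_map]

/-- The elements of `P` divisible by `p` modulo `Fi`. -/
def radicals (P Fi : AddSubgroup A) (p : ℕ) : AddSubgroup A := P ⊓ (pMul A p ⊔ Fi)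

theorem map_nsmul_le (P : AddSubgroup A) (p : ℕ) : P.map (nsmulAddMonoidHom p) ≤ P := by
  rintro _ ⟨x, hx, rfl⟩
  exact P.nsmul_mem hx p

theorem map_nsmul_le_pMul (P : AddSubgroup A) (p : ℕ) :
    P.map (nsmulAddMonoidHom p) ≤ pMul A p :=
  AddSubgroup.map_mono le_top

/-- The kernel and the cokernel of multiplication by `p` on a finite group have the same size. -/
theorem natCard_ker_nsmul_eq_index {B : Type*} [AddCommGroup B] [Finite B] (p : ℕ) :
    Nat.card (nsmulAddMonoidHom (α := B) p).ker =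
      (nsmulAddMonoidHom (α := B) p).range.index := by
  have h1 := AddSubgroup.card_mul_index (nsmulAddMonoidHom (α := B) p).ker
  have h2 := AddSubgroup.card_mul_index (nsmulAddMonoidHom (α := B) p).range
  have h3 : (nsmulAddMonoidHom (α := B) p).ker.index =
      Nat.card (nsmulAddMonoidHom (α := B) p).range := AddSubgroup.index_ker _
  rw [← h2, h3, mul_comm] at h1
  exact mul_left_cancel₀ Nat.card_pos.ne' h1

variable (P Fi : AddSubgroup A) (p : ℕ)

/-- `x * v = c * j * w`. -/
theorem index_mul_radicals (hsat : ∀ x, p • x ∈ Fi → x ∈ Fi) :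
    (pMul A p ⊔ P).index * (P.map (nsmulAddMonoidHom p)).relIndex (radicals P Fi p) =
      (pMul A p ⊔ Fi ⊔ P).index * (Fi.map (nsmulAddMonoidHom p)).relIndex Fi *
        (P.map (nsmulAddMonoidHom p)).relIndex (P ⊓ pMul A p) := by
  set X := pMul A p ⊔ Fi with hX
  have e1 : (pMul A p ⊔ P).index =
      (pMul A p ⊔ radicals P Fi p).relIndex X * (X ⊔ P).index := by
    rw [← AddSubgroup.relIndex_mul_index
      (sup_le_sup_right (le_sup_left : pMul A p ≤ X) P)]
    congr 1
    have h1 : (pMul A p ⊔ P).relIndex (X ⊔ P) = (pMul A p ⊔ P).relIndex X := by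
      rw [show X ⊔ P = X ⊔ (pMul A p ⊔ P) by
        rw [← sup_assoc, sup_eq_left.2 (le_sup_left : pMul A p ≤ X)],
        AddSubgroup.relIndex_sup_right]
    rw [h1, ← AddSubgroup.inf_relIndex_right (pMul A p ⊔ P)]
    congr 1
    rw [sup_inf_assoc_of_le P (le_sup_left : pMul A p ≤ X)]
    rfl
  have e2 : (pMul A p).relIndex (radicals P Fi p) *
      (pMul A p ⊔ radicals P Fi p).relIndex X = (Fi.map (nsmulAddMonoidHom p)).relIndex Fi := by
    rw [← AddSubgroup.relIndex_sup_left (K := pMul A p) (H := radicals P Fi p),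
      AddSubgroup.relIndex_mul_relIndex (pMul A p) (pMul A p ⊔ radicals P Fi p) X le_sup_left
        (sup_le (hX ▸ le_sup_left) inf_le_right),
      hX, AddSubgroup.relIndex_sup_left, ← AddSubgroup.inf_relIndex_right]
    congr 1
    ext x
    constructor
    · rintro ⟨hx, hxF⟩
      obtain ⟨y, rfl⟩ := mem_pMul.1 hx
      exact ⟨y, hsat y hxF, rfl⟩
    · exact fun hx => ⟨map_nsmul_le_pMul Fi p hx, map_nsmul_le Fi p hx⟩
  have e3 : (P.map (nsmulAddMonoidHom p)).relIndex (P ⊓ pMul A p) *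
      (pMul A p).relIndex (radicals P Fi p) =
        (P.map (nsmulAddMonoidHom p)).relIndex (radicals P Fi p) := by
    have h : (pMul A p).relIndex (radicals P Fi p) =
        (P ⊓ pMul A p).relIndex (radicals P Fi p) := by
      rw [← AddSubgroup.inf_relIndex_right, ← AddSubgroup.inf_relIndex_right (P ⊓ pMul A p)]
      congr 1
      rw [radicals]
      ext x
      simp only [AddSubgroup.mem_inf]
      tauto
    rw [h]
    exact AddSubgroup.relIndex_mul_relIndex _ _ _
      (le_inf (map_nsmul_le P p) (map_nsmul_le_pMul P p)) (inf_le_inf_left P le_sup_left)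
  rw [e1, ← e2, ← e3, show pMul A p ⊔ Fi ⊔ P = X ⊔ P from rfl]
  ring

/-- `v = e * c` when `A / (Fi + P)` is finite. -/
theorem relIndex_radicals (hsat : ∀ x, p • x ∈ Fi → x ∈ Fi) (hfin : (Fi ⊔ P).index ≠ 0) :
    (P.map (nsmulAddMonoidHom p)).relIndex (radicals P Fi p) =
      ((P ⊓ Fi).map (nsmulAddMonoidHom p)).relIndex (P ⊓ Fi) * (pMul A p ⊔ Fi ⊔ P).index := by
  set pP := P.map (nsmulAddMonoidHom p) with hpP
  set E := P ⊓ Fi with hE
  have hmid : E ⊔ pP ≤ radicals P Fi p :=
    sup_le (inf_le_inf_left P le_sup_right)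
      (le_inf (map_nsmul_le P p) ((map_nsmul_le_pMul P p).trans le_sup_left))
  rw [← AddSubgroup.relIndex_mul_relIndex pP (E ⊔ pP) _ le_sup_right hmid]
  congr 1
  · rw [show E ⊔ pP = pP ⊔ E from sup_comm _ _, AddSubgroup.relIndex_sup_left,
      ← AddSubgroup.inf_relIndex_right]
    congr 1
    ext x
    constructor
    · rintro ⟨⟨y, hy, rfl⟩, hx⟩
      exact ⟨y, ⟨hy, hsat y hx.2⟩, rfl⟩
    · intro hx
      exact ⟨AddSubgroup.map_mono inf_le_left hx, map_nsmul_le E p hx⟩
  · -- the quotient is the `p`-torsion of `A / (Fi + P)`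
    let S := Fi ⊔ P
    have : S.FiniteIndex := ⟨hfin⟩
    have : Finite (A ⧸ S) := AddSubgroup.finite_quotient_of_finiteIndex
    let B : AddSubgroup A := S.comap (nsmulAddMonoidHom p)
    let D : AddSubgroup (A × A) :=
      P.comap (AddMonoidHom.snd A A) ⊓
        Fi.comap (AddMonoidHom.snd A A - (nsmulAddMonoidHom p).comp (AddMonoidHom.fst A A))
    have hD : ∀ z : A × A, z ∈ D ↔ z.2 ∈ P ∧ z.2 - p • z.1 ∈ Fi := fun z => Iff.rfl
    have hDfst : D.map (AddMonoidHom.fst A A) = B := by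
      ext f
      constructor
      · rintro ⟨z, hz, rfl⟩
        obtain ⟨h1, h2⟩ := (hD z).1 hz
        show p • z.1 ∈ S
        rw [show p • z.1 = -(z.2 - p • z.1) + z.2 by abel]
        exact add_mem (AddSubgroup.mem_sup_left (neg_mem h2)) (AddSubgroup.mem_sup_right h1)
      · intro hf
        obtain ⟨a, ha, b, hb, hab⟩ := AddSubgroup.mem_sup.1 (show p • f ∈ S from hf)
        exact ⟨(f, b), (hD _).2 ⟨hb, by rw [← hab]; simpa using neg_mem ha⟩, rfl⟩
    have hDsnd : D.map (AddMonoidHom.snd A A) = radicals P Fi p := by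
      ext v
      constructor
      · rintro ⟨z, hz, rfl⟩
        obtain ⟨h1, h2⟩ := (hD z).1 hz
        refine ⟨h1, ?_⟩
        rw [show (AddMonoidHom.snd A A) z = p • z.1 + (z.2 - p • z.1) by simp]
        exact AddSubgroup.add_mem_sup (mem_pMul.2 ⟨_, rfl⟩) h2
      · rintro ⟨h1, h2⟩
        obtain ⟨a, ha, b, hb, hab⟩ := AddSubgroup.mem_sup.1 h2
        obtain ⟨f, rfl⟩ := mem_pMul.1 ha
        exact ⟨(f, v), (hD _).2 ⟨h1, by rw [← hab]; simpa using hb⟩, rfl⟩
    have hcomap : S.comap (AddMonoidHom.fst A A) ⊓ D =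
        (E ⊔ pP).comap (AddMonoidHom.snd A A) ⊓ D := by
      ext z
      simp only [AddSubgroup.mem_inf, AddSubgroup.mem_comap, and_congr_left_iff]
      intro hz
      obtain ⟨h1, h2⟩ := (hD z).1 hz
      constructor
      · intro hS
        obtain ⟨a, ha, b, hb, hab⟩ := AddSubgroup.mem_sup.1 hS
        change z.2 ∈ E ⊔ pP
        have he : z.2 - p • b ∈ Fi := by
          have h3 : z.2 - p • b = (z.2 - p • z.1) + p • a := by
            rw [show z.1 = a + b from hab.symm, nsmul_add]; abel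
          rw [h3]
          exact add_mem h2 (Fi.nsmul_mem ha p)
        rw [show z.2 = (z.2 - p • b) + p • b by abel]
        have hE' : z.2 - p • b ∈ E := AddSubgroup.mem_inf.2 ⟨P.sub_mem h1 (P.nsmul_mem hb p), he⟩
        exact AddSubgroup.add_mem_sup hE' (⟨b, hb, rfl⟩ : p • b ∈ pP)
      · intro hz2
        obtain ⟨a, ha, _, ⟨b, hb, rfl⟩, hab⟩ :=
          AddSubgroup.mem_sup.1 (show z.2 ∈ E ⊔ pP from hz2)
        change z.1 ∈ S
        have h3 : p • (z.1 - b) ∈ Fi := by
          have : p • (z.1 - b) = a - (z.2 - p • z.1) := by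
            rw [← hab, nsmul_sub]
            simp only [nsmulAddMonoidHom_apply]
            abel
          rw [this]
          exact sub_mem ha.2 h2
        rw [show z.1 = (z.1 - b) + b by abel]
        exact AddSubgroup.add_mem_sup (hsat _ h3) hb
    have hv : (E ⊔ pP).relIndex (radicals P Fi p) = S.relIndex B := by
      rw [← hDsnd, ← hDfst, ← AddSubgroup.relIndex_comap, ← AddSubgroup.relIndex_comap,
        ← AddSubgroup.inf_relIndex_right, ← hcomap, AddSubgroup.inf_relIndex_right]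
    have hB : S.relIndex B = Nat.card (nsmulAddMonoidHom (α := A ⧸ S) p).ker := by
      have hBmap : B.map (QuotientAddGroup.mk' S) = (nsmulAddMonoidHom (α := A ⧸ S) p).ker := by
        ext x
        constructor
        · rintro ⟨f, hf, rfl⟩
          show p • QuotientAddGroup.mk' S f = 0
          rw [← map_nsmul]
          exact (QuotientAddGroup.eq_zero_iff _).2 hf
        · intro hx
          obtain ⟨f, rfl⟩ := QuotientAddGroup.mk'_surjective S x
          refine ⟨f, (QuotientAddGroup.eq_zero_iff (N := S) (p • f)).1 ?_, rfl⟩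
          change QuotientAddGroup.mk' S (p • f) = 0
          rw [map_nsmul]
          exact hx
      rw [← AddSubgroup.relIndex_bot_left (H := (nsmulAddMonoidHom (α := A ⧸ S) p).ker), ← hBmap,
        ← AddSubgroup.relIndex_comap]
      congr 1
      exact (QuotientAddGroup.ker_mk' S).symm
    rw [hv, hB, natCard_ker_nsmul_eq_index]
    rw [← AddSubgroup.index_comap_of_surjective _ (QuotientAddGroup.mk'_surjective S)]
    congr 1
    ext f
    constructor
    · rintro ⟨y, hy⟩
      obtain ⟨y, rfl⟩ := QuotientAddGroup.mk'_surjective S y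
      have hmem : -(p • y) + f ∈ S := QuotientAddGroup.eq.1 (by
        change QuotientAddGroup.mk' S (p • y) = QuotientAddGroup.mk' S f
        rw [map_nsmul]
        exact hy)
      rw [show f = p • y + (-(p • y) + f) by abel, sup_assoc]
      exact AddSubgroup.add_mem_sup (mem_pMul.2 ⟨y, rfl⟩) hmem
    · intro hf
      rw [sup_assoc] at hf
      obtain ⟨a, ha, b, hb, rfl⟩ := AddSubgroup.mem_sup.1 hf
      obtain ⟨y, rfl⟩ := mem_pMul.1 ha
      refine ⟨QuotientAddGroup.mk' S y, ?_⟩
      rw [map_add, map_nsmul, show QuotientAddGroup.mk' S b = 0 from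
        (QuotientAddGroup.eq_zero_iff _).2 hb, add_zero]
      rfl

/-- The inequality behind the existence theorem. -/
theorem index_le_radicals (hsat : ∀ x, p • x ∈ Fi → x ∈ Fi) (hfin : (Fi ⊔ P).index ≠ 0)
    (hw : (P.map (nsmulAddMonoidHom p)).relIndex (P ⊓ pMul A p) ≤ (pMul A p ⊔ Fi ⊔ P).index)
    (hj : (Fi.map (nsmulAddMonoidHom p)).relIndex Fi ≤
      (((P ⊓ Fi).map (nsmulAddMonoidHom p)).relIndex (P ⊓ Fi)) ^ 2)
    (he : ((P ⊓ Fi).map (nsmulAddMonoidHom p)).relIndex (P ⊓ Fi) ≠ 0) :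
    (pMul A p ⊔ P).index ≤ (P.map (nsmulAddMonoidHom p)).relIndex (radicals P Fi p) := by
  have h1 := index_mul_radicals P Fi p hsat
  have h2 := relIndex_radicals P Fi p hsat hfin
  set v := (P.map (nsmulAddMonoidHom p)).relIndex (radicals P Fi p)
  set c := (pMul A p ⊔ Fi ⊔ P).index
  set e := ((P ⊓ Fi).map (nsmulAddMonoidHom p)).relIndex (P ⊓ Fi)
  have hc : c ≠ 0 := fun h0 => hfin (Nat.eq_zero_of_zero_dvd
    (h0 ▸ AddSubgroup.index_dvd_of_le (sup_le_sup_right le_sup_right P)))
  refine Nat.le_of_mul_le_mul_right ?_ (Nat.pos_of_ne_zero (h2 ▸ mul_ne_zero he hc : v ≠ 0))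
  calc (pMul A p ⊔ P).index * v = c * (Fi.map (nsmulAddMonoidHom p)).relIndex Fi *
        (P.map (nsmulAddMonoidHom p)).relIndex (P ⊓ pMul A p) := h1
    _ ≤ c * e ^ 2 * c := Nat.mul_le_mul (Nat.mul_le_mul le_rfl hj) hw
    _ = v * v := by rw [h2]; ring

end Counting

section Pairing

variable {p : ℕ} [hp : Fact p.Prime]

/-- `ℤ` with trivial action. -/
def TrivZ (_Δ : Type) : Type := ℤ

instance (Δ : Type) : AddCommGroup (TrivZ Δ) := inferInstanceAs (AddCommGroup ℤ)
instance (Δ : Type) : Module.Free ℤ (TrivZ Δ) := inferInstanceAs (Module.Free ℤ ℤ)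
instance (Δ : Type) : Module.Finite ℤ (TrivZ Δ) := inferInstanceAs (Module.Finite ℤ ℤ)

instance (Δ : Type) [Group Δ] : DistribMulAction Δ (TrivZ Δ) where
  smul _ x := x
  one_smul _ := rfl
  mul_smul _ _ _ := rfl
  smul_zero _ := rfl
  smul_add _ _ _ := rfl

/-- A finite `p`-torsion group has at most as many homomorphisms to a group of order at most `p`
killed by `p` as elements. -/
theorem natCard_addMonoidHom_le {A W : Type} [AddCommGroup A] [AddCommGroup W] [Finite A]
    [Finite W] (hA : ∀ a : A, p • a = 0) (hW : ∀ w : W, p • w = 0) (hWp : Nat.card W ≤ p) :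
    Nat.card (A →+ W) ≤ Nat.card A := by
  have key : ∀ [Module (ZMod p) A] [Module (ZMod p) W], Nat.card (A →+ W) ≤ Nat.card A := by
    intro _ _
    haveI : Module.Finite (ZMod p) A := Module.Finite.of_finite
    haveI : Module.Finite (ZMod p) W := Module.Finite.of_finite
    have h1 : Nat.card (A →+ W) = Nat.card (A →ₗ[ZMod p] W) :=
      Nat.card_congr ⟨fun f => f.toZModLinearMap p, fun f => f.toAddMonoidHom, fun _ => rfl,
        fun _ => LinearMap.ext fun _ => rfl⟩
    rw [h1, Module.natCard_eq_pow_finrank (K := ZMod p), Module.finrank_linearMap,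
      Module.natCard_eq_pow_finrank (K := ZMod p) (V := A)]
    refine Nat.pow_le_pow_right (Nat.card_pos) ?_
    have hW1 : Module.finrank (ZMod p) W ≤ 1 := by
      have h2 := Module.natCard_eq_pow_finrank (K := ZMod p) (V := W)
      rw [Nat.card_zmod] at h2
      by_contra h3
      exact absurd hWp (not_le.2 (h2 ▸ Nat.lt_of_lt_of_le
        (lt_self_pow₀ hp.out.one_lt (one_lt_two)) (Nat.pow_le_pow_right hp.out.pos (by omega))))
    exact (Nat.mul_le_mul_left _ hW1).trans (by rw [mul_one])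
  exact @key (AddCommGroup.zmodModule hA) (AddCommGroup.zmodModule hW)

variable {Δ : Type} [Group Δ] [Fintype Δ] {C : Type} [AddCommGroup C] [DistribMulAction Δ C]

/-- A trivially valued cocycle times a norm is a coboundary. -/
theorem isCoboundary₂_smul_trace {z : Δ × Δ → ℤ}
    (hz : ∀ g h j, z (g * h, j) + z (g, h) = z (h, j) + z (g, h * j)) (d : C) :
    IsCoboundary₂ fun x => z x • ∑ τ : Δ, τ • d := by
  refine ⟨fun g => ∑ k : Δ, z (g, g⁻¹ * k) • k • d, fun g h => ?_⟩
  have hg : g • ∑ k : Δ, z (h, h⁻¹ * k) • k • d =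
      ∑ k : Δ, z (h, (g * h)⁻¹ * k) • k • d := by
    rw [Finset.smul_sum]
    refine Fintype.sum_equiv (Equiv.mulLeft g) _ _ fun k => ?_
    rw [smul_intMul, ← mul_smul, Equiv.coe_mulLeft]
    congr 2
    group
  simp only [hg, Finset.smul_sum, ← Finset.sum_sub_distrib, ← Finset.sum_add_distrib, ← sub_smul,
    ← add_smul]
  refine Finset.sum_congr rfl fun k _ => ?_
  congr 1
  have h1 := hz g h ((g * h)⁻¹ * k)
  rw [show h * ((g * h)⁻¹ * k) = g⁻¹ * k by group] at h1
  omega

omit [Fintype Δ] in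
/-- The classes killed by `p` form a group of order at most `p`. -/
theorem IsClassModule.ker_nsmul_h2 {u : Z2 Δ C} (hu : IsClassModule p Δ C (u : Δ × Δ → C))
    (hΔ : IsPGroup p Δ) :
    Finite (nsmulAddMonoidHom (α := H2C Δ C) p).ker ∧
      Nat.card (nsmulAddMonoidHom (α := H2C Δ C) p).ker ≤ p := by
  let cls : H2C Δ C := QuotientAddGroup.mk u
  haveI : IsAddCyclic (H2C Δ C) := ⟨⟨cls, fun x => by
    induction x using QuotientAddGroup.induction_on with | H z => ?_
    obtain ⟨k, b, hb⟩ := hu.generates ⊤ (hΔ.to_subgroup _) (fun x => (z : Δ × Δ → C) (x.1, x.2))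
      fun g h j => z.2 g h j
    refine ⟨k, ?_⟩
    show k • cls = QuotientAddGroup.mk z
    rw [← QuotientAddGroup.mk_zsmul, QuotientAddGroup.eq, neg_add_eq_sub]
    exact ⟨fun g => b ⟨g, Subgroup.mem_top g⟩,
      fun g h => (hb ⟨g, Subgroup.mem_top g⟩ ⟨h, Subgroup.mem_top h⟩).symm⟩⟩⟩
  obtain ⟨w, hw⟩ :=
    IsAddCyclic.exists_generator (α := (nsmulAddMonoidHom (α := H2C Δ C) p).ker)
  have hord : addOrderOf w ∣ p := addOrderOf_dvd_of_nsmul_eq_zero (Subtype.ext (by
    have h2 := w.2
    rw [AddMonoidHom.mem_ker] at h2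
    exact h2))
  have hpos : 0 < addOrderOf w := Nat.pos_of_ne_zero fun h0 => hp.out.ne_zero (by
    rw [h0] at hord; exact Nat.eq_zero_of_zero_dvd hord)
  have hcard := addOrderOf_eq_card_of_forall_mem_zmultiples hw
  exact ⟨Nat.finite_of_card_ne_zero (by omega),
    hcard ▸ Nat.le_of_dvd hp.out.pos hord⟩

/-- **The lower bound for the norm index** of an elementary layer. -/
theorem card_le_relIndex_of_classModule {u : Z2 Δ C}
    (hu : IsClassModule p Δ C (u : Δ × Δ → C)) (hΔ : IsPGroup p Δ) {ι : Type} [Finite ι]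
    (d : ι → Digits Δ p) (hinj : Function.Injective fun i => (d i).e) (H₀ : AddSubgroup C)
    (hp0 : ∀ c ∈ fixedPts (⊤ : Subgroup Δ) C, p • c ∈ H₀)
    (hnorm : ∀ c ∈ H₀, ∃ (b : C), b ∈ fixedPts (⊤ : Subgroup Δ) C ∧ ∃ e : C,
      c = p • b + ∑ τ : Δ, τ • e)
    (hfin : H₀.relIndex (fixedPts (⊤ : Subgroup Δ) C) ≠ 0) :
    Nat.card ι ≤ H₀.relIndex (fixedPts (⊤ : Subgroup Δ) C) := by
  set Cf := fixedPts (⊤ : Subgroup Δ) C
  set W := (nsmulAddMonoidHom (α := H2C Δ C) p).ker with hW
  obtain ⟨hWfin, hWcard⟩ := hu.ker_nsmul_h2 hΔ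
  haveI := hWfin
  have : (H₀.addSubgroupOf Cf).FiniteIndex := ⟨hfin⟩
  have : Finite (↥Cf ⧸ H₀.addSubgroupOf Cf) := AddSubgroup.finite_quotient_of_finiteIndex
  have hpc : ∀ (i : ι) (c : Cf), IsCoboundary₂ fun x : Δ × Δ => p • (d i).cocycle (c : C) x := by
    intro i c
    refine ⟨fun g => ((d i).e g : ℤ) • (c : C), fun g h => ?_⟩
    rw [smul_intMul, c.2 g (Subgroup.mem_top g)]
    show _ = p • ((d i).carry g h • (c : C))
    rw [← natCast_zsmul, ← mul_smul, (d i).n_carry, ← sub_smul, ← add_smul]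
    congr 1
    ring
  let mkc : ∀ i, ↥Cf →+ Z2 Δ C := fun i =>
    AddMonoidHom.mk' (fun c => ⟨(d i).cocycle (c : C),
      (d i).cocycle_isCocycle hp.out.ne_zero fun g => c.2 g (Subgroup.mem_top g)⟩) fun c c' =>
        Subtype.ext (funext fun x => by simp [Digits.cocycle, smul_add])
  let Φ₀ : ∀ i, ↥Cf →+ W := fun i =>
    ((QuotientAddGroup.mk' _).comp (mkc i)).codRestrict W fun c => by
      show p • (QuotientAddGroup.mk' _ (mkc i c) : H2C Δ C) = 0
      rw [← map_nsmul]
      refine (QuotientAddGroup.eq_zero_iff _).2 ?_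
      show ((p • mkc i c : Z2 Δ C) : Δ × Δ → C) ∈ B2 Δ C
      rw [AddSubmonoidClass.coe_nsmul]
      exact hpc i c
  have hΦ : ∀ i (c : Cf), IsCoboundary₂ ((d i).cocycle (c : C)) → Φ₀ i c = 0 := fun i c hc =>
    Subtype.ext ((QuotientAddGroup.eq_zero_iff _).2 hc)
  have hkill : ∀ i, H₀.addSubgroupOf Cf ≤ (Φ₀ i).ker := by
    intro i c hc
    obtain ⟨b, hb, e, hce⟩ := hnorm c hc
    refine hΦ i c ?_
    have h1 := (mem_B2.2 (hpc i ⟨b, hb⟩))
    have h2 := mem_B2.2 (isCoboundary₂_smul_trace (z := fun x : Δ × Δ => (d i).carry x.1 x.2)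
      ((d i).carry_cocycle hp.out.ne_zero) e)
    have h3 := (B2 Δ C).add_mem h1 h2
    rw [mem_B2] at h3
    convert h3 using 1
    funext x
    simp only [Digits.cocycle, Pi.add_apply, hce, smul_add]
    rw [← natCast_zsmul b, ← natCast_zsmul ((d i).carry x.1 x.2 • b), smul_comm]
  let Φ : ι → (↥Cf ⧸ H₀.addSubgroupOf Cf →+ W) := fun i =>
    QuotientAddGroup.lift _ (Φ₀ i) (hkill i)
  have hΦinj : Function.Injective Φ := by
    intro i j hij
    by_contra hne
    obtain ⟨g₀, hg₀⟩ := Function.ne_iff.1 (hinj.ne hne)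
    let z₀ : Δ × Δ → ℤ := fun x => (d i).carry x.1 x.2 - (d j).carry x.1 x.2
    let z : Δ × Δ → TrivZ Δ := z₀
    have hz₀ : ∀ g h k, z₀ (g * h, k) + z₀ (g, h) = z₀ (h, k) + z₀ (g, h * k) := fun g h k => by
      simp only [z₀]
      linear_combination (d i).carry_cocycle hp.out.ne_zero g h k -
        (d j).carry_cocycle hp.out.ne_zero g h k
    have hz : IsCocycle₂ z := hz₀
    have hpz₀ : ∀ g h, ((((d i).e h : ℤ) - (d j).e h) - (((d i).e (g * h) : ℤ) - (d j).e (g * h)))
        + (((d i).e g : ℤ) - (d j).e g) = p • z₀ (g, h) := fun g h => by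
      simp only [z₀, nsmul_eq_mul, mul_sub]
      rw [(d i).n_carry, (d j).n_carry]
      ring
    have hpz : IsCoboundary₂ fun x => p • z x := ⟨fun g => (((d i).e g : ℤ) - (d j).e g : ℤ), hpz₀⟩
    have hne' : ¬ IsCoboundary₂ z := by
      rintro ⟨x, hx⟩
      let x₀ : Δ → ℤ := x
      have hx₀ : ∀ g h, x₀ h - x₀ (g * h) + x₀ g = z₀ (g, h) := hx
      let t : Δ →* Multiplicative ℤ := MonoidHom.mk'
        (fun g => Multiplicative.ofAdd (((d i).e g : ℤ) - (d j).e g - p * x₀ g)) fun g h => by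
          rw [← ofAdd_add]
          congr 1
          have e3 := hpz₀ g h
          rw [← hx₀ g h, nsmul_eq_mul] at e3
          linear_combination -e3
      have ht : t g₀ = 1 := by
        by_contra h1
        exact not_isOfFinOrder_of_isMulTorsionFree h1 (t.isOfFinOrder (isOfFinOrder_of_finite g₀))
      have h0 : ((d i).e g₀ : ℤ) - (d j).e g₀ - p * x₀ g₀ = 0 :=
        congrArg Multiplicative.toAdd ht
      refine hg₀ (Nat.ModEq.eq_of_lt_of_lt ?_ ((d i).lt g₀) ((d j).lt g₀))
      exact Int.natCast_modEq_iff.1 ((Int.modEq_iff_dvd).2 ⟨-x₀ g₀, by linear_combination -h0⟩)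
    obtain ⟨f, hf, hfz⟩ := tn_right hu hz hpz hne'
    let one' : TrivZ Δ := (1 : ℤ)
    set c : C := f one' with hc
    have hfix : c ∈ Cf := fun σ _ => (hf σ one').symm
    have hval : ∀ m : ℤ, f (m : TrivZ Δ) = m • c := fun m => by
      rw [hc, ← map_zsmul]
      refine congrArg f ?_
      show m = m • (1 : ℤ)
      rw [smul_eq_mul, mul_one]
    refine hfz ?_
    have h1 := DFunLike.congr_fun hij (QuotientAddGroup.mk ⟨c, hfix⟩)
    simp only [Φ, QuotientAddGroup.lift_mk] at h1
    have h2 := QuotientAddGroup.eq.1 (congrArg Subtype.val h1).symm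
    rw [neg_add_eq_sub] at h2
    have h3 : IsCoboundary₂ fun x => (d i).cocycle c x - (d j).cocycle c x := h2
    convert h3 using 1
    funext x
    rw [Digits.cocycle, Digits.cocycle, ← sub_smul]
    exact hval (z₀ x)
  calc Nat.card ι ≤ Nat.card (↥Cf ⧸ H₀.addSubgroupOf Cf →+ W) := by
        haveI : Finite (↥Cf ⧸ H₀.addSubgroupOf Cf →+ W) :=
          Finite.of_injective (fun f => (f : _ → W)) DFunLike.coe_injective
        exact Nat.card_le_card_of_injective Φ hΦinj
    _ ≤ Nat.card (↥Cf ⧸ H₀.addSubgroupOf Cf) := by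
        refine natCard_addMonoidHom_le (fun a => ?_) (fun w => Subtype.ext ?_) hWcard
        · induction a using QuotientAddGroup.induction_on with | H c => ?_
          rw [← QuotientAddGroup.mk_nsmul, QuotientAddGroup.eq_zero_iff]
          exact hp0 c c.2
        · exact AddMonoidHom.mem_ker.1 w.2
    _ = H₀.relIndex Cf := rfl

end Pairing

end Fermat.Agent.PoitouTate
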