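/-
Kummer layers for the existence theorem: the layer cut out by the `p`-th roots of a group of
principal ideles, the index bound for its norms, and the norms at places where it splits.
-/
import Fermat.Agent.PoitouTate.ClassExistenceAlg
import Fermat.Agent.PoitouTate.ClassLevels
import Fermat.Agent.PoitouTate.IdelePrincipal
import Fermat.Agent.PoitouTate.IdeleKummer
import Fermat.Agent.PoitouTate.GlobalPrincipalize
import Fermat.Agent.PoitouTate.IdeleBaseField
import Fermat.Agent.PoitouTate.Api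
import Mathlib.GroupTheory.DoubleCoset

set_option autoImplicit false
set_option linter.style.haveILetI false

open ExtCitation groupCohomology

noncomputable section

namespace Fermat.Agent.PoitouTate

local notation "Qb" => AlgebraicClosure ℚ

/-- A class module stays one on a subgroup. -/
theorem IsClassModule.restrictSub {p : ℕ} {Δ C : Type} [Group Δ] [AddCommGroup C]
    [DistribMulAction Δ C] {u : Δ × Δ → C} (hu : IsClassModule p Δ C u) (H : Subgroup Δ) :
    IsClassModule p H C fun x => u (x.1, x.2) where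
  cocycle g h j := hu.cocycle g h j
  h1 H' hH' c hc := by
    let e := Subgroup.equivMapOfInjective H' H.subtype H.subtype_injective
    have he : ∀ g, ((e.symm g : H) : Δ) = g := fun g => by
      conv_rhs => rw [← e.apply_symm_apply g]
      rfl
    obtain ⟨x, hx⟩ := hu.h1 _ (hH'.map H.subtype) (fun g => c (e.symm g)) fun g h => by
      rw [map_mul, hc, Subgroup.smul_def, he]
    exact ⟨x, fun g => by simpa [e, Subgroup.smul_def] using hx (e g)⟩
  generates H' hH' z hz := by
    let e := Subgroup.equivMapOfInjective H' H.subtype H.subtype_injective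
    have he : ∀ g, ((e.symm g : H) : Δ) = g := fun g => by
      conv_rhs => rw [← e.apply_symm_apply g]
      rfl
    obtain ⟨k, x, hx⟩ := hu.generates _ (hH'.map H.subtype) (fun y => z (e.symm y.1, e.symm y.2))
      fun g h j => by
        simp only [map_mul]
        have := hz (e.symm g) (e.symm h) (e.symm j)
        rwa [Subgroup.smul_def, he] at this
    exact ⟨k, fun g => x (e g), fun g h => by
      simpa [e, map_mul, Subgroup.smul_def] using hx (e g) (e h)⟩
  order H' hH' k := by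
    let e := Subgroup.equivMapOfInjective H' H.subtype H.subtype_injective
    have he : ∀ g, ((e.symm g : H) : Δ) = g := fun g => by
      conv_rhs => rw [← e.apply_symm_apply g]
      rfl
    rw [Nat.card_congr e.toEquiv, ← hu.order _ (hH'.map H.subtype) k]
    constructor
    · rintro ⟨x, hx⟩
      refine ⟨fun g => x (e.symm g), fun g h => ?_⟩
      have := hx (e.symm g) (e.symm h)
      simp only [Subgroup.smul_def, he] at this
      simpa [map_mul] using this
    · rintro ⟨x, hx⟩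
      exact ⟨fun g => x (e g), fun g h => by
        simpa [e, map_mul, Subgroup.smul_def] using hx (e g) (e h)⟩

variable {p : ℕ} [hp : Fact p.Prime] {S : Finset Nat.Primes} {L : IntermediateField ℚ Qb}

/-- The ideles of a level. -/
abbrev jLev (S : Finset Nat.Primes) (L : IntermediateField ℚ Qb) : AddSubgroup (J S) :=
  fixedPts L.fixingSubgroup (J S)

/-- The principal ideles of a level. -/
def prinIn (S : Finset Nat.Primes) (L : IntermediateField ℚ Qb) : AddSubgroup (jLev S L) :=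
  (Prin S).addSubgroupOf (jLev S L)

/-- The ideles of a level supported at `S`. -/
def finIn (S : Finset Nat.Primes) (L : IntermediateField ℚ Qb) : AddSubgroup (jLev S L) :=
  (Jfin S).addSubgroupOf (jLev S L)

/-- The class of an idele of a level. -/
def clsHom (S : Finset Nat.Primes) (L : IntermediateField ℚ Qb) :
    jLev S L →+ ↥(clsLev S L.fixingSubgroup) :=
  ((clsMk S).comp (jLev S L).subtype).codRestrict _ fun f s hs => by
    show s • clsMk S (f : J S) = clsMk S (f : J S)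
    rw [smul_clsMk, f.2 s hs]

theorem clsHom_surjective (hS : S.Nonempty) (hL : IsLvl S L) :
    Function.Surjective (clsHom S L) := by
  rintro ⟨c, hc⟩
  obtain ⟨f, hf, hfc⟩ := levelRepresentatives hS L hL _ le_rfl c hc
  exact ⟨⟨f, hf⟩, Subtype.ext hfc⟩

theorem ker_clsHom : (clsHom S L).ker = prinIn S L := by
  ext f
  rw [AddMonoidHom.mem_ker, prinIn, AddSubgroup.mem_addSubgroupOf, ← Subtype.coe_inj]
  exact QuotientAddGroup.eq_zero_iff (f : J S)

omit hp in
theorem finIn_saturated (hp0 : p ≠ 0) (f : jLev S L) (hf : p • f ∈ finIn S L) :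
    f ∈ finIn S L := by
  intro q g
  have h : p • ((f : J S) : Amb S).ord q g = 0 := hf q g
  rw [smul_eq_zero] at h
  exact h.resolve_left hp0

/-- The subgroup fixing the `p`-th roots of the elements of `X`. -/
def kummerSub (p : ℕ) (X : AddSubgroup (jLev S L)) : Subgroup GQ where
  carrier := {s | s ∈ L.fixingSubgroup ∧ ∀ x ∈ X, ∀ a y : Qb,
    IsPrincipalOf ((x : J S) : Amb S) a → y ^ p = a → s y = y}
  one_mem' := ⟨one_mem _, fun _ _ _ _ _ _ => rfl⟩
  mul_mem' := fun {s t} hs ht => ⟨mul_mem hs.1 ht.1, fun x hx a y ha hy => by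
    rw [AlgEquiv.mul_apply, ht.2 x hx a y ha hy, hs.2 x hx a y ha hy]⟩
  inv_mem' := fun {s} hs => ⟨inv_mem hs.1, fun x hx a y ha hy => by
    conv_lhs => rw [← hs.2 x hx a y ha hy]
    exact s.symm_apply_apply y⟩

variable {X : AddSubgroup (jLev S L)}

omit hp in
theorem kummerSub_le : kummerSub p X ≤ L.fixingSubgroup := fun _ hs => hs.1

omit hp in
theorem kummerSub_normal (hL : IsLvl S L)
    (hstab : ∀ σ : GQ, ∀ x ∈ X, ∃ x' ∈ X, (x' : J S) = σ • (x : J S)) :
    (kummerSub p X).Normal := by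
  refine ⟨fun s hs σ => ⟨hL.normal.conj_mem s hs.1 σ, fun x hx a y ha hy => ?_⟩⟩
  obtain ⟨x', hx', hxe⟩ := hstab σ⁻¹ x hx
  have ha' : IsPrincipalOf ((x' : J S) : Amb S) (σ⁻¹ a) := by
    rw [hxe]; exact ha.smul σ⁻¹
  have h := hs.2 x' hx' _ (σ⁻¹ y) ha' (by rw [← map_pow, hy])
  rw [AlgEquiv.mul_apply, AlgEquiv.mul_apply, h, ← AlgEquiv.mul_apply, mul_inv_cancel,
    AlgEquiv.one_apply]

variable (hL : IsLvl S L) (hμ : ∀ s ∈ L.fixingSubgroup, cycloChar p s = 1) (hS : S.Nonempty)

include hL hμ hS in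
/-- The Kummer layer. -/
theorem exists_kummer_level (hpS : pPrime p ∈ S) (hXP : X ≤ prinIn S L)
    (hXr : X ≤ pMul (jLev S L) p ⊔ finIn S L)
    (hfin : ((prinIn S L).map (nsmulAddMonoidHom p)).relIndex X ≠ 0)
    (hstab : ∀ σ : GQ, ∀ x ∈ X, ∃ x' ∈ X, (x' : J S) = σ • (x : J S)) :
    ∃ K, L ≤ K ∧ IsLvl S K ∧ K.fixingSubgroup = kummerSub p X := by
  classical
  have hp' : p.Prime := hp.out
  haveI : (((prinIn S L).map (nsmulAddMonoidHom p)).addSubgroupOf X).FiniteIndex := ⟨hfin⟩
  let Q := ↥X ⧸ ((prinIn S L).map (nsmulAddMonoidHom p)).addSubgroupOf X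
  haveI : Finite Q := AddSubgroup.finite_quotient_of_finiteIndex
  haveI := Fintype.ofFinite Q
  have hel : ∀ i : Q, ∃ a, IsPrincipalOf (((i.out : X) : jLev S L) : J S).1 a := fun i =>
    hXP (i.out).2
  choose a ha using hel
  choose y hy using fun i => IsAlgClosed.exists_pow_nat_eq (a i) hp'.pos
  have haL : ∀ i, a i ∈ L := fun i => (ha i).mem_of_fixed hS fun s hs =>
    congrArg Subtype.val (((i.out : X) : jLev S L).2 s hs)
  have hy0 : ∀ i, y i ≠ 0 := fun i h0 => (ha i).ne_zero (by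
    rw [← hy i, h0, zero_pow hp'.ne_zero])
  have hunr : ∀ i, (L ⊔ IntermediateField.adjoin ℚ {y i}).IsUnramifiedOutside S := by
    intro i
    refine isUnramifiedOutside_sup_adjoin hpS hL.unramified (hy0 i) 1
      (by rw [pow_one, hy]; exact haL i) fun q hq A hA => ?_
    obtain ⟨g, hg⟩ := exists_place_eq_norm q hA
    obtain ⟨u, hu, f', hf', huf⟩ := AddSubgroup.mem_sup.1 (hXr (i.out).2)
    obtain ⟨f, rfl⟩ := mem_pMul.1 hu
    set k : ℤ := ((f : J S) : Amb S).ord ⟨q, hq⟩ g with hk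
    have hord : (((i.out : X) : jLev S L) : J S).1.ord ⟨q, hq⟩ g = (p : ℤ) * k := by
      rw [← huf]
      show (p • ((f : J S) : Amb S)).ord ⟨q, hq⟩ g + ((f' : J S) : Amb S).ord ⟨q, hq⟩ g = _
      have hz : ((f' : J S) : Amb S).ord ⟨q, hq⟩ g = 0 := hf' ⟨q, hq⟩ g
      rw [hz, add_zero]
      exact (nsmul_eq_mul p k)
    have hq0 : ((q : ℕ) : Qb) ≠ 0 := Nat.cast_ne_zero.mpr q.2.ne_zero
    refine ⟨((q : ℕ) : Qb) ^ k, zpow_mem (IntermediateField.natCast_mem L _) _, zpow_ne_zero _ hq0,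
      hg _ _ (pow_ne_zero _ (hy0 i)) (pow_ne_zero _ (zpow_ne_zero _ hq0)) ?_⟩
    rw [pow_one, hy i, (ha i).ord_eq ⟨q, hq⟩ g, hord, map_pow, map_pow, map_zpow₀, map_zpow₀,
      map_natCast, norm_pow, norm_zpow, norm_padicEmbedding_natCast q, Padic.norm_p, inv_zpow,
      ← zpow_neg, ← zpow_natCast, ← zpow_mul]
    congr 1
    ring
  have hsup : (L ⊔ Finset.univ.sup fun i => L ⊔ IntermediateField.adjoin ℚ {y i}
      ).IsUnramifiedOutside S := by
    refine hL.unramified.sup ?_
    exact Finset.sup_induction (p := fun F : IntermediateField ℚ Qb => F.IsUnramifiedOutside S)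
      (IntermediateField.isUnramifiedOutside_bot S) (fun _ ha _ hb => ha.sup hb) fun i _ => hunr i
  obtain ⟨L', hL', hn', hle⟩ := exists_normal_isUnramifiedOutside_ge hsup
  have hlvl : IsLvl S L' := isLvl_of_normal hL' hn'
  have hLL' : L ≤ L' := le_sup_left.trans hle
  have hyL : ∀ i, y i ∈ L' := fun i => hle (le_sup_of_le_right
    ((le_sup_right.trans (Finset.le_sup (f := fun i => L ⊔ IntermediateField.adjoin ℚ {y i})
      (Finset.mem_univ i)) : IntermediateField.adjoin ℚ {y i} ≤ _))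
    (IntermediateField.mem_adjoin_simple_self ℚ (y i)))
  have hfix : L'.fixingSubgroup ≤ kummerSub p X := by
    intro s hs
    have hsL : s ∈ L.fixingSubgroup := IntermediateField.fixingSubgroup_antitone hLL' hs
    refine ⟨hsL, fun x hx b z hb hz => ?_⟩
    let i : Q := QuotientAddGroup.mk ⟨x, hx⟩
    obtain ⟨w, hwP, hwe⟩ := QuotientAddGroup.eq.1 (QuotientAddGroup.out_eq' i)
    obtain ⟨c, hc⟩ := hwP
    have hcL : c ∈ L := hc.mem_of_fixed hS fun t ht => congrArg Subtype.val (w.2 t ht)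
    have hbe : b = a i * c ^ p := by
      refine hb.elem_eq hS ?_
      have e : ((x : J S) : Amb S) = (((i.out : X) : jLev S L) : J S).1 + (p : ℤ) • ((w : J S) : Amb S) := by
        have e1 : p • w = -((i.out : X) : jLev S L) + x := hwe
        have e2 : x = ((i.out : X) : jLev S L) + p • w := by rw [e1]; abel
        rw [natCast_zsmul]
        exact congrArg (fun t : jLev S L => ((t : J S) : Amb S)) e2
      rw [e, ← zpow_natCast]
      exact (ha i).add (hc.zsmul _)
    have hc0 : y i * c ≠ 0 := mul_ne_zero (hy0 i) hc.ne_zero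
    have hroot : (z / (y i * c)) ^ p = 1 := by
      rw [div_pow, mul_pow, hz, hy i, ← hbe, div_self hb.ne_zero]
    have h1 := apply_eq_self_of_cycloChar_eq_one (hμ s hsL) hroot
    rw [map_div₀, map_mul, (IntermediateField.mem_fixingSubgroup_iff _ _).1 hs _ (hyL i),
      apply_eq_of_mem hsL hcL, div_left_inj' hc0] at h1
    exact h1
  haveI := kummerSub_normal (p := p) hL hstab
  obtain ⟨K, hK, hKfix, -⟩ := hlvl.exists_of_le hfix
  refine ⟨K, ?_, hK, hKfix⟩
  rw [← InfiniteGalois.fixedField_fixingSubgroup L, ← InfiniteGalois.fixedField_fixingSubgroup K,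
    hKfix]
  exact fun t ht => fun s => ht ⟨s.1, kummerSub_le s.2⟩

include hμ hS in
/-- The layer is elementary abelian. -/
theorem kummerSub_exponent (s t : GQ) (hs : s ∈ L.fixingSubgroup)
    (ht : t ∈ L.fixingSubgroup) :
    s ^ p ∈ kummerSub p X ∧ s * t * s⁻¹ * t⁻¹ ∈ kummerSub p X := by
  haveI : NeZero p := ⟨hp.out.ne_zero⟩
  obtain ⟨ζ, hζ⟩ := HasEnoughRootsOfUnity.exists_primitiveRoot Qb p
  have key : ∀ x ∈ X, ∀ b z : Qb, IsPrincipalOf ((x : J S) : Amb S) b → z ^ p = b →
      ∀ u ∈ L.fixingSubgroup, ∃ r : Qb, r ^ p = 1 ∧ u z = r * z := by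
    intro x hx b z hb hz u hu
    have hbL : b ∈ L := hb.mem_of_fixed hS fun v hv => congrArg Subtype.val (x.2 v hv)
    obtain ⟨j, -, hj⟩ := exists_apply_eq_pow_mul hζ hu (a := z) (by rwa [hz])
    exact ⟨ζ ^ j, by rw [← pow_mul, mul_comm, pow_mul, hζ.pow_eq_one, one_pow], hj⟩
  have hfixr : ∀ u ∈ L.fixingSubgroup, ∀ r : Qb, r ^ p = 1 → u r = r := fun u hu r hr =>
    apply_eq_self_of_cycloChar_eq_one (hμ u hu) hr
  refine ⟨⟨pow_mem hs p, fun x hx b z hb hz => ?_⟩,
    ⟨mul_mem (mul_mem (mul_mem hs ht) (inv_mem hs)) (inv_mem ht), fun x hx b z hb hz => ?_⟩⟩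
  · obtain ⟨r, hr, hsz⟩ := key x hx b z hb hz s hs
    have : ∀ n : ℕ, (s ^ n) z = r ^ n * z := by
      intro n
      induction n with
      | zero => simp
      | succ n ih =>
        rw [pow_succ', AlgEquiv.mul_apply, ih, map_mul, map_pow, hfixr s hs r hr, hsz]
        ring
    rw [this, hr, one_mul]
  · have h1 : ∀ u ∈ L.fixingSubgroup, ∀ v ∈ L.fixingSubgroup, u (v z) = v (u z) := by
      intro u hu v hv
      obtain ⟨r, hr, hru⟩ := key x hx b z hb hz u hu
      obtain ⟨r', hr', hrv⟩ := key x hx b z hb hz v hv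
      rw [hru, hrv, map_mul, map_mul, hru, hrv, hfixr u hu r' hr', hfixr v hv r hr]
      ring
    rw [AlgEquiv.mul_apply, AlgEquiv.mul_apply, AlgEquiv.mul_apply,
      h1 s⁻¹ (inv_mem hs) t⁻¹ (inv_mem ht)]
    show s (t (t.symm (s.symm z))) = z
    rw [t.apply_symm_apply, s.apply_symm_apply]

include hL hμ hS in
/-- **The index bound** for the norms of a Kummer layer. -/
theorem relIndex_le_of_kummer (hcm : LayerClassModule p S) (hXP : X ≤ prinIn S L)
    {K : IntermediateField ℚ Qb} (hK : IsLvl S K) (hKfix : K.fixingSubgroup = kummerSub p X)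
    (B : AddSubgroup (Cls S)) (hp0 : ∀ c ∈ clsLev S L.fixingSubgroup, p • c ∈ B)
    (hnorm : ∀ c ∈ B, ∃ b ∈ clsLev S L.fixingSubgroup, ∃ e ∈ clsLev S K.fixingSubgroup,
      c = p • b + relNorm L.fixingSubgroup K.fixingSubgroup e)
    (hfin : B.relIndex (clsLev S L.fixingSubgroup) ≠ 0)
    (hfinX : ((prinIn S L).map (nsmulAddMonoidHom p)).relIndex X ≠ 0) :
    ((prinIn S L).map (nsmulAddMonoidHom p)).relIndex X ≤
      B.relIndex (clsLev S L.fixingSubgroup) := by
  classical
  set N := K.fixingSubgroup with hN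
  have hNU : N ≤ L.fixingSubgroup := hKfix ▸ kummerSub_le
  haveI := hK.normal
  haveI := hK.finite_gal
  obtain ⟨u, hu⟩ := hcm K hK fun s hs => hμ s (hNU hs)
  let H : Subgroup (GQ ⧸ N) := L.fixingSubgroup.map (QuotientGroup.mk' N)
  have hH : H.comap (QuotientGroup.mk' N) = L.fixingSubgroup := by
    rw [Subgroup.comap_map_eq_self]
    rwa [QuotientGroup.ker_mk']
  have hlift : ∀ h : H, (h : GQ ⧸ N).out ∈ L.fixingSubgroup := fun h => by
    rw [← hH, Subgroup.mem_comap]
    show QuotientGroup.mk _ ∈ H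
    rw [QuotientGroup.out_eq']
    exact h.2
  haveI : Fintype H := Fintype.ofFinite H
  haveI : NeZero p := ⟨hp.out.ne_zero⟩
  obtain ⟨ζ, hζ⟩ := HasEnoughRootsOfUnity.exists_primitiveRoot Qb p
  let Q := ↥X ⧸ ((prinIn S L).map (nsmulAddMonoidHom p)).addSubgroupOf X
  have hel : ∀ i : Q, ∃ a, IsPrincipalOf (((i.out : X) : jLev S L) : J S).1 a := fun i =>
    hXP (i.out).2
  haveI : (((prinIn S L).map (nsmulAddMonoidHom p)).addSubgroupOf X).FiniteIndex := ⟨hfinX⟩
  haveI : Finite Q := AddSubgroup.finite_quotient_of_finiteIndex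
  choose a ha using hel
  choose y hy using fun i => IsAlgClosed.exists_pow_nat_eq (a i) hp.out.pos
  have haL : ∀ i, a i ∈ L := fun i => (ha i).mem_of_fixed hS fun s hs =>
    congrArg Subtype.val (((i.out : X) : jLev S L).2 s hs)
  have hy0 : ∀ i, y i ≠ 0 := fun i h0 => (ha i).ne_zero (by
    rw [← hy i, h0, zero_pow hp.out.ne_zero])
  have hexp : ∀ (i : Q) (s : GQ), s ∈ L.fixingSubgroup → ∃ j < p, s (y i) = ζ ^ j * y i :=
    fun i s hs => exists_apply_eq_pow_mul hζ hs (by rw [hy]; exact haL i)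
  choose e he hes using fun (i : Q) (h : H) => hexp i _ (hlift h)
  have hdep : ∀ (i : Q) (s : GQ) (hs : QuotientGroup.mk' N s ∈ H),
      s (y i) = ζ ^ e i ⟨_, hs⟩ * y i := by
    intro i s hs
    set s₀ := ((⟨_, hs⟩ : H) : GQ ⧸ N).out with hs₀
    have hmem : s₀⁻¹ * s ∈ N := QuotientGroup.eq.1 (by rw [hs₀, QuotientGroup.out_eq']; rfl)
    have h2 := (hKfix ▸ hmem : s₀⁻¹ * s ∈ kummerSub p X).2 _ (i.out).2 _ _ (ha i) (hy i)
    rw [← hes i ⟨_, hs⟩]
    conv_lhs => rw [show s = s₀ * (s₀⁻¹ * s) by group, AlgEquiv.mul_apply, h2]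
  have hζfix : ∀ (h : H) (n : ℕ), (h : GQ ⧸ N).out (ζ ^ n) = ζ ^ n := fun h n =>
    apply_eq_self_of_cycloChar_eq_one (hμ _ (hlift h))
      (by rw [← pow_mul, mul_comm, pow_mul, hζ.pow_eq_one, one_pow])
  let d : Q → Digits H p := fun i =>
    { e := e i
      lt := he i
      hom := fun g h => by
        refine hζ.pow_inj (he i (g * h)) (Nat.mod_lt _ hp.out.pos) ?_
        have h1 : QuotientGroup.mk' N ((g : GQ ⧸ N).out * (h : GQ ⧸ N).out) = ((g * h : H) : GQ ⧸ N) := by
          rw [map_mul]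
          show QuotientGroup.mk (g : GQ ⧸ N).out * QuotientGroup.mk (h : GQ ⧸ N).out = _
          rw [QuotientGroup.out_eq', QuotientGroup.out_eq']
          rfl
        have h2 := hdep i _ (h1 ▸ (g * h).2)
        have h3 : (⟨_, h1 ▸ (g * h).2⟩ : H) = g * h := Subtype.ext h1
        rw [h3, AlgEquiv.mul_apply, hes, map_mul, hζfix, hes, ← mul_assoc, ← pow_add] at h2
        rw [← pow_eq_pow_mod _ hζ.pow_eq_one, add_comm]
        exact mul_right_cancel₀ (hy0 i) h2.symm }
  have hinj : Function.Injective fun i => (d i).e := by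
    intro i j hij
    have hij' : e i = e j := hij
    have hc : y i / y j ∈ L := mem_of_fixed fun s hs => by
      have hs' : QuotientGroup.mk' N s ∈ H := Subgroup.mem_map_of_mem _ hs
      rw [map_div₀, hdep i s hs', hdep j s hs', hij',
        mul_div_mul_left _ _ (pow_ne_zero _ (hζ.ne_zero hp.out.ne_zero))]
    obtain ⟨P, hP, hP0, hPfix⟩ := exists_principal hL hc (div_ne_zero (hy0 i) (hy0 j))
    have hPU : P ∈ jLev S L := fun s hs => hPfix s (apply_eq_of_mem hs hc)
    rw [← QuotientAddGroup.out_eq' i, ← QuotientAddGroup.out_eq' j]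
    refine QuotientAddGroup.eq.2 ⟨-⟨P, hPU⟩, ?_, ?_⟩
    · exact neg_mem (show (⟨P, hPU⟩ : jLev S L) ∈ prinIn S L from ⟨_, hP⟩)
    · refine Subtype.ext (Subtype.ext ?_)
      show (p • -(P : Amb S)) = -(((i.out : X) : jLev S L) : J S).1 + (((j.out : X) : jLev S L) : J S).1
      have h1 := (ha j).sub (ha i)
      rw [neg_add_eq_sub, ← neg_one_zsmul, ← natCast_zsmul, ← mul_smul, mul_neg_one]
      refine IsPrincipalOf.eq (x := a j / a i) ?_ h1
      have h2 := hP.zsmul (-(p : ℤ))
      rwa [zpow_neg, zpow_natCast, div_pow, hy, hy, inv_div] at h2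
  have hpow : IsPGroup p H := by
    rintro ⟨h, hh⟩
    refine ⟨1, Subtype.ext ?_⟩
    obtain ⟨s, hs, rfl⟩ := hh
    rw [pow_one]
    show (QuotientGroup.mk s : GQ ⧸ N) ^ p = 1
    rw [← QuotientGroup.mk_pow, QuotientGroup.eq_one_iff, hKfix]
    exact (kummerSub_exponent hμ hS s s hs hs).1
  let H₀ : AddSubgroup ↥(fixedPts N (Cls S)) := B.comap (fixedPts N (Cls S)).subtype
  have hCf : ∀ c : ↥(fixedPts N (Cls S)), c ∈ fixedPts (⊤ : Subgroup H) ↥(fixedPts N (Cls S)) ↔
      (c : Cls S) ∈ clsLev S L.fixingSubgroup := by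
    intro c
    rw [← hH, clsLev, ← mem_fixedPts_quot]
    exact ⟨fun h s hs => h ⟨s, hs⟩ (Subgroup.mem_top _), fun h s _ => h s s.2⟩
  have hidx : H₀.relIndex (fixedPts (⊤ : Subgroup H) ↥(fixedPts N (Cls S))) =
      B.relIndex (clsLev S L.fixingSubgroup) := by
    rw [AddSubgroup.relIndex_comap]
    congr 1
    ext c
    constructor
    · rintro ⟨c', hc', rfl⟩
      exact (hCf c').1 hc'
    · intro hc
      exact ⟨⟨c, fun s hs => hc s (hNU hs)⟩, (hCf _).2 hc, rfl⟩
  have hcard := card_le_relIndex_of_classModule (u := ⟨_, (hu.restrictSub H).cocycle⟩)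
    (hu.restrictSub H) hpow d hinj H₀ (fun c hc => hp0 _ ((hCf c).1 hc))
    (fun c hc => by
      obtain ⟨b, hb, w, hw, hbw⟩ := hnorm _ hc
      refine ⟨⟨b, fun s hs => hb s (hNU hs)⟩, (hCf _).2 hb, ⟨w, hw⟩, Subtype.ext ?_⟩
      rw [AddSubgroup.coe_add, AddSubmonoidClass.coe_nsmul]
      refine Eq.trans hbw (congrArg (p • b + ·) ?_)
      conv_lhs => rw [← hH]
      exact relNorm_quot N H ⟨w, hw⟩) (hidx ▸ hfin)
  rw [hidx] at hcard
  exact hcard

include hμ in
/-- Where the layer splits at `S`, the ideles supported at `S` are norms. -/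
theorem exists_relNorm_of_split (hXr : X ≤ pMul (jLev S L) p)
    {K : IntermediateField ℚ Qb} (hK : IsLvl S K) (hKfix : K.fixingSubgroup = kummerSub p X)
    (f : jLev S L) (hf : f ∈ finIn S L) :
    ∃ d : J S, (∀ s ∈ K.fixingSubgroup, s • d = d) ∧
      relNorm L.fixingSubgroup K.fixingSubgroup d = (f : J S) := by
  classical
  set U := L.fixingSubgroup with hU
  set W := K.fixingSubgroup with hW
  haveI : NeZero p := ⟨hp.out.ne_zero⟩
  have hWU : W ≤ U := hKfix ▸ kummerSub_le
  have hsplit : ∀ (q : ↥S) (τ : LocGal q.1) (g : GQ), g⁻¹ * loc q.1 τ * g ∈ U →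
      g⁻¹ * loc q.1 τ * g ∈ W := by
    intro q τ g hs
    set s := g⁻¹ * loc q.1 τ * g with hs'
    rw [hKfix]
    refine ⟨hs, fun x hx a y ha hy => ?_⟩
    obtain ⟨v, hv⟩ := mem_pMul.1 (hXr hx)
    set b : PadicAlgCl (q.1 : ℕ) :=
      ((Additive.toMul (((v : J S) : Amb S).fin q g) : (PadicAlgCl (q.1 : ℕ))ˣ) :
        PadicAlgCl (q.1 : ℕ)) with hb
    have hbfix : τ b = b := by
      have h1 := fin_mem_locField (v : J S).2 q (fun s hs => congrArg Subtype.val (v.2 s hs)) g
        (τ := τ) (mem_locSub.2 hs)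
      rw [hb, ← coe_locAct, h1]
    have hb0 : b ≠ 0 := Units.ne_zero _
    have hbp : padicEmbedding (q.1 : ℕ) (g a) = b ^ p := by
      rw [← ha.fin_eq, ← hv, hb, ← Units.val_pow_eq_pow_val]
      rfl
    have hr : (padicEmbedding (q.1 : ℕ) (g y) / b) ^ p = 1 := by
      rw [div_pow, ← map_pow, ← map_pow, hy, hbp, div_self (pow_ne_zero _ hb0)]
    obtain ⟨ζ, hζ⟩ := HasEnoughRootsOfUnity.exists_primitiveRoot Qb p
    haveI : NeZero p := ⟨hp.out.ne_zero⟩
    obtain ⟨j, -, hj⟩ := ((hζ.map_of_injective (f := g) g.injective).map_of_injective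
      (f := padicEmbedding (q.1 : ℕ)) (RingHom.injective _)).eq_pow_of_pow_eq_one hr
    have hgs : loc q.1 τ * g = g * s := by rw [hs']; group
    have h2 : τ (padicEmbedding (q.1 : ℕ) (g ζ)) = padicEmbedding (q.1 : ℕ) (g ζ) := by
      rw [← padicEmbedding_loc, ← AlgEquiv.mul_apply, hgs, AlgEquiv.mul_apply,
        apply_eq_self_of_cycloChar_eq_one (hμ s hs) hζ.pow_eq_one]
    have h3 : τ (padicEmbedding (q.1 : ℕ) (g y)) = padicEmbedding (q.1 : ℕ) (g y) := by
      rw [← div_mul_cancel₀ (padicEmbedding (q.1 : ℕ) (g y)) hb0, ← hj, map_mul, map_pow, h2,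
        hbfix]
    rw [← padicEmbedding_loc, ← AlgEquiv.mul_apply, hgs, AlgEquiv.mul_apply] at h3
    exact g.injective ((padicEmbedding (q.1 : ℕ)).toRingHom.injective h3)
  let rep : ↥S → GQ → GQ := fun q g => (DoubleCoset.mk (loc q.1).range U g).out
  have hrep : ∀ (q : ↥S) (τ : LocGal q.1) (g : GQ), ∀ u ∈ U,
      rep q (loc q.1 τ * g * u) = rep q g := fun q τ g u hu =>
    congrArg Quotient.out ((DoubleCoset.eq _ _ _ _).2 ⟨(loc q.1 τ)⁻¹,
      inv_mem ⟨τ, rfl⟩, u⁻¹, inv_mem hu, by group⟩)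
  let sel : ↥S → GQ → Prop := fun q g => ∃ τ : LocGal q.1, (loc q.1 τ * rep q g)⁻¹ * g ∈ W
  have hselW : ∀ (q : ↥S) (g : GQ), ∀ w ∈ W, (sel q (g * w) ↔ sel q g) := by
    intro q g w hw
    have hr : rep q (g * w) = rep q g := by
      have := hrep q 1 g w (hWU hw)
      rwa [map_one, one_mul] at this
    simp only [sel, hr]
    refine exists_congr fun τ => ?_
    rw [← mul_assoc]
    exact W.mul_mem_cancel_right hw
  have hselL : ∀ (q : ↥S) (g : GQ) (τ : LocGal q.1), (sel q (loc q.1 τ * g) ↔ sel q g) := by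
    intro q g τ
    have hr : rep q (loc q.1 τ * g) = rep q g := by
      have := hrep q τ g 1 (one_mem U)
      rwa [mul_one] at this
    simp only [sel, hr]
    refine ⟨fun ⟨a, ha⟩ => ⟨τ⁻¹ * a, ?_⟩, fun ⟨a, ha⟩ => ⟨τ * a, ?_⟩⟩
    · convert ha using 1
      rw [map_mul, map_inv]; group
    · convert ha using 1
      rw [map_mul]; group
  let F : Amb S := (fun q g => if sel q g then ((f : J S) : Amb S).fin q g else 0, fun _ _ => 0)
  have hFfin : ∀ q g, F.fin q g = if sel q g then ((f : J S) : Amb S).fin q g else 0 :=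
    fun _ _ => rfl
  have hFfix : ∀ s ∈ W, s • F = F := by
    intro s hs
    refine Amb.ext (fun q g => ?_) fun q g => rfl
    rw [Amb.fin_smul, hFfin, hFfin, if_congr (hselW q g s hs) rfl rfl,
      fin_apply_mul f.2 q g (hWU hs)]
  have hFJ : F ∈ J S := by
    refine ⟨fun q τ g => ?_, fun _ _ _ => rfl, ⟨K, hK, hFfix⟩, ?_⟩
    · rw [hFfin, hFfin, if_congr (hselL q g τ) rfl rfl]
      split_ifs
      · exact (f : J S).2.1 q τ g
      · exact (map_zero _).symm
    · refine Set.finite_empty.subset ?_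
      rintro q ⟨g, hg⟩
      exact hg rfl
  refine ⟨⟨F, hFJ⟩, fun s hs => Subtype.ext (hFfix s hs), ?_⟩
  haveI := hK.finite_gal
  haveI := finite_relQuotient (W := W) U
  haveI := Fintype.ofFinite (↥U ⧸ W.subgroupOf U)
  have htr := isTransversal_out U W
  rw [relNorm_eq_sum htr (fun s hs => Subtype.ext (hFfix s hs) : (⟨F, hFJ⟩ : J S) ∈ fixedPts W (J S))]
  refine Subtype.ext (Amb.ext (fun q g => ?_) fun q g => ?_)
  · let ev : J S →+ LocVal q.1 :=
      { toFun := fun h => (h : Amb S).fin q g, map_zero' := rfl, map_add' := fun _ _ => rfl }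
    show ev _ = _
    rw [map_sum]
    obtain ⟨_, k, ⟨τ₀, rfl⟩, hk, hk'⟩ := DoubleCoset.mk_out_eq_mul (loc q.1).range U g
    obtain ⟨i₀, hi₀, huniq⟩ := htr.2 k hk
    have hrepg : ∀ u ∈ U, rep q (g * u) = loc q.1 τ₀ * g * k := fun u hu => by
      rw [← hk']
      have := hrep q 1 g u hu
      rwa [map_one, one_mul] at this
    rw [Finset.sum_eq_single_of_mem i₀ (Finset.mem_univ _) fun i _ hne => ?_]
    · show (if sel q (g * _) then ((f : J S) : Amb S).fin q (g * _) else 0) = _
      rw [if_pos, fin_apply_mul f.2 q g (htr.1 i₀)]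
      refine ⟨τ₀⁻¹, ?_⟩
      rw [hrepg _ (htr.1 i₀), map_inv]
      have := inv_mem hi₀
      simpa [mul_assoc] using this
    · show (if sel q (g * _) then ((f : J S) : Amb S).fin q (g * _) else 0) = _
      rw [if_neg]
      rintro ⟨τ, hτ⟩
      rw [hrepg _ (htr.1 i)] at hτ
      set r := ((i.out : ↥U) : GQ) with hr
      have h1 := hsplit q (τ * τ₀) g (by
        have h2 : (loc q.1 τ * (loc q.1 τ₀ * g * k))⁻¹ * (g * r) ∈ U := hWU hτ
        have h3 := mul_mem (mul_mem hk h2) (inv_mem (htr.1 i))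
        have h4 := inv_mem h3
        convert h4 using 1
        rw [map_mul, hr]; group)
      refine hne (huniq i ?_)
      convert mul_mem (inv_mem hτ) (hK.normal.conj_mem _ (inv_mem h1) k⁻¹) using 1
      rw [map_mul, hr]; group
  · let ev : J S →+ ℤ :=
      { toFun := fun h => (h : Amb S).ord q g, map_zero' := rfl, map_add' := fun _ _ => rfl }
    show ev _ = _
    rw [map_sum]
    refine (Finset.sum_eq_zero fun i _ => rfl).trans (hf q g).symm

end Fermat.Agent.PoitouTate
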