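/-
**The existence theorem**: over a level `L` containing `μ_p`, the extension by the `p`-th roots of
all elements with valuations divisible by `p` outside `S` has norm group `p C_S(L)`.

The norm index is bounded below by the number of Kummer characters (class module), and
`[C : p C]` is bounded above by that number: the count of the local powers, of the `S`-units, and
the same bound applied to the layer split at `S`.
-/
import Fermat.Agent.PoitouTate.ClassExistenceKummer
import Fermat.Agent.PoitouTate.ClassExistenceCount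

set_option autoImplicit false
set_option linter.style.haveILetI false

open ExtCitation

noncomputable section

namespace Fermat.Agent.PoitouTate

local notation "Qb" => AlgebraicClosure ℚ

variable {p : ℕ} [hp : Fact p.Prime] {S : Finset Nat.Primes} {L : IntermediateField ℚ Qb}

/-- The relative norm, on the fixed classes, as a homomorphism. -/
theorem exists_relNormHom (S : Finset Nat.Primes) (U W : Subgroup GQ)
    [Finite (↥U ⧸ W.subgroupOf U)] :
    ∃ R : ↥(clsLev S W) →+ Cls S, (∀ c, R c = relNorm U W (c : Cls S)) ∧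
      ∀ f : J S, (∀ s ∈ W, s • f = f) → relNorm U W (clsMk S f) = clsMk S (relNorm U W f) := by
  haveI := Fintype.ofFinite (↥U ⧸ W.subgroupOf U)
  refine ⟨AddMonoidHom.mk' (fun c : ↥(clsLev S W) => relNorm U W (c : Cls S)) fun a b => ?_,
    fun _ => rfl, fun f hf => ?_⟩
  · have h := isTransversal_out U W
    rw [AddSubgroup.coe_add, relNorm_eq_sum h (add_mem a.2 b.2 : (a : Cls S) + b ∈ clsLev S W), relNorm_eq_sum h a.2,
      relNorm_eq_sum h b.2, ← Finset.sum_add_distrib]
    simp [smul_add]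
  · have h := isTransversal_out U W
    rw [relNorm_eq_sum h (fun s hs => by rw [smul_clsMk, hf s hs] : clsMk S f ∈ clsLev S W),
      relNorm_eq_sum h (hf : f ∈ fixedPts W (J S)), map_sum]
    exact Finset.sum_congr rfl fun i _ => smul_clsMk S _ f

/-- The class of an idele of a level, among all classes. -/
def clsJ (S : Finset Nat.Primes) (L : IntermediateField ℚ Qb) : jLev S L →+ Cls S :=
  (clsMk S).comp (jLev S L).subtype

omit hp in
theorem relIndex_map_clsJ (hS : S.Nonempty) (hL : IsLvl S L) {Y : AddSubgroup (jLev S L)} :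
    (Y.map (clsJ S L)).relIndex (clsLev S L.fixingSubgroup) = (Y ⊔ prinIn S L).index := by
  have hker : (clsJ S L).ker = prinIn S L := by
    ext f
    rw [AddMonoidHom.mem_ker, prinIn, AddSubgroup.mem_addSubgroupOf]
    exact QuotientAddGroup.eq_zero_iff (f : J S)
  have htop : (⊤ : AddSubgroup (jLev S L)).map (clsJ S L) = clsLev S L.fixingSubgroup := by
    ext c
    constructor
    · rintro ⟨f, -, rfl⟩
      exact (clsHom S L f).2
    · intro hc
      obtain ⟨f, hf⟩ := clsHom_surjective hS hL ⟨c, hc⟩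
      exact ⟨f, trivial, congrArg Subtype.val hf⟩
  rw [← htop, AddSubgroup.relIndex_map_map, hker, top_sup_eq, AddSubgroup.relIndex_top_right]

omit hp in
theorem stable_pMul {σ : GQ} [L.fixingSubgroup.Normal] {x : jLev S L} (hx : x ∈ pMul (jLev S L) p) :
    (⟨σ • (x : J S), smul_mem_fixedPts σ x.2⟩ : jLev S L) ∈ pMul (jLev S L) p := by
  obtain ⟨v, rfl⟩ := mem_pMul.1 hx
  exact mem_pMul.2 ⟨⟨σ • (v : J S), smul_mem_fixedPts σ v.2⟩,
    Subtype.ext (map_nsmul (DistribSMul.toAddMonoidHom (J S) σ) p (v : J S)).symm⟩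

omit hp in
theorem stable_prinIn {σ : GQ} [L.fixingSubgroup.Normal] {x : jLev S L} (hx : x ∈ prinIn S L) :
    (⟨σ • (x : J S), smul_mem_fixedPts σ x.2⟩ : jLev S L) ∈ prinIn S L := by
  obtain ⟨a, ha⟩ := hx
  exact ⟨σ a, ha.smul σ⟩

omit hp in
theorem map_subtype_finIn :
    (finIn S L).map (jLev S L).subtype = locJ (T := S) L.fixingSubgroup := by
  ext f
  constructor
  · rintro ⟨f, hf, rfl⟩
    exact ⟨f.2, hf⟩
  · exact fun hf => ⟨⟨f, hf.1⟩, hf.2, rfl⟩

omit hp in
theorem map_subtype_units :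
    (prinIn S L ⊓ finIn S L).map (jLev S L).subtype =
      locJ (T := S) L.fixingSubgroup ⊓ Prin S := by
  ext f
  constructor
  · rintro ⟨f, hf, rfl⟩
    exact ⟨⟨f.2, hf.2⟩, hf.1⟩
  · exact fun hf => ⟨⟨f, hf.1.1⟩, ⟨hf.2, hf.1.2⟩, rfl⟩

omit hp in
theorem relIndex_nsmul_subtype (Y : AddSubgroup (jLev S L)) :
    ((Y.map (jLev S L).subtype).map (nsmulAddMonoidHom p)).relIndex (Y.map (jLev S L).subtype) =
      (Y.map (nsmulAddMonoidHom p)).relIndex Y := by
  rw [← AddSubgroup.relIndex_map_map_of_injective (f := (jLev S L).subtype) _ _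
    Subtype.val_injective, AddSubgroup.map_map, AddSubgroup.map_map]
  rfl

omit hp in
theorem index_finIn_sup_prinIn_ne_zero (hL : IsLvl S L) :
    (finIn S L ⊔ prinIn S L).index ≠ 0 := by
  haveI := finite_quotient_unitJ_sup_prinLev hL (le_refl L.fixingSubgroup) (T := S)
  refine fun h0 => (AddSubgroup.index_ne_zero_of_finite
    (H := (unitJ L.fixingSubgroup ⊔ prinLev L.fixingSubgroup).addSubgroupOf (jLev S L))) ?_
  refine Nat.eq_zero_of_zero_dvd (h0 ▸ AddSubgroup.index_dvd_of_le ?_)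
  intro x hx
  obtain ⟨a, ha, b, hb, hab⟩ := AddSubgroup.mem_sup.1 (AddSubgroup.mem_addSubgroupOf.1 hx)
  rw [show x = (⟨a, ha.1⟩ : jLev S L) + ⟨b, hb.1⟩ from Subtype.ext hab.symm]
  exact AddSubgroup.add_mem_sup (ha.2.1 : (⟨a, ha.1⟩ : jLev S L) ∈ finIn S L)
    (hb.2 : (⟨b, hb.1⟩ : jLev S L) ∈ prinIn S L)

/-- **The existence theorem.** -/
theorem existenceTheorem (hp2 : p ≠ 2) (hpS : pPrime p ∈ S) (hcm : LayerClassModule p S) :
    ExistenceTheorem p S := by
  intro L hL hμ
  have hp3 : 2 < p := lt_of_le_of_ne hp.out.two_le (Ne.symm hp2)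
  have hS : S.Nonempty := ⟨_, hpS⟩
  haveI := hL.normal
  set P := prinIn S L
  set Fi := finIn S L
  set pA := pMul (jLev S L) p
  have hsat : ∀ x : jLev S L, p • x ∈ Fi → x ∈ Fi := finIn_saturated hp.out.ne_zero
  have hFP : (Fi ⊔ P).index ≠ 0 := index_finIn_sup_prinIn_ne_zero hL
  obtain ⟨hje, he0⟩ := locJ_index_le_units_sq hL hp3 hpS hμ
  rw [← map_subtype_units, relIndex_nsmul_subtype] at hje he0
  rw [← map_subtype_finIn, relIndex_nsmul_subtype] at hje
  have hj0 : (Fi.map (nsmulAddMonoidHom p)).relIndex Fi ≠ 0 := by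
    rw [← relIndex_nsmul_subtype, map_subtype_finIn, ← natCard_mulPair_coh_addSubgroup,
      natCard_locJ_mod_pow hL (le_refl _) hpS hμ]
    exact pow_ne_zero _ hp.out.ne_zero
  have hc0 : (pA ⊔ Fi ⊔ P).index ≠ 0 := fun h0 => hFP (Nat.eq_zero_of_zero_dvd
    (h0 ▸ AddSubgroup.index_dvd_of_le (sup_le_sup_right le_sup_right P)))
  have hv0 : (P.map (nsmulAddMonoidHom p)).relIndex (radicals P Fi p) ≠ 0 := by
    rw [relIndex_radicals P Fi p hsat hFP]
    exact mul_ne_zero he0 hc0
  have hw0 : (P.map (nsmulAddMonoidHom p)).relIndex (P ⊓ pA) ≠ 0 := by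
    refine fun h0 => hv0 ?_
    rw [← AddSubgroup.relIndex_mul_relIndex (P.map (nsmulAddMonoidHom p)) (P ⊓ pA)
      (radicals P Fi p) (le_inf (map_nsmul_le P p) (map_nsmul_le_pMul P p))
      (inf_le_inf_left P le_sup_left), h0, zero_mul]
  -- the layer split at `S`
  have hw : (P.map (nsmulAddMonoidHom p)).relIndex (P ⊓ pA) ≤ (pA ⊔ Fi ⊔ P).index := by
    obtain ⟨K, hLK, hK, hKfix⟩ := exists_kummer_level (X := P ⊓ pA) hL hμ hS hpS inf_le_left
      (inf_le_right.trans le_sup_left) hw0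
      fun σ x hx => ⟨_, ⟨stable_prinIn (σ := σ) hx.1, stable_pMul (σ := σ) hx.2⟩, rfl⟩
    rw [← relIndex_map_clsJ hS hL]
    haveI := hK.finite_gal
    haveI := finite_relQuotient (W := K.fixingSubgroup) L.fixingSubgroup
    obtain ⟨R, hR, hcomm⟩ := exists_relNormHom S L.fixingSubgroup K.fixingSubgroup
    refine relIndex_le_of_kummer hL hμ hS hcm inf_le_left hK hKfix _ (fun c hc => ?_)
      (fun c hc => ?_) (by rw [relIndex_map_clsJ hS hL]; exact hc0) hw0
    · obtain ⟨f, hf⟩ := clsHom_surjective hS hL ⟨c, hc⟩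
      exact ⟨p • f, AddSubgroup.mem_sup_left (mem_pMul.2 ⟨f, rfl⟩), by
        rw [map_nsmul, show clsJ S L f = c from congrArg Subtype.val hf]⟩
    · obtain ⟨x, hx, rfl⟩ := hc
      obtain ⟨_, hu, v, hv, rfl⟩ := AddSubgroup.mem_sup.1 hx
      obtain ⟨u, rfl⟩ := mem_pMul.1 hu
      obtain ⟨d, hd, hdv⟩ := exists_relNorm_of_split hμ (inf_le_right) hK hKfix v hv
      refine ⟨clsJ S L u, (clsHom S L u).2, clsMk S d, fun s hs => by rw [smul_clsMk, hd s hs], ?_⟩
      rw [map_add, map_nsmul, hcomm d hd, hdv]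
      rfl
  have hxv := index_le_radicals P Fi p hsat hFP hw hje he0
  have hx0 : (pA ⊔ P).index ≠ 0 := by
    intro h0
    have h1 := index_mul_radicals P Fi p hsat
    rw [h0, zero_mul] at h1
    exact mul_ne_zero (mul_ne_zero hc0 hj0) hw0 h1.symm
  -- the layer of all radicals
  obtain ⟨K, hLK, hK, hKfix⟩ := exists_kummer_level (X := radicals P Fi p) hL hμ hS hpS inf_le_left
    inf_le_right hv0 fun σ x hx => by
      obtain ⟨a, ha, b, hb, hab⟩ := AddSubgroup.mem_sup.1 hx.2
      refine ⟨⟨σ • (x : J S), smul_mem_fixedPts σ x.2⟩, ⟨stable_prinIn (σ := σ) hx.1, ?_⟩, rfl⟩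
      have e : (⟨σ • (x : J S), smul_mem_fixedPts σ x.2⟩ : jLev S L) =
          ⟨σ • (a : J S), smul_mem_fixedPts σ a.2⟩ + ⟨σ • (b : J S), smul_mem_fixedPts σ b.2⟩ :=
        Subtype.ext (by rw [← hab]; exact smul_add σ (a : J S) (b : J S))
      rw [e]
      exact AddSubgroup.add_mem_sup (stable_pMul (σ := σ) ha)
        (show (⟨σ • (b : J S), smul_mem_fixedPts σ b.2⟩ : jLev S L) ∈ finIn S L from
          fun q g => hb q (g * σ))
  refine ⟨K, hLK, hK, ?_⟩
  haveI := hK.finite_gal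
  haveI := finite_relQuotient (W := K.fixingSubgroup) L.fixingSubgroup
  obtain ⟨R, hR, -⟩ := exists_relNormHom S L.fixingSubgroup K.fixingSubgroup
  set pC := pA.map (clsJ S L)
  set C := clsLev S L.fixingSubgroup
  set B := pC ⊔ R.range
  have hB : B ≤ C := by
    refine sup_le ?_ ?_
    · rintro _ ⟨f, -, rfl⟩
      exact (clsHom S L f).2
    · rintro _ ⟨c, rfl⟩
      rw [hR]
      exact relNorm_mem c.2
  have hidx : pC.relIndex C = (pA ⊔ P).index := relIndex_map_clsJ hS hL
  have hmul := AddSubgroup.relIndex_mul_relIndex pC B C le_sup_left hB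
  have hBfin : B.relIndex C ≠ 0 := fun h0 => hx0 (by rw [← hidx, ← hmul, h0, mul_zero])
  have hlow := relIndex_le_of_kummer hL hμ hS hcm inf_le_left hK hKfix B
    (fun c hc => by
      obtain ⟨f, hf⟩ := clsHom_surjective hS hL ⟨c, hc⟩
      refine AddSubgroup.mem_sup_left ⟨p • f, mem_pMul.2 ⟨f, rfl⟩, ?_⟩
      rw [map_nsmul, show clsJ S L f = c from congrArg Subtype.val hf])
    (fun c hc => by
      obtain ⟨_, ⟨_, hu, rfl⟩, _, ⟨w, rfl⟩, rfl⟩ := AddSubgroup.mem_sup.1 hc
      obtain ⟨u, rfl⟩ := mem_pMul.1 hu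
      exact ⟨clsJ S L u, (clsHom S L u).2, w, w.2, by rw [map_nsmul, hR]⟩)
    hBfin hv0
  have hone : pC.relIndex B = 1 := by
    have h1 : pC.relIndex B * B.relIndex C ≤ 1 * B.relIndex C := by
      rw [hmul, hidx, one_mul]
      exact hxv.trans hlow
    have h2 := Nat.le_of_mul_le_mul_right h1 (Nat.pos_of_ne_zero hBfin)
    have h3 : pC.relIndex B ≠ 0 := fun h0 => hx0 (by rw [← hidx, ← hmul, h0, zero_mul])
    omega
  intro c hc
  obtain ⟨_, hu, hue⟩ := AddSubgroup.relIndex_eq_one.1 hone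
    (AddSubgroup.mem_sup_right (⟨⟨c, hc⟩, hR _⟩ : relNorm L.fixingSubgroup K.fixingSubgroup c ∈ R.range))
  obtain ⟨u, rfl⟩ := mem_pMul.1 hu
  exact ⟨clsJ S L u, (clsHom S L u).2, 0, zero_mem _, by rw [← hue, map_nsmul, add_zero]⟩

end Fermat.Agent.PoitouTate
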