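/-
The count for the existence theorem: the index of the `p`-th multiples in the ideles supported at
`S` is at most the square of that index in the `S`-units.
-/
import Fermat.Agent.PoitouTate.IdelePlaces
import Fermat.Agent.PoitouTate.IdeleClassHerbrand

set_option autoImplicit false
set_option linter.style.haveILetI false

noncomputable section

namespace Fermat.Agent.PoitouTate

open NumberField

local notation "Qb" => AlgebraicClosure ℚ

attribute [local instance] locCosetAction famValAction

/-- The index of the `p`-th multiples in a finitely generated group with `p`-torsion. -/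
theorem pow_le_index_range_nsmul {M : Type} [AddCommGroup M] [Module.Finite ℤ M] {p : ℕ}
    (hp : p.Prime) (z : M) (hz : z ≠ 0) (hpz : p • z = 0) :
    p ^ (Module.finrank ℤ M + 1) ≤ (nsmulAddMonoidHom (α := M) p).range.index ∧
      (nsmulAddMonoidHom (α := M) p).range.index ≠ 0 := by
  obtain ⟨hP, he⟩ := herbrand_trivial (mulPair p M) hp.ne_zero (fun _ => rfl) (fun _ => rfl)
  refine ⟨?_, by rw [← natCard_mulPair_coh]; exact hP.1⟩
  have h0 : p ≤ Nat.card (nsmulAddMonoidHom (α := M) p).ker := by
    haveI : Finite (nsmulAddMonoidHom (α := M) p).ker :=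
      finite_of_forall_exists_nsmul _ fun x hx => ⟨p, hp.ne_zero, hx⟩
    have hord : addOrderOf z = p := by
      haveI := Fact.mk hp
      exact addOrderOf_eq_prime hpz hz
    calc p = Nat.card (AddSubgroup.zmultiples z) := by rw [Nat.card_zmultiples, hord]
      _ ≤ _ := AddSubgroup.card_le_of_le (AddSubgroup.zmultiples_le.2 hpz)
  rw [EndPair.herbrand, natCard_mulPair_swap, div_eq_iff (Nat.cast_ne_zero.2 (by
    rw [← natCard_mulPair_swap]; exact hP.2))] at he
  have he' : Nat.card (mulPair p M).Coh =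
      p ^ Module.finrank ℤ M * Nat.card (nsmulAddMonoidHom (α := M) p).ker := by exact_mod_cast he
  rw [← natCard_mulPair_coh, he', pow_succ]
  exact Nat.mul_le_mul_left _ h0

variable {S : Finset Nat.Primes} {L : IntermediateField ℚ Qb} {p : ℕ} [hp : Fact p.Prime]

/-- **The count.** -/
theorem locJ_index_le_units_sq (hL : IsLvl S L) (hp2 : 2 < p) (hpS : ExtCitation.pPrime p ∈ S)
    (hμ : ∀ s ∈ L.fixingSubgroup, ExtCitation.cycloChar p s = 1) :
    ((locJ (T := S) L.fixingSubgroup).map (nsmulAddMonoidHom p)).relIndex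
        (locJ (T := S) L.fixingSubgroup) ≤
      (((locJ (T := S) L.fixingSubgroup ⊓ Prin S).map (nsmulAddMonoidHom p)).relIndex
        (locJ (T := S) L.fixingSubgroup ⊓ Prin S)) ^ 2 ∧
    ((locJ (T := S) L.fixingSubgroup ⊓ Prin S).map (nsmulAddMonoidHom p)).relIndex
        (locJ (T := S) L.fixingSubgroup ⊓ Prin S) ≠ 0 := by
  classical
  set U := L.fixingSubgroup with hU
  set K0 := IntermediateField.fixedField U with hK0
  have hS : S.Nonempty := ⟨_, hpS⟩
  haveI := hL.unramified.1
  haveI := finite_placeIdx (T := S) hL (le_refl U)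
  letI := Fintype.ofFinite (PlaceIdx S U)
  haveI := numberField_fixedField hL (le_refl U)
  haveI := isTotallyComplex_fixedField hL (le_refl U) hp2 hμ
  obtain ⟨V, hVsurj, hV⟩ := exists_locJVal (T := S) hL (le_refl U)
  obtain ⟨φ, hφinj, hφ, hker⟩ := exists_unitsToUnitJ hL (le_refl U) hS
  let M : AddSubgroup (J S) := locJ U ⊓ Prin S
  let val : M →ₗ[ℤ] (PlaceIdx S U → ℤ) :=
    (V.comp (AddSubgroup.inclusion (inf_le_left : M ≤ locJ U))).toIntLinearMap
  have hφM : ∀ u, (φ u : J S) ∈ M := fun u =>
    ⟨⟨(φ u).2.1, (φ u).2.2.1⟩, ⟨_, hφ u⟩⟩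
  let ι : Additive (𝓞 K0)ˣ →ₗ[ℤ] M :=
    (AddMonoidHom.mk' (fun u => (⟨(φ u : J S), hφM u⟩ : M))
      fun u v => Subtype.ext (congrArg (fun f : unitJ (T := S) U => (f : J S)) (map_add φ u v))).toIntLinearMap
  have hιinj : Function.Injective ι := fun u v huv =>
    hφinj (Subtype.ext (congrArg (fun m : M => (m : J S)) huv))
  have hkerval : LinearMap.ker val = LinearMap.range ι := by
    ext m
    rw [LinearMap.mem_ker]
    constructor
    · intro hm
      have hunit : (m : J S) ∈ unitJ U := (hV _).1 hm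
      obtain ⟨u, hu⟩ := (hker ⟨_, hunit⟩).1 ((clsMk_eq_zero_iff S).2 m.2.2)
      exact ⟨u, Subtype.ext (congrArg (fun f : unitJ (T := S) U => (f : J S)) hu)⟩
    · rintro ⟨u, rfl⟩
      exact (hV _).2 (φ u).2
  haveI : Module.Finite ℤ (LinearMap.range ι) := Module.Finite.range ι
  haveI : Module.Finite ℤ (LinearMap.ker val) := hkerval ▸ inferInstance
  haveI : Module.Finite ℤ (M ⧸ LinearMap.ker val) :=
    Module.Finite.equiv val.quotKerEquivRange.symm
  haveI : Module.Finite ℤ M := Module.Finite.of_submodule_quotient (LinearMap.ker val)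
  have hrank : Fintype.card (PlaceIdx S U) + Module.finrank ℤ (Additive (𝓞 K0)ˣ) ≤
      Module.finrank ℤ M := by
    rw [← Submodule.finrank_quotient_add_finrank (LinearMap.ker val),
      val.quotKerEquivRange.finrank_eq, hkerval,
      ← (LinearEquiv.ofInjective ι hιinj).finrank_eq]
    refine Nat.add_le_add_right (le_of_eq ?_) _
    -- a multiple of every vector is attained, by finiteness of the class number
    haveI := finite_quotient_unitJ_sup_prinLev hL (le_refl U) (T := S)
    have htors : Module.IsTorsion ℤ ((PlaceIdx S U → ℤ) ⧸ LinearMap.range val) := by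
      intro x
      obtain ⟨m, rfl⟩ := Submodule.Quotient.mk_surjective _ x
      obtain ⟨f, hf⟩ := hVsurj m
      let A := fixedPts U (J S)
      let N := (unitJ U ⊔ prinLev U).addSubgroupOf A
      set n := Nat.card (A ⧸ N) with hn
      have hn0 : n ≠ 0 := Nat.card_pos.ne'
      have hmem : (n • (⟨(f : J S), f.2.1⟩ : A)) ∈ N := by
        rw [← QuotientAddGroup.eq_zero_iff, QuotientAddGroup.mk_nsmul]
        exact card_nsmul_eq_zero'
      obtain ⟨a, ha, P, hP, haP⟩ := AddSubgroup.mem_sup.1 (AddSubgroup.mem_addSubgroupOf.1 hmem)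
      have haP' : a + P = n • (f : J S) := haP
      have hPM : P ∈ M := by
        have hP' : P ∈ locJ U := by
          have : P = n • (f : J S) - a := by rw [← haP']; abel
          rw [this]
          exact sub_mem (nsmul_mem f.2 n) ⟨ha.1, ha.2.1⟩
        exact ⟨hP', hP.2⟩
      have hval : val ⟨P, hPM⟩ = (n : ℤ) • m := by
        let a' : locJ (T := S) U := ⟨a, ha.1, ha.2.1⟩
        have e : n • f = a' + (⟨P, hPM.1⟩ : locJ (T := S) U) := Subtype.ext haP'.symm
        rw [natCast_zsmul, ← hf, ← map_nsmul, e, map_add, (hV a').2 ha, zero_add]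
        rfl
      refine ⟨⟨(n : ℤ), mem_nonZeroDivisors_of_ne_zero (by exact_mod_cast hn0)⟩, ?_⟩
      rw [Submonoid.smul_def]
      show (n : ℤ) • (Submodule.Quotient.mk m : (PlaceIdx S U → ℤ) ⧸ LinearMap.range val) = 0
      rw [← Submodule.Quotient.mk_smul, Submodule.Quotient.mk_eq_zero]
      exact ⟨⟨P, hPM⟩, hval⟩
    have h := Submodule.finrank_quotient_add_finrank (LinearMap.range val)
    rw [Module.finrank_eq_zero_iff_isTorsion.2 htors, zero_add, Module.finrank_fintype_fun_eq_card] at h
    exact h.symm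
  -- a root of unity
  haveI : NeZero p := ⟨hp.out.ne_zero⟩
  obtain ⟨ζ, hζ⟩ := HasEnoughRootsOfUnity.exists_primitiveRoot Qb p
  have hζL : ζ ∈ L := by
    rw [← InfiniteGalois.fixedField_fixingSubgroup L, IntermediateField.mem_fixedField_iff]
    exact fun s hs => apply_eq_self_of_cycloChar_eq_one (hμ s hs) hζ.pow_eq_one
  obtain ⟨Z, hZ, -, hZfix⟩ := exists_principal hL hζL (hζ.ne_zero hp.out.ne_zero)
  have hpZ : p • Z = 0 := by
    refine Subtype.ext ?_
    have h1 := hZ.zsmul (p : ℤ)
    rw [zpow_natCast, hζ.pow_eq_one, natCast_zsmul] at h1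
    exact h1.eq isPrincipalOf_one
  have hZM : Z ∈ M := by
    refine ⟨⟨fun s hs => hZfix s ((IntermediateField.mem_fixingSubgroup_iff _ _).1 hs ζ hζL),
      fun q g => ?_⟩, ⟨ζ, hZ⟩⟩
    have h : p • (Z : Amb S).ord q g = 0 :=
      congrArg (fun f : J S => (f : Amb S).ord q g) hpZ
    rw [smul_eq_zero] at h
    exact h.resolve_left hp.out.ne_zero
  obtain ⟨he, he0⟩ := pow_le_index_range_nsmul (M := M) hp.out ⟨Z, hZM⟩
    (fun h => hζ.ne_one hp.out.one_lt (hZ.elem_eq hS
      (by rw [show (Z : Amb S) = 0 from congrArg (fun m : M => ((m : J S) : Amb S)) h]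
          exact isPrincipalOf_one)))
    (Subtype.ext hpZ)
  rw [← natCard_mulPair_coh, natCard_mulPair_coh_addSubgroup] at he he0
  refine ⟨?_, he0⟩
  rw [← natCard_mulPair_coh_addSubgroup, natCard_locJ_mod_pow hL (le_refl U) hpS hμ]
  refine le_trans ?_ (Nat.pow_le_pow_left he 2)
  rw [← pow_mul]
  refine Nat.pow_le_pow_right hp.out.pos ?_
  have hidx : U.index = Module.finrank ℚ K0 := by
    rw [IntermediateField.finrank_eq_fixingSubgroup_index, fixingSubgroup_fixedField_of_le hL le_rfl]
  rw [hidx, ← finrank_units_of_isTotallyComplex (L := K0), Nat.card_eq_fintype_card]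
  omega

end Fermat.Agent.PoitouTate
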