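import Mathlib.GroupTheory.GroupAction.Basic
import Mathlib.Algebra.Group.Pi.Basic
import Mathlib.Algebra.GroupWithZero.Action.Defs
import Mathlib.Tactic.Abel

/-!
# One-cocycles valued in functions on a set with group action

A cocycle valued in `X → A` is a coboundary as soon as it is one on every stabiliser.
-/

set_option autoImplicit false

namespace Fermat.Agent.PoitouTate

variable {G X A : Type*} [Group G] [MulAction G X] [AddCommGroup A] [DistribMulAction G A]

/-- Shapiro's lemma in degree one, for the module of all functions `X → A`. -/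
theorem exists_primitive_of_stabilizers (c : G → X → A)
    (hc : ∀ g h x, c (g * h) x = g • c h (g⁻¹ • x) + c g x)
    (hloc : ∀ x, ∃ a : A, ∀ h ∈ MulAction.stabilizer G x, c h x = h • a - a) :
    ∃ φ : X → A, ∀ g x, c g x = g • φ (g⁻¹ • x) - φ x := by
  classical
  -- choose a representative in each orbit
  let rep : X → X := fun x => (Quotient.mk (MulAction.orbitRel G X) x).out
  have hrep : ∀ x, ∃ g : G, g • rep x = x := fun x => by
    have h : (MulAction.orbitRel G X).r (rep x) x :=
      Quotient.exact (Quotient.out_eq (Quotient.mk (MulAction.orbitRel G X) x))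
    obtain ⟨g, hg⟩ := MulAction.orbitRel_apply.mp (Setoid.symm' _ h)
    exact ⟨g, hg⟩
  have hrep_smul : ∀ (g : G) x, rep (g • x) = rep x := fun g x => by
    simp only [rep]
    congr 1
    exact Quotient.sound (MulAction.mem_orbit x g)
  choose γ hγ using hrep
  choose a ha using hloc
  let φ : X → A := fun x => γ x • a (rep x) - c (γ x) x
  -- any element carrying the representative to `x` computes `φ`
  have key : ∀ g x, g • rep x = x → φ x = g • a (rep x) - c g x := by
    intro g x hg
    have hh : (γ x)⁻¹ * g ∈ MulAction.stabilizer G (rep x) := by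
      rw [MulAction.mem_stabilizer_iff, mul_smul, hg, inv_smul_eq_iff, hγ]
    have h2 := hc (γ x) ((γ x)⁻¹ * g) x
    rw [mul_inv_cancel_left, inv_smul_eq_iff.mpr (hγ x).symm, ha _ _ hh, smul_sub, ← mul_smul,
      mul_inv_cancel_left] at h2
    show γ x • a (rep x) - c (γ x) x = _
    rw [h2]; abel
  refine ⟨φ, fun g x => ?_⟩
  have hg : (g * γ (g⁻¹ • x)) • rep x = x := by
    rw [mul_smul, ← hrep_smul g⁻¹ x, hγ, smul_inv_smul]
  rw [key _ x hg, hc, show φ (g⁻¹ • x) = γ (g⁻¹ • x) • a (rep x) - c (γ (g⁻¹ • x)) (g⁻¹ • x) by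
    simp only [φ, hrep_smul], smul_sub, ← mul_smul]
  abel

end Fermat.Agent.PoitouTate
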