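import Fermat.Agent.PoitouTate.ClassFundamental

/-!
# Coboundaries of carry cocycles and corestriction
-/

set_option autoImplicit false

open ExtCitation groupCohomology

noncomputable section

namespace Fermat.Agent.PoitouTate

section Cores

variable {Δ : Type} [Group Δ] {C : Type} [AddCommGroup C] [DistribMulAction Δ C]
  (H : Subgroup Δ) [Fintype (Δ ⧸ H)]

theorem mem_B2_zsmul {k : ℤ} {f : Δ × Δ → C} (hf : IsCoboundary₂ f) :
    IsCoboundary₂ fun x => k • f x :=
  mem_B2.1 (zsmul_mem (mem_B2.2 hf) k)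

theorem coresFun_sub (f f' : H × H → C) :
    coresFun H (f - f') = coresFun H f - coresFun H f' := by
  funext x
  simp [coresFun, Finset.sum_sub_distrib, smul_sub]

/-- An integral cocycle times a fixed element, corestricted. -/
theorem carry_cores {c : Δ × Δ → ℤ} (hc : ∀ g h j, c (g * h, j) + c (g, h) = c (h, j) + c (g, h * j))
    {A : C} (hA : ∀ h ∈ H, h • A = A) :
    IsCoboundary₂ fun x => c x • (∑ i : Δ ⧸ H, i.out • A) -
      coresFun H (fun y => c ((y.1 : Δ), (y.2 : Δ)) • A) x := by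
  letI triv : DistribMulAction Δ ℤ :=
    { smul := fun _ z => z
      one_smul := fun _ => rfl
      mul_smul := fun _ _ _ => rfl
      smul_zero := fun _ => rfl
      smul_add := fun _ _ _ => rfl }
  have hid : ∀ (g : Δ) (z : ℤ), g • z = z := fun _ _ => rfl
  have hcoc : IsCocycle₂ c := fun g h j => by rw [hid]; exact hc g h j
  have h := indHom_cores (H := H) (g := zmultiplesHom C A) (fun g z => by
    rw [hid, zmultiplesHom_apply, smul_intMul, hA _ g.2]) hcoc
  have hf : (fun x => c x • (∑ i : Δ ⧸ H, i.out • A) -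
      coresFun H (fun y => c ((y.1 : Δ), (y.2 : Δ)) • A) x) = fun x => indHom H (zmultiplesHom C A) (c x) -
        coresFun H (fun y => zmultiplesHom C A (c ((y.1 : Δ), (y.2 : Δ)))) x := by
    funext x
    rw [indHom_apply, Finset.smul_sum]
    simp only [hid, zmultiplesHom_apply, smul_intMul]
  rw [hf]
  exact h

/-- A multiple of an integral cocycle times a fixed element which dies on the subgroup dies after
taking the trace of the element. -/
theorem carry_trace {c : Δ × Δ → ℤ} (hc : ∀ g h j, c (g * h, j) + c (g, h) = c (h, j) + c (g, h * j))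
    {A : C} (hA : ∀ h ∈ H, h • A = A) {k : ℤ}
    (hk : IsCoboundary₂ fun y : H × H => k • c ((y.1 : Δ), (y.2 : Δ)) • A) :
    IsCoboundary₂ fun x => k • c x • (∑ i : Δ ⧸ H, i.out • A) := by
  have h1 := mem_B2_zsmul (k := k) (carry_cores H hc hA)
  have h2 := coresFun_coboundary H hk
  rw [coresFun_zsmul] at h2
  have h3 := mem_B2.1 (add_mem (mem_B2.2 h1) (mem_B2.2 h2))
  have hf : (fun x => k • c x • (∑ i : Δ ⧸ H, i.out • A)) =
      (fun x => k • (c x • (∑ i : Δ ⧸ H, i.out • A) -
        coresFun H (fun y => c ((y.1 : Δ), (y.2 : Δ)) • A) x)) +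
      fun x => k • coresFun H (fun y => c ((y.1 : Δ), (y.2 : Δ)) • A) x := by
    funext x
    rw [Pi.add_apply, smul_sub, sub_add_cancel]
  rw [hf]
  exact h3

end Cores

variable {p : ℕ} [Fact p.Prime] {T : Finset Nat.Primes}
variable (h1 : CyclicH1 p T) (hidx : CyclicNormIndex p T)
include h1 hidx

/-- The value killed by a multiple of the carry class which is a coboundary. -/
theorem zsmul_psi_eq_zero_of_carry {a : ℕ} {K : IntermediateField ℚ (AlgebraicClosure ℚ)}
    (hK : IsLvl T K) [K.fixingSubgroup.Normal] (hcyc : ∀ s ∈ K.fixingSubgroup, cycloChar p s = 1)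
    (I : CyclotomicInvariant T (p ^ a)) (hM : K.fixingSubgroup ≤ I.theta.ker)
    {α : ↥(clsLev T (⊤ : Subgroup GQ))} {k : ℤ}
    (hcob : IsCoboundary₂ fun x =>
      k • (layerDigits I hM).cocycle (liftTop (M := K.fixingSubgroup) α) x) :
    k • I.psi α = 0 := by
  rcases eq_or_ne (p ^ a) 1 with h | hn1
  · haveI : Subsingleton (ZMod (p ^ a)) := by rw [h]; infer_instance
    exact Subsingleton.elim _ _
  have hn : p ^ a ≠ 0 := pow_ne_zero a (Fact.out : p.Prime).ne_zero
  have := hK.finite_gal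
  have hcl := cyclicLayers_of_level h1 hidx hK hcyc
  set d := layerDigits I hM
  set A := liftTop (M := K.fixingSubgroup) α
  set θ := layerChar I hM
  obtain ⟨x, hx⟩ := hcob
  have hker : ∀ g : θ.ker, d.e (g : GQ ⧸ K.fixingSubgroup) = 0 := fun g =>
    (layerDigits_eq_zero_iff I hM _).2 g.2
  have hc : ∀ g h : θ.ker, x ((g * h : θ.ker) : GQ ⧸ K.fixingSubgroup) = g • x h + x g := by
    intro g h
    have e := hx g h
    simp only [Digits.cocycle, carry_eq_zero d (Or.inl (hker g)), zero_smul, smul_zero] at e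
    rw [Subgroup.coe_mul, Subgroup.smul_def]
    linear_combination (norm := abel) -e
  let P : Sylow p θ.ker := default
  obtain ⟨x0, hx0⟩ := hcl.h1_all ((P : Subgroup θ.ker).map θ.ker.subtype) (P.2.map _)
    (fun g => x g) fun g h => by
      obtain ⟨-, g', -, rfl⟩ := g
      obtain ⟨-, h', -, rfl⟩ := h
      exact hc g' h'
  obtain ⟨y, hy⟩ := exists_primitive_index (P : Subgroup θ.ker) (c := fun g : θ.ker => x g) hc (x := x0)
    fun g hg => hx0 ⟨_, Subgroup.mem_map_of_mem _ hg⟩
  set m := (P : Subgroup θ.ker).index with hm_def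
  let x' : GQ ⧸ K.fixingSubgroup → ↥(fixedPts K.fixingSubgroup (Cls T)) :=
    fun g => m • x g - (g • y - y)
  have hx' : ∀ g h, g • x' h - x' (g * h) + x' g = ((m : ℤ) * k * d.carry g h) • A := by
    intro g h
    rw [mul_assoc, mul_smul, natCast_zsmul, mul_smul]
    change g • (m • x h - (h • y - y)) - (m • x (g * h) - ((g * h) • y - y)) +
      (m • x g - (g • y - y)) = m • k • d.cocycle A (g, h)
    have e : g • x h - x (g * h) + x g = k • d.cocycle A (g, h) := hx g h
    have hns : ∀ z, g • (m • z) = m • g • z := fun z =>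
      map_nsmul (DistribSMul.toAddMonoidHom ↥(fixedPts K.fixingSubgroup (Cls T)) g) m z
    rw [← e, mul_smul, smul_sub, smul_sub, hns, smul_add, smul_sub m]
    abel
  have hx'0 : ∀ g : θ.ker, x' g = 0 := fun g => by
    change m • x g - ((g : GQ ⧸ K.fixingSubgroup) • y - y) = 0
    rw [← Subgroup.smul_def, hy, sub_self]
  have hright : ∀ g (h : θ.ker), x' (g * h) = x' g := fun g h => by
    have e := hx' g h
    rw [hx'0, smul_zero, carry_eq_zero d (Or.inr (hker h)), mul_zero, zero_smul] at e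
    linear_combination (norm := abel) -e
  have hleft : ∀ (h : θ.ker) g, (h : GQ ⧸ K.fixingSubgroup) • x' g = x' g := fun h g => by
    have e := hx' h g
    rw [hx'0, carry_eq_zero d (Or.inl (hker h)), mul_zero, zero_smul] at e
    have hconj : g⁻¹ * h * g ∈ θ.ker := by
      simpa using θ.normal_ker.conj_mem _ h.2 g⁻¹
    have e' := hright g ⟨_, hconj⟩
    rw [show g * (g⁻¹ * h * g) = h * g by group] at e'
    rw [e'] at e
    linear_combination (norm := abel) e
  obtain ⟨σ₀, hσ₀⟩ := I.theta_surjective (Multiplicative.ofAdd 1)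
  set σ : GQ ⧸ K.fixingSubgroup := QuotientGroup.mk σ₀
  have hσ : d.e σ = 1 % p ^ a := by
    change (Multiplicative.toAdd (I.theta σ₀)).val = _
    rw [hσ₀, toAdd_ofAdd, ZMod.val_one_eq_one_mod]
  have hend : x' (σ ^ p ^ a) = 0 := by
    refine hx'0 ⟨_, (layerDigits_eq_zero_iff I hM _).1 ?_⟩
    rw [d.e_pow hσ, Nat.mod_self]
  have hsum : ((m : ℤ) * k) • A = ∑ i ∈ Finset.range (p ^ a), σ ^ i • x' σ := by
    have e : ∀ i ∈ Finset.range (p ^ a), ((m : ℤ) * k * d.carry (σ ^ i) σ) • A =
        σ ^ i • x' σ - (x' (σ ^ (i + 1)) - x' (σ ^ i)) := fun i _ => by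
      rw [← hx', ← pow_succ]; abel
    have e' := Finset.sum_congr rfl e
    rw [← Finset.sum_smul, ← Finset.mul_sum, d.sum_carry hn hn1 hσ, mul_one,
      Finset.sum_sub_distrib, Finset.sum_range_sub (fun i => x' (σ ^ i)), hend, pow_zero,
      hx'0 ⟨1, one_mem _⟩, sub_zero, sub_zero] at e'
    exact e'
  have hlev : ((x' σ : fixedPts K.fixingSubgroup (Cls T)) : Cls T) ∈ clsLev T I.theta.ker :=
    fun s hs => congrArg Subtype.val (hleft ⟨QuotientGroup.mk s, hs⟩ σ)
  have hnorm : (((m : ℤ) * k) • α : clsLev T (⊤ : Subgroup GQ)) =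
      relNorm (A := Cls T) ⊤ I.theta.ker ((x' σ : fixedPts K.fixingSubgroup (Cls T)) : Cls T) := by
    rw [relNorm_cyclic (Subgroup.mem_top σ₀) (fun g => (Multiplicative.toAdd (I.theta g)).val)
      (fun g _ => ZMod.val_lt _) (fun g _ i hi => ?_) hlev, ← coe_sum_pow_smul, ← hsum]
    · rfl
    · rw [MonoidHom.mem_ker, map_mul, map_inv, map_pow, hσ₀, inv_mul_eq_one,
        ← ofAdd_nsmul, ← Equiv.eq_symm_apply, nsmul_one]
      refine ⟨fun h => ?_, fun h => ?_⟩
      · change i = (Multiplicative.toAdd (I.theta g)).val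
        rw [show Multiplicative.toAdd (I.theta g) = (i : ZMod (p ^ a)) from h.symm,
          ZMod.val_natCast_of_lt hi]
      · subst h
        exact ZMod.natCast_zmod_val _
  have hz := I.psi_norm _ hlev _ hnorm
  rw [map_zsmul, mul_smul, natCast_zsmul, nsmul_eq_mul] at hz
  exact ((ZMod.isUnit_iff_coprime m (p ^ a)).2 (((Fact.out : p.Prime).coprime_iff_not_dvd.2
    P.not_dvd_index).symm.pow_right a)).mul_right_eq_zero.1 hz

end Fermat.Agent.PoitouTate
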