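import Fermat.Agent.PoitouTate.LocalFields

/-!
# Cyclic layers of local fields, in terms of local values

`N` is an open subgroup of the local Galois group at `q`, `τ` normalises it and has order `n`
modulo `N`; `H = N ⊔ ⟨τ⟩`.
-/

set_option autoImplicit false
set_option linter.style.haveILetI false
set_option synthInstance.maxHeartbeats 200000

noncomputable section

namespace Fermat.Agent.PoitouTate

attribute [local instance] Units.mulDistribMulActionRight

variable {q : Nat.Primes}

/-- The hypotheses on a cyclic layer. -/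
structure IsCycLayer (N : Subgroup (LocGal q)) (τ : LocGal q) (n : ℕ) : Prop where
  level : IsLocLevel N
  pos : 0 < n
  conj_mem : ∀ s ∈ N, τ * s * τ⁻¹ ∈ N
  pow_mem : τ ^ n ∈ N
  pow_not_mem : ∀ i, 0 < i → i < n → τ ^ i ∉ N

theorem IsCycLayer.of_prime {N : Subgroup (LocGal q)} {τ : LocGal q} {p : ℕ} (hp : p.Prime)
    (hN : IsLocLevel N) (hconj : ∀ s ∈ N, τ * s * τ⁻¹ ∈ N) (h : τ ∉ N) (hpow : τ ^ p ∈ N) :
    IsCycLayer N τ p := by
  refine ⟨hN, hp.pos, hconj, hpow, fun i hi0 hip hmem => h ?_⟩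
  have hco : Nat.Coprime i p := ((hp.coprime_iff_not_dvd).2
    (fun hdvd => absurd (Nat.le_of_dvd hi0 hdvd) (not_le.2 hip))).symm
  have hb : (Int.gcd (i : ℤ) p : ℤ) = i * Nat.gcdA i p + p * Nat.gcdB i p := by
    rw [Int.gcd_natCast_natCast]; exact Nat.gcd_eq_gcd_ab i p
  rw [Int.gcd_natCast_natCast, hco.gcd_eq_one] at hb
  rw [← zpow_one τ, show (1 : ℤ) = i * Nat.gcdA i p + p * Nat.gcdB i p from mod_cast hb,
    zpow_add, zpow_mul, zpow_mul, zpow_natCast, zpow_natCast]
  exact N.mul_mem (N.zpow_mem hmem _) (N.zpow_mem hpow _)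

section

variable {N : Subgroup (LocGal q)} {τ : LocGal q} {n : ℕ} (h : IsCycLayer N τ n)
include h

theorem IsCycLayer.conj_mem_inv : ∀ s ∈ N, τ⁻¹ * s * τ ∈ N := by
  intro s hs
  have hpows : ∀ k : ℕ, ∀ s ∈ N, τ ^ k * s * (τ ^ k)⁻¹ ∈ N := by
    intro k
    induction k with
    | zero => simp
    | succ k ih =>
      intro s hs
      have := h.conj_mem _ (ih s hs)
      simpa [pow_succ', mul_assoc] using this
  have h1 := hpows (n - 1) ((τ ^ n)⁻¹ * (τ ^ n * s * (τ ^ n)⁻¹) * τ ^ n) (by simpa [mul_assoc] using hs)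
  have h2 : τ⁻¹ * s * τ = (τ ^ n)⁻¹ * (τ ^ (n - 1) * s * (τ ^ (n - 1))⁻¹) * τ ^ n := by
    obtain ⟨m, rfl⟩ := Nat.exists_eq_succ_of_ne_zero h.pos.ne'
    simp [pow_succ, mul_assoc]
  rw [h2]
  refine N.mul_mem (N.mul_mem (N.inv_mem h.pow_mem) ?_) h.pow_mem
  simpa [mul_assoc] using h1

theorem IsCycLayer.map_eq : (locField q N).map τ.toAlgHom = locField q N :=
  map_locField_eq h.conj_mem h.conj_mem_inv

/-- The induced automorphism of the fixed field. -/
def IsCycLayer.aut : locField q N ≃ₐ[ℚ_[(q : ℕ)]] locField q N :=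
  restrictAut _ τ h.map_eq

theorem IsCycLayer.coe_aut_pow (i : ℕ) (x : locField q N) :
    (((h.aut ^ i) x : locField q N) : PadicAlgCl (q : ℕ)) = (τ ^ i) (x : PadicAlgCl (q : ℕ)) := by
  induction i generalizing x with
  | zero => simp
  | succ i ih => rw [pow_succ, AlgEquiv.mul_apply, ih, pow_succ, AlgEquiv.mul_apply]; rfl

theorem IsCycLayer.aut_pow_eq_one_iff (i : ℕ) : h.aut ^ i = 1 ↔ τ ^ i ∈ N := by
  conv_rhs => rw [← h.level.fixingSubgroup_locField]
  rw [IntermediateField.mem_fixingSubgroup_iff]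
  constructor
  · intro he x hx
    rw [← h.coe_aut_pow i ⟨x, hx⟩, he, AlgEquiv.one_apply]
  · intro he
    refine AlgEquiv.ext fun x => Subtype.ext ?_
    rw [h.coe_aut_pow, he x x.2, AlgEquiv.one_apply]

theorem IsCycLayer.orderOf_aut : orderOf h.aut = n := by
  refine (orderOf_eq_iff h.pos).2 ⟨(h.aut_pow_eq_one_iff n).2 h.pow_mem, fun m hm hm0 => ?_⟩
  exact fun he => h.pow_not_mem m hm0 hm ((h.aut_pow_eq_one_iff m).1 he)

end

/-- The embedding of the units of a subfield into the local values. -/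
def valEmb (K : IntermediateField ℚ_[(q : ℕ)] (PadicAlgCl (q : ℕ))) :
    Additive Kˣ →+ LocVal q :=
  MonoidHom.toAdditive (Units.map (K.val : K →* PadicAlgCl (q : ℕ)))

theorem valEmb_injective (K : IntermediateField ℚ_[(q : ℕ)] (PadicAlgCl (q : ℕ))) :
    Function.Injective (valEmb K) := by
  intro x y hxy
  refine Additive.toMul.injective (Units.ext (Subtype.ext ?_))
  exact congrArg (fun z : LocVal q => ((Additive.toMul z : (PadicAlgCl (q : ℕ))ˣ) :
    PadicAlgCl (q : ℕ))) hxy

theorem coe_valEmb (K : IntermediateField ℚ_[(q : ℕ)] (PadicAlgCl (q : ℕ))) (x : Additive Kˣ) :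
    ((Additive.toMul (valEmb K x) : (PadicAlgCl (q : ℕ))ˣ) : PadicAlgCl (q : ℕ))
      = (((Additive.toMul x : Kˣ) : K) : PadicAlgCl (q : ℕ)) := rfl

theorem locVal_ext {x y : LocVal q}
    (h : ((Additive.toMul x : (PadicAlgCl (q : ℕ))ˣ) : PadicAlgCl (q : ℕ))
      = ((Additive.toMul y : (PadicAlgCl (q : ℕ))ˣ) : PadicAlgCl (q : ℕ))) : x = y :=
  Additive.toMul.injective (Units.ext h)

/-- The image of a group of units of a subfield. -/
def valSub (K : IntermediateField ℚ_[(q : ℕ)] (PadicAlgCl (q : ℕ))) (S : Subgroup Kˣ) :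
    AddSubgroup (LocVal q) :=
  S.toAddSubgroup.map (valEmb K)

theorem relIndex_valSub (K : IntermediateField ℚ_[(q : ℕ)] (PadicAlgCl (q : ℕ)))
    (S S' : Subgroup Kˣ) : (valSub K S).relIndex (valSub K S') = S.relIndex S' :=
  (AddSubgroup.relIndex_map_map_of_injective _ _ (valEmb_injective K)).trans
    Subgroup.relIndex_toAddSubgroup

theorem valSub_inf (K : IntermediateField ℚ_[(q : ℕ)] (PadicAlgCl (q : ℕ)))
    (S S' : Subgroup Kˣ) : valSub K (S ⊓ S') = valSub K S ⊓ valSub K S' := by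
  rw [valSub, map_inf (Subgroup.toAddSubgroup (G := Kˣ)), AddSubgroup.map_inf _ _ _ (valEmb_injective K)]
  rfl

theorem valSub_sup (K : IntermediateField ℚ_[(q : ℕ)] (PadicAlgCl (q : ℕ)))
    (S S' : Subgroup Kˣ) : valSub K (S ⊔ S') = valSub K S ⊔ valSub K S' := by
  rw [valSub, map_sup (Subgroup.toAddSubgroup (G := Kˣ)), AddSubgroup.map_sup]
  rfl

theorem valSub_top (N : Subgroup (LocGal q)) :
    valSub (locField q N) ⊤ = fixedVal q N := by
  ext x
  constructor
  · rintro ⟨y, -, rfl⟩ s hs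
    refine locVal_ext ?_
    rw [coe_locAct, coe_valEmb]
    exact mem_locField.1 ((Additive.toMul y : (locField q N)ˣ) : locField q N).2 s hs
  · intro hx
    have hmem : ((Additive.toMul x : (PadicAlgCl (q : ℕ))ˣ) : PadicAlgCl (q : ℕ)) ∈ locField q N :=
      mem_locField.2 fun s hs => by rw [← coe_locAct, hx s hs]
    exact ⟨Additive.ofMul (Units.mk0 ⟨_, hmem⟩ fun h0 =>
      (Additive.toMul x).ne_zero (congrArg Subtype.val h0)), trivial, locVal_ext rfl⟩

theorem valSub_normOneUnits (N : Subgroup (LocGal q)) [FiniteDimensional ℚ_[(q : ℕ)] (locField q N)] :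
    valSub (locField q N) (normOneUnits (locField q N)) = fixedVal q N ⊓ unitVal q := by
  rw [← valSub_top]
  ext x
  constructor
  · rintro ⟨y, hy, rfl⟩
    exact ⟨⟨y, trivial, rfl⟩, hy⟩
  · rintro ⟨⟨y, -, rfl⟩, hy⟩
    exact ⟨y, hy, rfl⟩

instance isUltrametricDist_field (K : IntermediateField ℚ_[(q : ℕ)] (PadicAlgCl (q : ℕ))) :
    IsUltrametricDist K :=
  ⟨fun x y z => dist_triangle_max (x : PadicAlgCl (q : ℕ)) y z⟩

section

variable {N : Subgroup (LocGal q)} {τ : LocGal q} {n : ℕ} (h : IsCycLayer N τ n)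
include h

/-- The Galois group of the layer. -/
abbrev IsCycLayer.gal : Subgroup (locField q N ≃ₐ[ℚ_[(q : ℕ)]] locField q N) :=
  Subgroup.zpowers h.aut

/-- The generator. -/
abbrev IsCycLayer.gen : h.gal := ⟨h.aut, Subgroup.mem_zpowers _⟩

theorem IsCycLayer.gen_spec : ∀ σ : h.gal, σ ∈ Subgroup.zpowers h.gen := by
  rintro ⟨σ, k, rfl⟩
  exact ⟨k, Subtype.ext (by simp)⟩

theorem IsCycLayer.isom (σ : h.gal) (x : locField q N) : ‖σ • x‖ = ‖x‖ := by
  obtain ⟨σ, k, rfl⟩ := σ
  haveI := h.level.finiteDimensional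
  obtain ⟨i, hi⟩ : ∃ i : ℕ, h.aut ^ i = h.aut ^ k := by
    have hn : (n : ℤ) ≠ 0 := by exact_mod_cast h.pos.ne'
    refine ⟨(k % n).toNat, ?_⟩
    have hk := zpow_mod_orderOf h.aut k
    conv at hk => lhs; arg 2; arg 2; rw [h.orderOf_aut]
    rw [← zpow_natCast, Int.toNat_of_nonneg (Int.emod_nonneg k hn), hk]
  show ‖(((h.aut ^ k) x : locField q N) : PadicAlgCl (q : ℕ))‖ = ‖(x : PadicAlgCl (q : ℕ))‖
  rw [← hi, h.coe_aut_pow, norm_locGal]

theorem IsCycLayer.valEmb_smul (x : Additive (locField q N)ˣ) :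
    valEmb (locField q N) (Additive.ofMul (h.gen • Additive.toMul x))
      = locAct q τ (valEmb _ x) :=
  locVal_ext rfl

theorem IsCycLayer.natCard_gal : Nat.card h.gal = n := by
  rw [Nat.card_zpowers, h.orderOf_aut]

theorem IsCycLayer.valEmb_norm [Fintype h.gal] (x : Additive (locField q N)ˣ) :
    valEmb (locField q N) (Additive.ofMul (unitsNorm h.gal (locField q N) (Additive.toMul x)))
      = normVal q τ n (valEmb _ x) := by
  haveI := h.level.finiteDimensional
  have hfin : IsOfFinOrder h.aut := isOfFinOrder_of_finite _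
  have hsum : valEmb (locField q N)
      (Additive.ofMul (∏ σ : h.gal, σ • Additive.toMul x))
      = ∑ σ : h.gal, valEmb (locField q N) (Additive.ofMul (σ • Additive.toMul x)) := by
    rw [ofMul_prod, map_sum]
  show valEmb (locField q N) (Additive.ofMul (∏ σ : h.gal, σ • Additive.toMul x)) = _
  rw [hsum, ← Fintype.sum_equiv ((finCongr h.orderOf_aut).symm.trans (finEquivZPowers hfin))
    (fun i : Fin n => locAct q (τ ^ (i : ℕ)) (valEmb _ x)) _ (fun i => ?_), normVal,
    AddMonoidHom.finsetSum_apply, Finset.sum_range]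
  refine locVal_ext ?_
  rw [coe_locAct]
  exact (h.coe_aut_pow i _).symm

theorem IsCycLayer.valSub_fixedUnits :
    valSub (locField q N) (fixedUnits h.gal (locField q N))
      = fixedVal q (N ⊔ Subgroup.zpowers τ) := by
  ext x
  constructor
  · rintro ⟨y, hy, rfl⟩
    intro s hs
    let St : Subgroup (LocGal q) :=
      { carrier := {s | locAct q s (valEmb _ y) = valEmb _ y}
        one_mem' := locVal_ext rfl
        mul_mem' := fun {a b} ha hb => by
          show locAct q (a * b) _ = _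
          calc locAct q (a * b) (valEmb _ y) = locAct q a (locAct q b (valEmb _ y)) :=
                locVal_ext rfl
            _ = _ := by rw [hb, ha]
        inv_mem' := fun {a} ha => by
          show locAct q a⁻¹ _ = _
          conv_lhs => rw [← (ha : locAct q a _ = _)]
          exact locVal_ext (by simp) }
    refine (sup_le (fun s hs => ?_) (Subgroup.zpowers_le.2 ?_) : N ⊔ Subgroup.zpowers τ ≤ St) hs
    · exact (valSub_top N).le ⟨y, trivial, rfl⟩ s hs
    · show locAct q τ _ = _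
      rw [← h.valEmb_smul]
      exact congrArg (fun z => valEmb (locField q N) (Additive.ofMul z)) (hy h.gen)
  · intro hx
    obtain ⟨y, -, rfl⟩ := (valSub_top N).ge (fun s hs => hx s (Subgroup.mem_sup_left hs) : x ∈ fixedVal q N)
    refine ⟨y, fun σ => ?_, rfl⟩
    have hgen : h.gen ∈ MulAction.stabilizer h.gal (Additive.toMul y) := by
      refine Additive.ofMul.injective (valEmb_injective _ ?_)
      rw [h.valEmb_smul]
      exact hx τ (Subgroup.mem_sup_right (Subgroup.mem_zpowers _))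
    exact Subgroup.zpowers_le.2 hgen (h.gen_spec σ)

theorem IsCycLayer.valSub_map_norm [Fintype h.gal] (S : Subgroup (locField q N)ˣ) :
    valSub (locField q N) (S.map (unitsNorm h.gal (locField q N)))
      = (valSub (locField q N) S).map (normVal q τ n) := by
  ext x
  constructor
  · rintro ⟨_, ⟨y, hy, rfl⟩, rfl⟩
    exact ⟨_, ⟨Additive.ofMul y, hy, rfl⟩, (h.valEmb_norm (Additive.ofMul y)).symm⟩
  · rintro ⟨_, ⟨y, hy, rfl⟩, rfl⟩
    exact ⟨_, ⟨_, hy, rfl⟩, h.valEmb_norm y⟩

/-- **Hilbert 90** for a cyclic layer. -/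
theorem IsCycLayer.exists_sub_of_normVal_eq_zero {x : LocVal q} (hx : x ∈ fixedVal q N)
    (hn : normVal q τ n x = 0) : ∃ y ∈ fixedVal q N, locAct q τ y - y = x := by
  haveI := h.level.finiteDimensional
  haveI : ProperSpace (locField q N) := FiniteDimensional.proper ℚ_[(q : ℕ)] _
  letI : Fintype h.gal := Fintype.ofFinite _
  rw [← valSub_top] at hx
  obtain ⟨y, -, rfl⟩ := hx
  have hy : Additive.toMul y ∈ (unitsNorm h.gal (locField q N)).ker := by
    refine Additive.ofMul.injective (valEmb_injective _ ?_)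
    rw [h.valEmb_norm, hn]; exact (map_zero _).symm
  rw [unitsNorm_ker_eq h.gen h.gen_spec] at hy
  obtain ⟨z, hz⟩ := hy
  refine ⟨valEmb _ (Additive.ofMul z), (valSub_top N).le ⟨_, trivial, rfl⟩, ?_⟩
  rw [← h.valEmb_smul, ← map_sub]
  exact congrArg (fun w => valEmb (locField q N) (Additive.ofMul w)) hz

/-- **The norm index** of a cyclic layer. -/
theorem IsCycLayer.relIndex_normVal :
    ((fixedVal q N).map (normVal q τ n)).relIndex (fixedVal q (N ⊔ Subgroup.zpowers τ)) = n := by
  haveI := h.level.finiteDimensional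
  haveI : ProperSpace (locField q N) := FiniteDimensional.proper ℚ_[(q : ℕ)] _
  letI : Fintype h.gal := Fintype.ofFinite _
  rw [← valSub_top, ← h.valSub_map_norm, ← h.valSub_fixedUnits, relIndex_valSub,
    ← MonoidHom.range_eq_map, relIndex_range_unitsNorm h.isom h.gen h.gen_spec,
    Fintype.card_eq_nat_card, h.natCard_gal]

/-- The index of the norms of units in the units below. -/
theorem IsCycLayer.relIndex_normVal_units :
    ((fixedVal q N ⊓ unitVal q).map (normVal q τ n)).relIndex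
        (fixedVal q (N ⊔ Subgroup.zpowers τ) ⊓ unitVal q)
      = ((fixedVal q N ⊓ unitVal q) ⊔ fixedVal q (N ⊔ Subgroup.zpowers τ)).relIndex
          (fixedVal q N) := by
  haveI := h.level.finiteDimensional
  haveI : ProperSpace (locField q N) := FiniteDimensional.proper ℚ_[(q : ℕ)] _
  letI : Fintype h.gal := Fintype.ofFinite _
  have hFU : valSub (locField q N) (fixedUnits h.gal (locField q N) ⊓ normOneUnits (locField q N))
      = fixedVal q (N ⊔ Subgroup.zpowers τ) ⊓ unitVal q := by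
    have hmap : valSub (locField q N) (fixedUnits h.gal (locField q N) ⊓ normOneUnits (locField q N))
        = valSub (locField q N) (fixedUnits h.gal (locField q N))
          ⊓ valSub (locField q N) (normOneUnits (locField q N)) :=
      valSub_inf _ _ _
    rw [hmap, h.valSub_fixedUnits, valSub_normOneUnits, ← inf_assoc,
      inf_eq_left.2 (show fixedVal q (N ⊔ Subgroup.zpowers τ) ≤ fixedVal q N from
        fun x hx s hs => hx s (Subgroup.mem_sup_left hs))]
  have hsup : valSub (locField q N) (normOneUnits (locField q N) ⊔ fixedUnits h.gal (locField q N))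
      = (fixedVal q N ⊓ unitVal q) ⊔ fixedVal q (N ⊔ Subgroup.zpowers τ) := by
    rw [← valSub_normOneUnits, ← h.valSub_fixedUnits]
    exact valSub_sup _ _ _
  rw [← valSub_normOneUnits, ← h.valSub_map_norm, valSub_normOneUnits, ← hFU, ← valSub_top,
    relIndex_valSub, valSub_top, ← hsup, ← valSub_top, relIndex_valSub,
    relIndex_norm_units h.isom h.gen h.gen_spec, Subgroup.relIndex_top_right]

/-- In an unramified layer, units are norms of units. -/
theorem IsCycLayer.exists_unit_normVal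
    (hunr : ∀ x ∈ fixedVal q N, ∃ y ∈ fixedVal q (N ⊔ Subgroup.zpowers τ), x - y ∈ unitVal q)
    {u : LocVal q} (hu : u ∈ fixedVal q (N ⊔ Subgroup.zpowers τ)) (hu1 : u ∈ unitVal q) :
    ∃ w ∈ fixedVal q N ⊓ unitVal q, normVal q τ n w = u := by
  have h1 : ((fixedVal q N ⊓ unitVal q) ⊔ fixedVal q (N ⊔ Subgroup.zpowers τ)).relIndex
      (fixedVal q N) = 1 := by
    rw [AddSubgroup.relIndex_eq_one]
    intro x hx
    obtain ⟨y, hy, hxy⟩ := hunr x hx
    rw [← sub_add_cancel x y]
    have hy' : y ∈ fixedVal q N := fun s hs => hy s (Subgroup.mem_sup_left hs)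
    exact AddSubgroup.add_mem_sup ⟨(fixedVal q N).sub_mem hx hy', hxy⟩ hy
  rw [← h.relIndex_normVal_units, AddSubgroup.relIndex_eq_one] at h1
  exact h1 ⟨hu, hu1⟩

/-- In an unramified layer, Hilbert 90 holds for units. -/
theorem IsCycLayer.exists_unit_sub_of_normVal_eq_zero
    (hunr : ∀ x ∈ fixedVal q N, ∃ y ∈ fixedVal q (N ⊔ Subgroup.zpowers τ), x - y ∈ unitVal q)
    {x : LocVal q} (hx : x ∈ fixedVal q N) (hn : normVal q τ n x = 0) :
    ∃ y ∈ fixedVal q N ⊓ unitVal q, locAct q τ y - y = x := by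
  obtain ⟨z, hz, he⟩ := h.exists_sub_of_normVal_eq_zero hx hn
  obtain ⟨y, hy, hzy⟩ := hunr z hz
  have hy' : y ∈ fixedVal q N := fun s hs => hy s (Subgroup.mem_sup_left hs)
  refine ⟨z - y, ⟨(fixedVal q N).sub_mem hz hy', hzy⟩, ?_⟩
  rw [map_sub, hy τ (Subgroup.mem_sup_right (Subgroup.mem_zpowers _)), ← he]
  abel

end

/-- The index of `p`-th powers in the values of a local level containing `μ_p`. -/
theorem relIndex_nsmul_fixedVal {H : Subgroup (LocGal q)} (hH : IsLocLevel H) {p : ℕ}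
    (hp : p.Prime) {ζ : PadicAlgCl (q : ℕ)} (hζ : IsPrimitiveRoot ζ p) (hfix : ∀ τ ∈ H, τ ζ = ζ) :
    ((fixedVal q H).map (nsmulAddMonoidHom p)).relIndex (fixedVal q H)
      = p ^ 2 * if p = (q : ℕ) then (q : ℕ) ^ Module.finrank ℚ_[(q : ℕ)] (locField q H) else 1 := by
  haveI := hH.finiteDimensional
  haveI : ProperSpace (locField q H) := FiniteDimensional.proper ℚ_[(q : ℕ)] _
  haveI : CharZero (locField q H) :=
    charZero_of_injective_algebraMap (algebraMap ℚ_[(q : ℕ)] (locField q H)).injective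
  have hζ' : IsPrimitiveRoot (⟨ζ, mem_locField.2 hfix⟩ : locField q H) p :=
    IsPrimitiveRoot.of_map_of_injective (f := (locField q H).val) hζ Subtype.val_injective
  have hmap : valSub (locField q H) (powMonoidHom p : (locField q H)ˣ →* _).range
      = (fixedVal q H).map (nsmulAddMonoidHom p) := by
    rw [← valSub_top]
    ext x
    constructor
    · rintro ⟨_, ⟨y, rfl⟩, rfl⟩
      exact ⟨valEmb _ (Additive.ofMul y), ⟨_, trivial, rfl⟩, locVal_ext rfl⟩
    · rintro ⟨_, ⟨y, -, rfl⟩, rfl⟩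
      exact ⟨Additive.ofMul (Additive.toMul y ^ p), ⟨_, rfl⟩, locVal_ext rfl⟩
  rw [← hmap, ← valSub_top, relIndex_valSub, Subgroup.relIndex_top_right,
    index_range_pow_padic (q := (q : ℕ)) hp hζ']

end Fermat.Agent.PoitouTate
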