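import Fermat.Agent.PoitouTate.LocalResidue
import Fermat.Agent.PoitouTate.LocalCyclic
import Fermat.Agent.PoitouTate.LocalUnits
import Fermat.Agent.PoitouTate.AlgebraCores
import Mathlib.FieldTheory.Galois.Basic
import Mathlib.RingTheory.ZMod.UnitsCyclic

/-!
# Numerical data of a local level, unramified cyclotomic layers, auxiliary primes, digits
-/

set_option autoImplicit false
set_option linter.unusedSectionVars false
set_option linter.style.haveILetI false

noncomputable section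

namespace Fermat.Agent.PoitouTate

variable {q : Nat.Primes}

/-- The underlying number of a local value. -/
abbrev locNum (x : LocVal q) : PadicAlgCl (q : ℕ) :=
  ((Additive.toMul x : (PadicAlgCl (q : ℕ))ˣ) : PadicAlgCl (q : ℕ))

theorem locNum_sub (x y : LocVal q) : locNum (x - y) = locNum x / locNum y := by
  simp [locNum, toMul_sub]

theorem locNum_zsmul (m : ℤ) (x : LocVal q) : locNum (m • x) = locNum x ^ m := by
  simp [locNum, toMul_zsmul]

theorem mem_unitVal_iff_locNum {x : LocVal q} : x ∈ unitVal q ↔ ‖locNum x‖ = 1 := Iff.rfl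

/-- Ramification index and residue degree of a local level. -/
structure LevelData (H : Subgroup (LocGal q)) where
  e : ℕ
  f : ℕ
  f_pos : 0 < f
  mul_eq : e * f = H.index
  pi : LocVal q
  pi_mem : pi ∈ fixedVal q H
  pi_lt : ‖locNum pi‖ < 1
  exists_val : ∀ x ∈ fixedVal q H, ∃ m : ℤ, x - m • pi ∈ unitVal q
  prime_val : primeVal q - (e : ℤ) • pi ∈ unitVal q
  unit_pow : ∀ x ∈ fixedVal q H, x ∈ unitVal q → ‖locNum x ^ ((q : ℕ) ^ f - 1) - 1‖ < 1
  root : PadicAlgCl (q : ℕ)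
  root_prim : IsPrimitiveRoot root ((q : ℕ) ^ f - 1)
  root_fixed : ∀ τ ∈ H, τ root = root

theorem nonempty_levelData {H : Subgroup (LocGal q)} (hH : IsLocLevel H) :
    Nonempty (LevelData H) := by
  haveI := hH.finiteDimensional
  haveI : ProperSpace (locField q H) := FiniteDimensional.proper ℚ_[(q : ℕ)] _
  haveI : Fact (q : ℕ).Prime := ⟨q.2⟩
  obtain ⟨e, f, ϖ, hf0, hef, hϖ, hm, hq, hpow, ζ, hζ⟩ :=
    exists_ramification_data (locField q H) (q : ℕ)
  have hdeg : Module.finrank ℚ_[(q : ℕ)] (locField q H) = H.index := by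
    rw [IntermediateField.finrank_eq_fixingSubgroup_index (F := ℚ_[(q : ℕ)]) (E' := PadicAlgCl (q : ℕ))
      (L := locField q H), hH.fixingSubgroup_locField]
  let pi₀ : LocVal q := valEmb (locField q H) (Additive.ofMul ϖ)
  have hmem : ∀ x ∈ fixedVal q H, ∃ y : (locField q H)ˣ,
      valEmb (locField q H) (Additive.ofMul y) = x := fun x hx => by
    obtain ⟨y, -, hy⟩ := (valSub_top H).ge hx
    exact ⟨Additive.toMul y, hy⟩
  refine ⟨{
    e := e
    f := f
    f_pos := hf0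
    mul_eq := hef.trans hdeg
    pi := pi₀
    pi_mem := (valSub_top H).le ⟨_, trivial, rfl⟩
    pi_lt := hϖ
    exists_val := fun x hx => ?_
    prime_val := ?_
    unit_pow := fun x hx hx1 => ?_
    root := (ζ : PadicAlgCl (q : ℕ))
    root_prim := hζ.map_of_injective (f := (locField q H).val) Subtype.val_injective
    root_fixed := fun τ hτ => mem_locField.1 ζ.2 τ hτ }⟩
  · obtain ⟨y, rfl⟩ := hmem x hx
    obtain ⟨m, hm'⟩ := hm y
    refine ⟨m, ?_⟩
    rw [mem_unitVal_iff_locNum, locNum_sub, locNum_zsmul, norm_div, norm_zpow]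
    change ‖((y : locField q H) : PadicAlgCl (q : ℕ))‖ /
      ‖((ϖ : locField q H) : PadicAlgCl (q : ℕ))‖ ^ m = 1
    have hm'' : ‖((y : locField q H) : PadicAlgCl (q : ℕ))‖ =
        ‖((ϖ : locField q H) : PadicAlgCl (q : ℕ))‖ ^ m := hm'
    rw [hm'', div_self]
    exact zpow_ne_zero _ (norm_ne_zero_iff.2 fun h => ϖ.ne_zero (Subtype.ext h))
  · rw [mem_unitVal_iff_locNum, locNum_sub, locNum_zsmul, norm_div, norm_zpow, zpow_natCast]
    have hq' : ‖((ϖ : locField q H) : PadicAlgCl (q : ℕ))‖ ^ e =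
        ‖((q : ℕ) : PadicAlgCl (q : ℕ))‖ := hq
    change ‖((q : ℕ) : PadicAlgCl (q : ℕ))‖ /
      ‖((ϖ : locField q H) : PadicAlgCl (q : ℕ))‖ ^ e = 1
    rw [hq', div_self]
    exact norm_ne_zero_iff.2 (Nat.cast_ne_zero.2 q.2.ne_zero)
  · obtain ⟨y, rfl⟩ := hmem x hx
    exact hpow (y : locField q H) hx1

theorem LevelData.norm_eq {H : Subgroup (LocGal q)} (D : LevelData H) :
    ‖locNum D.pi‖ ^ D.e = ‖((q : ℕ) : PadicAlgCl (q : ℕ))‖ := by
  have h : ‖locNum (primeVal q - (D.e : ℤ) • D.pi)‖ = 1 := D.prime_val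
  rw [locNum_sub, locNum_zsmul, norm_div, norm_zpow, zpow_natCast,
    div_eq_one_iff_eq (pow_ne_zero _ (norm_ne_zero_iff.2 (Units.ne_zero _)))] at h
  exact h.symm

theorem dvd_of_pow_modEq_one {a f i : ℕ} (ha : 2 ≤ a) (hf : 0 < f)
    (h : a ^ i ≡ 1 [MOD a ^ f - 1]) : f ∣ i := by
  rcases Nat.eq_zero_or_pos (i % f) with hr | hr
  · exact Nat.dvd_of_mod_eq_zero hr
  exfalso
  have hlt : i % f < f := Nat.mod_lt _ hf
  have h1 : 1 ≤ a ^ f := Nat.one_le_pow _ _ (by omega)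
  have e : a ^ f ≡ 1 [MOD a ^ f - 1] :=
    ((Nat.modEq_iff_dvd' h1).2 dvd_rfl).symm
  have h2 : a ^ (i % f) ≡ 1 [MOD a ^ f - 1] := by
    have e2 : a ^ i ≡ a ^ (i % f) [MOD a ^ f - 1] := by
      conv_lhs => rw [← Nat.div_add_mod i f, pow_add, pow_mul]
      simpa using (e.pow (i / f)).mul_right (a ^ (i % f))
    exact e2.symm.trans h
  have h3 : 2 ≤ a ^ (i % f) := le_trans ha (Nat.le_self_pow hr.ne' a)
  have h4 : a ^ (i % f) * 2 ≤ a ^ f :=
    calc a ^ (i % f) * 2 ≤ a ^ (i % f) * a := Nat.mul_le_mul_left _ ha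
      _ = a ^ (i % f + 1) := (pow_succ _ _).symm
      _ ≤ a ^ f := Nat.pow_le_pow_right (by omega) hlt
  have h5 := Nat.ModEq.eq_of_lt_of_lt h2 (by omega) (by omega)
  omega

variable (q) in
/-- The automorphisms fixing the `M`-th roots of unity. -/
def rootFixer (M : ℕ) : Subgroup (LocGal q) where
  carrier := {τ | ∀ ζ : PadicAlgCl (q : ℕ), ζ ^ M = 1 → τ ζ = ζ}
  one_mem' _ _ := rfl
  mul_mem' {a b} ha hb ζ hζ := by rw [AlgEquiv.mul_apply, hb ζ hζ, ha ζ hζ]
  inv_mem' {a} ha ζ hζ := by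
    conv_lhs => rw [← ha ζ hζ]
    exact a.symm_apply_apply ζ

theorem isLocLevel_inf {H H' : Subgroup (LocGal q)} (h : IsLocLevel H) (h' : IsLocLevel H') :
    IsLocLevel (H ⊓ H') := by
  obtain ⟨F, hF, hFH⟩ := h
  obtain ⟨F', hF', hFH'⟩ := h'
  refine ⟨F ⊔ F', IntermediateField.finiteDimensional_sup F F', le_inf ?_ ?_⟩
  · exact (IntermediateField.fixingSubgroup_antitone le_sup_left).trans hFH
  · exact (IntermediateField.fixingSubgroup_antitone le_sup_right).trans hFH'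

theorem isLocLevel_rootFixer {M : ℕ} (hM : M ≠ 0) : IsLocLevel (rootFixer q M) := by
  haveI : NeZero M := ⟨hM⟩
  haveI : NeZero ((M : ℕ) : PadicAlgCl (q : ℕ)) := ⟨Nat.cast_ne_zero.2 hM⟩
  obtain ⟨ζ, hζ⟩ := HasEnoughRootsOfUnity.exists_primitiveRoot (PadicAlgCl (q : ℕ)) M
  refine ⟨IntermediateField.adjoin ℚ_[(q : ℕ)] {ζ},
    IntermediateField.adjoin.finiteDimensional (Algebra.IsIntegral.isIntegral ζ), fun τ hτ μ hμ => ?_⟩
  obtain ⟨k, -, rfl⟩ := hζ.eq_pow_of_pow_eq_one hμ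
  rw [map_pow, (IntermediateField.mem_fixingSubgroup_iff _ _).1 hτ ζ
    (IntermediateField.subset_adjoin _ _ rfl)]

/-- Roots of unity of order prime to `q` fixed by a level have order dividing `q ^ f - 1`. -/
theorem LevelData.pow_eq_one {H : Subgroup (LocGal q)} (D : LevelData H) {M : ℕ}
    (hM : (q : ℕ).Coprime M) {μ : PadicAlgCl (q : ℕ)} (hμ : μ ^ M = 1)
    (hfix : ∀ τ ∈ H, τ μ = μ) : μ ^ ((q : ℕ) ^ D.f - 1) = 1 := by
  by_contra hne
  have hn1 := norm_natCast_coprime q hM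
  have hM0 : M ≠ 0 := fun h => by simp [h] at hn1
  have hμ0 : μ ≠ 0 := fun h => by simp [h, zero_pow hM0] at hμ
  have h1 : ‖μ‖ = 1 :=
    (pow_eq_one_iff_of_nonneg (norm_nonneg _) hM0).1 (by rw [← norm_pow, hμ, norm_one])
  have h2 := D.unit_pow (Additive.ofMul (Units.mk0 μ hμ0))
    (fun τ hτ => locVal_ext (hfix τ hτ)) h1
  exact h2.ne (norm_sub_one_eq_one hn1
    (show (μ ^ ((q : ℕ) ^ D.f - 1)) ^ M = 1 by rw [← pow_mul, mul_comm, pow_mul, hμ, one_pow]) hne)

theorem modEq_of_pow_eq {F : Type} [Field F] {ζ : F} {M : ℕ} (hζ : IsPrimitiveRoot ζ M) (hM : M ≠ 0)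
    {a b : ℕ} (h : ζ ^ a = ζ ^ b) : a ≡ b [MOD M] := by
  have hu := hζ.isUnit_unit hM
  rw [hu.eq_orderOf, ← pow_eq_pow_iff_modEq]
  exact Units.ext (by simpa using h)

/-- An element of a level acts on roots of unity of order prime to `q` through a power `q ^ i`
with `f ∣ i`. -/
theorem LevelData.exists_dvd_pow {H : Subgroup (LocGal q)} (D : LevelData H) {τ : LocGal q}
    (hτ : τ ∈ H) {M : ℕ} (hM : (q : ℕ).Coprime M) :
    ∃ i : ℕ, D.f ∣ i ∧ ∀ μ : PadicAlgCl (q : ℕ), μ ^ M = 1 → τ μ = μ ^ ((q : ℕ) ^ i) := by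
  have hq2 := q.2.two_le
  have hQ : (q : ℕ).Coprime ((q : ℕ) ^ D.f - 1) := by
    refine (q.2.coprime_iff_not_dvd).2 fun h => ?_
    have h1 : (q : ℕ) ∣ (q : ℕ) ^ D.f := dvd_pow_self _ D.f_pos.ne'
    have h2 := Nat.dvd_sub h1 h
    rw [Nat.sub_sub_self (Nat.one_le_pow _ _ q.2.pos), Nat.dvd_one] at h2
    exact q.2.ne_one h2
  obtain ⟨i, hi⟩ := exists_frobenius_pow q τ (hQ.mul_right hM)
  refine ⟨i, ?_, fun μ hμ => hi μ (by rw [mul_comm, pow_mul, hμ, one_pow])⟩
  have h := hi D.root (by rw [pow_mul, D.root_prim.pow_eq_one, one_pow])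
  rw [D.root_fixed τ hτ] at h
  have hne : (q : ℕ) ^ D.f - 1 ≠ 0 := by
    have := Nat.one_lt_pow D.f_pos.ne' q.2.one_lt
    omega
  haveI : NeZero ((q : ℕ) ^ D.f - 1) := ⟨hne⟩
  refine dvd_of_pow_modEq_one hq2 D.f_pos (modEq_of_pow_eq D.root_prim hne ?_)
  rw [pow_one]
  exact h.symm

theorem relIndex_le_of_map_subset {G A : Type} [Group G] [Group A] (χ : G →* A)
    {H' H : Subgroup G} (hker : H ⊓ χ.ker ≤ H') (hle : H' ≤ H) {C : Subgroup A} [Finite C]
    (hC : H.map χ ≤ C) : H'.relIndex H ≤ Nat.card C := by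
  have h1 : (χ.ker.subgroupOf H) ≤ H'.subgroupOf H := fun x hx => hker ⟨x.2, hx⟩
  have hcard : (χ.ker.subgroupOf H).index = Nat.card (H.map χ) := by
    have : χ.ker.subgroupOf H = (χ.comp H.subtype).ker := rfl
    rw [this, Subgroup.index_ker, MonoidHom.range_comp, Subgroup.range_subtype]
  haveI : Finite (H.map χ) :=
    Finite.of_injective (Subgroup.inclusion hC) (Subgroup.inclusion_injective hC)
  have h2 : H'.relIndex H ≤ Nat.card (H.map χ) := by
    rw [← hcard]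
    exact Nat.le_of_dvd (hcard ▸ Nat.card_pos) (Subgroup.index_dvd_of_le h1)
  exact h2.trans (Nat.card_le_card_of_injective _ (Subgroup.inclusion_injective hC))

/-- Adjoining roots of unity of order prime to `q` is unramified. -/
theorem LevelData.unramified {H : Subgroup (LocGal q)} (hH : IsLocLevel H) (D : LevelData H)
    {M : ℕ} (hM : (q : ℕ).Coprime M) :
    ∀ x ∈ fixedVal q (H ⊓ rootFixer q M), ∃ y ∈ fixedVal q H, x - y ∈ unitVal q := by
  have hM0 : M ≠ 0 := fun h => by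
    rw [h, Nat.coprime_zero_right] at hM; exact q.2.ne_one hM
  haveI : NeZero M := ⟨hM0⟩
  haveI : NeZero ((M : ℕ) : PadicAlgCl (q : ℕ)) := ⟨Nat.cast_ne_zero.2 hM0⟩
  obtain ⟨ζ, hζ⟩ := HasEnoughRootsOfUnity.exists_primitiveRoot (PadicAlgCl (q : ℕ)) M
  obtain ⟨E⟩ := nonempty_levelData (isLocLevel_inf hH (isLocLevel_rootFixer (q := q) hM0))
  set qu : (ZMod M)ˣ := ZMod.unitOfCoprime (q : ℕ) hM
  have hfixζ : ∀ τ ∈ H ⊓ rootFixer q M, τ ζ = ζ := fun τ hτ => hτ.2 ζ hζ.pow_eq_one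
  have hofm : orderOf qu ∣ E.f := by
    refine orderOf_dvd_of_pow_eq_one (Units.ext ?_)
    rw [Units.val_pow_eq_pow_val, ZMod.coe_unitOfCoprime, Units.val_one, ← Nat.cast_pow,
      ← Nat.cast_one, ZMod.natCast_eq_natCast_iff]
    refine Nat.ModEq.symm ((Nat.modEq_iff_dvd' (Nat.one_le_pow _ _ q.2.pos)).2 ?_)
    exact hζ.dvd_of_pow_eq_one _ (E.pow_eq_one hM hζ.pow_eq_one hfixζ)
  have hff : D.f ∣ E.f := by
    have hne : (q : ℕ) ^ D.f - 1 ≠ 0 := by
      have := Nat.one_lt_pow D.f_pos.ne' q.2.one_lt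
      omega
    have hQ : (q : ℕ).Coprime ((q : ℕ) ^ D.f - 1) := by
      refine (q.2.coprime_iff_not_dvd).2 fun h => ?_
      have h1 : (q : ℕ) ∣ (q : ℕ) ^ D.f := dvd_pow_self _ D.f_pos.ne'
      have h2 := Nat.dvd_sub h1 h
      rw [Nat.sub_sub_self (Nat.one_le_pow _ _ q.2.pos), Nat.dvd_one] at h2
      exact q.2.ne_one h2
    have h3 := E.pow_eq_one hQ D.root_prim.pow_eq_one fun τ hτ => D.root_fixed τ hτ.1
    exact dvd_of_pow_modEq_one q.2.two_le D.f_pos
      ((Nat.modEq_iff_dvd' (Nat.one_le_pow _ _ q.2.pos)).2 (D.root_prim.dvd_of_pow_eq_one _ h3)).symm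
  -- the degree of the layer
  let χ : LocGal q →* (ZMod M)ˣ := MonoidHom.mk'
    (fun τ => modularCyclotomicCharacter (PadicAlgCl (q : ℕ))
      (HasEnoughRootsOfUnity.natCard_rootsOfUnity (PadicAlgCl (q : ℕ)) M)
      (τ : PadicAlgCl (q : ℕ) ≃+* PadicAlgCl (q : ℕ)))
    fun a b => by rw [← map_mul]; congr 1
  have hχ : ∀ τ : LocGal q, τ ζ = ζ ^ ((χ τ : ZMod M)).val := fun τ => by
    have := modularCyclotomicCharacter.spec (PadicAlgCl (q : ℕ))
      (HasEnoughRootsOfUnity.natCard_rootsOfUnity (PadicAlgCl (q : ℕ)) M)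
      (τ : PadicAlgCl (q : ℕ) ≃+* PadicAlgCl (q : ℕ)) (t := (hζ.isUnit hM0).unit)
      (by rw [mem_rootsOfUnity]; exact Units.ext (by simpa using hζ.pow_eq_one))
    exact this
  have hker : H ⊓ χ.ker ≤ H ⊓ rootFixer q M := by
    rintro τ ⟨hτH, hτ⟩
    refine ⟨hτH, fun μ hμ => ?_⟩
    obtain ⟨k, -, rfl⟩ := hζ.eq_pow_of_pow_eq_one hμ
    rw [map_pow]
    congr 1
    rw [hχ τ, MonoidHom.mem_ker.1 hτ, Units.val_one]
    rcases Nat.lt_or_ge 1 M with h1 | h1
    · haveI : Fact (1 < M) := ⟨h1⟩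
      rw [ZMod.val_one, pow_one]
    · have e1 : M = 1 := by omega
      subst e1
      rw [show ζ = 1 from pow_one ζ ▸ hζ.pow_eq_one, one_pow]
  have hmap : H.map χ ≤ Subgroup.zpowers (qu ^ D.f) := by
    rintro _ ⟨τ, hτ, rfl⟩
    obtain ⟨i, ⟨j, rfl⟩, hi⟩ := D.exists_dvd_pow hτ hM
    refine Subgroup.mem_zpowers_iff.2 ⟨j, ?_⟩
    rw [zpow_natCast, ← pow_mul]
    refine Units.ext ?_
    rw [Units.val_pow_eq_pow_val, ZMod.coe_unitOfCoprime, ← Nat.cast_pow]
    have h := hi ζ hζ.pow_eq_one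
    rw [hχ τ] at h
    replace h := modEq_of_pow_eq hζ hM0 h
    rw [Nat.ModEq] at h
    rw [← ZMod.natCast_zmod_val (χ τ : ZMod M), ZMod.natCast_eq_natCast_iff']
    exact h.symm
  have hidx : (H ⊓ rootFixer q M).index ≤ D.e * E.f := by
    have h1 := relIndex_le_of_map_subset χ hker inf_le_left hmap
    rw [Nat.card_zpowers, orderOf_pow] at h1
    rw [← Subgroup.relIndex_mul_index (inf_le_left : H ⊓ rootFixer q M ≤ H), ← D.mul_eq]
    calc (H ⊓ rootFixer q M).relIndex H * (D.e * D.f)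
        ≤ orderOf qu / Nat.gcd (orderOf qu) D.f * (D.e * D.f) := Nat.mul_le_mul_right _ h1
      _ = D.e * Nat.lcm (orderOf qu) D.f := by
        rw [Nat.lcm_eq_mul_div, mul_left_comm, mul_comm (orderOf qu) D.f,
          Nat.mul_div_assoc _ (Nat.gcd_dvd_left _ _), mul_comm (orderOf qu / _) D.f]
      _ ≤ D.e * E.f := Nat.mul_le_mul_left _ (Nat.le_of_dvd E.f_pos (Nat.lcm_dvd hofm hff))
  have hele : E.e ≤ D.e := Nat.le_of_mul_le_mul_right (E.mul_eq ▸ hidx) E.f_pos
  have hpiE : D.pi ∈ fixedVal q (H ⊓ rootFixer q M) := fun τ hτ => D.pi_mem τ hτ.1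
  obtain ⟨s, hs⟩ := E.exists_val D.pi hpiE
  rw [mem_unitVal_iff_locNum, locNum_sub, locNum_zsmul, norm_div, norm_zpow,
    div_eq_one_iff_eq (zpow_ne_zero _ (norm_ne_zero_iff.2 (Units.ne_zero _)))] at hs
  have hE0 : 0 < ‖locNum E.pi‖ := norm_pos_iff.2 (Units.ne_zero _)
  have hs1 : 0 < s := by
    by_contra hcon
    have := D.pi_lt
    rw [hs] at this
    exact absurd this (not_lt.2 (one_le_zpow_of_nonpos₀ hE0 E.pi_lt.le (by omega)))
  have he : (s : ℤ) * D.e = E.e := by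
    refine (zpow_right_strictAnti₀ hE0 E.pi_lt).injective ?_
    show _ = _
    rw [zpow_mul, ← hs, zpow_natCast, zpow_natCast, D.norm_eq, E.norm_eq]
  have hDe : 0 < D.e := Nat.pos_of_ne_zero fun h0 => by
    have := D.norm_eq
    rw [h0, pow_zero] at this
    exact (norm_natCast_prime_lt_one q).ne this.symm
  have hs2 : s = 1 := by nlinarith
  rw [hs2, zpow_one] at hs
  intro x hx
  obtain ⟨m, hm⟩ := E.exists_val x hx
  refine ⟨m • D.pi, fun τ hτ => by rw [map_zsmul, D.pi_mem τ hτ], ?_⟩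
  rw [mem_unitVal_iff_locNum, locNum_sub, locNum_zsmul, norm_div, norm_zpow, hs]
  rw [mem_unitVal_iff_locNum, locNum_sub, locNum_zsmul, norm_div, norm_zpow] at hm
  exact hm

/-- An auxiliary prime: `q` has order `p ^ c` modulo it. -/
theorem exists_aux_prime {p : ℕ} (hp : p.Prime) (hp2 : p ≠ 2) (q : Nat.Primes) (c : ℕ) :
    ∃ l : Nat.Primes, l ≠ q ∧ ∃ h : (q : ℕ).Coprime (l : ℕ),
      orderOf (ZMod.unitOfCoprime (q : ℕ) h) = p ^ (c + 1) := by
  set X : ℕ := (q : ℕ) ^ p ^ c with hX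
  have hX2 : 2 ≤ X := le_trans q.2.two_le (Nat.le_self_pow (pow_ne_zero c hp.ne_zero) _)
  set S := ∑ i ∈ Finset.range p, X ^ i with hS
  have hSgt : p < S := by
    calc p = ∑ _i ∈ Finset.range p, 1 := by simp
      _ < S := Finset.sum_lt_sum (fun i _ => Nat.one_le_pow _ _ (by omega))
          ⟨1, Finset.mem_range.2 hp.one_lt, by rw [pow_one]; omega⟩
  have hp2S : ¬ p ^ 2 ∣ S := by
    intro h
    have hpS : p ∣ S := (dvd_pow_self p two_ne_zero).trans h
    haveI := Fact.mk hp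
    have hX1 : (X : ZMod p) = 1 := by
      have h1 : (∑ i ∈ Finset.range p, (X : ZMod p) ^ i) = 0 := by
        have := (ZMod.natCast_eq_zero_iff S p).2 hpS
        rw [hS] at this
        push_cast at this
        exact this
      have h2 := geom_sum_mul (X : ZMod p) p
      rw [h1, zero_mul, ZMod.pow_card] at h2
      exact (sub_eq_zero.1 h2.symm)
    obtain ⟨t, ht⟩ : p ∣ X - 1 := by
      rw [← Nat.modEq_iff_dvd' (by omega : 1 ≤ X), ← ZMod.natCast_eq_natCast_iff]
      rw [hX1, Nat.cast_one]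
    have hsplit : (S : ZMod (p ^ 2)) = (p : ZMod (p ^ 2)) := by
      have hXe : (X : ZMod (p ^ 2)) = 1 + (p : ZMod (p ^ 2)) * t := by
        rw [show X = 1 + p * t by omega]; push_cast; ring
      have hp0 : ((p : ZMod (p ^ 2))) ^ 2 = 0 := by
        rw [← Nat.cast_pow, ZMod.natCast_self]
      have hpow : ∀ i : ℕ, (1 + (p : ZMod (p ^ 2)) * t) ^ i = 1 + (p : ZMod (p ^ 2)) * t * i := by
        intro i
        induction i with
        | zero => simp
        | succ i ih =>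
          rw [pow_succ (1 + (p : ZMod (p ^ 2)) * t) i, ih, Nat.cast_succ]
          linear_combination (t : ZMod (p ^ 2)) ^ 2 * i * hp0
      rw [hS]
      push_cast
      rw [hXe]
      simp only [hpow]
      rw [Finset.sum_add_distrib, Finset.sum_const, Finset.card_range, nsmul_one, ← Finset.mul_sum,
        add_eq_left, ← Nat.cast_sum, Finset.sum_range_id]
      obtain ⟨r, hr⟩ := hp.odd_of_ne_two hp2
      have e : p * (p - 1) / 2 = p * r := by
        rw [show p - 1 = r * 2 by omega, ← mul_assoc, Nat.mul_div_cancel _ two_pos]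
      rw [e, Nat.cast_mul]
      linear_combination (t : ZMod (p ^ 2)) * (r : ZMod (p ^ 2)) * hp0
    have h0 := (ZMod.natCast_eq_zero_iff S (p ^ 2)).2 h
    rw [hsplit, ZMod.natCast_eq_zero_iff] at h0
    have := Nat.le_of_dvd hp.pos h0
    nlinarith [hp.two_le]
  obtain ⟨l, hl, hlS, hlp⟩ : ∃ l : ℕ, l.Prime ∧ l ∣ S ∧ l ≠ p := by
    by_contra hcon
    push Not at hcon
    have hS1 : S ≠ 0 := by omega
    have h := Nat.eq_prime_pow_of_unique_prime_dvd hS1 fun {d} hd hdS => hcon d hd hdS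
    set k := S.primeFactorsList.length
    rcases Nat.lt_or_ge k 2 with hk | hk
    · have : S ≤ p := by
        rw [h]
        calc p ^ k ≤ p ^ 1 := Nat.pow_le_pow_right hp.pos (by omega)
          _ = p := pow_one p
      omega
    · exact hp2S (by rw [h]; exact pow_dvd_pow p hk)
  haveI := Fact.mk hl
  have hlz : (∑ i ∈ Finset.range p, (X : ZMod l) ^ i) = 0 := by
    have := (ZMod.natCast_eq_zero_iff S l).2 hlS
    rw [hS] at this
    push_cast at this
    exact this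
  have hXp : (X : ZMod l) ^ p = 1 := by
    have h2 := geom_sum_mul (X : ZMod l) p
    rw [hlz, zero_mul] at h2
    exact sub_eq_zero.1 h2.symm
  have hXne : (X : ZMod l) ≠ 1 := fun h1 => by
    rw [h1] at hlz
    simp only [one_pow, Finset.sum_const, Finset.card_range, nsmul_one] at hlz
    exact hlp ((Nat.prime_dvd_prime_iff_eq hl hp).1 ((ZMod.natCast_eq_zero_iff p l).1 hlz))
  have hcop : (q : ℕ).Coprime l := (Nat.coprime_primes q.2 hl).2 fun e => by
    have : (X : ZMod l) = 0 := by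
      rw [hX, Nat.cast_pow, e, ZMod.natCast_self, zero_pow (pow_ne_zero c hp.ne_zero)]
    rw [this, zero_pow hp.ne_zero] at hXp
    exact zero_ne_one hXp
  refine ⟨⟨l, hl⟩, fun e => ?_, hcop, ?_⟩
  · exact q.2.ne_one (by
      have h' : l = (q : ℕ) := congrArg (fun r : Nat.Primes => (r : ℕ)) e
      rw [h', Nat.coprime_self] at hcop
      exact hcop)
  haveI := Fact.mk hp
  refine orderOf_eq_prime_pow (fun h => hXne ?_) (Units.ext ?_)
  · have := congrArg Units.val h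
    rwa [Units.val_pow_eq_pow_val, ZMod.coe_unitOfCoprime, Units.val_one, ← Nat.cast_pow] at this
  · rw [Units.val_pow_eq_pow_val, ZMod.coe_unitOfCoprime, Units.val_one, pow_succ p c, pow_mul,
      ← Nat.cast_pow, ← hX]
    exact hXp

section Digits

variable {Δ : Type} [Group Δ] {n : ℕ}

theorem Digits.e_pow_nat (d : Digits Δ n) (g : Δ) (k : ℕ) : d.e (g ^ k) = k * d.e g % n := by
  induction k with
  | zero => simp [d.map_one]
  | succ k ih => rw [pow_succ, d.hom, ih, Nat.mod_add_mod, Nat.succ_mul]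

/-- The digits of a subgroup on which the character is injective. -/
theorem Digits.exists_restrict (d : Digits Δ n) (hn : n ≠ 0) (H : Subgroup Δ) [Finite H]
    (hinj : Function.Injective fun h : H => d.e (h : Δ)) :
    ∃ (d' : Digits H (Nat.card H)) (τ : H), (∀ g h : H, d'.carry g h = d.carry g h) ∧
      d'.e τ = 1 % Nat.card H ∧ (∀ g : H, g = τ ^ d'.e g) ∧ τ ^ Nat.card H = 1 := by
  classical
  haveI : NeZero n := ⟨hn⟩
  set n' := Nat.card H with hn'
  have hn'0 : n' ≠ 0 := Nat.card_pos.ne'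
  let φ : H →* Multiplicative (ZMod n) :=
    MonoidHom.mk' (fun g => Multiplicative.ofAdd ((d.e g : ℕ) : ZMod n)) fun g h => by
      rw [Subgroup.coe_mul, d.hom, ZMod.natCast_mod, Nat.cast_add, ofAdd_add]
  have hφ : Function.Injective φ := fun g h e => by
    refine hinj ?_
    have e' := congrArg (fun z : Multiplicative (ZMod n) => (Multiplicative.toAdd z).val) e
    simpa [φ, ZMod.val_natCast_of_lt (d.lt _)] using e'
  obtain ⟨r, hr⟩ : n' ∣ n := by
    have h := Subgroup.card_dvd_of_injective φ hφ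
    rwa [Nat.card_congr Multiplicative.toAdd, Nat.card_zmod] at h
  have hr0 : r ≠ 0 := fun h => hn (by rw [hr, h, mul_zero])
  have hdvd : ∀ g : H, r ∣ d.e g := fun g => by
    have h1 : d.e ((g : Δ) ^ n') = 0 := by
      rw [← Subgroup.coe_pow, hn', pow_card_eq_one', Subgroup.coe_one, d.map_one]
    rw [d.e_pow_nat] at h1
    exact Nat.dvd_of_mul_dvd_mul_left (Nat.pos_of_ne_zero hn'0)
      ((dvd_of_eq hr.symm).trans (Nat.dvd_of_mod_eq_zero h1))
  have key : ∀ g h : H, (d.e g + d.e h) % n / r = (d.e g / r + d.e h / r) % n' ∧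
      (d.e g / r + d.e h / r) / n' = (d.e g + d.e h) / n := fun g h => by
    obtain ⟨a, ha⟩ := hdvd g
    obtain ⟨b, hb⟩ := hdvd h
    have hr' := Nat.pos_of_ne_zero hr0
    rw [ha, hb, hr, Nat.mul_div_cancel_left _ hr', Nat.mul_div_cancel_left _ hr', ← mul_add,
      mul_comm n' r, Nat.mul_mod_mul_left, Nat.mul_div_cancel_left _ hr',
      Nat.mul_div_mul_left _ _ hr']
    exact ⟨rfl, rfl⟩
  let d' : Digits H n' :=
    { e := fun g => d.e g / r
      lt := fun g => by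
        rw [Nat.div_lt_iff_lt_mul (Nat.pos_of_ne_zero hr0)]
        exact (d.lt _).trans_le hr.le
      hom := fun g h => by rw [Subgroup.coe_mul, d.hom]; exact (key g h).1 }
  have hd'inj : Function.Injective d'.e := fun g h hgh => hinj (by
    have : r * (d.e g / r) = r * (d.e h / r) := congrArg (r * ·) hgh
    rwa [Nat.mul_div_cancel' (hdvd g), Nat.mul_div_cancel' (hdvd h)] at this)
  obtain ⟨τ, hτ⟩ : ∃ τ : H, d'.e τ = 1 % n' := by
    letI := Fintype.ofFinite H
    let f : H → Fin n' := fun g => ⟨d'.e g, d'.lt g⟩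
    have hf : Function.Bijective f := (Fintype.bijective_iff_injective_and_card f).2
      ⟨fun g h e => hd'inj (congrArg Fin.val e), by simp [n']⟩
    obtain ⟨τ, hτ⟩ := hf.2 ⟨1 % n', Nat.mod_lt _ (Nat.pos_of_ne_zero hn'0)⟩
    exact ⟨τ, congrArg Fin.val hτ⟩
  refine ⟨d', τ, fun g h => ?_, hτ,
    fun g => hd'inj (by rw [d'.e_pow hτ, Nat.mod_eq_of_lt (d'.lt g)]), pow_card_eq_one'⟩
  simp only [Digits.carry, d']
  rw [(key g h).2]

end Digits

end Fermat.Agent.PoitouTate
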