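import Fermat.Agent.PoitouTate.ClassApi
import Fermat.Agent.PoitouTate.LocalFields
import Fermat.Agent.PoitouTate.LocalUnits
import Fermat.Agent.PoitouTate.ClassLevels

/-!
# Ideles supported at a single place
-/

set_option autoImplicit false
set_option linter.unusedSectionVars false

noncomputable section

namespace Fermat.Agent.PoitouTate

variable {T : Finset Nat.Primes} (q : ↥T)

/-- The value at the place of the identity coset, computed through any local representative. -/
theorem atPlaceFun_eq {r : Nat.Primes} {N : Subgroup GQ} {y : LocVal r}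
    (hy : y ∈ fixedVal r (N.comap (loc r))) {τ : LocGal r} {g : GQ} (hg : (loc r τ)⁻¹ * g ∈ N) :
    atPlaceFun N y g = locAct r τ y := by
  have hex : ∃ τ : LocGal r, (loc r τ)⁻¹ * g ∈ N := ⟨τ, hg⟩
  rw [atPlaceFun, dif_pos hex]
  have h1 : τ⁻¹ * hex.choose ∈ N.comap (loc r) := by
    rw [Subgroup.mem_comap, map_mul, map_inv]
    have h2 := N.mul_mem hg (N.inv_mem hex.choose_spec)
    simpa [mul_assoc] using h2
  conv_rhs => rw [← hy _ h1]
  rw [← locAct_mul, mul_inv_cancel_left]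

theorem atPlaceFun_eq_zero {r : Nat.Primes} {N : Subgroup GQ} (y : LocVal r) {g : GQ}
    (hg : ∀ τ : LocGal r, (loc r τ)⁻¹ * g ∉ N) : atPlaceFun N y g = 0 := by
  rw [atPlaceFun, dif_neg]
  rintro ⟨τ, h⟩
  exact hg τ h

theorem atPlaceFun_add {r : Nat.Primes} (N : Subgroup GQ) (y y' : LocVal r) (g : GQ) :
    atPlaceFun N (y + y') g = atPlaceFun N y g + atPlaceFun N y' g := by
  by_cases h : ∃ τ : LocGal r, (loc r τ)⁻¹ * g ∈ N
  · simp only [atPlaceFun, dif_pos h, map_add]
  · simp only [atPlaceFun, dif_neg h, add_zero]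

/-- The family supported at `q` over the identity coset. -/
def atAmb (N : Subgroup GQ) (y : LocVal q.1) : Amb T :=
  (fun r g => if h : r = q then h ▸ atPlaceFun N y g else 0, fun _ _ => 0)

theorem atAmb_fin (N : Subgroup GQ) (y : LocVal q.1) (g : GQ) :
    (atAmb q N y).fin q g = atPlaceFun N y g := by
  show dite _ _ _ = _
  rw [dif_pos rfl]

theorem atAmb_fin_of_ne (N : Subgroup GQ) (y : LocVal q.1) {r : ↥T} (hr : r ≠ q) (g : GQ) :
    (atAmb q N y).fin r g = 0 := by
  show dite _ _ _ = _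
  rw [dif_neg hr]

theorem atAmb_ord (N : Subgroup GQ) (y : LocVal q.1) (r : {r : Nat.Primes // r ∉ T}) (g : GQ) :
    (atAmb q N y).ord r g = 0 := rfl

theorem smul_atAmb {N : Subgroup GQ} [hN : N.Normal] (y : LocVal q.1) {s : GQ} (hs : s ∈ N) :
    s • atAmb q N y = atAmb q N y := by
  refine Amb.ext (fun r g => ?_) fun _ _ => rfl
  rw [Amb.fin_smul]
  rcases eq_or_ne r q with rfl | hr
  · rw [atAmb_fin, atAmb_fin]
    have hiff : ∀ τ : LocGal r.1, (loc r.1 τ)⁻¹ * (g * s) ∈ N ↔ (loc r.1 τ)⁻¹ * g ∈ N := fun τ => by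
      rw [← mul_assoc, N.mul_mem_cancel_right hs]
    have hfun : (fun τ : LocGal r.1 => (loc r.1 τ)⁻¹ * (g * s) ∈ N) =
        fun τ => (loc r.1 τ)⁻¹ * g ∈ N := funext fun τ => propext (hiff τ)
    unfold atPlaceFun
    by_cases h : ∃ τ : LocGal r.1, (loc r.1 τ)⁻¹ * g ∈ N
    · have h' : ∃ τ : LocGal r.1, (loc r.1 τ)⁻¹ * (g * s) ∈ N := h.imp fun τ => (hiff τ).2
      rw [dif_pos h, dif_pos h']
      simp only [hfun]
    · rw [dif_neg h, dif_neg fun h' => h (h'.imp fun τ => (hiff τ).1)]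
  · rw [atAmb_fin_of_ne q N y hr, atAmb_fin_of_ne q N y hr]

variable {L : IntermediateField ℚ (AlgebraicClosure ℚ)} (hL : IsLvl T L)
include hL

theorem atAmb_mem_J {y : LocVal q.1} (hy : y ∈ fixedVal q.1 (L.fixingSubgroup.comap (loc q.1))) :
    atAmb q L.fixingSubgroup y ∈ J T := by
  have := hL.normal
  refine ⟨fun r τ g => ?_, fun _ _ _ => rfl, ⟨L, hL, fun s hs => smul_atAmb q y hs⟩, ?_⟩
  · rcases eq_or_ne r q with rfl | hr
    · rw [atAmb_fin, atAmb_fin]
      by_cases h : ∃ σ : LocGal r.1, (loc r.1 σ)⁻¹ * g ∈ L.fixingSubgroup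
      · obtain ⟨σ, hσ⟩ := h
        rw [atPlaceFun_eq hy hσ, atPlaceFun_eq hy (τ := τ * σ) (by simpa [mul_assoc] using hσ),
          locAct_mul]
      · push Not at h
        rw [atPlaceFun_eq_zero y h, map_zero, atPlaceFun_eq_zero y fun σ hσ => h (τ⁻¹ * σ)
          (by simpa [mul_assoc] using hσ)]
    · rw [atAmb_fin_of_ne q _ y hr, atAmb_fin_of_ne q _ y hr, map_zero]
  · refine Set.finite_empty.subset ?_
    rintro r ⟨g, hg⟩
    exact hg (atAmb_ord q _ y r g)

/-- The idele of a local value at the place of the identity coset. -/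
def atIdele : ↥(fixedVal q.1 (L.fixingSubgroup.comap (loc q.1))) →+ ↥(J T) :=
  AddMonoidHom.mk' (fun y => ⟨_, atAmb_mem_J q hL y.2⟩) fun y y' => Subtype.ext <| by
    refine Amb.ext (fun r g => ?_) fun r g => ?_
    · show (atAmb q _ ((y : LocVal q.1) + (y' : LocVal q.1))).fin r g =
        (atAmb q _ (y : LocVal q.1)).fin r g + (atAmb q _ (y' : LocVal q.1)).fin r g
      rcases eq_or_ne r q with rfl | hr
      · rw [atAmb_fin, atAmb_fin, atAmb_fin, atPlaceFun_add]
      · rw [atAmb_fin_of_ne q _ _ hr, atAmb_fin_of_ne q _ _ hr, atAmb_fin_of_ne q _ _ hr, add_zero]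
    · rfl

theorem coe_atIdele (y : ↥(fixedVal q.1 (L.fixingSubgroup.comap (loc q.1)))) :
    ((atIdele q hL y : J T) : Amb T) = atAmb q L.fixingSubgroup y := rfl

theorem atIdele_mem_fixed (y : ↥(fixedVal q.1 (L.fixingSubgroup.comap (loc q.1)))) :
    atIdele q hL y ∈ fixedPts L.fixingSubgroup ↥(J T) := by
  have := hL.normal
  exact fun s hs => Subtype.ext (smul_atAmb q (y : LocVal q.1) hs)

theorem atIdele_mem_Jfin (y : ↥(fixedVal q.1 (L.fixingSubgroup.comap (loc q.1)))) :
    atIdele q hL y ∈ Jfin T := fun _ _ => rfl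

theorem locAct_mem_fixedVal_comap {y : LocVal q.1}
    (hy : y ∈ fixedVal q.1 (L.fixingSubgroup.comap (loc q.1))) (σ : LocGal q.1) :
    locAct q.1 σ y ∈ fixedVal q.1 (L.fixingSubgroup.comap (loc q.1)) := fun s hs => by
  have := hL.normal
  have h1 : σ⁻¹ * s * σ ∈ L.fixingSubgroup.comap (loc q.1) := by
    simpa using (Subgroup.Normal.comap hL.normal (loc q.1)).conj_mem s hs σ⁻¹
  have h2 := congrArg (locAct q.1 σ) (hy _ h1)
  rw [← locAct_mul] at h2
  rw [← locAct_mul, show s * σ = σ * (σ⁻¹ * s * σ) by group]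
  exact h2

theorem smul_atIdele (σ : LocGal q.1) (y : ↥(fixedVal q.1 (L.fixingSubgroup.comap (loc q.1)))) :
    loc q.1 σ • atIdele q hL y =
      atIdele q hL ⟨_, locAct_mem_fixedVal_comap q hL y.2 σ⟩ := by
  have := hL.normal
  refine Subtype.ext (Amb.ext (fun r g => ?_) fun _ _ => rfl)
  rw [coe_smul_J, coe_atIdele, coe_atIdele, Amb.fin_smul]
  rcases eq_or_ne r q with rfl | hr
  · rw [atAmb_fin, atAmb_fin]
    by_cases h : ∃ τ : LocGal r.1, (loc r.1 τ)⁻¹ * g ∈ L.fixingSubgroup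
    · obtain ⟨τ, hτ⟩ := h
      rw [atPlaceFun_eq (locAct_mem_fixedVal_comap r hL y.2 σ) hτ,
        atPlaceFun_eq y.2 (τ := τ * σ) (by
          have := hL.normal.conj_mem _ hτ (loc r.1 σ)⁻¹
          simpa [mul_assoc] using this), locAct_mul]
    · push Not at h
      rw [atPlaceFun_eq_zero _ h, atPlaceFun_eq_zero _ fun τ hτ => h (τ * σ⁻¹) (by
        have := hL.normal.conj_mem _ hτ (loc r.1 σ)
        simpa [mul_assoc] using this)]
  · rw [atAmb_fin_of_ne q _ _ hr, atAmb_fin_of_ne q _ _ hr]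

/-- A class at a place is the class of this idele. -/
theorem IsAtPlace.eq_clsMk {c : Cls T} (y : ↥(fixedVal q.1 (L.fixingSubgroup.comap (loc q.1))))
    (hc : IsAtPlace T q L.fixingSubgroup (y : LocVal q.1) c) : c = clsMk T (atIdele q hL y) := by
  obtain ⟨f, rfl, hf, hf0, hford⟩ := hc
  congr 1
  refine Subtype.ext (Amb.ext (fun r g => ?_) fun r g => hford r g)
  rcases eq_or_ne r q with rfl | hr
  · rw [hf, coe_atIdele, atAmb_fin]
  · rw [hf0 r g hr, coe_atIdele, atAmb_fin_of_ne q _ _ hr]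

theorem clsMk_atIdele_mem (y : ↥(fixedVal q.1 (L.fixingSubgroup.comap (loc q.1)))) :
    clsMk T (atIdele q hL y) ∈ clsLev T L.fixingSubgroup := fun s hs => by
  rw [smul_clsMk, atIdele_mem_fixed q hL y s hs]

/-- Translating the place over all cosets of a bigger subgroup in the preimage of the
decomposition group gives the place of the bigger subgroup. -/
theorem sum_smul_atIdele {K : IntermediateField ℚ (AlgebraicClosure ℚ)} (hK : IsLvl T K)
    (hKL : K.fixingSubgroup ≤ L.fixingSubgroup)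
    {ι : Type} [Fintype ι] (r : ι → GQ) (hr : ∀ i, r i ∈ L.fixingSubgroup)
    (huniq : ∀ s ∈ L.fixingSubgroup, ∃! i, ∃ τ : LocGal q.1,
      (loc q.1 τ)⁻¹ * (s * r i) ∈ K.fixingSubgroup)
    (y : ↥(fixedVal q.1 (L.fixingSubgroup.comap (loc q.1)))) :
    ∑ i, r i • atIdele q hK ⟨(y : LocVal q.1), fun s hs => y.2 s (hKL hs)⟩ = atIdele q hL y := by
  have := hL.normal
  refine Subtype.ext (Amb.ext (fun p g => ?_) fun p g => ?_)
  · let ev : J T →+ LocVal p.1 :=
      { toFun := fun e => (e : Amb T).fin p g, map_zero' := rfl, map_add' := fun _ _ => rfl }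
    show ev _ = _
    rw [map_sum, coe_atIdele]
    show ∑ i, (atAmb q K.fixingSubgroup (y : LocVal q.1)).fin p (g * r i) = _
    rcases eq_or_ne p q with rfl | hp
    · simp only [atAmb_fin]
      have hyK : (y : LocVal p.1) ∈ fixedVal p.1 (K.fixingSubgroup.comap (loc p.1)) :=
        fun s hs => y.2 s (hKL hs)
      by_cases h : ∃ τ : LocGal p.1, (loc p.1 τ)⁻¹ * g ∈ L.fixingSubgroup
      · obtain ⟨τ, hτ⟩ := h
        obtain ⟨i₀, ⟨δ, hδ⟩, hu⟩ := huniq _ hτ
        rw [atPlaceFun_eq y.2 hτ, Finset.sum_eq_single i₀]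
        · rw [atPlaceFun_eq hyK (τ := τ * δ) (by simpa [mul_assoc] using hδ), locAct_mul,
            y.2 δ]
          rw [Subgroup.mem_comap]
          have h2 := L.fixingSubgroup.mul_mem (L.fixingSubgroup.mul_mem hτ (hr i₀))
            (L.fixingSubgroup.inv_mem (hKL hδ))
          simpa [mul_assoc] using h2
        · intro i _ hi
          refine atPlaceFun_eq_zero _ fun δ' hδ' => hi (hu i ⟨τ⁻¹ * δ', ?_⟩)
          simpa [mul_assoc] using hδ'
        · exact fun e => absurd (Finset.mem_univ _) e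
      · push Not at h
        rw [atPlaceFun_eq_zero _ h]
        refine Finset.sum_eq_zero fun i _ => atPlaceFun_eq_zero _ fun τ hτ => h τ ?_
        have h2 := L.fixingSubgroup.mul_mem (hKL hτ) (L.fixingSubgroup.inv_mem (hr i))
        simpa [mul_assoc] using h2
    · simp only [atAmb_fin_of_ne q _ _ hp, Finset.sum_const_zero]
  · let ev : J T →+ ℤ :=
      { toFun := fun e => (e : Amb T).ord p g, map_zero' := rfl, map_add' := fun _ _ => rfl }
    show ev _ = _
    rw [map_sum]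
    exact Finset.sum_eq_zero fun i _ => rfl

end Fermat.Agent.PoitouTate
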