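import Fermat.Agent.PoitouTate.LocalLower
import Fermat.Agent.PoitouTate.LocalClassIdeles
import Fermat.Agent.PoitouTate.AlgebraLayer

/-!
# Local classes and the lowering of the set of primes
-/

set_option autoImplicit false
set_option linter.unusedSectionVars false
set_option linter.style.haveILetI false

open groupCohomology

noncomputable section

namespace Fermat.Agent.PoitouTate

local notation "Qb" => AlgebraicClosure ℚ

variable {T T' : Finset Nat.Primes} (hTT' : T ⊆ T')

theorem smul_mem_unitKer (σ : GQ) {f : J T'} (hf : f ∈ unitKer T T') :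
    σ • f ∈ unitKer T T' := by
  obtain ⟨h, h1, h2, h3⟩ := hf
  exact ⟨smul_mem_lowerable σ h, fun r g => h1 r (g * σ), fun r hr g => h2 r hr (g * σ),
    fun r g => h3 r (g * σ)⟩

/-- The action on the kernel of lowering. -/
instance unitKerAction : DistribMulAction GQ ↥(unitKer T T') where
  smul σ f := ⟨σ • (f : J T'), smul_mem_unitKer σ f.2⟩
  one_smul f := Subtype.ext (one_smul GQ (f : J T'))
  mul_smul σ τ f := Subtype.ext (mul_smul σ τ (f : J T'))
  smul_zero σ := Subtype.ext (smul_zero σ)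
  smul_add σ f f' := Subtype.ext (smul_add σ (f : J T') (f' : J T'))

theorem coe_smul_unitKer (σ : GQ) (f : ↥(unitKer T T')) :
    ((σ • f : ↥(unitKer T T')) : J T') = σ • (f : J T') := rfl

include hTT' in
/-- The kernel of lowering injects into the classes. -/
theorem eq_zero_of_clsMk_unitKer (hT : T.Nonempty) {u : J T'} (hu : u ∈ unitKer T T')
    (h0 : clsMk T' u = 0) : u = 0 := by
  obtain ⟨x, hx⟩ := (clsMk_eq_zero_iff T').1 h0
  have h2 := isPrincipalOf_lower hTT' (f := ⟨u, hu.1⟩) hx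
  rw [(lower_eq_zero_iff hTT' (f := ⟨u, hu.1⟩)).2 hu] at h2
  have hx1 : x = 1 := h2.elem_eq hT isPrincipalOf_one
  subst hx1
  exact Subtype.ext (hx.eq isPrincipalOf_one)

include hTT' in
/-- The cyclic layers of the kernel of lowering have trivial cohomology. -/
theorem cyclicLayers_unitKer {L : IntermediateField ℚ Qb} (hL : IsLvl T L)
    [L.fixingSubgroup.Normal] (p : ℕ) [hp : Fact p.Prime] :
    CyclicLayersIdx p 1 (GQ ⧸ L.fixingSubgroup)
      ↥(fixedPts L.fixingSubgroup ↥(unitKer T T')) := by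
  let ι : ↥(unitKer T T') →+ J T' := (unitKer T T').subtype
  refine cyclicLayersIdx_quot _ p 1 (fun U σ hU _ hσ hσp hnorm c hc hsum => ?_)
    fun U σ hU _ hσ hσp hnorm => ?_
  · have h0 : ∑ i ∈ Finset.range p, σ ^ i • (c : J T') = 0 := by
      have := congrArg ι hsum
      rw [map_sum, map_zero] at this
      exact this
    obtain ⟨w, hw, hwU, hwe⟩ := exists_unitKer_twist hTT' hL hU hp.out hσ hσp hnorm c.2
      (fun s hs => congrArg ι (hc s hs)) h0
    exact ⟨⟨w, hw⟩, fun s hs => Subtype.ext (hwU s hs), Subtype.ext hwe⟩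
  · rw [AddSubgroup.index_eq_one, AddSubgroup.addSubgroupOf_eq_top]
    intro c hc
    obtain ⟨w, hw, hwU, hwe⟩ := exists_unitKer_norm hTT' hL hU hp.out hσ hσp hnorm c.2
      (fun s hs => congrArg ι (hc s (Subgroup.mem_sup_left hs)))
      (congrArg ι (hc σ (Subgroup.mem_sup_right (Subgroup.mem_zpowers σ))))
    refine ⟨⟨w, hw⟩, fun s hs => Subtype.ext (hwU s hs), ?_⟩
    rw [AddMonoidHom.finsetSum_apply]
    refine Subtype.ext ?_
    show ι (∑ i ∈ Finset.range p, σ ^ i • (⟨w, hw⟩ : ↥(unitKer T T'))) = ι c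
    rw [map_sum]
    exact hwe

/-- Lowering an idele at a place of `T`. -/
theorem lower_atIdele {L : IntermediateField ℚ Qb} (hL : IsLvl T L) (q : ↥T)
    (y : ↥(fixedVal q.1 (L.fixingSubgroup.comap (loc q.1))))
    (hlow : atIdele (⟨q.1, hTT' q.2⟩ : ↥T') (hL.mono hTT') y ∈ lowerable T T') :
    lower hTT' ⟨_, hlow⟩ = atIdele q hL y := by
  refine Subtype.ext (Amb.ext (fun r g => ?_) fun r g => ?_)
  · rw [coe_lower, lowerAmb_fin, coe_atIdele, coe_atIdele]
    rcases eq_or_ne r q with rfl | hr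
    · exact (atAmb_fin (⟨r.1, hTT' r.2⟩ : ↥T') _ _ g).trans (atAmb_fin r _ _ g).symm
    · rw [atAmb_fin_of_ne (q := (⟨q.1, hTT' q.2⟩ : ↥T')) _ _
          (fun e => hr (Subtype.ext (congrArg Subtype.val e :))), atAmb_fin_of_ne q _ _ hr]
  · rw [coe_lower, coe_atIdele, coe_atIdele, atAmb_ord]
    by_cases h : r.1 ∈ T'
    · rw [lowerAmb_ord_of_mem hTT' _ r h, atAmb_fin_of_ne (q := (⟨q.1, hTT' q.2⟩ : ↥T')) _ _
        (fun e => r.2 (by
          have e' : r.1 = q.1 := congrArg Subtype.val e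
          rw [e']; exact q.2))]
      exact valOrd_eq_zero_of_mem_unitVal (unitVal r.1).zero_mem
    · rw [lowerAmb_ord_of_not_mem hTT' _ r h, atAmb_ord]

variable {p : ℕ} [Fact p.Prime]

include hTT' in
/-- A relation between local classes lifts to `T'`, after multiplying by an integer prime to
`p`. -/
theorem exists_lifted_coboundary (hT : T.Nonempty) {L : IntermediateField ℚ Qb} (hL : IsLvl T L)
    (q : ↥T) {w : LocGal q.1 → LocGal q.1 → LocVal q.1}
    (hwc : ∀ a b c : LocGal q.1, w (a * b) c + w a b = locAct q.1 a (w b c) + w a (b * c))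
    (hwr : ∀ a b, ∀ s ∈ L.fixingSubgroup.comap (loc q.1), w (a * s) b = w a b ∧ w a (b * s) = w a b)
    (hwf : ∀ a b, w a b ∈ fixedVal q.1 (L.fixingSubgroup.comap (loc q.1))) {k : ℤ}
    (x : LocGal q.1 → Cls T) (hxr : ∀ a, ∀ s ∈ L.fixingSubgroup.comap (loc q.1), x (a * s) = x a)
    (hxf : ∀ a, x a ∈ clsLev T L.fixingSubgroup)
    (hx : ∀ a b, k • clsMk T (atIdele q hL ⟨w a b, hwf a b⟩) =
      loc q.1 a • x b - x (a * b) + x a) :
    ∃ (t : ℕ) (X : LocGal q.1 → Cls T'), ¬ p ∣ t ∧
      (∀ a, X a ∈ clsLev T' L.fixingSubgroup) ∧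
      (∀ a, ∀ s ∈ L.fixingSubgroup.comap (loc q.1), X (a * s) = X a) ∧
      ∀ a b, ((t : ℤ) * k) •
          clsMk T' (atIdele (⟨q.1, hTT' q.2⟩ : ↥T') (hL.mono hTT') ⟨w a b, hwf a b⟩) =
        loc q.1 a • X b - X (a * b) + X a := by
  classical
  haveI := hL.normal
  haveI := hL.finite_gal
  set N := L.fixingSubgroup with hNdef
  set Nv := N.comap (loc q.1) with hNvdef
  haveI : Nv.Normal := Subgroup.Normal.comap hL.normal (loc q.1)
  set q' : ↥T' := ⟨q.1, hTT' q.2⟩
  set hL' := hL.mono hTT'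
  let D := LocGal q.1 ⧸ Nv
  let ι : D →* GQ ⧸ N := QuotientGroup.map Nv N (loc q.1) le_rfl
  have hι : Function.Injective ι := (injective_iff_map_eq_one ι).2 fun a ha => by
    induction a using QuotientGroup.induction_on with | H a => ?_
    have ha' : (QuotientGroup.mk (loc q.1 a) : GQ ⧸ N) = 1 := ha
    exact (QuotientGroup.eq_one_iff a).2 ((QuotientGroup.eq_one_iff (loc q.1 a)).1 ha')
  haveI : Finite D := Finite.of_injective ι hι
  letI : Fintype D := Fintype.ofFinite D
  let out : D → LocGal q.1 := Quotient.out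
  have hout : ∀ a : LocGal q.1, ∃ s ∈ Nv, out (QuotientGroup.mk a) = a * s := fun a => by
    obtain ⟨s, hs⟩ := QuotientGroup.mk_out_eq_mul Nv a
    exact ⟨s, s.2, hs⟩
  have hwout : ∀ a b : LocGal q.1,
      w (out (QuotientGroup.mk a)) (out (QuotientGroup.mk b)) = w a b := fun a b => by
    obtain ⟨s, hs, e⟩ := hout a
    obtain ⟨t, ht, e'⟩ := hout b
    rw [e, e', (hwr _ _ s hs).1, (hwr _ _ t ht).2]
  -- lifted representatives
  have hrep : ∀ a : D, ∃ f' : lowerable T T', (∀ s ∈ N, s • (f' : J T') = f') ∧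
      clsMk T (lower hTT' f') = x (out a) := fun a => by
    obtain ⟨f, hf, hfx⟩ := levelRepresentatives hT L hL N le_rfl _ (hxf (out a))
    obtain ⟨f', hf', he⟩ := exists_lift hTT' hL le_rfl f hf
    exact ⟨f', hf', by rw [he, hfx]⟩
  choose f hf hfx using hrep
  have hfx' : ∀ a : LocGal q.1, clsMk T (lower hTT' (f (QuotientGroup.mk a))) = x a := fun a => by
    obtain ⟨s, hs, e⟩ := hout a
    rw [hfx, e, hxr a s hs]
  have hatlow : ∀ y, atIdele q' hL' y ∈ lowerable T T' := fun y =>
    ⟨L, hL, atIdele_mem_fixed q' hL' y⟩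
  let F : D → D → lowerable T T' := fun a b =>
    k • ⟨_, hatlow ⟨w (out a) (out b), hwf _ _⟩⟩ -
      (⟨_, smul_mem_lowerable (loc q.1 (out a)) (f b).2⟩ - f (a * b) + f a)
  have hFfix : ∀ a b, ∀ s ∈ N, s • (F a b : J T') = F a b := fun a b s hs => by
    have hsmul : s • (loc q.1 (out a) • (f b : J T')) = loc q.1 (out a) • (f b : J T') := by
      have h := hL.normal.conj_mem s hs (loc q.1 (out a))⁻¹
      rw [inv_inv] at h
      conv_rhs => rw [← hf b _ h]
      rw [← mul_smul, ← mul_smul]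
      congr 1
      group
    simp only [F, AddSubgroup.coe_sub, AddSubgroup.coe_add, AddSubgroup.coe_zsmul, smul_sub,
      smul_add, hsmul, hf _ s hs]
    rw [show s • (k • atIdele q' hL' ⟨w (out a) (out b), hwf _ _⟩) =
      k • (s • atIdele q' hL' ⟨w (out a) (out b), hwf _ _⟩) from
        map_zsmul (DistribSMul.toAddMonoidHom ↥(J T') s) k _,
      atIdele_mem_fixed q' hL' _ s hs]
  have hunit : ∀ a b, ∃ u ∈ unitKer T T', (∀ s ∈ N, s • u = u) ∧
      clsMk T' u = clsMk T' (F a b : J T') := fun a b => by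
    refine exists_unitKer_of_clsLower_eq_zero hTT' hT hL le_rfl
      (c := ⟨clsMk T' (F a b : J T'), AddSubgroup.mem_map_of_mem _ (F a b).2⟩)
      (fun s hs => by
        show s • clsMk T' (F a b : J T') = clsMk T' (F a b : J T')
        rw [smul_clsMk, hFfix a b s hs]) ?_
    rw [clsLower_mk]
    simp only [F, map_sub, map_add, map_zsmul]
    rw [lower_atIdele hTT' hL q _ (hatlow _), lower_smul, ← smul_clsMk, hfx, hfx, hfx,
      sub_eq_zero, hx (out a) (out b)]
    congr 2
    obtain ⟨s, hs, e⟩ := hout (out a * out b)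
    rw [QuotientGroup.mk_mul] at e
    simp only [out, QuotientGroup.out_eq'] at e ⊢
    rw [e, hxr _ s hs]
  choose u hu hufix huF using hunit
  -- the actions
  letI actA : DistribMulAction D ↥(fixedPts N ↥(unitKer T T')) :=
    DistribMulAction.compHom _ ι
  letI actC : DistribMulAction D ↥(fixedPts N (Cls T')) := DistribMulAction.compHom _ ι
  have hsmulC : ∀ (a : LocGal q.1) (c : ↥(fixedPts N (Cls T'))),
      (((QuotientGroup.mk a : D) • c : ↥(fixedPts N (Cls T'))) : Cls T') = loc q.1 a • (c : Cls T') :=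
    fun _ _ => rfl
  let U : D × D → ↥(fixedPts N ↥(unitKer T T')) := fun z =>
    ⟨⟨u z.1 z.2, hu _ _⟩, fun s hs => Subtype.ext (hufix z.1 z.2 s hs)⟩
  let j : ↥(fixedPts N ↥(unitKer T T')) →+ ↥(fixedPts N (Cls T')) :=
    AddMonoidHom.codRestrict ((clsMk T').comp ((unitKer T T').subtype.comp
      (fixedPts N ↥(unitKer T T')).subtype)) _ fun v s hs => by
      show s • clsMk T' ((v : ↥(unitKer T T')) : J T') = clsMk T' ((v : ↥(unitKer T T')) : J T')
      rw [smul_clsMk, ← coe_smul_unitKer, v.2 s hs]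
  have hjinj : Function.Injective j := (injective_iff_map_eq_zero j).2 fun v hv =>
    Subtype.ext (Subtype.ext (eq_zero_of_clsMk_unitKer hTT' hT (v : ↥(unitKer T T')).2
      (congrArg Subtype.val hv)))
  have hjeq : ∀ (a : D) v, j (a • v) = a • j v := fun a v => by
    induction a using QuotientGroup.induction_on with | H a => ?_
    exact Subtype.ext (smul_clsMk T' (loc q.1 a) ((v : ↥(unitKer T T')) : J T')).symm
  let C' : D × D → ↥(fixedPts N (Cls T')) := fun z =>
    ⟨clsMk T' (atIdele q' hL' ⟨w (out z.1) (out z.2), hwf _ _⟩), clsMk_atIdele_mem q' hL' _⟩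
  have hC' : IsCocycle₂ C' := by
    intro a b c
    induction a using QuotientGroup.induction_on with | H a => ?_
    induction b using QuotientGroup.induction_on with | H b => ?_
    induction c using QuotientGroup.induction_on with | H c => ?_
    refine Subtype.ext ?_
    rw [← QuotientGroup.mk_mul, ← QuotientGroup.mk_mul]
    simp only [AddSubgroup.coe_add, hsmulC, C', hwout]
    rw [smul_clsMk, smul_atIdele q' hL', ← map_add, ← map_add, ← map_add, ← map_add]
    exact congrArg (fun y => clsMk T' (atIdele q' hL' y)) (Subtype.ext (hwc a b c))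
  let X0 : D → ↥(fixedPts N (Cls T')) := fun a =>
    ⟨clsMk T' (f a : J T'), fun s hs => by rw [smul_clsMk, hf a s hs]⟩
  have hjU : ∀ a b : D, j (U (a, b)) = k • C' (a, b) - (a • X0 b - X0 (a * b) + X0 a) := fun a b => by
    refine Subtype.ext ?_
    show clsMk T' (u a b) = _
    rw [huF]
    have ha : ((a • X0 b : ↥(fixedPts N (Cls T'))) : Cls T') = loc q.1 (out a) • clsMk T' (f b : J T') := by
      conv_lhs => rw [← QuotientGroup.out_eq' a]
      rw [hsmulC]
    simp only [F, AddSubgroup.coe_sub, AddSubgroup.coe_add, AddSubgroup.coe_zsmul, map_sub, map_add,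
      map_zsmul, ha, C', X0]
    rw [smul_clsMk]
  have hU : IsCocycle₂ U := fun a b c => hjinj (by
    simp only [map_add, hjeq, hjU, smul_add, smul_sub, mul_smul, mul_assoc]
    have e : a • (k • C' (b, c)) = k • a • C' (b, c) :=
      map_zsmul (DistribSMul.toAddMonoidHom ↥(fixedPts N (Cls T')) a) k _
    have e2 := congrArg (fun z => k • z) (hC' a b c)
    simp only [smul_add] at e2
    rw [e]
    linear_combination (norm := abel) e2)
  -- vanishing on a Sylow subgroup
  let P : Sylow p D := default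
  set H := (P : Subgroup D).map ι
  let e : (P : Subgroup D) ≃* H := Subgroup.equivMapOfInjective _ ι hι
  have he : ∀ g : H, ι (e.symm g : D) = (g : GQ ⧸ N) := fun g => by
    conv_rhs => rw [← e.apply_symm_apply g]
    rfl
  let z : H × H → ↥(fixedPts N ↥(unitKer T T')) := fun gh =>
    U ((e.symm gh.1 : D), (e.symm gh.2 : D))
  have hz : IsCocycle₂ z := fun g h i => by
    have h1 := hU (e.symm g : D) (e.symm h : D) (e.symm i : D)
    simp only [z, map_mul, Subgroup.coe_mul] at *
    rw [h1, Subgroup.smul_def, ← he g]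
    rfl
  obtain ⟨b, hb⟩ := (cyclicLayers_unitKer hTT' hL p).h2_eq_zero H (P.2.map ι) hz
  have hres : IsCoboundary₂ fun y : ↥(P : Subgroup D) × ↥(P : Subgroup D) =>
      (1 : ℤ) • U ((y.1 : D), (y.2 : D)) := by
    refine ⟨fun g => b (e g), fun g h => ?_⟩
    have h1 := hb (e g) (e h)
    rw [Subgroup.smul_def, ← he (e g)] at h1
    simp only [z, e.symm_apply_apply, ← map_mul] at h1
    simp only [one_smul]
    exact h1
  obtain ⟨B, hB⟩ := isCoboundary₂_index_nsmul hU (P : Subgroup D) 1 hres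
  set t := (P : Subgroup D).index
  refine ⟨t, fun a => (((t : ℤ) • X0 (QuotientGroup.mk a) + j (B (QuotientGroup.mk a)) :
    ↥(fixedPts N (Cls T'))) : Cls T'), P.not_dvd_index, fun a => SetLike.coe_mem _,
    fun a s hs => ?_, fun a b => ?_⟩
  · show _ = _
    have e1 : (QuotientGroup.mk (a * s) : D) = QuotientGroup.mk a :=
      QuotientGroup.eq.2 (by rw [mul_inv_rev, inv_mul_cancel_right]; exact Nv.inv_mem hs)
    simp only [e1]
  · have h1 := congrArg j (hB (QuotientGroup.mk a) (QuotientGroup.mk b))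
    rw [mul_one, map_zsmul, hjU, map_add, map_sub, hjeq] at h1
    have h2 := congrArg (fun z : ↥(fixedPts N (Cls T')) => (z : Cls T')) h1
    simp only [AddSubgroup.coe_add, AddSubgroup.coe_sub, AddSubgroup.coe_zsmul, hsmulC, C', hwout,
      smul_sub, smul_add] at h2
    show ((t : ℤ) * k) • clsMk T' (atIdele q' hL' ⟨w a b, hwf a b⟩) = _
    simp only [AddSubgroup.coe_add, AddSubgroup.coe_zsmul, mul_smul, smul_add, QuotientGroup.mk_mul]
    rw [show loc q.1 a • ((t : ℤ) • (X0 (QuotientGroup.mk b) : Cls T')) =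
      (t : ℤ) • loc q.1 a • (X0 (QuotientGroup.mk b) : Cls T') from
        map_zsmul (DistribSMul.toAddMonoidHom (Cls T') (loc q.1 a)) _ _]
    linear_combination (norm := abel) -h2

end Fermat.Agent.PoitouTate
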