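import Fermat.Agent.PoitouTate.LocalClassOrder
import Fermat.Agent.PoitouTate.LocalClassLift
import Fermat.Agent.PoitouTate.IdeleCyclic
import Mathlib.RingTheory.ZMod.UnitsCyclic

/-!
# A local class of full `p`-order
-/

set_option autoImplicit false
set_option linter.unusedSectionVars false
set_option linter.style.haveILetI false

open ExtCitation groupCohomology

noncomputable section

namespace Fermat.Agent.PoitouTate

local notation "Qb" => AlgebraicClosure ℚ

variable {p : ℕ} [Fact p.Prime] {T : Finset Nat.Primes}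

/-- A character of `p`-power order on a finite cyclic group detects the `p`-part of the order. -/
theorem dvd_of_zsmul_toAdd_eq_zero {G : Type} [CommGroup G] [Finite G] {a b : ℕ}
    (ha : a = (Nat.card G).factorization p) (lam : G →* Multiplicative (ZMod (p ^ a)))
    (hlam : Function.Surjective lam) {u : G} (hu : orderOf u = p ^ b) {m : ℤ}
    (h : m • Multiplicative.toAdd (lam u) = 0) : ((p ^ b : ℕ) : ℤ) ∣ m := by
  have hp := (Fact.out : p.Prime)
  haveI : NeZero (p ^ a) := ⟨pow_ne_zero a hp.ne_zero⟩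
  have hker : lam (u ^ m) = 1 := by
    rw [map_zpow, ← toAdd_eq_zero, toAdd_zpow]
    exact h
  set e := Nat.card lam.ker
  have h1 : (u ^ m) ^ e = 1 := by
    have := pow_card_eq_one' (G := lam.ker) (x := ⟨u ^ m, hker⟩)
    exact congrArg Subtype.val this
  have hcard : Nat.card G = e * p ^ a := by
    rw [← lam.ker.card_mul_index, Subgroup.index_ker, MonoidHom.range_eq_top.2 hlam,
      Subgroup.card_top, Nat.card_congr Multiplicative.toAdd, Nat.card_zmod]
  have he : e = Nat.card G / p ^ a := by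
    rw [hcard, Nat.mul_div_cancel _ (pow_pos hp.pos a)]
  have hcop : Nat.Coprime (p ^ b) e := by
    refine Nat.Coprime.pow_left b ?_
    rw [he, ha]
    exact Nat.coprime_ordCompl hp Nat.card_pos.ne'
  rw [← zpow_natCast, ← zpow_mul, ← orderOf_dvd_iff_zpow_eq_one, hu] at h1
  exact (Nat.isCoprime_iff_coprime.2 hcop).dvd_of_dvd_mul_right h1

/-- The decomposition group of a level is an open subgroup. -/
theorem isLocLevel_comap_loc {L : IntermediateField ℚ Qb} (hL : IsLvl T L) (q : Nat.Primes) :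
    IsLocLevel (L.fixingSubgroup.comap (loc q)) := by
  haveI : FiniteDimensional ℚ L := hL.unramified.1
  refine (isLocLevel_locSub (q := q) (U := L.fixingSubgroup) (L := L) le_rfl 1).mono fun τ hτ => ?_
  simpa [mem_locSub] using hτ

/-- The local class. -/
theorem localClass (hp2 : p ≠ 2) (hpT : pPrime p ∈ T) : LocalClass p T := by
  classical
  have hp := (Fact.out : p.Prime)
  intro L hL q
  haveI := hL.normal
  set N := L.fixingSubgroup with hN
  set Nv := N.comap (loc q.1) with hNv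
  haveI : Nv.Normal := Subgroup.Normal.comap hL.normal (loc q.1)
  have hlev : IsLocLevel Nv := isLocLevel_comap_loc hL q.1
  rcases Nat.eq_zero_or_pos ((Nat.card (LocGal q.1 ⧸ Nv)).factorization p) with hb | hb
  · refine ⟨0, fun g h i => by simp, fun k _ _ _ _ _ => ?_⟩
    rw [hb, pow_zero, Nat.cast_one]
    exact one_dvd k
  obtain ⟨c, hc⟩ := Nat.exists_eq_succ_of_ne_zero hb.ne'
  rw [hc]
  obtain ⟨l, hlq, hcop₀, hord₀⟩ := exists_aux_prime hp hp2 q.1 c
  have hcop : (q.1 : ℕ).Coprime ((l : ℕ) ^ 1) := hcop₀.pow_right 1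
  have hord : orderOf (ZMod.unitOfCoprime (q.1 : ℕ) hcop) = p ^ (c + 1) := by
    have key : ∀ M : ℕ, M = (l : ℕ) → ∀ h : (q.1 : ℕ).Coprime M,
        orderOf (ZMod.unitOfCoprime (q.1 : ℕ) h) = p ^ (c + 1) := by
      rintro _ rfl h
      exact hord₀
    exact key _ (pow_one _) hcop
  haveI : NeZero ((l : ℕ) ^ 1) := ⟨pow_ne_zero 1 l.2.ne_zero⟩
  set G := (ZMod ((l : ℕ) ^ 1))ˣ
  have hcardG : Nat.card G = (l : ℕ) - 1 := by
    rw [Nat.card_eq_fintype_card, ZMod.card_units_eq_totient, Nat.totient_prime_pow l.2 one_pos]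
    simp
  have hdvdG : p ^ (c + 1) ∣ Nat.card G := hord ▸ orderOf_dvd_natCard _
  have hl2 : (l : ℕ) ≠ 2 := fun e => by
    rw [hcardG, e] at hdvdG
    exact hp.ne_one (Nat.dvd_one.1 ((dvd_pow_self p (Nat.succ_ne_zero c)).trans hdvdG))
  haveI : IsCyclic G := ZMod.isCyclic_units_of_prime_pow (l : ℕ) l.2 hl2 1
  -- the character
  set a := (Nat.card G).factorization p with ha
  obtain ⟨lam, hlam⟩ := exists_surjective_to_zmod (G := G) (Nat.ordProj_dvd (Nat.card G) p)
  haveI : NeZero (p ^ a) := ⟨pow_ne_zero a hp.ne_zero⟩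
  set T' := insert l T with hT'def
  have hTT' : T ⊆ T' := Finset.subset_insert l T
  let l' : ↥T' := ⟨l, Finset.mem_insert_self l T⟩
  let q' : ↥T' := ⟨q.1, hTT' q.2⟩
  have hΛ : primeValue l' 1 lam q.1 =
      Multiplicative.toAdd (lam (ZMod.unitOfCoprime (q.1 : ℕ) hcop)) := dif_pos hcop
  have hθ : ∀ (τ : LocGal q.1) (i : ℕ),
      (∀ μ : PadicAlgCl (q.1 : ℕ), μ ^ ((l : ℕ) ^ 1) = 1 → τ μ = μ ^ ((q.1 : ℕ) ^ i)) →
      (cycTheta l' 1 lam).comp (loc q.1) τ =
        Multiplicative.ofAdd (i • primeValue l' 1 lam q.1) := by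
    intro τ i hi
    have e : ZMod.unitOfCoprime _ (hcop.pow_left i) =
        ZMod.unitOfCoprime (q.1 : ℕ) hcop ^ i := Units.ext (by simp)
    rw [MonoidHom.comp_apply, cycTheta_eq_of_pow l' 1 lam (hcop.pow_left i) fun μ hμ => ?_,
      e, map_pow, hΛ, ofAdd_nsmul, ofAdd_toAdd]
    refine (padicEmbedding (q.1 : ℕ)).toRingHom.injective ?_
    show padicEmbedding (q.1 : ℕ) _ = padicEmbedding (q.1 : ℕ) _
    rw [padicEmbedding_loc, map_pow]
    exact hi _ (by rw [← map_pow, hμ, map_one])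
  have hidx : Nv.index • primeValue l' 1 lam q.1 = 0 := by
    have h1 : ZMod.unitOfCoprime (q.1 : ℕ) hcop ^ Nv.index = 1 := by
      rw [← orderOf_dvd_iff_pow_eq_one, hord, ← Nat.succ_eq_add_one, ← hc]
      exact Nat.ordProj_dvd (Nat.card (LocGal q.1 ⧸ Nv)) p
    rw [hΛ, ← toAdd_pow, ← map_pow, h1, map_one, toAdd_one]
  obtain ⟨w, y, hwc, hwr, hwf, hyf, hyr, hwy⟩ :=
    exists_local_cocycle (M := (l : ℕ) ^ 1) hlev hcop ((cycTheta l' 1 lam).comp (loc q.1)) hθ hidx
  -- the cocycle on the quotient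
  let W : (LocGal q.1 ⧸ Nv) × (LocGal q.1 ⧸ Nv) → ↥(fixedPts Nv (LocVal q.1)) := fun z =>
    ⟨w z.1.out z.2.out, hwf _ _⟩
  have hWq : ∀ a b : LocGal q.1,
      ((W (QuotientGroup.mk a, QuotientGroup.mk b)) : LocVal q.1) = w a b := fun a b => by
    obtain ⟨s, hs⟩ := QuotientGroup.mk_out_eq_mul Nv a
    obtain ⟨t, ht⟩ := QuotientGroup.mk_out_eq_mul Nv b
    show w _ _ = _
    rw [hs, ht, (hwr _ _ _ s.2).1, (hwr _ _ _ t.2).2]
  refine ⟨W, fun g h i => ?_, fun k cc x hcc hxf hx => ?_⟩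
  · induction g using QuotientGroup.induction_on with | H g => ?_
    induction h using QuotientGroup.induction_on with | H h => ?_
    induction i using QuotientGroup.induction_on with | H i => ?_
    refine Subtype.ext ?_
    rw [← QuotientGroup.mk_mul, ← QuotientGroup.mk_mul]
    show (W (_, _) : LocVal q.1) + (W (_, _) : LocVal q.1) =
      locAct q.1 g (W (_, _) : LocVal q.1) + (W (_, _) : LocVal q.1)
    rw [hWq, hWq, hWq, hWq]
    exact hwc g h i
  have hrel : ∀ σ τ : LocGal q.1, k • clsMk T (atIdele q hL ⟨w σ τ, hwf σ τ⟩) =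
      loc q.1 σ • x (QuotientGroup.mk τ) - x (QuotientGroup.mk (σ * τ)) + x (QuotientGroup.mk σ) :=
    fun σ τ => by
      rw [← hx σ τ, ← IsAtPlace.eq_clsMk q hL ⟨w σ τ, hwf σ τ⟩
        (c := cc (QuotientGroup.mk σ, QuotientGroup.mk τ))]
      have h := hcc (QuotientGroup.mk σ, QuotientGroup.mk τ)
      rw [hWq] at h
      exact h
  obtain ⟨t, X, ht, hXf, hXr, hX⟩ := exists_lifted_coboundary (p := p) hTT' ⟨_, q.2⟩ hL q hwc hwr hwf
    (fun σ => x (QuotientGroup.mk σ))
    (fun σ s hs => congrArg x (QuotientGroup.eq.2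
      (by rw [mul_inv_rev, inv_mul_cancel_right]; exact Nv.inv_mem hs)))
    (fun σ => hxf _) hrel
  have hql : q' ≠ l' := fun e => hlq (congrArg Subtype.val e).symm
  have hz := zsmul_primeValue_eq_zero (cyclicH1 p T' hp2 (hTT' hpT))
    (cyclicNormIndex p T' hp2 (hTT' hpT)) (hTT' hpT) (hL.mono hTT') q' l' hql 1 lam hlam
    ((hp.odd_of_ne_two hp2).pow) hwc hwr hwf hyf hyr hwy X hXf hXr hX
  rw [hΛ] at hz
  have hdvd := dvd_of_zsmul_toAdd_eq_zero ha lam hlam hord hz
  exact (Nat.isCoprime_iff_coprime.2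
    (Nat.Coprime.pow_left (c + 1) (hp.coprime_iff_not_dvd.2 ht))).dvd_of_dvd_mul_left hdvd

end Fermat.Agent.PoitouTate
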