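import Fermat.Agent.PoitouTate.LocalClassCarry
import Fermat.Agent.PoitouTate.LocalClassConstruct
import Fermat.Agent.PoitouTate.LocalClassIdeles
import Fermat.Agent.PoitouTate.ClassCyclotomic

/-!
# The order of a local class, read through a cyclotomic invariant
-/

set_option autoImplicit false
set_option linter.unusedSectionVars false
set_option linter.style.haveILetI false
set_option maxHeartbeats 1000000

open ExtCitation groupCohomology

noncomputable section

namespace Fermat.Agent.PoitouTate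

local notation "Qb" => AlgebraicClosure ℚ

variable {p : ℕ} [Fact p.Prime] {T : Finset Nat.Primes}

/-- A level trivialising the mod `p` cyclotomic character. -/
theorem exists_lvl_cycloChar (hpT : pPrime p ∈ T) :
    ∃ E : IntermediateField ℚ Qb, IsLvl T E ∧ ∀ s ∈ E.fixingSubgroup, cycloChar p s = 1 := by
  have hp := (Fact.out : p.Prime)
  haveI : NeZero (p ^ 1) := ⟨pow_ne_zero 1 hp.ne_zero⟩
  haveI : Fact (p ^ 1).Prime := ⟨by rw [pow_one]; exact hp⟩
  obtain ⟨lam, hlam⟩ := exists_surjective_to_zmod (G := (ZMod (p ^ 1))ˣ) dvd_rfl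
  have hinj : Function.Injective lam := by
    haveI : Finite (Multiplicative (ZMod (Nat.card (ZMod (p ^ 1))ˣ))) := by
      haveI : NeZero (Nat.card (ZMod (p ^ 1))ˣ) := ⟨Nat.card_pos.ne'⟩
      infer_instance
    exact (Nat.bijective_iff_surjective_and_card lam |>.2
      ⟨hlam, by rw [Nat.card_congr Multiplicative.toAdd, Nat.card_zmod]⟩).1
  obtain ⟨E, hE, hEθ⟩ := exists_cycLevel (⟨pPrime p, hpT⟩ : ↥T) 1 lam
  refine ⟨E, hE, fun s hs => ?_⟩
  haveI : NeZero p := ⟨hp.ne_zero⟩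
  have h1 : MonoidHom.toHomUnits (Datum.chiMod (p ^ 1)) s = 1 := hinj (by
    rw [map_one]; exact MonoidHom.mem_ker.1 (hEθ hs))
  have h2 : ∀ μ : Qb, μ ^ p = 1 → s μ = μ ^ 1 := fun μ hμ => by
    have h3 := Datum.chiMod_spec (p ^ 1) s (μ := μ) (by rw [pow_one]; exact hμ)
    have h4 : Datum.chiMod (p ^ 1) s = 1 := congrArg Units.val h1
    haveI : Fact (1 < p ^ 1) := ⟨by rw [pow_one]; exact hp.one_lt⟩
    rwa [h4, ZMod.val_one] at h3
  have h5 : Datum.chiMod p s = 1 := by
    have := Datum.chiMod_eq_natCast p s h2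
    rwa [Nat.cast_one] at this
  exact Units.ext h5

/-- The idele of `ℚ` equal to `q` at `q`. -/
theorem exists_primeIdele (q : ↥T) :
    ∃ P : baseIdeles T, (∀ g, ((P : J T) : Amb T).fin q g = primeVal q.1) ∧
      (∀ r, r ≠ q → ∀ g, ((P : J T) : Amb T).fin r g = 0) ∧
      ∀ r g, ((P : J T) : Amb T).ord r g = 0 := by
  classical
  let F : Amb T := (fun r _ => if h : r = q then h ▸ primeVal q.1 else 0, fun _ _ => 0)
  have hFq : ∀ g, F.fin q g = primeVal q.1 := fun g => by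
    show dite _ _ _ = _
    rw [dif_pos rfl]
  have hFne : ∀ r, r ≠ q → ∀ g, F.fin r g = 0 := fun r hr g => by
    show dite _ _ _ = _
    rw [dif_neg hr]
  have hFfix : ∀ σ : GQ, σ • F = F := fun σ => Amb.ext (fun _ _ => rfl) fun _ _ => rfl
  have hFJ : F ∈ J T := by
    refine ⟨fun r τ g => ?_, fun _ _ _ => rfl, ⟨⊥, isLvl_bot T, fun s _ => hFfix s⟩, ?_⟩
    · rcases eq_or_ne r q with rfl | hr
      · rw [hFq, hFq, locAct_primeVal]
      · rw [hFne r hr, hFne r hr, map_zero]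
    · refine Set.finite_empty.subset ?_
      rintro r ⟨g, hg⟩
      exact hg rfl
  exact ⟨⟨⟨F, hFJ⟩, fun σ _ => Subtype.ext (hFfix σ)⟩, hFq, hFne, fun _ _ => rfl⟩

theorem idelePsi_primeIdele (l : ↥T) (j : ℕ) {n : ℕ}
    (lam : (ZMod ((l.1 : ℕ) ^ j))ˣ →* Multiplicative (ZMod n)) {q : ↥T} (hql : q ≠ l)
    {P : baseIdeles T} (hq : ∀ g, ((P : J T) : Amb T).fin q g = primeVal q.1)
    (hne : ∀ r, r ≠ q → ∀ g, ((P : J T) : Amb T).fin r g = 0)
    (hord : ∀ r g, ((P : J T) : Amb T).ord r g = 0) :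
    idelePsi l j lam P = primeValue l j lam q.1 := by
  have hfq : finBase q P = Additive.ofMul (Units.mk0 ((q.1 : ℕ) : ℚ_[(q.1 : ℕ)])
      (Nat.cast_ne_zero.2 q.1.2.ne_zero)) := finBase_eq (by
    rw [hq]
    exact Additive.toMul.injective (Units.ext (map_natCast (algebraMap ℚ_[(q.1 : ℕ)] _) _).symm))
  have hf0 : ∀ r, r ≠ q → finBase r P = 0 := fun r hr => finBase_eq (by rw [map_zero]; exact hne r hr 1)
  have hdiv : baseDiv P = Finsupp.single q.1 1 := Finsupp.ext fun r => by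
    rw [baseDiv_apply, Finsupp.single_apply]
    by_cases h : r ∈ T
    · rw [baseOrd_of_mem h]
      rcases eq_or_ne (⟨r, h⟩ : ↥T) q with e | e
      · subst e
        rw [hfq, if_pos rfl]
        exact Padic.valuation_p
      · rw [hf0 _ e, map_zero, if_neg fun e' => e (Subtype.ext e'.symm)]
    · rw [baseOrd_of_not_mem h, hord, if_neg fun (e : q.1 = r) => h (e ▸ q.2)]
  rw [idelePsi_apply, hdiv, Finsupp.sum_single_index (h := fun r a => a • primeValue l j lam r)
    (zero_smul ℤ _), one_smul, hf0 l (Ne.symm hql), map_zero, map_zero, sub_zero]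

/-- A relation between local classes makes the corresponding multiple of the invariant of `q`
vanish. -/
theorem zsmul_primeValue_eq_zero (h1 : CyclicH1 p T) (hidx : CyclicNormIndex p T)
    (hpT : pPrime p ∈ T) {L : IntermediateField ℚ Qb} (hL : IsLvl T L) (q l : ↥T) (hql : q ≠ l)
    (j : ℕ) {a : ℕ} (lam : (ZMod ((l.1 : ℕ) ^ j))ˣ →* Multiplicative (ZMod (p ^ a)))
    (hlam : Function.Surjective lam) (hn : Odd (p ^ a))
    {w : LocGal q.1 → LocGal q.1 → LocVal q.1} {y : LocGal q.1 → LocVal q.1}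
    (hwc : ∀ a b c : LocGal q.1, w (a * b) c + w a b = locAct q.1 a (w b c) + w a (b * c))
    (hwr : ∀ a b, ∀ s ∈ L.fixingSubgroup.comap (loc q.1), w (a * s) b = w a b ∧ w a (b * s) = w a b)
    (hwf : ∀ a b, w a b ∈ fixedVal q.1 (L.fixingSubgroup.comap (loc q.1)))
    (hyf : ∀ a, y a ∈ fixedVal q.1
      (L.fixingSubgroup.comap (loc q.1) ⊓ ((cycTheta l j lam).comp (loc q.1)).ker))
    (hyr : ∀ a, ∀ s ∈ L.fixingSubgroup.comap (loc q.1) ⊓ ((cycTheta l j lam).comp (loc q.1)).ker,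
      y (a * s) = y a)
    (hwy : ∀ a b, thetaCarry ((cycTheta l j lam).comp (loc q.1)) a b • primeVal q.1 - w a b =
      locAct q.1 a (y b) - y (a * b) + y a)
    {K : ℤ} (X : LocGal q.1 → Cls T) (hXf : ∀ a, X a ∈ clsLev T L.fixingSubgroup)
    (hXr : ∀ a, ∀ s ∈ L.fixingSubgroup.comap (loc q.1), X (a * s) = X a)
    (hX : ∀ a b, K • clsMk T (atIdele q hL ⟨w a b, hwf a b⟩) =
      loc q.1 a • X b - X (a * b) + X a) :
    K • primeValue l j lam q.1 = 0 := by
  classical
  haveI : NeZero (p ^ a) := ⟨pow_ne_zero a (Fact.out : p.Prime).ne_zero⟩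
  have hT : T.Nonempty := ⟨_, q.2⟩
  set I := cyclotomicInvariant l j lam hlam hT hn with hI
  set θ := cycTheta l j lam
  haveI := hL.normal
  set N := L.fixingSubgroup
  set Nv := N.comap (loc q.1)
  haveI : Nv.Normal := Subgroup.Normal.comap hL.normal (loc q.1)
  -- the top level
  obtain ⟨E, hE, hEθ⟩ := exists_cycLevel l j lam
  obtain ⟨Ep, hEp, hEpc⟩ := exists_lvl_cycloChar (p := p) hpT
  obtain ⟨K0, hK0, hK0fix, -⟩ := ((hL.sup hE).sup hEp).exists_of_le
    (U := N ⊓ θ.ker ⊓ (cycloChar p).ker) (by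
      rw [IntermediateField.fixingSubgroup_sup, IntermediateField.fixingSubgroup_sup]
      exact inf_le_inf (inf_le_inf_left _ hEθ) fun s hs => MonoidHom.mem_ker.2 (hEpc s hs))
  haveI := hK0.normal
  haveI := hK0.finite_gal
  set M := K0.fixingSubgroup with hMdef
  have hMN : M ≤ N := hK0fix.le.trans (inf_le_left.trans inf_le_left)
  have hMθ : M ≤ I.theta.ker := hK0fix.le.trans (inf_le_left.trans inf_le_right)
  have hMc : ∀ s ∈ M, cycloChar p s = 1 := fun s hs => MonoidHom.mem_ker.1 (hK0fix.le hs).2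
  set Δ := GQ ⧸ M
  letI : Fintype Δ := Fintype.ofFinite _
  set d := layerDigits I hMθ
  -- the decomposition group of the place in the top layer and its product with `N`
  let U2' : Subgroup GQ := N ⊔ (loc q.1).range
  let U2 : Subgroup Δ := U2'.map (QuotientGroup.mk' M)
  let D1 : Subgroup ↥U2 := ((QuotientGroup.mk' M).comp (loc q.1)).range.subgroupOf U2
  letI : Fintype (↥U2 ⧸ D1) := Fintype.ofFinite _
  letI : Fintype (Δ ⧸ U2) := Fintype.ofFinite _
  have hdec : ∀ x : ↥U2, ∃ (n : GQ) (δ : LocGal q.1), n ∈ N ∧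
      (x : Δ) = QuotientGroup.mk (n * loc q.1 δ) := by
    rintro ⟨-, g, hg, rfl⟩
    obtain ⟨n, hn, r, ⟨δ, rfl⟩, rfl⟩ :=
      Subgroup.mem_sup_of_normal_left.1 (hg : g ∈ N ⊔ (loc q.1).range)
    exact ⟨n, δ, hn, rfl⟩
  choose nn δδ hnn hxx using hdec
  let π : ↥U2 → LocGal q.1 ⧸ Nv := fun x => QuotientGroup.mk (δδ x)
  have hπ : ∀ (x : ↥U2) (n : GQ) (δ : LocGal q.1), n ∈ N →
      (x : Δ) = QuotientGroup.mk (n * loc q.1 δ) → π x = QuotientGroup.mk δ := by
    intro x n δ hn hx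
    refine QuotientGroup.eq.2 ?_
    have h := hMN (QuotientGroup.eq.1 ((hxx x).symm.trans hx))
    rw [Subgroup.mem_comap, map_mul, map_inv]
    have h1 := hL.normal.conj_mem _ (N.mul_mem (N.inv_mem (hnn x)) hn) (loc q.1 (δδ x))⁻¹
    have h2 := N.mul_mem (N.inv_mem h1) h
    have e : (loc q.1 (δδ x))⁻¹ * loc q.1 δ =
        ((loc q.1 (δδ x))⁻¹ * ((nn x)⁻¹ * n) * (loc q.1 (δδ x))⁻¹⁻¹)⁻¹ *
          ((nn x * loc q.1 (δδ x))⁻¹ * (n * loc q.1 δ)) := by group
    rw [e]
    exact h2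
  let πh : ↥U2 →* LocGal q.1 ⧸ Nv := MonoidHom.mk' π fun x x' => by
    show π (x * x') = QuotientGroup.mk (δδ x) * QuotientGroup.mk (δδ x')
    rw [← QuotientGroup.mk_mul]
    refine hπ _ (nn x * (loc q.1 (δδ x) * nn x' * (loc q.1 (δδ x))⁻¹)) _
      (N.mul_mem (hnn x) (hL.normal.conj_mem _ (hnn x') _)) ?_
    rw [Subgroup.coe_mul, hxx x, hxx x', ← QuotientGroup.mk_mul, map_mul]
    congr 1
    group
  have hlocmem : ∀ δ : LocGal q.1, (QuotientGroup.mk (loc q.1 δ) : Δ) ∈ U2 := fun δ =>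
    Subgroup.mem_map_of_mem _ (Subgroup.mem_sup_right ⟨δ, rfl⟩)
  -- local values with the action of `U2`
  let R := ↥(fixedPts Nv (LocVal q.1))
  letI actR : DistribMulAction ↥U2 R := DistribMulAction.compHom _ πh
  have hsmulR : ∀ (x : ↥U2) (r : R) (δ : LocGal q.1), π x = QuotientGroup.mk δ →
      (((x • r : R)) : LocVal q.1) = locAct q.1 δ (r : LocVal q.1) := fun x r δ h => by
    change (((π x) • r : R) : LocVal q.1) = _
    rw [h]
    rfl
  let C := ↥(fixedPts M (Cls T))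
  have hNvM : ∀ r : R, (r : LocVal q.1) ∈ fixedVal q.1 (M.comap (loc q.1)) := fun r s hs =>
    r.2 s (hMN hs)
  let toM : R → ↥(fixedVal q.1 (M.comap (loc q.1))) := fun r => ⟨(r : LocVal q.1), hNvM r⟩
  have htoM : ∀ r r', toM (r + r') = toM r + toM r' := fun r r' => Subtype.ext rfl
  let gF : R → C := fun r => ⟨clsMk T (atIdele q hK0 (toM r)), clsMk_atIdele_mem q hK0 (toM r)⟩
  have hgF : ∀ r r', gF (r + r') = gF r + gF r' := fun r r' => by
    refine Subtype.ext ?_
    rw [AddSubgroup.coe_add]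
    show clsMk T (atIdele q hK0 (toM (r + r'))) =
      clsMk T (atIdele q hK0 (toM r)) + clsMk T (atIdele q hK0 (toM r'))
    rw [htoM, map_add (atIdele q hK0), map_add (clsMk T)]
  let gM : R →+ C := AddMonoidHom.mk' gF hgF
  have hgeq : ∀ (h : D1) (r : R), gM ((h : ↥U2) • r) = (h : ↥U2) • gM r := by
    rintro ⟨x, hx⟩ r
    obtain ⟨δ, hδ⟩ := (hx : (x : Δ) ∈ ((QuotientGroup.mk' M).comp (loc q.1)).range)
    have hxπ : π x = QuotientGroup.mk δ :=
      hπ x 1 δ N.one_mem (by rw [one_mul]; exact hδ.symm)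
    refine Subtype.ext ?_
    show clsMk T (atIdele q hK0 ⟨((x • r : R) : LocVal q.1), _⟩) = ((x • gM r : C) : Cls T)
    rw [Subgroup.smul_def x (gM r), show (x : Δ) = QuotientGroup.mk (loc q.1 δ) from hδ.symm,
      coe_quot_smul]
    show _ = loc q.1 δ • clsMk T (atIdele q hK0 ⟨(r : LocVal q.1), hNvM r⟩)
    rw [smul_clsMk, smul_atIdele]
    simp only [hsmulR x r δ hxπ]
  let atN : R → C := fun r =>
    ⟨clsMk T (atIdele q hL r), fun s hs => clsMk_atIdele_mem q hL _ s (hMN hs)⟩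
  have hind : ∀ r : R, indHom D1 gM r = atN r := by
    intro r
    refine Subtype.ext ?_
    show _ = clsMk T (atIdele q hL r)
    have hterm : ∀ i : ↥U2 ⧸ D1, ((i.out • gM (i.out⁻¹ • r) : C) : Cls T) =
        clsMk T (nn i.out • atIdele q hK0 ⟨(r : LocVal q.1), hNvM r⟩) := fun i => by
      rw [Subgroup.smul_def i.out, hxx i.out, coe_quot_smul]
      show (nn i.out * loc q.1 (δδ i.out)) •
        clsMk T (atIdele q hK0 ⟨((i.out⁻¹ • r : R) : LocVal q.1), _⟩) = _
      rw [mul_smul, smul_clsMk, smul_atIdele, smul_clsMk]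
      congr 3
      refine Subtype.ext ?_
      show locAct q.1 (δδ i.out) ((i.out⁻¹ • r : R) : LocVal q.1) = (r : LocVal q.1)
      rw [← hsmulR i.out (i.out⁻¹ • r) (δδ i.out) rfl, smul_inv_smul]
    rw [indHom_apply, AddSubmonoidClass.coe_finsetSum, Finset.sum_congr rfl fun i _ => hterm i,
      ← map_sum]
    refine congrArg (clsMk T) ?_
    let rL : ↥(fixedVal q.1 (L.fixingSubgroup.comap (loc q.1))) := ⟨(r : LocVal q.1), r.2⟩
    have hrL : atIdele q hL r = atIdele q hL rL := rfl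
    rw [hrL]
    refine sum_smul_atIdele q hL hK0 hMN (fun i : ↥U2 ⧸ D1 => nn i.out) (fun i => hnn _) ?_ rL
    intro s hs
    let xs : ↥U2 := ⟨QuotientGroup.mk s⁻¹, Subgroup.mem_map_of_mem _
      (Subgroup.mem_sup_left (N.inv_mem hs))⟩
    have key : ∀ i : ↥U2 ⧸ D1, (∃ τ : LocGal q.1, (loc q.1 τ)⁻¹ * (s * nn i.out) ∈ M) ↔
        i = QuotientGroup.mk xs := by
      intro i
      constructor
      · rintro ⟨τ, hτ⟩
        have e : (QuotientGroup.mk (loc q.1 τ) : Δ) = QuotientGroup.mk (s * nn i.out) :=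
          QuotientGroup.eq.2 hτ
        conv_lhs => rw [← QuotientGroup.out_eq' i]
        refine (QuotientGroup.eq.2 ?_).symm
        show ((xs⁻¹ * i.out : ↥U2) : Δ) ∈ ((QuotientGroup.mk' M).comp (loc q.1)).range
        refine ⟨τ * δδ i.out, ?_⟩
        rw [Subgroup.coe_mul, Subgroup.coe_inv, hxx i.out, MonoidHom.comp_apply,
          QuotientGroup.mk'_apply, map_mul, QuotientGroup.mk_mul, e]
        show _ = (QuotientGroup.mk s⁻¹ : Δ)⁻¹ * _
        rw [← QuotientGroup.mk_inv, inv_inv, ← QuotientGroup.mk_mul, ← QuotientGroup.mk_mul,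
          mul_assoc]
      · intro hi
        have h : xs⁻¹ * i.out ∈ D1 :=
          QuotientGroup.eq.1 (by rw [QuotientGroup.out_eq', ← hi])
        obtain ⟨δ, hδ⟩ := (h : ((xs⁻¹ * i.out : ↥U2) : Δ) ∈
          ((QuotientGroup.mk' M).comp (loc q.1)).range)
        refine ⟨δ * (δδ i.out)⁻¹, QuotientGroup.eq.1 ?_⟩
        change (QuotientGroup.mk (loc q.1 δ) : Δ) =
          (QuotientGroup.mk s⁻¹ : Δ)⁻¹ * ((i.out : ↥U2) : Δ) at hδ
        rw [hxx i.out] at hδ
        rw [map_mul, map_inv, QuotientGroup.mk_mul, hδ]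
        rw [← QuotientGroup.mk_inv, ← QuotientGroup.mk_mul, ← QuotientGroup.mk_mul]
        congr 1
        group
    exact ⟨_, (key _).2 rfl, fun i hi => (key i).1 hi⟩
  -- the cocycles
  let wq : LocGal q.1 ⧸ Nv → LocGal q.1 ⧸ Nv → R := fun a b => ⟨w a.out b.out, hwf _ _⟩
  have hwq : ∀ a b : LocGal q.1,
      ((wq (QuotientGroup.mk a) (QuotientGroup.mk b) : R) : LocVal q.1) = w a b := fun a b => by
    obtain ⟨s, hs⟩ := QuotientGroup.mk_out_eq_mul Nv a
    obtain ⟨t, ht⟩ := QuotientGroup.mk_out_eq_mul Nv b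
    show w _ _ = _
    rw [hs, ht, (hwr _ _ _ s.2).1, (hwr _ _ _ t.2).2]
  let zR : ↥U2 × ↥U2 → R := fun x => wq (π x.1) (π x.2)
  have hzR : IsCocycle₂ zR := fun g h i => by
    refine Subtype.ext ?_
    have eg : π g = QuotientGroup.mk (δδ g) := rfl
    have eh : π h = QuotientGroup.mk (δδ h) := rfl
    have ei : π i = QuotientGroup.mk (δδ i) := rfl
    show ((wq (π (g * h)) (π i) : R) : LocVal q.1) + (wq (π g) (π h) : R) =
      ((g • wq (π h) (π i) : R) : LocVal q.1) + (wq (π g) (π (h * i)) : R)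
    rw [hsmulR g _ (δδ g) rfl, show π (g * h) = π g * π h from map_mul πh g h,
      show π (h * i) = π h * π i from map_mul πh h i, eg, eh, ei, ← QuotientGroup.mk_mul,
      ← QuotientGroup.mk_mul, hwq, hwq, hwq, hwq]
    exact hwc _ _ _
  have hs1 := indHom_cores (H := D1) hgeq hzR
  let α : R := ⟨primeVal q.1, fun τ _ => locAct_primeVal τ⟩
  have hαfix : ∀ x : ↥U2, x • α = α := fun x => Subtype.ext (by
    rw [hsmulR x α (δδ x) rfl]; exact locAct_primeVal _)
  have hA1 : ∀ h ∈ D1, h • gM α = gM α := fun h hh => by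
    rw [← hgeq ⟨h, hh⟩ α, hαfix]
  have hA2 : (∑ i : ↥U2 ⧸ D1, i.out • gM α) = atN α := by
    rw [← hind α, indHom_apply]
    simp only [hαfix]
  let c : ↥U2 × ↥U2 → ℤ := fun x => d.carry (x.1 : Δ) (x.2 : Δ)
  have hc : ∀ g h i, c (g * h, i) + c (g, h) = c (h, i) + c (g, h * i) := fun g h i =>
    d.carry_cocycle (NeZero.ne _) _ _ _
  have hs2 := carry_cores D1 hc hA1
  rw [hA2] at hs2
  -- on the decomposition group the two classes agree
  have hs3 : IsCoboundary₂ fun z : D1 × D1 =>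
      c ((z.1 : ↥U2), (z.2 : ↥U2)) • gM α - gM (zR ((z.1 : ↥U2), (z.2 : ↥U2))) := by
    have hsec : ∀ h : D1, ∃ δ : LocGal q.1, ((h : ↥U2) : Δ) = QuotientGroup.mk (loc q.1 δ) :=
      fun h => by
        obtain ⟨δ, hδ⟩ := (h.2 : ((h : ↥U2) : Δ) ∈ ((QuotientGroup.mk' M).comp (loc q.1)).range)
        exact ⟨δ, hδ.symm⟩
    choose sec hsecδ using hsec
    have hsecπ : ∀ h : D1, π (h : ↥U2) = QuotientGroup.mk (sec h) := fun h =>
      hπ _ 1 _ N.one_mem (by rw [one_mul]; exact hsecδ h)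
    have hyM : ∀ b, y b ∈ fixedVal q.1 (M.comap (loc q.1)) := fun b s hs =>
      hyf b s ⟨hMN hs, hMθ hs⟩
    have hymul : ∀ g h : D1, y (sec (g * h)) = y (sec g * sec h) := fun g h => by
      have e : (QuotientGroup.mk (loc q.1 (sec g * sec h)) : Δ) =
          QuotientGroup.mk (loc q.1 (sec (g * h))) := by
        rw [map_mul, QuotientGroup.mk_mul, ← hsecδ g, ← hsecδ h, ← hsecδ (g * h)]
        rfl
      have h1 := QuotientGroup.eq.1 e
      rw [← map_inv, ← map_mul] at h1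
      conv_lhs => rw [← mul_inv_cancel_left (sec g * sec h) (sec (g * h))]
      exact hyr _ _ ⟨hMN h1, hMθ h1⟩
    let G : D1 → C := fun h =>
      ⟨clsMk T (atIdele q hK0 ⟨y (sec h), hyM _⟩), clsMk_atIdele_mem q hK0 _⟩
    refine ⟨G, fun g h => ?_⟩
    refine Subtype.ext ?_
    show ((((g : ↥U2) : Δ) • G h : C) : Cls T) - (G (g * h) : Cls T) + (G g : Cls T) =
      c ((g : ↥U2), (h : ↥U2)) • ((gM α : C) : Cls T) -
        ((gM (zR ((g : ↥U2), (h : ↥U2))) : C) : Cls T)
    rw [hsecδ g, coe_quot_smul]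
    simp only [G, gM, gF, toM, AddMonoidHom.mk'_apply]
    rw [smul_clsMk, smul_atIdele, ← map_zsmul (clsMk T), ← map_sub (clsMk T), ← map_sub (clsMk T),
      ← map_add (clsMk T), ← map_sub (atIdele q hK0), ← map_add (atIdele q hK0),
      ← map_zsmul (atIdele q hK0), ← map_sub (atIdele q hK0)]
    refine congrArg (fun v => clsMk T (atIdele q hK0 v)) (Subtype.ext ?_)
    simp only [AddSubgroup.coe_add, AddSubgroup.coe_sub, AddSubgroup.coe_zsmul, hymul, zR, hsecπ, hwq]
    rw [← hwy (sec g) (sec h)]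
    congr 2
    show thetaCarry _ (sec g) (sec h) = d.carry ((g : ↥U2) : Δ) ((h : ↥U2) : Δ)
    rw [hsecδ g, hsecδ h]
    rfl
  have hs4 := coresFun_coboundary D1 hs3
  have hmid : IsCoboundary₂ fun x : ↥U2 × ↥U2 => c x • atN α - indHom D1 gM (zR x) := by
    have h5 := mem_B2.1 (sub_mem (add_mem (mem_B2.2 hs2) (mem_B2.2 hs4)) (mem_B2.2 hs1))
    have hf : (fun x : ↥U2 × ↥U2 => c x • atN α - indHom D1 gM (zR x)) =
        ((fun x => c x • atN α - coresFun D1 (fun z => c ((z.1 : ↥U2), (z.2 : ↥U2)) • gM α) x) +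
          coresFun D1 (fun z => c ((z.1 : ↥U2), (z.2 : ↥U2)) • gM α -
            gM (zR ((z.1 : ↥U2), (z.2 : ↥U2))))) -
        (fun x => indHom D1 gM (zR x) -
          coresFun D1 (fun z => gM (zR ((z.1 : ↥U2), (z.2 : ↥U2)))) x) := by
      have hsub : coresFun D1 (fun z => c ((z.1 : ↥U2), (z.2 : ↥U2)) • gM α -
            gM (zR ((z.1 : ↥U2), (z.2 : ↥U2)))) =
          coresFun D1 (fun z => c ((z.1 : ↥U2), (z.2 : ↥U2)) • gM α) -
            coresFun D1 (fun z => gM (zR ((z.1 : ↥U2), (z.2 : ↥U2)))) :=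
        coresFun_sub D1 (fun z => c ((z.1 : ↥U2), (z.2 : ↥U2)) • gM α)
          (fun z => gM (zR ((z.1 : ↥U2), (z.2 : ↥U2))))
      rw [hsub]
      funext x
      simp only [Pi.add_apply, Pi.sub_apply]
      abel
    rw [hf]
    exact h5
  have hKz : IsCoboundary₂ fun x : ↥U2 × ↥U2 => K • indHom D1 gM (zR x) := by
    let XX : ↥U2 → C := fun x => ⟨X (δδ x), fun s hs => hXf _ s (hMN hs)⟩
    refine ⟨XX, fun g h => ?_⟩
    refine Subtype.ext ?_
    simp only [hind]
    show (((g : Δ) • XX h : C) : Cls T) - (XX (g * h) : Cls T) + (XX g : Cls T) =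
      K • ((atN (zR (g, h)) : C) : Cls T)
    rw [hxx g, coe_quot_smul]
    have e1 : (nn g * loc q.1 (δδ g)) • X (δδ h) = loc q.1 (δδ g) • X (δδ h) := by
      rw [mul_smul]
      exact smul_mem_fixedPts (loc q.1 (δδ g)) (hXf _) _ (hnn g)
    have e2 : X (δδ (g * h)) = X (δδ g * δδ h) := by
      have e : π (g * h) = π g * π h := map_mul πh g h
      change QuotientGroup.mk (δδ (g * h)) = QuotientGroup.mk (δδ g) * QuotientGroup.mk (δδ h) at e
      rw [← QuotientGroup.mk_mul] at e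
      conv_lhs => rw [← mul_inv_cancel_left (δδ g * δδ h) (δδ (g * h))]
      exact hXr _ _ (QuotientGroup.eq.1 e.symm)
    show (nn g * loc q.1 (δδ g)) • X (δδ h) - X (δδ (g * h)) + X (δδ g) =
      K • clsMk T (atIdele q hL (zR (g, h)))
    rw [e1, e2, ← hX]
    congr 3
    exact Subtype.ext (hwq (δδ g) (δδ h)).symm
  have hK : IsCoboundary₂ fun x : ↥U2 × ↥U2 => K • c x • atN α := by
    have h := mem_B2.1 (add_mem (mem_B2.2 (mem_B2_zsmul (k := K) hmid)) (mem_B2.2 hKz))
    have hf : (fun x : ↥U2 × ↥U2 => K • c x • atN α) =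
        (fun x => K • (c x • atN α - indHom D1 gM (zR x))) + fun x => K • indHom D1 gM (zR x) := by
      funext x
      rw [Pi.add_apply, smul_sub, sub_add_cancel]
    rw [hf]
    exact h
  -- up to the whole layer
  have hA : ∀ h ∈ U2, h • atN α = atN α := fun h hh => by
    refine Subtype.ext ?_
    show ((((⟨h, hh⟩ : ↥U2) : Δ) • atN α : C) : Cls T) = _
    rw [hxx ⟨h, hh⟩, coe_quot_smul]
    show (nn ⟨h, hh⟩ * loc q.1 (δδ ⟨h, hh⟩)) • clsMk T (atIdele q hL α) = clsMk T (atIdele q hL α)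
    rw [mul_smul, smul_clsMk, smul_clsMk]
    refine congrArg (clsMk T) ?_
    let αL : ↥(fixedVal q.1 (L.fixingSubgroup.comap (loc q.1))) := ⟨(α : LocVal q.1), α.2⟩
    show nn ⟨h, hh⟩ • (loc q.1 (δδ ⟨h, hh⟩) • atIdele q hL αL) = atIdele q hL αL
    rw [smul_atIdele, atIdele_mem_fixed q hL _ _ (hnn ⟨h, hh⟩)]
    exact congrArg (atIdele q hL) (Subtype.ext (locAct_primeVal _))
  have htr := carry_trace U2 (c := fun x : Δ × Δ => d.carry x.1 x.2)
    (fun g h i => d.carry_cocycle (NeZero.ne _) g h i) hA (k := K) hK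
  obtain ⟨P, hPq, hPne, hPord⟩ := exists_primeIdele q
  have hsum : (∑ i : Δ ⧸ U2, i.out • atN α) = liftTop (M := M) (baseClass P) := by
    refine Subtype.ext ?_
    let ρ : Δ ⧸ U2 → GQ := fun i => i.out.out
    have hρ : ∀ i : Δ ⧸ U2, ((i.out • atN α : C) : Cls T) = clsMk T (ρ i • atIdele q hL α) := fun i => by
      conv_lhs => rw [← QuotientGroup.out_eq' i.out]
      rw [coe_quot_smul]
      exact smul_clsMk T _ _
    rw [AddSubmonoidClass.coe_finsetSum, Finset.sum_congr rfl fun i _ => hρ i, ← map_sum]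
    show _ = clsMk T (P : J T)
    congr 1
    refine Subtype.ext (Amb.ext (fun r g => ?_) fun r g => ?_)
    · let ev : J T →+ LocVal r.1 :=
        { toFun := fun e => (e : Amb T).fin r g, map_zero' := rfl, map_add' := fun _ _ => rfl }
      show ev _ = _
      rw [map_sum]
      show ∑ i, (atAmb q N (α : LocVal q.1)).fin r (g * ρ i) = _
      rcases eq_or_ne r q with rfl | hr
      · rw [hPq]
        simp only [atAmb_fin]
        have key : ∀ i : Δ ⧸ U2, (∃ τ : LocGal r.1, (loc r.1 τ)⁻¹ * (g * ρ i) ∈ N) ↔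
            i = QuotientGroup.mk (QuotientGroup.mk g⁻¹ : Δ) := by
          intro i
          constructor
          · rintro ⟨τ, hτ⟩
            conv_lhs => rw [← QuotientGroup.out_eq' i, ← QuotientGroup.out_eq' i.out]
            refine (QuotientGroup.eq.2 ?_).symm
            rw [← QuotientGroup.mk_inv, inv_inv, ← QuotientGroup.mk_mul]
            refine Subgroup.mem_map_of_mem (QuotientGroup.mk' M) ?_
            rw [show g * i.out.out = loc r.1 τ * ((loc r.1 τ)⁻¹ * (g * ρ i)) from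
              (mul_inv_cancel_left _ _).symm]
            exact mul_mem (Subgroup.mem_sup_right ⟨τ, rfl⟩) (Subgroup.mem_sup_left hτ)
          · intro hi
            have h1 : (QuotientGroup.mk g⁻¹ : Δ)⁻¹ * i.out ∈ U2 :=
              QuotientGroup.eq.1 (by rw [QuotientGroup.out_eq', ← hi])
            rw [← QuotientGroup.mk_inv, inv_inv, ← QuotientGroup.out_eq' i.out,
              ← QuotientGroup.mk_mul] at h1
            obtain ⟨u, hu, hu'⟩ := h1
            obtain ⟨n, hn, -, ⟨δ, rfl⟩, rfl⟩ :=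
              Subgroup.mem_sup_of_normal_left.1 (hu : u ∈ N ⊔ (loc r.1).range)
            refine ⟨δ, ?_⟩
            have h2 := hMN (QuotientGroup.eq.1 hu')
            have h3 := hL.normal.conj_mem _ hn (loc r.1 δ)⁻¹
            have h4 := N.mul_mem h3 h2
            simpa [mul_assoc, ρ] using h4
        rw [Finset.sum_eq_single (QuotientGroup.mk (QuotientGroup.mk g⁻¹ : Δ))]
        · obtain ⟨τ, hτ⟩ := (key _).2 rfl
          rw [atPlaceFun_eq (α.2 : (α : LocVal r.1) ∈ fixedVal r.1 Nv) hτ]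
          exact locAct_primeVal τ
        · intro i _ hi
          exact atPlaceFun_eq_zero _ fun τ hτ => hi ((key i).1 ⟨τ, hτ⟩)
        · exact fun e => absurd (Finset.mem_univ _) e
      · rw [hPne r hr]
        exact Finset.sum_eq_zero fun i _ => atAmb_fin_of_ne q _ _ hr _
    · let ev : J T →+ ℤ :=
        { toFun := fun e => (e : Amb T).ord r g, map_zero' := rfl, map_add' := fun _ _ => rfl }
      show ev _ = _
      rw [map_sum, hPord]
      exact Finset.sum_eq_zero fun i _ => rfl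
  rw [hsum] at htr
  have hz := zsmul_psi_eq_zero_of_carry h1 hidx hK0 hMc I hMθ (α := baseClass P) (k := K) htr
  rw [hI, cyclotomicInvariant_psi, classPsi_baseClass,
    idelePsi_primeIdele l j lam hql hPq hPne hPord] at hz
  exact hz

end Fermat.Agent.PoitouTate
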