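import Fermat.Agent.PoitouTate.LocalUnitBox

/-!
# The local norm index theorem for cyclic groups

`L` a locally compact ultrametric field, `G` a finite cyclic group of isometric automorphisms:
the fixed units modulo norms has order `#G`.
-/

set_option autoImplicit false
set_option linter.unusedSectionVars false
set_option linter.style.haveILetI false

noncomputable section

namespace Fermat.Agent.PoitouTate

attribute [local instance] Units.mulDistribMulActionRight

variable {G : Type*} [Group G] [Fintype G]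
variable {L : Type} [NontriviallyNormedField L] [MulSemiringAction G L]
variable [IsUltrametricDist L] [ProperSpace L]

/-! ### An abstract index lemma -/

theorem index_eq_ker_mul_map {U A : Type*} [CommGroup U] [Group A] (h : U →* A) (V : Subgroup U) :
    V.index = (h.ker ⊓ V).relIndex h.ker * (V.map h).relIndex h.range := by
  have h2 : (V.map h).relIndex h.range = (V ⊔ h.ker).index := by
    rw [MonoidHom.range_eq_map, Subgroup.relIndex_map_map, top_sup_eq, Subgroup.relIndex_top_right]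
  rw [h2, Subgroup.inf_relIndex_left, ← Subgroup.relIndex_sup_left (H := h.ker) (K := V),
    Subgroup.relIndex_mul_index le_sup_left]

theorem relIndex_eq_ker_mul_map {A B : Type*} [CommGroup A] [Group B] (h : A →* B)
    {U V : Subgroup A} (hVU : V ≤ U) :
    V.relIndex U = (h.ker ⊓ V).relIndex (h.ker ⊓ U) * (V.map h).relIndex (U.map h) := by
  have hinj : Function.Injective U.subtype := Subtype.val_injective
  have hV : (V.subgroupOf U).map U.subtype = V := Subgroup.map_subgroupOf_eq_of_le hVU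
  have hk : (h.comp U.subtype).ker.map U.subtype = h.ker ⊓ U := by
    rw [← MonoidHom.comap_ker, Subgroup.map_comap_eq, Subgroup.range_subtype, inf_comm]
  have key := index_eq_ker_mul_map (h.comp U.subtype) (V.subgroupOf U)
  rw [← Subgroup.map_map, hV, MonoidHom.range_comp, Subgroup.range_subtype,
    ← Subgroup.relIndex_map_map_of_injective _ _ hinj, Subgroup.map_inf _ _ _ hinj, hk, hV,
    inf_assoc, inf_eq_right.2 hVU] at key
  exact key

/-- For commuting null-composable endomorphisms of `U` with cohomologically trivial finite index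
subgroup `V`, the two cohomology groups of `U` have the same order. -/
theorem relIndex_map_ker_eq {A : Type*} [CommGroup A] (f N : A →* A)
    (hfN : f.comp N = 1) (hNf : N.comp f = 1) {U V : Subgroup A} (hVU : V ≤ U)
    (hfU : U.map f ≤ U) (hNU : U.map N ≤ U) (hfin : V.relIndex U ≠ 0)
    (hf : f.ker ⊓ V = V.map N) (hN : N.ker ⊓ V = V.map f) :
    (U.map N).relIndex (f.ker ⊓ U) = (U.map f).relIndex (N.ker ⊓ U) ∧
      (U.map N).relIndex (f.ker ⊓ U) ≠ 0 := by
  have hNr : U.map N ≤ f.ker ⊓ U := by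
    refine le_inf ?_ hNU
    rintro _ ⟨x, _, rfl⟩; exact DFunLike.congr_fun hfN x
  have hfr : U.map f ≤ N.ker ⊓ U := by
    refine le_inf ?_ hfU
    rintro _ ⟨x, _, rfl⟩; exact DFunLike.congr_fun hNf x
  have h1 := relIndex_eq_ker_mul_map f hVU
  have h2 := relIndex_eq_ker_mul_map N hVU
  rw [hf, ← Subgroup.relIndex_mul_relIndex _ _ _ (Subgroup.map_mono hVU) hNr] at h1
  rw [hN, ← Subgroup.relIndex_mul_relIndex _ _ _ (Subgroup.map_mono hVU) hfr] at h2
  have hne := hfin
  rw [h1] at hne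
  refine ⟨Nat.eq_of_mul_eq_mul_left (n := (V.map N).relIndex (U.map N) * (V.map f).relIndex (U.map f))
    (Nat.pos_of_ne_zero fun h0 => hne (by linear_combination (U.map N).relIndex (f.ker ⊓ U) * h0))
    ?_, fun h0 => hne (by rw [h0]; simp)⟩
  linear_combination h2 - h1

/-! ### The cyclic maps on units -/

variable (G L) in
/-- The norm on units. -/
def unitsNorm : Lˣ →* Lˣ where
  toFun x := ∏ σ : G, σ • x
  map_one' := by simp
  map_mul' x y := by simp [Finset.prod_mul_distrib]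

variable (L) in
/-- `x ↦ g • x / x` on units. -/
def unitsTwist (g : G) : Lˣ →* Lˣ where
  toFun x := g • x / x
  map_one' := by simp
  map_mul' x y := by rw [smul_mul', mul_div_mul_comm]

variable (L) in
/-- Units of norm one. -/
def normOneUnits : Subgroup Lˣ where
  carrier := {x | ‖(x : L)‖ = 1}
  one_mem' := by simp
  mul_mem' {x y} hx hy := by
    simp only [Set.mem_ofPred_eq] at hx hy ⊢
    simp [hx, hy]
  inv_mem' {x} hx := by
    simp only [Set.mem_ofPred_eq] at hx ⊢
    simp [hx]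

variable (hiso : ∀ (σ : G) (x : L), ‖σ • x‖ = ‖x‖)

theorem coe_unitsNorm (x : Lˣ) : (unitsNorm G L x : L) = ∏ σ : G, σ • (x : L) := by
  simp [unitsNorm]

theorem unitsNorm_smul (g : G) (x : Lˣ) : unitsNorm G L (g • x) = unitsNorm G L x := by
  show (∏ σ : G, σ • g • x) = ∏ σ : G, σ • x
  exact Fintype.prod_bijective (· * g) (Group.mulRight_bijective g) _ _ (fun σ => by simp [mul_smul])

theorem smul_unitsNorm (g : G) (x : Lˣ) : g • unitsNorm G L x = unitsNorm G L x := by
  show g • (∏ σ : G, σ • x) = ∏ σ : G, σ • x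
  rw [Finset.smul_prod']
  exact Fintype.prod_bijective (g * ·) (Group.mulLeft_bijective g) _ _ (fun σ => by simp [mul_smul])

include hiso in
theorem norm_unitsNorm (x : Lˣ) : ‖(unitsNorm G L x : L)‖ = ‖(x : L)‖ ^ Fintype.card G := by
  simp [coe_unitsNorm, hiso, Finset.prod_const]

theorem mem_unitsTwist_ker (g : G) (hg : ∀ σ : G, σ ∈ Subgroup.zpowers g) (x : Lˣ) :
    x ∈ (unitsTwist L g).ker ↔ ∀ σ : G, σ • x = x := by
  refine ⟨fun h σ => ?_, fun h => ?_⟩
  · have hx : g ∈ MulAction.stabilizer G x := div_eq_one.1 h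
    exact Subgroup.zpowers_le.2 hx (hg σ)
  · show g • x / x = 1
    rw [h g, div_self']

theorem unitsTwist_comp_unitsNorm (g : G) : (unitsTwist L g).comp (unitsNorm G L) = 1 := by
  ext x : 1
  show g • unitsNorm G L x / unitsNorm G L x = 1
  rw [smul_unitsNorm, div_self']

theorem unitsNorm_comp_unitsTwist (g : G) : (unitsNorm G L).comp (unitsTwist L g) = 1 := by
  ext x : 1
  show unitsNorm G L (g • x / x) = 1
  rw [map_div, unitsNorm_smul, div_self']

/-! ### The box subgroup -/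

namespace GoodBox

variable {hiso} (D : GoodBox G L)

/-- The box. -/
abbrev A : Set L := unitBox G L D.θ

theorem π_ne : D.π ≠ 0 := norm_pos_iff.1 D.π_pos

theorem zero_mem : (0 : L) ∈ D.A :=
  ⟨0, fun σ => ⟨fun τ => smul_zero τ, by simp⟩, by simp⟩

theorem add_mem {a b : L} (ha : a ∈ D.A) (hb : b ∈ D.A) : a + b ∈ D.A := by
  obtain ⟨c, hc, rfl⟩ := ha
  obtain ⟨d, hd, rfl⟩ := hb
  refine ⟨c + d, fun σ => ⟨fun τ => ?_, ?_⟩, ?_⟩
  · rw [Pi.add_apply, smul_add, (hc σ).1, (hd σ).1]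
  · exact (IsUltrametricDist.norm_add_le_max _ _).trans (max_le (hc σ).2 (hd σ).2)
  · rw [← Finset.sum_add_distrib]
    simp [add_mul]

theorem fixed_mul_mem {a k : L} (hk : ∀ σ : G, σ • k = k) (hk1 : ‖k‖ ≤ 1) (ha : a ∈ D.A) :
    k * a ∈ D.A := by
  obtain ⟨c, hc, rfl⟩ := ha
  refine ⟨fun σ => k * c σ, fun σ => ⟨fun τ => ?_, ?_⟩, ?_⟩
  · rw [smul_mul', hk, (hc σ).1]
  · rw [norm_mul]; exact mul_le_one₀ hk1 (norm_nonneg _) (hc σ).2
  · simp [Finset.mul_sum, mul_assoc]

theorem neg_mem {a : L} (ha : a ∈ D.A) : -a ∈ D.A := by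
  simpa using D.fixed_mul_mem (k := -1) (fun σ => by simp) (by simp) ha

theorem π_pow_fixed (n : ℕ) (σ : G) : σ • D.π ^ n = D.π ^ n := by rw [smul_pow', D.π_fixed]

theorem π_pow_mul_mem (n : ℕ) {a : L} (ha : a ∈ D.A) : D.π ^ n * a ∈ D.A :=
  D.fixed_mul_mem (D.π_pow_fixed n) (by rw [norm_pow]; exact pow_le_one₀ (norm_nonneg _) D.π_lt.le)
    ha

theorem mul_mem' {a b : L} (ha : a ∈ D.A) (hb : b ∈ D.A) : a * b ∈ D.A := by
  obtain ⟨c, hc, h⟩ := D.mul_mem a ha b hb
  rw [h]
  simpa using D.π_pow_mul_mem 1 hc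

theorem smul_mem (σ : G) {a : L} (ha : a ∈ D.A) : σ • a ∈ D.A := by
  obtain ⟨c, hc, rfl⟩ := ha
  refine ⟨fun τ => c (σ⁻¹ * τ), fun τ => hc _, ?_⟩
  rw [Finset.smul_sum]
  refine Fintype.sum_bijective (σ * ·) (Group.mulLeft_bijective σ) _ _ (fun τ => ?_)
  simp [smul_mul', (hc τ).1, mul_smul]

theorem sum_mem {ι : Type*} (s : Finset ι) {f : ι → L} (hf : ∀ i ∈ s, f i ∈ D.A) :
    ∑ i ∈ s, f i ∈ D.A := by
  classical
  induction s using Finset.induction_on with
  | empty => simpa using D.zero_mem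
  | insert i s hi ih =>
    rw [Finset.sum_insert hi]
    exact D.add_mem (hf i (Finset.mem_insert_self i s))
      (ih fun j hj => hf j (Finset.mem_insert_of_mem hj))

/-- A fixed element of the box is a trace. -/
theorem exists_trace_eq {a : L} (ha : a ∈ D.A) (hfix : ∀ σ : G, σ • a = a) :
    ∃ b ∈ D.A, a = ∑ σ : G, σ • b := by
  classical
  obtain ⟨c, hc, rfl⟩ := ha
  have hconst : ∀ σ, c σ = c 1 := by
    intro ρ
    have h := D.coord_unique (fun τ => c (ρ * τ) - c τ)
      (fun τ υ => by simp only [smul_sub, (hc _).1]) ?_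
    · exact sub_eq_zero.1 (by simpa using congrFun h 1)
    have hs : ∑ τ, c (ρ * τ) * τ • D.θ = ∑ τ, c τ * τ • D.θ := by
      conv_rhs => rw [← hfix ρ⁻¹, Finset.smul_sum]
      refine Fintype.sum_bijective (fun τ => ρ * τ) (Group.mulLeft_bijective ρ) _ _ fun τ => ?_
      simp [smul_mul', (hc _).1, mul_smul]
    simp [sub_mul, hs]
  refine ⟨c 1 * D.θ, ?_, Finset.sum_congr rfl fun σ _ => ?_⟩
  · refine ⟨fun τ => if τ = 1 then c 1 else 0, fun τ => ?_, by simp⟩
    simp only
    split_ifs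
    · exact hc 1
    · exact ⟨fun υ => smul_zero υ, by simp⟩
  · rw [smul_mul', (hc 1).1, ← hconst σ]

/-- Products of `1 + π ^ i * (box)`. -/
theorem prod_one_add (i : ℕ) {ι : Type*} (s : Finset ι) (f : ι → L) (hf : ∀ j ∈ s, f j ∈ D.A) :
    ∃ r ∈ D.A, ∏ j ∈ s, (1 + D.π ^ i * f j) =
      1 + D.π ^ i * ∑ j ∈ s, f j + D.π ^ (i + 1) * r := by
  classical
  induction s using Finset.induction_on with
  | empty => exact ⟨0, D.zero_mem, by simp⟩
  | insert j s hj ih =>
    obtain ⟨r, hr, h⟩ := ih fun k hk => hf k (Finset.mem_insert_of_mem hk)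
    have hfj := hf j (Finset.mem_insert_self j s)
    obtain ⟨t, ht, hte⟩ :=
      D.mul_mem (f j) hfj (∑ k ∈ s, f k) (D.sum_mem s fun k hk => hf k (Finset.mem_insert_of_mem hk))
    refine ⟨r + D.π ^ i * (t + f j * r), D.add_mem hr (D.π_pow_mul_mem i
      (D.add_mem ht (D.mul_mem' hfj hr))), ?_⟩
    rw [Finset.prod_insert hj, h, Finset.sum_insert hj]
    linear_combination D.π ^ i * D.π ^ i * hte

/-- Perturbing the factors of a product of elements of `1 + box`, to first order. -/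
theorem prod_perturb (j : ℕ) {ι : Type*} (s : Finset ι) (u f : ι → L)
    (hu : ∀ k ∈ s, u k - 1 ∈ D.A) (hf : ∀ k ∈ s, f k ∈ D.A) :
    ∃ t ∈ D.A, ∏ k ∈ s, (u k + D.π ^ j * f k)
        = (∏ k ∈ s, u k) + D.π ^ j * (∑ k ∈ s, f k + D.π * t) ∧
      (∏ k ∈ s, u k) - 1 ∈ D.A := by
  classical
  induction s using Finset.induction_on with
  | empty => exact ⟨0, D.zero_mem, by simp, by simpa using D.zero_mem⟩
  | insert k s hk ih =>
    obtain ⟨t, ht, h, hP⟩ :=
      ih (fun l hl => hu l (Finset.mem_insert_of_mem hl))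
        (fun l hl => hf l (Finset.mem_insert_of_mem hl))
    have huk := hu k (Finset.mem_insert_self k s)
    have hfk := hf k (Finset.mem_insert_self k s)
    have hr : ∑ l ∈ s, f l + D.π * t ∈ D.A :=
      D.add_mem (D.sum_mem s fun l hl => hf l (Finset.mem_insert_of_mem hl))
        (by simpa using D.π_pow_mul_mem 1 ht)
    obtain ⟨t₁, ht₁, he₁⟩ := D.mul_mem _ huk _ hr
    obtain ⟨t₂, ht₂, he₂⟩ := D.mul_mem _ hfk _ hP
    obtain ⟨t₃, ht₃, he₃⟩ := D.mul_mem _ hfk _ hr
    refine ⟨t + t₁ + t₂ + D.π ^ j * t₃,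
      D.add_mem (D.add_mem (D.add_mem ht ht₁) ht₂) (D.π_pow_mul_mem j ht₃), ?_, ?_⟩
    · rw [Finset.prod_insert hk, Finset.prod_insert hk, h, Finset.sum_insert hk]
      linear_combination D.π ^ j * he₁ + D.π ^ j * he₂ + D.π ^ j * D.π ^ j * he₃
    · rw [Finset.prod_insert hk]
      have := D.add_mem (D.add_mem huk hP) (D.mul_mem' huk hP)
      convert this using 1; ring

theorem isCompact_fixedBall (hiso : ∀ (σ : G) (x : L), ‖σ • x‖ = ‖x‖) :
    IsCompact {x : L | (∀ τ : G, τ • x = x) ∧ ‖x‖ ≤ 1} := by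
  have h : {x : L | (∀ τ : G, τ • x = x) ∧ ‖x‖ ≤ 1}
      = Metric.closedBall 0 1 ∩ {x : L | ∀ τ : G, τ • x = x} := by
    ext x; simp [and_comm]
  rw [h]
  exact (isCompact_closedBall 0 1).inter_right (isClosed_fixed hiso)

theorem isCompact_A (hiso : ∀ (σ : G) (x : L), ‖σ • x‖ = ‖x‖) : IsCompact D.A := by
  have h : D.A = (fun c : G → L => ∑ σ, c σ * σ • D.θ) ''
      (Set.univ.pi fun _ : G => {x : L | (∀ τ : G, τ • x = x) ∧ ‖x‖ ≤ 1}) := by
    ext x
    constructor
    · rintro ⟨c, hc, rfl⟩; exact ⟨c, fun σ _ => hc σ, rfl⟩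
    · rintro ⟨c, hc, rfl⟩; exact ⟨c, fun σ => hc σ trivial, rfl⟩
  rw [h]
  refine (isCompact_univ_pi fun _ => isCompact_fixedBall hiso).image ?_
  fun_prop

/-- The set `1 + π ^ i * A`. -/
def Vset (i : ℕ) : Set L := (fun a => 1 + D.π ^ i * a) '' D.A

theorem one_mem_Vset (i : ℕ) : (1 : L) ∈ D.Vset i := ⟨0, D.zero_mem, by simp⟩

theorem mul_mem_Vset (i : ℕ) {x y : L} (hx : x ∈ D.Vset i) (hy : y ∈ D.Vset i) :
    x * y ∈ D.Vset i := by
  obtain ⟨a, ha, rfl⟩ := hx
  obtain ⟨b, hb, rfl⟩ := hy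
  exact ⟨a + b + D.π ^ i * (a * b),
    D.add_mem (D.add_mem ha hb) (D.π_pow_mul_mem i (D.mul_mem' ha hb)), by ring⟩

theorem add_mem_Vset (i k : ℕ) {b : L} (hb : b ∈ D.A) : 1 + D.π ^ (i + k) * b ∈ D.Vset i :=
  ⟨D.π ^ k * b, D.π_pow_mul_mem k hb, by rw [pow_add]; ring⟩

theorem sub_one_mem (i : ℕ) {x : L} (hx : x ∈ D.Vset i) : x - 1 ∈ D.A := by
  obtain ⟨a, ha, rfl⟩ := hx
  simpa using D.π_pow_mul_mem i ha

theorem smul_mem_Vset (i : ℕ) (σ : G) {x : L} (hx : x ∈ D.Vset i) : σ • x ∈ D.Vset i := by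
  obtain ⟨a, ha, rfl⟩ := hx
  exact ⟨σ • a, D.smul_mem σ ha, by rw [smul_add, smul_one, smul_mul', D.π_pow_fixed]⟩

theorem norm_Vset (i : ℕ) {x : L} (hx : x ∈ D.Vset i) : ‖x‖ = 1 := by
  obtain ⟨a, ha, rfl⟩ := hx
  have h1 : ‖D.π ^ i * a‖ < 1 := D.norm_lt _ (D.π_pow_mul_mem i ha)
  rw [IsUltrametricDist.norm_add_eq_max_of_norm_ne_norm (by rw [norm_one]; exact h1.ne'),
    norm_one, max_eq_left h1.le]

theorem exists_eq_of_approx (hiso : ∀ (σ : G) (x : L), ‖σ • x‖ = ‖x‖) (i : ℕ) {F : L → L}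
    (hF : Continuous F) (z : L)
    (h : ∀ k : ℕ, ∃ y ∈ D.Vset i, ∃ r ∈ D.A, z - F y = D.π ^ (i + k) * r) :
    ∃ y ∈ D.Vset i, F y = z := by
  have hc : IsCompact (F '' D.Vset i) :=
    (((D.isCompact_A hiso).image (by fun_prop)).image hF)
  suffices z ∈ closure (F '' D.Vset i) by rwa [hc.isClosed.closure_eq] at this
  rw [Metric.mem_closure_iff]
  intro ε hε
  obtain ⟨k, hk⟩ := exists_pow_lt_of_lt_one hε D.π_lt
  obtain ⟨y, hy, r, hr, he⟩ := h k
  refine ⟨F y, ⟨y, hy, rfl⟩, ?_⟩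
  rw [dist_eq_norm, he, norm_mul, norm_pow]
  calc ‖D.π‖ ^ (i + k) * ‖r‖ ≤ ‖D.π‖ ^ (i + k) * 1 :=
        mul_le_mul_of_nonneg_left (D.norm_lt r hr).le (by positivity)
    _ ≤ ‖D.π‖ ^ k := by
        rw [mul_one]
        exact pow_le_pow_of_le_one (norm_nonneg _) D.π_lt.le (Nat.le_add_left k i)
    _ < ε := hk

theorem exists_inv (hiso : ∀ (σ : G) (x : L), ‖σ • x‖ = ‖x‖) (i : ℕ) {x : L}
    (hx : x ∈ D.Vset i) : ∃ y ∈ D.Vset i, x * y = 1 := by
  refine D.exists_eq_of_approx hiso i (F := fun y => x * y) (continuous_const.mul continuous_id) 1 fun k => ?_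
  induction k with
  | zero =>
    obtain ⟨a, ha, rfl⟩ := hx
    exact ⟨1, D.one_mem_Vset i, -a, D.neg_mem ha, by simp⟩
  | succ k ih =>
    obtain ⟨y, hy, r, hr, he⟩ := ih
    obtain ⟨t, ht, hte⟩ := D.mul_mem r hr r hr
    refine ⟨y * (1 + D.π ^ (i + k) * r), D.mul_mem_Vset i hy (D.add_mem_Vset i k hr),
      D.π ^ (i + k) * t, D.π_pow_mul_mem _ ht, ?_⟩
    rw [show i + (k + 1) = i + k + 1 from rfl, pow_succ]
    linear_combination (1 + D.π ^ (i + k) * r) * he + D.π ^ (i + k) * D.π ^ (i + k) * hte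

/-- The subgroup `1 + π ^ i * A` of the units. -/
def V (hiso : ∀ (σ : G) (x : L), ‖σ • x‖ = ‖x‖) (i : ℕ) : Subgroup Lˣ where
  carrier := {x | (x : L) ∈ D.Vset i}
  one_mem' := D.one_mem_Vset i
  mul_mem' hx hy := D.mul_mem_Vset i hx hy
  inv_mem' {x} hx := by
    obtain ⟨y, hy, he⟩ := D.exists_inv hiso i hx
    show ((x⁻¹ : Lˣ) : L) ∈ D.Vset i
    rwa [Units.val_inv_eq_inv_val, ← eq_inv_of_mul_eq_one_right he]

theorem mem_V_iff (i : ℕ) (x : Lˣ) : x ∈ D.V hiso i ↔ (x : L) ∈ D.Vset i := Iff.rfl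

theorem exists_nhds_V (i : ℕ) :
    ∃ ε : ℝ, 0 < ε ∧ ∀ x : Lˣ, ‖(x : L) - 1‖ < ε → x ∈ D.V hiso i := by
  obtain ⟨ε, hε, h⟩ := D.mem_nhds i
  refine ⟨ε, hε, fun x hx => ?_⟩
  obtain ⟨a, ha, he⟩ := h _ hx
  exact ⟨a, ha, by linear_combination (exp := 1) -he⟩

theorem V_le_normOneUnits (i : ℕ) : D.V hiso i ≤ normOneUnits L :=
  fun _ hx => D.norm_Vset i hx

theorem exists_twist_coeff (g : G) (hg : ∀ σ : G, σ ∈ Subgroup.zpowers g) (c : G → L)
    (hc : ∀ σ, (∀ τ : G, τ • c σ = c σ) ∧ ‖c σ‖ ≤ 1) (hsum : ∑ σ, c σ = 0) :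
    ∃ b ∈ D.A, g • b - b = ∑ σ, c σ * σ • D.θ := by
  classical
  have hm : ∀ σ : G, ∃ m : ℕ, m < orderOf g ∧ g ^ m = σ := fun σ => by
    obtain ⟨m, hm, he⟩ :=
      Finset.mem_image.1 (((isOfFinOrder_of_finite g).mem_zpowers_iff_mem_range_orderOf).1 (hg σ))
    exact ⟨m, Finset.mem_range.1 hm, he⟩
  choose m hm hgm using hm
  let B : ℕ → L := fun n => ∑ l ∈ Finset.range n, c (g ^ (l + 1))
  have hB : ∀ σ, -B (m (g⁻¹ * σ)) + B (m σ) = c σ := by
    intro σ
    rcases (Nat.eq_zero_or_eq_sub_one_add_one : m σ = 0 ∨ m σ = m σ - 1 + 1) with h0 | h1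
    · have hσ : σ = 1 := by rw [← hgm σ, h0, pow_zero]
      have hn : 0 < orderOf g := orderOf_pos g
      have hm' : m (g⁻¹ * σ) = orderOf g - 1 := by
        refine pow_injOn_Iio_orderOf (hm _) (show orderOf g - 1 < orderOf g by omega) ?_
        simp only [hgm]
        rw [hσ, mul_one, inv_eq_iff_mul_eq_one, ← pow_succ', Nat.sub_add_cancel hn,
          pow_orderOf_eq_one]
      have hall : ∑ l ∈ Finset.range (orderOf g), c (g ^ (l + 1)) = 0 := by
        rw [← hsum]
        refine Finset.sum_bij (fun l _ => g ^ (l + 1)) (fun _ _ => Finset.mem_univ _)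
          (fun a ha b hb h => ?_) (fun τ _ => ?_) (fun _ _ => rfl)
        · exact pow_injOn_Iio_orderOf (Finset.mem_range.1 ha) (Finset.mem_range.1 hb)
            (mul_right_cancel (b := g) (by simpa [pow_succ] using h))
        · refine ⟨m (g⁻¹ * τ), Finset.mem_range.2 (hm _), ?_⟩
          rw [pow_succ', hgm, mul_inv_cancel_left]
      rw [hm', h0]
      conv at hall => lhs; rw [← Nat.sub_add_cancel hn, Finset.sum_range_succ,
        Nat.sub_add_cancel hn, pow_orderOf_eq_one]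
      simp only [B, Finset.range_zero, Finset.sum_empty, add_zero, hσ]
      linear_combination -hall
    · have hm' : m (g⁻¹ * σ) = m σ - 1 := by
        refine pow_injOn_Iio_orderOf (hm _) (show m σ - 1 < orderOf g by have := hm σ; omega) ?_
        simp only [hgm]
        rw [inv_mul_eq_iff_eq_mul, ← pow_succ', ← h1, hgm]
      rw [hm', h1, Nat.add_sub_cancel]
      simp only [B, Finset.sum_range_succ]
      rw [← h1, hgm]
      ring
  refine ⟨∑ σ, (-B (m σ)) * σ • D.θ, ⟨fun σ => -B (m σ), fun σ => ⟨fun τ => ?_, ?_⟩, rfl⟩, ?_⟩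
  · simp only [B, smul_neg, Finset.smul_sum, (hc _).1]
  · simp only [B, norm_neg]
    exact IsUltrametricDist.norm_sum_le_of_forall_le_of_nonneg zero_le_one fun l _ => (hc _).2
  · have hfix : ∀ σ, ∀ τ : G, τ • B (m σ) = B (m σ) := fun σ τ => by
      simp only [B, Finset.smul_sum, (hc _).1]
    have hgb : g • ∑ σ, (-B (m σ)) * σ • D.θ = ∑ σ, (-B (m (g⁻¹ * σ))) * σ • D.θ := by
      rw [Finset.smul_sum]
      refine Fintype.sum_bijective (g * ·) (Group.mulLeft_bijective g) _ _ fun σ => ?_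
      simp [smul_mul', hfix, mul_smul]
    rw [hgb, ← Finset.sum_sub_distrib]
    refine Finset.sum_congr rfl fun σ _ => ?_
    rw [← hB σ]; ring

/-- Fixed elements of `V` are norms from `V`. -/
theorem norm_map_V (hiso : ∀ (σ : G) (x : L), ‖σ • x‖ = ‖x‖) (i : ℕ) (g : G)
    (hg : ∀ σ : G, σ ∈ Subgroup.zpowers g) :
    (unitsTwist L g).ker ⊓ D.V hiso i = (D.V hiso i).map (unitsNorm G L) := by
  refine le_antisymm ?_ ?_
  · rintro x ⟨hx1, hx2⟩
    have hfix : ∀ σ : G, σ • (x : L) = x := fun σ => by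
      rw [← Units.coe_smul, (mem_unitsTwist_ker g hg x).1 hx1 σ]
    have hF : Continuous fun y : L => ∏ σ : G, σ • y :=
      continuous_finsetProd _ fun σ _ => continuous_smul_const hiso σ
    obtain ⟨y, hy, he⟩ := D.exists_eq_of_approx hiso i hF (x : L) fun k => by
      induction k with
      | zero =>
        obtain ⟨a, ha, hxa⟩ := hx2
        exact ⟨1, D.one_mem_Vset i, a, ha, by simp [← hxa]⟩
      | succ k ih =>
        obtain ⟨y, hy, r, hr, he⟩ := ih
        have hrfix : ∀ σ : G, σ • r = r := fun σ => by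
          have h := congrArg (σ • ·) he
          simp only [smul_sub, hfix, smul_mul', D.π_pow_fixed] at h
          have hP : σ • (∏ τ : G, τ • y) = ∏ τ : G, τ • y := by
            rw [Finset.smul_prod']
            exact Fintype.prod_bijective (σ * ·) (Group.mulLeft_bijective σ) _ _
              (fun τ => by simp [mul_smul])
          rw [hP, he] at h
          exact (mul_left_cancel₀ (pow_ne_zero _ D.π_ne) h).symm
        obtain ⟨b, hb, hbr⟩ := D.exists_trace_eq hr hrfix
        obtain ⟨t, ht, htp⟩ := D.prod_one_add (i + k) Finset.univ (fun σ : G => σ • b)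
          (fun σ _ => D.smul_mem σ hb)
        obtain ⟨_, _, _, hP1⟩ := D.prod_perturb 0 Finset.univ (fun σ : G => σ • y) (fun _ => 0)
          (fun σ _ => D.sub_one_mem i (D.smul_mem_Vset i σ hy)) (fun _ _ => D.zero_mem)
        obtain ⟨u, hu, hur⟩ := D.mul_mem _ hP1 r hr
        have hPt : (∏ σ : G, σ • y) * t ∈ D.A := by
          have := D.add_mem ht (D.mul_mem' hP1 ht)
          convert this using 1; ring
        refine ⟨y * (1 + D.π ^ (i + k) * b), D.mul_mem_Vset i hy (D.add_mem_Vset i k hb),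
          -(u + (∏ σ : G, σ • y) * t), D.neg_mem (D.add_mem hu hPt), ?_⟩
        have hexp : ∏ σ : G, σ • (y * (1 + D.π ^ (i + k) * b))
            = (∏ σ : G, σ • y) * ∏ σ : G, (1 + D.π ^ (i + k) * σ • b) := by
          rw [← Finset.prod_mul_distrib]
          exact Finset.prod_congr rfl fun σ _ => by
            rw [smul_mul', smul_add, smul_one, smul_mul', D.π_pow_fixed]
        rw [show i + (k + 1) = i + k + 1 from rfl, hexp, htp, ← hbr, pow_succ]
        linear_combination he - D.π ^ (i + k) * hur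
    have hy0 : y ≠ 0 := norm_pos_iff.1 (by rw [D.norm_Vset i hy]; exact one_pos)
    exact ⟨Units.mk0 y hy0, hy, Units.ext (by rw [coe_unitsNorm]; simpa using he)⟩
  · rintro _ ⟨y, hy, rfl⟩
    refine ⟨DFunLike.congr_fun (unitsTwist_comp_unitsNorm g) y, ?_⟩
    show (∏ σ : G, σ • y) ∈ D.V hiso i
    exact Subgroup.prod_mem _ fun σ _ => by
      rw [mem_V_iff, Units.coe_smul]; exact D.smul_mem_Vset i σ hy

/-- `H¹` of `V` vanishes. -/
theorem twist_map_V (hiso : ∀ (σ : G) (x : L), ‖σ • x‖ = ‖x‖) (i : ℕ) (g : G)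
    (hg : ∀ σ : G, σ ∈ Subgroup.zpowers g) :
    (unitsNorm G L).ker ⊓ D.V hiso i = (D.V hiso i).map (unitsTwist L g) := by
  classical
  refine le_antisymm ?_ ?_
  · rintro x ⟨hx1, hx2⟩
    have hNx : ∏ σ : G, σ • (x : L) = 1 := by
      rw [← coe_unitsNorm, (hx1 : unitsNorm G L x = 1), Units.val_one]
    have hF : Continuous fun y : L => g • y - (x : L) * y :=
      (continuous_smul_const hiso g).sub (continuous_const.mul continuous_id)
    obtain ⟨y, hy, he⟩ := D.exists_eq_of_approx hiso i hF 0 fun k => by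
      induction k with
      | zero =>
        obtain ⟨a, ha, hxa⟩ := hx2
        exact ⟨1, D.one_mem_Vset i, a, ha, by simp [← hxa]⟩
      | succ k ih =>
        obtain ⟨y, hy, r, hr, he⟩ := ih
        obtain ⟨t, ht, hpp, _⟩ := D.prod_perturb (i + k) Finset.univ (fun σ : G => σ • g • y)
          (fun σ : G => σ • r)
          (fun σ _ => D.sub_one_mem i (D.smul_mem_Vset i σ (D.smul_mem_Vset i g hy)))
          (fun σ _ => D.smul_mem σ hr)
        have hxy : (x : L) * y = g • y + D.π ^ (i + k) * r := by linear_combination he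
        have hP : ∏ σ : G, σ • g • y = ∏ σ : G, σ • y :=
          Fintype.prod_bijective (· * g) (Group.mulRight_bijective g) _ _
            (fun σ => by simp [mul_smul])
        have hP' : ∏ σ : G, (σ • g • y + D.π ^ (i + k) * σ • r) = ∏ σ : G, σ • y := by
          have h1 : ∀ σ : G, σ • g • y + D.π ^ (i + k) * σ • r = σ • (x : L) * σ • y := fun σ => by
            rw [← smul_mul', hxy, smul_add, smul_mul', D.π_pow_fixed]
          simp only [h1, Finset.prod_mul_distrib, hNx, one_mul]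
        have htr : ∑ σ : G, σ • r = -(D.π * t) := by
          have h := hpp
          rw [hP', hP, left_eq_add, mul_eq_zero] at h
          rcases h with h | h
          · exact absurd h (pow_ne_zero _ D.π_ne)
          · linear_combination h
        obtain ⟨c, hc, hrc⟩ := hr
        obtain ⟨d, hd, htd⟩ := ht
        have hcd : ∑ σ, c σ = -(D.π * d 1) := by
          have hsum' : ∑ σ : G, σ • r = ∑ τ : G, (∑ σ, c σ) * τ • D.θ := by
            simp only [hrc, Finset.smul_sum, smul_mul', (hc _).1, Finset.sum_mul]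
            rw [Finset.sum_comm]
            conv_rhs => rw [Finset.sum_comm]
            refine Finset.sum_congr rfl fun ρ _ => ?_
            exact Fintype.sum_bijective (fun σ => σ * ρ) (Group.mulRight_bijective ρ) _ _
              (fun σ => by simp [mul_smul])
          have h0 : ∑ τ : G, ((∑ σ, c σ) + D.π * d τ) * τ • D.θ = 0 := by
            simp only [add_mul, Finset.sum_add_distrib, ← hsum', mul_assoc, ← Finset.mul_sum, ← htd]
            linear_combination htr
          have hcoord := D.coord_unique (fun τ => (∑ σ, c σ) + D.π * d τ)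
            (fun τ υ => by simp only [smul_add, Finset.smul_sum, smul_mul', (hc _).1, (hd _).1,
              D.π_fixed]) h0
          exact eq_neg_of_add_eq_zero_left (congrFun hcoord 1)
        obtain ⟨b, hb, hbe⟩ := D.exists_twist_coeff g hg
          (fun σ => c σ + if σ = 1 then D.π * d 1 else 0)
          (fun σ => by
            refine ⟨fun τ => ?_, ?_⟩
            · split_ifs <;> simp [smul_add, smul_mul', (hc _).1, (hd _).1, D.π_fixed]
            · refine (IsUltrametricDist.norm_add_le_max _ _).trans (max_le (hc σ).2 ?_)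
              split_ifs
              · rw [norm_mul]; exact mul_le_one₀ D.π_lt.le (norm_nonneg _) (hd 1).2
              · simp)
          (by rw [Finset.sum_add_distrib, hcd]; simp)
        have hbe' : g • b - b = r + D.π * (d 1 * D.θ) := by
          rw [hbe, hrc]; simp [add_mul, Finset.sum_add_distrib, mul_assoc]
        have hdθ : d 1 * D.θ ∈ D.A :=
          ⟨fun τ => if τ = 1 then d 1 else 0, fun τ => by
            simp only
            refine ⟨fun υ => ?_, ?_⟩
            · split_ifs <;> simp [(hd _).1]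
            · split_ifs
              · exact (hd 1).2
              · simp, by simp⟩
        have hrA : r ∈ D.A := ⟨c, hc, hrc⟩
        obtain ⟨u, hu, hue⟩ := D.mul_mem r hrA b hb
        obtain ⟨w, hw, hwe⟩ := D.mul_mem _ (D.sub_one_mem i (D.smul_mem_Vset i g hy)) _
          (D.add_mem hrA (by simpa using D.π_pow_mul_mem 1 hdθ) : r + D.π * (d 1 * D.θ) ∈ D.A)
        refine ⟨y * (1 + D.π ^ (i + k) * b), D.mul_mem_Vset i hy (D.add_mem_Vset i k hb),
          D.π ^ (i + k) * u + -(w + d 1 * D.θ),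
          D.add_mem (D.π_pow_mul_mem _ hu) (D.neg_mem (D.add_mem hw hdθ)), ?_⟩
        rw [show i + (k + 1) = i + k + 1 from rfl, pow_succ, smul_mul', smul_add, smul_one,
          smul_mul', D.π_pow_fixed]
        linear_combination (1 + D.π ^ (i + k) * b) * hxy - D.π ^ (i + k) * g • y * hbe'
          + D.π ^ (i + k) * D.π ^ (i + k) * hue - D.π ^ (i + k) * hwe
    have hy0 : y ≠ 0 := norm_pos_iff.1 (by rw [D.norm_Vset i hy]; exact one_pos)
    refine ⟨Units.mk0 y hy0, hy, ?_⟩
    show g • Units.mk0 y hy0 / Units.mk0 y hy0 = x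
    rw [div_eq_iff_eq_mul]
    exact Units.ext (by simpa [sub_eq_zero] using he)
  · rintro _ ⟨y, hy, rfl⟩
    refine ⟨DFunLike.congr_fun (unitsNorm_comp_unitsTwist g) y, ?_⟩
    exact Subgroup.div_mem _ (by rw [mem_V_iff, Units.coe_smul]; exact D.smul_mem_Vset i g hy) hy

end GoodBox

/-! ### The index theorem -/

variable (G L) in
/-- The units fixed by the whole group. -/
def fixedUnits : Subgroup Lˣ where
  carrier := {x | ∀ σ : G, σ • x = x}
  one_mem' := fun σ => smul_one σ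
  mul_mem' := fun hx hy σ => by rw [smul_mul', hx σ, hy σ]
  inv_mem' := fun hx σ => by rw [smul_inv', hx σ]

theorem unitsTwist_ker_eq (g : G) (hg : ∀ σ : G, σ ∈ Subgroup.zpowers g) :
    (unitsTwist L g).ker = fixedUnits G L :=
  Subgroup.ext fun x => mem_unitsTwist_ker g hg x

variable [FaithfulSMul G L]

theorem unitsNorm_ker_eq (g : G) (hg : ∀ σ : G, σ ∈ Subgroup.zpowers g) :
    (unitsNorm G L).ker = (unitsTwist L g).range := by
  refine le_antisymm (fun x hx => ?_) ?_
  · haveI : IsGalois (FixedPoints.subfield G L) L := ⟨⟩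
    let e := FixedPoints.toAlgAutMulEquiv G L
    have hg' : ∀ φ : Gal(L/FixedPoints.subfield G L), φ ∈ Subgroup.zpowers (e g) := fun φ => by
      obtain ⟨m, hm⟩ := hg (e.symm φ)
      exact ⟨m, by simp only at hm ⊢; rw [← map_zpow, hm, e.apply_symm_apply]⟩
    have hn : Algebra.norm (FixedPoints.subfield G L) (x : L) = 1 := by
      apply (algebraMap (FixedPoints.subfield G L) L).injective
      rw [Algebra.norm_eq_prod_automorphisms, map_one,
        ← Units.val_one, ← (hx : unitsNorm G L x = 1), coe_unitsNorm]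
      exact (Fintype.prod_equiv e.toEquiv _ _ fun σ => rfl).symm
    haveI : IsCyclic Gal(L/FixedPoints.subfield G L) := ⟨⟨e g, hg'⟩⟩
    obtain ⟨y, he⟩ := groupCohomology.exists_div_of_norm_eq_one hg' hn
    refine ⟨y⁻¹, Units.ext ?_⟩
    show ((g • y⁻¹ / y⁻¹ : Lˣ) : L) = x
    rw [Units.val_div_eq_div_val, Units.coe_smul, Units.val_inv_eq_inv_val, smul_inv'',
      div_inv_eq_mul, ← he, inv_mul_eq_div]
    rfl
  · rintro _ ⟨x, rfl⟩
    exact DFunLike.congr_fun (unitsNorm_comp_unitsTwist g) x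

include hiso in
theorem relIndex_V_ne_zero (D : GoodBox G L) (i : ℕ) :
    (D.V hiso i).relIndex (normOneUnits L) ≠ 0 := by
  obtain ⟨ε, hε, h⟩ := D.exists_nhds_V (hiso := hiso) i
  obtain ⟨t, ht, hcov⟩ :=
    Metric.totallyBounded_iff.1 (isCompact_sphere (0 : L) 1).totallyBounded ε hε
  haveI := ht.to_subtype
  rw [Subgroup.relIndex, Subgroup.index_ne_zero_iff_finite]
  have hc : ∀ x : normOneUnits L, ∃ y : t, ‖((x : Lˣ) : L) - y‖ < ε := fun x => by
    obtain ⟨y, hy, hxy⟩ := Set.mem_iUnion₂.1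
      (hcov (mem_sphere_zero_iff_norm.2 (x.2 : ‖((x : Lˣ) : L)‖ = 1)))
    exact ⟨⟨y, hy⟩, by rwa [← dist_eq_norm]⟩
  choose c hc using hc
  refine Finite.of_injective (fun q => c q.out) fun a b hab => ?_
  simp only at hab
  rw [← a.out_eq, ← b.out_eq]
  refine QuotientGroup.eq.2 ?_
  rw [Subgroup.mem_subgroupOf]
  refine h _ ?_
  simp only [Subgroup.coe_mul, Subgroup.coe_inv, Units.val_mul, Units.val_inv_eq_inv_val]
  have ha : ‖((a.out : Lˣ) : L)‖ = 1 := a.out.2
  have hd : ‖((b.out : Lˣ) : L) - ((a.out : Lˣ) : L)‖ < ε := by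
    have := IsUltrametricDist.dist_triangle_max ((b.out : Lˣ) : L) (c b.out : L) ((a.out : Lˣ) : L)
    rw [dist_eq_norm, dist_eq_norm, dist_eq_norm] at this
    refine this.trans_lt (max_lt (hc _) ?_)
    rw [← hab, norm_sub_rev]; exact hc _
  have hne : ((a.out : Lˣ) : L) ≠ 0 := Units.ne_zero _
  calc ‖((a.out : Lˣ) : L)⁻¹ * ((b.out : Lˣ) : L) - 1‖
      = ‖((a.out : Lˣ) : L)⁻¹ * (((b.out : Lˣ) : L) - ((a.out : Lˣ) : L))‖ := by
        rw [mul_sub, inv_mul_cancel₀ hne]
    _ < ε := by rwa [norm_mul, norm_inv, ha, inv_one, one_mul]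

/-- A uniformiser: an element of largest norm below one. -/
theorem exists_uniformizer :
    ∃ ϖ : Lˣ, ‖(ϖ : L)‖ < 1 ∧ ∀ x : Lˣ, ∃ m : ℤ, ‖(x : L)‖ = ‖(ϖ : L)‖ ^ m := by
  obtain ⟨z, hz0, hz1⟩ := NormedField.exists_norm_lt_one L
  have hcl : IsClosed (Metric.ball (0 : L) 1) := IsUltrametricDist.isClosed_ball 0 1
  have hcomp : IsCompact (Metric.ball (0 : L) 1) :=
    (isCompact_closedBall (0 : L) 1).of_isClosed_subset hcl Metric.ball_subset_closedBall
  obtain ⟨w, hw, hmax⟩ := hcomp.exists_isMaxOn ⟨z, mem_ball_zero_iff.2 hz1⟩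
    continuous_norm.continuousOn
  have hwz : ‖z‖ ≤ ‖w‖ := hmax (mem_ball_zero_iff.2 hz1)
  have hw0 : 0 < ‖w‖ := hz0.trans_le hwz
  have hw1 : ‖w‖ < 1 := mem_ball_zero_iff.1 hw
  refine ⟨Units.mk0 w (norm_pos_iff.1 hw0), hw1, fun x => ?_⟩
  obtain ⟨m, hm1, hm2⟩ :=
    exists_mem_Ico_zpow (norm_pos_iff.2 x.ne_zero) ((one_lt_inv₀ hw0).2 hw1)
  refine ⟨-m, ?_⟩
  rw [Units.val_mk0]
  rw [zpow_neg]
  by_contra hne
  have hlt : ‖w‖⁻¹ ^ m < ‖(x : L)‖ := lt_of_le_of_ne hm1 (by rw [inv_zpow]; exact Ne.symm hne)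
  have h1 : ‖(x : L) * w ^ (m + 1)‖ < 1 := by
    rw [norm_mul, norm_zpow]
    calc ‖(x : L)‖ * ‖w‖ ^ (m + 1) < ‖w‖⁻¹ ^ (m + 1) * ‖w‖ ^ (m + 1) :=
          mul_lt_mul_of_pos_right hm2 (zpow_pos hw0 _)
      _ = 1 := by rw [inv_zpow, inv_mul_cancel₀ (zpow_ne_zero _ hw0.ne')]
  have h2 : ‖(x : L) * w ^ (m + 1)‖ ≤ ‖w‖ := hmax (mem_ball_zero_iff.2 h1)
  have h3 : ‖w‖ < ‖(x : L) * w ^ (m + 1)‖ := by
    rw [norm_mul, norm_zpow]
    calc ‖w‖ = ‖w‖⁻¹ ^ m * ‖w‖ ^ (m + 1) := by
          rw [inv_zpow, zpow_add_one₀ hw0.ne', inv_mul_cancel_left₀ (zpow_ne_zero _ hw0.ne')]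
      _ < _ := mul_lt_mul_of_pos_right hlt (zpow_pos hw0 _)
  exact absurd h2 h3.not_ge

include hiso in
theorem unitsNorm_ker_le : (unitsNorm G L).ker ≤ normOneUnits L := by
  intro x hx
  have h := norm_unitsNorm hiso x
  rw [(hx : unitsNorm G L x = 1), Units.val_one, norm_one] at h
  exact (pow_eq_one_iff_of_nonneg (norm_nonneg _) Fintype.card_ne_zero).1 h.symm

include hiso in
theorem range_inf_normOneUnits :
    (unitsNorm G L).range ⊓ normOneUnits L = (normOneUnits L).map (unitsNorm G L) := by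
  refine le_antisymm ?_ ?_
  · rintro _ ⟨⟨x, rfl⟩, hx⟩
    refine ⟨x, ?_, rfl⟩
    have h := norm_unitsNorm hiso x
    rw [(hx : ‖(unitsNorm G L x : L)‖ = 1)] at h
    exact (pow_eq_one_iff_of_nonneg (norm_nonneg _) Fintype.card_ne_zero).1 h.symm
  · rintro _ ⟨x, hx, rfl⟩
    refine ⟨⟨x, rfl⟩, ?_⟩
    show ‖(unitsNorm G L x : L)‖ = 1
    rw [norm_unitsNorm hiso, (hx : ‖(x : L)‖ = 1), one_pow]

include hiso in
theorem smul_mem_normOneUnits (σ : G) {x : Lˣ} (hx : x ∈ normOneUnits L) :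
    σ • x ∈ normOneUnits L := by
  show ‖((σ • x : Lˣ) : L)‖ = 1
  rw [Units.coe_smul, hiso]; exact hx

include hiso in
/-- The unit Herbrand quotient is trivial. -/
theorem relIndex_norm_units_eq (g : G) (hg : ∀ σ : G, σ ∈ Subgroup.zpowers g) :
    ((normOneUnits L).map (unitsNorm G L)).relIndex (fixedUnits G L ⊓ normOneUnits L)
      = ((normOneUnits L).map (unitsTwist L g)).relIndex (unitsNorm G L).ker ∧
    ((normOneUnits L).map (unitsNorm G L)).relIndex (fixedUnits G L ⊓ normOneUnits L) ≠ 0 := by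
  obtain ⟨D⟩ := exists_goodBox (G := G) hiso
  have h := relIndex_map_ker_eq (unitsTwist L g) (unitsNorm G L) (unitsTwist_comp_unitsNorm g)
    (unitsNorm_comp_unitsTwist g) (D.V_le_normOneUnits (hiso := hiso) 1)
    (by rintro _ ⟨x, hx, rfl⟩; exact Subgroup.div_mem _ (smul_mem_normOneUnits hiso g hx) hx)
    (by rw [← range_inf_normOneUnits hiso]; exact inf_le_right)
    (relIndex_V_ne_zero hiso D 1) (D.norm_map_V hiso 1 g hg) (D.twist_map_V hiso 1 g hg)
  rwa [unitsTwist_ker_eq g hg, inf_eq_left.2 (unitsNorm_ker_le hiso)] at h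

include hiso in
theorem index_range_sup_normOneUnits :
    ((unitsNorm G L).range ⊔ normOneUnits L).index = Fintype.card G := by
  obtain ⟨ϖ, hϖ, hm⟩ := exists_uniformizer (L := L)
  have hϖ0 : 0 < ‖(ϖ : L)‖ := norm_pos_iff.2 ϖ.ne_zero
  have hinj : Function.Injective fun m : ℤ => ‖(ϖ : L)‖ ^ m :=
    (zpow_right_strictAnti₀ hϖ0 hϖ).injective
  choose v hv using hm
  let e : Lˣ →* Multiplicative ℤ :=
    MonoidHom.mk' (fun x => Multiplicative.ofAdd (v x)) fun x y => by
      rw [← ofAdd_add]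
      refine congrArg _ (hinj ?_)
      simp only
      rw [← hv, zpow_add₀ hϖ0.ne', ← hv, ← hv, Units.val_mul, norm_mul]
  have he : ∀ x : Lˣ, ‖(x : L)‖ = ‖(ϖ : L)‖ ^ (Multiplicative.toAdd (e x)) := hv
  have hker : e.ker = normOneUnits L := by
    ext x
    show e x = 1 ↔ ‖(x : L)‖ = 1
    rw [he x]
    refine ⟨fun h => by simp [h], fun h => ?_⟩
    exact Multiplicative.toAdd.injective (hinj (a₂ := 0) (by simpa using h))
  have hϖ1 : e ϖ = Multiplicative.ofAdd 1 :=
    Multiplicative.toAdd.injective (hinj (a₂ := 1) (by simpa using (he ϖ).symm))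
  have hsurj : Function.Surjective e := fun m =>
    ⟨ϖ ^ Multiplicative.toAdd m, by rw [map_zpow, hϖ1]; simp [← ofAdd_zsmul]⟩
  rw [← Subgroup.index_map_eq _ hsurj (hker.trans_le le_sup_right), Subgroup.map_sup,
    ← hker, (Subgroup.map_eq_bot_iff _).2 le_rfl, sup_bot_eq]
  have hN : (unitsNorm G L).range.map e =
      Subgroup.zpowers (Multiplicative.ofAdd (Fintype.card G : ℤ)) := by
    have hNe : ∀ x, e (unitsNorm G L x) = e x ^ Fintype.card G := fun x => by
      refine Multiplicative.toAdd.injective (hinj ?_)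
      simp only
      rw [← he, norm_unitsNorm hiso, he x, toAdd_pow, nsmul_eq_mul, ← zpow_natCast, ← zpow_mul]
      congr 1
      ring
    ext y
    constructor
    · rintro ⟨_, ⟨x, rfl⟩, rfl⟩
      refine ⟨Multiplicative.toAdd (e x), ?_⟩
      simp only
      rw [hNe, ← ofAdd_zsmul]
      refine Multiplicative.toAdd.injective ?_
      simp [mul_comm]
    · rintro ⟨m, rfl⟩
      refine ⟨unitsNorm G L (ϖ ^ m), ⟨_, rfl⟩, ?_⟩
      refine Multiplicative.toAdd.injective ?_
      simp [hNe, map_zpow, hϖ1]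
  rw [hN]
  have hz : Subgroup.zpowers (Multiplicative.ofAdd (Fintype.card G : ℤ))
      = AddSubgroup.toSubgroup (AddSubgroup.zmultiples (Fintype.card G : ℤ)) := by
    ext y
    constructor
    · rintro ⟨k, rfl⟩; exact ⟨k, rfl⟩
    · rintro ⟨k, hk⟩; exact ⟨k, hk⟩
  rw [hz, AddSubgroup.index_toSubgroup, Int.index_zmultiples, Int.natAbs_natCast]

include hiso in
/-- Fixed norm-one units modulo norms of norm-one units have the order of the ramification
index. -/
theorem relIndex_norm_units (g : G) (hg : ∀ σ : G, σ ∈ Subgroup.zpowers g) :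
    ((normOneUnits L).map (unitsNorm G L)).relIndex (fixedUnits G L ⊓ normOneUnits L)
      = (normOneUnits L ⊔ fixedUnits G L).index := by
  rw [(relIndex_norm_units_eq hiso g hg).1, unitsNorm_ker_eq g hg, MonoidHom.range_eq_map,
    Subgroup.relIndex_map_map, top_sup_eq, Subgroup.relIndex_top_right, unitsTwist_ker_eq g hg]

include hiso in
/-- In the unramified case every fixed norm-one unit is the norm of a norm-one unit. -/
theorem units_le_norm_of_unramified (g : G) (hg : ∀ σ : G, σ ∈ Subgroup.zpowers g)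
    (hunr : normOneUnits L ⊔ fixedUnits G L = ⊤) :
    fixedUnits G L ⊓ normOneUnits L ≤ (normOneUnits L).map (unitsNorm G L) := by
  have h := relIndex_norm_units hiso g hg
  rw [hunr, Subgroup.index_top] at h
  exact Subgroup.relIndex_eq_one.1 h

include hiso in
/-- **Local norm index theorem.** For a finite cyclic group of isometric automorphisms of a
locally compact ultrametric field, the norms have index `#G` in the fixed units. -/
theorem relIndex_range_unitsNorm (g : G) (hg : ∀ σ : G, σ ∈ Subgroup.zpowers g) :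
    (unitsNorm G L).range.relIndex (fixedUnits G L) = Fintype.card G := by
  have hNF : (unitsNorm G L).range ≤ fixedUnits G L := by
    rintro _ ⟨x, rfl⟩ σ; exact smul_unitsNorm σ x
  have h1 : (unitsNorm G L).range.relIndex (fixedUnits G L)
      = (unitsNorm G L).range.relIndex ((unitsNorm G L).range ⊔ (normOneUnits L ⊓ fixedUnits G L))
        * ((unitsNorm G L).range ⊔ (normOneUnits L ⊓ fixedUnits G L)).relIndex (fixedUnits G L) :=
    (Subgroup.relIndex_mul_relIndex _ _ _ le_sup_left (sup_le hNF inf_le_right)).symm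
  have hUN : (normOneUnits L).map (unitsNorm G L) ≤ fixedUnits G L := by
    rintro _ ⟨x, _, rfl⟩ σ; exact smul_unitsNorm σ x
  have hq : (unitsNorm G L).range.relIndex (normOneUnits L ⊓ fixedUnits G L)
      = (normOneUnits L ⊔ fixedUnits G L).index := by
    have e1 : (unitsNorm G L).range.relIndex (normOneUnits L ⊓ fixedUnits G L)
        = ((unitsNorm G L).range ⊓ (normOneUnits L ⊓ fixedUnits G L)).relIndex
            (normOneUnits L ⊓ fixedUnits G L) := (Subgroup.inf_relIndex_right _ _).symm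
    have e2 : (unitsNorm G L).range ⊓ (normOneUnits L ⊓ fixedUnits G L)
        = (normOneUnits L).map (unitsNorm G L) := by
      rw [← inf_assoc, range_inf_normOneUnits hiso, inf_eq_left.2 hUN]
    have e3 := (relIndex_norm_units_eq hiso g hg).1
    rw [e1, e2, inf_comm, e3, unitsNorm_ker_eq g hg, MonoidHom.range_eq_map,
      Subgroup.relIndex_map_map, top_sup_eq, Subgroup.relIndex_top_right, unitsTwist_ker_eq g hg]
  have h2 : ((unitsNorm G L).range ⊔ (normOneUnits L ⊓ fixedUnits G L)).relIndex (fixedUnits G L)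
      = ((unitsNorm G L).range ⊔ normOneUnits L).relIndex (normOneUnits L ⊔ fixedUnits G L) := by
    have e1 : (unitsNorm G L).range ⊔ (normOneUnits L ⊓ fixedUnits G L)
        = ((unitsNorm G L).range ⊔ normOneUnits L) ⊓ fixedUnits G L :=
      (sup_inf_assoc_of_le _ hNF).symm
    have e2 : (unitsNorm G L).range ⊔ normOneUnits L ⊔ fixedUnits G L
        = normOneUnits L ⊔ fixedUnits G L := by
      rw [sup_assoc, sup_eq_right.2 (hNF.trans le_sup_right)]
    rw [e1, Subgroup.inf_relIndex_right, ← e2]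
    exact (Subgroup.relIndex_sup_left _ _).symm
  rw [h1, Subgroup.relIndex_sup_left, h2, hq, mul_comm,
    Subgroup.relIndex_mul_index (sup_le (hNF.trans le_sup_right) le_sup_left),
    index_range_sup_normOneUnits hiso]

end Fermat.Agent.PoitouTate
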