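import Mathlib

/-!
# Cohomologically trivial open subgroups of local units

`L` is a locally compact ultrametric field, `G` a finite group of isometric automorphisms.
For a suitable normal basis box `A` and `π` fixed by `G`, the groups `1 + π ^ i • A` have
surjective norm onto their fixed points and trivial first cohomology (cyclic case).
-/

set_option autoImplicit false
set_option linter.unusedSectionVars false
set_option linter.style.haveILetI false

noncomputable section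

namespace Fermat.Agent.PoitouTate

variable (G : Type*) [Group G] [Fintype G]
variable (L : Type*) [NontriviallyNormedField L] [MulSemiringAction G L]

/-- The box of combinations `∑ c σ * σ • θ` with `c σ` fixed of norm at most one. -/
def unitBox (θ : L) : Set L :=
  {x | ∃ c : G → L, (∀ σ, (∀ τ : G, τ • c σ = c σ) ∧ ‖c σ‖ ≤ 1) ∧ x = ∑ σ, c σ * σ • θ}

/-- The data of a good box: small, multiplicatively contracting, normal basis. -/
structure GoodBox where
  θ : L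
  π : L
  π_fixed : ∀ σ : G, σ • π = π
  π_pos : 0 < ‖π‖
  π_lt : ‖π‖ < 1
  coord_unique : ∀ c : G → L, (∀ σ (τ : G), τ • c σ = c σ) → (∑ σ, c σ * σ • θ = 0) → c = 0
  norm_lt : ∀ a ∈ unitBox G L θ, ‖a‖ < 1
  mul_mem : ∀ a ∈ unitBox G L θ, ∀ b ∈ unitBox G L θ, ∃ c ∈ unitBox G L θ, a * b = π * c
  mem_nhds : ∀ i : ℕ, ∃ ε : ℝ, 0 < ε ∧ ∀ x : L, ‖x‖ < ε → ∃ a ∈ unitBox G L θ, x = π ^ i * a

variable {G L}
variable [IsUltrametricDist L] [ProperSpace L]
variable (hiso : ∀ (σ : G) (x : L), ‖σ • x‖ = ‖x‖)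

omit [Fintype G] [IsUltrametricDist L] [ProperSpace L] in
include hiso in
theorem continuous_smul_const (σ : G) : Continuous fun x : L => σ • x :=
  (AddMonoidHomClass.isometry_of_norm (DistribSMul.toAddMonoidHom L σ) (hiso σ)).continuous

omit [Fintype G] [IsUltrametricDist L] [ProperSpace L] in
include hiso in
theorem isClosed_fixed : IsClosed {x : L | ∀ σ : G, σ • x = x} := by
  simp only [Set.ofPred_forall]
  exact isClosed_iInter fun σ => isClosed_eq (continuous_smul_const hiso σ) continuous_id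

omit [IsUltrametricDist L] [ProperSpace L] in
include hiso in
theorem exists_fixed_norm_lt_one :
    ∃ π : L, (∀ σ : G, σ • π = π) ∧ 0 < ‖π‖ ∧ ‖π‖ < 1 := by
  obtain ⟨x, hx0, hx1⟩ := NormedField.exists_norm_lt_one L
  refine ⟨∏ σ : G, σ • x, fun τ => ?_, ?_, ?_⟩
  · rw [Finset.smul_prod']
    exact Fintype.prod_bijective (τ * ·) (Group.mulLeft_bijective τ) _ _ (fun σ => by simp [mul_smul])
  · rw [norm_prod]; exact Finset.prod_pos fun σ _ => by rw [hiso]; exact hx0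
  · rw [norm_prod]; simp only [hiso, Finset.prod_const]
    exact pow_lt_one₀ (norm_nonneg x) hx1 (Finset.card_ne_zero.2 Finset.univ_nonempty)

theorem unitBox_norm_le {θ a : L} (hiso : ∀ (σ : G) (x : L), ‖σ • x‖ = ‖x‖)
    (ha : a ∈ unitBox G L θ) : ‖a‖ ≤ ‖θ‖ := by
  obtain ⟨c, hc, rfl⟩ := ha
  refine IsUltrametricDist.norm_sum_le_of_forall_le_of_nonneg (norm_nonneg θ) fun σ _ => ?_
  rw [norm_mul, hiso]
  exact mul_le_of_le_one_left (norm_nonneg θ) (hc σ).2

omit [ProperSpace L] in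
theorem exists_basis [FaithfulSMul G L] :
    ∃ θ : L, ∃ b : Module.Basis G (FixedPoints.subfield G L) L, ∀ σ, b σ = σ • θ := by
  haveI : IsGalois (FixedPoints.subfield G L) L := ⟨⟩
  obtain ⟨θ, hθ⟩ := exists_linearIndependent_algEquiv_apply (FixedPoints.subfield G L) L
  refine ⟨θ, basisOfLinearIndependentOfCardEqFinrank
    (hθ.comp _ (FixedPoints.toAlgAut_bijective G L).1) ?_, fun σ => ?_⟩
  · rw [FixedPoints.finrank_eq_card]
  · simp

include hiso in
theorem exists_coord_bound [FaithfulSMul G L] :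
    ∃ θ : L, ∃ φ : L →+ (G → L), ∃ C : ℝ, 0 < C ∧
      (∀ x σ (τ : G), τ • φ x σ = φ x σ) ∧ (∀ x, ∑ σ, φ x σ * σ • θ = x) ∧
      (∀ x σ, ‖φ x σ‖ ≤ C * ‖x‖) ∧
      (∀ c : G → L, (∀ σ (τ : G), τ • c σ = c σ) → φ (∑ σ, c σ * σ • θ) = c) := by
  classical
  let K := FixedPoints.subfield G L
  obtain ⟨θ, b, hb⟩ := exists_basis (G := G) (L := L)
  letI : NontriviallyNormedField K :=
    { (inferInstance : NormedField K) with
      non_trivial := by
        obtain ⟨π, hπ, h0, h1⟩ := exists_fixed_norm_lt_one hiso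
        refine ⟨⟨π⁻¹, fun σ => by rw [smul_inv'', hπ]⟩, ?_⟩
        show 1 < ‖π⁻¹‖
        rw [norm_inv]; exact (one_lt_inv₀ h0).2 h1 }
  haveI : CompleteSpace K :=
    (isClosed_fixed hiso).completeSpace_coe
  letI : NormedSpace K L :=
    { norm_smul_le := fun a x => (norm_mul_le _ _) }
  let e := b.equivFun.toLinearMap
  have he : Continuous e := LinearMap.continuous_of_finiteDimensional e
  let E : L →L[K] (G → K) := ⟨e, he⟩
  refine ⟨θ, { toFun := fun x σ => (E x σ : L), map_zero' := ?_, map_add' := ?_ }, ‖E‖ + 1,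
    by positivity, fun x σ τ => (E x σ).2 τ, fun x => ?_, fun x σ => ?_, fun c hc => ?_⟩
  · funext σ; simp
  · intro x y; funext σ; simp
  · conv_rhs => rw [← b.sum_equivFun x]
    exact Finset.sum_congr rfl fun σ _ => by rw [hb]; rfl
  · calc ‖(E x σ : L)‖ ≤ ‖E x‖ := norm_le_pi_norm (E x) σ
      _ ≤ ‖E‖ * ‖x‖ := E.le_opNorm x
      _ ≤ (‖E‖ + 1) * ‖x‖ := by nlinarith [norm_nonneg x]
  · have h : (∑ σ, c σ * σ • θ) = b.equivFun.symm (fun σ => ⟨c σ, hc σ⟩) := by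
      rw [b.equivFun_symm_apply]
      exact Finset.sum_congr rfl fun σ _ => by rw [hb]; rfl
    funext σ
    rw [h]
    show ((b.equivFun (b.equivFun.symm _) σ : K) : L) = c σ
    rw [LinearEquiv.apply_symm_apply]

include hiso in
theorem exists_goodBox [FaithfulSMul G L] : Nonempty (GoodBox G L) := by
  obtain ⟨θ, φ, C, hC, hfix, hsum, hbd, huniq⟩ := exists_coord_bound hiso
  obtain ⟨π, hπ, h0, h1⟩ := exists_fixed_norm_lt_one hiso
  have hπ0 : π ≠ 0 := norm_pos_iff.1 h0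
  obtain ⟨k, hk⟩ : ∃ k : ℕ, ‖π‖ ^ k * (‖θ‖ + C * ‖θ‖ * ‖θ‖ / ‖π‖ + 1) < 1 := by
    have h : (0 : ℝ) < ‖θ‖ + C * ‖θ‖ * ‖θ‖ / ‖π‖ + 1 := by positivity
    obtain ⟨k, hk⟩ := exists_pow_lt_of_lt_one (one_div_pos.2 h) h1
    exact ⟨k, by rwa [lt_div_iff₀ h] at hk⟩
  have hk1 : ‖π ^ k * θ‖ < 1 := by
    rw [norm_mul, norm_pow]
    have : 0 ≤ ‖π‖ ^ k * (C * ‖θ‖ * ‖θ‖ / ‖π‖ + 1) := by positivity
    linarith
  have hpow : ∀ (n : ℕ) (σ : G), σ • π ^ n = π ^ n := fun n σ => by rw [smul_pow', hπ]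
  have hbox : ∀ x : L, (∀ σ, ‖φ x σ‖ ≤ ‖π‖ ^ k) → x ∈ unitBox G L (π ^ k * θ) := by
    intro x hx
    refine ⟨fun σ => φ x σ / π ^ k, fun σ => ⟨fun τ => ?_, ?_⟩, ?_⟩
    · simp only [div_eq_mul_inv]; rw [smul_mul', smul_inv'', hfix, hpow]
    · simp only [norm_div, norm_pow]; rw [div_le_one (pow_pos h0 k)]; exact hx σ
    · conv_lhs => rw [← hsum x]
      refine Finset.sum_congr rfl fun σ _ => ?_
      rw [smul_mul', hpow, ← mul_assoc, div_mul_cancel₀ _ (pow_ne_zero k hπ0)]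
  refine ⟨⟨π ^ k * θ, π, hπ, h0, h1, fun c hc hsum0 => ?_,
    fun a ha => (unitBox_norm_le hiso ha).trans_lt hk1, fun a ha b hb => ?_, fun i => ?_⟩⟩
  · have h := huniq (fun σ => c σ * π ^ k) (fun σ τ => by rw [smul_mul', hc, hpow])
    have h' : (∑ σ, c σ * π ^ k * σ • θ) = 0 := by
      rw [← hsum0]
      exact Finset.sum_congr rfl fun σ _ => by rw [smul_mul', hpow]; ring
    rw [h', map_zero] at h
    funext σ
    simpa [hπ0] using (congrFun h σ).symm
  · refine ⟨a * b / π, hbox _ fun σ => (hbd _ σ).trans ?_, (mul_div_cancel₀ _ hπ0).symm⟩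
    have hA := unitBox_norm_le hiso ha
    have hB := unitBox_norm_le hiso hb
    rw [norm_div, norm_mul]
    rw [norm_mul, norm_pow] at hA hB
    calc C * (‖a‖ * ‖b‖ / ‖π‖) ≤ C * ((‖π‖ ^ k * ‖θ‖) * (‖π‖ ^ k * ‖θ‖) / ‖π‖) := by gcongr
      _ = ‖π‖ ^ k * (‖π‖ ^ k * (C * ‖θ‖ * ‖θ‖ / ‖π‖)) := by ring
      _ ≤ ‖π‖ ^ k * 1 := by
          refine mul_le_mul_of_nonneg_left ?_ (by positivity)
          have : 0 ≤ ‖π‖ ^ k * (‖θ‖ + 1) := by positivity
          linarith
      _ = ‖π‖ ^ k := mul_one _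
  · refine ⟨‖π‖ ^ (i + k) / C, by positivity, fun x hx => ?_⟩
    refine ⟨x / π ^ i, hbox _ fun σ => (hbd _ σ).trans ?_,
      (mul_div_cancel₀ _ (pow_ne_zero i hπ0)).symm⟩
    rw [norm_div, norm_pow, ← mul_div_assoc, div_le_iff₀ (pow_pos h0 i), ← pow_add, add_comm k i]
    exact (le_div_iff₀' hC).1 hx.le

end Fermat.Agent.PoitouTate
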