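/-
Counting with pairings into `ZMod p` (S55).
-/
import Mathlib.LinearAlgebra.Dual.Lemmas
import Mathlib.Algebra.Module.ZMod
import Mathlib.Algebra.Field.ZMod
import Mathlib.FieldTheory.Finiteness
import Mathlib.LinearAlgebra.FreeModule.Finite.Matrix
import Mathlib.LinearAlgebra.Dimension.Finrank

set_option autoImplicit false

noncomputable section

namespace Fermat.Agent.PoitouTate

variable {p : ℕ} [Fact p.Prime]

/-- A type all whose finite subsets have at most `n` elements. -/
theorem finite_and_card_le_of_finset {A : Type} (n : ℕ) (h : ∀ s : Finset A, s.card ≤ n) :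
    Finite A ∧ Nat.card A ≤ n := by
  have hfin : Finite A := by
    by_contra hA
    rw [not_finite_iff_infinite] at hA
    obtain ⟨s, hs⟩ := Infinite.exists_subset_card_eq A (n + 1)
    have := h s
    omega
  refine ⟨hfin, ?_⟩
  have := Fintype.ofFinite A
  rw [Nat.card_eq_fintype_card, ← Finset.card_univ]
  exact h Finset.univ

theorem card_addHom_module {X : Type} [AddCommGroup X] [Finite X] [Module (ZMod p) X] :
    Finite (X →+ ZMod p) ∧ Nat.card (X →+ ZMod p) = Nat.card X := by
  have hfin : Finite (X →+ ZMod p) := Finite.of_injective _ DFunLike.coe_injective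
  refine ⟨hfin, ?_⟩
  rw [Nat.card_congr (AddMonoidHom.toZModLinearMapEquiv p).toEquiv,
    Module.natCard_eq_pow_finrank (K := ZMod p) (V := Module.Dual (ZMod p) X),
    Module.natCard_eq_pow_finrank (K := ZMod p) (V := X), Subspace.dual_finrank_eq]

/-- The group of functionals of a finite group killed by `p` has the same order. -/
theorem card_addHom {X : Type} [AddCommGroup X] [Finite X] (hX : ∀ x : X, p • x = 0) :
    Finite (X →+ ZMod p) ∧ Nat.card (X →+ ZMod p) = Nat.card X :=
  @card_addHom_module p _ X _ _ (AddCommGroup.zmodModule hX)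

/-- A group injecting in the functionals of a finite group killed by `p`. -/
theorem card_le_of_pairing {A X : Type} [AddCommGroup A] [AddCommGroup X] [Finite X]
    (hX : ∀ x : X, p • x = 0) (B : A →+ (X →+ ZMod p)) (hB : Function.Injective B) :
    Finite A ∧ Nat.card A ≤ Nat.card X := by
  obtain ⟨hfin, hcard⟩ := card_addHom (p := p) hX
  exact ⟨Finite.of_injective B hB, hcard ▸ Nat.card_le_card_of_injective B hB⟩

/-- Two finite vector spaces of the same order are in perfect pairing. -/
theorem exists_perfect_pairing {U V : Type} [AddCommGroup U] [Module (ZMod p) U] [AddCommGroup V]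
    [Module (ZMod p) V] [Finite U] [Finite V] (h : Nat.card U = Nat.card V) :
    ∃ B : U →ₗ[ZMod p] V →ₗ[ZMod p] ZMod p,
      (∀ y, (∀ x, B y x = 0) → y = 0) ∧ ∀ x, (∀ y, B y x = 0) → x = 0 := by
  have hrank : Module.finrank (ZMod p) V = Module.finrank (ZMod p) (Module.Dual (ZMod p) U) := by
    rw [Subspace.dual_finrank_eq]
    refine Nat.pow_right_injective (Fact.out : p.Prime).two_le ?_
    have hU := Module.natCard_eq_pow_finrank (K := ZMod p) (V := U)
    have hV := Module.natCard_eq_pow_finrank (K := ZMod p) (V := V)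
    rw [Nat.card_zmod] at hU hV
    exact (hV.symm.trans h.symm).trans hU
  let e : V ≃ₗ[ZMod p] Module.Dual (ZMod p) U := LinearEquiv.ofFinrankEq _ _ hrank
  refine ⟨LinearMap.flip (e : V →ₗ[ZMod p] Module.Dual (ZMod p) U), fun y hy => ?_, fun x hx => ?_⟩
  · refine (Module.forall_dual_apply_eq_zero_iff (ZMod p) y).1 fun φ => ?_
    have := hy (e.symm φ)
    simpa using this
  · exact e.map_eq_zero_iff.1 (LinearMap.ext hx)

end Fermat.Agent.PoitouTate
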