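/-
The finite layers used to compare `Ш¹` and the classes: the actions on the presentation, the local
groups and the local parts (S55).
-/
import Fermat.Agent.PoitouTate.ClassApi
import Fermat.Agent.PoitouTate.ClassLevels
import Fermat.Agent.PoitouTate.AlgebraPairing
import Fermat.Agent.PoitouTate.GlobalShapiro
import Fermat.Prelude.Def_GroupCohomology_Selmer
import Mathlib.RingTheory.Noetherian.Basic
import Mathlib.LinearAlgebra.FreeModule.Finite.Basic
import Mathlib.LinearAlgebra.FreeModule.PID

set_option autoImplicit false

open CategoryTheory ExtCitation groupCohomology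

noncomputable section

namespace Fermat.Agent.PoitouTate

local notation "Qb" => AlgebraicClosure ℚ

/-- A level `top` over a level `base` which contains the `p`-th roots of unity and trivialises the
module. -/
structure Layer (p : ℕ) [Fact p.Prime] (S : Finset Nat.Primes) (M : Rep (ZMod p) GQ) where
  /-- The level of the presentation. -/
  base : IntermediateField ℚ Qb
  /-- The level of the cochains. -/
  top : IntermediateField ℚ Qb
  isLvl_base : IsLvl S base
  isLvl_top : IsLvl S top
  le : base ≤ top
  triv : ∀ s ∈ base.fixingSubgroup, cycloChar p s = 1 ∧ M.ρ s = 1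

namespace Layer

variable {p : ℕ} [Fact p.Prime] {S : Finset Nat.Primes} {M : Rep (ZMod p) GQ} (D : Layer p S M)

/-- The kernel of the top level. -/
abbrev N : Subgroup GQ := D.top.fixingSubgroup

/-- The kernel of the base level. -/
abbrev N0 : Subgroup GQ := D.base.fixingSubgroup

instance normal_N : D.N.Normal := D.isLvl_top.normal

instance normal_N0 : D.N0.Normal := D.isLvl_base.normal

theorem N_le : D.N ≤ D.N0 := IntermediateField.fixingSubgroup_antitone D.le

instance finite_quotient : Finite (GQ ⧸ D.N) := D.isLvl_top.finite_gal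

instance finite_base : Finite (GQ ⧸ D.N0) := D.isLvl_base.finite_gal

theorem cyclo_top {s : GQ} (hs : s ∈ D.N) : cycloChar p s = 1 := (D.triv s (D.N_le hs)).1

/-- The finite group of the top level. -/
abbrev Gal : Type := GQ ⧸ D.N

/-- The dual module. -/
abbrev W (_D : Layer p S M) : Type := ↥(M.dualTwist (cycloChar p))

/-- The free module of the presentation. -/
abbrev P : Type := Pmod D.W D.base

/-- The relations. -/
abbrev R : Type := ↥(Rmod D.base (M.dualTwist (cycloChar p)).ρ)

/-- The classes of the top level. -/
abbrev C : Type := ↥(fixedPts D.N (Cls S))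

theorem rho_eq_one {s : GQ} (hs : s ∈ D.N0) : (M.dualTwist (cycloChar p)).ρ s = 1 := by
  refine LinearMap.ext fun f => ?_
  rw [Rep.dualTwist_ρ_apply, (D.triv s hs).1, (D.triv s⁻¹ (inv_mem hs)).2]
  simp
  rfl

theorem rho_out (g : GQ) (w : D.W) :
    (M.dualTwist (cycloChar p)).ρ (QuotientGroup.mk g : GQ ⧸ D.N0).out w =
      (M.dualTwist (cycloChar p)).ρ g w := by
  obtain ⟨h, hh, e⟩ : ∃ h ∈ D.N0, (QuotientGroup.mk g : GQ ⧸ D.N0).out = g * h :=
    ⟨_, QuotientGroup.eq.1 (QuotientGroup.out_eq' _).symm, (mul_inv_cancel_left g _).symm⟩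
  rw [e, map_mul, D.rho_eq_one hh, mul_one]

theorem pmodMap_act (g : GQ) (x : D.P) :
    pmodMap D.base (M.dualTwist (cycloChar p)).ρ (pmodAct D.base g x) =
      (M.dualTwist (cycloChar p)).ρ g (pmodMap D.base (M.dualTwist (cycloChar p)).ρ x) := by
  induction x using Finsupp.induction_linear with
  | zero => simp
  | add a b ha hb => simp [ha, hb]
  | single a n =>
    obtain ⟨c, w⟩ := a
    induction c using QuotientGroup.induction_on with | H σ => ?_
    rw [pmodAct_single, pmodMap_single, pmodMap_single]
    change n • (M.dualTwist (cycloChar p)).ρ (QuotientGroup.mk (g * σ) : GQ ⧸ D.N0).out w = _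
    rw [D.rho_out, D.rho_out, map_mul, map_zsmul]
    rfl

theorem pmodAct_of_mem {s : GQ} (hs : s ∈ D.N0) (x : D.P) : pmodAct D.base s x = x := by
  induction x using Finsupp.induction_linear with
  | zero => simp
  | add a b ha hb => simp [ha, hb]
  | single a n =>
    obtain ⟨c, w⟩ := a
    induction c using QuotientGroup.induction_on with | H σ => ?_
    rw [pmodAct_single]
    congr 2
    refine QuotientGroup.eq.2 ?_
    simpa [mul_assoc] using D.isLvl_base.normal.conj_mem _ (inv_mem hs) σ⁻¹

theorem rho_congr {g h : GQ} (hgh : g⁻¹ * h ∈ D.N) (w : D.W) :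
    (M.dualTwist (cycloChar p)).ρ g w = (M.dualTwist (cycloChar p)).ρ h w := by
  conv_rhs => rw [show h = g * (g⁻¹ * h) by group, map_mul, D.rho_eq_one (D.N_le hgh), mul_one]

theorem pmodAct_congr {g h : GQ} (hgh : g⁻¹ * h ∈ D.N) (x : D.P) :
    pmodAct D.base g x = pmodAct D.base h x := by
  conv_rhs => rw [show h = g * (g⁻¹ * h) by group, pmodAct_mul, D.pmodAct_of_mem (D.N_le hgh)]

instance smulW : SMul D.Gal D.W :=
  ⟨fun g w => Quotient.liftOn' g (fun σ => (M.dualTwist (cycloChar p)).ρ σ w) fun _ _ h =>
    D.rho_congr (QuotientGroup.leftRel_apply.1 h) w⟩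

instance smulP : SMul D.Gal D.P :=
  ⟨fun g x => Quotient.liftOn' g (fun σ => pmodAct D.base σ x) fun _ _ h =>
    D.pmodAct_congr (QuotientGroup.leftRel_apply.1 h) x⟩

instance actionW : DistribMulAction D.Gal D.W where
  one_smul w := by
    change (M.dualTwist (cycloChar p)).ρ 1 w = w
    rw [map_one]; rfl
  mul_smul g h w := by
    induction g using QuotientGroup.induction_on with | H σ => ?_
    induction h using QuotientGroup.induction_on with | H τ => ?_
    change (M.dualTwist (cycloChar p)).ρ (σ * τ) w = _
    rw [map_mul]; rfl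
  smul_zero g := by
    induction g using QuotientGroup.induction_on with | H σ => ?_
    exact map_zero ((M.dualTwist (cycloChar p)).ρ σ)
  smul_add g a b := by
    induction g using QuotientGroup.induction_on with | H σ => ?_
    exact map_add ((M.dualTwist (cycloChar p)).ρ σ) a b

instance actionP : DistribMulAction D.Gal D.P where
  one_smul x := by
    change pmodAct D.base 1 x = x
    rw [pmodAct_one]; rfl
  mul_smul g h x := by
    induction g using QuotientGroup.induction_on with | H σ => ?_
    induction h using QuotientGroup.induction_on with | H τ => ?_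
    exact pmodAct_mul D.base σ τ x
  smul_zero g := by
    induction g using QuotientGroup.induction_on with | H σ => ?_
    exact map_zero (pmodAct D.base σ)
  smul_add g a b := by
    induction g using QuotientGroup.induction_on with | H σ => ?_
    exact map_add (pmodAct D.base σ) a b

theorem mk_smul_W (g : GQ) (w : D.W) :
    (QuotientGroup.mk g : D.Gal) • w = (M.dualTwist (cycloChar p)).ρ g w := rfl

theorem mk_smul_P (g : GQ) (x : D.P) : (QuotientGroup.mk g : D.Gal) • x = pmodAct D.base g x := rfl

/-- The presentation map. -/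
def π : D.P →+ D.W := pmodMap D.base (M.dualTwist (cycloChar p)).ρ

theorem π_smul (g : D.Gal) (x : D.P) : D.π (g • x) = g • D.π x := by
  induction g using QuotientGroup.induction_on with | H σ => ?_
  exact D.pmodMap_act σ x

theorem smul_mem_R (g : D.Gal) {x : D.P}
    (hx : x ∈ Rmod D.base (M.dualTwist (cycloChar p)).ρ) :
    g • x ∈ Rmod D.base (M.dualTwist (cycloChar p)).ρ := by
  change D.π (g • x) = 0
  rw [D.π_smul, show D.π x = 0 from hx, smul_zero]

instance actionR : DistribMulAction D.Gal D.R where
  smul g r := ⟨g • (r : D.P), D.smul_mem_R g r.2⟩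
  one_smul r := Subtype.ext (one_smul D.Gal (r : D.P))
  mul_smul g h r := Subtype.ext (mul_smul g h (r : D.P))
  smul_zero g := Subtype.ext (smul_zero g)
  smul_add g a b := Subtype.ext (smul_add g (a : D.P) (b : D.P))

theorem coe_smul_R (g : D.Gal) (r : D.R) : ((g • r : D.R) : D.P) = g • (r : D.P) := rfl

theorem homR_iff {f : D.R →+ Cls S} :
    f ∈ homR S D.base (M.dualTwist (cycloChar p)).ρ ↔
      ∀ (g : GQ) (r : D.R), f ((QuotientGroup.mk g : D.Gal) • r) = g • f r :=
  ⟨fun h g r => h g r _ rfl, fun h g r r' e => by
    rw [← h, show r' = (QuotientGroup.mk g : D.Gal) • r from Subtype.ext e.symm]⟩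

/-- The inclusion of the relations. -/
def incl : D.R →+ D.P := (Rmod D.base (M.dualTwist (cycloChar p)).ρ).subtype

theorem isPresentation : IsPresentation p D.Gal D.incl D.π where
  j_equiv _ _ := rfl
  π_equiv := D.π_smul
  inj := Subtype.coe_injective
  surj w := ⟨Finsupp.single (QuotientGroup.mk 1, w) 1, by
    rw [π, pmodMap_single, one_smul, D.rho_out 1, map_one]
    rfl⟩
  exact_mid x := ⟨fun h => ⟨⟨x, h⟩, rfl⟩, by rintro ⟨r, rfl⟩; exact r.2⟩
  killed w := ZModModule.char_nsmul_eq_zero p w

instance finite_W [FiniteDimensional (ZMod p) M] : Finite D.W :=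
  Module.finite_of_finite (ZMod p) (M := Module.Dual (ZMod p) M)

instance finite_P [FiniteDimensional (ZMod p) M] : Module.Finite ℤ D.P :=
  Module.Finite.finsupp

instance finite_R [FiniteDimensional (ZMod p) M] : Module.Finite ℤ D.R :=
  inferInstanceAs (Module.Finite ℤ
    ↥(AddSubgroup.toIntSubmodule (Rmod D.base (M.dualTwist (cycloChar p)).ρ)))

instance free_R [FiniteDimensional (ZMod p) M] : Module.Free ℤ D.R :=
  Module.free_of_finite_type_torsion_free'

/-- The free module is cohomologically trivial in degree one on every subgroup. -/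
theorem h1_P [FiniteDimensional (ZMod p) M] (H : Subgroup D.Gal) (c : H → D.P)
    (hc : IsCocycle₁ c) : IsCoboundary₁ c := by
  classical
  letI : MulAction D.Gal ((GQ ⧸ D.N0) × D.W) :=
    { smul := fun g x => (Quotient.liftOn' g (fun σ => σ • x.1) fun σ τ h => by
        rw [QuotientGroup.leftRel_apply] at h
        obtain ⟨c, w⟩ := x
        induction c using QuotientGroup.induction_on with | H υ => ?_
        refine QuotientGroup.eq.2 ?_
        simpa [mul_assoc] using D.isLvl_base.normal.conj_mem _ (D.N_le h) υ⁻¹, x.2)
      one_smul := fun x => Prod.ext (one_smul GQ x.1) rfl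
      mul_smul := fun g h x => by
        induction g using QuotientGroup.induction_on with | H σ => ?_
        induction h using QuotientGroup.induction_on with | H τ => ?_
        exact Prod.ext (mul_smul σ τ x.1) rfl }
  have : Finite H := inferInstance
  have key : ∀ (g : H) (v : D.P) (a : (GQ ⧸ D.N0) × D.W), (g • v) a = v (g⁻¹ • a) := by
    intro g v a
    obtain ⟨g, hg⟩ := g
    induction g using QuotientGroup.induction_on with | H σ => ?_
    change pmodAct D.base σ v a = v ((σ⁻¹ : GQ) • a.1, a.2)
    conv_lhs => rw [← Prod.mk.eta (p := a), ← smul_inv_smul σ a.1]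
    exact Finsupp.mapDomain_apply (f := fun b : (GQ ⧸ D.N0) × D.W => (σ • b.1, b.2))
      (fun x y h => Prod.ext (smul_left_cancel σ (congrArg Prod.fst h :))
        (congrArg Prod.snd h :)) v (σ⁻¹ • a.1, a.2)
  letI : DistribMulAction H ℤ :=
    { smul := fun _ k => k
      one_smul := fun _ => rfl
      mul_smul := fun _ _ _ => rfl
      smul_zero := fun _ => rfl
      smul_add := fun _ _ _ => rfl }
  obtain ⟨φ, hφ⟩ := exists_primitive_of_stabilizers (G := H) (fun g a => c g a)
    (fun g h a => by
      show c (g * h) a = c h (g⁻¹ • a) + c g a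
      rw [hc g h, Finsupp.add_apply, key]) fun a => ⟨0, fun h hh => by
      show c h a = h • (0 : ℤ) - 0
      rw [smul_zero, sub_zero]
      let t : MulAction.stabilizer H a →* Multiplicative ℤ :=
        MonoidHom.mk' (fun h => Multiplicative.ofAdd (c h a)) fun g k => by
          rw [Subgroup.coe_mul, hc (g : H) (k : H), Finsupp.add_apply, key,
            MulAction.mem_stabilizer_iff.1 (inv_mem g.2), add_comm]
          rfl
      have h2 : t ⟨h, hh⟩ = 1 := by
        by_contra hne
        exact not_isOfFinOrder_of_isMulTorsionFree hne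
          (t.isOfFinOrder (isOfFinOrder_of_finite _))
      exact congrArg Multiplicative.toAdd h2⟩
  have : Fintype (GQ ⧸ D.N0) := Fintype.ofFinite _
  have : Fintype D.W := Fintype.ofFinite _
  refine ⟨Finsupp.equivFunOnFinite.symm φ, fun g => Finsupp.ext fun a => ?_⟩
  rw [Finsupp.sub_apply, key]
  exact (hφ g a).symm

section Local

variable (q : ↥S)

/-- The kernel of the top level in the local group. -/
abbrev locN : Subgroup (LocGal q.1) := D.N.comap (loc q.1)

instance normal_locN : (D.locN q).Normal := Subgroup.Normal.comap D.isLvl_top.normal (loc q.1)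

/-- The local group in the finite group. -/
def locMap : LocGal q.1 ⧸ D.locN q →* D.Gal :=
  QuotientGroup.map (D.locN q) D.N (loc q.1) le_rfl

theorem locMap_mk (τ : LocGal q.1) :
    D.locMap q (QuotientGroup.mk τ) = QuotientGroup.mk (loc q.1 τ) := rfl

theorem locMap_injective : Function.Injective (D.locMap q) := by
  refine (injective_iff_map_eq_one _).2 fun x hx => ?_
  induction x using QuotientGroup.induction_on with | H τ => ?_
  exact (QuotientGroup.eq_one_iff τ).2 ((QuotientGroup.eq_one_iff (N := D.N) _).1 hx)

/-- The decomposition group. -/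
def H : Subgroup D.Gal := (D.locMap q).range

/-- The decomposition group is the local group. -/
def locEquiv : LocGal q.1 ⧸ D.locN q ≃* ↥(D.H q) := MonoidHom.ofInjective (D.locMap_injective q)

/-- The local values at the top level. -/
abbrev E : Type := ↥(fixedPts (D.locN q) (LocVal q.1))

instance actionE : DistribMulAction ↥(D.H q) (D.E q) :=
  DistribMulAction.compHom _ (D.locEquiv q).symm.toMonoidHom

theorem locEquiv_smul (τ : LocGal q.1) (y : D.E q) :
    ((D.locEquiv q (QuotientGroup.mk τ) • y : D.E q) : LocVal q.1) = τ • (y : LocVal q.1) := by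
  change (((D.locEquiv q).symm (D.locEquiv q (QuotientGroup.mk τ)) • y : D.E q) : LocVal q.1) = _
  rw [MulEquiv.symm_apply_apply]
  rfl

end Local

end Layer

end Fermat.Agent.PoitouTate
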