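/-
The two bridges used by the assembly of S55: local parts as ideles at a place, and cocycles of a
layer as classes of `Ш¹`.
-/
import Fermat.Agent.PoitouTate.MainSetup

set_option autoImplicit false

open CategoryTheory ExtCitation groupCohomology

noncomputable section

namespace Fermat.Agent.PoitouTate

variable {p : ℕ} [Fact p.Prime] {S : Finset Nat.Primes} {M : Rep (ZMod p) GQ}

namespace Layer

variable (D : Layer p S M)

instance fintype_gal : Fintype D.Gal := Fintype.ofFinite _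

instance fintype_cosets (q : ↥S) : Fintype (D.Gal ⧸ D.H q) := Fintype.ofFinite _

instance fintype_H (q : ↥S) : Fintype ↥(D.H q) := Fintype.ofFinite _

/-- The same presentation with another top level. -/
def withTop (K : IntermediateField ℚ (AlgebraicClosure ℚ)) (hK : IsLvl S K) (hle : D.base ≤ K) :
    Layer p S M :=
  ⟨D.base, K, D.isLvl_base, hK, hle, D.triv⟩

/-- The cocycles of the layer which are trivial on all decomposition groups. -/
def shaLev : AddSubgroup (D.Gal → D.W) where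
  carrier := {x | IsCocycle₁ x ∧ ∀ q, IsCoboundary₁ fun h : D.H q => x h}
  zero_mem' := ⟨fun g h => by simp, fun q => ⟨0, fun h => by simp⟩⟩
  add_mem' := by
    rintro x y ⟨hx, hx'⟩ ⟨hy, hy'⟩
    refine ⟨fun g h => by simp only [Pi.add_apply, hx g h, hy g h, smul_add]; abel, fun q => ?_⟩
    obtain ⟨a, ha⟩ := hx' q
    obtain ⟨b, hb⟩ := hy' q
    exact ⟨a + b, fun h => by
      change h • (a + b) - (a + b) = x h + y h
      rw [smul_add, ← show h • a - a = x h from ha h, ← show h • b - b = y h from hb h]; abel⟩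
  neg_mem' := by
    rintro x ⟨hx, hx'⟩
    refine ⟨fun g h => by simp only [Pi.neg_apply, hx g h, smul_neg]; abel, fun q => ?_⟩
    obtain ⟨a, ha⟩ := hx' q
    exact ⟨-a, fun h => by
      change h • (-a) - -a = -x h
      rw [smul_neg, ← show h • a - a = x h from ha h]; abel⟩

end Layer

/-- Local parts are the maps coming from ideles supported at `S`. -/
def LocalParts (p : ℕ) [Fact p.Prime] (S : Finset Nat.Primes) (M : Rep (ZMod p) GQ) : Prop :=
  ∀ D : Layer p S M, ∃ Φ : ∀ q, D.E q →+ D.C,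
    (∀ q, IsEquivariant ↥(D.H q) (Φ q)) ∧
    (∀ q (y : D.E q), IsAtPlace S q D.N (y : LocVal q.1) ((Φ q y : D.C) : Cls S)) ∧
    (∀ g : D.R →+ ↥(J S), (∀ r, g r ∈ Jfin S) →
      (∀ (σ : GQ) (r : D.R), g ((QuotientGroup.mk σ : D.Gal) • r) = σ • g r) →
      ∃ f ∈ localPart (R := D.R) D.H Φ, ∀ r, ((f r : D.C) : Cls S) = clsMk S (g r)) ∧
    ∀ f ∈ localPart (R := D.R) D.H Φ,
      (fixedPts D.N (Cls S)).subtype.comp f ∈ locHom S D.base (M.dualTwist (cycloChar p)).ρ

/-- Locally trivial cocycles of the layers exhaust `Ш¹`. -/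
def Sha1Bridge (p : ℕ) [Fact p.Prime] (S : Finset Nat.Primes) (M : Rep (ZMod p) GQ) : Prop :=
  (∀ D : Layer p S M, ∃ T : ↥D.shaLev →+ ↥(sha₁ S (M.dualTwist (cycloChar p))),
    ∀ x, T x = 0 ↔ IsCoboundary₁ (x : D.Gal → D.W)) ∧
  ∀ (D : Layer p S M) (s : Finset ↥(sha₁ S (M.dualTwist (cycloChar p)))),
    ∃ (K : IntermediateField ℚ (AlgebraicClosure ℚ)) (hK : IsLvl S K) (hle : D.base ≤ K),
      ∃ T : ↥(D.withTop K hK hle).shaLev →+ ↥(sha₁ S (M.dualTwist (cycloChar p))),
        (∀ x, T x = 0 ↔ IsCoboundary₁ (x : (D.withTop K hK hle).Gal → (D.withTop K hK hle).W)) ∧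
        ∀ ξ ∈ s, ∃ x, T x = ξ

end Fermat.Agent.PoitouTate
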