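/-
The order hypothesis on the local parts of a layer, from the statement on local classes (S55).
-/
import Fermat.Agent.PoitouTate.MainApi

set_option autoImplicit false

open ExtCitation groupCohomology

noncomputable section

namespace Fermat.Agent.PoitouTate

variable {p : ℕ} [Fact p.Prime] {S : Finset Nat.Primes} {M : Rep (ZMod p) GQ} (D : Layer p S M)

theorem Layer.exists_local_class (hloc : LocalClass p S) {Φ : ∀ q, D.E q →+ D.C}
    (hat : ∀ q (y : D.E q), IsAtPlace S q D.N (y : LocVal q.1) ((Φ q y : D.C) : Cls S)) (q : ↥S) :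
    ∃ w : Z2 ↥(D.H q) (D.E q), ∀ k : ℤ,
      IsCoboundary₂ (fun y : D.H q × D.H q =>
        k • Φ q ((w : D.H q × D.H q → D.E q) y)) →
      ((p ^ (Nat.card (D.H q)).factorization p : ℕ) : ℤ) ∣ k := by
  obtain ⟨w, hw, hord⟩ := hloc D.top D.isLvl_top q
  set e := D.locEquiv q
  let w' : D.H q × D.H q → D.E q := fun y => w (e.symm y.1, e.symm y.2)
  have hw' : IsCocycle₂ w' := fun g h j => by
    have := hw (e.symm g) (e.symm h) (e.symm j)
    simp only [w', map_mul]
    exact this
  refine ⟨⟨w', hw'⟩, fun k ⟨b, hb⟩ => ?_⟩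
  rw [← Nat.card_congr e.toEquiv]
  refine hord k (fun a => ((Φ q (w a) : D.C) : Cls S)) (fun a => ((b (e a) : D.C) : Cls S))
    (fun a => hat q _) (fun a => (b (e a)).2) fun σ τ => ?_
  have hστ := congrArg (fun t : D.C => (t : Cls S))
    (hb (e (QuotientGroup.mk σ)) (e (QuotientGroup.mk τ)))
  simp only [w', MulEquiv.symm_apply_apply, AddSubgroup.coe_zsmul, AddSubgroup.coe_add,
    AddSubgroup.coe_sub, ← map_mul, ← QuotientGroup.mk_mul] at hστ
  rw [← hστ]
  rfl

end Fermat.Agent.PoitouTate
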