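/-
Norms from a layer given by the existence theorem die in the classes computing `Ш²`, and so do the
multiples of `p` (S55).
-/
import Fermat.Agent.PoitouTate.MainApi

set_option autoImplicit false

open ExtCitation groupCohomology

noncomputable section

namespace Fermat.Agent.PoitouTate

variable {p : ℕ} [Fact p.Prime] {S : Finset Nat.Primes} {M : Rep (ZMod p) GQ}

namespace Layer

variable (D : Layer p S M)

/-- Maps to the classes of the layer as maps to all classes. -/
def coeHom : (D.R →+ D.C) →+ (D.R →+ Cls S) :=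
  AddMonoidHom.mk' (fun f => (fixedPts D.N (Cls S)).subtype.comp f) fun _ _ => rfl

theorem coeHom_apply (f : D.R →+ D.C) (r : D.R) : D.coeHom f r = ((f r : D.C) : Cls S) := rfl

theorem coeHom_mem_homR {f : D.R →+ D.C} (hf : IsEquivariant D.Gal f) :
    D.coeHom f ∈ homR S D.base (M.dualTwist (cycloChar p)).ρ :=
  D.homR_iff.2 fun g r => by rw [coeHom_apply, hf, coe_quot_smul]; rfl

theorem nsmul_mem_Rmod (x : D.P) : p • x ∈ Rmod D.base (M.dualTwist (cycloChar p)).ρ := by
  change D.π (p • x) = 0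
  rw [map_nsmul, D.isPresentation.killed]

theorem nsmul_mem_resPHom {f : D.R →+ Cls S}
    (hf : f ∈ homR S D.base (M.dualTwist (cycloChar p)).ρ) :
    p • f ∈ resPHom S D.base (M.dualTwist (cycloChar p)).ρ := by
  refine ⟨f.comp ((nsmulAddMonoidHom p).codRestrict _ D.nsmul_mem_Rmod), fun σ x => ?_, ?_⟩
  · exact hf σ ⟨_, D.nsmul_mem_Rmod x⟩ ⟨_, D.nsmul_mem_Rmod _⟩ (map_nsmul (pmodAct D.base σ) p x)
  · refine AddMonoidHom.ext fun r => ?_
    change p • f r = f ⟨p • (r : D.P), _⟩
    rw [← map_nsmul]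
    rfl

/-- The subgroup of the base level. -/
def baseSub : Subgroup D.Gal := D.N0.map (QuotientGroup.mk' D.N)

theorem comap_baseSub : D.baseSub.comap (QuotientGroup.mk' D.N) = D.N0 :=
  Subgroup.comap_map_eq_self (by rw [QuotientGroup.ker_mk']; exact D.N_le)

theorem baseSub_smul_R (h : D.baseSub) (r : D.R) : (h : D.Gal) • r = r := by
  obtain ⟨-, s, hs, rfl⟩ := h
  exact Subtype.ext (D.pmodAct_of_mem hs (r : D.P))

variable [FiniteDimensional (ZMod p) M]

/-- Norms of homomorphisms from a layer of the existence theorem. -/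
theorem nm_mem (hex : ∀ c ∈ clsLev S D.N, ∃ a ∈ clsLev S D.N0, ∃ b ∈ clsFinLev S D.N0,
      relNorm D.N0 D.N c = p • a + b) (d : D.R →+ D.C) :
    D.coeHom (nm (Δ := D.Gal) d) ∈
      locHom S D.base (M.dualTwist (cycloChar p)).ρ ⊔
        resPHom S D.base (M.dualTwist (cycloChar p)).ρ := by
  classical
  let B := Module.Free.chooseBasis ℤ D.R
  have hchoice : ∀ i, ∃ a ∈ clsLev S D.N0, ∃ f ∈ Jfin S, (∀ s ∈ D.N0, s • f = f) ∧
      relNorm D.N0 D.N ((d (B i) : D.C) : Cls S) = p • a + clsMk S f := fun i => by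
    obtain ⟨a, ha, b, ⟨f, hf, hfix, rfl⟩, hab⟩ := hex _ (d (B i)).2
    exact ⟨a, ha, f, hf, hfix, hab⟩
  choose a ha f hf hfix hab using hchoice
  let A : D.R →+ D.C :=
    (B.constr ℤ fun i => (⟨a i, fun s hs => ha i s (D.N_le hs)⟩ : D.C)).toAddMonoidHom
  let F : D.R →+ ↥(fixedPts D.N ↥(J S)) :=
    (B.constr ℤ fun i =>
      (⟨f i, fun s hs => hfix i s (D.N_le hs)⟩ : ↥(fixedPts D.N ↥(J S)))).toAddMonoidHom
  have hAB : ∀ i, A (B i) = ⟨a i, fun s hs => ha i s (D.N_le hs)⟩ ∧
      F (B i) = ⟨f i, fun s hs => hfix i s (D.N_le hs)⟩ := fun i =>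
    ⟨B.constr_basis ℤ _ i, B.constr_basis ℤ _ i⟩
  have hA : ∀ (h : D.baseSub) (r : D.R), A ((h : D.Gal) • r) = (h : D.Gal) • A r := by
    intro h r
    rw [D.baseSub_smul_R]
    obtain ⟨g, s, hs, rfl⟩ := h
    refine Eq.symm (DFunLike.congr_fun (f := ((DistribSMul.toAddMonoidHom D.C
      (QuotientGroup.mk' D.N s)).comp A).toIntLinearMap) (g := A.toIntLinearMap)
      (B.ext fun i => ?_) r)
    change (QuotientGroup.mk s : D.Gal) • A (B i) = A (B i)
    rw [(hAB i).1]
    exact Subtype.ext (ha i s hs)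
  have hF : ∀ (h : D.baseSub) (r : D.R), F ((h : D.Gal) • r) = (h : D.Gal) • F r := by
    intro h r
    rw [D.baseSub_smul_R]
    obtain ⟨g, s, hs, rfl⟩ := h
    refine Eq.symm (DFunLike.congr_fun (f := ((DistribSMul.toAddMonoidHom
      ↥(fixedPts D.N ↥(J S)) (QuotientGroup.mk' D.N s)).comp F).toIntLinearMap)
      (g := F.toIntLinearMap) (B.ext fun i => ?_) r)
    change (QuotientGroup.mk s : D.Gal) • F (B i) = F (B i)
    rw [(hAB i).2]
    exact Subtype.ext (hfix i s hs)
  have := Fintype.ofFinite (D.Gal ⧸ D.baseSub)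
  have := Fintype.ofFinite D.baseSub
  -- the norm to the base level
  let Nd : D.R →+ D.C := AddMonoidHom.mk' (fun r => ∑ h : D.baseSub, (h : D.Gal) • d r)
    fun r r' => by simp [Finset.sum_add_distrib]
  have hNd : ∀ r, ((Nd r : D.C) : Cls S) = p • ((A r : D.C) : Cls S) + clsMk S (F r) := by
    intro r
    refine DFunLike.congr_fun (f := ((fixedPts D.N (Cls S)).subtype.comp Nd).toIntLinearMap)
      (g := (p • (fixedPts D.N (Cls S)).subtype.comp A +
        (clsMk S).comp ((fixedPts D.N ↥(J S)).subtype.comp F)).toIntLinearMap)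
      (B.ext fun i => ?_) r
    change ((Nd (B i) : D.C) : Cls S) = p • ((A (B i) : D.C) : Cls S) + clsMk S (F (B i))
    rw [(hAB i).1, (hAB i).2, ← hab i]
    have e := relNorm_quot D.N D.baseSub (d (B i))
    rw [D.comap_baseSub] at e
    exact e.symm
  have hnm : ∀ r, nm (Δ := D.Gal) d r = ∑ q : D.Gal ⧸ D.baseSub, q.out • Nd (q.out⁻¹ • r) := by
    intro r
    rw [nm_apply]
    rw [← Fintype.sum_equiv ((Equiv.ofBijective (fun x : (D.Gal ⧸ D.baseSub) × D.baseSub =>
        x.1.out * (x.2 : D.Gal)) ?_)) (fun x => (x.1.out * (x.2 : D.Gal)) •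
          d ((x.1.out * (x.2 : D.Gal))⁻¹ • r)) _ fun x => rfl, Fintype.sum_prod_type]
    · refine Finset.sum_congr rfl fun q _ => ?_
      change _ = q.out • ∑ h : D.baseSub, (h : D.Gal) • d (q.out⁻¹ • r)
      rw [Finset.smul_sum]
      refine Finset.sum_congr rfl fun h _ => ?_
      rw [mul_inv_rev, mul_smul, mul_smul (h : D.Gal)⁻¹, ← Subgroup.coe_inv, D.baseSub_smul_R]
    · refine ⟨fun x y hxy => ?_, fun g => ⟨(QuotientGroup.mk g, ⟨_, QuotientGroup.eq.1
        (QuotientGroup.out_eq' (QuotientGroup.mk g : D.Gal ⧸ D.baseSub))⟩), mul_inv_cancel_left _ _⟩⟩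
      have h1 : x.1 = y.1 := by
        rw [← QuotientGroup.out_eq' x.1, ← QuotientGroup.out_eq' y.1, QuotientGroup.eq]
        have : x.1.out⁻¹ * y.1.out = (x.2 : D.Gal) * (y.2 : D.Gal)⁻¹ := by
          have hxy' : x.1.out * (x.2 : D.Gal) = y.1.out * (y.2 : D.Gal) := hxy
          rw [eq_mul_inv_iff_mul_eq, mul_assoc, ← hxy', inv_mul_cancel_left]
        rw [this]
        exact mul_mem x.2.2 (inv_mem y.2.2)
      exact Prod.ext h1 (Subtype.ext (mul_left_cancel (a := y.1.out) (by simpa [h1] using hxy)))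
  have hnm' : nm (Δ := D.Gal) d = indHom D.baseSub Nd :=
    AddMonoidHom.ext fun r => by rw [hnm, indHom_apply]
  have hIA : IsEquivariant D.Gal (indHom D.baseSub A) := indHom_isEquivariant hA
  have hIF : IsEquivariant D.Gal (indHom D.baseSub F) := indHom_isEquivariant hF
  have hsplit : D.coeHom (nm (Δ := D.Gal) d) =
      p • D.coeHom (indHom D.baseSub A) +
        (clsMk S).comp ((fixedPts D.N ↥(J S)).subtype.comp (indHom D.baseSub F)) := by
    refine AddMonoidHom.ext fun r => ?_
    simp only [AddMonoidHom.add_apply, AddMonoidHom.smul_apply, coeHom_apply,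
      AddMonoidHom.comp_apply, AddSubgroup.coe_subtype, hnm', indHom_apply,
      AddSubmonoidClass.coe_finsetSum, map_sum, Finset.smul_sum, ← Finset.sum_add_distrib]
    refine Finset.sum_congr rfl fun q _ => ?_
    generalize q.out⁻¹ • r = t
    generalize q.out = g
    induction g using QuotientGroup.induction_on with | H σ => ?_
    rw [coe_quot_smul, coe_quot_smul, coe_quot_smul, hNd, smul_add, smul_clsMk]
    congr 1
    exact map_nsmul (DistribSMul.toAddMonoidHom (Cls S) σ) p _
  rw [hsplit]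
  refine add_mem (AddSubgroup.mem_sup_right (D.nsmul_mem_resPHom (D.coeHom_mem_homR hIA)))
    (AddSubgroup.mem_sup_left ⟨(fixedPts D.N ↥(J S)).subtype.comp (indHom D.baseSub F),
      fun r => ?_, fun σ x y hxy => ?_, rfl⟩)
  · simp only [AddMonoidHom.comp_apply, AddSubgroup.coe_subtype, indHom_apply,
      AddSubmonoidClass.coe_finsetSum]
    refine sum_mem fun q _ => ?_
    generalize q.out⁻¹ • r = t
    generalize q.out = g
    induction g using QuotientGroup.induction_on with | H σ => ?_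
    rw [coe_quot_smul]
    intro q' g'
    have hFt : ∀ t, ((F t : ↥(fixedPts D.N ↥(J S))) : ↥(J S)) ∈ Jfin S := by
      intro t
      have : ((fixedPts D.N ↥(J S)).subtype.comp F) t ∈ Jfin S := by
        rw [← B.sum_repr t, map_sum]
        refine sum_mem fun i _ => ?_
        rw [map_zsmul]
        refine zsmul_mem ?_ _
        rw [AddMonoidHom.comp_apply, (hAB i).2]
        exact hf i
      exact this
    rw [coe_smul_J, Amb.ord_smul]
    exact hFt t q' (g' * σ)
  · have e : y = (QuotientGroup.mk σ : D.Gal) • x := Subtype.ext hxy.symm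
    rw [e, AddMonoidHom.comp_apply, hIF, AddMonoidHom.comp_apply]
    exact coe_quot_smul D.N σ _

end Layer

end Fermat.Agent.PoitouTate
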