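/-
The pairing between locally trivial cocycles and the classes computing `Ш²`, and the equality of
the orders of `Ш¹` and `Ш²` (S55).
-/
import Fermat.Agent.PoitouTate.MainLocal
import Fermat.Agent.PoitouTate.MainNorm
import Fermat.Agent.PoitouTate.MainCount

set_option autoImplicit false

open ExtCitation groupCohomology

noncomputable section

namespace Fermat.Agent.PoitouTate

variable {p : ℕ} [Fact p.Prime] {S : Finset Nat.Primes} {M : Rep (ZMod p) GQ}

namespace Layer

variable (D : Layer p S M)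

theorem exists_toC {f : D.R →+ Cls S}
    (hf : f ∈ homR S D.base (M.dualTwist (cycloChar p)).ρ) :
    ∃ F : D.R →+ D.C, IsEquivariant D.Gal F ∧ ∀ r, ((F r : D.C) : Cls S) = f r := by
  have hfix : ∀ r, f r ∈ fixedPts D.N (Cls S) := fun r s hs => by
    rw [← D.homR_iff.1 hf, (QuotientGroup.eq_one_iff (N := D.N) s).2 hs, one_smul]
  refine ⟨f.codRestrict _ hfix, fun g r => ?_, fun r => rfl⟩
  induction g using QuotientGroup.induction_on with | H σ => ?_
  exact Subtype.ext (D.homR_iff.1 hf σ r)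

variable [FiniteDimensional (ZMod p) M]

theorem Xgrp_killed (x : Xgrp S D.base (M.dualTwist (cycloChar p)).ρ) : p • x = 0 := by
  obtain ⟨f, rfl⟩ := QuotientAddGroup.mk_surjective x
  rw [← QuotientAddGroup.mk_nsmul, QuotientAddGroup.eq_zero_iff]
  exact AddSubgroup.mem_sup_right (D.nsmul_mem_resPHom f.2)

/-- The pairing of a layer. -/
theorem exists_layer_pairing (hLC : LayerClassModule p S) (hloc : LocalClass p S)
    (hLP : LocalParts p S M) :
    ∃ B : ↥D.shaLev →+ (Xgrp S D.base (M.dualTwist (cycloChar p)).ρ →+ ZMod p),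
      (∀ x, B x = 0 ↔ IsCoboundary₁ (x : D.Gal → D.W)) ∧
      ((∀ c ∈ clsLev S D.N, ∃ a ∈ clsLev S D.N0, ∃ b ∈ clsFinLev S D.N0,
          relNorm D.N0 D.N c = p • a + b) → Function.Injective B.flip) := by
  classical
  obtain ⟨u₀, hu⟩ := hLC D.top D.isLvl_top fun s hs => D.cyclo_top hs
  let u : Z2 D.Gal D.C := ⟨u₀, hu.cocycle⟩
  replace hu : IsClassModule p D.Gal D.C (u : D.Gal × D.Gal → D.C) := hu
  obtain ⟨Φ, hΦ, hat, hdec, hback⟩ := hLP D
  have hP := D.isPresentation
  obtain ⟨inv, hinv⟩ := hu.exists_inv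
  choose F hFeq hFval using fun f : ↥(homR S D.base (M.dualTwist (cycloChar p)).ρ) =>
    D.exists_toC f.2
  have hFadd : ∀ f g, F (f + g) = F f + F g := fun f g => AddMonoidHom.ext fun r => Subtype.ext <| by
    rw [AddMonoidHom.add_apply, AddSubgroup.coe_add, hFval, hFval, hFval]
    rfl
  let cls : ↥(homR S D.base (M.dualTwist (cycloChar p)).ρ) → ↥D.shaLev →
      torClasses p D.Gal D.C := fun f x =>
    ⟨QuotientAddGroup.mk (⟨fun y => F f (connect D.incl D.π x.1 y),
      isCocycle₂_map (hFeq f) (hP.connect_isCocycle x.2.1)⟩ : Z2 D.Gal D.C), by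
      change p • (QuotientAddGroup.mk _ : H2C D.Gal D.C) = 0
      rw [← QuotientAddGroup.mk_nsmul, QuotientAddGroup.eq_zero_iff]
      obtain ⟨b, hb⟩ := isCoboundary₂_map (hFeq f) (hP.nsmul_connect x.2.1)
      exact ⟨b, fun s t => (hb s t).trans (map_nsmul (F f) p _)⟩⟩
  have hcls0 : ∀ f x, inv (cls f x) = 0 ↔
      IsCoboundary₂ fun y => F f (connect D.incl D.π x.1 y) := fun f x => by
    rw [map_eq_zero_iff inv hinv]
    exact torClasses_eq_zero_iff _
  have hclsadd : ∀ f x y, cls f (x + y) = cls f x + cls f y := fun f x y => Subtype.ext <| by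
    refine QuotientAddGroup.eq_iff_sub_mem.2 ?_
    obtain ⟨b, hb⟩ := isCoboundary₂_map (hFeq f) (hP.connect_add x.2.1 y.2.1)
    exact ⟨b, fun s t => (hb s t).trans ((map_sub (F f) _ _).trans
      (congrArg (fun w => F f (connect D.incl D.π (x + y).1 (s, t)) - w) (map_add (F f) _ _)))⟩
  have hclsadd' : ∀ f g x, cls (f + g) x = cls f x + cls g x := fun f g x => Subtype.ext <| by
    refine congrArg (QuotientAddGroup.mk (s := (B2 D.Gal D.C).addSubgroupOf (Z2 D.Gal D.C)))
      (Subtype.ext (funext fun y => ?_))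
    change F (f + g) _ = F f _ + F g _
    rw [hFadd]
    rfl
  let B₀ : ↥D.shaLev →+ (↥(homR S D.base (M.dualTwist (cycloChar p)).ρ) →+ ZMod p) :=
    AddMonoidHom.mk' (fun x => AddMonoidHom.mk' (fun f => inv (cls f x)) fun f g => by
      rw [hclsadd', map_add]) fun x y => AddMonoidHom.ext fun f => by
      simp only [AddMonoidHom.mk'_apply, AddMonoidHom.add_apply]
      rw [hclsadd, map_add]
  have hkill : ∀ x, (locHom S D.base (M.dualTwist (cycloChar p)).ρ ⊔
      resPHom S D.base (M.dualTwist (cycloChar p)).ρ).addSubgroupOf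
        (homR S D.base (M.dualTwist (cycloChar p)).ρ) ≤ (B₀ x).ker := by
    intro x f hf
    refine (hcls0 f x).2 ?_
    obtain ⟨a, ⟨g, hg, hgeq, rfl⟩, b, ⟨h, hh, rfl⟩, hab⟩ := AddSubgroup.mem_sup.1 hf
    obtain ⟨ℓ, hℓ, hℓval⟩ := hdec g hg fun σ r => hgeq σ r _ rfl
    have hhfix : ∀ z : D.P, h z ∈ fixedPts D.N (Cls S) := fun z s hs => by
      rw [← hh, D.pmodAct_of_mem (D.N_le hs)]
    let h' : D.P →+ D.C := h.codRestrict _ hhfix
    have hh' : IsEquivariant D.Gal h' := fun γ z => by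
      induction γ using QuotientGroup.induction_on with | H σ => ?_
      exact Subtype.ext (hh σ z)
    obtain ⟨c₁, hc₁⟩ := localPart_perp hP hΦ hℓ x.2.1 x.2.2
    obtain ⟨c₂, hc₂⟩ := resPart_perp hP hh' x.2.1
    refine ⟨c₁ + c₂, fun s t => ?_⟩
    have e : F f (connect D.incl D.π x.1 (s, t)) =
        ℓ (connect D.incl D.π x.1 (s, t)) + h' (D.incl (connect D.incl D.π x.1 (s, t))) := by
      refine Subtype.ext ?_
      rw [hFval, AddSubgroup.coe_add, hℓval]
      exact DFunLike.congr_fun hab.symm _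
    have e1 := hc₁ s t
    have e2 := hc₂ s t
    dsimp only [Pi.add_apply] at e1 e2 ⊢
    rw [e, smul_add]
    linear_combination (norm := abel) e1 + e2
  let B : ↥D.shaLev →+ (Xgrp S D.base (M.dualTwist (cycloChar p)).ρ →+ ZMod p) :=
    AddMonoidHom.mk' (fun x => QuotientAddGroup.lift _ (B₀ x) (hkill x)) fun x y =>
      AddMonoidHom.ext fun c => by
        obtain ⟨f, rfl⟩ := QuotientAddGroup.mk_surjective c
        exact DFunLike.congr_fun (map_add B₀ x y) f
  have hBval : ∀ x f, B x (QuotientAddGroup.mk f) = inv (cls f x) := fun x f =>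
    QuotientAddGroup.lift_mk _ (hkill x) f
  refine ⟨B, fun x => ⟨fun hx => ?_, fun hx => ?_⟩, fun hex => ?_⟩
  · by_contra hne
    have hP1 : ∀ c : D.Gal → D.P, IsCocycle₁ c → IsCoboundary₁ c := fun c hc => by
      obtain ⟨a, ha⟩ := D.h1_P ⊤ (fun g => c g) fun g h => hc g h
      exact ⟨a, fun g => ha ⟨g, Subgroup.mem_top g⟩⟩
    obtain ⟨f, hf, hfne⟩ := exists_pairing_ne_zero hP hu hP1 x.2.1 hne
    let f' : ↥(homR S D.base (M.dualTwist (cycloChar p)).ρ) := ⟨_, D.coeHom_mem_homR hf⟩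
    have hF : F f' = f := AddMonoidHom.ext fun r => Subtype.ext (hFval f' r)
    have h0 : inv (cls f' x) = 0 := by rw [← hBval, hx, AddMonoidHom.zero_apply]
    rw [hcls0, hF] at h0
    exact hfne h0
  · refine AddMonoidHom.ext fun c => ?_
    obtain ⟨f, rfl⟩ := QuotientAddGroup.mk_surjective c
    rw [hBval, AddMonoidHom.zero_apply]
    exact (hcls0 f x).2 (isCoboundary₂_map (hFeq f) (hP.connect_of_isCoboundary₁ x.2.1 hx))
  · refine (injective_iff_map_eq_zero _).2 fun c hc => ?_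
    obtain ⟨f, rfl⟩ := QuotientAddGroup.mk_surjective c
    rw [QuotientAddGroup.eq_zero_iff]
    choose w hw using fun q => D.exists_local_class hloc hat q
    obtain ⟨m, ℓ, h, d, hm, hℓ, hh, hmf⟩ := exists_decomposition hP hu
      (fun H' c => D.h1_P H' c) hΦ w hw (hFeq f) fun x hx hxloc => by
        have h0 : inv (cls f ⟨x, hx, hxloc⟩) = 0 := by
          rw [← hBval, ← AddMonoidHom.flip_apply B, hc, AddMonoidHom.zero_apply]
        exact (hcls0 f ⟨x, hx, hxloc⟩).1 h0
    set Sub := locHom S D.base (M.dualTwist (cycloChar p)).ρ ⊔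
      resPHom S D.base (M.dualTwist (cycloChar p)).ρ
    have hres : (fixedPts D.N (Cls S)).subtype.comp (h.comp D.incl) ∈
        resPHom S D.base (M.dualTwist (cycloChar p)).ρ :=
      ⟨(fixedPts D.N (Cls S)).subtype.comp h, fun σ z => congrArg Subtype.val (hh
        (QuotientGroup.mk σ) z), rfl⟩
    have hmmem : m • (f : D.R →+ Cls S) ∈ Sub := by
      have e : m • (f : D.R →+ Cls S) = D.coeHom ℓ +
          (fixedPts D.N (Cls S)).subtype.comp (h.comp D.incl) + D.coeHom (nm (Δ := D.Gal) d) := by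
        refine AddMonoidHom.ext fun r => ?_
        rw [AddMonoidHom.smul_apply, ← hFval f, ← AddSubgroup.coe_nsmul, hmf]
        rfl
      rw [e]
      exact add_mem (add_mem (AddSubgroup.mem_sup_left (hback ℓ hℓ))
        (AddSubgroup.mem_sup_right hres)) (D.nm_mem hex d)
    have hpmem : p • (f : D.R →+ Cls S) ∈ Sub :=
      AddSubgroup.mem_sup_right (D.nsmul_mem_resPHom f.2)
    obtain ⟨i, j, hij⟩ := Nat.isCoprime_iff_coprime.2
      ((Nat.Prime.coprime_iff_not_dvd (Fact.out : p.Prime)).2 hm)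
    have e : (f : D.R →+ Cls S) = i • (p • (f : D.R →+ Cls S)) + j • (m • (f : D.R →+ Cls S)) := by
      rw [← natCast_zsmul (f : D.R →+ Cls S) p, ← natCast_zsmul (f : D.R →+ Cls S) m, smul_smul,
        smul_smul, ← add_smul, hij, one_smul]
    change (f : D.R →+ Cls S) ∈ Sub
    rw [e]
    exact add_mem (zsmul_mem hpmem i) (zsmul_mem hmmem j)

end Layer

/-- `Ш¹` and the group computing `Ш²` are finite of the same order. -/
theorem card_sha₁_eq [FiniteDimensional (ZMod p) M] (hLC : LayerClassModule p S)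
    (hE : ExistenceTheorem p S) (hloc : LocalClass p S) (hLP : LocalParts p S M)
    (hSB : Sha1Bridge p S M) (D₀ : Layer p S M) :
    Finite (Xgrp S D₀.base (M.dualTwist (cycloChar p)).ρ) ∧
      Finite ↥(sha₁ S (M.dualTwist (cycloChar p))) ∧
      Nat.card ↥(sha₁ S (M.dualTwist (cycloChar p))) =
        Nat.card (Xgrp S D₀.base (M.dualTwist (cycloChar p)).ρ) := by
  obtain ⟨K₁, hle₁, hK₁, hex⟩ := hE D₀.base D₀.isLvl_base fun s hs => (D₀.triv s hs).1
  set D : Layer p S M := D₀.withTop K₁ hK₁ hle₁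
  have hXp : ∀ c : Xgrp S D₀.base (M.dualTwist (cycloChar p)).ρ, p • c = 0 := D₀.Xgrp_killed
  obtain ⟨T, hT⟩ := hSB.1 D
  obtain ⟨B, hB, hBflip⟩ := D.exists_layer_pairing hLC hloc hLP
  have hker : T.ker ≤ B.ker := fun x hx => (hB x).2 ((hT x).1 hx)
  let B' : ↥D.shaLev ⧸ T.ker →+ (Xgrp S D.base (M.dualTwist (cycloChar p)).ρ →+ ZMod p) :=
    QuotientAddGroup.lift _ B hker
  -- the classes inject into the functionals of the cocycles of one layer
  have hAp : ∀ a : ↥D.shaLev ⧸ T.ker, p • a = 0 := fun a => by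
    obtain ⟨x, rfl⟩ := QuotientAddGroup.mk_surjective a
    rw [← QuotientAddGroup.mk_nsmul, show p • x = 0 from
      Subtype.ext (funext fun g => D.isPresentation.killed (x.1 g))]
    rfl
  have : Finite (↥D.shaLev ⧸ T.ker) := inferInstance
  have hinj : Function.Injective B'.flip := (injective_iff_map_eq_zero _).2 fun c hc =>
    (injective_iff_map_eq_zero _).1 (hBflip hex) c (AddMonoidHom.ext fun x =>
      DFunLike.congr_fun hc (QuotientAddGroup.mk x))
  let B'' : Xgrp S D.base (M.dualTwist (cycloChar p)).ρ →+ (↥D.shaLev ⧸ T.ker →+ ZMod p) := B'.flip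
  have hinj'' : Function.Injective B'' := hinj
  obtain ⟨hXfin, hXcard⟩ := card_le_of_pairing (A := Xgrp S D.base (M.dualTwist (cycloChar p)).ρ)
    (X := ↥D.shaLev ⧸ T.ker) hAp B'' hinj''
  have hXfin' : Finite (Xgrp S D₀.base (M.dualTwist (cycloChar p)).ρ) := hXfin
  have hle : ∀ s : Finset ↥(sha₁ S (M.dualTwist (cycloChar p))),
      s.card ≤ Nat.card (Xgrp S D₀.base (M.dualTwist (cycloChar p)).ρ) := by
    intro s
    obtain ⟨K', hK', hle', T', hT', hs⟩ := hSB.2 D₀ s
    obtain ⟨B₁, hB₁, -⟩ := (D₀.withTop K' hK' hle').exists_layer_pairing hLC hloc hLP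
    have hker₁ : T'.ker ≤ B₁.ker := fun x hx => (hB₁ x).2 ((hT' x).1 hx)
    let B₁' : ↥(D₀.withTop K' hK' hle').shaLev ⧸ T'.ker →+
        (Xgrp S D₀.base (M.dualTwist (cycloChar p)).ρ →+ ZMod p) :=
      QuotientAddGroup.lift _ B₁ hker₁
    have hinj₁ : Function.Injective B₁' := (injective_iff_map_eq_zero _).2 fun a ha => by
      obtain ⟨x, rfl⟩ := QuotientAddGroup.mk_surjective a
      exact (QuotientAddGroup.eq_zero_iff x).2 ((hT' x).2 ((hB₁ x).1 ha))
    obtain ⟨hfin₁, hcard₁⟩ := card_le_of_pairing (A := ↥(D₀.withTop K' hK' hle').shaLev ⧸ T'.ker)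
      (X := Xgrp S D₀.base (M.dualTwist (cycloChar p)).ρ) hXp B₁' hinj₁
    refine le_trans ?_ hcard₁
    choose x hx using hs
    rw [← Nat.card_eq_finsetCard]
    refine Nat.card_le_card_of_injective
      (fun ξ : s => (QuotientAddGroup.mk (x ξ.1 ξ.2) : ↥(D₀.withTop K' hK' hle').shaLev ⧸ T'.ker))
      fun ξ η h => ?_
    have h' := congrArg (QuotientAddGroup.kerLift T') h
    simp only [QuotientAddGroup.kerLift_mk, hx] at h'
    exact Subtype.ext h'
  obtain ⟨hfin, hcard⟩ := finite_and_card_le_of_finset _ hle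
  refine ⟨hXfin', hfin, le_antisymm hcard (hXcard.trans ?_)⟩
  exact Nat.card_le_card_of_injective _ (QuotientAddGroup.kerLift_injective T)

end Fermat.Agent.PoitouTate
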