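/-
Local parts are the maps coming from the ideles supported at `S` (S55).
-/
import Fermat.Agent.PoitouTate.MainApi

set_option autoImplicit false

open CategoryTheory ExtCitation groupCohomology

noncomputable section

namespace Fermat.Agent.PoitouTate

section AtPlace

variable {q : Nat.Primes} {N : Subgroup GQ} {y : LocVal q}

/-- The value of a place idele at a point of the place. -/
theorem lp_atPlaceFun_eq [N.Normal] (hy : ∀ τ ∈ N.comap (loc q), locAct q τ y = y) {τ : LocGal q}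
    {g : GQ} (h : (loc q τ)⁻¹ * g ∈ N) : atPlaceFun N y g = locAct q τ y := by
  have hex : ∃ τ : LocGal q, (loc q τ)⁻¹ * g ∈ N := ⟨τ, h⟩
  rw [atPlaceFun, dif_pos hex]
  have hmem : τ⁻¹ * hex.choose ∈ N.comap (loc q) := by
    rw [Subgroup.mem_comap, map_mul, map_inv]
    have := N.mul_mem h (N.inv_mem hex.choose_spec)
    simpa [mul_assoc] using this
  conv_lhs => rw [← mul_inv_cancel_left τ hex.choose, ← locVal_smul_def, mul_smul]
  rw [locVal_smul_def q (τ⁻¹ * hex.choose), hy _ hmem, locVal_smul_def]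

theorem lp_atPlaceFun_eq_zero {g : GQ} (h : ¬ ∃ τ : LocGal q, (loc q τ)⁻¹ * g ∈ N) :
    atPlaceFun N y g = 0 := by
  rw [atPlaceFun, dif_neg h]

theorem lp_atPlaceFun_add (y y' : LocVal q) (g : GQ) :
    atPlaceFun N (y + y') g = atPlaceFun N y g + atPlaceFun N y' g := by
  by_cases h : ∃ τ : LocGal q, (loc q τ)⁻¹ * g ∈ N
  · simp only [atPlaceFun, dif_pos h, map_add]
  · simp only [lp_atPlaceFun_eq_zero h, add_zero]

end AtPlace

variable {T : Finset Nat.Primes}

theorem lp_smul_mem_Jfin (σ : GQ) {f : J T} (hf : f ∈ Jfin T) : σ • f ∈ Jfin T :=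
  fun q g => hf q (g * σ)

/-- The ideles fixed by `U` map to the classes fixed by `U`. -/
def clsFix (T : Finset Nat.Primes) (U : Subgroup GQ) :
    ↥(fixedPts U ↥(J T)) →+ ↥(fixedPts U (Cls T)) :=
  AddMonoidHom.codRestrict ((clsMk T).comp (fixedPts U ↥(J T)).subtype) _ fun f s hs => by
    change s • clsMk T (f : ↥(J T)) = clsMk T (f : ↥(J T))
    rw [smul_clsMk, f.2 s hs]

theorem coe_clsFix (U : Subgroup GQ) (f : fixedPts U ↥(J T)) :
    ((clsFix T U f : fixedPts U (Cls T)) : Cls T) = clsMk T (f : ↥(J T)) := rfl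

theorem clsFix_equivariant (U : Subgroup GQ) [U.Normal] :
    IsEquivariant (GQ ⧸ U) (clsFix T U) := fun σ f => by
  induction σ using QuotientGroup.induction_on with | H g => ?_
  exact Subtype.ext (smul_clsMk T g (f : ↥(J T))).symm

namespace Layer

variable {p : ℕ} [Fact p.Prime] {S : Finset Nat.Primes} {M : Rep (ZMod p) GQ} (D : Layer p S M)

/-- The ideles of the top level. -/
abbrev JFix : Type := ↥(fixedPts D.N ↥(J S))

/-- The components of the place idele of a local value. -/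
def atFun (q : ↥S) (y : LocVal q.1) : Amb S :=
  (Pi.single q (atPlaceFun D.N y), fun _ _ => 0)

theorem atFun_fin_self (q : ↥S) (y : LocVal q.1) (g : GQ) :
    (D.atFun q y).fin q g = atPlaceFun D.N y g := by
  simp [atFun, Amb.fin]

theorem atFun_fin_ne {q q' : ↥S} (h : q' ≠ q) (y : LocVal q.1) (g : GQ) :
    (D.atFun q y).fin q' g = 0 := by
  simp [atFun, Amb.fin, Pi.single_eq_of_ne h]

theorem mem_locFix {q : ↥S} (y : D.E q) :
    ∀ τ ∈ D.N.comap (loc q.1), locAct q.1 τ (y : LocVal q.1) = y :=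
  fun τ hτ => y.2 τ hτ

theorem smul_atFun {q : ↥S} (y : D.E q) {s : GQ} (hs : s ∈ D.N) :
    s • D.atFun q (y : LocVal q.1) = D.atFun q (y : LocVal q.1) := by
  refine Amb.ext (fun q' g => ?_) fun _ _ => rfl
  rw [Amb.fin_smul]
  by_cases h : q' = q
  · subst h
    rw [atFun_fin_self, atFun_fin_self]
    by_cases hex : ∃ a : LocGal q'.1, (loc q'.1 a)⁻¹ * g ∈ D.N
    · obtain ⟨a, ha⟩ := hex
      rw [lp_atPlaceFun_eq (D.mem_locFix y) ha,
        lp_atPlaceFun_eq (D.mem_locFix y) (by rw [← mul_assoc]; exact mul_mem ha hs)]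
    · rw [lp_atPlaceFun_eq_zero hex, lp_atPlaceFun_eq_zero]
      rintro ⟨a, ha⟩
      rw [← mul_assoc] at ha
      exact hex ⟨a, by simpa using mul_mem ha (inv_mem hs)⟩
  · rw [D.atFun_fin_ne h, D.atFun_fin_ne h]

theorem atFun_mem_J (q : ↥S) (y : D.E q) : D.atFun q (y : LocVal q.1) ∈ J S := by
  refine ⟨fun q' τ g => ?_, fun _ _ _ => rfl, ⟨D.top, D.isLvl_top, fun s hs => ?_⟩, ?_⟩
  · by_cases h : q' = q
    · subst h
      rw [atFun_fin_self, atFun_fin_self]
      by_cases hex : ∃ a : LocGal q'.1, (loc q'.1 a)⁻¹ * g ∈ D.N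
      · obtain ⟨a, ha⟩ := hex
        rw [lp_atPlaceFun_eq (D.mem_locFix y) ha,
          lp_atPlaceFun_eq (D.mem_locFix y) (τ := τ * a) (by simpa [mul_assoc] using ha)]
        exact mul_smul τ a (y : LocVal q'.1)
      · rw [lp_atPlaceFun_eq_zero hex, map_zero, lp_atPlaceFun_eq_zero]
        rintro ⟨a, ha⟩
        exact hex ⟨τ⁻¹ * a, by simpa [mul_assoc] using ha⟩
    · rw [D.atFun_fin_ne h, D.atFun_fin_ne h, map_zero]
  · exact D.smul_atFun y hs
  · have : {q' | ∃ g, (D.atFun q (y : LocVal q.1)).ord q' g ≠ 0} = ∅ := by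
      ext q'
      simp [atFun, Amb.ord]
    rw [this]
    exact Set.finite_empty

/-- The place idele of a local value. -/
def atIdele (q : ↥S) : D.E q →+ D.JFix where
  toFun y := ⟨⟨D.atFun q (y : LocVal q.1), D.atFun_mem_J q y⟩,
    fun _ hs => Subtype.ext (D.smul_atFun y hs)⟩
  map_zero' := Subtype.ext <| Subtype.ext <| Amb.ext (fun q' g => by
    change (D.atFun q ((0 : D.E q) : LocVal q.1)).fin q' g = 0
    by_cases h : q' = q
    · subst h
      rw [atFun_fin_self, ZeroMemClass.coe_zero, atPlaceFun]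
      split_ifs <;> simp
    · exact D.atFun_fin_ne h _ _) fun _ _ => rfl
  map_add' a b := Subtype.ext <| Subtype.ext <| Amb.ext (fun q' g => by
    change (D.atFun q ((a + b : D.E q) : LocVal q.1)).fin q' g =
      (D.atFun q (a : LocVal q.1)).fin q' g + (D.atFun q (b : LocVal q.1)).fin q' g
    by_cases h : q' = q
    · subst h
      rw [atFun_fin_self, atFun_fin_self, atFun_fin_self, AddSubgroup.coe_add, lp_atPlaceFun_add]
    · rw [D.atFun_fin_ne h, D.atFun_fin_ne h, D.atFun_fin_ne h, add_zero]) fun _ _ => rfl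

theorem coe_atIdele (q : ↥S) (y : D.E q) :
    (((D.atIdele q y : D.JFix) : ↥(J S)) : Amb S) = D.atFun q (y : LocVal q.1) := rfl

theorem atIdele_equivariant (q : ↥S) : IsEquivariant ↥(D.H q) (D.atIdele q) := fun h y => by
  obtain ⟨x, rfl⟩ := (D.locEquiv q).surjective h
  induction x using QuotientGroup.induction_on with | H τ => ?_
  refine Subtype.ext (Subtype.ext (Amb.ext (fun q' g => ?_) fun _ _ => rfl))
  change (D.atFun q ((D.locEquiv q (QuotientGroup.mk τ) • y : D.E q) : LocVal q.1)).fin q' g =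
    (loc q.1 τ • D.atFun q (y : LocVal q.1)).fin q' g
  rw [D.locEquiv_smul, Amb.fin_smul]
  by_cases hq : q' = q
  · subst hq
    rw [atFun_fin_self, atFun_fin_self]
    have hy' : ∀ s ∈ D.N.comap (loc q'.1),
        locAct q'.1 s (τ • (y : LocVal q'.1)) = τ • (y : LocVal q'.1) := fun s hs => by
      have := D.mem_locFix y (τ⁻¹ * s * τ)
        (by simpa using (D.normal_N.comap (loc q'.1)).conj_mem s hs τ⁻¹)
      rw [← locVal_smul_def] at this ⊢
      conv_rhs => rw [← this]
      rw [← mul_smul, ← mul_smul]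
      congr 1
      group
    have key : ∀ a : LocGal q'.1, (loc q'.1 a)⁻¹ * g ∈ D.N →
        (loc q'.1 (a * τ))⁻¹ * (g * loc q'.1 τ) ∈ D.N := fun a ha => by
      rw [map_mul, mul_inv_rev, show (loc q'.1 τ)⁻¹ * (loc q'.1 a)⁻¹ * (g * loc q'.1 τ) =
        (loc q'.1 τ)⁻¹ * ((loc q'.1 a)⁻¹ * g) * (loc q'.1 τ)⁻¹⁻¹ by group]
      exact D.normal_N.conj_mem _ ha _
    by_cases hex : ∃ a : LocGal q'.1, (loc q'.1 a)⁻¹ * g ∈ D.N
    · obtain ⟨a, ha⟩ := hex
      rw [lp_atPlaceFun_eq (D.mem_locFix y) (key a ha), lp_atPlaceFun_eq hy' ha]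
      exact (mul_smul a τ (y : LocVal q'.1)).symm
    · rw [lp_atPlaceFun_eq_zero hex, lp_atPlaceFun_eq_zero]
      rintro ⟨a, ha⟩
      refine hex ⟨a * τ⁻¹, ?_⟩
      have := D.normal_N.conj_mem _ ha (loc q'.1 τ)
      rw [map_mul, map_inv, mul_inv_rev, inv_inv]
      simpa [mul_assoc] using this
  · rw [D.atFun_fin_ne hq, D.atFun_fin_ne hq]

/-- The local part of a map to the ideles of the top level. -/
def locComp (g : D.R →+ ↥(J S))
    (hσ : ∀ (σ : GQ) (r : D.R), g ((QuotientGroup.mk σ : D.Gal) • r) = σ • g r) (q : ↥S) :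
    D.R →+ D.E q where
  toFun r := ⟨(g r : Amb S).fin q 1, fun τ hτ => by
    rw [locVal_smul_def, ← (g r).2.1 q τ 1, mul_one]
    have h1 : g r = loc q.1 τ • g r := by
      rw [← hσ, (QuotientGroup.eq_one_iff (N := D.N) _).2 hτ, one_smul]
    conv_rhs => rw [h1, coe_smul_J, Amb.fin_smul, one_mul]⟩
  map_zero' := Subtype.ext (by simp)
  map_add' a b := Subtype.ext (by simp)

theorem locComp_equivariant (g : D.R →+ ↥(J S))
    (hσ : ∀ (σ : GQ) (r : D.R), g ((QuotientGroup.mk σ : D.Gal) • r) = σ • g r) (q : ↥S) :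
    IsEquivariant ↥(D.H q) (D.locComp g hσ q) := fun h r => by
  obtain ⟨x, rfl⟩ := (D.locEquiv q).surjective h
  induction x using QuotientGroup.induction_on with | H τ => ?_
  refine Subtype.ext ?_
  rw [D.locEquiv_smul]
  change (g ((QuotientGroup.mk (loc q.1 τ) : D.Gal) • r) : Amb S).fin q 1 = _
  rw [hσ, coe_smul_J, Amb.fin_smul, one_mul, locVal_smul_def]
  exact (mul_one (loc q.1 τ) ▸ (g r).2.1 q τ 1 :)

/-- The evaluation of the ideles of the top level at a point. -/
def evalFin (q : ↥S) (x : GQ) : D.JFix →+ LocVal q.1 where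
  toFun f := ((f : ↥(J S)) : Amb S).fin q x
  map_zero' := rfl
  map_add' _ _ := rfl

theorem evalFin_quot_smul (q : ↥S) (x σ : GQ) (f : D.JFix) :
    D.evalFin q x ((QuotientGroup.mk σ : D.Gal) • f) = D.evalFin q (x * σ) f := rfl

/-- An idele supported at `S` is the sum of the ideles induced from its local parts. -/
theorem sum_indHom_locComp (g : D.R →+ ↥(J S))
    (hσ : ∀ (σ : GQ) (r : D.R), g ((QuotientGroup.mk σ : D.Gal) • r) = σ • g r)
    (q : ↥S) (x : GQ) (r : D.R) :
    D.evalFin q x (∑ q' : ↥S, indHom (D.H q') ((D.atIdele q').comp (D.locComp g hσ q')) r) =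
      (g r : Amb S).fin q x := by
  rw [map_sum, Finset.sum_eq_single q]
  swap
  · intro q' _ hne
    rw [indHom_apply, map_sum]
    refine Finset.sum_eq_zero fun c _ => ?_
    obtain ⟨σ, hσc⟩ := QuotientGroup.mk_surjective (c.out : D.Gal)
    rw [← hσc, evalFin_quot_smul]
    exact D.atFun_fin_ne (Ne.symm hne) _ _
  swap
  · intro h; exact absurd (Finset.mem_univ q) h
  set c₀ : D.Gal ⧸ D.H q := QuotientGroup.mk (QuotientGroup.mk x : D.Gal)⁻¹ with hc₀
  rw [indHom_apply, map_sum, Finset.sum_eq_single c₀]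
  swap
  · intro c _ hne
    obtain ⟨σ, hσc⟩ := QuotientGroup.mk_surjective (c.out : D.Gal)
    rw [← hσc, evalFin_quot_smul]
    change (D.atFun q _).fin q (x * σ) = 0
    rw [atFun_fin_self, lp_atPlaceFun_eq_zero]
    rintro ⟨τ, hτ⟩
    refine hne ?_
    rw [hc₀, ← QuotientGroup.out_eq' c, ← hσc]
    refine (QuotientGroup.eq.2 ?_).symm
    rw [inv_inv, ← QuotientGroup.mk_mul,
      ← QuotientGroup.eq.2 (show (loc q.1 τ)⁻¹ * (x * σ) ∈ D.N from hτ)]
    exact ⟨QuotientGroup.mk τ, rfl⟩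
  swap
  · intro h; exact absurd (Finset.mem_univ _) h
  obtain ⟨σ, hσc⟩ := QuotientGroup.mk_surjective (c₀.out : D.Gal)
  rw [← hσc, evalFin_quot_smul]
  change (D.atFun q ((D.locComp g hσ q ((QuotientGroup.mk σ : D.Gal)⁻¹ • r) : D.E q) :
    LocVal q.1)).fin q (x * σ) = _
  rw [atFun_fin_self]
  have hmem : (QuotientGroup.mk (x * σ) : D.Gal) ∈ D.H q := by
    have h := QuotientGroup.eq.1 (QuotientGroup.out_eq' c₀).symm
    rw [inv_inv, ← hσc, ← QuotientGroup.mk_mul] at h
    exact h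
  obtain ⟨t, ht⟩ := hmem
  induction t using QuotientGroup.induction_on with | H τ => ?_
  rw [D.locMap_mk] at ht
  have hτ : (loc q.1 τ)⁻¹ * (x * σ) ∈ D.N := QuotientGroup.eq.1 ht
  rw [lp_atPlaceFun_eq (D.mem_locFix _) hτ]
  have hv : ((D.locComp g hσ q ((QuotientGroup.mk σ : D.Gal)⁻¹ • r) : D.E q) : LocVal q.1) =
      (g r : Amb S).fin q σ⁻¹ := by
    change (g ((QuotientGroup.mk σ : D.Gal)⁻¹ • r) : Amb S).fin q 1 = _
    rw [← QuotientGroup.mk_inv, hσ, coe_smul_J, Amb.fin_smul, one_mul]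
  rw [hv, ← (g r).2.1 q τ σ⁻¹]
  obtain ⟨n, hn, hxn⟩ : ∃ n ∈ D.N, loc q.1 τ * σ⁻¹ = x * n :=
    ⟨x⁻¹ * (loc q.1 τ * σ⁻¹), by
      have h2 := D.normal_N.conj_mem _ (inv_mem hτ) σ
      simpa [mul_assoc] using h2, by group⟩
  have h3 : n • g r = g r := by
    rw [← hσ, (QuotientGroup.eq_one_iff (N := D.N) _).2 hn, one_smul]
  rw [hxn]
  conv_rhs => rw [← h3, coe_smul_J, Amb.fin_smul]

theorem indHom_clsFix (q : ↥S) (g : D.R →+ D.E q) (r : D.R) :
    indHom (D.H q) (((clsFix S D.N).comp (D.atIdele q)).comp g) r =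
      clsFix S D.N (indHom (D.H q) ((D.atIdele q).comp g) r) := by
  rw [indHom_apply, indHom_apply, map_sum]
  exact Finset.sum_congr rfl fun c _ => ((clsFix_equivariant D.N) _ _).symm

theorem indHom_atIdele_mem_Jfin (q : ↥S) (g : D.R →+ D.E q) (r : D.R) :
    ((indHom (D.H q) ((D.atIdele q).comp g) r : D.JFix) : ↥(J S)) ∈ Jfin S := by
  rw [indHom_apply, AddSubmonoidClass.coe_finset_sum]
  refine sum_mem fun c _ => ?_
  obtain ⟨σ, hσc⟩ := QuotientGroup.mk_surjective (c.out : D.Gal)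
  rw [← hσc, coe_quot_smul]
  exact lp_smul_mem_Jfin σ fun _ _ => rfl

end Layer

/-- Local parts are the maps coming from ideles supported at `S`. -/
theorem localParts (p : ℕ) [Fact p.Prime] (S : Finset Nat.Primes) (M : Rep (ZMod p) GQ) :
    LocalParts p S M := by
  intro D
  refine ⟨fun q => (clsFix S D.N).comp (D.atIdele q), fun q h y => ?_, fun q y => ?_, ?_, ?_⟩
  · simp only [AddMonoidHom.comp_apply, D.atIdele_equivariant q h y, Subgroup.smul_def]
    exact clsFix_equivariant D.N (h : D.Gal) _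
  · exact ⟨(D.atIdele q y : D.JFix), rfl, fun g => D.atFun_fin_self q _ g,
      fun q' g h => D.atFun_fin_ne h _ g, fun _ _ => rfl⟩
  · intro g hg hσ
    refine ⟨∑ q : ↥S, indHom (D.H q) (((clsFix S D.N).comp (D.atIdele q)).comp
      (D.locComp g hσ q)), sum_mem fun q _ => AddSubgroup.subset_closure
        ⟨q, D.locComp g hσ q, D.locComp_equivariant g hσ q, rfl⟩, fun r => ?_⟩
    rw [AddMonoidHom.finsetSum_apply, Finset.sum_congr rfl fun q _ => D.indHom_clsFix q _ r,
      ← map_sum, coe_clsFix]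
    congr 1
    refine Subtype.ext (Amb.ext (fun q x => D.sum_indHom_locComp g hσ q x r) fun q' x => ?_)
    rw [hg r q' x]
    have hmem : ((∑ q : ↥S, indHom (D.H q) ((D.atIdele q).comp (D.locComp g hσ q)) r : D.JFix) :
        ↥(J S)) ∈ Jfin S := by
      rw [AddSubmonoidClass.coe_finset_sum]
      exact sum_mem fun q _ => D.indHom_atIdele_mem_Jfin q _ r
    exact hmem q' x
  · intro f hf
    induction hf using AddSubgroup.closure_induction with
    | mem f hf =>
      obtain ⟨q, g, hg, rfl⟩ := hf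
      refine ⟨(fixedPts D.N ↥(J S)).subtype.comp (indHom (D.H q) ((D.atIdele q).comp g)),
        fun r => D.indHom_atIdele_mem_Jfin q g r, fun σ r r' h => ?_, ?_⟩
      · have e : r' = (QuotientGroup.mk σ : D.Gal) • r := Subtype.ext h.symm
        rw [e]
        simp only [AddMonoidHom.comp_apply, AddSubgroup.coe_subtype]
        rw [indHom_isEquivariant (fun h r => ?_) (QuotientGroup.mk σ : D.Gal) r, coe_quot_smul]
        simp only [AddMonoidHom.comp_apply, ← Subgroup.smul_def, hg h r,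
          D.atIdele_equivariant q h]
      · refine AddMonoidHom.ext fun r => ?_
        simp only [AddMonoidHom.comp_apply, AddSubgroup.coe_subtype]
        rw [D.indHom_clsFix q g r, coe_clsFix]
    | zero => simp only [AddMonoidHom.comp_zero]; exact zero_mem _
    | add a b _ _ ha hb => rw [AddMonoidHom.comp_add]; exact add_mem ha hb
    | neg a _ ha => rw [AddMonoidHom.comp_neg]; exact neg_mem ha

end Fermat.Agent.PoitouTate
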