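/-
Locally trivial cocycles of the layers are the classes of `Ш¹`, and the base layer of a module
(S55).
-/
import Fermat.Agent.PoitouTate.MainApi
import Fermat.Agent.PoitouTate.GlobalKummer
import Fermat.Agent.Datum.Roots

set_option autoImplicit false

open CategoryTheory ExtCitation groupCohomology

noncomputable section

namespace Fermat.Agent.PoitouTate

local notation "Qb" => AlgebraicClosure ℚ

variable {p : ℕ} [Fact p.Prime] {S : Finset Nat.Primes}

theorem exists_isLvl_over {F : IntermediateField ℚ Qb} (hF : F.IsUnramifiedOutside S) :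
    ∃ L, IsLvl S L ∧ F ≤ L := by
  obtain ⟨L, hL, hn, hle⟩ := exists_normal_isUnramifiedOutside_ge hF
  have := hL.1
  have : IsGalois ℚ L := { }
  exact ⟨L, ⟨hL, (InfiniteGalois.normal_iff_isGalois L).2 this⟩, hle⟩

/-- A crossed homomorphism on the decomposition group at infinity is principal, as `p` is odd. -/
theorem exists_primitive_infinity (hp2 : p ≠ 2) (A : Rep (ZMod p) GQ)
    {c : GQ → A} (hc : ∀ g h, c (g * h) = A.ρ g (c h) + c g) :
    ∃ w : A, ∀ g ∈ archimedeanDecomposition, A.ρ g w - w = c g := by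
  classical
  have hfin : IsOfFinOrder complexConjugation :=
    isOfFinOrder_iff_pow_eq_one.mpr ⟨2, by norm_num, complexConjugation_sq⟩
  haveI : Finite ↥archimedeanDecomposition := hfin.finite_zpowers.to_subtype
  haveI := Fintype.ofFinite ↥archimedeanDecomposition
  have hdvd : Fintype.card ↥archimedeanDecomposition ∣ 2 := by
    rw [← Nat.card_eq_fintype_card, archimedeanDecomposition, Nat.card_zpowers]
    exact orderOf_dvd_of_pow_eq_one complexConjugation_sq
  have hne : (Fintype.card ↥archimedeanDecomposition : ZMod p) ≠ 0 := by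
    rw [Ne, ZMod.natCast_eq_zero_iff]
    intro hpn
    exact hp2 ((Nat.prime_dvd_prime_iff_eq Fact.out Nat.prime_two).mp (hpn.trans hdvd))
  set n : ZMod p := (Fintype.card ↥archimedeanDecomposition : ZMod p)
  set t : A := ∑ h : ↥archimedeanDecomposition, c (h : GQ)
  refine ⟨-(n⁻¹ • t), fun g hg => ?_⟩
  have e : t = A.ρ g t + n • c g := by
    conv_lhs => rw [show t = ∑ h : ↥archimedeanDecomposition, c (g * (h : GQ)) from
      (Fintype.sum_equiv (Equiv.mulLeft ⟨g, hg⟩)
        (fun h : ↥archimedeanDecomposition => c (g * (h : GQ))) _ fun h => rfl).symm]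
    simp only [hc, Finset.sum_add_distrib, Finset.sum_const, Finset.card_univ, ← map_sum]
    rw [← Nat.cast_smul_eq_nsmul (ZMod p)]
  rw [map_neg, map_smul]
  have e' : n⁻¹ • t = n⁻¹ • A.ρ g t + c g := by
    conv_lhs => rw [e, smul_add, smul_smul, inv_mul_cancel₀ hne, one_smul]
  rw [e']
  abel

variable {M : Rep (ZMod p) GQ}

namespace Layer

variable (D : Layer p S M)

/-- The inflation of a cocycle of a layer. -/
def inflate : ↥D.shaLev →+ ↥(cocycles₁ (M.dualTwist (cycloChar p))) where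
  toFun x := ⟨fun g => x.1 (QuotientGroup.mk g),
    (mem_cocycles₁_iff (A := M.dualTwist (cycloChar p)) _).2 fun g h => by
      change x.1 (QuotientGroup.mk g * QuotientGroup.mk h) = _
      rw [x.2.1]
      rfl⟩
  map_zero' := rfl
  map_add' _ _ := rfl

theorem inflate_apply (x : D.shaLev) (g : GQ) :
    (D.inflate x : GQ → ↥(M.dualTwist (cycloChar p))) g = x.1 (QuotientGroup.mk g) := rfl

theorem inflate_mem (hp2 : p ≠ 2) (x : D.shaLev) :
    (H1π (M.dualTwist (cycloChar p))).hom (D.inflate x) ∈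
      sha₁ S (M.dualTwist (cycloChar p)) := by
  refine ⟨(mem_continuousH1S_iff S _ _).2 ⟨_, ⟨D.top, D.isLvl_top.unramified, fun g s hs => ?_⟩,
    rfl⟩, LinearMap.mem_ker.2 ?_⟩
  · change x.1 (QuotientGroup.mk (g * s)) = x.1 (QuotientGroup.mk g)
    exact congrArg x.1 (QuotientGroup.eq.2 (by simpa using inv_mem hs))
  funext v
  rw [locTotal_apply, Pi.zero_apply]
  change (groupCohomology.map _ _ 1).hom ((H1π _).hom _) = 0
  rw [H1π_comp_map_apply, H1π_eq_zero_iff]
  rcases v with v | q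
  · obtain ⟨w, hw⟩ := exists_primitive_infinity hp2 (M.dualTwist (cycloChar p))
      ((mem_cocycles₁_iff (A := M.dualTwist (cycloChar p)) _).1 (D.inflate x).2)
    refine ⟨w, funext fun a => ?_⟩
    exact hw _ (a : ↥archimedeanDecomposition).2
  · obtain ⟨w, hw⟩ := x.2.2 q
    refine ⟨w, funext fun a => ?_⟩
    exact hw ⟨D.locMap q (QuotientGroup.mk a), ⟨_, rfl⟩⟩

/-- The classes of the cocycles of a layer. -/
def toSha₁ (hp2 : p ≠ 2) : ↥D.shaLev →+ ↥(sha₁ S (M.dualTwist (cycloChar p))) :=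
  AddMonoidHom.mk' (fun x => ⟨_, D.inflate_mem hp2 x⟩) fun x y =>
    Subtype.ext ((congrArg (H1π (M.dualTwist (cycloChar p))).hom (map_add D.inflate x y)).trans
      (map_add (H1π (M.dualTwist (cycloChar p))).hom _ _))

theorem toSha₁_eq_zero_iff (hp2 : p ≠ 2) (x : D.shaLev) :
    D.toSha₁ hp2 x = 0 ↔ IsCoboundary₁ (x : D.Gal → D.W) := by
  rw [← Subtype.coe_inj]
  change (H1π (M.dualTwist (cycloChar p))).hom (D.inflate x) = 0 ↔ _
  rw [H1π_eq_zero_iff]
  constructor
  · rintro ⟨w, hw⟩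
    refine ⟨w, fun γ => ?_⟩
    induction γ using QuotientGroup.induction_on with | H g => ?_
    exact congrFun hw g
  · rintro ⟨w, hw⟩
    exact ⟨w, funext fun g => hw (QuotientGroup.mk g)⟩

theorem exists_common_level
    (s : Finset ↥(sha₁ S (M.dualTwist (cycloChar p)))) :
    ∃ K, IsLvl S K ∧ D.base ≤ K ∧ ∀ ξ ∈ s, ∃ c : cocycles₁ (M.dualTwist (cycloChar p)),
      (∀ g t, t ∈ K.fixingSubgroup → c (g * t) = c g) ∧
      (H1π (M.dualTwist (cycloChar p))).hom c = (ξ : H1 (M.dualTwist (cycloChar p))) := by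
  classical
  induction s using Finset.induction with
  | empty => exact ⟨D.base, D.isLvl_base, le_rfl, fun _ h => absurd h (Finset.notMem_empty _)⟩
  | insert ξ s _ ih =>
    obtain ⟨K, hK, hle, h⟩ := ih
    obtain ⟨c, ⟨F, hF, hc⟩, hcξ⟩ := (mem_continuousH1S_iff S _ _).1 ξ.2.1
    obtain ⟨L, hL, hFL⟩ := exists_isLvl_over hF
    refine ⟨K ⊔ L, hK.sup hL, hle.trans le_sup_left, fun η hη => ?_⟩
    rcases Finset.mem_insert.1 hη with rfl | hη'
    · exact ⟨c, fun g t ht => hc g t
        (IntermediateField.fixingSubgroup_antitone (hFL.trans le_sup_right) ht), hcξ⟩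
    · obtain ⟨d, hd, hdη⟩ := h η hη'
      exact ⟨d, fun g t ht => hd g t (IntermediateField.fixingSubgroup_antitone le_sup_left ht),
        hdη⟩

end Layer

/-- Locally trivial cocycles of the layers exhaust `Ш¹`. -/
theorem sha1Bridge (hp2 : p ≠ 2) : Sha1Bridge p S M := by
  refine ⟨fun D => ⟨D.toSha₁ hp2, D.toSha₁_eq_zero_iff hp2⟩, fun D s => ?_⟩
  obtain ⟨K, hK, hle, hs⟩ := D.exists_common_level s
  set D' := D.withTop K hK hle
  refine ⟨K, hK, hle, D'.toSha₁ hp2, D'.toSha₁_eq_zero_iff hp2, fun ξ hξ => ?_⟩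
  obtain ⟨c, hc, hcξ⟩ := hs ξ hξ
  have hc' : ∀ g h : GQ, g⁻¹ * h ∈ D'.N → c g = c h := fun g h hgh => by
    rw [← hc g (g⁻¹ * h) hgh, mul_inv_cancel_left]
  let x : D'.Gal → D'.W := fun γ => c γ.out
  have hx : ∀ g : GQ, x (QuotientGroup.mk g) = c g := fun g =>
    hc' _ _ (QuotientGroup.eq.1 (QuotientGroup.out_eq' _))
  have hcoc := (mem_cocycles₁_iff (A := M.dualTwist (cycloChar p)) c).1 c.2
  have hxmem : x ∈ D'.shaLev := by
    refine ⟨fun γ δ => ?_, fun q => ?_⟩
    · induction γ using QuotientGroup.induction_on with | H g => ?_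
      induction δ using QuotientGroup.induction_on with | H h => ?_
      rw [← QuotientGroup.mk_mul, hx, hx, hx, hcoc]
      rfl
    · have h0 : (locRes (extArithLoc S) (M.dualTwist (cycloChar p)) (Sum.inr q : extArithIndex S)).hom
          (ξ : H1 (M.dualTwist (cycloChar p))) = 0 :=
        congrFun (LinearMap.mem_ker.1 ξ.2.2) (Sum.inr q : extArithIndex S)
      rw [← hcξ] at h0
      change (groupCohomology.map _ _ 1).hom ((H1π _).hom _) = 0 at h0
      rw [H1π_comp_map_apply, H1π_eq_zero_iff] at h0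
      obtain ⟨w, hw⟩ := h0
      refine ⟨w, fun h => ?_⟩
      obtain ⟨-, a, rfl⟩ := h
      induction a using QuotientGroup.induction_on with | H τ => ?_
      change (M.dualTwist (cycloChar p)).ρ (loc q.1 τ) w - w = x (QuotientGroup.mk (loc q.1 τ))
      rw [hx]
      exact congrFun hw τ
  refine ⟨⟨x, hxmem⟩, Subtype.ext ?_⟩
  rw [← hcξ]
  change (H1π _).hom _ = (H1π _).hom c
  exact congrArg _ (Subtype.ext (funext fun g => hx g))

theorem cycloChar_eq_one_of_fix {s : GQ} (h : ∀ μ : Qb, μ ^ p = 1 → s μ = μ) :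
    cycloChar p s = 1 := by
  haveI : NeZero p := ⟨(Fact.out : p.Prime).ne_zero⟩
  refine Units.ext ?_
  rw [Units.val_one]
  refine (modularCyclotomicCharacter.unique Qb (card_rootsOfUnity_eq_self p)
    (s : Qb ≃+* Qb) (c := (1 : ZMod p)) fun t ht => ?_).symm
  have ht' : (t : Qb) ^ p = 1 := by
    rw [mem_rootsOfUnity] at ht
    simpa using congrArg Units.val ht
  rw [ZMod.val_one'' (Fact.out : p.Prime).one_lt.ne', pow_one]
  exact h _ ht'

/-- A base layer. -/
theorem exists_base_layer (hpS : pPrime p ∈ S) [FiniteDimensional (ZMod p) M]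
    (hsm : ∀ m : M, ∃ F : IntermediateField ℚ Qb, FiniteDimensional ℚ F ∧
      ∀ s ∈ F.fixingSubgroup, M.ρ s m = m)
    (hMur : ∀ q : Nat.Primes, q ∉ S → ∀ A : ValuationSubring Qb,
      A.LiesOverPrime (q : ℕ) → ∀ g ∈ A.inertiaSubgroupIn ℚ, M.ρ g = 1) :
    Nonempty (Layer p S M) := by
  classical
  have hp := (Fact.out : p.Prime)
  haveI : NeZero p := ⟨hp.ne_zero⟩
  let H : Subgroup GQ := M.ρ.ker ⊓ (cycloChar p).ker
  let b := Module.finBasis (ZMod p) M
  choose F hF hFfix using fun i => hsm (b i)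
  obtain ⟨ζ, hζ⟩ := HasEnoughRootsOfUnity.exists_primitiveRoot Qb p
  let E : IntermediateField ℚ Qb := (⨆ i, F i) ⊔ IntermediateField.adjoin ℚ {ζ}
  haveI : FiniteDimensional ℚ (IntermediateField.adjoin ℚ ({ζ} : Set Qb)) :=
    IntermediateField.adjoin.finiteDimensional (Algebra.IsIntegral.isIntegral ζ)
  haveI := hF
  haveI : FiniteDimensional ℚ E := IntermediateField.finiteDimensional_sup _ _
  have hEH : E.fixingSubgroup ≤ H := by
    intro s hs
    have hfix := (IntermediateField.mem_fixingSubgroup_iff E s).1 hs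
    refine ⟨?_, ?_⟩
    · change M.ρ s = 1
      refine b.ext fun i => ?_
      rw [Module.End.one_apply]
      exact hFfix i s ((IntermediateField.mem_fixingSubgroup_iff _ _).2 fun x hx =>
        hfix x ((le_sup_left : (⨆ i, F i) ≤ E) (le_iSup F i hx)))
    · change cycloChar p s = 1
      refine cycloChar_eq_one_of_fix fun μ hμ => ?_
      obtain ⟨k, -, rfl⟩ := hζ.eq_pow_of_pow_eq_one hμ
      rw [map_pow, hfix ζ ((le_sup_right : IntermediateField.adjoin ℚ {ζ} ≤ E)
        (IntermediateField.mem_adjoin_simple_self ℚ ζ))]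
  have hcl : IsClosed (H : Set GQ) :=
    Subgroup.isClosed_of_isOpen H (Subgroup.isOpen_mono hEH E.fixingSubgroup_isOpen)
  have hfix : (IntermediateField.fixedField H).fixingSubgroup = H :=
    InfiniteGalois.fixingSubgroup_fixedField (⟨H, hcl⟩ : ClosedSubgroup GQ)
  have hle : IntermediateField.fixedField H ≤ E := fun x hx => by
    rw [← InfiniteGalois.fixedField_fixingSubgroup E]
    exact fun s => hx ⟨s.1, hEH s.2⟩
  have hfd : FiniteDimensional ℚ (IntermediateField.fixedField H) :=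
    FiniteDimensional.of_injective (IntermediateField.inclusion hle).toLinearMap
      (IntermediateField.inclusion_injective hle)
  have hur : (IntermediateField.fixedField H).IsUnramifiedOutside S := by
    refine ⟨hfd, fun q hq A hA σ hσ => ?_⟩
    rw [hfix]
    refine ⟨MonoidHom.mem_ker.2 (hMur q hq A hA σ hσ), MonoidHom.mem_ker.2 ?_⟩
    refine cycloChar_eq_one_of_fix fun μ hμ => ?_
    have hqp : (q : ℕ).Coprime p := (Nat.coprime_primes q.2 hp).2 fun h =>
      hq (by rwa [show q = pPrime p from Subtype.ext h])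
    exact Datum.inertia_apply_root hA hσ hqp hp.ne_zero hμ
  exact ⟨⟨_, _, ⟨hur, by rw [hfix]; infer_instance⟩, ⟨hur, by rw [hfix]; infer_instance⟩, le_rfl,
    fun s hs => by
      rw [hfix] at hs
      exact ⟨MonoidHom.mem_ker.1 hs.2, MonoidHom.mem_ker.1 hs.1⟩⟩⟩

end Fermat.Agent.PoitouTate
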