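import Fermat.Agent.PoitouTate.Sha2Rel
import Fermat.Agent.PoitouTate.Sha2Hilbert90
import Fermat.Agent.PoitouTate.GlobalShapiro
import Mathlib.LinearAlgebra.FreeModule.PID

/-!
# The kernel of the connecting relation
-/

set_option autoImplicit false

open CategoryTheory ExtCitation groupCohomology

noncomputable section

namespace Fermat.Agent.PoitouTate

local notation "Qb" => AlgebraicClosure ℚ

variable {p : ℕ} [Fact p.Prime] {S : Finset Nat.Primes} {M : Rep (ZMod p) GQ}
  {K : IntermediateField ℚ Qb}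

theorem hasPrincipal (T : Finset Nat.Primes) : HasPrincipal T := fun L hL x hx hx0 => by
  obtain ⟨f, hf, -, hfix⟩ := exists_principal hL hx hx0
  exact ⟨f, hf, fun s hs => hfix s ((IntermediateField.mem_fixingSubgroup_iff _ _).mp hs x hx)⟩

theorem IsPrinU.zsmul {f : J S} {x : Qu} (h : IsPrinU S f x) (n : ℤ) :
    IsPrinU S (n • f) (n • x) := by
  induction n with
  | zero => simpa using isPrinU_zero (T := S)
  | succ n ih => rw [add_zsmul, add_zsmul, one_zsmul, one_zsmul]; exact ih.add h
  | pred n ih => rw [sub_zsmul, sub_zsmul, one_zsmul, one_zsmul]; exact ih.sub h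

/-- The linear extension of principal ideles is principal. -/
theorem isPrinU_extP {W : Type} {d : Idx W K → J S} {ψ : Idx W K → Qu}
    (h : ∀ x, IsPrinU S (d x) (ψ x)) (r : Pmod W K) :
    IsPrinU S (extP d r) (extP ψ r) := by
  induction r using Finsupp.induction_linear with
  | zero => simpa using isPrinU_zero (T := S)
  | add a b ha hb => rw [map_add, map_add]; exact ha.add hb
  | single x n => rw [extP_single, extP_single]; exact (h x).zsmul n

theorem clsMk_extP {W : Type} (H : Idx W K → J S) (r : Pmod W K) :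
    clsMk S (extP H r) = extP (fun x => clsMk S (H x)) r := by
  induction r using Finsupp.induction_linear with
  | zero => simp
  | add a b ha hb => simp [map_add, ha, hb]
  | single x n => rw [extP_single, extP_single, map_zsmul]

theorem extP_mem_Jfin {W : Type} {H : Idx W K → J S} (hH : ∀ x, H x ∈ Jfin S) (r : Pmod W K) :
    extP H r ∈ Jfin S := by
  induction r using Finsupp.induction_linear with
  | zero => simp
  | add a b ha hb => rw [map_add]; exact add_mem ha hb
  | single x n => rw [extP_single]; exact zsmul_mem (hH x) n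

namespace Setup

theorem zero_of_coboundary {h : Setup p S M K} {c : RL M K →+ Cls S} {F : GQ × GQ → M}
    (hr : h.Rel c F) (hF : F ∈ levelCoboundariesS₂ S M) :
    c ∈ locHom S K (dualRep M.ρ (cycloChar p)) ⊔ resPHom S K (dualRep M.ρ (cycloChar p)) := by
  obtain ⟨Φ, g, hΦ, hcΦ, hgU, ⟨L₀, hL₀, hg⟩, hprin, hqd⟩ := hr
  obtain ⟨u, ⟨L₁, hL₁, hu⟩, hdu⟩ := (mem_levelCoboundariesS₂_iff S M F).1 hF
  let g' : GQ → XI M K → Qu := fun σ => g σ - iotaU M K (u σ)
  have hcoc : ∀ σ τ, g' (σ * τ) = idxAct (quAct σ) σ (g' τ) + g' σ := by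
    intro σ τ
    have h1 : qd g σ τ = idxAct (quAct σ) σ (iotaU M K (u τ)) - iotaU M K (u (σ * τ)) +
        iotaU M K (u σ) := by
      rw [← hqd, ← congrFun hdu (σ, τ), d₁₂_hom_apply, iotaU,
        idxAct_iota h.triv (a := quAct σ) (fun k => smul_zHom p σ k), map_add, map_sub]
    simp only [g', map_sub]
    simp only [qd] at h1
    rw [← sub_eq_zero] at h1 ⊢
    rw [← neg_eq_zero, ← h1]
    abel
  -- a level for everything
  obtain ⟨L₂, hL₂, hle⟩ := exists_isLvl_ge ((hL₀.sup hL₁).sup h.lvl.unramified)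
  have hg' : ∀ σ, ∀ s ∈ L₂.fixingSubgroup, g' (σ * s) = g' σ := fun σ s hs => by
    simp only [g']
    rw [hg σ s (IntermediateField.fixingSubgroup_antitone
      ((le_sup_left.trans le_sup_left).trans hle) hs),
      hu σ s (IntermediateField.fixingSubgroup_antitone
      ((le_sup_right.trans le_sup_left).trans hle) hs)]
  haveI := hL₂.unramified.1
  haveI := h.lvl.normal
  letI : MulAction GQ (XI M K) :=
    { smul := fun σ x => (σ • x.1, x.2)
      one_smul := fun x => Prod.ext (one_smul GQ x.1) rfl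
      mul_smul := fun σ τ x => Prod.ext (mul_smul σ τ x.1) rfl }
  have hstab : ∀ (x : XI M K), ∀ s ∈ K.fixingSubgroup, s • x = x := by
    intro x s hs
    refine Prod.ext ?_ rfl
    show s • x.1 = x.1
    induction x.1 using QuotientGroup.induction_on with
    | H g₀ =>
      rw [MulAction.Quotient.smul_mk, QuotientGroup.eq, smul_eq_mul]
      simpa [mul_assoc] using h.lvl.normal.conj_mem _ (inv_mem hs) g₀⁻¹
  obtain ⟨ψ, hψ⟩ := exists_primitive_of_stabilizers g'
    (fun σ τ x => congrFun (hcoc σ τ) x) fun x => by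
      obtain ⟨b, hb⟩ := exists_hilbert90_Qu (L := L₂) (MulAction.stabilizer GQ x)
        (fun s => g' s x)
        (fun s t => by
          rw [Subgroup.coe_mul, hcoc]
          show (s : GQ) • g' t ((s : GQ)⁻¹ • x) + g' s x = _
          rw [inv_smul_eq_iff.mpr (show x = (s : GQ) • x from s.2.symm)])
        (fun s t ht => by rw [Subgroup.coe_mul, hg' _ _ ht])
      exact ⟨b, fun s hs => hb ⟨s, hs⟩⟩
  have hg'1 : g' 1 = 0 := by
    have h1 := hcoc 1 1
    rw [mul_one] at h1
    have h2 : idxAct (quAct (1 : GQ)) 1 (g' 1) = g' 1 := funext fun x => by simp [quAct_apply]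
    rw [h2] at h1
    exact left_eq_add.mp h1
  have hψfix : ∀ s ∈ L₂.fixingSubgroup, ∀ x, s • ψ x = ψ x := by
    intro s hs x
    have h1 := hψ s x
    rw [show g' s = g' (1 * s) by rw [one_mul], hg' 1 s hs, hg'1,
      inv_smul_eq_iff.mpr (hstab x s (IntermediateField.fixingSubgroup_antitone
        (le_sup_right.trans hle) hs)).symm] at h1
    exact sub_eq_zero.mp h1.symm
  have hψL : ∀ x, uval (ψ x) ∈ L₂ := by
    intro x
    rw [← InfiniteGalois.fixedField_fixingSubgroup L₂, IntermediateField.mem_fixedField_iff]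
    exact fun s hs => congrArg uval (hψfix s hs x)
  choose d hd _ hdfix using fun x => exists_principal hL₂ (hψL x) (uval_ne_zero (ψ x))
  -- the valuation part of `d`
  have hmem : ∀ x, ((fun _ _ => 0, fun q g₀ => (d x : Amb S).ord q g₀) : Amb S) ∈ J S := by
    intro x
    refine ⟨fun q τ g₀ => (map_zero _).symm, (d x).2.2.1,
      ⟨L₂, hL₂, fun s hs => Amb.ext (fun _ _ => rfl) fun q g₀ => ?_⟩, (d x).2.2.2.2⟩
    show (d x : Amb S).ord q (g₀ * s) = (d x : Amb S).ord q g₀
    exact congrArg (fun f : Amb S => f.ord q g₀)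
      (congrArg Subtype.val (hdfix x s ((IntermediateField.mem_fixingSubgroup_iff _ _).mp hs _ (hψL x))))
  let H : XI M K → J S := fun x => ⟨_, hmem x⟩
  have hgU' : ∀ σ x, g' σ x ∈ EU S := fun σ x =>
    sub_mem (hgU σ x) (mem_EU_of_nsmul_eq_zero h.nonempty h.mem (by
      show p • zHom p _ = 0
      rw [← map_nsmul, ZModModule.char_nsmul_eq_zero p, map_zero]))
  have hHinv : ∀ σ, idxAct (DistribSMul.toAddMonoidHom (J S) σ) σ H = H := by
    intro σ
    funext x
    refine Subtype.ext (Amb.ext (fun q g₀ => rfl) fun q g₀ => ?_)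
    obtain ⟨e, he, hepr⟩ := hgU' σ x
    have h1 : e = σ • d (σ⁻¹ • x) - d x := hepr.eq (by
      rw [hψ σ x]
      exact (IsPrinU.smul (show IsPrinU S (d (σ⁻¹ • x)) _ from hd _) σ).sub (hd x))
    have h2 := he q g₀
    rw [h1, AddSubgroup.coe_sub, Amb.ord_sub, coe_smul_J, Amb.ord_smul, sub_eq_zero] at h2
    exact h2
  let Hh : Pmod (Module.Dual (ZMod p) M) K →+ J S := extP H
  let G : RL M K →+ J S :=
    Φ - (extP d).comp (Rmod K (dualRep M.ρ (cycloChar p))).subtype +
      Hh.comp (Rmod K (dualRep M.ρ (cycloChar p))).subtype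
  have hHeq : ∀ σ r, Hh (pmodAct K σ r) = σ • Hh r := by
    intro σ r
    have := DFunLike.congr_fun (extP_idxAct (DistribSMul.toAddMonoidHom (J S) σ) σ H) (pmodAct K σ r)
    rw [hHinv, AddMonoidHom.comp_apply, AddMonoidHom.comp_apply, ← pmodAct_mul, inv_mul_cancel,
      pmodAct_one] at this
    exact this
  have hGeq : ∀ σ (r r' : RL M K), pmodAct K σ (r : Pmod (Module.Dual (ZMod p) M) K) = r' → G r' = σ • G r := by
    intro σ r r' hrr
    have hr'' : rAct h.triv σ⁻¹ r' = r := by
      refine Subtype.ext ?_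
      rw [coe_rAct, ← hrr, ← pmodAct_mul, inv_mul_cancel, pmodAct_one]
      rfl
    have h1 := hprin σ r'
    rw [dPhi_apply, hr''] at h1
    have h2 := ((isPrinU_extP hd (r : Pmod _ K)).smul σ).sub (isPrinU_extP hd (r' : Pmod _ K))
    have h3 : evR (g σ) r' = σ • extP ψ (r : Pmod _ K) - extP ψ (r' : Pmod _ K) := by
      have hgσ : g σ = (idxAct (quAct σ) σ ψ - ψ) + iotaU M K (u σ) := by
        funext x
        have := hψ σ x
        simp only [g', Pi.sub_apply] at this
        simp only [Pi.add_apply, Pi.sub_apply, idxAct_apply, quAct_apply]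
        exact sub_eq_iff_eq_add.mp this
      rw [hgσ, map_add, map_sub, AddMonoidHom.add_apply, AddMonoidHom.sub_apply,
        evalR_idxAct h.triv, hr'', iotaU, evR, evalR_iota, AddMonoidHom.zero_apply, add_zero]
      rfl
    rw [h3] at h1
    have h4 := h1.eq h2
    simp only [G, AddMonoidHom.add_apply, AddMonoidHom.sub_apply, AddMonoidHom.comp_apply,
      AddSubgroup.coe_subtype, ← hrr, hHeq, smul_add, smul_sub]
    rw [hrr]
    rw [sub_eq_sub_iff_sub_eq_sub] at h4
    rw [h4]
  have hGfin : ∀ r, G r ∈ Jfin S := by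
    intro r q g₀
    have h1 : ∀ s : Pmod (Module.Dual (ZMod p) M) K,
        (extP d s : Amb S).ord q g₀ = (Hh s : Amb S).ord q g₀ := by
      intro s
      induction s using Finsupp.induction_linear with
      | zero => simp [Hh]
      | add a b ha hb =>
        simp only [Hh, map_add] at ha hb ⊢
        simp [ha, hb]
      | single x n =>
        simp only [Hh, extP_single, AddSubgroup.coe_zsmul]
        rfl
    simp only [G, AddMonoidHom.add_apply, AddMonoidHom.sub_apply, AddMonoidHom.comp_apply,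
      AddSubgroup.coe_subtype, AddSubgroup.coe_add, AddSubgroup.coe_sub, Amb.ord_add, Amb.ord_sub,
      h1, hΦ r q g₀]
    ring
  refine AddSubgroup.mem_sup.mpr ⟨(clsMk S).comp G, ⟨G, hGfin, hGeq, rfl⟩,
    -((clsMk S).comp Hh).comp (Rmod K (dualRep M.ρ (cycloChar p))).subtype,
    neg_mem ⟨(clsMk S).comp Hh, fun σ x => by
      rw [AddMonoidHom.comp_apply, AddMonoidHom.comp_apply, hHeq, smul_clsMk], rfl⟩, ?_⟩
  ext r : 1
  simp only [G, AddMonoidHom.add_apply, AddMonoidHom.neg_apply, AddMonoidHom.comp_apply,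
    AddMonoidHom.sub_apply, AddSubgroup.coe_subtype, map_add, map_sub,
    (isPrinU_extP hd (r : Pmod _ K)).clsMk_eq_zero, hcΦ]
  abel

/-- Local homomorphisms go to zero. -/
theorem rel_zero_of_locHom (h : Setup p S M K) {c : RL M K →+ Cls S}
    (hc : c ∈ locHom S K (dualRep M.ρ (cycloChar p))) : h.Rel c 0 := by
  obtain ⟨G, hG, hGeq, rfl⟩ := hc
  refine ⟨G, 0, hG, fun _ => rfl, fun _ _ => zero_mem _, isLevelConstantS₁_const S 0,
    fun σ r => ?_, fun σ τ => ?_⟩
  · have h1 : h.dPhi G σ r = 0 := by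
      rw [dPhi_apply, sub_eq_zero]
      refine (hGeq σ _ r ?_).symm
      rw [coe_rAct, ← pmodAct_mul, mul_inv_cancel, pmodAct_one, AddMonoidHom.id_apply]
    rw [h1, Pi.zero_apply, map_zero, AddMonoidHom.zero_apply]
    exact isPrinU_zero
  · simp [qd]

/-- Restrictions of equivariant maps on the free module go to zero, up to a multiple prime to
`p`. -/
theorem rel_zero_of_resPHom (h : Setup p S M K) {c : RL M K →+ Cls S}
    (hc : c ∈ resPHom S K (dualRep M.ρ (cycloChar p))) :
    ∃ m : ℕ, ¬ p ∣ m ∧ h.Rel (m • c) 0 := by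
  obtain ⟨hh, hheq, rfl⟩ := hc
  haveI := h.finite_idx
  haveI := Fintype.ofFinite (XI M K)
  choose f hf using fun x : XI M K => clsMk_surjective S (hh (Finsupp.single x 1))
  obtain ⟨L, hL, hfix⟩ : ∃ L, IsLvl S L ∧ ∀ x, ∀ s ∈ L.fixingSubgroup, s • f x = f x := by
    choose L hL hfix using fun x : XI M K => (f x).2.2.2.1
    exact ⟨Finset.univ.sup L,
      Finset.sup_induction (isLvl_bot S) (fun _ ha _ hb => ha.sup hb) (fun i _ => hL i),
      fun x s hs => Subtype.ext (hfix x s (IntermediateField.fixingSubgroup_antitone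
        (Finset.le_sup (Finset.mem_univ x)) hs))⟩
  obtain ⟨m, hm, L', hLL', hL', hd⟩ :=
    exists_principalize_family (p := p) h.mem (hasPrincipal S) hL f hfix
  choose y d _ hd hdfix hord using hd
  let H : XI M K → J S := fun x => m • f x - d x
  have hH : ∀ x, H x ∈ Jfin S := by
    intro x q g₀
    have := hord x q g₀
    rw [show (H x : Amb S).ord q g₀ = m • (f x : Amb S).ord q g₀ - (d x : Amb S).ord q g₀ from rfl,
      this, sub_self]
  have hHc : ∀ x, clsMk S (H x) = m • hh (Finsupp.single x 1) := by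
    intro x
    rw [map_sub, map_nsmul, hf, (clsMk_eq_zero_iff S).2 ⟨_, hd x⟩, sub_zero]
  have hHL : ∀ x, ∀ s ∈ L'.fixingSubgroup, s • H x = H x := by
    intro x s hs
    simp only [H]
    rw [smul_sub, smul_comm, hfix x s (IntermediateField.fixingSubgroup_antitone hLL' hs),
      hdfix x s hs]
  have hcls : ∀ σ x, clsMk S (idxAct (DistribSMul.toAddMonoidHom (J S) σ) σ H x - H x) = 0 := by
    intro σ x
    rw [map_sub, sub_eq_zero, idxAct_apply]
    show clsMk S (σ • H _) = _
    rw [← smul_clsMk, hHc, hHc, smul_comm, ← hheq, pmodAct_single, smul_inv_smul]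
  choose e he using fun σ x => exists_isPrinU_of_clsMk_eq_zero (hcls σ x)
  have hlvl : IsLvl S (L' ⊔ K) := hL'.sup h.lvl
  refine ⟨m, hm, (extP H).comp (Rmod K (dualRep M.ρ (cycloChar p))).subtype, e,
    fun r => extP_mem_Jfin hH _, fun r => ?_, fun σ x => ?_,
    ⟨L' ⊔ K, hlvl.unramified, fun σ s hs => funext fun x => ?_⟩, fun σ r => ?_, fun σ τ => ?_⟩
  · rw [AddMonoidHom.comp_apply, clsMk_extP, show (fun x => clsMk S (H x)) =
      fun x => (m • hh) (Finsupp.single x 1) from funext hHc, extP_comp_single]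
    rfl
  · exact ⟨_, sub_mem (smul_mem_Jfin _ (hH _)) (hH _), he σ x⟩
  · refine (he (σ * s) x).elem_eq h.nonempty ?_
    have : idxAct (DistribSMul.toAddMonoidHom (J S) (σ * s)) (σ * s) H x =
        idxAct (DistribSMul.toAddMonoidHom (J S) σ) σ H x := by
      obtain ⟨c', w⟩ := x
      rw [idxAct_apply, idxAct_apply]
      have hc' : ∀ c'' : GQ ⧸ K.fixingSubgroup, s⁻¹ • c'' = c'' := by
        intro c''
        induction c'' using QuotientGroup.induction_on with
        | H g₀ =>
          rw [MulAction.Quotient.smul_mk, QuotientGroup.eq, smul_eq_mul]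
          simpa [mul_assoc] using h.lvl.normal.conj_mem _
            (IntermediateField.fixingSubgroup_antitone le_sup_right hs) g₀⁻¹
      show (σ * s) • H ((σ * s)⁻¹ • c', w) = σ • H (σ⁻¹ • c', w)
      rw [mul_inv_rev, mul_smul (s⁻¹), hc', mul_smul,
        hHL _ s (IntermediateField.fixingSubgroup_antitone le_sup_left hs)]
    rw [this]
    exact he σ x
  · have h1 := isPrinU_extP (he σ) (r : Pmod _ K)
    have h2 : extP (fun x => idxAct (DistribSMul.toAddMonoidHom (J S) σ) σ H x - H x)
        (r : Pmod _ K) = h.dPhi ((extP H).comp (Rmod K (dualRep M.ρ (cycloChar p))).subtype) σ r := by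
      rw [show (fun x => idxAct (DistribSMul.toAddMonoidHom (J S) σ) σ H x - H x) =
        idxAct (DistribSMul.toAddMonoidHom (J S) σ) σ H - H from rfl, map_sub, extP_idxAct]
      rfl
    rw [← h2]
    exact h1
  · show iotaU M K 0 = _
    rw [map_zero]
    funext x
    refine isPrinU_zero.elem_eq h.nonempty ?_
    have h1 := (((he τ (σ⁻¹ • x.1, x.2)).smul σ).sub (he (σ * τ) x)).add (he σ x)
    simp only [qd, Pi.add_apply, Pi.sub_apply, idxAct_apply, quAct_apply]
    convert h1 using 1
    simp only [idxAct_apply, DistribSMul.toAddMonoidHom_apply, smul_sub, mul_inv_rev, mul_smul]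
    abel

/-- Every equivariant map has, up to a multiple prime to `p`, a lift supported at `S`. -/
theorem exists_Jfin_lift (h : Setup p S M K) (c : RL M K →+ Cls S) :
    ∃ m : ℕ, ¬ p ∣ m ∧ ∃ Φ : RL M K →+ J S, (∀ r, Φ r ∈ Jfin S) ∧
      ∀ r, clsMk S (Φ r) = (m • c) r := by
  classical
  haveI := h.finite_idx
  haveI : Module.Finite ℤ (RL M K) :=
    Module.Finite.of_injective
      (Rmod K (dualRep M.ρ (cycloChar p))).subtype.toIntLinearMap Subtype.val_injective
  haveI : Module.Free ℤ (RL M K) := Module.free_of_finite_type_torsion_free'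
  let b := Module.Free.chooseBasis ℤ (RL M K)
  choose f hf using fun i => clsMk_surjective S (c (b i))
  haveI := Fintype.ofFinite (Module.Free.ChooseBasisIndex ℤ (RL M K))
  obtain ⟨L, hL, hfix⟩ : ∃ L, IsLvl S L ∧ ∀ i, ∀ s ∈ L.fixingSubgroup, s • f i = f i := by
    choose L hL hfix using fun i => (f i).2.2.2.1
    exact ⟨Finset.univ.sup L,
      Finset.sup_induction (isLvl_bot S) (fun _ ha _ hb => ha.sup hb) (fun i _ => hL i),
      fun i s hs => Subtype.ext (hfix i s (IntermediateField.fixingSubgroup_antitone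
        (Finset.le_sup (Finset.mem_univ i)) hs))⟩
  obtain ⟨m, hm, L', -, -, hd⟩ :=
    exists_principalize_family (p := p) h.mem (hasPrincipal S) hL f hfix
  choose y d _ hd _ hord using hd
  let Φ : RL M K →ₗ[ℤ] J S := b.constr ℤ fun i => m • f i - d i
  refine ⟨m, hm, Φ.toAddMonoidHom, fun r => ?_, fun r => ?_⟩
  · show Φ r ∈ Jfin S
    rw [b.constr_apply_fintype (S := ℤ)]
    refine sum_mem fun i _ => zsmul_mem (fun q g₀ => ?_) _
    have := hord i q g₀
    rw [show ((m • f i - d i : J S) : Amb S).ord q g₀ =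
      m • (f i : Amb S).ord q g₀ - (d i : Amb S).ord q g₀ from rfl, this, sub_self]
  · suffices ((clsMk S).comp Φ.toAddMonoidHom).toIntLinearMap = (m • c).toIntLinearMap from
      LinearMap.congr_fun this r
    refine b.ext fun i => ?_
    show clsMk S (Φ (b i)) = m • c (b i)
    rw [b.constr_basis (S := ℤ), map_sub, map_nsmul, hf, (clsMk_eq_zero_iff S).2 ⟨_, hd i⟩, sub_zero]

end Setup

end Fermat.Agent.PoitouTate
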