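import Fermat.Agent.PoitouTate.Sha2SurjLocal
import Fermat.Agent.PoitouTate.Sha2Kernel
import Fermat.Agent.PoitouTate.Api
import Mathlib.GroupTheory.Sylow

/-!
# The connecting relation reaches every class of `Ш²`
-/

set_option autoImplicit false

open CategoryTheory ExtCitation groupCohomology

noncomputable section

namespace Fermat.Agent.PoitouTate

local notation "Qb" => AlgebraicClosure ℚ

/-- If `H¹` of the `p`-subgroups vanishes, a multiple prime to `p` kills every cocycle. -/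
theorem exists_scaled_primitive {p : ℕ} [Fact p.Prime] {Δ C : Type} [Group Δ] [Finite Δ]
    [AddCommGroup C] [DistribMulAction Δ C]
    (h1 : ∀ H : Subgroup Δ, IsPGroup p H → ∀ c : H → C,
      (∀ g h : H, c (g * h) = (g : Δ) • c h + c g) → ∃ x : C, ∀ g : H, (g : Δ) • x - x = c g)
    (U : Subgroup Δ) :
    ∃ m : ℕ, ¬ p ∣ m ∧ ∀ c : U → C, (∀ g h : U, c (g * h) = (g : Δ) • c h + c g) →
      ∃ d : C, ∀ g : U, (g : Δ) • d - d = m • c g := by
  classical
  haveI := Fintype.ofFinite Δ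
  obtain ⟨P⟩ := (inferInstance : Nonempty (Sylow p U))
  refine ⟨P.index, P.not_dvd_index, fun c hc => ?_⟩
  have hmem : ∀ x : (P : Subgroup U).map U.subtype, (x : Δ) ∈ U :=
    fun x => Subgroup.map_subtype_le _ x.2
  obtain ⟨a, ha⟩ := h1 ((P : Subgroup U).map U.subtype) (P.2.map U.subtype)
    (fun x => c ⟨x, hmem x⟩)
    (fun g h => by
      show c ⟨(g : Δ) * h, _⟩ = _
      exact hc ⟨g, hmem g⟩ ⟨h, hmem h⟩)
  have ha' : ∀ g : U, g ∈ (P : Subgroup U) → (g : Δ) • a - a = c g := fun g hg =>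
    ha ⟨g, Subgroup.mem_map_of_mem _ hg⟩
  have hwd : ∀ t : U, ∀ s ∈ (P : Subgroup U),
      ((t * s : U) : Δ) • a - c (t * s) = (t : Δ) • a - c t := by
    intro t s hs
    rw [hc, ← ha' s hs, Subgroup.coe_mul, mul_smul, smul_sub]
    abel
  haveI : Fintype (U ⧸ (P : Subgroup U)) := Fintype.ofFinite _
  refine ⟨∑ z : U ⧸ (P : Subgroup U), ((z.out : Δ) • a - c z.out), fun g => ?_⟩
  have key : ∀ z : U ⧸ (P : Subgroup U), (g : Δ) • ((z.out : Δ) • a - c z.out) =
      (((g • z).out : Δ) • a - c (g • z).out) + c g := by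
    intro z
    obtain ⟨s, hs⟩ := QuotientGroup.mk_out_eq_mul (P : Subgroup U) (g * z.out)
    have hgz : (g • z).out = g * z.out * s := by
      rw [← hs]
      conv_lhs => rw [← QuotientGroup.out_eq' z]
      rfl
    rw [hgz, hwd _ _ s.2, hc, Subgroup.coe_mul, mul_smul, smul_sub]
    abel
  rw [Finset.smul_sum, Finset.sum_congr rfl fun (z : U ⧸ (P : Subgroup U)) _ => key z, Finset.sum_add_distrib,
    Finset.sum_const, Finset.card_univ, Subgroup.index_eq_card, Nat.card_eq_fintype_card]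
  rw [show ∑ z : U ⧸ (P : Subgroup U), (((g • z).out : Δ) • a - c (g • z).out) =
    ∑ z : U ⧸ (P : Subgroup U), ((z.out : Δ) • a - c z.out) from
    Equiv.sum_comp (MulAction.toPerm g) fun z : U ⧸ (P : Subgroup U) => (z.out : Δ) • a - c z.out]
  abel

variable {p : ℕ} [Fact p.Prime] {S : Finset Nat.Primes} {M : Rep (ZMod p) GQ}
  {K : IntermediateField ℚ Qb}

theorem extP_comp_smul {W A : Type} [AddCommGroup W] [AddCommGroup A] (φ : Idx W K → A) (g : GQ)
    (r : Pmod W K) : extP (fun x => φ (g • x.1, x.2)) r = extP φ (pmodAct K g r) := by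
  have h1 := DFunLike.congr_fun (extP_idxAct (AddMonoidHom.id A) g⁻¹ φ) r
  rw [inv_inv] at h1
  rw [show (fun x : Idx W K => φ (g • x.1, x.2)) = idxAct (AddMonoidHom.id A) g⁻¹ φ from
    funext fun x => by simp]
  exact h1

theorem fin_extP {W : Type} {H : Idx W K → J S} (q : ↥S) (g : GQ) (r : Pmod W K) :
    (extP H r : Amb S).fin q g = extP (fun x => (H x : Amb S).fin q g) r := by
  induction r using Finsupp.induction_linear with
  | zero => simp
  | add a b ha hb => simp [ha, hb]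
  | single x n => simp only [extP_single, AddSubgroup.coe_zsmul]; rfl

/-- Every class of `Ш²` has a multiple prime to `p` in the image. -/
theorem Setup.exists_rel_of_mem_sha₂ (h : Setup p S M K) (hlev : LevelRepresentatives S)
    (hH1 : LayerClassModule p S) (F : ↥(levelCocyclesS₂ S M))
    (hF : continuousH2Sπ S M F ∈ sha₂ S M) :
    ∃ m : ℕ, ¬ p ∣ m ∧ ∃ c ∈ homR S K (dualRep M.ρ (cycloChar p)),
      h.Rel c (m • (F : GQ × GQ → M)) := by
  classical
  obtain ⟨F₀, hF₀, hFlev⟩ := F.2.2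
  obtain ⟨L, hL, hle⟩ := exists_isLvl_ge (hF₀.sup h.lvl.unramified)
  have hKL : K ≤ L := le_sup_right.trans hle
  haveI := h.lvl.normal
  haveI := hL.normal
  haveI := hL.finite_quotient
  set f : GQ × GQ → M := (F : GQ × GQ → M) with hf
  have hfL : ∀ g g' s s', s ∈ L.fixingSubgroup → s' ∈ L.fixingSubgroup →
      f (g * s, g' * s') = f (g, g') := fun g g' s s' hs hs' =>
    hFlev g g' s s' (IntermediateField.fixingSubgroup_antitone (le_sup_left.trans hle) hs)
      (IntermediateField.fixingSubgroup_antitone (le_sup_left.trans hle) hs')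
  have hsha := (mem_sha₂_iff F).mp hF
  have hdata : ∀ q : ↥S, Nonempty (LocalPrim M K q.1 L f) := fun q => by
    obtain ⟨u, hu, hfu⟩ := hsha (Sum.inr q)
    exact h.exists_localPrim hL hKL F.2.1 hfL q.1 hu hfu
  let P : ∀ q : ↥S, LocalPrim M K q.1 L f := fun q => (hdata q).some
  have hKfix : ∀ {s : GQ}, s ∈ L.fixingSubgroup → s ∈ K.fixingSubgroup :=
    fun hs => IntermediateField.fixingSubgroup_antitone hKL hs
  have hstabc : ∀ s ∈ K.fixingSubgroup, ∀ c : GQ ⧸ K.fixingSubgroup, s • c = c := by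
    intro s hs c
    induction c using QuotientGroup.induction_on with
    | H g₀ =>
      rw [MulAction.Quotient.smul_mk, QuotientGroup.eq, smul_eq_mul]
      simpa [mul_assoc] using h.lvl.normal.conj_mem _ (inv_mem hs) g₀⁻¹
  -- the idele valued cochain
  have hBmem : ∀ σ (x : XI M K),
      ((fun q g => (P q).B σ g (g • x.1, x.2), fun _ _ => 0) : Amb S) ∈ J S := by
    intro σ x
    refine ⟨fun q t g => ?_, fun _ _ _ => rfl,
      ⟨L, hL, fun s hs => Amb.ext (fun q g => ?_) fun _ _ => rfl⟩, ?_⟩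
    · show (P q).B σ (loc q.1 t * g) ((loc q.1 t * g) • x.1, x.2) = _
      rw [(P q).B_left, idxAct_apply, mul_smul, inv_smul_smul]
      rfl
    · show (P q).B σ (g * s) ((g * s) • x.1, x.2) = (P q).B σ g (g • x.1, x.2)
      rw [((P q).B_level σ g s hs).1, mul_smul, hstabc s (hKfix hs)]
    · refine Set.Finite.subset Set.finite_empty ?_
      rintro q ⟨g, hg⟩
      exact (hg rfl).elim
  let B : GQ → XI M K → J S := fun σ x => ⟨_, hBmem σ x⟩
  have hBfin : ∀ σ x, B σ x ∈ Jfin S := fun σ x q g => rfl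
  have hBlevel : ∀ σ x, ∀ s ∈ L.fixingSubgroup, s • B σ x = B σ x := by
    intro σ x s hs
    refine Subtype.ext (Amb.ext (fun q g => ?_) fun _ _ => rfl)
    show (P q).B σ (g * s) ((g * s) • x.1, x.2) = (P q).B σ g (g • x.1, x.2)
    rw [((P q).B_level σ g s hs).1, mul_smul, hstabc s (hKfix hs)]
  have hBr : ∀ σ x, ∀ s ∈ L.fixingSubgroup, B (σ * s) x = B σ x := by
    intro σ x s hs
    refine Subtype.ext (Amb.ext (fun q g => ?_) fun _ _ => rfl)
    show (P q).B (σ * s) g (g • x.1, x.2) = (P q).B σ g (g • x.1, x.2)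
    rw [((P q).B_level σ g s hs).2]
  have hιU : ∀ (m : M) x, iotaU M K m x ∈ EU S := fun m x =>
    mem_EU_of_nsmul_eq_zero h.nonempty h.mem (by
      rw [iota_apply, ← map_nsmul, ZModModule.char_nsmul_eq_zero p, map_zero])
  have hBd : ∀ σ τ (x : XI M K),
      IsPrinU S (σ • B τ (σ⁻¹ • x.1, x.2) - B (σ * τ) x + B σ x) (iotaU M K (f (σ, τ)) x) := by
    intro σ τ x
    obtain ⟨e, he, hep⟩ := hιU (f (σ, τ)) x
    suffices σ • B τ (σ⁻¹ • x.1, x.2) - B (σ * τ) x + B σ x = e by rw [this]; exact hep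
    refine Subtype.ext (Amb.ext (fun q g => ?_) fun q g => ?_)
    · show (P q).B τ (g * σ) ((g * σ) • σ⁻¹ • x.1, x.2) - (P q).B (σ * τ) g (g • x.1, x.2) +
        (P q).B σ g (g • x.1, x.2) = (e : Amb S).fin q g
      rw [mul_smul g σ, smul_inv_smul, hep.fin_eq]
      have h1 := congrFun ((P q).B_cobdry σ τ g) (g • x.1, x.2)
      rw [Pi.add_apply, Pi.sub_apply] at h1
      rw [h1, iotaQ, ← comp_iota]
      refine congrArg (embU q.1) ?_
      have h2 := congrFun (idxAct_iota (K := K) h.triv (a := quAct g) (fun k => smul_zHom p g k)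
        (f (σ, τ))) (g • x.1, x.2)
      rw [idxAct_apply, inv_smul_smul] at h2
      exact h2.symm
    · show (0 : ℤ) - 0 + 0 = (e : Amb S).ord q g
      rw [he q g]; ring
  -- classes
  let Bc : GQ → XI M K → Cls S := fun σ x => clsMk S (B σ x)
  letI : MulAction GQ (XI M K) :=
    { smul := fun σ x => (σ • x.1, x.2)
      one_smul := fun x => Prod.ext (one_smul GQ x.1) rfl
      mul_smul := fun σ τ x => Prod.ext (mul_smul σ τ x.1) rfl }
  have hBc : ∀ σ τ x, Bc (σ * τ) x = σ • Bc τ (σ⁻¹ • x) + Bc σ x := by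
    intro σ τ x
    have h1 := (hBd σ τ x).clsMk_eq_zero
    rw [map_add, map_sub, ← smul_clsMk] at h1
    have h1' : σ • Bc τ (σ⁻¹ • x) - Bc (σ * τ) x + Bc σ x = 0 := h1
    linear_combination (norm := abel) -h1'
  have hfixL : ∀ σ x, Bc σ x ∈ fixedPts L.fixingSubgroup (Cls S) := fun σ x s hs => by
    show s • clsMk S (B σ x) = _
    rw [smul_clsMk, hBlevel σ x s hs]
  obtain ⟨u, hu⟩ := hH1 L hL fun s hs => (h.triv s (hKfix hs)).2
  obtain ⟨m, hm, hprim⟩ := exists_scaled_primitive hu.h1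
    (K.fixingSubgroup.map (QuotientGroup.mk' L.fixingSubgroup))
  have hstab : ∀ (x : XI M K) (s : GQ), s ∈ MulAction.stabilizer GQ x → s ∈ K.fixingSubgroup := by
    intro x s hs
    have h1 : s • x.1 = x.1 := congrArg Prod.fst hs
    revert h1
    induction x.1 using QuotientGroup.induction_on with
    | H g₀ =>
      intro h1
      rw [MulAction.Quotient.smul_mk, QuotientGroup.eq, smul_eq_mul] at h1
      have h2 := h.lvl.normal.conj_mem _ h1 g₀
      rw [show g₀ * ((s * g₀)⁻¹ * g₀) * g₀⁻¹ = s⁻¹ by group] at h2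
      exact inv_mem_iff.mp h2
  have hloc : ∀ x : XI M K, ∃ a : Cls S, ∀ s ∈ MulAction.stabilizer GQ x,
      m • Bc s x = s • a - a := by
    intro x
    have hx : ∀ s ∈ K.fixingSubgroup, s⁻¹ • x = x := fun s hs =>
      Prod.ext (hstabc _ (inv_mem hs) _) rfl
    have hout : ∀ z : ↥(K.fixingSubgroup.map (QuotientGroup.mk' L.fixingSubgroup)),
        (z : GQ ⧸ L.fixingSubgroup).out ∈ K.fixingSubgroup := by
      rintro ⟨_, s, hs, rfl⟩
      obtain ⟨t, ht⟩ := QuotientGroup.mk_out_eq_mul L.fixingSubgroup s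
      show (QuotientGroup.mk s : GQ ⧸ L.fixingSubgroup).out ∈ _
      rw [ht]
      exact mul_mem hs (hKfix t.2)
    have hwd : ∀ s, s ∈ K.fixingSubgroup →
        Bc (QuotientGroup.mk s : GQ ⧸ L.fixingSubgroup).out x = Bc s x := by
      intro s _
      obtain ⟨t, ht⟩ := QuotientGroup.mk_out_eq_mul L.fixingSubgroup s
      rw [ht]
      exact congrArg (clsMk S) (hBr s x t t.2)
    have hsm : ∀ (zz : GQ ⧸ L.fixingSubgroup) (a : fixedPts L.fixingSubgroup (Cls S)),
        ((zz • a : fixedPts L.fixingSubgroup (Cls S)) : Cls S) = zz.out • (a : Cls S) := fun zz a => by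
      conv_lhs => rw [← QuotientGroup.out_eq' zz]
      rfl
    obtain ⟨d, hd⟩ := hprim (fun z => ⟨Bc (z : GQ ⧸ L.fixingSubgroup).out x, hfixL _ _⟩) (by
      intro z z'
      refine Subtype.ext ?_
      show Bc ((z * z' : ↥(K.fixingSubgroup.map (QuotientGroup.mk' L.fixingSubgroup))) :
        GQ ⧸ L.fixingSubgroup).out x = _
      rw [Subgroup.coe_mul]
      conv_lhs => rw [← QuotientGroup.out_eq' (z : GQ ⧸ L.fixingSubgroup),
        ← QuotientGroup.out_eq' (z' : GQ ⧸ L.fixingSubgroup), ← QuotientGroup.mk_mul]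
      rw [hwd _ (mul_mem (hout z) (hout z')), hBc, hx _ (hout z), AddSubgroup.coe_add]
      exact (congrArg (· + Bc (z : GQ ⧸ L.fixingSubgroup).out x)
        (hsm (z : GQ ⧸ L.fixingSubgroup) ⟨Bc (z' : GQ ⧸ L.fixingSubgroup).out x, hfixL _ _⟩)).symm)
    refine ⟨(d : Cls S), fun s hs => ?_⟩
    have hs' := hstab x s hs
    have h1 := congrArg (fun a : ↥(fixedPts L.fixingSubgroup (Cls S)) => (a : Cls S))
      (hd ⟨QuotientGroup.mk s, s, hs', rfl⟩)
    simp only [AddSubgroup.coe_sub, coe_quot_smul, AddSubgroup.coe_nsmul] at h1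
    rw [hwd s hs'] at h1
    exact h1.symm
  obtain ⟨φb, hφb⟩ := exists_primitive_of_stabilizers (fun σ x => m • Bc σ x)
    (fun σ τ x => by
      rw [hBc, smul_add, smul_comm m σ]) hloc
  have hB1 : ∀ x, Bc 1 x = 0 := fun x => by
    have := hBc 1 1 x
    rw [mul_one, one_smul, inv_one, one_smul] at this
    exact left_eq_add.mp this
  have hφL : ∀ x, φb x ∈ clsLev S L.fixingSubgroup := by
    intro x s hs
    have h1 := hφb s x
    rw [show Bc s x = Bc 1 x by
        show clsMk S (B s x) = clsMk S (B 1 x)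
        rw [← hBr 1 x s hs, one_mul],
      hB1, smul_zero, show s⁻¹ • x = x from Prod.ext (hstabc _ (inv_mem (hKfix hs)) _) rfl] at h1
    exact sub_eq_zero.mp h1.symm
  choose φ hφfix hφ using fun x => hlev L hL L.fixingSubgroup le_rfl _ (hφL x)
  haveI := h.finite_idx
  obtain ⟨m', hm', L', hLL', hL', hd⟩ :=
    exists_principalize_family (p := p) h.mem (hasPrincipal S) hL φ hφfix
  choose yd d _ hd hdfix hord using hd
  let φ' : XI M K → J S := fun x => m' • φ x - d x
  have hφ'fin : ∀ x, φ' x ∈ Jfin S := by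
    intro x q g
    have := hord x q g
    rw [show (φ' x : Amb S).ord q g = m' • (φ x : Amb S).ord q g - (d x : Amb S).ord q g from rfl,
      this, sub_self]
  have hφ'c : ∀ x, clsMk S (φ' x) = m' • φb x := by
    intro x
    rw [map_sub, map_nsmul, hφ, (clsMk_eq_zero_iff S).2 ⟨_, hd x⟩, sub_zero]
  have hφ'L : ∀ x, ∀ s ∈ L'.fixingSubgroup, s • φ' x = φ' x := by
    intro x s hs
    simp only [φ']
    rw [smul_sub, smul_comm, hφfix x s (IntermediateField.fixingSubgroup_antitone hLL' hs),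
      hdfix x s hs]
  let E : GQ → XI M K → J S := fun σ x =>
    (m' * m) • B σ x - (σ • φ' (σ⁻¹ • x) - φ' x)
  have hEc : ∀ σ x, clsMk S (E σ x) = 0 := by
    intro σ x
    simp only [E, map_sub, map_nsmul, ← smul_clsMk, hφ'c, smul_comm σ m', ← smul_sub, ← hφb σ x,
      mul_smul]
    simp [Bc]
  choose g0 hg0 using fun σ x => exists_isPrinU_of_clsMk_eq_zero (hEc σ x)
  have hWmem : ∀ r : RL M K,
      ((fun q g => (P q).V g (rAct h.triv g r), fun _ _ => 0) : Amb S) ∈ J S := by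
    intro r
    refine ⟨fun q t g => ?_, fun _ _ _ => rfl,
      ⟨L, hL, fun s hs => Amb.ext (fun q g => ?_) fun _ _ => rfl⟩, ?_⟩
    · show (P q).V (loc q.1 t * g) (rAct h.triv (loc q.1 t * g) r) = _
      exact (P q).V_left t g (rAct h.triv g r) _ (by rw [rAct_mul]; rfl)
    · show (P q).V (g * s) (rAct h.triv (g * s) r) = (P q).V g (rAct h.triv g r)
      rw [(P q).V_level g s hs, rAct_mul,
        show rAct h.triv s r = r from Subtype.ext (pmodAct_eq_self (hKfix hs) _)]
    · refine Set.Finite.subset Set.finite_empty ?_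
      rintro q ⟨g, hg⟩
      exact (hg rfl).elim
  let W : RL M K →+ J S := AddMonoidHom.mk' (fun r => ⟨_, hWmem r⟩) fun r r' =>
    Subtype.ext (Amb.ext (fun q g => by
      show (P q).V g (rAct h.triv g (r + r')) =
        (P q).V g (rAct h.triv g r) + (P q).V g (rAct h.triv g r')
      rw [map_add, map_add]) fun _ _ => (add_zero (0 : ℤ)).symm)
  let Φ : RL M K →+ J S :=
    -((m' * m) • W + (extP φ').comp (Rmod K (dualRep M.ρ (cycloChar p))).subtype)
  have hΦfin : ∀ r, Φ r ∈ Jfin S := fun r =>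
    neg_mem (add_mem (nsmul_mem (show W r ∈ Jfin S from fun q g => rfl) _) (extP_mem_Jfin hφ'fin _))
  have hBW : ∀ σ (r : RL M K), extP (B σ) (r : Pmod _ K) = W r - σ • W (rAct h.triv σ⁻¹ r) := by
    intro σ r
    refine Subtype.ext (Amb.ext (fun q g => ?_) fun q g => ?_)
    · rw [fin_extP, AddSubgroup.coe_sub, Amb.fin_sub, coe_smul_J, Amb.fin_smul]
      show extP (fun x : XI M K => (P q).B σ g (g • x.1, x.2)) (r : Pmod _ K) =
        (P q).V g (rAct h.triv g r) - (P q).V (g * σ) (rAct h.triv (g * σ) (rAct h.triv σ⁻¹ r))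
      rw [extP_comp_smul, ← rAct_mul, mul_inv_cancel_right]
      exact DFunLike.congr_fun ((P q).B_eval σ g) (rAct h.triv g r)
    · have h0 := extP_mem_Jfin (fun x => hBfin σ x) (r : Pmod _ K) q g
      rw [h0, AddSubgroup.coe_sub, Amb.ord_sub]
      exact (sub_self (0 : ℤ)).symm
  have hprin : ∀ σ r, IsPrinU S (h.dPhi Φ σ r) (evR (g0 σ) r) := by
    intro σ r
    have h1 := isPrinU_extP (hg0 σ) (r : Pmod _ K)
    suffices h.dPhi Φ σ r = extP (E σ) (r : Pmod _ K) by rw [this]; exact h1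
    rw [show E σ = (m' * m) • B σ -
        (idxAct (DistribSMul.toAddMonoidHom (J S) σ) σ φ' - φ') from rfl, map_sub, map_sub,
      map_nsmul, extP_idxAct, AddMonoidHom.sub_apply, AddMonoidHom.sub_apply,
      AddMonoidHom.nsmul_apply, hBW, dPhi_apply]
    simp only [Φ, AddMonoidHom.neg_apply, AddMonoidHom.add_apply, AddMonoidHom.nsmul_apply,
      AddMonoidHom.comp_apply, AddSubgroup.coe_subtype, DistribSMul.toAddMonoidHom_apply, coe_rAct,
      smul_neg, smul_add, smul_sub, smul_comm σ (m' * m)]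
    abel
  have hlvl2 : IsLvl S (L ⊔ L') := hL.sup hL'
  have hgU : ∀ σ x, g0 σ x ∈ EU S := fun σ x =>
    ⟨E σ x, sub_mem (nsmul_mem (hBfin σ x) _) (sub_mem (smul_mem_Jfin _ (hφ'fin _)) (hφ'fin _)),
      hg0 σ x⟩
  refine ⟨m' * m, fun hdvd => ((Fact.out : p.Prime).dvd_mul.mp hdvd).elim hm' hm,
    (clsMk S).comp Φ, ?_, Φ, g0, hΦfin, fun _ => rfl, hgU,
    ⟨L ⊔ L', hlvl2.unramified, fun σ s hs => funext fun x => ?_⟩, hprin, fun σ τ => ?_⟩
  · intro σ r r' hrr
    have h1 := (hprin σ r').clsMk_eq_zero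
    rw [dPhi_apply, show rAct h.triv σ⁻¹ r' = r from Subtype.ext (by
        rw [coe_rAct, ← hrr, ← pmodAct_mul, inv_mul_cancel, pmodAct_one]; rfl),
      map_sub, ← smul_clsMk, sub_eq_zero] at h1
    exact h1.symm
  · refine (hg0 (σ * s) x).elem_eq h.nonempty ?_
    have hsL := IntermediateField.fixingSubgroup_antitone (le_sup_left : L ≤ L ⊔ L') hs
    have : E (σ * s) x = E σ x := by
      simp only [E]
      rw [hBr σ x s hsL, mul_inv_rev, mul_smul (s⁻¹),
        show s⁻¹ • σ⁻¹ • x = σ⁻¹ • x from Prod.ext (hstabc _ (inv_mem (hKfix hsL)) _) rfl, mul_smul σ s,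
        hφ'L _ s (IntermediateField.fixingSubgroup_antitone le_sup_right hs)]
    rw [this]
    exact hg0 σ x
  · funext x
    rw [Pi.smul_apply, map_nsmul, Pi.smul_apply]
    have h1 := (((hg0 τ (σ⁻¹ • x)).smul σ).sub (hg0 (σ * τ) x)).add (hg0 σ x)
    have h2 : IsPrinU S ((m' * m) • (σ • B τ (σ⁻¹ • x) - B (σ * τ) x + B σ x))
        ((m' * m) • iotaU M K (f (σ, τ)) x) := by
      rw [← natCast_zsmul, ← natCast_zsmul]
      exact (hBd σ τ x).zsmul _
    refine h2.elem_eq h.nonempty ?_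
    convert h1 using 1
    rotate_left
    · rfl
    simp only [E, smul_sub, smul_add, mul_inv_rev, mul_smul, smul_comm σ (m' * m), smul_comm σ m',
      smul_comm σ m]
    abel

end Fermat.Agent.PoitouTate
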