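import Fermat.Agent.PoitouTate.Sha2Local
import Fermat.Agent.PoitouTate.Sha2Kernel
import Fermat.Agent.PoitouTate.Sha2Surj
import Fermat.Agent.PoitouTate.Api

/-!
# The description of `Ш²` by classes
-/

set_option autoImplicit false

open CategoryTheory ExtCitation groupCohomology

noncomputable section

namespace Fermat.Agent.PoitouTate

local notation "Qb" => AlgebraicClosure ℚ

variable {p : ℕ} [Fact p.Prime] {S : Finset Nat.Primes} {M : Rep (ZMod p) GQ}
  {K : IntermediateField ℚ Qb}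

namespace Setup

theorem Rel.nsmul {h : Setup p S M K} {c : RL M K →+ Cls S} {F : GQ × GQ → M}
    (hr : h.Rel c F) (n : ℕ) : h.Rel (n • c) (n • F) := by
  induction n with
  | zero => simpa using Rel.zero h
  | succ n ih => rw [succ_nsmul, succ_nsmul]; exact ih.add hr

theorem continuousH2Sπ_eq_of_rel {h : Setup p S M K} {c : RL M K →+ Cls S}
    {F F' : GQ × GQ → M} (hr : h.Rel c F) (hr' : h.Rel c F') :
    continuousH2Sπ S M ⟨F, hr.mem_levelCocycles⟩ =
      continuousH2Sπ S M ⟨F', hr'.mem_levelCocycles⟩ := by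
  rw [← sub_eq_zero, ← map_sub, continuousH2Sπ_eq_zero_iff]
  have := hr.add hr'.neg
  rw [add_neg_cancel, ← sub_eq_add_neg] at this
  exact this.mem_coboundaries_of_zero

/-- The value of the connecting map. -/
def Val (h : Setup p S M K) (c : RL M K →+ Cls S) (ξ : continuousH2S S M) : Prop :=
  ∃ (m : ℕ) (F : GQ × GQ → M) (hr : h.Rel (m • c) F), ¬ p ∣ m ∧
    continuousH2Sπ S M ⟨F, hr.mem_levelCocycles⟩ = (m : ZMod p) • ξ

theorem natCast_ne_zero {m : ℕ} (hm : ¬ p ∣ m) : (m : ZMod p) ≠ 0 := by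
  rwa [Ne, ZMod.natCast_eq_zero_iff]

theorem val_exists (h : Setup p S M K) {c : RL M K →+ Cls S}
    (hc : c ∈ homR S K (dualRep M.ρ (cycloChar p))) : ∃ ξ, h.Val c ξ := by
  obtain ⟨m, hm, Φ, hΦ, hΦc⟩ := h.exists_Jfin_lift c
  obtain ⟨F, hr⟩ := h.rel_exists (nsmul_mem hc m) Φ hΦ hΦc
  exact ⟨(m : ZMod p)⁻¹ • continuousH2Sπ S M ⟨F, hr.mem_levelCocycles⟩, m, F, hr, hm, by
    rw [smul_smul, mul_inv_cancel₀ (natCast_ne_zero hm), one_smul]⟩

theorem Val.eq {h : Setup p S M K} {c : RL M K →+ Cls S} {ξ ξ' : continuousH2S S M}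
    (hv : h.Val c ξ) (hv' : h.Val c ξ') : ξ = ξ' := by
  obtain ⟨m, F, hr, hm, hξ⟩ := hv
  obtain ⟨m', F', hr', hm', hξ'⟩ := hv'
  have h1 := hr.nsmul m'
  have h2 := hr'.nsmul m
  rw [← mul_smul, mul_comm] at h1
  rw [← mul_smul] at h2
  have key := continuousH2Sπ_eq_of_rel h1 h2
  rw [show (⟨m' • F, h1.mem_levelCocycles⟩ : levelCocyclesS₂ S M) =
      m' • ⟨F, hr.mem_levelCocycles⟩ from rfl,
    show (⟨m • F', h2.mem_levelCocycles⟩ : levelCocyclesS₂ S M) =
      m • ⟨F', hr'.mem_levelCocycles⟩ from rfl, map_nsmul, map_nsmul, hξ, hξ',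
    ← Nat.cast_smul_eq_nsmul (ZMod p), ← Nat.cast_smul_eq_nsmul (ZMod p), smul_smul, smul_smul,
    mul_comm (m' : ZMod p)] at key
  exact (smul_right_injective _ (mul_ne_zero (natCast_ne_zero hm) (natCast_ne_zero hm'))) key

theorem Val.add {h : Setup p S M K} {c c' : RL M K →+ Cls S} {ξ ξ' : continuousH2S S M}
    (hv : h.Val c ξ) (hv' : h.Val c' ξ') : h.Val (c + c') (ξ + ξ') := by
  obtain ⟨m, F, hr, hm, hξ⟩ := hv
  obtain ⟨m', F', hr', hm', hξ'⟩ := hv'
  have h1 := (hr.nsmul m').add (hr'.nsmul m)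
  rw [← mul_smul, ← mul_smul, mul_comm m m', ← smul_add] at h1
  refine ⟨m' * m, _, h1, fun hd => ((Fact.out : p.Prime).dvd_mul.mp hd).elim hm' hm, ?_⟩
  rw [show (⟨m' • F + m • F', h1.mem_levelCocycles⟩ : levelCocyclesS₂ S M) =
      m' • ⟨F, hr.mem_levelCocycles⟩ + m • ⟨F', hr'.mem_levelCocycles⟩ from rfl, map_add, map_nsmul,
    map_nsmul, hξ, hξ', ← Nat.cast_smul_eq_nsmul (ZMod p), ← Nat.cast_smul_eq_nsmul (ZMod p),
    smul_smul, smul_smul, Nat.cast_mul, smul_add, mul_comm (m : ZMod p)]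

theorem Val.mem_sha₂ {h : Setup p S M K} (hp2 : p ≠ 2) {c : RL M K →+ Cls S}
    {ξ : continuousH2S S M} (hv : h.Val c ξ) : ξ ∈ sha₂ S M := by
  obtain ⟨m, F, hr, hm, hξ⟩ := hv
  have := Submodule.smul_mem _ (m : ZMod p)⁻¹ (hr.mem_sha₂ hp2)
  rwa [hξ, smul_smul, inv_mul_cancel₀ (natCast_ne_zero hm), one_smul] at this

/-- `p` kills the quotient. -/
theorem nsmul_mem_resPHom (h : Setup p S M K) {c : RL M K →+ Cls S}
    (hc : c ∈ homR S K (dualRep M.ρ (cycloChar p))) :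
    p • c ∈ resPHom S K (dualRep M.ρ (cycloChar p)) := by
  have hmem : ∀ x : Pmod (Module.Dual (ZMod p) M) K, p • x ∈ Rmod K (dualRep M.ρ (cycloChar p)) :=
    fun x => by
      show pmodMap K (dualRep M.ρ (cycloChar p)) (p • x) = 0
      rw [map_nsmul]
      exact ZModModule.char_nsmul_eq_zero p _
  refine ⟨c.comp ((nsmulAddMonoidHom p).codRestrict _ hmem), fun σ x => ?_, ?_⟩
  · refine hc σ ⟨_, hmem x⟩ ⟨_, hmem _⟩ ?_
    show pmodAct K σ (p • x) = p • pmodAct K σ x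
    rw [map_nsmul]
  · ext r
    show p • c r = c ⟨p • (r : Pmod (Module.Dual (ZMod p) M) K), _⟩
    rw [← map_nsmul]
    rfl

theorem mem_of_nsmul_mem (h : Setup p S M K) {c : RL M K →+ Cls S}
    (hc : c ∈ homR S K (dualRep M.ρ (cycloChar p))) {m : ℕ} (hm : ¬ p ∣ m)
    (hmc : m • c ∈ locHom S K (dualRep M.ρ (cycloChar p)) ⊔ resPHom S K (dualRep M.ρ (cycloChar p))) :
    c ∈ locHom S K (dualRep M.ρ (cycloChar p)) ⊔ resPHom S K (dualRep M.ρ (cycloChar p)) := by
  have hp : p.Prime := Fact.out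
  have hpc := AddSubgroup.mem_sup_right (S := locHom S K (dualRep M.ρ (cycloChar p)))
    (h.nsmul_mem_resPHom hc)
  have hbez := Nat.gcd_eq_gcd_ab p m
  rw [(Nat.Prime.coprime_iff_not_dvd hp).mpr hm] at hbez
  have : c = Nat.gcdA p m • (p • c) + Nat.gcdB p m • (m • c) := by
    conv_lhs => rw [← one_zsmul c, ← Nat.cast_one, hbez]
    rw [add_zsmul, mul_comm (p : ℤ), mul_comm (m : ℤ), mul_zsmul', mul_zsmul', natCast_zsmul,
      natCast_zsmul, smul_comm, smul_comm (m : ℕ)]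
  rw [this]
  exact add_mem (zsmul_mem hpc _) (zsmul_mem hmc _)

theorem val_zero_iff (h : Setup p S M K) {c : RL M K →+ Cls S}
    (hc : c ∈ homR S K (dualRep M.ρ (cycloChar p))) :
    h.Val c 0 ↔
      c ∈ locHom S K (dualRep M.ρ (cycloChar p)) ⊔ resPHom S K (dualRep M.ρ (cycloChar p)) := by
  constructor
  · rintro ⟨m, F, hr, hm, hξ⟩
    rw [smul_zero, continuousH2Sπ_eq_zero_iff] at hξ
    exact h.mem_of_nsmul_mem hc hm (zero_of_coboundary hr hξ)
  · intro hmem
    obtain ⟨a, ha, b, hb, rfl⟩ := AddSubgroup.mem_sup.mp hmem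
    obtain ⟨m, hm, hr⟩ := h.rel_zero_of_resPHom hb
    have h1 := ((h.rel_zero_of_locHom ha).nsmul m).add hr
    rw [smul_zero, add_zero, ← smul_add] at h1
    exact ⟨m, 0, h1, hm, by
      rw [smul_zero]
      exact map_zero (continuousH2Sπ S M)⟩

end Setup

open Setup in
/-- The description of `Ш²` in terms of classes. -/
theorem sha2_description_of (hlev : LevelRepresentatives S) (hH1 : LayerClassModule p S) :
    Sha2Description p S := by
  intro hp2 hpS M hfd L hL hχ hρ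
  have h : Setup p S M L := ⟨hpS, hL, fun s hs => ⟨hρ s hs, hχ s hs⟩, hfd⟩
  choose T hT using fun c : ↥(homR S L (dualRep M.ρ (cycloChar p))) => h.val_exists c.2
  let Tadd : ↥(homR S L (dualRep M.ρ (cycloChar p))) →+ ↥(sha₂ S M) :=
    AddMonoidHom.mk' (fun c => ⟨T c, (hT c).mem_sha₂ hp2⟩) fun c c' =>
      Subtype.ext ((hT (c + c')).eq ((hT c).add (hT c')))
  have hker : (locHom S L (dualRep M.ρ (cycloChar p)) ⊔
      resPHom S L (dualRep M.ρ (cycloChar p))).addSubgroupOf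
        (homR S L (dualRep M.ρ (cycloChar p))) = Tadd.ker := by
    ext c
    rw [AddSubgroup.mem_addSubgroupOf, AddMonoidHom.mem_ker, ← h.val_zero_iff c.2]
    exact ⟨fun hv => Subtype.ext ((hT c).eq hv), fun hTc => by
      have := hT c
      rwa [show T c = 0 from congrArg Subtype.val hTc] at this⟩
  have hsurj : Function.Surjective Tadd := by
    rintro ⟨ξ, hξ⟩
    obtain ⟨F, rfl⟩ := Submodule.Quotient.mk_surjective _ ξ
    obtain ⟨m, hm, c, hc, hr⟩ := h.exists_rel_of_mem_sha₂ hlev hH1 F hξ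
    have hv : h.Val c ((m : ZMod p) • continuousH2Sπ S M F) := by
      have hr1 : h.Rel (1 • c) (m • (F : GQ × GQ → M)) := by rw [one_smul]; exact hr
      refine ⟨1, m • (F : GQ × GQ → M), hr1, fun hd =>
        (Fact.out : p.Prime).one_lt.ne' (Nat.dvd_one.mp hd), ?_⟩
      rw [Nat.cast_one, one_smul, show (⟨m • (F : GQ × GQ → M), _⟩ : levelCocyclesS₂ S M) = m • F
        from rfl, map_nsmul, Nat.cast_smul_eq_nsmul]
    refine ⟨((m : ZMod p)⁻¹).val • ⟨c, hc⟩, ?_⟩
    rw [map_nsmul]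
    refine Subtype.ext ?_
    rw [Submodule.coe_smul_of_tower, show (Tadd ⟨c, hc⟩ : continuousH2S S M) = T ⟨c, hc⟩ from rfl,
      (hT ⟨c, hc⟩).eq hv, ← Nat.cast_smul_eq_nsmul (ZMod p), ZMod.natCast_zmod_val, smul_smul,
      inv_mul_cancel₀ (natCast_ne_zero hm), one_smul]
    rfl
  exact ⟨((QuotientAddGroup.quotientAddEquivOfEq hker).trans
    (QuotientAddGroup.quotientKerEquivOfSurjective Tadd hsurj)).symm⟩

end Fermat.Agent.PoitouTate

namespace Fermat.Agent.PoitouTate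

/-- The description of `Ш²`, given the class module property of the layers. -/
theorem sha2_description {p : ℕ} [Fact p.Prime] {S : Finset Nat.Primes}
    (hH1 : LayerClassModule p S) : Sha2Description p S := fun hp2 hpS =>
  sha2_description_of (levelRepresentatives ⟨_, hpS⟩) hH1 hp2 hpS

end Fermat.Agent.PoitouTate
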