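/-
The perfect pairing between `Ш¹` of the twisted dual and `Ш²` (S55).
-/
import Fermat.Agent.PoitouTate.Main
import Fermat.Agent.PoitouTate.MainSha1
import Fermat.Agent.PoitouTate.ClassFundamental
import Fermat.Agent.PoitouTate.ClassCyclotomic
import Fermat.Agent.PoitouTate.ClassExistence
import Fermat.Agent.PoitouTate.IdeleCyclic
import Fermat.Agent.PoitouTate.Sha2Main

set_option autoImplicit false

open CategoryTheory ExtCitation groupCohomology

noncomputable section

namespace Fermat.Agent.PoitouTate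

variable {p : ℕ} [Fact p.Prime]

/-- The layers are class modules. -/
theorem layerClassModule_of_odd (hp2 : p ≠ 2) {T : Finset Nat.Primes} (hpT : pPrime p ∈ T) :
    LayerClassModule p T :=
  layerClassModule (cyclicH1 p T hp2 hpT) (cyclicNormIndex p T hp2 hpT) fun a =>
    nonempty_cyclotomicInvariant_pow hp2 hpT a

/-- The pairing, given the local classes and the local parts. -/
theorem exists_sha_pairing (hp2 : p ≠ 2) (S : Finset Nat.Primes) (hpS : pPrime p ∈ S)
    (M : Rep (ZMod p) GQ) [FiniteDimensional (ZMod p) M]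
    (hsm : ∀ m : M, ∃ F : IntermediateField ℚ (AlgebraicClosure ℚ), FiniteDimensional ℚ F ∧
      ∀ s ∈ F.fixingSubgroup, M.ρ s m = m)
    (hMur : ∀ q : Nat.Primes, q ∉ S → ∀ A : ValuationSubring (AlgebraicClosure ℚ),
      A.LiesOverPrime (q : ℕ) → ∀ g ∈ A.inertiaSubgroupIn ℚ, M.ρ g = 1)
    (hloc : LocalClass p S) (hLP : LocalParts p S M) :
    ∃ B : sha₁ S (M.dualTwist (cycloChar p)) →ₗ[ZMod p] sha₂ S M →ₗ[ZMod p] ZMod p,
      (∀ y, (∀ x, B y x = 0) → y = 0) ∧ (∀ x, (∀ y, B y x = 0) → x = 0) := by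
  have hLC := layerClassModule_of_odd hp2 hpS
  obtain ⟨D₀⟩ := exists_base_layer (M := M) hpS hsm hMur
  obtain ⟨hX, hsha, hcard⟩ := card_sha₁_eq hLC (existenceTheorem hp2 hpS hLC) hloc hLP
    (sha1Bridge hp2) D₀
  obtain ⟨e⟩ := sha2_description hLC hp2 hpS M D₀.base D₀.isLvl_base
    (fun s hs => (D₀.triv s hs).1) (fun s hs => (D₀.triv s hs).2)
  have hfin₂ : Finite ↥(sha₂ S M) := Finite.of_equiv _ e.toEquiv.symm
  exact exists_perfect_pairing (hcard.trans (Nat.card_congr e.toEquiv).symm)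

end Fermat.Agent.PoitouTate
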