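import Fermat.Agent.PoitouTate.Defs
import Mathlib.Algebra.Category.Grp.Injective
import Mathlib.LinearAlgebra.Dual.Lemmas

/-!
# Functions on the index set of the free module

For a presentation `0 → R → P → W → 0` with `P` free on `(GQ ⧸ N) × W`, maps `P → A` are functions
on the index set. Those killing `R` are the maps `W → A`, identified with the dual module of `W`
when `A` has exactly `p` elements killed by `p`.
-/

set_option autoImplicit false

noncomputable section

namespace Fermat.Agent.PoitouTate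

local notation "Qb" => AlgebraicClosure ℚ

variable {p : ℕ} [Fact p.Prime] {V : Type} [AddCommGroup V] [Module (ZMod p) V]

/-- The twisted dual representation. -/
abbrev dualRep (ρ : Representation (ZMod p) GQ V) (χ : GQ →* (ZMod p)ˣ) :
    Representation (ZMod p) GQ (Module.Dual (ZMod p) V) :=
  ρ.dual.twist χ

theorem dualRep_apply (ρ : Representation (ZMod p) GQ V) (χ : GQ →* (ZMod p)ˣ) (σ : GQ)
    (w : Module.Dual (ZMod p) V) (v : V) :
    dualRep ρ χ σ w v = (χ σ : ZMod p) * w (ρ σ⁻¹ v) := rfl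

theorem dualRep_apply_rho (ρ : Representation (ZMod p) GQ V) (χ : GQ →* (ZMod p)ˣ) (σ : GQ)
    (w : Module.Dual (ZMod p) V) (v : V) :
    dualRep ρ χ σ w (ρ σ v) = (χ σ : ZMod p) * w v := by
  rw [dualRep_apply]
  congr 2
  show (ρ σ⁻¹ * ρ σ) v = v
  rw [← map_mul, inv_mul_cancel, map_one, Module.End.one_apply]

variable {ρ : Representation (ZMod p) GQ V} {χ : GQ →* (ZMod p)ˣ}
  {K : IntermediateField ℚ Qb}

/-- The index set of the free module. -/
abbrev Idx (W : Type) (K : IntermediateField ℚ Qb) : Type := (GQ ⧸ K.fixingSubgroup) × W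

/-- The action of `σ` on functions on the index set, through `a` on the values. -/
def idxAct {W A : Type} [AddCommGroup A] (a : A →+ A) (σ : GQ) :
    (Idx W K → A) →+ (Idx W K → A) where
  toFun φ x := a (φ (σ⁻¹ • x.1, x.2))
  map_zero' := funext fun _ => by simp
  map_add' _ _ := funext fun _ => by simp

@[simp] theorem idxAct_apply {W A : Type} [AddCommGroup A] (a : A →+ A) (σ : GQ)
    (φ : Idx W K → A) (x : Idx W K) : idxAct a σ φ x = a (φ (σ⁻¹ • x.1, x.2)) := rfl

theorem idxAct_comp {W A : Type} [AddCommGroup A] (a b : A →+ A) (σ τ : GQ) (φ : Idx W K → A) :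
    idxAct (a.comp b) (σ * τ) φ = idxAct a σ (idxAct b τ φ) := by
  funext x
  simp [mul_smul]

/-- The linear extension of a function on the index set to the free module. -/
def extP {W A : Type} [AddCommGroup A] : (Idx W K → A) →+ (Pmod W K →+ A) where
  toFun φ := Finsupp.liftAddHom fun x => zmultiplesHom A (φ x)
  map_zero' := Finsupp.addHom_ext fun x n => by simp
  map_add' φ ψ := Finsupp.addHom_ext fun x n => by simp

theorem extP_single {W A : Type} [AddCommGroup A] (φ : Idx W K → A) (x : Idx W K) (n : ℤ) :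
    extP φ (Finsupp.single x n) = n • φ x := by
  simp [extP]

theorem extP_comp_single {W A : Type} [AddCommGroup A] (h : Pmod W K →+ A) :
    extP (fun x => h (Finsupp.single x 1)) = h := by
  refine Finsupp.addHom_ext fun x n => ?_
  rw [extP_single, ← map_zsmul]
  simp

theorem extP_idxAct {W A : Type} [AddCommGroup W] [AddCommGroup A] (a : A →+ A) (σ : GQ) (φ : Idx W K → A) :
    extP (idxAct a σ φ) = a.comp ((extP φ).comp (pmodAct K σ⁻¹)) := by
  refine Finsupp.addHom_ext fun x n => ?_
  obtain ⟨c, w⟩ := x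
  rw [AddMonoidHom.comp_apply, AddMonoidHom.comp_apply]
  erw [pmodAct_single]
  rw [extP_single, extP_single, map_zsmul]
  rfl

variable (K ρ χ) in
/-- The triviality of the dual representation on the level. -/
def TrivialOn : Prop := ∀ s ∈ K.fixingSubgroup, ρ s = 1 ∧ χ s = 1

theorem TrivialOn.dualRep_eq_one (h : TrivialOn ρ χ K) {s : GQ} (hs : s ∈ K.fixingSubgroup) :
    dualRep ρ χ s = 1 := by
  ext w v
  rw [dualRep_apply, (h s hs).2, (h s⁻¹ (inv_mem hs)).1]
  simp

theorem TrivialOn.dualRep_out (h : TrivialOn ρ χ K) (σ : GQ) (w : Module.Dual (ZMod p) V) :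
    dualRep ρ χ (QuotientGroup.mk σ : GQ ⧸ K.fixingSubgroup).out w = dualRep ρ χ σ w := by
  obtain ⟨s, hs⟩ := QuotientGroup.mk_out_eq_mul K.fixingSubgroup σ
  rw [hs, map_mul, h.dualRep_eq_one s.2]
  rfl

theorem TrivialOn.dualRep_smul_out (h : TrivialOn ρ χ K) (σ : GQ) (c : GQ ⧸ K.fixingSubgroup)
    (w : Module.Dual (ZMod p) V) :
    dualRep ρ χ (σ • c).out w = dualRep ρ χ σ (dualRep ρ χ c.out w) := by
  conv_lhs => rw [← QuotientGroup.out_eq' c, MulAction.Quotient.smul_mk]
  rw [h.dualRep_out, smul_eq_mul, map_mul]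
  rfl

theorem pmodMap_pmodAct (h : TrivialOn ρ χ K) (σ : GQ) (r : Pmod (Module.Dual (ZMod p) V) K) :
    pmodMap K (dualRep ρ χ) (pmodAct K σ r) =
      dualRep ρ χ σ (pmodMap K (dualRep ρ χ) r) := by
  induction r using Finsupp.induction_linear with
  | zero => simp
  | add f g hf hg => simp [map_add, hf, hg]
  | single x n =>
    obtain ⟨c, w⟩ := x
    rw [pmodAct_single, pmodMap_single, pmodMap_single, map_zsmul]
    exact congrArg (n • ·) (h.dualRep_smul_out σ c w)

/-- The action on the relation lattice. -/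
def rAct (h : TrivialOn ρ χ K) (σ : GQ) :
    ↥(Rmod K (dualRep ρ χ)) →+ ↥(Rmod K (dualRep ρ χ)) :=
  ((pmodAct K σ).comp (Rmod K (dualRep ρ χ)).subtype).codRestrict _ fun r => by
    show pmodMap K (dualRep ρ χ) (pmodAct K σ _) = 0
    rw [pmodMap_pmodAct h,
      show pmodMap K (dualRep ρ χ) ((Rmod K (dualRep ρ χ)).subtype r) = 0 from r.2, map_zero]

@[simp] theorem coe_rAct (h : TrivialOn ρ χ K) (σ : GQ) (r : Rmod K (dualRep ρ χ)) :
    (rAct h σ r : Pmod (Module.Dual (ZMod p) V) K) = pmodAct K σ r := rfl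

theorem rAct_mul (h : TrivialOn ρ χ K) (σ τ : GQ) (r : Rmod K (dualRep ρ χ)) :
    rAct h (σ * τ) r = rAct h σ (rAct h τ r) :=
  Subtype.ext (pmodAct_mul K σ τ _)

theorem rAct_one (h : TrivialOn ρ χ K) (r : Rmod K (dualRep ρ χ)) : rAct h 1 r = r :=
  Subtype.ext (by simp [pmodAct_one])

theorem pmodAct_eq_self {W : Type} [AddCommGroup W] [K.fixingSubgroup.Normal] {s : GQ}
    (hs : s ∈ K.fixingSubgroup) (r : Pmod W K) : pmodAct K s r = r := by
  induction r using Finsupp.induction_linear with
  | zero => simp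
  | add f g hf hg => simp [map_add, hf, hg]
  | single x n =>
    obtain ⟨c, w⟩ := x
    rw [pmodAct_single]
    congr 2
    induction c using QuotientGroup.induction_on with
    | H g =>
      rw [MulAction.Quotient.smul_mk, QuotientGroup.eq, smul_eq_mul]
      simpa [mul_assoc] using
        (inferInstance : K.fixingSubgroup.Normal).conj_mem _ (inv_mem hs) g⁻¹

/-- Evaluation of a function on the index set on the relation lattice. -/
def evalR {A : Type} [AddCommGroup A] :
    (Idx (Module.Dual (ZMod p) V) K → A) →+ (↥(Rmod K (dualRep ρ χ)) →+ A) :=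
  (AddMonoidHom.compHom' (Rmod K (dualRep ρ χ)).subtype).comp extP

theorem evalR_apply {A : Type} [AddCommGroup A] (φ : Idx (Module.Dual (ZMod p) V) K → A)
    (r : Rmod K (dualRep ρ χ)) :
    evalR (ρ := ρ) (χ := χ) φ r = extP φ (r : Pmod (Module.Dual (ZMod p) V) K) := rfl

theorem evalR_idxAct {A : Type} [AddCommGroup A] (h : TrivialOn ρ χ K) (a : A →+ A) (σ : GQ)
    (φ : Idx (Module.Dual (ZMod p) V) K → A) (r : Rmod K (dualRep ρ χ)) :
    evalR (ρ := ρ) (χ := χ) (idxAct a σ φ) r =
      a (evalR (ρ := ρ) (χ := χ) φ (rAct h σ⁻¹ r)) := by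
  rw [evalR_apply, extP_idxAct]
  rfl

/-- Every map on the relation lattice into a divisible group extends to the free module. -/
theorem exists_evalR_eq {A : Type} [AddCommGroup A] [DivisibleBy A ℤ]
    (e : ↥(Rmod K (dualRep ρ χ)) →+ A) :
    ∃ φ : Idx (Module.Dual (ZMod p) V) K → A, evalR (ρ := ρ) (χ := χ) φ = e := by
  obtain ⟨h, hh⟩ := (Module.Baer.of_divisible A).extension_property_addMonoidHom
    (Rmod K (dualRep ρ χ)).subtype Subtype.val_injective e
  refine ⟨fun x => h (Finsupp.single x 1), ?_⟩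
  ext r
  rw [evalR_apply, extP_comp_single]
  exact DFunLike.congr_fun hh r

/-- `p` times a generator lies in the relation lattice. -/
theorem nsmul_single_mem (x : Idx (Module.Dual (ZMod p) V) K) :
    (p • Finsupp.single x (1 : ℤ) : Pmod (Module.Dual (ZMod p) V) K) ∈ Rmod K (dualRep ρ χ) := by
  show pmodMap K (dualRep ρ χ) _ = 0
  rw [map_nsmul, pmodMap_single, one_zsmul]
  exact ZModModule.char_nsmul_eq_zero p _

/-- `p` times a generator, as an element of the relation lattice. -/
def pSingle (x : Idx (Module.Dual (ZMod p) V) K) : Rmod K (dualRep ρ χ) :=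
  ⟨_, nsmul_single_mem x⟩

theorem evalR_pSingle {A : Type} [AddCommGroup A] (φ : Idx (Module.Dual (ZMod p) V) K → A)
    (x : Idx (Module.Dual (ZMod p) V) K) :
    evalR (ρ := ρ) (χ := χ) φ (pSingle x) = p • φ x := by
  rw [evalR_apply, show ((pSingle x : Rmod K (dualRep ρ χ)) : Pmod (Module.Dual (ZMod p) V) K) =
    p • Finsupp.single x (1 : ℤ) from rfl, map_nsmul, extP_single, one_zsmul]

/-! ### The functions killing the relations -/

/-- A generator of the elements killed by `p`. -/
structure TorsGen (p : ℕ) {A : Type} [AddCommGroup A] (hom : ZMod p →+ A) : Prop where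
  injective : Function.Injective hom
  surjective : ∀ a : A, p • a = 0 → ∃ k, hom k = a

variable (ρ χ) in
/-- The function attached to an element of `V`. -/
def iota {A : Type} [AddCommGroup A] (hom : ZMod p →+ A) :
    V →+ (Idx (Module.Dual (ZMod p) V) K → A) where
  toFun v x := hom (dualRep ρ χ x.1.out x.2 v)
  map_zero' := funext fun _ => by simp
  map_add' _ _ := funext fun _ => by simp

theorem iota_apply {A : Type} [AddCommGroup A] (hom : ZMod p →+ A) (v : V)
    (x : Idx (Module.Dual (ZMod p) V) K) :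
    iota ρ χ hom v x = hom (dualRep ρ χ x.1.out x.2 v) := rfl

theorem idxAct_iota {A : Type} [AddCommGroup A] {hom : ZMod p →+ A} (h : TrivialOn ρ χ K)
    {a : A →+ A} {σ : GQ} (ha : ∀ k, a (hom k) = hom ((χ σ : ZMod p) * k)) (v : V) :
    idxAct a σ (iota ρ χ (K := K) hom v) = iota ρ χ hom (ρ σ v) := by
  funext x
  obtain ⟨c, w⟩ := x
  rw [idxAct_apply, iota_apply, iota_apply, ha]
  refine congrArg hom ?_
  conv_rhs => rw [← smul_inv_smul σ c, h.dualRep_smul_out, dualRep_apply_rho]

theorem comp_iota {A B : Type} [AddCommGroup A] [AddCommGroup B] (hom : ZMod p →+ A) (j : A →+ B)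
    (v : V) (x : Idx (Module.Dual (ZMod p) V) K) :
    j (iota ρ χ hom v x) = iota ρ χ (j.comp hom) v x := rfl

theorem evalR_iota {A : Type} [AddCommGroup A] (hom : ZMod p →+ A) (v : V) :
    evalR (ρ := ρ) (χ := χ) (iota ρ χ (K := K) hom v) = 0 := by
  have key : extP (iota ρ χ (K := K) hom v) =
      (hom.comp (Module.Dual.eval (ZMod p) V v).toAddMonoidHom).comp
        (pmodMap K (dualRep ρ χ)) := by
    refine Finsupp.addHom_ext fun x n => ?_
    rw [extP_single, AddMonoidHom.comp_apply, pmodMap_single, map_zsmul]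
    rfl
  ext r
  rw [evalR_apply, key, AddMonoidHom.comp_apply,
    show pmodMap K (dualRep ρ χ) (r : Pmod (Module.Dual (ZMod p) V) K) = 0 from r.2, map_zero]
  rfl

theorem iota_injective {A : Type} [AddCommGroup A] {hom : ZMod p →+ A}
    (hhom : Function.Injective hom) (h : TrivialOn ρ χ K) :
    Function.Injective (iota ρ χ (K := K) hom) := by
  intro v v' hvv
  rw [← sub_eq_zero, ← Module.forall_dual_apply_eq_zero_iff (ZMod p)]
  intro w
  have h1 := hhom (congrFun hvv (QuotientGroup.mk 1, w))
  rw [h.dualRep_out, map_one, Module.End.one_apply] at h1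
  rw [map_sub, h1, sub_self]

/-- A function killing the relations comes from `V`. -/
theorem exists_iota_eq [FiniteDimensional (ZMod p) V] {A : Type} [AddCommGroup A]
    {hom : ZMod p →+ A} (hhom : TorsGen p hom) (h : TrivialOn ρ χ K)
    {φ : Idx (Module.Dual (ZMod p) V) K → A} (hφ : evalR (ρ := ρ) (χ := χ) φ = 0) :
    ∃ v, iota ρ χ hom v = φ := by
  have hz : ∀ r ∈ Rmod K (dualRep ρ χ), extP φ r = 0 := fun r hr =>
    DFunLike.congr_fun hφ ⟨r, hr⟩
  set e : GQ ⧸ K.fixingSubgroup := QuotientGroup.mk 1 with he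
  -- values only depend on the image in `W`
  have hval : ∀ (c : GQ ⧸ K.fixingSubgroup) w, φ (c, w) = φ (e, dualRep ρ χ c.out w) := by
    intro c w
    have h1 := hz (Finsupp.single (c, w) 1 - Finsupp.single (e, dualRep ρ χ c.out w) 1) (by
      show pmodMap K (dualRep ρ χ) _ = 0
      rw [map_sub, pmodMap_single, pmodMap_single, one_zsmul,
        one_zsmul, he, h.dualRep_out, map_one, Module.End.one_apply, sub_self])
    rwa [map_sub, extP_single, extP_single, one_zsmul, one_zsmul, sub_eq_zero] at h1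
  have hadd : ∀ w w', φ (e, w + w') = φ (e, w) + φ (e, w') := by
    intro w w'
    have h1 := hz (Finsupp.single (e, w + w') 1 - Finsupp.single (e, w) 1 -
      Finsupp.single (e, w') 1) (by
      show pmodMap K (dualRep ρ χ) _ = 0
      rw [map_sub, map_sub, pmodMap_single, pmodMap_single,
        pmodMap_single, one_zsmul, one_zsmul, one_zsmul, he, h.dualRep_out, h.dualRep_out,
        h.dualRep_out, map_one]
      simp [Module.End.one_apply])
    rw [map_sub, map_sub, extP_single, extP_single, extP_single, one_zsmul, one_zsmul, one_zsmul,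
      sub_sub, sub_eq_zero] at h1
    exact h1
  let ψ : Module.Dual (ZMod p) V →+ A := AddMonoidHom.mk' (fun w => φ (e, w)) hadd
  have hψ : ∀ w, ∃ k, hom k = ψ w := fun w =>
    hhom.surjective _ (by rw [← map_nsmul, ZModModule.char_nsmul_eq_zero p, map_zero])
  choose k hk using hψ
  let kl : Module.Dual (ZMod p) (Module.Dual (ZMod p) V) :=
    (AddMonoidHom.mk' k fun w w' => hhom.injective (by
      rw [map_add, hk, hk, hk, map_add])).toZModLinearMap p
  obtain ⟨v, hv⟩ := (Module.evalEquiv (ZMod p) V).surjective kl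
  refine ⟨v, funext fun x => ?_⟩
  obtain ⟨c, w⟩ := x
  rw [iota_apply, hval c w]
  have h2 : dualRep ρ χ c.out w v = k (dualRep ρ χ c.out w) :=
    DFunLike.congr_fun hv (dualRep ρ χ c.out w)
  rw [h2, hk]
  rfl

end Fermat.Agent.PoitouTate
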