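import Fermat.Agent.PoitouTate.Sha2Rel
import Fermat.Agent.PoitouTate.GlobalKrasner

/-!
# The image of the connecting relation is locally trivial
-/

set_option autoImplicit false

open CategoryTheory ExtCitation groupCohomology

noncomputable section

namespace Fermat.Agent.PoitouTate

local notation "Qb" => AlgebraicClosure ℚ

variable {p : ℕ} [Fact p.Prime] {S : Finset Nat.Primes} {M : Rep (ZMod p) GQ}
  {K : IntermediateField ℚ Qb}

/-- Being locally trivial, in cochains. -/
theorem mem_sha₂_iff (F : ↥(levelCocyclesS₂ S M)) :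
    continuousH2Sπ S M F ∈ sha₂ S M ↔ ∀ v : extArithIndex S,
      ∃ u : extArithLocalGroups S v → M, IsLevelConstant₁ (extArithLoc S v) u ∧
        ∀ a b, (F : GQ × GQ → M) (extArithLoc S v a, extArithLoc S v b) =
          M.ρ (extArithLoc S v a) (u b) - u (a * b) + u a := by
  have hcomp : ∀ v, locTotal₂S S M (continuousH2Sπ S M F) v =
      continuousH2π (extArithLoc S v) (Rep.res (extArithLoc S v) M)
        (levelCocycles₂Map (rH := MonoidHom.id _) (rG := extArithLoc S v) (extArithLoc S v)
          (fun _ => rfl) (LinearMap.id : M →ₗ[ZMod p] Rep.res (extArithLoc S v) M) (fun _ _ => rfl)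
          (levelCocyclesS₂ToLevelCocycles₂ S M F)) := fun v => rfl
  rw [sha₂, LinearMap.mem_ker, funext_iff]
  refine forall_congr' fun v => ?_
  rw [hcomp, Pi.zero_apply, continuousH2π_eq_zero_iff, mem_levelCoboundaries₂_iff]
  refine ⟨fun ⟨u, hu, he⟩ => ⟨u, hu, fun a b => ?_⟩, fun ⟨u, hu, he⟩ => ⟨u, hu, funext fun z => ?_⟩⟩
  · have := congrFun he (a, b)
    rw [d₁₂_hom_apply] at this
    exact this.symm
  · rw [d₁₂_hom_apply]
    exact (he z.1 z.2).symm

/-- Two-cocycles of a finite group, times its order, are coboundaries. -/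
theorem exists_coboundary_card_nsmul {G A : Type} [Group G] [Fintype G] [AddCommGroup A]
    (a : G → A →+ A) (F : G → G → A)
    (hF : ∀ x y z, a x (F y z) + F x (y * z) = F (x * y) z + F x y) :
    ∀ x y, Fintype.card G • F x y =
      a x (∑ c, F y c) - (∑ c, F (x * y) c) + ∑ c, F x c := by
  intro x y
  rw [map_sum, ← Equiv.sum_comp (Equiv.mulLeft y) (fun c => F x c), ← Finset.card_univ,
    ← Finset.sum_const, ← Finset.sum_sub_distrib, ← Finset.sum_add_distrib]
  refine Finset.sum_congr rfl fun c _ => ?_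
  rw [Equiv.coe_mulLeft, eq_sub_of_add_eq (hF x y c)]
  abel

namespace Setup

theorem local_inl (h : Setup p S M K) (hp2 : p ≠ 2) (F : ↥(levelCocyclesS₂ S M)) (v : Unit) :
    ∃ u : extArithLocalGroups S (Sum.inl v) → M, IsLevelConstant₁ (extArithLoc S (Sum.inl v)) u ∧
        ∀ a b, (F : GQ × GQ → M) (extArithLoc S (Sum.inl v) a, extArithLoc S (Sum.inl v) b) =
          M.ρ (extArithLoc S (Sum.inl v) a) (u b) - u (a * b) + u a := by
  classical
  have hfin : IsOfFinOrder complexConjugation :=
    isOfFinOrder_iff_pow_eq_one.mpr ⟨2, by norm_num, complexConjugation_sq⟩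
  haveI : Finite ↥archimedeanDecomposition := hfin.finite_zpowers.to_subtype
  haveI := Fintype.ofFinite ↥archimedeanDecomposition
  have hdvd : Fintype.card ↥archimedeanDecomposition ∣ 2 := by
    rw [← Nat.card_eq_fintype_card, archimedeanDecomposition, Nat.card_zpowers]
    exact orderOf_dvd_of_pow_eq_one complexConjugation_sq
  have hp : p.Prime := Fact.out
  have hne : (Fintype.card ↥archimedeanDecomposition : ZMod p) ≠ 0 := by
    rw [Ne, ZMod.natCast_eq_zero_iff]
    intro hpn
    exact hp2 ((Nat.prime_dvd_prime_iff_eq hp Nat.prime_two).mp (hpn.trans hdvd))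
  set n : ZMod p := (Fintype.card ↥archimedeanDecomposition : ZMod p)
  refine ⟨fun a => n⁻¹ • ∑ c : ↥archimedeanDecomposition,
    (F : GQ × GQ → M) ((a : ↥archimedeanDecomposition).1, (c : GQ)), ?_, fun a b => ?_⟩
  · obtain ⟨E, hE, hE'⟩ : ∃ E : IntermediateField ℚ Qb, FiniteDimensional ℚ E ∧
        ∀ s ∈ archimedeanDecomposition, s ∈ E.fixingSubgroup → s = 1 := by
      by_cases hc : complexConjugation = 1
      · exact ⟨⊥, inferInstance, fun s hs _ => by
          rwa [archimedeanDecomposition, hc, Subgroup.zpowers_one_eq_bot, Subgroup.mem_bot] at hs⟩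
      obtain ⟨x, hx⟩ : ∃ x, complexConjugation x ≠ x := by
        by_contra hall
        push Not at hall
        exact hc (AlgEquiv.ext hall)
      refine ⟨IntermediateField.adjoin ℚ {x},
        IntermediateField.adjoin.finiteDimensional (Algebra.IsIntegral.isIntegral x),
        fun s hs hfix => ?_⟩
      obtain ⟨k, rfl⟩ := Subgroup.mem_zpowers_iff.mp hs
      rw [IntermediateField.mem_fixingSubgroup_iff] at hfix
      have hk := hfix x (IntermediateField.mem_adjoin_simple_self ℚ x)
      rcases Int.even_or_odd k with ⟨j, rfl⟩ | ⟨j, rfl⟩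
      · rw [← two_mul, zpow_mul, zpow_ofNat, complexConjugation_sq, one_zpow]
      · rw [zpow_add, zpow_mul, zpow_ofNat, complexConjugation_sq, one_zpow, one_mul, zpow_one] at hk
        exact absurd hk hx
    refine ⟨E, hE, fun g s hs => ?_⟩
    have : s = 1 := Subtype.ext (hE' _ s.2 hs)
    rw [this, mul_one]
  · have hcoc := (mem_cocycles₂_iff (F : GQ × GQ → M)).mp F.2.1
    have key := exists_coboundary_card_nsmul (G := ↥archimedeanDecomposition)
      (fun x => (M.ρ (x : GQ)).toAddMonoidHom)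
      (fun x y => (F : GQ × GQ → M) ((x : GQ), (y : GQ)))
      (fun x y z => by
        show M.ρ (x : GQ) _ + _ = _
        exact (hcoc (x : GQ) y z).symm) a b
    rw [← Nat.cast_smul_eq_nsmul (ZMod p)] at key
    show (F : GQ × GQ → M) ((a : ↥archimedeanDecomposition).1, (b : ↥archimedeanDecomposition).1) = _
    simp only [map_smul]
    rw [← smul_sub, ← smul_add]
    refine Eq.trans ?_ (congrArg (n⁻¹ • ·) key)
    rw [smul_smul, inv_mul_cancel₀ hne, one_smul]

theorem local_inr {h : Setup p S M K} {c : RL M K →+ Cls S} {F : GQ × GQ → M}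
    (hr : h.Rel c F) (q : ↥S) :
    ∃ u : LocGal q.1 → M, IsLevelConstant₁ (G := LocGal q.1) (loc q.1) u ∧
        ∀ a b, F (loc q.1 a, loc q.1 b) = M.ρ (loc q.1 a) (u b) - u (a * b) + u a := by
  obtain ⟨Φ, g, -, -, hgU, ⟨L₀, hL₀, hg⟩, hprin, hF⟩ := hr
  let Z : RL M K →+ LocVal q.1 :=
    AddMonoidHom.mk' (fun r => (Φ r : Amb S).fin q 1) fun r r' => by rw [map_add]; rfl
  obtain ⟨z, hz⟩ := exists_evalR_eq Z
  let u' : LocGal q.1 → (XI M K → LocVal q.1) := fun a =>
    (fun x => embU q.1 (g (loc q.1 a) x)) - (idxAct (locAct q.1 a) (loc q.1 a) z - z)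
  have hextP : ∀ φ : XI M K → Qu, ∀ r : RL M K,
      evR (fun x => embU q.1 (φ x)) r = embU q.1 (evR φ r) := by
    intro φ r
    have : extP (fun x => embU q.1 (φ x)) = (embU q.1).comp (extP φ) :=
      Finsupp.addHom_ext fun x n => by simp [extP_single]
    exact DFunLike.congr_fun this _
  have hu' : ∀ a, evR (u' a) = (0 : RL M K →+ LocVal q.1) := by
    intro a
    ext r : 1
    simp only [u', map_sub, AddMonoidHom.sub_apply, evalR_idxAct h.triv, AddMonoidHom.zero_apply]
    rw [hextP, evR, hz]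
    have h1 := IsPrinU.fin_eq (hprin (loc q.1 a) r) q 1
    rw [one_smul, dPhi_apply, AddSubgroup.coe_sub, Amb.fin_sub, coe_smul_J, Amb.fin_smul, one_mul,
      ← mul_one (loc q.1 a), ((Φ _).2.1) q a 1, mul_one] at h1
    rw [← h1]
    exact sub_self _
  haveI := h.fd
  choose u hu using fun a => exists_iota_eq (torsGen_embU p q.1) h.triv (hu' a)
  have hinj := iota_injective (K := K) (hhom := (torsGen_embU p q.1).injective) h.triv
  haveI := h.finite_idx
  obtain ⟨E, hE, hEfix⟩ := exists_finite_fixes q.1 _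
    ((Set.finite_range z).image fun y => ((Additive.toMul y : (PadicAlgCl (q.1 : ℕ))ˣ) : PadicAlgCl (q.1 : ℕ)))
  have hact : ∀ (a : LocGal q.1) (φ : XI M K → Qu),
      idxAct (locAct q.1 a) (loc q.1 a) (fun x => embU q.1 (φ x)) =
        fun x => embU q.1 (idxAct (quAct (loc q.1 a)) (loc q.1 a) φ x) := by
    intro a φ
    funext x
    simp [locAct_embU, quAct_apply]
  have hmul : ∀ (a b : LocGal q.1) (φ : XI M K → LocVal q.1),
      idxAct (locAct q.1 (a * b)) (loc q.1 (a * b)) φ =
        idxAct (locAct q.1 a) (loc q.1 a) (idxAct (locAct q.1 b) (loc q.1 b) φ) := by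
    intro a b φ
    rw [← idxAct_comp, map_mul]
    congr 2
  refine ⟨u, ⟨(L₀ ⊔ K) ⊔ E, ?_, fun a s hs => hinj ?_⟩, fun a b => hinj ?_⟩
  · haveI := hL₀.1
    haveI := h.lvl.unramified.1
    haveI := hE
    infer_instance
  · have hsL := IntermediateField.fixingSubgroup_antitone
      ((le_sup_left : L₀ ≤ L₀ ⊔ K).trans le_sup_left) hs
    have hsK := IntermediateField.fixingSubgroup_antitone
      ((le_sup_right : K ≤ L₀ ⊔ K).trans le_sup_left) hs
    have hsE := IntermediateField.fixingSubgroup_antitone (le_sup_right : E ≤ (L₀ ⊔ K) ⊔ E) hs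
    rw [hu, hu]
    simp only [u', map_mul]
    rw [hg _ _ hsL, ← map_mul, hmul]
    suffices idxAct (locAct q.1 s) (loc q.1 s) z = z by rw [this]
    funext x
    obtain ⟨c', w⟩ := x
    rw [idxAct_apply]
    have hc : (loc q.1 s)⁻¹ • c' = c' := by
      induction c' using QuotientGroup.induction_on with
      | H g' =>
        rw [MulAction.Quotient.smul_mk, QuotientGroup.eq, smul_eq_mul]
        simpa [mul_assoc] using h.lvl.normal.conj_mem _ hsK g'⁻¹
    rw [hc]
    exact ext_locVal (hEfix s hsE _ ⟨_, ⟨(c', w), rfl⟩, rfl⟩)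
  · simp only [map_add, map_sub]
    rw [← idxAct_iota h.triv (a := locAct q.1 a) (hom := (embU q.1).comp (zHom p))
      (fun k => by rw [AddMonoidHom.comp_apply, locAct_embU, smul_zHom]; rfl), hu, hu, hu]
    have hFq : iota M.ρ (cycloChar p) (K := K) ((embU q.1).comp (zHom p))
        (F (loc q.1 a, loc q.1 b)) = fun x => embU q.1 (qd g (loc q.1 a) (loc q.1 b) x) := by
      funext x
      rw [← hF, ← comp_iota]
    rw [hFq]
    simp only [u', map_sub, hact, hmul]
    funext x
    simp only [Pi.add_apply, Pi.sub_apply, qd, map_add, map_sub, map_mul]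
    abel

/-- The image of the relation lies in `Ш²`. -/
theorem Rel.mem_sha₂ {h : Setup p S M K} (hp2 : p ≠ 2) {c : RL M K →+ Cls S} {F : GQ × GQ → M}
    (hr : h.Rel c F) :
    continuousH2Sπ S M ⟨F, hr.mem_levelCocycles⟩ ∈ sha₂ S M := by
  rw [mem_sha₂_iff]
  rintro (v | q)
  · exact h.local_inl hp2 ⟨F, hr.mem_levelCocycles⟩ v
  · exact local_inr hr q

end Setup

end Fermat.Agent.PoitouTate
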