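import Fermat.Agent.PoitouTate.Sha2Local
import Fermat.Agent.PoitouTate.Sha2Hilbert90

/-!
# Local primitives of a class of `Ш²`, induced to the absolute Galois group
-/

set_option autoImplicit false

open CategoryTheory ExtCitation groupCohomology

noncomputable section

namespace Fermat.Agent.PoitouTate

local notation "Qb" => AlgebraicClosure ℚ

variable {p : ℕ} [Fact p.Prime] {S : Finset Nat.Primes} {M : Rep (ZMod p) GQ}
  {K : IntermediateField ℚ Qb}

/-- The local embedding of `M`. -/
abbrev iotaQ (M : Rep (ZMod p) GQ) (K : IntermediateField ℚ Qb) (q : Nat.Primes) :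
    M →+ (XI M K → LocVal q) :=
  iota M.ρ (cycloChar p) ((embU q).comp (zHom p))

/-- The local action on functions on the index set. -/
abbrev locIdxAct {q : Nat.Primes} (t : LocGal q) : (XI M K → LocVal q) →+ (XI M K → LocVal q) :=
  idxAct (locAct q t) (loc q t)

theorem locIdxAct_mul {q : Nat.Primes} (a b : LocGal q) (φ : XI M K → LocVal q) :
    locIdxAct (a * b) φ = locIdxAct a (locIdxAct b φ) := by
  unfold locIdxAct
  rw [← idxAct_comp, map_mul]
  congr 2

theorem locIdxAct_iotaQ (h : TrivialOn M.ρ (cycloChar p) K) {q : Nat.Primes} (a : LocGal q)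
    (m : M) : locIdxAct a (iotaQ M K q m) = iotaQ M K q (M.ρ (loc q a) m) :=
  idxAct_iota h (fun k => by
    rw [AddMonoidHom.comp_apply, locAct_embU, smul_zHom]; rfl) m

/-- A local automorphism as a ring automorphism. -/
def locRingAut (q : Nat.Primes) :
    LocGal q →* (PadicAlgCl (q : ℕ) ≃+* PadicAlgCl (q : ℕ)) :=
  MonoidHom.mk' (fun τ => (τ : PadicAlgCl (q : ℕ) ≃+* PadicAlgCl (q : ℕ))) fun _ _ => rfl

theorem finite_quotient_comap {q : Nat.Primes} (U : Subgroup (LocGal q))
    (E : IntermediateField ℚ Qb) [FiniteDimensional ℚ E] :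
    Finite (U ⧸ (E.fixingSubgroup.comap (loc q)).subgroupOf U) := by
  haveI : Finite (GQ ⧸ E.fixingSubgroup) :=
    Subgroup.quotient_finite_of_isOpen _ (IntermediateField.fixingSubgroup_isOpen E)
  refine Finite.of_injective
    (Quotient.map' (s₁ := QuotientGroup.leftRel ((E.fixingSubgroup.comap (loc q)).subgroupOf U))
      (s₂ := QuotientGroup.leftRel E.fixingSubgroup) (fun u : U => loc q (u : LocGal q))
      fun a b hab => ?_) fun x y hxy => ?_
  · rw [QuotientGroup.leftRel_apply] at hab ⊢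
    rw [Subgroup.mem_subgroupOf, Subgroup.mem_comap] at hab
    simpa using hab
  · induction x using Quotient.inductionOn'
    induction y using Quotient.inductionOn'
    simp only [Quotient.map'_mk''] at hxy
    rw [Quotient.eq'', QuotientGroup.leftRel_apply] at hxy ⊢
    rw [Subgroup.mem_subgroupOf, Subgroup.mem_comap]
    simpa using hxy

/-- The induced local primitive at a prime of `S` of a two-cocycle of level `L`. -/
structure LocalPrim (M : Rep (ZMod p) GQ) (K : IntermediateField ℚ Qb) (q : Nat.Primes)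
    (L : IntermediateField ℚ Qb) (f : GQ × GQ → M) where
  /-- The primitive `B σ g`. -/
  B : GQ → GQ → (XI M K → LocVal q)
  /-- Its primitive on the relations, `V g`. -/
  V : GQ → (RL M K →+ LocVal q)
  B_left : ∀ (σ : GQ) (t : LocGal q) (g : GQ), B σ (loc q t * g) = locIdxAct t (B σ g)
  B_level : ∀ (σ g : GQ), ∀ s ∈ L.fixingSubgroup, B σ (g * s) = B σ g ∧ B (σ * s) g = B σ g
  B_cobdry : ∀ σ τ g : GQ,
    B τ (g * σ) - B (σ * τ) g + B σ g = iotaQ M K q (M.ρ g (f (σ, τ)))
  V_left : ∀ (t : LocGal q) (g : GQ) (r r' : RL M K),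
    pmodAct K (loc q t) (r : Pmod (Module.Dual (ZMod p) M) K) = r' →
      V (loc q t * g) r' = locAct q t (V g r)
  V_level : ∀ (g : GQ), ∀ s ∈ L.fixingSubgroup, V (g * s) = V g
  B_eval : ∀ σ g : GQ, evR (B σ g) = V g - V (g * σ)

/-- Local primitives exist. -/
theorem Setup.exists_localPrim (h : Setup p S M K) {L : IntermediateField ℚ Qb} (hL : IsLvl S L)
    (hKL : K ≤ L) {f : GQ × GQ → M} (hf : f ∈ cocycles₂ M)
    (hfL : ∀ g g' s s', s ∈ L.fixingSubgroup → s' ∈ L.fixingSubgroup → f (g * s, g' * s') = f (g, g'))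
    (q : Nat.Primes) {u : LocGal q → M} (hu : IsLevelConstant₁ (G := LocGal q) (loc q) u)
    (hfu : ∀ a b, f (loc q a, loc q b) = M.ρ (loc q a) (u b) - u (a * b) + u a) :
    Nonempty (LocalPrim M K q L f) := by
  classical
  obtain ⟨F₀, hF₀, hu⟩ := hu
  have hcoc := (mem_cocycles₂_iff f).mp hf
  haveI := hL.unramified.1
  haveI := hL.normal
  haveI := h.lvl.normal
  haveI : FiniteDimensional ℚ F₀ := hF₀
  have hfL1 : ∀ g g' s, s ∈ L.fixingSubgroup → f (g * s, g') = f (g, g') := fun g g' s hs => by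
    simpa using hfL g g' s 1 hs (one_mem _)
  have hfL2 : ∀ g g' s, s ∈ L.fixingSubgroup → f (g, g' * s) = f (g, g') := fun g g' s hs => by
    simpa using hfL g g' 1 s (one_mem _) hs
  have hsplit : ∀ g s g', s ∈ L.fixingSubgroup → f (g, s * g') = f (g, g') := fun g s g' hs => by
    rw [show s * g' = g' * (g'⁻¹ * s * g') by group,
      hfL2 _ _ _ (by simpa using hL.normal.conj_mem s hs g'⁻¹)]
  set UL : Subgroup (LocGal q) := L.fixingSubgroup.comap (loc q) with hUL
  have hKfix : ∀ {s : GQ}, s ∈ L.fixingSubgroup → s ∈ K.fixingSubgroup :=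
    fun hs => IntermediateField.fixingSubgroup_antitone hKL hs
  have hρ1 : ∀ s ∈ UL, M.ρ (loc q s) = 1 := fun s hs => (h.triv _ (hKfix hs)).1
  have hidx : ∀ s ∈ UL, ∀ c : GQ ⧸ K.fixingSubgroup, (loc q s)⁻¹ • c = c := by
    intro s hs c
    induction c using QuotientGroup.induction_on with
    | H g₀ =>
      rw [MulAction.Quotient.smul_mk, QuotientGroup.eq, smul_eq_mul]
      simpa [mul_assoc] using h.lvl.normal.conj_mem _ (hKfix hs) g₀⁻¹
  have hactU : ∀ s ∈ UL, ∀ (φ : XI M K → LocVal q) x, locIdxAct s φ x = locAct q s (φ x) := by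
    intro s hs φ x
    rw [idxAct_apply, hidx s hs]
  have hv : ∀ a b, iotaQ M K q (f (loc q a, loc q b)) =
      locIdxAct a (iotaQ M K q (u b)) - iotaQ M K q (u (a * b)) + iotaQ M K q (u a) := fun a b => by
    rw [locIdxAct_iotaQ h.triv, ← map_sub, ← map_add, hfu]
  set f1 : XI M K → LocVal q := iotaQ M K q (f (1, 1)) with hf1
  have hfU : ∀ s ∈ UL, ∀ t ∈ UL, f (loc q s, loc q t) = f (1, 1) := fun s hs t ht => by
    simpa using hfL 1 1 _ _ hs ht
  -- Hilbert 90 on `UL`
  let N : Subgroup UL := ((F₀ ⊔ L).fixingSubgroup.comap (loc q)).subgroupOf UL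
  haveI : Finite (UL ⧸ N) := finite_quotient_comap UL (F₀ ⊔ L)
  have hy : ∀ x : XI M K, ∃ y : LocVal q, ∀ s : UL,
      iotaQ M K q (u s) x - f1 x = locAct q s y - y := by
    intro x
    let c : UL → PadicAlgCl (q : ℕ) := fun s =>
      ((Additive.toMul (iotaQ M K q (u s) x - f1 x) : (PadicAlgCl (q : ℕ))ˣ) : PadicAlgCl (q : ℕ))
    obtain ⟨b, hb0, hb⟩ := exists_hilbert90 ((locRingAut q).comp UL.subtype) N
      ((padicEmbedding (q : ℕ) : Qb →* PadicAlgCl (q : ℕ)).comp ((F₀ ⊔ L).val : ↥(F₀ ⊔ L) →* Qb))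
      (fun s hs z => by
        show (s : LocGal q) (padicEmbedding (q : ℕ) (z : Qb)) = padicEmbedding (q : ℕ) (z : Qb)
        rw [← padicEmbedding_loc]
        exact congrArg _ ((IntermediateField.mem_fixingSubgroup_iff _ _).mp hs z z.2))
      (fun σ τ hh => by
        rw [Subgroup.mem_subgroupOf, Subgroup.mem_comap, IntermediateField.mem_fixingSubgroup_iff]
        intro z hz
        apply (padicEmbedding (q : ℕ)).toRingHom.injective
        show padicEmbedding (q : ℕ) (loc q ((σ⁻¹ * τ : UL) : LocGal q) z) = padicEmbedding (q : ℕ) z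
        rw [padicEmbedding_loc, Subgroup.coe_mul, Subgroup.coe_inv, AlgEquiv.mul_apply,
          AlgEquiv.aut_inv]
        exact (AlgEquiv.symm_apply_eq (σ : LocGal q)).mpr (hh ⟨z, hz⟩).symm)
      c (fun s => Units.ne_zero _)
      (fun σ τ => by
        have h1 := congrFun (hv (σ : LocGal q) (τ : LocGal q)) x
        rw [hfU _ σ.2 _ τ.2, ← hf1, Pi.add_apply, Pi.sub_apply, hactU _ σ.2] at h1
        have h2 : locAct q (σ : LocGal q) (f1 x) = f1 x := by
          rw [← hactU _ σ.2, hf1, locIdxAct_iotaQ h.triv, hρ1 _ σ.2]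
          rfl
        have key : iotaQ M K q (u ((σ * τ : UL) : LocGal q)) x - f1 x =
            locAct q (σ : LocGal q) (iotaQ M K q (u τ) x - f1 x) +
              (iotaQ M K q (u σ) x - f1 x) := by
          rw [map_sub, h2, Subgroup.coe_mul]
          linear_combination (norm := abel) h1
        simp only [c, key, toMul_add, Units.val_mul, coe_locAct]
        rfl)
      (fun σ s hs => by
        simp only [c, Subgroup.coe_mul]
        rw [hu _ _ (IntermediateField.fixingSubgroup_antitone le_sup_left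
          (Subgroup.mem_comap.mp (Subgroup.mem_subgroupOf.mp hs)))])
    refine ⟨Additive.ofMul (Units.mk0 b hb0), fun s => ext_locVal ?_⟩
    refine (hb s).trans ?_
    rw [toMul_sub, Units.val_div_eq_div_val, coe_locAct]
    rfl
  choose y hy using hy
  let u1 : LocGal q → (XI M K → LocVal q) := fun a =>
    iotaQ M K q (u a) - (locIdxAct a y - y)
  have hu1d : ∀ a b, iotaQ M K q (f (loc q a, loc q b)) =
      locIdxAct a (u1 b) - u1 (a * b) + u1 a := by
    intro a b
    rw [hv]
    simp only [u1, map_sub, locIdxAct_mul]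
    abel
  have hu1U : ∀ s ∈ UL, u1 s = f1 := by
    intro s hs
    funext x
    simp only [u1, Pi.sub_apply, hactU s hs, ← hy x ⟨s, hs⟩]
    abel
  have hf_right : ∀ g, f (g, 1) = M.ρ g (f (1, 1)) := fun g => by
    have := hcoc g 1 1
    simp only [mul_one, add_left_inj] at this
    exact this
  have hu1r : ∀ a, ∀ s ∈ UL, u1 (a * s) = u1 a := by
    intro a s hs
    have h1 := hu1d a s
    rw [hu1U s hs, show f (loc q a, loc q s) = f (loc q a, 1) by
      simpa using hfL2 (loc q a) 1 _ hs, hf_right, ← locIdxAct_iotaQ h.triv, ← hf1] at h1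
    linear_combination (norm := abel) h1
  have hu1l : ∀ a, ∀ s ∈ UL, locIdxAct s (u1 a) = u1 a := by
    intro a s hs
    have h1 := hu1d s a
    rw [hu1U s hs, show f (loc q s, loc q a) = f (1, loc q a) by
      simpa using hfL1 1 (loc q a) _ hs] at h1
    have h2 : f (1, loc q a) = f (1, 1) := by
      have := hcoc 1 1 (loc q a)
      simp only [one_mul, map_one, Module.End.one_apply] at this
      linear_combination (norm := abel) -this
    have h3 : s * a = a * (a⁻¹ * s * a) := by group
    rw [h2, ← hf1, h3, hu1r a (a⁻¹ * s * a) (by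
      show loc q _ ∈ L.fixingSubgroup
      simpa using hL.normal.conj_mem _ (Subgroup.mem_comap.mp hs) (loc q a)⁻¹)] at h1
    linear_combination (norm := abel) -h1
  -- decomposition of an element
  let D : Subgroup GQ := (loc q).range ⊔ L.fixingSubgroup
  let rep : GQ → GQ := fun g => (Quotient.mk (QuotientGroup.rightRel D) g).out
  have hrep_mem : ∀ g, g * (rep g)⁻¹ ∈ D := fun g => by
    have h1 : (QuotientGroup.rightRel D).r (rep g) g := Quotient.exact (Quotient.out_eq _)
    exact QuotientGroup.rightRel_apply.mp h1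
  have hrep_eq : ∀ g, ∀ d ∈ D, rep (d * g) = rep g := fun g d hd => by
    simp only [rep]
    congr 1
    apply Quotient.sound
    show (QuotientGroup.rightRel D).r _ _
    rw [QuotientGroup.rightRel_apply, mul_inv_rev, mul_inv_cancel_left]
    exact inv_mem hd
  have hex : ∀ g, ∃ t : LocGal q, ∃ s ∈ L.fixingSubgroup, g = loc q t * s * rep g := fun g => by
    obtain ⟨_, ⟨t, rfl⟩, s, hs, hts⟩ := Subgroup.mem_sup_of_normal_right.mp (hrep_mem g)
    exact ⟨t, s, hs, by rw [hts, inv_mul_cancel_right]⟩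
  choose η sη hsη hη using hex
  -- `η` is well defined modulo `UL`
  have hη_uniq : ∀ g t, ∀ s ∈ L.fixingSubgroup, g = loc q t * s * rep g → (η g)⁻¹ * t ∈ UL := by
    intro g t s hs hg
    have h1 : loc q (η g) * sη g = loc q t * s := mul_right_cancel ((hη g).symm.trans hg)
    show loc q _ ∈ L.fixingSubgroup
    rw [map_mul, map_inv,
      show (loc q (η g))⁻¹ * loc q t = sη g * s⁻¹ by
        rw [eq_mul_inv_iff_mul_eq, mul_assoc, ← h1, inv_mul_cancel_left]]
    exact mul_mem (hsη g) (inv_mem hs)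
  have hfη : ∀ g t, ∀ s ∈ L.fixingSubgroup, g = loc q t * s * rep g →
      u1 (η g) = u1 t ∧ f (loc q (η g), rep g) = f (loc q t, rep g) ∧
        locIdxAct (η g) y = locIdxAct t (locIdxAct ((η g)⁻¹ * t)⁻¹ y) := by
    intro g t s hs hg
    have hk := hη_uniq g t s hs hg
    refine ⟨?_, ?_, ?_⟩
    · conv_rhs => rw [show t = η g * ((η g)⁻¹ * t) by group, hu1r _ _ hk]
    · conv_rhs => rw [show t = η g * ((η g)⁻¹ * t) by group, map_mul,
        hfL1 _ _ _ (Subgroup.mem_comap.mp hk)]
    · rw [← locIdxAct_mul]; congr 2; group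
  have hevy : ∀ s ∈ UL, evR (locIdxAct s y) = (evR y : RL M K →+ LocVal q) := by
    intro s hs
    have h1 := congrArg evR (hu1U s hs)
    simp only [u1, map_sub, hf1, iotaQ, evR, evalR_iota, zero_sub, neg_eq_zero, sub_eq_zero] at h1
    exact h1
  let w : GQ → (XI M K → LocVal q) := fun g =>
    u1 (η g) - iotaQ M K q (f (loc q (η g), rep g))
  let V : GQ → (RL M K →+ LocVal q) := fun g => evR (locIdxAct (η g) y)
  have hdecomp_right : ∀ g s, s ∈ L.fixingSubgroup →
      rep (g * s) = rep g ∧ ∃ s' ∈ L.fixingSubgroup, g * s = loc q (η g) * s' * rep (g * s) := by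
    intro g s hs
    have hr : rep (g * s) = rep g := by
      rw [show g * s = (g * s * g⁻¹) * g by group]
      exact hrep_eq g _ (le_sup_right (a := (loc q).range) (hL.normal.conj_mem s hs g))
    refine ⟨hr, sη g * (rep g * s * (rep g)⁻¹), mul_mem (hsη g) (hL.normal.conj_mem s hs _), ?_⟩
    rw [hr]
    conv_lhs => rw [hη g]
    group
  have hevact : ∀ (k : LocGal q) (φ : XI M K → LocVal q) (r : RL M K),
      evR (locIdxAct k φ) r = locAct q k (evR φ (rAct h.triv (loc q k)⁻¹ r)) := fun k φ r => by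
    rw [evR, evalR_idxAct h.triv]
  have hVw : ∀ g t s, s ∈ L.fixingSubgroup → g = loc q t * s * rep g →
      V g = evR (locIdxAct t y) := by
    intro g t s hs hg
    obtain ⟨-, -, h3⟩ := hfη g t s hs hg
    ext r : 1
    simp only [V]
    rw [h3, hevact, hevy _ (inv_mem (hη_uniq g t s hs hg)), hevact]
  have hwlevel : ∀ g s, s ∈ L.fixingSubgroup → w (g * s) = w g ∧ V (g * s) = V g := by
    intro g s hs
    obtain ⟨hr, s', hs', hg⟩ := hdecomp_right g s hs
    obtain ⟨h1, h2, -⟩ := hfη _ _ _ hs' hg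
    exact ⟨by simp only [w]; rw [h1, h2, hr], hVw _ _ _ hs' hg⟩
  have hleft : ∀ t g, rep (loc q t * g) = rep g ∧
      loc q t * g = loc q (t * η g) * sη g * rep (loc q t * g) := by
    intro t g
    have hr : rep (loc q t * g) = rep g := hrep_eq g _ (le_sup_left (b := L.fixingSubgroup) ⟨t, rfl⟩)
    refine ⟨hr, ?_⟩
    rw [hr, map_mul, mul_assoc, mul_assoc]
    conv_lhs => rw [hη g, mul_assoc]
  have hwleft : ∀ t g, w (loc q t * g) =
      locIdxAct t (w g) - iotaQ M K q (f (loc q t, g)) + u1 t := by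
    intro t g
    obtain ⟨hr, hg⟩ := hleft t g
    obtain ⟨h1, h2, -⟩ := hfη _ _ _ (hsη g) hg
    simp only [w]
    rw [h1, h2, hr]
    have h4 : M.ρ (loc q t) (f (loc q (η g), rep g)) =
        f (loc q t * loc q (η g), rep g) + f (loc q t, loc q (η g)) -
          f (loc q t, loc q (η g) * rep g) := by
      rw [eq_sub_iff_add_eq]
      exact (hcoc (loc q t) (loc q (η g)) (rep g)).symm
    have h5 : f (loc q t, g) = f (loc q t, loc q (η g) * rep g) := by
      conv_lhs => rw [hη g, show loc q (η g) * sη g * rep g =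
        loc q (η g) * rep g * ((rep g)⁻¹ * sη g * rep g) by group]
      rw [hfL2 _ _ _ (by simpa using hL.normal.conj_mem _ (hsη g) (rep g)⁻¹)]
    simp only [map_sub, locIdxAct_iotaQ h.triv, h4, h5, map_add, map_mul, hu1d]
    abel
  refine ⟨⟨fun σ g => iotaQ M K q (f (g, σ)) + w (g * σ) - w g, V, ?_, ?_, ?_, ?_, ?_, ?_⟩⟩
  · intro σ t g
    have h6 : M.ρ (loc q t) (f (g, σ)) =
        f (loc q t * g, σ) + f (loc q t, g) - f (loc q t, g * σ) := by
      rw [eq_sub_iff_add_eq]; exact (hcoc (loc q t) g σ).symm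
    rw [mul_assoc, hwleft, hwleft]
    simp only [map_sub, map_add, locIdxAct_iotaQ h.triv, h6]
    abel
  · intro σ g s hs
    constructor
    · rw [hfL1 _ _ _ hs, show g * s * σ = g * σ * (σ⁻¹ * s * σ) by group,
        (hwlevel (g * σ) _ (by simpa using hL.normal.conj_mem s hs σ⁻¹)).1, (hwlevel g s hs).1]
    · rw [hfL2 _ _ _ hs, ← mul_assoc, (hwlevel (g * σ) s hs).1]
  · intro σ τ g
    rw [show M.ρ g (f (σ, τ)) = f (g * σ, τ) + f (g, σ) - f (g, σ * τ) by
        rw [eq_sub_iff_add_eq]; exact (hcoc g σ τ).symm, map_sub, map_add, mul_assoc]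
    abel
  · intro t g r r' hrr
    obtain ⟨hr, hg⟩ := hleft t g
    rw [hVw _ _ _ (hsη g) hg]
    simp only [V]
    rw [hevact, hevact, map_mul, mul_inv_rev, rAct_mul,
      show rAct h.triv (loc q t)⁻¹ r' = r from Subtype.ext (by
        rw [coe_rAct, ← hrr, ← pmodAct_mul, inv_mul_cancel, pmodAct_one]; rfl)]
    exact ext_locVal (by simp only [coe_locAct, AlgEquiv.mul_apply])
  · exact fun g s hs => (hwlevel g s hs).2
  · intro σ g
    have hw : ∀ g', evR (w g') = evR y - V g' := by
      intro g'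
      simp only [w, u1, V, map_sub, iotaQ, evR, evalR_iota]
      abel
    rw [map_sub, map_add, hw, hw, iotaQ, evR, evalR_iota]
    abel

end Fermat.Agent.PoitouTate
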